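import Fermat.Agent.S14.helper134_ThaineGalois

/-!
# Thaine relation, part 2: Hilbert 90 for the unit `ζ_p - ζ_q`

`K = ℚ(ζ_p)`, `M = K(ζ_q)`, `q ≡ 1 mod p`.  There are a generator `T` of `Gal(M/K)` (acting on
`𝓞 M`), `T ζ_q = ζ_q ^ g`, an element `ε ≠ 0` of `𝓞 M` with `(ζ_p - ζ_q) * T ε = ε`, and
`b ∈ 𝓞 K` with `b 𝓞_M = (ε 𝓞_M)^(q-1)`.
-/

namespace Fermat.Agent.S14.helper134

open NumberField Polynomial

section h90

variable {p q : ℕ} [hp : Fact p.Prime] [hq : Fact q.Prime]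
variable {K : Type} [Field K] [NumberField K] [hK : IsCyclotomicExtension {p} ℚ K]
variable {M : Type} [Field M] [NumberField M] [Algebra K M] [hM : IsCyclotomicExtension {q} K M]

include hK hM in
theorem exists_hilbert90 (hpq : p ∣ q - 1) {ζp : 𝓞 K} (hζp : IsPrimitiveRoot ζp p) {ζq : 𝓞 M}
    (hζq : IsPrimitiveRoot ζq q) :
    ∃ (T : 𝓞 M ≃ₐ[𝓞 K] 𝓞 M) (g : ℕ) (ε : 𝓞 M), g.Coprime q ∧ T ζq = ζq ^ g ∧ ε ≠ 0 ∧
      (algebraMap (𝓞 K) (𝓞 M) ζp - ζq) * T ε = ε ∧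
      (∀ σ : 𝓞 M ≃ₐ[𝓞 K] 𝓞 M, σ ∈ Subgroup.zpowers T) ∧
      IsUnit (algebraMap (𝓞 K) (𝓞 M) ζp - ζq) := by
  have hne : p ≠ q := by
    rintro rfl
    have h1 := Nat.le_of_dvd (by have := hp.out.two_le; omega) hpq
    have := hp.out.two_le
    omega
  have : IsGalois K M := IsCyclotomicExtension.isGalois {q} K M
  have : FiniteDimensional K M := IsCyclotomicExtension.finiteDimensional {q} K M
  have hζp' : IsPrimitiveRoot (ζp : K) p :=
    hζp.map_of_injective (FaithfulSMul.algebraMap_injective (𝓞 K) K)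
  have hζq' : IsPrimitiveRoot (ζq : M) q :=
    hζq.map_of_injective (FaithfulSMul.algebraMap_injective (𝓞 M) M)
  obtain ⟨τ, g, hτ, hτg, hg⟩ := exists_generator (p := p) (K := K) hne hζq'
  have hcyc : IsCyclic (M ≃ₐ[K] M) := ⟨τ, hτ⟩
  have hnorm := norm_sub_eq_one (K := K) (M := M) hpq hζp' hζq'
  have hη : Algebra.norm K (algebraMap (𝓞 M) M (algebraMap (𝓞 K) (𝓞 M) ζp - ζq)) = 1 := by
    rw [map_sub, ← IsScalarTower.algebraMap_apply, IsScalarTower.algebraMap_apply (𝓞 K) K M]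
    exact hnorm
  obtain ⟨ε, hε0, hε⟩ := groupCohomology.exists_mul_galRestrict_of_norm_eq_one
    (A := 𝓞 K) (B := 𝓞 M) (K := K) (L := M) hτ hη
  refine ⟨galRestrict (𝓞 K) K M (𝓞 M) τ, g, ε, hg, ?_, hε0, hε, ?_, ?_⟩
  · apply FaithfulSMul.algebraMap_injective (𝓞 M) M
    rw [algebraMap_galRestrict_apply, map_pow]
    exact hτg
  · intro σ
    obtain ⟨k, hk⟩ := Subgroup.mem_zpowers_iff.mp (hτ ((galRestrict (𝓞 K) K M (𝓞 M)).symm σ))
    refine Subgroup.mem_zpowers_iff.mpr ⟨k, ?_⟩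
    rw [← map_zpow, hk, MulEquiv.apply_symm_apply]
  · rw [← RingOfIntegers.isUnit_norm_of_isGalois K]
    have h1 : RingOfIntegers.norm K (algebraMap (𝓞 K) (𝓞 M) ζp - ζq) = 1 := by
      apply RingOfIntegers.coe_injective
      exact ((RingOfIntegers.coe_norm K _).trans hη).trans (map_one _).symm
    rw [h1]
    exact isUnit_one

include hK hM in
/-- The Thaine element: `b ∈ 𝓞 K` with `b 𝓞_M = (ε 𝓞_M)^(q-1)` where `(ζ_p - ζ_q) * T ε = ε`. -/
theorem exists_thaine_element (hpq : p ∣ q - 1) {ζp : 𝓞 K} (hζp : IsPrimitiveRoot ζp p)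
    {ζq : 𝓞 M} (hζq : IsPrimitiveRoot ζq q) :
    ∃ (T : 𝓞 M ≃ₐ[𝓞 K] 𝓞 M) (g : ℕ) (ε : 𝓞 M) (b : 𝓞 K), g.Coprime q ∧ T ζq = ζq ^ g ∧ ε ≠ 0 ∧
      (algebraMap (𝓞 K) (𝓞 M) ζp - ζq) * T ε = ε ∧ b ≠ 0 ∧
      Ideal.span {algebraMap (𝓞 K) (𝓞 M) b} = Ideal.span {ε} ^ (q - 1) := by
  have hne : p ≠ q := by
    rintro rfl
    have h1 := Nat.le_of_dvd (by have := hp.out.two_le; omega) hpq
    have := hp.out.two_le
    omega
  have : IsGalois K M := IsCyclotomicExtension.isGalois {q} K M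
  have : FiniteDimensional K M := IsCyclotomicExtension.finiteDimensional {q} K M
  obtain ⟨T, g, ε, hg, hTg, hε0, hε, hgen, hunit⟩ := exists_hilbert90 (K := K) (M := M) hpq hζp hζq
  let H : Subgroup (𝓞 M ≃ₐ[𝓞 K] 𝓞 M) :=
    { carrier := {σ | Associated (σ ε) ε}
      one_mem' := Associated.refl _
      mul_mem' := fun {a b} ha hb => by
        show Associated ((a * b) ε) ε
        rw [AlgEquiv.mul_apply]
        exact (hb.map a).trans ha
      inv_mem' := fun {a} ha => by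
        show Associated (a⁻¹ ε) ε
        have h1 : Associated (a⁻¹ (a ε)) (a⁻¹ ε) := Associated.map a⁻¹ ha
        have h2 : a⁻¹ (a ε) = ε := by
          rw [AlgEquiv.aut_inv, AlgEquiv.symm_apply_apply]
        rw [h2] at h1
        exact h1.symm }
  have hT : T ∈ H := by
    show Associated (T ε) ε
    exact ⟨hunit.unit, by rw [IsUnit.unit_spec, mul_comm]; exact hε⟩
  have hall : ∀ σ : 𝓞 M ≃ₐ[𝓞 K] 𝓞 M, Associated (σ ε) ε := fun σ =>
    (Subgroup.zpowers_le.mpr hT) (hgen σ)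
  obtain ⟨b, hprod⟩ : ∃ b : 𝓞 K, (∏ σ : M ≃ₐ[K] M, galRestrict (𝓞 K) K M (𝓞 M) σ ε) =
      algebraMap (𝓞 K) (𝓞 M) b := ⟨_, prod_galRestrict_eq_norm (𝓞 K) K M (B := 𝓞 M) ε⟩
  refine ⟨T, g, ε, b, hg, hTg, hε0, hε, ?_, ?_⟩
  · intro hb
    rw [hb, map_zero] at hprod
    rw [Finset.prod_eq_zero_iff] at hprod
    obtain ⟨σ, -, hσ⟩ := hprod
    exact hε0 ((map_eq_zero_iff _ (AlgEquiv.injective _)).mp hσ)
  · rw [← hprod, ← Ideal.prod_span_singleton]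
    have h1 : ∀ σ ∈ (Finset.univ : Finset (M ≃ₐ[K] M)),
        Ideal.span {galRestrict (𝓞 K) K M (𝓞 M) σ ε} = Ideal.span {ε} := fun σ _ =>
      Ideal.span_singleton_eq_span_singleton.mpr (hall _)
    rw [Finset.prod_congr rfl h1, Finset.prod_const, Finset.card_univ, ← Nat.card_eq_fintype_card,
      IsGalois.card_aut_eq_finrank, finrank_eq_sub_one (p := p) K M hne]

end h90

end Fermat.Agent.S14.helper134
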