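import Fermat.Agent.S14.helper134_ThaineRam

/-!
# Thaine relation, part 4: local analysis at the primes above `q`

`K = ℚ(ζ_p)`, `M = K(ζ_q)`, `𝔏` a prime of `𝓞 M` above `q`.
* `q 𝓞_M = (ζ_q - 1)^(q-1)`, and `ζ_q - 1 ∈ 𝔏 \ 𝔏²`;
* every `T ∈ Gal(M/K)` acts trivially on `𝓞 M / 𝔏` and preserves the powers of `𝔏`;
* the congruence `η * g^n ≡ 1 mod 𝔏` for `η * T ε = ε`, `ε ∈ 𝔏^n \ 𝔏^(n+1)`, `T ϖ ≡ g ϖ`.
-/

namespace Fermat.Agent.S14.helper134

open NumberField Polynomial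

section general

variable {B : Type*} [CommRing B] [IsDedekindDomain B]

/-- A uniformizer power is an exact power. -/
theorem pow_not_mem_pow_succ (L : Ideal B) [hLp : L.IsPrime] (hL : L ≠ ⊥) {ϖ : B} (h1 : ϖ ∈ L)
    (h2 : ϖ ∉ L ^ 2) (n : ℕ) : ϖ ^ n ∉ L ^ (n + 1) := by
  have hLprime : Prime L := Ideal.prime_of_isPrime hL hLp
  have e1 : emultiplicity L (Ideal.span {ϖ}) = ((1 : ℕ) : ℕ∞) := by
    rw [emultiplicity_eq_coe, Ideal.dvd_iff_le, Ideal.dvd_iff_le, Ideal.span_singleton_le_iff_mem,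
      Ideal.span_singleton_le_iff_mem, pow_one]
    exact ⟨h1, h2⟩
  have e2 : emultiplicity L (Ideal.span {ϖ ^ n}) = (n : ℕ∞) := by
    rw [← Ideal.span_singleton_pow, emultiplicity_pow hLprime, e1]
    simp
  have := (emultiplicity_eq_coe.mp e2).2
  rwa [Ideal.dvd_iff_le, Ideal.span_singleton_le_iff_mem] at this

/-- The key congruence: if `T` is a ring automorphism acting trivially modulo `L`, `T ϖ = ϖ * s`
with `s ≡ g mod L` for a uniformizer `ϖ`, and `η * T ε = ε` with `ε ∈ L^n \ L^(n+1)`, then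
`η * g^n ≡ 1 mod L`. -/
theorem mul_pow_sub_one_mem (L : Ideal B) [hLp : L.IsPrime] (hL : L ≠ ⊥) {ϖ : B} (h1 : ϖ ∈ L)
    (h2 : ϖ ∉ L ^ 2) (T : B ≃+* B) (hT : ∀ y, T y - y ∈ L) {g s : B} (hTϖ : T ϖ = ϖ * s)
    (hs : s - g ∈ L) {η ε : B} {n : ℕ} (hn : ε ∈ L ^ n) (hn' : ε ∉ L ^ (n + 1))
    (hη : η * T ε = ε) : η * g ^ n - 1 ∈ L := by
  have hTpow : ∀ (k : ℕ) (x : B), x ∈ L ^ k → T x ∈ L ^ k := by
    intro k x hx
    have hle : L ≤ L.comap T := by
      intro y hy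
      rw [Ideal.mem_comap]
      have := L.add_mem (hT y) hy
      rwa [sub_add_cancel] at this
    have h3 : L ^ k ≤ (L ^ k).comap T := (Ideal.pow_right_mono hle k).trans (Ideal.le_comap_pow T k)
    exact h3 hx
  obtain ⟨d, e, he, hde⟩ := Ideal.exists_mul_add_mem_pow_succ hL (ϖ ^ n) ε (Ideal.pow_mem_pow h1 n)
    (pow_not_mem_pow_succ L hL h1 h2 n) hn
  have hsn : s ^ n - g ^ n ∈ L := by
    obtain ⟨c, hc⟩ := sub_dvd_pow_sub_pow s g n
    rw [hc]
    exact L.mul_mem_right _ hs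
  have hmem1 : s ^ n * T d - g ^ n * d ∈ L := by
    have : s ^ n * T d - g ^ n * d = s ^ n * (T d - d) + (s ^ n - g ^ n) * d := by ring
    rw [this]
    exact L.add_mem (L.mul_mem_left _ (hT d)) (L.mul_mem_right _ hsn)
  have hmem2 : ϖ ^ n * (s ^ n * T d - g ^ n * d) ∈ L ^ (n + 1) := by
    rw [pow_succ]
    exact Ideal.mul_mem_mul (Ideal.pow_mem_pow h1 n) hmem1
  have hmem3 : T e - g ^ n * e ∈ L ^ (n + 1) :=
    (L ^ (n + 1)).sub_mem (hTpow _ _ he) ((L ^ (n + 1)).mul_mem_left _ he)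
  have hTε : T ε - g ^ n * ε ∈ L ^ (n + 1) := by
    have : T ε - g ^ n * ε = ϖ ^ n * (s ^ n * T d - g ^ n * d) + (T e - g ^ n * e) := by
      rw [← hde, map_add, map_mul, map_pow, hTϖ]
      ring
    rw [this]
    exact (L ^ (n + 1)).add_mem hmem2 hmem3
  have hfin : (1 - η * g ^ n) * ε ∈ L ^ (n + 1) := by
    have : (1 - η * g ^ n) * ε = η * (T ε - g ^ n * ε) := by
      calc (1 - η * g ^ n) * ε = ε - η * (g ^ n * ε) := by ring
        _ = η * T ε - η * (g ^ n * ε) := by rw [hη]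
        _ = η * (T ε - g ^ n * ε) := by ring
    rw [this]
    exact (L ^ (n + 1)).mul_mem_left _ hTε
  rcases Ideal.IsPrime.mul_mem_pow L hfin with h | h
  · have := L.neg_mem h
    rwa [neg_sub] at this
  · exact absurd h hn'

end general

section cyclo

variable {p q : ℕ} [hp : Fact p.Prime] [hq : Fact q.Prime]
variable {K : Type} [Field K] [NumberField K] [hK : IsCyclotomicExtension {p} ℚ K]
variable {M : Type} [Field M] [NumberField M] [Algebra K M] [hM : IsCyclotomicExtension {q} K M]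

omit [NumberField M] in
/-- `q 𝓞_M = (ζ_q - 1)^(q-1) 𝓞_M`. -/
theorem span_natCast_eq_pow {ζq : 𝓞 M} (hζq : IsPrimitiveRoot ζq q) :
    Ideal.span {(q : 𝓞 M)} = Ideal.span {ζq - 1} ^ (q - 1) := by
  have hq1 : q - 1 + 1 = q := Nat.sub_add_cancel hq.out.pos
  have hζq' : IsPrimitiveRoot ζq (q - 1 + 1) := by rw [hq1]; exact hζq
  have hprod := hζq'.prod_one_sub_pow_eq_order
  have hcast : ((q - 1 : ℕ) : 𝓞 M) + 1 = (q : 𝓞 M) := by
    rw [← Nat.cast_succ, Nat.succ_eq_add_one, hq1]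
  rw [hcast] at hprod
  rw [← hprod, ← Ideal.prod_span_singleton]
  have h1 : ∀ k ∈ Finset.range (q - 1),
      Ideal.span {1 - ζq ^ (k + 1)} = Ideal.span {ζq - 1} := by
    intro k hk
    rw [Finset.mem_range] at hk
    have hcop : (k + 1).Coprime q :=
      Nat.Coprime.symm ((Nat.Prime.coprime_iff_not_dvd hq.out).mpr
        (Nat.not_dvd_of_pos_of_lt (Nat.succ_pos k) (by omega)))
    have hassoc := hζq.associated_sub_one_pow_sub_one_of_coprime hcop
    rw [← neg_sub, Ideal.span_singleton_neg]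
    exact (Ideal.span_singleton_eq_span_singleton.mpr hassoc).symm
  rw [Finset.prod_congr rfl h1, Finset.prod_const, Finset.card_range]

include hK hM in
/-- `ζ_q - 1` is a uniformizer at every prime of `M` above `q`. -/
theorem zeta_sub_one_mem_and_not_mem_sq (hpq : p ≠ q) {ζq : 𝓞 M} (hζq : IsPrimitiveRoot ζq q)
    (L : Ideal (𝓞 M)) [L.IsPrime] (hL : L ≠ ⊥) (hqL : (q : 𝓞 M) ∈ L) :
    ζq - 1 ∈ L ∧ ζq - 1 ∉ L ^ 2 := by
  obtain ⟨ℓ, hℓ, hLℓ⟩ := exists_prime_under L hL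
  have hℓq : ℓ = q := (natCast_mem_iff_of_under L hℓ hLℓ).mp hqL
  subst hℓq
  have hPp : (Ideal.span {(ℓ : ℤ)}).IsPrime :=
    (Ideal.span_singleton_prime (by exact_mod_cast hℓ.ne_zero)).mpr (Nat.prime_iff_prime_int.mp hℓ)
  have hP0 : Ideal.span {(ℓ : ℤ)} ≠ ⊥ := by
    rw [Ne, Ideal.span_singleton_eq_bot]
    exact_mod_cast hℓ.ne_zero
  have hlo : L.LiesOver (Ideal.span {(ℓ : ℤ)}) := ⟨hLℓ.symm⟩
  have hn : (ℓ : ℤ) ∈ Ideal.span {(ℓ : ℤ)} ^ 1 := by
    rw [pow_one]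
    exact Ideal.mem_span_singleton_self _
  have hn' : (ℓ : ℤ) ∉ Ideal.span {(ℓ : ℤ)} ^ (1 + 1) := by
    rw [Ideal.span_singleton_pow, Ideal.mem_span_singleton]
    intro h
    have h2 : ((ℓ ^ 2 : ℕ) : ℤ) ∣ ((ℓ : ℕ) : ℤ) := by simpa using h
    have h3 := Nat.le_of_dvd hℓ.pos (Int.natCast_dvd_natCast.mp h2)
    nlinarith [hℓ.two_le]
  have hε : ζq - 1 ≠ 0 := by
    rw [sub_ne_zero]
    exact hζq.ne_one hℓ.one_lt
  have hspan : Ideal.span {algebraMap ℤ (𝓞 M) (ℓ : ℤ)} = Ideal.span {ζq - 1} ^ (ℓ - 1) := by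
    rw [← span_natCast_eq_pow hζq]
    simp
  obtain ⟨m, hm1, hm2, hm3⟩ := exists_mul_eq_of_span_eq_pow (Ideal.span {(ℓ : ℤ)}) hP0 L hL hn hn'
    hε hspan
  rw [Ideal.ramificationIdx'_eq_ramificationIdx (Ideal.span {(ℓ : ℤ)}) L hP0,
    ramificationIdx_int_eq_sub_one_of_mem (p := p) (K := K) hpq L hL hqL, mul_one] at hm3
  have hpos : 0 < ℓ - 1 := by have := hℓ.two_le; omega
  have hm : m = 1 := by
    have : (ℓ - 1) * 1 = (ℓ - 1) * m := by rw [mul_one]; exact hm3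
    exact (Nat.eq_of_mul_eq_mul_left hpos this).symm
  subst hm
  exact ⟨by simpa using hm1, hm2⟩

include hK hM in
/-- Every element of `Gal(M/K)` acts trivially on `𝓞 M` modulo a prime containing `ζ_q - 1`. -/
theorem galois_sub_mem (hpq : p ≠ q) {ζp : 𝓞 K} (hζp : IsPrimitiveRoot ζp p) {ζq : 𝓞 M}
    (hζq : IsPrimitiveRoot ζq q) (L : Ideal (𝓞 M)) (hζL : ζq - 1 ∈ L) (T : 𝓞 M ≃ₐ[𝓞 K] 𝓞 M)
    {g : ℕ} (hT : T ζq = ζq ^ g) (y : 𝓞 M) : T y - y ∈ L := by
  have hcyc := isCyclotomicExtension_mul (p := p) (q := q) K M hpq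
  have : NeZero (p * q) := ⟨mul_ne_zero hp.out.ne_zero hq.out.ne_zero⟩
  have hζp' : IsPrimitiveRoot (algebraMap (𝓞 K) (𝓞 M) ζp) p :=
    hζp.map_of_injective (FaithfulSMul.algebraMap_injective (𝓞 K) (𝓞 M))
  have hprim : IsPrimitiveRoot (algebraMap (𝓞 K) (𝓞 M) ζp * ζq) (p * q) := by
    have hcop : Nat.Coprime (orderOf (algebraMap (𝓞 K) (𝓞 M) ζp)) (orderOf ζq) := by
      rw [← hζp'.eq_orderOf, ← hζq.eq_orderOf]
      exact (Nat.coprime_primes hp.out hq.out).mpr hpq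
    have := (Commute.all (algebraMap (𝓞 K) (𝓞 M) ζp) ζq).orderOf_mul_eq_mul_orderOf_of_coprime hcop
    rw [← hζp'.eq_orderOf, ← hζq.eq_orderOf] at this
    rw [← this]
    exact IsPrimitiveRoot.orderOf _
  have hprim' : IsPrimitiveRoot ((algebraMap (𝓞 K) (𝓞 M) ζp * ζq : 𝓞 M) : M) (p * q) :=
    hprim.map_of_injective (FaithfulSMul.algebraMap_injective (𝓞 M) M)
  have htop := IsCyclotomicExtension.Rat.adjoin_singleton_eq_top hprim'
  have hgen : hprim'.toInteger = algebraMap (𝓞 K) (𝓞 M) ζp * ζq := by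
    apply RingOfIntegers.ext
    rfl
  rw [hgen] at htop
  have hζqg : ζq ^ g - ζq ∈ L := by
    have h1 : ζq ^ g - 1 ∈ L := by
      rw [← geom_sum_mul]
      exact L.mul_mem_left _ hζL
    have : ζq ^ g - ζq = (ζq ^ g - 1) - (ζq - 1) := by ring
    rw [this]
    exact L.sub_mem h1 hζL
  have hy : y ∈ Algebra.adjoin ℤ {algebraMap (𝓞 K) (𝓞 M) ζp * ζq} := by
    rw [htop]
    trivial
  induction hy using Algebra.adjoin_induction with
  | mem x hx =>
    rw [Set.mem_singleton_iff] at hx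
    subst hx
    rw [map_mul, AlgEquiv.commutes, hT, ← mul_sub]
    exact L.mul_mem_left _ hζqg
  | algebraMap r =>
    rw [eq_intCast, map_intCast, sub_self]
    exact L.zero_mem
  | add x y _ _ hx hy =>
    have : T (x + y) - (x + y) = (T x - x) + (T y - y) := by rw [map_add]; ring
    rw [this]
    exact L.add_mem hx hy
  | mul x y _ _ hx hy =>
    have : T (x * y) - x * y = T x * (T y - y) + (T x - x) * y := by rw [map_mul]; ring
    rw [this]
    exact L.add_mem (L.mul_mem_left _ hy) (L.mul_mem_right _ hx)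

end cyclo

end Fermat.Agent.S14.helper134
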