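import Fermat.Agent.S14.helper134_ThaineStmt
import Fermat.Agent.S14.helper134_ThaineH90
import Fermat.Agent.S14.helper134_ThaineLocal

/-!
# Thaine relation: the core theorem

`thaineCore : Stmt_ThaineCore p` for every prime `p`.
-/

namespace Fermat.Agent.S14.helper134

open NumberField Polynomial

section core

variable {p q : ℕ} [hp : Fact p.Prime] [hq : Fact q.Prime]
variable {K : Type} [Field K] [NumberField K] [hK : IsCyclotomicExtension {p} ℚ K]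
variable {M : Type} [Field M] [NumberField M] [Algebra K M] [hM : IsCyclotomicExtension {q} K M]

include hK hM in
theorem thaine_aux (hpq : p ∣ q - 1) {ζ : 𝓞 K} (hζ : IsPrimitiveRoot ζ p) {ζq : 𝓞 M}
    (hζq : IsPrimitiveRoot ζq q) :
    ∃ (g : ℕ) (b : 𝓞 K), g.Coprime q ∧ b ≠ 0 ∧
      (∀ 𝔯 : Ideal (𝓞 K), 𝔯.IsPrime → (q : 𝓞 K) ∉ 𝔯 →
        ∀ n : ℕ, b ∈ 𝔯 ^ n → b ∉ 𝔯 ^ (n + 1) → (q - 1) ∣ n) ∧
      (∀ 𝔔 : Ideal (𝓞 K), 𝔔.IsPrime → (q : 𝓞 K) ∈ 𝔔 →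
        ∀ n : ℕ, b ∈ 𝔔 ^ n → b ∉ 𝔔 ^ (n + 1) → (ζ - 1) * (g : 𝓞 K) ^ n - 1 ∈ 𝔔) := by
  have hne : p ≠ q := by
    rintro rfl
    have h1 := Nat.le_of_dvd (by have := hp.out.two_le; omega) hpq
    have := hp.out.two_le
    omega
  have hq1 : 0 < q - 1 := by have := hq.out.two_le; omega
  obtain ⟨T, g, ε, b, hg, hTg, hε0, hε, hb0, hspan⟩ :=
    exists_thaine_element (K := K) (M := M) hpq hζ hζq
  refine ⟨g, b, hg, hb0, ?_, ?_⟩
  · intro 𝔯 h𝔯 hq𝔯 n hn hn'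
    by_cases h0 : 𝔯 = ⊥
    · have hn0 : n = 0 := by
        by_contra hne0
        rw [h0, Ideal.bot_pow hne0, Ideal.mem_bot] at hn
        exact hb0 hn
      rw [hn0]
      exact dvd_zero _
    · have hmax : 𝔯.IsMaximal := h𝔯.isMaximal h0
      obtain ⟨R, hRmax, hRlo⟩ := Ideal.exists_maximal_ideal_liesOver_of_isIntegral 𝔯 (S := 𝓞 M)
      have hRp : R.IsPrime := hRmax.isPrime
      have hR0 : R ≠ ⊥ := Ideal.ne_bot_of_liesOver_of_ne_bot h0 R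
      have hqR : (q : 𝓞 M) ∉ R := by
        intro h
        apply hq𝔯
        rw [hRlo.over, Ideal.under_def, Ideal.mem_comap, map_natCast]
        exact h
      obtain ⟨m, -, -, hm⟩ := exists_mul_eq_of_span_eq_pow 𝔯 h0 R hR0 hn hn' hε0 hspan
      have hRu : R.under (𝓞 K) = 𝔯 := hRlo.over.symm
      rw [Ideal.ramificationIdx'_eq_ramificationIdx 𝔯 R h0,
        ramificationIdx_eq_one_of_not_mem (p := p) (K := K) hne R hR0 hqR, one_mul] at hm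
      exact ⟨m, hm⟩
  · intro 𝔔 h𝔔 hq𝔔 n hn hn'
    have h0 : 𝔔 ≠ ⊥ := by
      rintro rfl
      rw [Ideal.mem_bot] at hq𝔔
      exact hq.out.ne_zero (by exact_mod_cast hq𝔔)
    have hmax : 𝔔.IsMaximal := h𝔔.isMaximal h0
    obtain ⟨L, hLmax, hLlo⟩ := Ideal.exists_maximal_ideal_liesOver_of_isIntegral 𝔔 (S := 𝓞 M)
    have hLp : L.IsPrime := hLmax.isPrime
    have hL0 : L ≠ ⊥ := Ideal.ne_bot_of_liesOver_of_ne_bot h0 L
    have hqL : (q : 𝓞 M) ∈ L := by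
      have : (q : 𝓞 K) ∈ L.under (𝓞 K) := by rw [← hLlo.over]; exact hq𝔔
      rw [Ideal.under_def, Ideal.mem_comap, map_natCast] at this
      exact this
    obtain ⟨m, hm1, hm2, hm⟩ := exists_mul_eq_of_span_eq_pow 𝔔 h0 L hL0 hn hn' hε0 hspan
    rw [Ideal.ramificationIdx'_eq_ramificationIdx 𝔔 L h0,
      ramificationIdx_eq_sub_one_of_mem (p := p) (K := K) hne L hL0 hqL] at hm
    have hmn : n = m := Nat.eq_of_mul_eq_mul_left hq1 hm
    subst hmn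
    obtain ⟨hϖ1, hϖ2⟩ := zeta_sub_one_mem_and_not_mem_sq (p := p) (K := K) hne hζq L hL0 hqL
    have hTtriv : ∀ y, T y - y ∈ L := galois_sub_mem hne hζ hζq L hϖ1 T hTg
    have hTϖ : (T : 𝓞 M ≃+* 𝓞 M) (ζq - 1) = (ζq - 1) * ∑ i ∈ Finset.range g, ζq ^ i := by
      rw [mul_comm, geom_sum_mul]
      show T (ζq - 1) = ζq ^ g - 1
      rw [map_sub, map_one, hTg]
    have hs : (∑ i ∈ Finset.range g, ζq ^ i) - ((g : ℕ) : 𝓞 M) ∈ L := by
      have : (∑ i ∈ Finset.range g, ζq ^ i) - ((g : ℕ) : 𝓞 M) =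
          ∑ i ∈ Finset.range g, (ζq ^ i - 1) := by
        rw [Finset.sum_sub_distrib]
        simp
      rw [this]
      refine L.sum_mem (fun i _ => ?_)
      rw [← geom_sum_mul]
      exact L.mul_mem_left _ hϖ1
    have key := mul_pow_sub_one_mem L hL0 hϖ1 hϖ2 (T : 𝓞 M ≃+* 𝓞 M) hTtriv hTϖ hs hm1 hm2 hε
    -- replace `ζ - ζq` by `ζ - 1`
    have key2 : algebraMap (𝓞 K) (𝓞 M) ((ζ - 1) * (g : 𝓞 K) ^ n - 1) ∈ L := by
      have : algebraMap (𝓞 K) (𝓞 M) ((ζ - 1) * (g : 𝓞 K) ^ n - 1) =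
          ((algebraMap (𝓞 K) (𝓞 M) ζ - ζq) * ((g : ℕ) : 𝓞 M) ^ n - 1) +
            (ζq - 1) * ((g : ℕ) : 𝓞 M) ^ n := by
        simp only [map_sub, map_mul, map_pow, map_one, map_natCast]
        ring
      rw [this]
      exact L.add_mem key (L.mul_mem_right _ hϖ1)
    rw [hLlo.over, Ideal.under_def, Ideal.mem_comap]
    exact key2

end core

/-- **Thaine relation** (core form). -/
theorem thaineCore (p : ℕ) [hp : Fact p.Prime] : Stmt_ThaineCore p := by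
  intro K _ _ _ ζ hζ q hq hpq
  have : Fact q.Prime := ⟨hq⟩
  have : NeZero q := ⟨hq.ne_zero⟩
  let M := CyclotomicField q K
  have hζq : IsPrimitiveRoot (IsCyclotomicExtension.zeta_spec q K M).toInteger q :=
    (IsCyclotomicExtension.zeta_spec q K M).toInteger_isPrimitiveRoot
  obtain ⟨g, b, hg, hb0, h1, h2⟩ := thaine_aux (K := K) (M := M) hpq hζ hζq
  -- an inverse of `g` modulo `q`
  obtain ⟨g', -, hg'⟩ := Nat.exists_mul_mod_eq_one_of_coprime hg hq.one_lt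
  have hnat : g * g' = q * (g * g' / q) + 1 := by
    have := Nat.div_add_mod (g * g') q
    rw [hg'] at this
    exact this.symm
  refine ⟨(g' : ℤ), b, hb0, h1, ?_⟩
  intro 𝔔 h𝔔 hq𝔔 n hn hn'
  have key := h2 𝔔 h𝔔 hq𝔔 n hn hn'
  have hgg : ((g : 𝓞 K) * (g' : 𝓞 K)) - 1 ∈ 𝔔 := by
    have : ((g : 𝓞 K) * (g' : 𝓞 K)) - 1 = (q : 𝓞 K) * ((g * g' / q : ℕ) : 𝓞 K) := by
      have := congrArg (Nat.cast : ℕ → 𝓞 K) hnat
      push_cast at this
      rw [this]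
      ring
    rw [this]
    exact 𝔔.mul_mem_right _ hq𝔔
  have hggn : ((g : 𝓞 K) * (g' : 𝓞 K)) ^ n - 1 ∈ 𝔔 := by
    obtain ⟨d, hd⟩ := sub_dvd_pow_sub_pow ((g : 𝓞 K) * (g' : 𝓞 K)) 1 n
    rw [one_pow] at hd
    rw [hd]
    exact 𝔔.mul_mem_right _ hgg
  have : ζ - 1 - ((g' : ℤ) : 𝓞 K) ^ n =
      (g' : 𝓞 K) ^ n * ((ζ - 1) * (g : 𝓞 K) ^ n - 1) -
        (ζ - 1) * (((g : 𝓞 K) * (g' : 𝓞 K)) ^ n - 1) := by
    push_cast
    ring
  rw [this]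
  exact 𝔔.sub_mem (𝔔.mul_mem_left _ key) (𝔔.mul_mem_left _ hggn)

end Fermat.Agent.S14.helper134
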