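import Mathlib

/-!
# Thaine relation: interface statement (core form)

`K = ℚ(ζ_p)`, `q ≡ 1 mod p` a prime.  There are `g : ℤ` and `b ∈ 𝓞 K`, `b ≠ 0`, such that
* at every prime `𝔯` of `𝓞 K` not containing `q`, the exact power of `𝔯` dividing `b` is a
  multiple of `q - 1` (hence of `p`);
* at every prime `𝔔` of `𝓞 K` containing `q`, with `n` the exact power of `𝔔` dividing `b`:
  `ζ - 1 ≡ g ^ n mod 𝔔`.

(Proof: `M = K(ζ_q)`, the unit `ζ - ζ_q` has relative norm `Φ_q(ζ) = 1`; Hilbert 90 gives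
`ε` with `(ζ - ζ_q) * τ ε = ε`; `b = N_{M/K} ε`.)

Consequence (character form): if `χ` is a character of the class group with
`χ(σ_a c) = χ(c)^(a²)` and `𝔔 ∣ q` has `χ(𝔔) ≠ 1`, then `∏_a (ζ^(1/a) - 1)^(a²)` is a `p`-th
power modulo `𝔔`.
-/

namespace Fermat.Agent.S14.helper134

open NumberField

/-- **Thaine relation**, choice-free core form. -/
def Stmt_ThaineCore (p : ℕ) : Prop :=
  ∀ (K : Type) [Field K] [NumberField K] [IsCyclotomicExtension {p} ℚ K] (ζ : 𝓞 K),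
    IsPrimitiveRoot ζ p → ∀ q : ℕ, q.Prime → p ∣ q - 1 →
    ∃ (g : ℤ) (b : 𝓞 K), b ≠ 0 ∧
      (∀ 𝔯 : Ideal (𝓞 K), 𝔯.IsPrime → (q : 𝓞 K) ∉ 𝔯 →
        ∀ n : ℕ, b ∈ 𝔯 ^ n → b ∉ 𝔯 ^ (n + 1) → (q - 1) ∣ n) ∧
      (∀ 𝔔 : Ideal (𝓞 K), 𝔔.IsPrime → (q : 𝓞 K) ∈ 𝔔 →
        ∀ n : ℕ, b ∈ 𝔔 ^ n → b ∉ 𝔔 ^ (n + 1) → ζ - 1 - (g : 𝓞 K) ^ n ∈ 𝔔)

end Fermat.Agent.S14.helper134
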