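import Mathlib
import Fermat.Prelude.Def_ClassGroup_GaloisAction
import Fermat.Prelude.Def_ExtCitation_AdmissibleExtension_v2

/-!
# S14, "Thaine route": specification file (interfaces only)

Architect: helper1934.  Findings row #1247 contains the mathematical proof.

The route avoids class field theory completely.  After the reduction (packages R and K below) one
has to show the *Kummer core* `Stmt_Core p`: in `F = ℚ(ζ_p)` there is no element `α` which is
singular (`(α) = I^p`), primary (`α ≡ x^p mod (1-ζ)^3`), in the `ω²`-eigenspace modulo `p`-th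
powers, and not a `p`-th power.  This is proved on the *even* side with the cyclotomic unit `E2`:

* `Stmt_Local`      : `E2 ≡ m (1 - π²/24) mod π³` in the form of an independence statement;
* `Stmt_E2`         : `E2` is a unit and an `ω²`-eigenvector modulo `p`-th powers;
* `Stmt_Units`      : the `ω²`-eigenspace of `E / E^p` is at most one-dimensional;
* `Stmt_ThaineChar` : Thaine's relation (Hilbert 90 in `F(ζ_q)/F`), in character form;
* `Stmt_Weber`, `Stmt_PrimeZeta`, `Stmt_NonDegOne`, `Stmt_KummerDensity` : analytic density bounds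
  (valid for every number field);
* glue: `Stmt_NoChar` (density comparison), `Stmt_NoClass`, `Stmt_Core`.

All statements are `Prop`-valued definitions; work packages are proved in hypothesis-passing
style.
-/

set_option autoImplicit false

namespace Fermat.Agent.S14.helper1934

open NumberField IsDedekindDomain

open scoped nonZeroDivisors

section Defs

variable {K : Type} [Field K] [NumberField K]

/-- The cyclotomic unit `1 + ζ + ⋯ + ζ^(b-1) = (ζ^b - 1)/(ζ - 1)`. -/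
def cyc (ζ : 𝓞 K) (b : ℕ) : 𝓞 K := ∑ k ∈ Finset.range b, ζ ^ k

/-- `E2 = ∏_{a=1}^{p-1} cyc(a⁻¹ mod p)^(a²)`: the `ω²`-component of the cyclotomic units. -/
def E2 (p : ℕ) (ζ : 𝓞 K) : 𝓞 K :=
  ∏ a ∈ Finset.Ico 1 p, cyc ζ ((a : ZMod p)⁻¹).val ^ (a ^ 2)

/-- `α` lies in the `ω²`-eigenspace modulo `p`-th powers (cross-multiplied form in `𝓞 K`):
whenever a ring automorphism `g` sends `ζ` to `ζ^a`, `g α / α^(a²)` is a `p`-th power in `K`. -/
def IsOmegaTwoElt (p : ℕ) (ζ α : 𝓞 K) : Prop :=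
  ∀ (g : 𝓞 K ≃+* 𝓞 K) (a : ℕ), g ζ = ζ ^ a →
    ∃ c d : 𝓞 K, c ≠ 0 ∧ d ≠ 0 ∧ g α * c ^ p = α ^ (a ^ 2) * d ^ p

/-- Unit version of `IsOmegaTwoElt`. -/
def IsOmegaTwoUnit (p : ℕ) (ζ : 𝓞 K) (u : (𝓞 K)ˣ) : Prop :=
  ∀ (g : 𝓞 K ≃+* 𝓞 K) (a : ℕ), g ζ = ζ ^ a →
    ∃ w : (𝓞 K)ˣ, g (u : 𝓞 K) = (u : 𝓞 K) ^ (a ^ 2) * (w : 𝓞 K) ^ p

/-- A character of the class group with values in `ℤ/p` lying in the `ω²`-part. -/
def IsOmegaTwoChar (p : ℕ) (ζ : 𝓞 K) (χ : ClassGroup (𝓞 K) →* Multiplicative (ZMod p)) : Prop :=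
  ∀ (g : 𝓞 K ≃+* 𝓞 K) (a : ℕ), g ζ = ζ ^ a →
    ∀ c : ClassGroup (𝓞 K), χ (ClassGroup.mulEquiv g c) = χ c ^ (a ^ 2)

/-- The ideal class of a nonzero prime ideal. -/
noncomputable def primeClass (v : HeightOneSpectrum (𝓞 K)) : ClassGroup (𝓞 K) :=
  ClassGroup.mk0 ⟨v.asIdeal, mem_nonZeroDivisors_iff_ne_zero.mpr v.ne_bot⟩

end Defs

/-! ## The Kummer core -/

/-- **Kummer core.**  In `K = ℚ(ζ_p)`: an element `α` of `𝓞 K` which is singular, prime to
`1 - ζ`, a `p`-th power modulo `(1-ζ)^3` and an `ω²`-eigenvector modulo `p`-th powers is a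
`p`-th power. -/
def Stmt_Core (p : ℕ) [Fact p.Prime] : Prop :=
  ∀ (K : Type) [Field K] [NumberField K] [IsCyclotomicExtension {p} ℚ K] (ζ : 𝓞 K),
    IsPrimitiveRoot ζ p →
    ∀ α : 𝓞 K, α ≠ 0 →
      (∃ I : Ideal (𝓞 K), Ideal.span {α} = I ^ p) →
      α ∉ Ideal.span {1 - ζ} →
      (∃ x : 𝓞 K, α - x ^ p ∈ Ideal.span {(1 - ζ) ^ 3}) →
      IsOmegaTwoElt p ζ α →
      ∃ β : 𝓞 K, α = β ^ p

/-! ## Package L (local computation modulo `(1-ζ)^3`) -/

/-- **Local independence.**  `ζ^k E2^j v^p ≡ x^p mod (1-ζ)^3` with `v` prime to `1-ζ` forces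
`p ∣ k` and `p ∣ j`.  (Proof: in `𝓞 K/(1-ζ)^3 = 𝔽_p[π]/π³` every `p`-th power is a constant,
`ζ^k = 1 - kπ + (k choose 2)π²` and `E2 = m (1 - π²/24)` with `m` a nonzero constant.) -/
def Stmt_Local (p : ℕ) [Fact p.Prime] : Prop :=
  ∀ (K : Type) [Field K] [NumberField K] [IsCyclotomicExtension {p} ℚ K] (ζ : 𝓞 K),
    IsPrimitiveRoot ζ p → 5 ≤ p →
    ∀ (k j : ℕ) (v x : 𝓞 K), v ∉ Ideal.span {1 - ζ} →
      ζ ^ k * E2 p ζ ^ j * v ^ p - x ^ p ∈ Ideal.span {(1 - ζ) ^ 3} → p ∣ k ∧ p ∣ j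

/-- `E2` is a unit and an `ω²`-eigenvector modulo `p`-th powers (uses `p ∣ ∑ a²`, `p ≥ 5`). -/
def Stmt_E2 (p : ℕ) [Fact p.Prime] : Prop :=
  ∀ (K : Type) [Field K] [NumberField K] [IsCyclotomicExtension {p} ℚ K] (ζ : 𝓞 K),
    IsPrimitiveRoot ζ p → 5 ≤ p →
    ∃ e : (𝓞 K)ˣ, (e : 𝓞 K) = E2 p ζ ∧ IsOmegaTwoUnit p ζ e

/-! ## Package U (units) -/

/-- **The `ω²`-eigenspace of `E/E^p` is at most one-dimensional** (`E = (𝓞 K)ˣ`): if `e` is an
`ω²`-unit which is not a root of unity times a `p`-th power, every `ω²`-unit is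
`ζ^k e^j v^p`.  (Proof: trace of `σ` on `E/torsion` is `#fixed infinite places - 1`.) -/
def Stmt_Units (p : ℕ) [Fact p.Prime] : Prop :=
  ∀ (K : Type) [Field K] [NumberField K] [IsCyclotomicExtension {p} ℚ K] (ζ : 𝓞 K),
    IsPrimitiveRoot ζ p → 5 ≤ p →
    ∀ u e : (𝓞 K)ˣ, IsOmegaTwoUnit p ζ u → IsOmegaTwoUnit p ζ e →
      (∀ (k : ℕ) (v : (𝓞 K)ˣ), (e : 𝓞 K) ≠ ζ ^ k * (v : 𝓞 K) ^ p) →
      ∃ (k j : ℕ) (v : (𝓞 K)ˣ), (u : 𝓞 K) = ζ ^ k * (e : 𝓞 K) ^ j * (v : 𝓞 K) ^ p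

/-! ## Package T (Thaine's relation) -/

/-- **Thaine's relation, character form.**  If `χ` is an `ω²`-character of the class group and
`v` is a prime of degree one not above `p` with `χ(v) ≠ 1`, then `E2` is a `p`-th power
modulo `v`. -/
def Stmt_ThaineChar (p : ℕ) [Fact p.Prime] : Prop :=
  ∀ (K : Type) [Field K] [NumberField K] [IsCyclotomicExtension {p} ℚ K] (ζ : 𝓞 K),
    IsPrimitiveRoot ζ p → 5 ≤ p →
    ∀ χ : ClassGroup (𝓞 K) →* Multiplicative (ZMod p), IsOmegaTwoChar p ζ χ →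
    ∀ v : HeightOneSpectrum (𝓞 K), (Ideal.absNorm v.asIdeal).Prime → (p : 𝓞 K) ∉ v.asIdeal →
      χ (primeClass v) ≠ 1 → ∃ y : 𝓞 K, E2 p ζ - y ^ p ∈ v.asIdeal

/-! ## Package A (analytic density bounds; general number fields) -/

/-- Sum over all primes: summability and the lower bound `log (1/(s-1)) - B`. -/
def Stmt_PrimeZeta : Prop :=
  ∀ (K : Type) [Field K] [NumberField K],
    (∀ s : ℝ, 1 < s →
      Summable fun v : HeightOneSpectrum (𝓞 K) => (Ideal.absNorm v.asIdeal : ℝ) ^ (-s)) ∧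
    ∃ B : ℝ, ∀ s : ℝ, 1 < s → s < 2 →
      Real.log (1 / (s - 1)) - B ≤
        ∑' v : HeightOneSpectrum (𝓞 K), (Ideal.absNorm v.asIdeal : ℝ) ^ (-s)

/-- The primes whose norm is not a prime number contribute a bounded amount. -/
def Stmt_NonDegOne : Prop :=
  ∀ (K : Type) [Field K] [NumberField K], ∃ B : ℝ, ∀ s : ℝ, 1 < s → s < 2 →
    Set.primeIdealZetaSum
      {v : HeightOneSpectrum (𝓞 K) | ¬ (Ideal.absNorm v.asIdeal).Prime} s ≤ B

/-- **Kummer density.**  `K` contains the `p`-th roots of unity and the unit `e` is not a `p`-th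
power: the primes (not above `p`) modulo which `e` is a `p`-th power split completely in
`K(e^(1/p))`, hence have upper Dirichlet density at most `1/p`. -/
def Stmt_KummerDensity (p : ℕ) [Fact p.Prime] : Prop :=
  ∀ (K : Type) [Field K] [NumberField K] (ζ : 𝓞 K), IsPrimitiveRoot ζ p →
    ∀ e : (𝓞 K)ˣ, (¬ ∃ y : 𝓞 K, (e : 𝓞 K) = y ^ p) →
    ∃ B : ℝ, ∀ s : ℝ, 1 < s → s < 2 →
      (p : ℝ) * Set.primeIdealZetaSum
        {v : HeightOneSpectrum (𝓞 K) |
          (p : 𝓞 K) ∉ v.asIdeal ∧ ∃ y : 𝓞 K, (e : 𝓞 K) - y ^ p ∈ v.asIdeal} s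
        ≤ Real.log (1 / (s - 1)) + B

/-- **Weber bound.**  For a nontrivial character `χ` of the class group with values in `ℤ/p`,
the primes in the kernel of `χ` have upper Dirichlet density at most `1/p`. -/
def Stmt_Weber (p : ℕ) [Fact p.Prime] : Prop :=
  ∀ (K : Type) [Field K] [NumberField K] (χ : ClassGroup (𝓞 K) →* Multiplicative (ZMod p)),
    χ ≠ 1 →
    ∃ B : ℝ, ∀ s : ℝ, 1 < s → s < 2 →
      (p : ℝ) * Set.primeIdealZetaSum
        {v : HeightOneSpectrum (𝓞 K) | χ (primeClass v) = 1} s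
        ≤ Real.log (1 / (s - 1)) + B

/-! ### Sub-interfaces for `Stmt_Weber` -/

/-- The partial zeta functions of two ideal classes differ by a bounded function on `(1,2)`.
(Proof: Lipschitz tent partition of unity for the unit action + coset shifting; findings #1247.) -/
def Stmt_PartialZetaDiff : Prop :=
  ∀ (K : Type) [Field K] [NumberField K] (C C' : ClassGroup (𝓞 K)),
    ∃ M : ℝ, ∀ s : ℝ, 1 < s → s < 2 →
      |(∑' I : {I : (Ideal (𝓞 K))⁰ // ClassGroup.mk0 I = C},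
            (Ideal.absNorm (I.1 : Ideal (𝓞 K)) : ℝ) ^ (-s)) -
        (∑' I : {I : (Ideal (𝓞 K))⁰ // ClassGroup.mk0 I = C'},
            (Ideal.absNorm (I.1 : Ideal (𝓞 K)) : ℝ) ^ (-s))| ≤ M

/-- Euler product over the ideals of a number field, in `exp ∘ log` form (the analogue of
`EulerProduct.exp_tsum_primes_log_eq_tsum`). -/
def Stmt_EulerIdeals : Prop :=
  ∀ (K : Type) [Field K] [NumberField K] (f : Ideal (𝓞 K) →*₀ ℂ),
    (Summable fun I => ‖f I‖) →
    Complex.exp (∑' v : HeightOneSpectrum (𝓞 K), -Complex.log (1 - f v.asIdeal)) =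
      ∑' I : Ideal (𝓞 K), f I

/-- Summability of the Dedekind zeta series over ideals and an upper bound `C/(s-1)` on `(1,2)`
(from `NumberField.tendsto_sub_one_mul_dedekindZeta_nhdsGT`). -/
def Stmt_IdealZeta : Prop :=
  ∀ (K : Type) [Field K] [NumberField K],
    (∀ s : ℝ, 1 < s → Summable fun I : Ideal (𝓞 K) => (Ideal.absNorm I : ℝ) ^ (-s)) ∧
    ∃ C : ℝ, 0 < C ∧ ∀ s : ℝ, 1 < s → s < 2 →
      C⁻¹ / (s - 1) ≤ ∑' I : Ideal (𝓞 K), (Ideal.absNorm I : ℝ) ^ (-s) ∧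
      ∑' I : Ideal (𝓞 K), (Ideal.absNorm I : ℝ) ^ (-s) ≤ C / (s - 1)

/-! ## Glue statements -/

/-- No nontrivial `ω²`-character of the class group (density comparison:
`Stmt_Weber + Stmt_PrimeZeta + Stmt_NonDegOne + Stmt_KummerDensity + Stmt_ThaineChar +
Stmt_Local + Stmt_E2`). -/
def Stmt_NoChar (p : ℕ) [Fact p.Prime] : Prop :=
  ∀ (K : Type) [Field K] [NumberField K] [IsCyclotomicExtension {p} ℚ K] (ζ : 𝓞 K),
    IsPrimitiveRoot ζ p → 5 ≤ p →
    ∀ χ : ClassGroup (𝓞 K) →* Multiplicative (ZMod p), IsOmegaTwoChar p ζ χ → χ = 1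

/-- No nontrivial `p`-torsion class in the `ω²`-part (from `Stmt_NoChar`). -/
def Stmt_NoClass (p : ℕ) [Fact p.Prime] : Prop :=
  ∀ (K : Type) [Field K] [NumberField K] [IsCyclotomicExtension {p} ℚ K] (ζ : 𝓞 K),
    IsPrimitiveRoot ζ p → 5 ≤ p →
    ∀ c : ClassGroup (𝓞 K), c ^ p = 1 →
      (∀ (g : 𝓞 K ≃+* 𝓞 K) (a : ℕ), g ζ = ζ ^ a → ClassGroup.mulEquiv g c = c ^ (a ^ 2)) →
      c = 1

/-! ## Packages K and R (reduction of the frozen statement to the Kummer core) -/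

/-- A cyclic degree-`p` extension `M` of `F = ℚ(ζ_p)`, Galois over `ℚ`, unramified at every
finite prime (trivial inertia groups), totally split above `p` (trivial decomposition groups),
on which `Gal(F/ℚ)` acts through the inverse of the cyclotomic character. -/
structure TwistedSplitExt (p : ℕ) (F M : Type) [Field F] [Field M] [NumberField F]
    [NumberField M] [Algebra F M] (ζ : F) : Prop where
  prim : IsPrimitiveRoot ζ p
  galoisQ : IsGalois ℚ M
  galois : IsGalois F M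
  degree : Module.finrank F M = p
  unram : ∀ (P : Ideal (𝓞 M)), P.IsPrime → P ≠ ⊥ →
    ∀ σ : Gal(M/F), (∀ x : 𝓞 M, σ • x - x ∈ P) → σ = 1
  split : ∀ (P : Ideal (𝓞 M)), P.IsPrime → (p : 𝓞 M) ∈ P →
    ∀ σ : Gal(M/F), (∀ x : 𝓞 M, x ∈ P → σ • x ∈ P) → σ = 1
  twist : ∀ (σ : Gal(M/ℚ)) (n : Gal(M/F)) (a : ℕ),
    σ (algebraMap F M ζ) = algebraMap F M ζ ^ a →
      (σ * n.restrictScalars ℚ * σ⁻¹) ^ a = n.restrictScalars ℚ

/-- There is no twisted split extension. -/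
def NoTwistedSplitExt (p : ℕ) : Prop :=
  ∀ (F M : Type) [Field F] [Field M] [NumberField F] [NumberField M] [Algebra F M]
    [IsCyclotomicExtension {p} ℚ F] (ζ : F), ¬ TwistedSplitExt p F M ζ

/-- **Package K** (Kummer theory): `M = F(A)`, `A^p = α`; unramified gives `(α) = I^p`, split
above `p` gives `α ≡ x^p mod (1-ζ)^3`, the twist gives the `ω²`-eigen property. -/
def Stmt_Kummer (p : ℕ) [Fact p.Prime] : Prop :=
  3 ≤ p → Stmt_Core p → NoTwistedSplitExt p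

/-- **Package R** (Galois plumbing): a non-split admissible `V` produces a twisted split
extension (fixed field of the kernel of the action); the split case is Maschke. -/
def Stmt_Reduction (p : ℕ) [Fact p.Prime] : Prop :=
  3 ≤ p → NoTwistedSplitExt p → ExtCitation.ExtVanishingCts p

end Fermat.Agent.S14.helper1934
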