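import Mathlib
import Fermat.Agent.S14.helper1934_ThaineSpec
import Fermat.Agent.S14.helper134_ThaineStmt

/-!
# S14, Thaine route: adapter (T') from the core Thaine relation to the character form

`thaineChar_of_core : helper134.Stmt_ThaineCore p → helper1934.Stmt_ThaineChar p`.
-/

set_option autoImplicit false
set_option linter.unusedSectionVars false
set_option linter.style.haveILetI false

namespace Fermat.Agent.S14.helper1759

open NumberField IsDedekindDomain Finset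

open scoped nonZeroDivisors Pointwise

section Basic

variable {R : Type*} [CommRing R] [IsDomain R]

/-- If `η` is a primitive `p`-th root of unity (`p ≥ 2`) and `η - 1 ∈ P`, then `p ∈ P`. -/
theorem natCast_mem_of_prim_sub_one_mem {p : ℕ} (hp : 2 ≤ p) {η : R} (hη : IsPrimitiveRoot η p)
    (P : Ideal R) (h : η - 1 ∈ P) : (p : R) ∈ P := by
  have hne : η ≠ 1 := hη.ne_one (by omega)
  have hsum : ∑ i ∈ range p, η ^ i = 0 := by
    have h1 : (∑ i ∈ range p, η ^ i) * (η - 1) = 0 := by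
      rw [geom_sum_mul, hη.pow_eq_one, sub_self]
    rcases mul_eq_zero.mp h1 with h2 | h2
    · exact h2
    · exact absurd (sub_eq_zero.mp h2) hne
  have hp' : (p : R) = ∑ i ∈ range p, (1 - η ^ i) := by
    rw [Finset.sum_sub_distrib, hsum, sub_zero]
    simp
  rw [hp']
  refine Ideal.sum_mem _ fun i _ => ?_
  have hd : η - 1 ∣ η ^ i - 1 := by
    simpa using sub_dvd_pow_sub_pow η 1 i
  obtain ⟨c, hc⟩ := hd
  have : 1 - η ^ i = (η - 1) * (-c) := by rw [mul_neg, ← hc]; ring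
  rw [this]
  exact Ideal.mul_mem_right _ _ h

end Basic

section Main

variable {p : ℕ} [Fact p.Prime] {K : Type} [Field K] [NumberField K]



/-- A primitive `p`-th root of unity is not congruent to `1` modulo a prime not containing `p`. -/
theorem prim_sub_one_not_mem {η : 𝓞 K} (hη : IsPrimitiveRoot η p) (P : Ideal (𝓞 K))
    (hpP : (p : 𝓞 K) ∉ P) : η - 1 ∉ P := fun h =>
  hpP (natCast_mem_of_prim_sub_one_mem (Fact.out : p.Prime).two_le hη P h)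

theorem dvd_absNorm_sub_one {ζ : 𝓞 K} (hζ : IsPrimitiveRoot ζ p)
    (v : HeightOneSpectrum (𝓞 K)) (hq : (Ideal.absNorm v.asIdeal).Prime)
    (hpv : (p : 𝓞 K) ∉ v.asIdeal) : p ∣ Ideal.absNorm v.asIdeal - 1 := by
  have hmax : v.asIdeal.IsMaximal := v.isMaximal
  letI : Field (𝓞 K ⧸ v.asIdeal) := Ideal.Quotient.field v.asIdeal
  have hcard : Nat.card (𝓞 K ⧸ v.asIdeal) = Ideal.absNorm v.asIdeal := by
    rw [Ideal.absNorm_apply, Submodule.cardQuot_apply]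
  haveI : Finite (𝓞 K ⧸ v.asIdeal) := Nat.finite_of_card_ne_zero (by rw [hcard]; exact hq.ne_zero)
  letI : Fintype (𝓞 K ⧸ v.asIdeal) := Fintype.ofFinite _
  set z : 𝓞 K ⧸ v.asIdeal := Ideal.Quotient.mk v.asIdeal ζ with hz
  have hz1 : z ≠ 1 := by
    intro h
    rw [hz, ← map_one (Ideal.Quotient.mk v.asIdeal), Ideal.Quotient.eq] at h
    exact prim_sub_one_not_mem hζ _ hpv h
  have hzp : z ^ p = 1 := by rw [hz, ← map_pow, hζ.pow_eq_one, map_one]
  have hz0 : z ≠ 0 := by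
    intro h
    rw [h, zero_pow (Fact.out : p.Prime).ne_zero] at hzp
    exact zero_ne_one hzp
  have hord : orderOf z = p := orderOf_eq_prime hzp hz1
  have hzq : z ^ (Ideal.absNorm v.asIdeal - 1) = 1 := by
    have := FiniteField.pow_card_sub_one_eq_one z hz0
    rwa [← Nat.card_eq_fintype_card, hcard] at this
  rw [← hord]
  exact orderOf_dvd_of_pow_eq_one hzq




theorem smul_intCast_int (σ : K ≃ₐ[ℚ] K) (n : ℤ) : σ • (n : 𝓞 K) = (n : 𝓞 K) := by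
  apply RingOfIntegers.coe_injective
  change σ (((n : 𝓞 K) : 𝓞 K) : K) = (((n : 𝓞 K) : 𝓞 K) : K)
  simp

theorem smul_natCast_int (σ : K ≃ₐ[ℚ] K) (n : ℕ) : σ • (n : 𝓞 K) = (n : 𝓞 K) := by
  apply RingOfIntegers.coe_injective
  change σ (((n : 𝓞 K) : 𝓞 K) : K) = (((n : 𝓞 K) : 𝓞 K) : K)
  simp

theorem mem_pow_iff_le_count {b : 𝓞 K} (hb : b ≠ 0) (P : Ideal (𝓞 K)) [hP : P.IsPrime]
    (hP0 : P ≠ ⊥) (k : ℕ) :
    b ∈ P ^ k ↔ k ≤ Multiset.count P
      (UniqueFactorizationMonoid.normalizedFactors (Ideal.span {b})) := by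
  have hspan : Ideal.span {b} ≠ 0 := by
    rw [Ideal.zero_eq_bot, Ne, Ideal.span_singleton_eq_bot]
    exact hb
  have hirr : Irreducible P := (Ideal.prime_of_isPrime hP0 hP).irreducible
  rw [← Ideal.span_singleton_le_iff_mem, ← Ideal.dvd_iff_le, pow_dvd_iff_le_emultiplicity,
    UniqueFactorizationMonoid.emultiplicity_eq_count_normalizedFactors hirr hspan, normalize_eq]
  exact Nat.cast_le

theorem six_mul_sum_sq (n : ℕ) : 6 * ∑ i ∈ range (n + 1), i ^ 2 = n * (n + 1) * (2 * n + 1) := by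
  induction n with
  | zero => simp
  | succ n ih =>
    rw [Finset.sum_range_succ, mul_add, ih]
    ring

theorem dvd_sum_sq (h5 : 5 ≤ p) : p ∣ ∑ a ∈ Finset.Ico 1 p, a ^ 2 := by
  have hp : p.Prime := Fact.out
  have h1 : ∑ a ∈ Finset.Ico 1 p, a ^ 2 = ∑ i ∈ range p, i ^ 2 := by
    rw [Finset.range_eq_Ico, Finset.sum_eq_sum_Ico_succ_bot hp.pos]
    simp
  obtain ⟨n, rfl⟩ : ∃ n, p = n + 1 := ⟨p - 1, by omega⟩
  rw [h1]
  have h6 := six_mul_sum_sq n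
  have hd : (n + 1) ∣ 6 * ∑ i ∈ range (n + 1), i ^ 2 := by
    rw [h6]
    exact Dvd.dvd.mul_right (Dvd.intro_left n rfl) _
  have hcop : Nat.Coprime (n + 1) 6 := by
    rw [hp.coprime_iff_not_dvd]
    intro h
    have hle := Nat.le_of_dvd (by norm_num) h
    have h56 : n = 4 ∨ n = 5 := by omega
    rcases h56 with rfl | rfl
    · norm_num at h
    · norm_num at hp
  exact hcop.dvd_of_dvd_mul_left hd


/-- `ζ^m ≡ ζ^n` modulo a prime not containing `p` forces `m ≡ n mod p`. -/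
theorem modEq_of_pow_sub_pow_mem {ζ : 𝓞 K} (hζ : IsPrimitiveRoot ζ p) (P : Ideal (𝓞 K))
    [P.IsPrime] (hpP : (p : 𝓞 K) ∉ P) {m n : ℕ} (h : ζ ^ m - ζ ^ n ∈ P) : m ≡ n [MOD p] := by
  have hp : p.Prime := Fact.out
  have hunit : ∀ k : ℕ, ζ ^ k ∉ P := by
    intro k hk
    have : (ζ ^ k) ^ p ∈ P := Ideal.pow_mem_of_mem _ hk p hp.pos
    rw [← pow_mul, mul_comm, pow_mul, hζ.pow_eq_one, one_pow] at this
    exact (Ideal.IsPrime.ne_top ‹P.IsPrime›) ((Ideal.eq_top_iff_one _).mpr this)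
  have key : ∀ m n : ℕ, n ≤ m → ζ ^ m - ζ ^ n ∈ P → m ≡ n [MOD p] := by
    intro m n hnm h
    have h1 : ζ ^ m - ζ ^ n = ζ ^ n * (ζ ^ (m - n) - 1) := by
      rw [mul_sub, mul_one, ← pow_add, Nat.add_sub_cancel' hnm]
    rw [h1] at h
    have h2 : ζ ^ (m - n) - 1 ∈ P := (Ideal.IsPrime.mem_or_mem ‹P.IsPrime› h).resolve_left (hunit n)
    by_contra hmn
    have hcop : (m - n).Coprime p := by
      rw [Nat.coprime_comm, hp.coprime_iff_not_dvd]
      intro hd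
      exact hmn ((Nat.modEq_iff_dvd' hnm).mpr hd).symm
    exact prim_sub_one_not_mem (hζ.pow_of_coprime _ hcop) P hpP h2
  rcases le_total n m with hnm | hmn
  · exact key m n hnm h
  · refine (key n m hmn ?_).symm
    have : ζ ^ n - ζ ^ m = -(ζ ^ m - ζ ^ n) := by ring
    rw [this]
    exact P.neg_mem h

theorem pow_eq_of_modEq {ζ : 𝓞 K} (hζ : IsPrimitiveRoot ζ p) {m n : ℕ} (h : m ≡ n [MOD p]) :
    ζ ^ m = ζ ^ n := by
  have h1 : ∀ k : ℕ, ζ ^ (k % p) = ζ ^ k := by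
    intro k
    have := pow_mod_orderOf ζ k
    rwa [← hζ.eq_orderOf] at this
  rw [← h1 m, ← h1 n, h]

/-- the inverse exponent -/
theorem mul_inv_val_modEq {a : ℕ} (ha : a ∈ Finset.Ico 1 p) :
    a * ((a : ZMod p)⁻¹).val ≡ 1 [MOD p] := by
  have hp : p.Prime := Fact.out
  obtain ⟨h1, h2⟩ := Finset.mem_Ico.mp ha
  have hne : (a : ZMod p) ≠ 0 := by
    rw [Ne, ZMod.natCast_eq_zero_iff]
    exact Nat.not_dvd_of_pos_of_lt h1 h2
  rw [← ZMod.natCast_eq_natCast_iff]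
  push_cast
  rw [ZMod.natCast_zmod_val, mul_inv_cancel₀ hne]

theorem inv_smul_zeta {ζ : 𝓞 K} (hζ : IsPrimitiveRoot ζ p) (σ : K ≃ₐ[ℚ] K) {a : ℕ}
    (ha : a ∈ Finset.Ico 1 p) (hσ : σ • ζ = ζ ^ a) :
    σ⁻¹ • ζ = ζ ^ ((a : ZMod p)⁻¹).val := by
  have h1 : σ • (ζ ^ ((a : ZMod p)⁻¹).val) = ζ := by
    rw [smul_pow', hσ, ← pow_mul]
    have := pow_eq_of_modEq hζ (mul_inv_val_modEq (p := p) ha)
    rw [this, pow_one]
  rw [inv_smul_eq_iff, h1]




theorem liesOver_of_natCast_mem {q : ℕ} (hq : q.Prime) (P : Ideal (𝓞 K)) [P.IsPrime]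
    (h : (q : 𝓞 K) ∈ P) : P.LiesOver (Ideal.span {(q : ℤ)}) := by
  constructor
  have hmax : (Ideal.span {(q : ℤ)}).IsMaximal :=
    PrincipalIdealRing.isMaximal_of_irreducible
      (Nat.prime_iff_prime_int.mp hq).irreducible
  refine hmax.eq_of_le ?_ ?_
  · exact (Ideal.IsPrime.under ℤ P).ne_top
  · rw [Ideal.span_singleton_le_iff_mem, Ideal.under_def, Ideal.mem_comap]
    simpa using h

theorem exists_smul_eq_of_natCast_mem [IsGalois ℚ K] {q : ℕ} (hq : q.Prime) (P Q : Ideal (𝓞 K))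
    [P.IsPrime] [Q.IsPrime] (hP : (q : 𝓞 K) ∈ P) (hQ : (q : 𝓞 K) ∈ Q) :
    ∃ σ : K ≃ₐ[ℚ] K, σ • P = Q := by
  haveI := liesOver_of_natCast_mem hq P hP
  haveI := liesOver_of_natCast_mem hq Q hQ
  exact Ideal.exists_smul_eq_of_isGaloisGroup (Ideal.span {(q : ℤ)}) P Q (K ≃ₐ[ℚ] K)

theorem exists_int_sub_mem (P : Ideal (𝓞 K)) (hP : (Nat.card (𝓞 K ⧸ P)).Prime) (x : 𝓞 K) :
    ∃ n : ℤ, x - (n : 𝓞 K) ∈ P := by
  haveI : Fact (Nat.card (𝓞 K ⧸ P)).Prime := ⟨hP⟩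
  have h1 : (1 : 𝓞 K ⧸ P) ≠ 0 := by
    intro h
    have : Subsingleton (𝓞 K ⧸ P) := subsingleton_of_zero_eq_one h.symm
    have hc : Nat.card (𝓞 K ⧸ P) = 1 := Nat.card_eq_one_iff_unique.mpr ⟨this, ⟨0⟩⟩
    rw [hc] at hP
    exact Nat.not_prime_one hP
  have hmem : Ideal.Quotient.mk P x ∈ AddSubgroup.zmultiples (1 : 𝓞 K ⧸ P) :=
    mem_zmultiples_of_prime_card (p := Nat.card (𝓞 K ⧸ P)) rfl h1
  obtain ⟨n, hn⟩ := AddSubgroup.mem_zmultiples_iff.mp hmem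
  refine ⟨n, ?_⟩
  rw [← Ideal.Quotient.eq]
  rw [← hn]
  simp

theorem smul_sub_mem_of_smul_eq (P : Ideal (𝓞 K)) (hP : (Nat.card (𝓞 K ⧸ P)).Prime)
    (σ : K ≃ₐ[ℚ] K) (hσ : σ • P = P) (x : 𝓞 K) : σ • x - x ∈ P := by
  obtain ⟨n, hn⟩ := exists_int_sub_mem P hP x
  have h1 : σ • (x - (n : 𝓞 K)) ∈ P := by
    rw [← hσ]
    exact Ideal.smul_mem_pointwise_smul _ _ _ hn
  have h2 : σ • (x - (n : 𝓞 K)) = σ • x - (n : 𝓞 K) := by
    rw [smul_sub]
    congr 1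
    apply RingOfIntegers.coe_injective
    change σ (((n : 𝓞 K) : 𝓞 K) : K) = (((n : 𝓞 K) : 𝓞 K) : K)
    simp
  rw [h2] at h1
  have : σ • x - x = (σ • x - (n : 𝓞 K)) - (x - (n : 𝓞 K)) := by ring
  rw [this]
  exact P.sub_mem h1 hn




/-- A class-group character evaluated on (nonzero) ideals; junk value `1` at `⊥`. -/
noncomputable def chiI (χ : ClassGroup (𝓞 K) →* Multiplicative (ZMod p)) (I : Ideal (𝓞 K)) :
    Multiplicative (ZMod p) :=
  open Classical in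
  if h : I ∈ (Ideal (𝓞 K))⁰ then χ (ClassGroup.mk0 ⟨I, h⟩) else 1

theorem chiI_of_mem (χ : ClassGroup (𝓞 K) →* Multiplicative (ZMod p)) {I : Ideal (𝓞 K)}
    (h : I ∈ (Ideal (𝓞 K))⁰) : chiI χ I = χ (ClassGroup.mk0 ⟨I, h⟩) := by
  classical
  exact dif_pos h

theorem mem_nzd_of_ne_bot {I : Ideal (𝓞 K)} (h : I ≠ ⊥) : I ∈ (Ideal (𝓞 K))⁰ :=
  mem_nonZeroDivisors_iff_ne_zero.mpr h

theorem chiI_mul (χ : ClassGroup (𝓞 K) →* Multiplicative (ZMod p)) {I J : Ideal (𝓞 K)}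
    (hI : I ≠ ⊥) (hJ : J ≠ ⊥) : chiI χ (I * J) = chiI χ I * chiI χ J := by
  have hI' := mem_nzd_of_ne_bot hI
  have hJ' := mem_nzd_of_ne_bot hJ
  have hIJ' : I * J ∈ (Ideal (𝓞 K))⁰ := mul_mem hI' hJ'
  rw [chiI_of_mem χ hI', chiI_of_mem χ hJ', chiI_of_mem χ hIJ', ← map_mul, ← map_mul]
  rfl

theorem chiI_one (χ : ClassGroup (𝓞 K) →* Multiplicative (ZMod p)) : chiI χ 1 = 1 := by
  have h1 : (1 : Ideal (𝓞 K)) ∈ (Ideal (𝓞 K))⁰ := one_mem _
  rw [chiI_of_mem χ h1]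
  have : (⟨1, h1⟩ : (Ideal (𝓞 K))⁰) = 1 := rfl
  rw [this, map_one, map_one]

theorem chiI_multiset_prod (χ : ClassGroup (𝓞 K) →* Multiplicative (ZMod p))
    (M : Multiset (Ideal (𝓞 K))) (hM : ∀ P ∈ M, P ≠ ⊥) :
    chiI χ M.prod = (M.map (chiI χ)).prod := by
  induction M using Multiset.induction_on with
  | empty => simpa using chiI_one χ
  | cons P M ih =>
    have hP : P ≠ ⊥ := hM P (Multiset.mem_cons_self P M)
    have hM' : ∀ Q ∈ M, Q ≠ ⊥ := fun Q hQ => hM Q (Multiset.mem_cons_of_mem hQ)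
    have hprod : M.prod ≠ ⊥ := by
      rw [← Ideal.zero_eq_bot, Ne, Multiset.prod_eq_zero_iff]
      intro h0
      exact hM' _ h0 rfl
    rw [Multiset.prod_cons, Multiset.map_cons, Multiset.prod_cons, chiI_mul χ hP hprod, ih hM']

theorem chiI_span_singleton (χ : ClassGroup (𝓞 K) →* Multiplicative (ZMod p)) {b : 𝓞 K}
    (hb : b ≠ 0) : chiI χ (Ideal.span {b}) = 1 := by
  have h : Ideal.span {b} ≠ ⊥ := by
    rw [Ne, Ideal.span_singleton_eq_bot]
    exact hb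
  rw [chiI_of_mem χ (mem_nzd_of_ne_bot h)]
  have : ClassGroup.mk0 ⟨Ideal.span {b}, mem_nzd_of_ne_bot h⟩ = 1 := by
    rw [ClassGroup.mk0_eq_one_iff]
    exact ⟨⟨b, rfl⟩⟩
  rw [this, map_one]

theorem chiI_pow_p (χ : ClassGroup (𝓞 K) →* Multiplicative (ZMod p)) (I : Ideal (𝓞 K)) :
    chiI χ I ^ p = 1 := by
  apply Multiplicative.toAdd.injective
  simp

theorem dvd_of_pow_eq_one {x : Multiplicative (ZMod p)} (hx : x ≠ 1) {m : ℕ} (h : x ^ m = 1) :
    p ∣ m := by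
  have h1 : (m : ZMod p) * Multiplicative.toAdd x = 0 := by
    have := congrArg Multiplicative.toAdd h
    simpa using this
  have h2 : Multiplicative.toAdd x ≠ 0 := by
    intro h0
    exact hx (Multiplicative.toAdd.injective (by simpa using h0))
  rcases mul_eq_zero.mp h1 with h3 | h3
  · exact (ZMod.natCast_eq_zero_iff m p).mp h3
  · exact absurd h3 h2

theorem chiI_smul {ζ : 𝓞 K} (χ : ClassGroup (𝓞 K) →* Multiplicative (ZMod p))
    (hχ : helper1934.IsOmegaTwoChar p ζ χ) (σ : K ≃ₐ[ℚ] K) {a : ℕ} (hσ : σ • ζ = ζ ^ a)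
    {P : Ideal (𝓞 K)} (hP : P ≠ ⊥) : chiI χ (σ • P) = chiI χ P ^ (a ^ 2) := by
  have hP' := mem_nzd_of_ne_bot hP
  set g : 𝓞 K ≃+* 𝓞 K := MulSemiringAction.toRingEquiv (K ≃ₐ[ℚ] K) (𝓞 K) σ with hg
  have hgζ : g ζ = ζ ^ a := hσ
  have h1 := hχ g a hgζ (ClassGroup.mk0 ⟨P, hP'⟩)
  rw [ClassGroup.mulEquiv_mk0] at h1
  rw [chiI_of_mem χ hP', ← h1]
  have hmem : σ • P ∈ (Ideal (𝓞 K))⁰ := by
    have : σ • P = (Ideal.mapNonZero g ⟨P, hP'⟩ : Ideal (𝓞 K)) := rfl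
    rw [this]
    exact (Ideal.mapNonZero g ⟨P, hP'⟩).2
  rw [chiI_of_mem χ hmem]
  rfl


section Cyclo



theorem coe_smul_int (σ : K ≃ₐ[ℚ] K) (x : 𝓞 K) : ((σ • x : 𝓞 K) : K) = σ (x : K) := rfl

theorem prim_coe {ζ : 𝓞 K} (hζ : IsPrimitiveRoot ζ p) : IsPrimitiveRoot (ζ : K) p :=
  hζ.map_of_injective (RingOfIntegers.coe_injective)

variable [IsCyclotomicExtension {p} ℚ K]

theorem exists_aut {ζ : 𝓞 K} (hζ : IsPrimitiveRoot ζ p) (a : ℕ) (ha : a.Coprime p) :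
    ∃ σ : K ≃ₐ[ℚ] K, σ • ζ = ζ ^ a := by
  have hp0 : 0 < p := (Fact.out : p.Prime).pos
  haveI : NeZero p := ⟨hp0.ne'⟩
  have hirr : Irreducible (Polynomial.cyclotomic p ℚ) := Polynomial.cyclotomic.irreducible_rat hp0
  have h1 : IsPrimitiveRoot (ζ : K) p := prim_coe hζ
  have h2 : IsPrimitiveRoot ((ζ : K) ^ a) p := h1.pow_of_coprime a ha
  have hmin : minpoly ℚ (h1.powerBasis ℚ).gen = minpoly ℚ (h2.powerBasis ℚ).gen := by
    simp only [IsPrimitiveRoot.powerBasis_gen]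
    exact (h1.minpoly_eq_cyclotomic_of_irreducible hirr).symm.trans
      (h2.minpoly_eq_cyclotomic_of_irreducible hirr)
  refine ⟨(h1.powerBasis ℚ).equivOfMinpoly (h2.powerBasis ℚ) hmin, ?_⟩
  apply RingOfIntegers.coe_injective
  have := (h1.powerBasis ℚ).equivOfMinpoly_gen (h2.powerBasis ℚ) hmin
  rw [IsPrimitiveRoot.powerBasis_gen, IsPrimitiveRoot.powerBasis_gen] at this
  change ((h1.powerBasis ℚ).equivOfMinpoly (h2.powerBasis ℚ) hmin) (ζ : K) = ((ζ ^ a : 𝓞 K) : K)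
  rw [this]
  simp

theorem aut_ext {ζ : 𝓞 K} (hζ : IsPrimitiveRoot ζ p) (σ τ : K ≃ₐ[ℚ] K) (h : σ • ζ = τ • ζ) :
    σ = τ := by
  have h1 : IsPrimitiveRoot (ζ : K) p := prim_coe hζ
  have hp0 : 0 < p := (Fact.out : p.Prime).pos
  haveI : NeZero p := ⟨hp0.ne'⟩
  apply AlgEquiv.coe_toAlgHom_injective
  apply (h1.powerBasis ℚ).algHom_ext
  rw [IsPrimitiveRoot.powerBasis_gen]
  have := congrArg (fun x : 𝓞 K => (x : K)) h
  simpa [coe_smul_int] using this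

theorem exists_pow_of_aut {ζ : 𝓞 K} (hζ : IsPrimitiveRoot ζ p) (σ : K ≃ₐ[ℚ] K) :
    ∃ a ∈ Finset.Ico 1 p, σ • ζ = ζ ^ a := by
  have hp : p.Prime := Fact.out
  have hprim : IsPrimitiveRoot (σ • ζ) p := by
    have : σ • ζ = MulSemiringAction.toRingEquiv (K ≃ₐ[ℚ] K) (𝓞 K) σ ζ := rfl
    rw [this]
    exact hζ.map_of_injective (RingEquiv.injective _)
  obtain ⟨a, hap, ha⟩ := hζ.eq_pow_of_pow_eq_one hprim.pow_eq_one
  refine ⟨a, Finset.mem_Ico.mpr ⟨?_, hap⟩, ha.symm⟩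
  rcases Nat.eq_zero_or_pos a with h0 | h0
  · exfalso
    rw [h0, pow_zero] at ha
    exact hprim.ne_one hp.one_lt ha.symm
  · exact h0


end Cyclo

section Thaine

variable [IsCyclotomicExtension {p} ℚ K]

/-- Two Galois conjugates `σ • v`, `τ • v` of a degree-one prime `v ∤ p` coincide only if
`σ` and `τ` act on `ζ` by the same exponent. -/
theorem exp_eq_of_smul_eq {ζ : 𝓞 K} (hζ : IsPrimitiveRoot ζ p) (v : Ideal (𝓞 K)) [v.IsPrime]
    (hcard : (Nat.card (𝓞 K ⧸ v)).Prime) (hpv : (p : 𝓞 K) ∉ v) (σ τ : K ≃ₐ[ℚ] K) {a c : ℕ}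
    (ha : a ∈ Finset.Ico 1 p) (hc : c ∈ Finset.Ico 1 p) (hσ : σ • ζ = ζ ^ a)
    (hτ : τ • ζ = ζ ^ c) (h : σ • v = τ • v) : a = c := by
  have hfix : (τ⁻¹ * σ) • v = v := by
    rw [mul_smul, h, inv_smul_smul]
  have h1 := smul_sub_mem_of_smul_eq v hcard (τ⁻¹ * σ) hfix ζ
  have h2 : (τ⁻¹ * σ) • ζ = ζ ^ (((c : ZMod p)⁻¹).val * a) := by
    rw [mul_smul, hσ, smul_pow', inv_smul_zeta hζ τ hc hτ, ← pow_mul]
  rw [h2] at h1
  have h3 : ((c : ZMod p)⁻¹).val * a ≡ 1 [MOD p] := by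
    have h1' : ζ ^ (((c : ZMod p)⁻¹).val * a) - ζ ^ 1 ∈ v := by simpa using h1
    exact modEq_of_pow_sub_pow_mem hζ v hpv h1'
  have h4 : c * ((c : ZMod p)⁻¹).val ≡ 1 [MOD p] := mul_inv_val_modEq hc
  have h5 : a ≡ c [MOD p] := by
    calc a = 1 * a := (one_mul a).symm
      _ ≡ (c * ((c : ZMod p)⁻¹).val) * a [MOD p] := (h4.symm).mul_right a
      _ = c * (((c : ZMod p)⁻¹).val * a) := by ring
      _ ≡ c * 1 [MOD p] := h3.mul_left c
      _ = c := mul_one c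
  exact Nat.ModEq.eq_of_lt_of_lt h5 (Finset.mem_Ico.mp ha).2 (Finset.mem_Ico.mp hc).2

/-- **(T') adapter**: the core Thaine relation implies the character form of the Spec. -/
theorem thaineChar_of_core (p : ℕ) [Fact p.Prime] (hT : helper134.Stmt_ThaineCore p) :
    helper1934.Stmt_ThaineChar p := by
  intro K _ _ _ ζ hζ h5 χ hχ v hqprime hpv hχv
  classical
  have hp : p.Prime := Fact.out
  haveI : IsGalois ℚ K := IsCyclotomicExtension.isGalois {p} ℚ K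
  haveI hvprime : v.asIdeal.IsPrime := v.isPrime
  have hvbot : v.asIdeal ≠ ⊥ := v.ne_bot
  have hqv : ((Ideal.absNorm v.asIdeal : ℕ) : 𝓞 K) ∈ v.asIdeal := Ideal.absNorm_mem v.asIdeal
  have hpq : p ∣ Ideal.absNorm v.asIdeal - 1 := dvd_absNorm_sub_one hζ v hqprime hpv
  have hcard : (Nat.card (𝓞 K ⧸ v.asIdeal)).Prime := by
    rwa [← Submodule.cardQuot_apply, ← Ideal.absNorm_apply]
  obtain ⟨g, b, hb, hA, hB⟩ := hT K ζ hζ (Ideal.absNorm v.asIdeal) hqprime hpq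
  -- the Galois automorphisms `sig a`, `sig a • ζ = ζ ^ a`
  have hex : ∀ a : ℕ, ∃ σ : K ≃ₐ[ℚ] K, a ∈ Finset.Ico 1 p → σ • ζ = ζ ^ a := by
    intro a
    by_cases ha : a ∈ Finset.Ico 1 p
    · obtain ⟨h1, h2⟩ := Finset.mem_Ico.mp ha
      have hcop : a.Coprime p := by
        rw [Nat.coprime_comm, hp.coprime_iff_not_dvd]
        exact Nat.not_dvd_of_pos_of_lt h1 h2
      obtain ⟨σ, hσ⟩ := exists_aut hζ a hcop
      exact ⟨σ, fun _ => hσ⟩
    · exact ⟨1, fun h => absurd h ha⟩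
  choose sig hsig using hex
  -- the primes over `q`
  have hQprime : ∀ a, (sig a • v.asIdeal).IsPrime := fun a => Ideal.IsPrime.smul (sig a)
  have hQbot : ∀ a, sig a • v.asIdeal ≠ ⊥ := by
    intro a h
    apply hvbot
    rw [smul_eq_iff_eq_inv_smul] at h
    rw [h, Ideal.smul_bot]
  have hQq : ∀ a, ((Ideal.absNorm v.asIdeal : ℕ) : 𝓞 K) ∈ sig a • v.asIdeal := by
    intro a
    have := Ideal.smul_mem_pointwise_smul (sig a) _ _ hqv
    rwa [smul_natCast_int] at this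
  have hQinj : ∀ a ∈ Finset.Ico 1 p, ∀ c ∈ Finset.Ico 1 p,
      sig a • v.asIdeal = sig c • v.asIdeal → a = c := fun a ha c hc h =>
    exp_eq_of_smul_eq hζ v.asIdeal hcard hpv (sig a) (sig c) ha hc (hsig a ha) (hsig c hc) h
  have hQsurj : ∀ P : Ideal (𝓞 K), P.IsPrime → ((Ideal.absNorm v.asIdeal : ℕ) : 𝓞 K) ∈ P →
      ∃ a ∈ Finset.Ico 1 p, sig a • v.asIdeal = P := by
    intro P hP hqP
    obtain ⟨σ, hσ⟩ := exists_smul_eq_of_natCast_mem hqprime v.asIdeal P hqv hqP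
    obtain ⟨a, ha, hσa⟩ := exists_pow_of_aut hζ σ
    refine ⟨a, ha, ?_⟩
    have : sig a = σ := aut_ext hζ _ _ ((hsig a ha).trans hσa.symm)
    rw [this, hσ]
  -- the factorisation of `(b)`
  set M := UniqueFactorizationMonoid.normalizedFactors (Ideal.span {b}) with hM
  have hspan : Ideal.span {b} ≠ ⊥ := by
    rw [Ne, Ideal.span_singleton_eq_bot]
    exact hb
  have hMprod : M.prod = Ideal.span {b} := Ideal.prod_normalizedFactors_eq_self hspan
  have hMprime : ∀ P ∈ M, P.IsPrime ∧ P ≠ ⊥ := by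
    intro P hP
    have hpr : Prime P := UniqueFactorizationMonoid.prime_of_normalized_factor P hP
    exact ⟨Ideal.isPrime_of_prime hpr, hpr.ne_zero⟩
  have hcount : ∀ (P : Ideal (𝓞 K)), P.IsPrime → P ≠ ⊥ →
      b ∈ P ^ M.count P ∧ b ∉ P ^ (M.count P + 1) := by
    intro P hP hP0
    haveI := hP
    refine ⟨(mem_pow_iff_le_count hb P hP0 _).mpr le_rfl, fun h => ?_⟩
    have h' : M.count P + 1 ≤ M.count P := (mem_pow_iff_le_count hb P hP0 _).mp h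
    omega
  -- apply the character
  have h1 : ∏ P ∈ M.toFinset, chiI χ P ^ M.count P = 1 := by
    rw [← Finset.prod_multiset_map_count,
      ← chiI_multiset_prod χ M (fun P hP => (hMprime P hP).2), hMprod, chiI_span_singleton χ hb]
  have h2 : ∏ P ∈ M.toFinset, chiI χ P ^ M.count P =
      ∏ a ∈ Finset.Ico 1 p, chiI χ (sig a • v.asIdeal) ^ M.count (sig a • v.asIdeal) := by
    rw [← Finset.prod_image (s := Finset.Ico 1 p) (g := fun a => sig a • v.asIdeal)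
      (f := fun P => chiI χ P ^ M.count P) hQinj]
    have e1 : ∏ P ∈ M.toFinset, chiI χ P ^ M.count P =
        ∏ P ∈ M.toFinset ∪ (Finset.Ico 1 p).image (fun a => sig a • v.asIdeal),
          chiI χ P ^ M.count P := by
      refine Finset.prod_subset Finset.subset_union_left ?_
      intro P _ hPM
      rw [Multiset.mem_toFinset] at hPM
      rw [Multiset.count_eq_zero_of_notMem hPM, pow_zero]
    have e2 : ∏ P ∈ (Finset.Ico 1 p).image (fun a => sig a • v.asIdeal), chiI χ P ^ M.count P =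
        ∏ P ∈ M.toFinset ∪ (Finset.Ico 1 p).image (fun a => sig a • v.asIdeal),
          chiI χ P ^ M.count P := by
      refine Finset.prod_subset Finset.subset_union_right ?_
      intro P hPU hPI
      have hPM : P ∈ M := by
        rcases Finset.mem_union.mp hPU with h | h
        · exact Multiset.mem_toFinset.mp h
        · exact absurd h hPI
      obtain ⟨hPprime, hPbot⟩ := hMprime P hPM
      have hqP : ((Ideal.absNorm v.asIdeal : ℕ) : 𝓞 K) ∉ P := by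
        intro hqP
        obtain ⟨a, ha, hPa⟩ := hQsurj P hPprime hqP
        exact hPI (Finset.mem_image.mpr ⟨a, ha, hPa⟩)
      obtain ⟨hc1, hc2⟩ := hcount P hPprime hPbot
      have hdvd : (Ideal.absNorm v.asIdeal - 1) ∣ M.count P := hA P hPprime hqP _ hc1 hc2
      obtain ⟨k, hk⟩ := hpq.trans hdvd
      rw [hk, pow_mul, chiI_pow_p, one_pow]
    rw [e1, e2]
  have h3 : ∏ a ∈ Finset.Ico 1 p, chiI χ (sig a • v.asIdeal) ^ M.count (sig a • v.asIdeal) =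
      chiI χ v.asIdeal ^ (∑ a ∈ Finset.Ico 1 p, a ^ 2 * M.count (sig a • v.asIdeal)) := by
    rw [← Finset.prod_pow_eq_pow_sum]
    refine Finset.prod_congr rfl fun a ha => ?_
    rw [chiI_smul χ hχ (sig a) (hsig a ha) hvbot, ← pow_mul]
  have hχv' : chiI χ v.asIdeal ≠ 1 := by
    rw [chiI_of_mem χ (mem_nzd_of_ne_bot hvbot)]
    exact hχv
  have hdvdS : p ∣ ∑ a ∈ Finset.Ico 1 p, a ^ 2 * M.count (sig a • v.asIdeal) :=
    dvd_of_pow_eq_one hχv' (by rw [← h3, ← h2, h1])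
  -- the congruences modulo `v`
  have hcong : ∀ a ∈ Finset.Ico 1 p,
      helper1934.cyc ζ ((a : ZMod p)⁻¹).val * (ζ - 1) -
        (g : 𝓞 K) ^ M.count (sig a • v.asIdeal) ∈ v.asIdeal := by
    intro a ha
    obtain ⟨hc1, hc2⟩ := hcount _ (hQprime a) (hQbot a)
    have hmem := hB _ (hQprime a) (hQq a) _ hc1 hc2
    rw [Ideal.mem_pointwise_smul_iff_inv_smul_mem, smul_sub, smul_sub, smul_one, smul_pow',
      smul_intCast_int, inv_smul_zeta hζ (sig a) ha (hsig a ha)] at hmem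
    have hgeo : helper1934.cyc ζ ((a : ZMod p)⁻¹).val * (ζ - 1) = ζ ^ ((a : ZMod p)⁻¹).val - 1 := by
      rw [helper1934.cyc, geom_sum_mul]
    rw [hgeo]
    exact hmem
  -- the final computation in the residue field
  obtain ⟨M2, hM2⟩ := dvd_sum_sq (p := p) h5
  obtain ⟨m, hm⟩ := hdvdS
  haveI hmax : v.asIdeal.IsMaximal := v.isMaximal
  letI : Field (𝓞 K ⧸ v.asIdeal) := Ideal.Quotient.field v.asIdeal
  set φ := Ideal.Quotient.mk v.asIdeal with hφ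
  have hπ : φ (ζ - 1) ≠ 0 := by
    rw [hφ, Ne, Ideal.Quotient.eq_zero_iff_mem]
    exact prim_sub_one_not_mem hζ _ hpv
  have hprod : φ (helper1934.E2 p ζ) * φ (ζ - 1) ^ (∑ a ∈ Finset.Ico 1 p, a ^ 2) =
      φ (g : 𝓞 K) ^ (∑ a ∈ Finset.Ico 1 p, a ^ 2 * M.count (sig a • v.asIdeal)) := by
    rw [helper1934.E2, map_prod, ← Finset.prod_pow_eq_pow_sum, ← Finset.prod_pow_eq_pow_sum,
      ← Finset.prod_mul_distrib]
    refine Finset.prod_congr rfl fun a ha => ?_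
    have := hcong a ha
    rw [← Ideal.Quotient.eq, ← hφ, map_mul, map_pow] at this
    rw [map_pow, ← mul_pow, this, ← pow_mul, mul_comm]
  rw [hM2, hm, pow_mul', pow_mul'] at hprod
  obtain ⟨y, hy⟩ := Ideal.Quotient.mk_surjective (I := v.asIdeal)
    (φ (g : 𝓞 K) ^ m * (φ (ζ - 1) ^ M2)⁻¹)
  refine ⟨y, ?_⟩
  rw [← Ideal.Quotient.eq, map_pow, hy, mul_pow, ← hprod, inv_pow]
  have hne : (φ (ζ - 1) ^ M2) ^ p ≠ 0 := pow_ne_zero _ (pow_ne_zero _ hπ)
  rw [← hφ, mul_assoc, mul_inv_cancel₀ hne, mul_one]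

end Thaine

end Main

end Fermat.Agent.S14.helper1759
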