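import Mathlib
import Fermat.Prelude.Def_ExtCitation_AdmissibleExtension_v2

/-!
# S14, module M1 (reduction), layer R1: from the frozen statement to a group-theoretic core

`Stmt_NoExt p` says: there is no open normal subgroup `N` of `Gal(Qbar/Q)` of index `p` in the
kernel of the mod-`p` cyclotomic character `chi`, on which conjugation acts through `chi⁻¹`,
containing all inertia groups at primes `ℓ ≠ p` and all `D_A ⊓ ker chi` for `A` over `p`.

Main result: `extVanishingCts_of_noExt : 3 ≤ p → Stmt_NoExt p → ExtCitation.ExtVanishingCts p`.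
-/

set_option autoImplicit false
set_option linter.unusedSectionVars false

namespace Fermat.Agent.S14.helper4867

open ExtCitation

/-- The absolute Galois group of `ℚ` (same expression as in the frozen statement). -/
abbrev GQ : Type := AlgebraicClosure ℚ ≃ₐ[ℚ] AlgebraicClosure ℚ

section Chi

variable (p : ℕ) [Fact p.Prime]

/-- The mod-`p` cyclotomic character of `Gal(Qbar/Q)`, as a monoid hom. -/
noncomputable def chi : GQ →* (ZMod p)ˣ :=
  have : NeZero p := ⟨(Fact.out : p.Prime).ne_zero⟩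
  MonoidHom.mk'
    (fun σ => modularCyclotomicCharacter (AlgebraicClosure ℚ) (card_rootsOfUnity_eq_self p)
      (σ : AlgebraicClosure ℚ ≃+* AlgebraicClosure ℚ))
    (fun a b => by rw [← map_mul]; congr 1)

theorem cycloExp_eq (σ : GQ) : cycloExp p σ = ((chi p σ : (ZMod p)ˣ) : ZMod p).val := rfl

theorem cycloExp_cast (σ : GQ) : ((cycloExp p σ : ℕ) : ZMod p) = ((chi p σ : (ZMod p)ˣ) : ZMod p) := by
  have : NeZero p := ⟨(Fact.out : p.Prime).ne_zero⟩
  rw [cycloExp_eq, ZMod.natCast_zmod_val]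

/-- The group-theoretic core of S14. -/
def Stmt_NoExt : Prop :=
  ∀ N : Subgroup GQ, N.Normal → IsOpen (N : Set GQ) → N ≤ (chi p).ker →
    N.relIndex (chi p).ker = p →
    (∀ σ τ : GQ, τ ∈ (chi p).ker → (σ * τ * σ⁻¹) ^ (cycloExp p σ) * τ⁻¹ ∈ N) →
    (∀ ℓ : ℕ, ℓ.Prime → ℓ ≠ p → ∀ A : ValuationSubring (AlgebraicClosure ℚ),
      A.LiesOverPrime ℓ → A.inertiaSubgroupIn ℚ ≤ N) →
    (∀ A : ValuationSubring (AlgebraicClosure ℚ), A.LiesOverPrime p →
      A.decompositionSubgroup ℚ ⊓ (chi p).ker ≤ N) →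
    False

theorem mem_chi_ker_iff (σ : GQ) : σ ∈ (chi p).ker ↔ ((cycloExp p σ : ℕ) : ZMod p) = 1 := by
  rw [MonoidHom.mem_ker, cycloExp_cast]
  constructor
  · intro h; rw [h]; rfl
  · intro h; exact Units.ext h

/-- The defining property of `chi` on `p`-th roots of unity. -/
theorem chi_spec (σ : GQ) {t : AlgebraicClosure ℚ} (ht : t ^ p = 1) :
    σ t = t ^ ((chi p σ : (ZMod p)ˣ) : ZMod p).val := by
  have : NeZero p := ⟨(Fact.out : p.Prime).ne_zero⟩
  have hu : IsUnit t := IsUnit.of_pow_eq_one ht (NeZero.ne p)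
  obtain ⟨u, rfl⟩ := hu
  have hmem : u ∈ rootsOfUnity p (AlgebraicClosure ℚ) := by
    rw [mem_rootsOfUnity]; exact Units.ext (by simpa using ht)
  exact modularCyclotomicCharacter.spec (AlgebraicClosure ℚ) (card_rootsOfUnity_eq_self p)
    (σ : AlgebraicClosure ℚ ≃+* AlgebraicClosure ℚ) hmem

theorem ratAlgebra_eq' :
    (DivisionRing.toRatAlgebra : Algebra ℚ (AlgebraicClosure ℚ)) = AlgebraicClosure.instAlgebra ℚ :=
  Subsingleton.elim _ _

theorem isGalois_rat' : IsGalois ℚ (AlgebraicClosure ℚ) := by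
  have : IsAlgClosure ℚ (AlgebraicClosure ℚ) := by
    rw [ratAlgebra_eq']
    infer_instance
  infer_instance

/-- An element of `AlgebraicClosure ℚ` fixed by every `ℚ`-automorphism is rational. -/
theorem fixed_mem_range' (x : AlgebraicClosure ℚ) (h : ∀ σ : GQ, σ x = x) :
    ∃ q : ℚ, algebraMap ℚ (AlgebraicClosure ℚ) q = x :=
  haveI := isGalois_rat'
  (InfiniteGalois.mem_range_algebraMap_iff_fixed (k := ℚ) (K := AlgebraicClosure ℚ) x).mpr h

/-- For `p ≥ 3` the mod-`p` cyclotomic character is nontrivial. -/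
theorem exists_chi_ne_one (h3 : 3 ≤ p) : ∃ σ₀ : GQ, chi p σ₀ ≠ 1 := by
  have : NeZero p := ⟨(Fact.out : p.Prime).ne_zero⟩
  by_contra hall
  push Not at hall
  obtain ⟨ζ, hζ⟩ := HasEnoughRootsOfUnity.exists_primitiveRoot (AlgebraicClosure ℚ) p
  have hfix : ∀ σ : GQ, σ ζ = ζ := by
    intro σ
    have := chi_spec p σ hζ.pow_eq_one
    rw [hall σ] at this
    have h1 : ((1 : (ZMod p)ˣ) : ZMod p).val = 1 := by
      have : Fact (1 < p) := ⟨(Fact.out : p.Prime).one_lt⟩
      rw [Units.val_one, ZMod.val_one]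
    rw [h1, pow_one] at this
    exact this
  obtain ⟨q, hq⟩ := fixed_mem_range' ζ hfix
  have hq1 : q ^ p = 1 := by
    have : algebraMap ℚ (AlgebraicClosure ℚ) (q ^ p) = algebraMap ℚ (AlgebraicClosure ℚ) 1 := by
      rw [map_pow, hq, hζ.pow_eq_one, map_one]
    exact (algebraMap ℚ (AlgebraicClosure ℚ)).injective this
  have hodd : Odd p := (Fact.out : p.Prime).odd_of_ne_two (by omega)
  have hq' : q = 1 := by
    have := hodd.strictMono_pow (R := ℚ)
    exact this.injective (by simpa using hq1)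
  rw [hq', map_one] at hq
  exact hζ.ne_one (by omega) hq.symm

end Chi

section Structure

variable {p : ℕ} [Fact p.Prime]

/-- The pointwise stabiliser of `V` in `Gal(Qbar/Q)`. -/
def fixer (V : Type) [AddCommGroup V] [DistribMulAction GQ V] : Subgroup GQ where
  carrier := {σ | ∀ v : V, σ • v = v}
  mul_mem' := fun {a b} ha hb v => by rw [mul_smul, hb v, ha v]
  one_mem' := fun v => one_smul _ v
  inv_mem' := fun {a} ha v => by rw [inv_smul_eq_iff, ha v]

variable {V : Type} [AddCommGroup V] [Module (ZMod p) V]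
  [DistribMulAction GQ V] [SMulCommClass GQ (ZMod p) V]
variable {C : Submodule (ZMod p) V}

theorem mem_fixer {σ : GQ} : σ ∈ fixer V ↔ ∀ v : V, σ • v = v := Iff.rfl

instance fixer_normal : (fixer V).Normal := ⟨fun n hn g v => by
  rw [mul_smul, mul_smul, hn (g⁻¹ • v), smul_inv_smul]⟩

theorem smul_sub_mem (h : IsAdmissibleExtension p V C) {τ : GQ} (hτ : τ ∈ (chi p).ker) (x : V) :
    τ • x - x ∈ C := by
  have := h.cyclo_quot τ x
  rwa [(mem_chi_ker_iff p τ).1 hτ, one_smul] at this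

theorem d_mul (h : IsAdmissibleExtension p V C) (τ : GQ) {τ' : GQ} (hτ' : τ' ∈ (chi p).ker)
    (x : V) : (τ * τ') • x - x = (τ • x - x) + (τ' • x - x) := by
  have h1 : τ • (τ' • x - x) = τ' • x - x := h.fixed_sub τ _ (smul_sub_mem h hτ' x)
  rw [smul_sub] at h1
  have h2 : τ • τ' • x = τ • x + (τ' • x - x) := by rw [← h1]; abel
  rw [mul_smul, h2]; abel

theorem d_pow (h : IsAdmissibleExtension p V C) {τ : GQ} (hτ : τ ∈ (chi p).ker) (n : ℕ)
    (x : V) : (τ ^ n) • x - x = n • (τ • x - x) := by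
  induction n with
  | zero => simp
  | succ n ih => rw [pow_succ, d_mul h _ hτ, ih, succ_nsmul]

theorem d_inv (h : IsAdmissibleExtension p V C) {τ : GQ} (hτ : τ ∈ (chi p).ker)
    (x : V) : τ⁻¹ • x - x = -(τ • x - x) := by
  have := d_mul h τ⁻¹ hτ x
  rw [inv_mul_cancel, one_smul, sub_self] at this
  exact eq_neg_of_add_eq_zero_left this.symm

theorem d_conj (h : IsAdmissibleExtension p V C) (σ : GQ) {τ : GQ} (hτ : τ ∈ (chi p).ker)
    (x : V) :
    (σ * τ * σ⁻¹) • x - x = ((chi p σ⁻¹ : (ZMod p)ˣ) : ZMod p) • (τ • x - x) := by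
  have hx : σ • σ⁻¹ • x = x := smul_inv_smul σ x
  have h1 : σ • (τ • σ⁻¹ • x - σ⁻¹ • x) = τ • σ⁻¹ • x - σ⁻¹ • x :=
    h.fixed_sub σ _ (smul_sub_mem h hτ _)
  have hc : σ⁻¹ • x - ((chi p σ⁻¹ : (ZMod p)ˣ) : ZMod p) • x ∈ C := by
    have := h.cyclo_quot σ⁻¹ x
    rwa [cycloExp_cast] at this
  have h2 := h.fixed_sub τ _ hc
  rw [smul_sub, smul_comm τ ((chi p σ⁻¹ : (ZMod p)ˣ) : ZMod p) x] at h2
  rw [smul_sub, hx] at h1
  rw [mul_smul, mul_smul, h1, smul_sub, sub_eq_sub_iff_sub_eq_sub]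
  exact h2

/-- The twist relation: conjugation by `σ` acts on `ker chi / fixer` through `chi(σ)⁻¹`. -/
theorem twist_mem_fixer (h : IsAdmissibleExtension p V C) (σ : GQ) {τ : GQ}
    (hτ : τ ∈ (chi p).ker) : (σ * τ * σ⁻¹) ^ (cycloExp p σ) * τ⁻¹ ∈ fixer V := by
  intro x
  have hρ : σ * τ * σ⁻¹ ∈ (chi p).ker := (inferInstance : (chi p).ker.Normal).conj_mem τ hτ σ
  have hinv : τ⁻¹ ∈ (chi p).ker := inv_mem hτ
  have h1 := d_mul h ((σ * τ * σ⁻¹) ^ (cycloExp p σ)) hinv x
  rw [d_pow h hρ, d_conj h σ hτ, d_inv h hτ, ← Nat.cast_smul_eq_nsmul (ZMod p), smul_smul,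
    cycloExp_cast, ← Units.val_mul, ← map_mul, mul_inv_cancel, map_one, Units.val_one, one_smul,
    add_neg_cancel] at h1
  exact sub_eq_zero.1 h1

theorem fixer_le_ker (h : IsAdmissibleExtension p V C) : fixer V ≤ (chi p).ker := by
  intro σ hσ
  by_contra hne
  rw [mem_chi_ker_iff] at hne
  have hall : ∀ x : V, x ∈ C := by
    intro x
    have h1 := h.cyclo_quot σ x
    rw [hσ x] at h1
    have h2 : x - (cycloExp p σ : ZMod p) • x = (1 - (cycloExp p σ : ZMod p)) • x := by
      rw [sub_smul, one_smul]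
    rw [h2] at h1
    have hu : (1 - (cycloExp p σ : ZMod p)) ≠ 0 := sub_ne_zero.2 (Ne.symm hne)
    have := C.smul_mem (1 - (cycloExp p σ : ZMod p))⁻¹ h1
    rwa [smul_smul, inv_mul_cancel₀ hu, one_smul] at this
  have hcard : Nat.card C = Nat.card V :=
    Nat.card_congr ⟨fun c => c.1, fun v => ⟨v, hall v⟩, fun _ => rfl, fun _ => rfl⟩
  rw [h.card_sub, h.card_total] at hcard
  have hp := (Fact.out : p.Prime).two_le
  nlinarith

/-- Every vector is `c + a • x₀` with `c ∈ C`, once `x₀ ∉ C`. -/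
theorem exists_decomp (h : IsAdmissibleExtension p V C) {x₀ : V} (hx₀ : x₀ ∉ C) (x : V) :
    ∃ c ∈ C, ∃ a : ZMod p, x = c + a • x₀ := by
  have hp := (Fact.out : p.Prime).pos
  have : Finite V := Nat.finite_of_card_ne_zero (by rw [h.card_total]; positivity)
  let φ : C × ZMod p → V := fun q => (q.1 : V) + q.2 • x₀
  have hinj : Function.Injective φ := by
    rintro ⟨c, a⟩ ⟨c', a'⟩ heq
    simp only [φ] at heq
    have ha : a = a' := by
      by_contra hne
      have hmem : (a - a') • x₀ ∈ C := by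
        have : (a - a') • x₀ = (c' : V) - c := by
          rw [sub_smul, sub_eq_sub_iff_add_eq_add, add_comm, heq, add_comm]
        rw [this]; exact C.sub_mem c'.2 c.2
      have hu : a - a' ≠ 0 := sub_ne_zero.2 hne
      have := C.smul_mem (a - a')⁻¹ hmem
      rw [smul_smul, inv_mul_cancel₀ hu, one_smul] at this
      exact hx₀ this
    subst ha
    have : (c : V) = c' := add_right_cancel heq
    exact Prod.ext (Subtype.ext this) rfl
  have hcard : Nat.card V ≤ Nat.card (C × ZMod p) := by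
    rw [Nat.card_prod, h.card_sub, h.card_total, Nat.card_zmod]
    exact le_of_eq (sq p)
  have hbij := hinj.bijective_of_nat_card_le hcard
  obtain ⟨⟨c, a⟩, hq⟩ := hbij.2 x
  exact ⟨c, c.2, a, hq.symm⟩

/-- An element fixing one vector outside `C` fixes everything. -/
theorem mem_fixer_of_smul_eq (h : IsAdmissibleExtension p V C) {x₀ : V} (hx₀ : x₀ ∉ C)
    {τ : GQ} (hfix : τ • x₀ = x₀) : τ ∈ fixer V := by
  intro x
  obtain ⟨c, hc, a, rfl⟩ := exists_decomp h hx₀ x
  rw [smul_add, h.fixed_sub τ c hc, smul_comm, hfix]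

/-- The Kummer-type homomorphism `τ ↦ τ • x₀ - x₀` from `ker chi` to `C`. -/
noncomputable def kappa (h : IsAdmissibleExtension p V C) (x₀ : V) :
    ↥(chi p).ker →* Multiplicative ↥C where
  toFun τ := Multiplicative.ofAdd ⟨τ.1 • x₀ - x₀, smul_sub_mem h τ.2 x₀⟩
  map_one' := by
    rw [← ofAdd_zero]; congr 1; apply Subtype.ext
    show (1 : GQ) • x₀ - x₀ = 0
    rw [one_smul, sub_self]
  map_mul' := fun τ τ' => by
    rw [← ofAdd_add]; congr 1; apply Subtype.ext
    exact d_mul h τ.1 τ'.2 x₀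

theorem kappa_ker (h : IsAdmissibleExtension p V C) {x₀ : V} (hx₀ : x₀ ∉ C) :
    (kappa h x₀).ker = (fixer V).subgroupOf (chi p).ker := by
  ext τ
  rw [MonoidHom.mem_ker, Subgroup.mem_subgroupOf]
  constructor
  · intro hk
    have : τ.1 • x₀ - x₀ = 0 := congrArg (fun c : Multiplicative ↥C => ((Multiplicative.toAdd c : ↥C) : V)) hk
    exact mem_fixer_of_smul_eq h hx₀ (sub_eq_zero.1 this)
  · intro hk
    show Multiplicative.ofAdd (⟨τ.1 • x₀ - x₀, _⟩ : ↥C) = 1
    rw [← ofAdd_zero]; congr 1; apply Subtype.ext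
    show τ.1 • x₀ - x₀ = 0
    rw [hk x₀, sub_self]

theorem relIndex_fixer (h : IsAdmissibleExtension p V C) (hnle : ¬ (chi p).ker ≤ fixer V) :
    (fixer V).relIndex (chi p).ker = p := by
  have hp := (Fact.out : p.Prime)
  -- a vector outside `C`
  obtain ⟨x₀, hx₀⟩ : ∃ x₀ : V, x₀ ∉ C := by
    by_contra hall
    push Not at hall
    have hcard : Nat.card C = Nat.card V :=
      Nat.card_congr ⟨fun c => c.1, fun v => ⟨v, hall v⟩, fun _ => rfl, fun _ => rfl⟩
    rw [h.card_sub, h.card_total] at hcard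
    have := hp.two_le
    nlinarith
  obtain ⟨τ, hτ, hτn⟩ := Set.not_subset.1 hnle
  have hne : kappa h x₀ ⟨τ, hτ⟩ ≠ 1 := by
    intro h1
    have h2 : (⟨τ, hτ⟩ : ↥(chi p).ker) ∈ (kappa h x₀).ker := h1
    rw [kappa_ker h hx₀, Subgroup.mem_subgroupOf] at h2
    exact hτn h2
  show ((fixer V).subgroupOf (chi p).ker).index = p
  rw [← kappa_ker h hx₀, Subgroup.index_ker]
  have hcardC : Nat.card (Multiplicative ↥C) = p := by
    rw [Nat.card_congr Multiplicative.toAdd, h.card_sub]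
  have hdvd : Nat.card ↥(kappa h x₀).range ∣ p := by
    have := Subgroup.card_subgroup_dvd_card (kappa h x₀).range
    rwa [hcardC] at this
  rcases (Nat.dvd_prime hp).1 hdvd with h1 | h1
  · exfalso
    have hbot : (kappa h x₀).range = ⊥ := Subgroup.card_eq_one.1 h1
    have : kappa h x₀ ⟨τ, hτ⟩ ∈ (kappa h x₀).range := ⟨_, rfl⟩
    rw [hbot, Subgroup.mem_bot] at this
    exact hne this
  · exact h1

/-- The local condition at `p`: `D_A ⊓ ker chi` acts trivially. -/
theorem decomp_inf_ker_le_fixer (h : IsAdmissibleExtension p V C)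
    (A : ValuationSubring (AlgebraicClosure ℚ)) (hA : A.LiesOverPrime p) :
    A.decompositionSubgroup ℚ ⊓ (chi p).ker ≤ fixer V := by
  rintro σ ⟨hσD, hσk⟩ x
  obtain ⟨C', hstab, hcompl⟩ := h.locally_split A hA
  have hx : x ∈ C ⊔ C' := by rw [hcompl.sup_eq_top]; exact Submodule.mem_top
  obtain ⟨c, hc, c', hc', rfl⟩ := Submodule.mem_sup.1 hx
  have h1 : σ • c' - c' ∈ C := smul_sub_mem h hσk c'
  have h2 : σ • c' - c' ∈ C' := C'.sub_mem (hstab σ hσD c' hc') hc'
  have h3 : σ • c' - c' = 0 := by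
    have := hcompl.disjoint
    rw [Submodule.disjoint_def] at this
    exact this _ h1 h2
  rw [smul_add, h.fixed_sub σ c hc, sub_eq_zero.1 h3]

/-- The `g`-eigenspace of `σ₀`. -/
def eigen (σ₀ : GQ) (g : ZMod p) : Submodule (ZMod p) V where
  carrier := {x | σ₀ • x = g • x}
  add_mem' := by
    intro a b ha hb
    simp only [Set.mem_ofPred_eq] at *
    rw [smul_add, ha, hb, smul_add]
  zero_mem' := by simp
  smul_mem' := by
    intro c x hx
    simp only [Set.mem_ofPred_eq] at *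
    rw [smul_comm, hx, smul_comm]

theorem mem_eigen {σ₀ : GQ} {g : ZMod p} {x : V} : x ∈ eigen σ₀ g ↔ σ₀ • x = g • x := Iff.rfl

/-- Maschke case: if `ker chi` acts trivially, the extension splits globally. -/
theorem splits_of_ker_le_fixer (h : IsAdmissibleExtension p V C) (hle : (chi p).ker ≤ fixer V)
    {σ₀ : GQ} (hσ₀ : chi p σ₀ ≠ 1) : SplitsGlobally C := by
  set g : ZMod p := ((chi p σ₀ : (ZMod p)ˣ) : ZMod p) with hg
  have hg1 : 1 - g ≠ 0 := by
    intro h0
    apply hσ₀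
    apply Units.ext
    rw [Units.val_one]
    exact (sub_eq_zero.1 h0).symm
  refine ⟨eigen σ₀ g, ?_, ?_⟩
  · intro σ x hx
    rw [mem_eigen] at hx ⊢
    have hκ : σ₀⁻¹ * σ⁻¹ * σ₀ * σ ∈ (chi p).ker := by
      rw [MonoidHom.mem_ker, map_mul, map_mul, map_mul, map_inv, map_inv]
      rw [mul_comm ((chi p σ₀)⁻¹), mul_assoc, mul_assoc, inv_mul_cancel_left, inv_mul_cancel]
    have hfix := hle hκ x
    calc σ₀ • σ • x = (σ * σ₀ * (σ₀⁻¹ * σ⁻¹ * σ₀ * σ)) • x := by
          rw [← mul_smul]; congr 1; group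
      _ = σ • σ₀ • x := by rw [mul_smul, hfix, mul_smul]
      _ = σ • g • x := by rw [hx]
      _ = g • σ • x := smul_comm _ _ _
  · rw [isCompl_iff]
    constructor
    · rw [Submodule.disjoint_def]
      intro x hxC hxE
      have h1 : σ₀ • x = x := h.fixed_sub σ₀ x hxC
      have h2 : σ₀ • x = g • x := hxE
      have h3 : (1 - g) • x = 0 := by rw [sub_smul, one_smul, ← h2, h1, sub_self]
      exact (smul_eq_zero.1 h3).resolve_left hg1
    · rw [codisjoint_iff, Submodule.eq_top_iff']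
      intro x
      have hc : σ₀ • x - g • x ∈ C := by
        have := h.cyclo_quot σ₀ x
        rwa [cycloExp_cast] at this
      have hcfix : σ₀ • (σ₀ • x - g • x) = σ₀ • x - g • x := h.fixed_sub σ₀ _ hc
      have key : (1 - g)⁻¹ • (σ₀ • x - g • x) - g • (1 - g)⁻¹ • (σ₀ • x - g • x)
          = σ₀ • x - g • x := by
        have := smul_inv_smul₀ hg1 (σ₀ • x - g • x)
        rwa [sub_smul, one_smul] at this
      rw [Submodule.mem_sup]
      refine ⟨(1 - g)⁻¹ • (σ₀ • x - g • x), C.smul_mem _ hc,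
        x - (1 - g)⁻¹ • (σ₀ • x - g • x), ?_, by abel⟩
      rw [mem_eigen, smul_sub, smul_comm σ₀ (1 - g)⁻¹, hcfix, smul_sub g]
      have h5 : σ₀ • x = (σ₀ • x - g • x) + g • x := by abel
      calc σ₀ • x - (1 - g)⁻¹ • (σ₀ • x - g • x)
          = ((1 - g)⁻¹ • (σ₀ • x - g • x) - g • (1 - g)⁻¹ • (σ₀ • x - g • x)) + g • x
            - (1 - g)⁻¹ • (σ₀ • x - g • x) := by rw [key]; abel
        _ = g • x - g • (1 - g)⁻¹ • (σ₀ • x - g • x) := by abel

/-- **R1**: the frozen statement follows from the group-theoretic core. -/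
theorem extVanishingCts_of_noExt (h3 : 3 ≤ p) (H : Stmt_NoExt p) : ExtVanishingCts p := by
  intro V _ _ _ _ C hC
  have h := hC.toIsAdmissibleExtension
  by_cases hle : (chi p).ker ≤ fixer V
  · obtain ⟨σ₀, hσ₀⟩ := exists_chi_ne_one p h3
    exact splits_of_ker_le_fixer h hle hσ₀
  · exfalso
    exact H (fixer V) inferInstance hC.open_kernel (fixer_le_ker h) (relIndex_fixer h hle)
      (fun σ τ hτ => twist_mem_fixer h σ hτ)
      (fun ℓ hℓ hne A hA σ hσ => h.unramified_outside ℓ hℓ hne A hA σ hσ)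
      (fun A hA => decomp_inf_ker_le_fixer h A hA)

end Structure

end Fermat.Agent.S14.helper4867
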