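import Mathlib
import Fermat.Agent.S14.helper1934_ThaineSpec
import Fermat.Agent.S14.helper4867_Reduction
import Fermat.Agent.Lib.helper2489_Unramified

/-!
# S14, Thaine route: package R of `helper1934_ThaineSpec` (helper207)

`Stmt_Reduction p : 3 ≤ p → NoTwistedSplitExt p → ExtCitation.ExtVanishingCts p`.

By `helper4867.extVanishingCts_of_noExt` it suffices to show
`NoTwistedSplitExt p → helper4867.Stmt_NoExt p`: from an open normal subgroup `N` of `Gal(ℚ̄/ℚ)`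
as in `Stmt_NoExt` we build the number fields `F = ℚ(ζ_p)` and `M = ℚ̄^N` inside `ℚ̄` and check
that `M / F` is a twisted split extension.
-/

set_option autoImplicit false
set_option linter.unusedSectionVars false

namespace Fermat.Agent.S14.helper207

open NumberField
open scoped Pointwise
open Fermat.Agent.Lib.helper54 Fermat.Agent.Lib.helper2489
open Fermat.Agent.S14.helper4867 (chi Stmt_NoExt chi_spec)
open Fermat.Agent.S14.helper1934 (TwistedSplitExt NoTwistedSplitExt)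

attribute [local instance] isAlgebraic_Qbar isAlgClosure_Qbar isGalois_Qbar isIntegral_Qbar

local notation "Qb" => AlgebraicClosure ℚ
local notation "GQ" => (AlgebraicClosure ℚ ≃ₐ[ℚ] AlgebraicClosure ℚ)
local notation "Zb" => integralClosure ℤ (AlgebraicClosure ℚ)

/-! ## Lifting the decomposition group -/

/-- Lifting decomposition: if `σ₀` preserves the trace of the prime `Q` of `ℤ̄` on the integers
of a normal extension `F` of `ℚ`, then some `ρ σ₀` with `ρ ∈ Gal(ℚ̄/F)` stabilises `Q`. -/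
theorem exists_decomp_lift (F : IntermediateField ℚ Qb) [Normal ℚ F]
    (Q : Ideal Zb) [Q.IsPrime] (σ₀ : GQ)
    (h₀ : ∀ z : Zb, (z : Qb) ∈ F → (z ∈ Q ↔ σ₀ • z ∈ Q)) :
    ∃ ρ ∈ F.fixingSubgroup, (ρ * σ₀) • Q = Q := by
  classical
  let N : Subgroup GQ := F.fixingSubgroup
  let _ : TopologicalSpace Zb := ⊥
  have : DiscreteTopology Zb := ⟨rfl⟩
  have hcont : ContinuousSMul GQ Zb := continuousSMul_GQ_Zbar
  have : ContinuousSMul N Zb := by
    refine ⟨?_⟩
    have h1 : Continuous fun p : N × Zb => ((p.1 : GQ), p.2) :=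
      (continuous_subtype_val.comp continuous_fst).prodMk continuous_snd
    exact hcont.continuous_smul.comp h1
  have hNclosed : IsClosed (N : Set GQ) := InfiniteGalois.fixingSubgroup_isClosed F
  have : CompactSpace N := isCompact_iff_compactSpace.mp hNclosed.isCompact
  let A' := FixedPoints.subalgebra ℤ Zb N
  have : SMulCommClass N A' Zb := instSMulCommClassSubtypeMemSubalgebraSubalgebra ℤ Zb N
  have : Algebra.IsInvariant A' Zb N := ⟨fun x h => ⟨⟨x, h⟩, rfl⟩⟩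
  have hA'F : ∀ a : A', ((a : Zb) : Qb) ∈ F := fun a => coe_mem_of_fixed F a.1 a.2
  have hσF : ∀ (σ : GQ) (z : Zb), (z : Qb) ∈ F → ((σ • z : Zb) : Qb) ∈ F := by
    intro σ z hz
    rw [integralClosure.coe_smul]
    exact apply_mem_of_normal F σ hz
  have hunder : (σ₀ • Q).under A' = Q.under A' := by
    ext a
    simp only [Ideal.under, Ideal.mem_comap]
    change (a : Zb) ∈ σ₀ • Q ↔ (a : Zb) ∈ Q
    rw [Ideal.mem_pointwise_smul_iff_inv_smul_mem]
    have hz : ((σ₀⁻¹ • (a : Zb) : Zb) : Qb) ∈ F := hσF σ₀⁻¹ a (hA'F a)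
    have h1 := h₀ (σ₀⁻¹ • (a : Zb)) hz
    rw [smul_inv_smul] at h1
    exact h1
  obtain ⟨ρ₁, hρ₁⟩ := Algebra.IsInvariant.exists_smul_of_under_eq_of_profinite
    (A := A') (B := Zb) (G := N) (σ₀ • Q) Q hunder
  refine ⟨(ρ₁ : GQ), ρ₁.2, ?_⟩
  rw [mul_smul]
  exact hρ₁.symm

/-! ## The cyclotomic character and `ℚ(ζ_p)` -/

section Chi

variable (p : ℕ) [Fact p.Prime]

theorem mem_chi_ker_iff_apply {ζ : Qb} (hζ : IsPrimitiveRoot ζ p) (σ : GQ) :
    σ ∈ (chi p).ker ↔ σ ζ = ζ := by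
  have hp := (Fact.out : p.Prime)
  have : NeZero p := ⟨hp.ne_zero⟩
  have hspec := chi_spec p σ hζ.pow_eq_one
  rw [MonoidHom.mem_ker]
  constructor
  · intro h
    rw [hspec, h]
    have h1 : ((1 : (ZMod p)ˣ) : ZMod p).val = 1 := by
      have : Fact (1 < p) := ⟨hp.one_lt⟩
      rw [Units.val_one, ZMod.val_one]
    rw [h1, pow_one]
  · intro h
    rw [hspec] at h
    have hv : ((chi p σ : (ZMod p)ˣ) : ZMod p).val < p := ZMod.val_lt _
    have h1 : ((chi p σ : (ZMod p)ˣ) : ZMod p).val = 1 :=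
      hζ.pow_inj hv hp.one_lt (by rw [h, pow_one])
    apply Units.ext
    have h2 : ((chi p σ : (ZMod p)ˣ) : ZMod p) = ((1 : ℕ) : ZMod p) := by
      rw [← h1, ZMod.natCast_zmod_val]
    simpa using h2

theorem chi_ker_eq_fixingSubgroup {ζ : Qb} (hζ : IsPrimitiveRoot ζ p) :
    (chi p).ker = (IntermediateField.adjoin ℚ {ζ}).fixingSubgroup := by
  ext σ
  rw [mem_chi_ker_iff_apply p hζ, IntermediateField.mem_fixingSubgroup_iff]
  constructor
  · intro h x hx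
    have hs : σ ∈ MulAction.stabilizer GQ ζ := h
    have hle : IntermediateField.adjoin ℚ {ζ} ≤
        IntermediateField.fixedField (Subgroup.zpowers σ) := by
      rw [IntermediateField.adjoin_le_iff]
      rintro y rfl
      rw [SetLike.mem_coe, IntermediateField.mem_fixedField_iff]
      intro g hg
      exact (Subgroup.zpowers_le.mpr hs) hg
    exact (IntermediateField.mem_fixedField_iff _ x).mp (hle hx) σ (Subgroup.mem_zpowers σ)
  · intro h
    exact h ζ (IntermediateField.mem_adjoin_simple_self ℚ ζ)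

/-- `p`-th powers of elements of `ker χ` lie in `N`. -/
theorem pow_mem_of_relIndex {N : Subgroup GQ} (hNn : N.Normal)
    (hidx : N.relIndex (chi p).ker = p) {h : GQ} (hh : h ∈ (chi p).ker) : h ^ p ∈ N := by
  have h1 := Subgroup.pow_index_mem (N.subgroupOf (chi p).ker) (⟨h, hh⟩ : (chi p).ker)
  have h2 : (N.subgroupOf (chi p).ker).index = p := hidx
  rw [h2, Subgroup.mem_subgroupOf] at h1
  simpa using h1

theorem pow_mul_inv_pow_mem {N : Subgroup GQ} (hNn : N.Normal)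
    (hidx : N.relIndex (chi p).ker = p) {h : GQ} (hh : h ∈ (chi p).ker) {a c : ℕ}
    (hac : c ≡ a [MOD p]) : h ^ a * (h ^ c)⁻¹ ∈ N := by
  obtain ⟨k, hk⟩ := (Nat.modEq_iff_dvd.mp hac)
  have h1 : h ^ a * (h ^ c)⁻¹ = (h ^ p) ^ k := by
    rw [← zpow_natCast h a, ← zpow_natCast h c, ← zpow_neg, ← zpow_add, ← zpow_natCast h p,
      ← zpow_mul, ← hk, sub_eq_add_neg]
  rw [h1]
  exact N.zpow_mem (pow_mem_of_relIndex p hNn hidx hh) k

/-! ## The three local/twist cores, in `Gal(ℚ̄/ℚ)` -/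

section Core

variable {N : Subgroup GQ}
  (hNle : N ≤ (chi p).ker)
  (hI : ∀ ℓ : ℕ, ℓ.Prime → ℓ ≠ p → ∀ A : ValuationSubring Qb,
      A.LiesOverPrime ℓ → A.inertiaSubgroupIn ℚ ≤ N)
  (hD : ∀ A : ValuationSubring Qb, A.LiesOverPrime p →
      A.decompositionSubgroup ℚ ⊓ (chi p).ker ≤ N)

include hNle hI hD in
/-- Inertia core: an element of `ker χ` acting trivially on the integers of `M = ℚ̄^N` modulo a
prime lies in `N`. -/
theorem mem_of_inertia (Mq : IntermediateField ℚ Qb) [Normal ℚ Mq]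
    (hMfix : Mq.fixingSubgroup = N) {ℓ : ℕ} (hℓ : ℓ.Prime) (A : ValuationSubring Qb)
    (hA : A.LiesOverPrime ℓ) (σ₀ : GQ) (hσ₀ : σ₀ ∈ (chi p).ker)
    (h₀ : ∀ z : Zb, (z : Qb) ∈ Mq → σ₀ • z - z ∈ primeOfValuationSubring A) : σ₀ ∈ N := by
  obtain ⟨ρ, hρ, hσQ, hσz⟩ := exists_inertia_lift Mq (primeOfValuationSubring A) σ₀ h₀
  have hτ : ρ * σ₀ ∈ A.inertiaSubgroupIn ℚ := mem_inertiaSubgroupIn_of_zbar hℓ A hA _ hσQ hσz
  have hρN : ρ ∈ N := hMfix ▸ hρ
  have hmem : ρ * σ₀ ∈ N := by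
    by_cases hℓp : ℓ = p
    · subst hℓp
      have hdec : ρ * σ₀ ∈ A.decompositionSubgroup ℚ :=
        mem_decompositionSubgroup_of_smul_prime_eq hℓ A hA _ hσQ
      exact hD A hA ⟨hdec, (chi ℓ).ker.mul_mem (hNle hρN) hσ₀⟩
    · exact hI ℓ hℓ hℓp A hA hτ
  have := N.mul_mem (N.inv_mem hρN) hmem
  simpa using this

include hNle hD in
/-- Decomposition core: an element of `ker χ` preserving the trace of a prime above `p` on the
integers of `M = ℚ̄^N` lies in `N`. -/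
theorem mem_of_decomp (Mq : IntermediateField ℚ Qb) [Normal ℚ Mq]
    (hMfix : Mq.fixingSubgroup = N) (A : ValuationSubring Qb)
    (hA : A.LiesOverPrime p) (σ₀ : GQ) (hσ₀ : σ₀ ∈ (chi p).ker)
    (h₀ : ∀ z : Zb, (z : Qb) ∈ Mq →
      (z ∈ primeOfValuationSubring A ↔ σ₀ • z ∈ primeOfValuationSubring A)) : σ₀ ∈ N := by
  have hp := (Fact.out : p.Prime)
  obtain ⟨ρ, hρ, hσQ⟩ := exists_decomp_lift Mq (primeOfValuationSubring A) σ₀ h₀
  have hρN : ρ ∈ N := hMfix ▸ hρ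
  have hdec : ρ * σ₀ ∈ A.decompositionSubgroup ℚ :=
    mem_decompositionSubgroup_of_smul_prime_eq hp A hA _ hσQ
  have hmem : ρ * σ₀ ∈ N := hD A hA ⟨hdec, (chi p).ker.mul_mem (hNle hρN) hσ₀⟩
  have := N.mul_mem (N.inv_mem hρN) hmem
  simpa using this

omit hNle hI hD in
/-- Twist core. -/
theorem twist_mem (hNn : N.Normal) (hidx : N.relIndex (chi p).ker = p)
    (htw : ∀ σ τ : GQ, τ ∈ (chi p).ker →
      (σ * τ * σ⁻¹) ^ (ExtCitation.cycloExp p σ) * τ⁻¹ ∈ N)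
    {ζ : Qb} (hζ : IsPrimitiveRoot ζ p) (gσ gn : GQ) (hgn : gn ∈ (chi p).ker) (a : ℕ)
    (ha : gσ ζ = ζ ^ a) : (gσ * gn * gσ⁻¹) ^ a * gn⁻¹ ∈ N := by
  have hp := (Fact.out : p.Prime)
  have h1 := htw gσ gn hgn
  have hc : gσ ζ = ζ ^ (ExtCitation.cycloExp p gσ) := by
    rw [Fermat.Agent.S14.helper4867.cycloExp_eq]
    exact chi_spec p gσ hζ.pow_eq_one
  have hac : ExtCitation.cycloExp p gσ ≡ a [MOD p] := by
    have h2 : ζ ^ (ExtCitation.cycloExp p gσ) = ζ ^ a := by rw [← hc, ha]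
    have h3 : ζ ^ (ExtCitation.cycloExp p gσ % p) = ζ ^ (a % p) := by
      rw [← pow_eq_pow_mod _ hζ.pow_eq_one, ← pow_eq_pow_mod _ hζ.pow_eq_one, h2]
    exact hζ.pow_inj (Nat.mod_lt _ hp.pos) (Nat.mod_lt _ hp.pos) h3
  have hconj : gσ * gn * gσ⁻¹ ∈ (chi p).ker :=
    (MonoidHom.normal_ker (chi p)).conj_mem gn hgn gσ
  have h4 := pow_mul_inv_pow_mem p hNn hidx hconj hac
  have := N.mul_mem h4 h1
  simpa [mul_assoc] using this

end Core

end Chi

/-! ## Lifts from a normal intermediate field to `Gal(ℚ̄/ℚ)` -/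

section Lift

variable (Mq : IntermediateField ℚ Qb)

theorem exists_lift_ringEquiv [Normal ℚ Mq] (e : ↥Mq ≃+* ↥Mq) :
    ∃ g : GQ, ∀ x : ↥Mq, g (x : Qb) = (e x : Qb) := by
  let e' : ↥Mq ≃ₐ[ℚ] ↥Mq := AlgEquiv.ofRingEquiv (f := e) (fun q => by
    rw [eq_ratCast (algebraMap ℚ ↥Mq) q, map_ratCast])
  exact ⟨e'.liftNormal Qb, fun x => AlgEquiv.liftNormal_commutes e' Qb x⟩

theorem lifts_mul {g g' : GQ} {s s' : ↥Mq ≃ₐ[ℚ] ↥Mq}
    (h : ∀ x : ↥Mq, g (x : Qb) = (s x : Qb)) (h' : ∀ x : ↥Mq, g' (x : Qb) = (s' x : Qb)) :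
    ∀ x : ↥Mq, (g * g') (x : Qb) = ((s * s') x : Qb) := fun x => by
  rw [AlgEquiv.mul_apply, AlgEquiv.mul_apply, h', h]

theorem lifts_inv {g : GQ} {s : ↥Mq ≃ₐ[ℚ] ↥Mq}
    (h : ∀ x : ↥Mq, g (x : Qb) = (s x : Qb)) :
    ∀ x : ↥Mq, g⁻¹ (x : Qb) = ((s⁻¹) x : Qb) := fun x => by
  apply g.injective
  rw [← AlgEquiv.mul_apply, mul_inv_cancel, AlgEquiv.one_apply, h, ← AlgEquiv.mul_apply,
    mul_inv_cancel, AlgEquiv.one_apply]

theorem lifts_pow {g : GQ} {s : ↥Mq ≃ₐ[ℚ] ↥Mq}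
    (h : ∀ x : ↥Mq, g (x : Qb) = (s x : Qb)) (a : ℕ) :
    ∀ x : ↥Mq, (g ^ a) (x : Qb) = ((s ^ a) x : Qb) := by
  induction a with
  | zero => intro x; simp
  | succ k ih =>
    intro x
    rw [pow_succ, pow_succ]
    exact lifts_mul Mq ih h x

end Lift

/-! ## Integers of an intermediate number field inside `ℤ̄` -/

theorem exists_prime_natCast_mem (K : Type*) [Field K] [NumberField K] (P : Ideal (𝓞 K))
    (hP : P.IsPrime) (hPbot : P ≠ ⊥) : ∃ ℓ : ℕ, ℓ.Prime ∧ (ℓ : 𝓞 K) ∈ P := by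
  have h1 : (Ideal.absNorm P : 𝓞 K) ∈ P := Ideal.absNorm_mem P
  have h0 : Ideal.absNorm P ≠ 0 := by rwa [Ne, Ideal.absNorm_eq_zero_iff]
  have key : ∀ n : ℕ, n ≠ 0 → (n : 𝓞 K) ∈ P → ∃ ℓ : ℕ, ℓ.Prime ∧ (ℓ : 𝓞 K) ∈ P := by
    intro n
    induction n using Nat.strong_induction_on with
    | _ n ih =>
      intro hn hnP
      by_cases hn1 : n = 1
      · subst hn1
        exact absurd ((Ideal.eq_top_iff_one P).mpr (by simpa using hnP)) hP.ne_top
      · obtain ⟨q, hq, m, rfl⟩ := Nat.exists_prime_and_dvd hn1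
        rw [Nat.cast_mul] at hnP
        rcases hP.mem_or_mem hnP with h | h
        · exact ⟨q, hq, h⟩
        · have hm0 : m ≠ 0 := right_ne_zero_of_mul hn
          have hlt : m < q * m := by
            have := hq.one_lt
            have hmpos : 0 < m := Nat.pos_of_ne_zero hm0
            nlinarith
          exact ih m hlt hm0 h
  exact key _ h0 h1

section NF

variable (Mq : IntermediateField ℚ Qb) [NumberField ↥Mq]

/-- The embedding of the integers of `Mq` into `ℤ̄`. -/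
noncomputable def toZb : 𝓞 ↥Mq →+* Zb where
  toFun x := ⟨((x : ↥Mq) : Qb),
    map_isIntegral_int (algebraMap ↥Mq Qb) (NumberField.RingOfIntegers.isIntegral_coe x)⟩
  map_one' := rfl
  map_mul' _ _ := rfl
  map_zero' := rfl
  map_add' _ _ := rfl

theorem coe_toZb (x : 𝓞 ↥Mq) : ((toZb Mq x : Zb) : Qb) = ((x : ↥Mq) : Qb) := rfl

theorem exists_toZb_eq (z : Zb) (hz : (z : Qb) ∈ Mq) : ∃ x : 𝓞 ↥Mq, toZb Mq x = z := by
  have hint : IsIntegral ℤ (⟨(z : Qb), hz⟩ : ↥Mq) := by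
    have h1 : IsIntegral ℤ (algebraMap ↥Mq Qb ⟨(z : Qb), hz⟩) := z.2
    exact (isIntegral_algebraMap_iff (algebraMap ↥Mq Qb).injective).mp h1
  exact ⟨⟨⟨(z : Qb), hz⟩, hint⟩, Subtype.ext rfl⟩

theorem toZb_injective : Function.Injective (toZb Mq) := by
  intro x y hxy
  have h1 : ((x : ↥Mq) : Qb) = ((y : ↥Mq) : Qb) := congrArg (fun w : Zb => (w : Qb)) hxy
  exact NumberField.RingOfIntegers.ext (Subtype.ext h1)

/-- A valuation subring of `ℚ̄` cutting out a given nonzero prime of the integers of `Mq`. -/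
theorem exists_valuationSubring_over (P : Ideal (𝓞 ↥Mq)) (hP : P.IsPrime) (hPbot : P ≠ ⊥)
    (ℓ : ℕ) (hℓP : (ℓ : 𝓞 ↥Mq) ∈ P) :
    ∃ A : ValuationSubring Qb, A.LiesOverPrime ℓ ∧
      ∀ x : 𝓞 ↥Mq, toZb Mq x ∈ primeOfValuationSubring A ↔ x ∈ P := by
  have hPmax : P.IsMaximal := hP.isMaximal hPbot
  let f : 𝓞 ↥Mq →+* Qb := (algebraMap Zb Qb).comp (toZb Mq)
  have hf : Function.Injective f := by
    intro x y hxy
    exact toZb_injective Mq (Subtype.ext hxy)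
  obtain ⟨A, -, hAP⟩ := exists_valuationSubring_nonunits f hf P hP.ne_top
  have hle : P ≤ (primeOfValuationSubring A).comap (toZb Mq) := by
    intro x hx
    rw [Ideal.mem_comap, mem_primeOfValuationSubring]
    exact hAP x hx
  have htop : (primeOfValuationSubring A).comap (toZb Mq) ≠ ⊤ :=
    (Ideal.comap_isPrime (toZb Mq) (primeOfValuationSubring A)).ne_top
  have heq : P = (primeOfValuationSubring A).comap (toZb Mq) := hPmax.eq_of_le htop hle
  refine ⟨A, ?_, fun x => ?_⟩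
  · have h1 := hAP _ hℓP
    have h2 : f (ℓ : 𝓞 ↥Mq) = (ℓ : Qb) := by simp
    rw [h2] at h1
    exact h1
  · conv_rhs => rw [heq]
    rw [Ideal.mem_comap]

end NF

/-! ## Unramified and split, at number-field level -/

section Local

variable (p : ℕ) [Fact p.Prime] {N : Subgroup GQ}
  (hNle : N ≤ (chi p).ker)
  (hI : ∀ ℓ : ℕ, ℓ.Prime → ℓ ≠ p → ∀ A : ValuationSubring Qb,
      A.LiesOverPrime ℓ → A.inertiaSubgroupIn ℚ ≤ N)
  (hD : ∀ A : ValuationSubring Qb, A.LiesOverPrime p →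
      A.decompositionSubgroup ℚ ⊓ (chi p).ker ≤ N)
  (Mq : IntermediateField ℚ Qb) [NumberField ↥Mq] [Normal ℚ Mq]
  (hMfix : Mq.fixingSubgroup = N)

include hNle hI hD hMfix in
theorem mem_of_unram (e : ↥Mq ≃+* ↥Mq) (g : GQ)
    (hg : ∀ x : ↥Mq, g (x : Qb) = (e x : Qb)) (hgker : g ∈ (chi p).ker)
    (P : Ideal (𝓞 ↥Mq)) (hP : P.IsPrime) (hPbot : P ≠ ⊥)
    (hσ : ∀ x y : 𝓞 ↥Mq, (y : ↥Mq) = e (x : ↥Mq) → y - x ∈ P) : g ∈ N := by
  obtain ⟨ℓ, hℓ, hℓP⟩ := exists_prime_natCast_mem ↥Mq P hP hPbot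
  obtain ⟨A, hA, hAP⟩ := exists_valuationSubring_over Mq P hP hPbot ℓ hℓP
  refine mem_of_inertia p hNle hI hD Mq hMfix hℓ A hA g hgker ?_
  intro z hz
  obtain ⟨x, rfl⟩ := exists_toZb_eq Mq z hz
  have hgx : ((g • toZb Mq x : Zb) : Qb) = ((e (x : ↥Mq) : ↥Mq) : Qb) := by
    rw [integralClosure.coe_smul, coe_toZb]
    exact hg _
  have hy : ((g • toZb Mq x : Zb) : Qb) ∈ Mq := by
    rw [hgx]
    exact (e (x : ↥Mq)).2
  obtain ⟨y, hy'⟩ := exists_toZb_eq Mq (g • toZb Mq x) hy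
  have hyx : (y : ↥Mq) = e (x : ↥Mq) := by
    apply Subtype.ext
    rw [← hgx, ← hy', coe_toZb]
  have h1 := (hAP (y - x)).mpr (hσ x y hyx)
  rwa [map_sub, hy'] at h1

include hNle hD hMfix in
theorem mem_of_split (e : ↥Mq ≃+* ↥Mq) (g : GQ)
    (hg : ∀ x : ↥Mq, g (x : Qb) = (e x : Qb)) (hgker : g ∈ (chi p).ker)
    (P : Ideal (𝓞 ↥Mq)) (hP : P.IsPrime) (hpP : (p : 𝓞 ↥Mq) ∈ P)
    (hσ : ∀ x y : 𝓞 ↥Mq, (y : ↥Mq) = e (x : ↥Mq) → (x ∈ P ↔ y ∈ P)) : g ∈ N := by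
  have hp := (Fact.out : p.Prime)
  have hPbot : P ≠ ⊥ := by
    intro h
    rw [h, Ideal.mem_bot] at hpP
    exact hp.ne_zero (by exact_mod_cast hpP)
  obtain ⟨A, hA, hAP⟩ := exists_valuationSubring_over Mq P hP hPbot p hpP
  refine mem_of_decomp p hNle hD Mq hMfix A hA g hgker ?_
  intro z hz
  obtain ⟨x, rfl⟩ := exists_toZb_eq Mq z hz
  have hgx : ((g • toZb Mq x : Zb) : Qb) = ((e (x : ↥Mq) : ↥Mq) : Qb) := by
    rw [integralClosure.coe_smul, coe_toZb]
    exact hg _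
  have hy : ((g • toZb Mq x : Zb) : Qb) ∈ Mq := by
    rw [hgx]
    exact (e (x : ↥Mq)).2
  obtain ⟨y, hy'⟩ := exists_toZb_eq Mq (g • toZb Mq x) hy
  have hyx : (y : ↥Mq) = e (x : ↥Mq) := by
    apply Subtype.ext
    rw [← hgx, ← hy', coe_toZb]
  rw [← hy', hAP, hAP]
  exact hσ x y hyx

end Local

/-! ## Assembly -/

section Main

variable {p : ℕ} [Fact p.Prime]

/-- From the group-theoretic datum to a twisted split extension. -/
theorem false_of_datum (h : NoTwistedSplitExt p) {N : Subgroup GQ} (hNn : N.Normal)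
    (hNo : IsOpen (N : Set GQ)) (hNle : N ≤ (chi p).ker)
    (hidx : N.relIndex (chi p).ker = p)
    (htw : ∀ σ τ : GQ, τ ∈ (chi p).ker →
      (σ * τ * σ⁻¹) ^ (ExtCitation.cycloExp p σ) * τ⁻¹ ∈ N)
    (hI : ∀ ℓ : ℕ, ℓ.Prime → ℓ ≠ p → ∀ A : ValuationSubring Qb,
      A.LiesOverPrime ℓ → A.inertiaSubgroupIn ℚ ≤ N)
    (hD : ∀ A : ValuationSubring Qb, A.LiesOverPrime p →
      A.decompositionSubgroup ℚ ⊓ (chi p).ker ≤ N)
    {ζ : Qb} (hζ : IsPrimitiveRoot ζ p) (Fq Mq : IntermediateField ℚ Qb)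
    [IsCyclotomicExtension {p} ℚ ↥Fq] (hζF : ζ ∈ Fq)
    (hFfix : Fq.fixingSubgroup = (chi p).ker) (hMfix : Mq.fixingSubgroup = N) : False := by
  have hp := (Fact.out : p.Prime)
  have : NeZero p := ⟨hp.ne_zero⟩
  have hFM : Fq ≤ Mq := by
    rw [← InfiniteGalois.fixedField_fixingSubgroup Fq, ← InfiniteGalois.fixedField_fixingSubgroup Mq,
      hFfix, hMfix]
    intro x hx
    rw [IntermediateField.mem_fixedField_iff] at hx ⊢
    exact fun g hg => hx g (hNle hg)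
  have hFfd : FiniteDimensional ℚ ↥Fq := IsCyclotomicExtension.finiteDimensional {p} ℚ ↥Fq
  have hMfd : FiniteDimensional ℚ ↥Mq :=
    (InfiniteGalois.isOpen_iff_finite Mq).mp (by rw [hMfix]; exact hNo)
  have hMgal : IsGalois ℚ ↥Mq :=
    (InfiniteGalois.normal_iff_isGalois Mq).mp (by rw [hMfix]; exact hNn)
  have : Normal ℚ ↥Mq := hMgal.to_normal
  have : NumberField ↥Fq := { to_charZero := inferInstance, to_finiteDimensional := hFfd }
  have : NumberField ↥Mq := { to_charZero := inferInstance, to_finiteDimensional := hMfd }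
  let algFM : Algebra ↥Fq ↥Mq := (IntermediateField.inclusion hFM).toRingHom.toAlgebra
  -- lifts of `F`-automorphisms lie in `ker χ`
  have hker : ∀ (n : ↥Mq ≃ₐ[↥Fq] ↥Mq) (g : GQ), (∀ x : ↥Mq, g (x : Qb) = (n x : Qb)) →
      g ∈ (chi p).ker := by
    intro n g hg
    rw [← hFfix, IntermediateField.mem_fixingSubgroup_iff]
    intro x hx
    have h1 := hg ⟨x, hFM hx⟩
    have h2 : n ⟨x, hFM hx⟩ = ⟨x, hFM hx⟩ := n.commutes ⟨x, hx⟩
    rw [h2] at h1
    exact h1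
  -- automorphisms with a lift in `N` are trivial
  have htriv : ∀ (n : ↥Mq ≃ₐ[↥Fq] ↥Mq) (g : GQ), (∀ x : ↥Mq, g (x : Qb) = (n x : Qb)) →
      g ∈ N → n = 1 := by
    intro n g hg hgN
    rw [← hMfix, IntermediateField.mem_fixingSubgroup_iff] at hgN
    apply AlgEquiv.ext
    intro x
    apply Subtype.ext
    rw [← hg x]
    exact hgN _ x.2
  refine h ↥Fq ↥Mq (⟨ζ, hζF⟩ : ↥Fq) ⟨?_, hMgal, ?_, ?_, ?_, ?_, ?_⟩
  · -- prim
    exact (IsPrimitiveRoot.coe_submonoidClass_iff (ζ := (⟨ζ, hζF⟩ : ↥Fq))).mp hζ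
  · -- galois
    exact IsGalois.tower_top_of_isGalois ℚ ↥Fq ↥Mq
  · -- degree
    have h1 : Module.finrank ℚ ↥Mq = N.index := by
      rw [← hMfix]
      exact IntermediateField.finrank_eq_fixingSubgroup_index Qb Mq
    have h2 : Module.finrank ℚ ↥Fq = (chi p).ker.index := by
      rw [← hFfix]
      exact IntermediateField.finrank_eq_fixingSubgroup_index Qb Fq
    have h3 := Module.finrank_mul_finrank ℚ ↥Fq ↥Mq
    have h4 := Subgroup.relIndex_mul_index hNle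
    have h5 : 0 < Module.finrank ℚ ↥Fq := Module.finrank_pos
    rw [h1, h2] at h3
    rw [hidx] at h4
    rw [h2] at h5
    apply Nat.eq_of_mul_eq_mul_left h5
    rw [h3, ← h4, mul_comm]
  · -- unram
    intro P hP hPbot σ hσ
    obtain ⟨g, hg⟩ := exists_lift_ringEquiv Mq σ.toRingEquiv
    refine htriv σ g hg (mem_of_unram p hNle hI hD Mq hMfix σ.toRingEquiv g hg (hker σ g hg)
      P hP hPbot ?_)
    intro x y hyx
    have hy : y = σ • x := NumberField.RingOfIntegers.ext hyx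
    rw [hy]
    exact hσ x
  · -- split
    intro P hP hpP σ hσ
    obtain ⟨g, hg⟩ := exists_lift_ringEquiv Mq σ.toRingEquiv
    refine htriv σ g hg (mem_of_split p hNle hD Mq hMfix σ.toRingEquiv g hg (hker σ g hg)
      P hP hpP ?_)
    intro x y hyx
    have hy : y = σ • x := NumberField.RingOfIntegers.ext hyx
    rw [hy]
    refine ⟨hσ x, fun hx => ?_⟩
    have hpow : ∀ (k : ℕ) (w : 𝓞 ↥Mq), w ∈ P → σ ^ k • w ∈ P := by
      intro k
      induction k with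
      | zero => intro w hw; simpa using hw
      | succ k ih =>
        intro w hw
        rw [pow_succ', mul_smul]
        exact hσ _ (ih w hw)
    have hk : 0 < orderOf σ := orderOf_pos σ
    have h1 := hpow (orderOf σ - 1) (σ • x) hx
    rw [← mul_smul, ← pow_succ, Nat.sub_add_cancel hk, pow_orderOf_eq_one, one_smul] at h1
    exact h1
  · -- twist
    intro σ n a ha
    obtain ⟨gσ, hgσ⟩ := exists_lift_ringEquiv Mq σ.toRingEquiv
    obtain ⟨gn, hgn⟩ := exists_lift_ringEquiv Mq n.toRingEquiv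
    have hgnker : gn ∈ (chi p).ker := hker n gn hgn
    have hgσζ : gσ ζ = ζ ^ a := by
      have h1 := hgσ (algebraMap ↥Fq ↥Mq (⟨ζ, hζF⟩ : ↥Fq))
      have h2 : ((σ.toRingEquiv (algebraMap ↥Fq ↥Mq (⟨ζ, hζF⟩ : ↥Fq)) : ↥Mq) : Qb) = ζ ^ a := by
        have h3 : σ.toRingEquiv (algebraMap ↥Fq ↥Mq (⟨ζ, hζF⟩ : ↥Fq)) =
            algebraMap ↥Fq ↥Mq (⟨ζ, hζF⟩ : ↥Fq) ^ a := ha
        rw [h3]
        rfl
      rw [h2] at h1
      exact h1
    have hmem := twist_mem p hNn hidx htw hζ gσ gn hgnker a hgσζ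
    rw [← hMfix, IntermediateField.mem_fixingSubgroup_iff] at hmem
    have hL : ∀ y : ↥Mq, ((gσ * gn * gσ⁻¹) ^ a) (y : Qb) =
        (((σ * n.restrictScalars ℚ * σ⁻¹) ^ a) y : Qb) :=
      lifts_pow Mq (lifts_mul Mq (lifts_mul Mq hgσ hgn) (lifts_inv Mq hgσ)) a
    apply AlgEquiv.ext
    intro x
    apply Subtype.ext
    rw [← hL x]
    have h1 := hmem ((n x : ↥Mq) : Qb) (n x).2
    rw [AlgEquiv.mul_apply] at h1
    have h2 : gn⁻¹ ((n x : ↥Mq) : Qb) = (x : Qb) := by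
      apply gn.injective
      rw [← AlgEquiv.mul_apply, mul_inv_cancel, AlgEquiv.one_apply]
      exact (hgn x).symm
    rw [h2] at h1
    exact h1

/-- **Package R, group form**: no twisted split extension implies the group-theoretic core of
`helper4867`. -/
theorem noExt_of_noTwistedSplitExt (h : NoTwistedSplitExt p) : Stmt_NoExt p := by
  intro N hNn hNo hNle hidx htw hI hD
  have hp := (Fact.out : p.Prime)
  have : NeZero p := ⟨hp.ne_zero⟩
  obtain ⟨ζ, hζ⟩ := HasEnoughRootsOfUnity.exists_primitiveRoot Qb p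
  have : IsCyclotomicExtension {p} ℚ ↥(IntermediateField.adjoin ℚ {ζ}) :=
    hζ.intermediateField_adjoin_isCyclotomicExtension (K := ℚ)
  exact false_of_datum h hNn hNo hNle hidx htw hI hD hζ (IntermediateField.adjoin ℚ {ζ})
    (IntermediateField.fixedField N) (IntermediateField.mem_adjoin_simple_self ℚ ζ)
    (chi_ker_eq_fixingSubgroup p hζ).symm
    (InfiniteGalois.fixingSubgroup_fixedField
      (⟨N, Subgroup.isClosed_of_isOpen N hNo⟩ : ClosedSubgroup GQ))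

/-- **Package R** of `helper1934_ThaineSpec`. -/
theorem stmt_Reduction (p : ℕ) [Fact p.Prime] : Fermat.Agent.S14.helper1934.Stmt_Reduction p :=
  fun h3 h => Fermat.Agent.S14.helper4867.extVanishingCts_of_noExt h3
    (noExt_of_noTwistedSplitExt h)

end Main

end Fermat.Agent.S14.helper207
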