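import Mathlib
import Fermat.Agent.S14.helper1934_ThaineSpec

/-!
# S14, Thaine route, Package K: `Stmt_Kummer`

`theorem stmt_Kummer (p) [Fact p.Prime] : helper1934.Stmt_Kummer p`.

Given a twisted split extension `M/F` (`F = ℚ(ζ_p)`), Kummer theory produces `A ∈ M` with
`A ^ p = α ∈ F` and `M = F(A)`.  Then
* the twist hypothesis makes `α` an `ω²`-eigenvector modulo `p`-th powers;
* trivial inertia groups give `p ∣ ord_v α` for all `v` (so `(α) = I ^ p` after normalising);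
* trivial decomposition groups above `p` give `α ≡ x ^ p mod (1 - ζ) ^ 3` (CRT + trace);
* the Kummer core `Stmt_Core` then makes `α` a `p`-th power, contradicting `[M : F] = p`.
-/

set_option autoImplicit false

open NumberField IsDedekindDomain

open scoped Pointwise IntermediateField

namespace Fermat.Agent.S14.helper4885

open Fermat.Agent.S14.helper1934

section General

variable {F M : Type} [Field F] [Field M] [NumberField F] [NumberField M] [Algebra F M]
  [IsGalois F M]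

/-- If the inertia group of `w` in `Gal(M/F)` is trivial, the `w`-adic valuation restricts to the
`v`-adic valuation on `𝓞 F` (ramification index one). -/
theorem intValuation_eq_of_inertia_trivial
    (w : HeightOneSpectrum (𝓞 M)) (v : HeightOneSpectrum (𝓞 F)) [w.asIdeal.LiesOver v.asIdeal]
    (hI : ∀ σ : Gal(M/F), (∀ x : 𝓞 M, σ • x - x ∈ w.asIdeal) → σ = 1) (x : 𝓞 F) :
    w.intValuation (algebraMap (𝓞 F) (𝓞 M) x) = v.intValuation x := by
  have h1 : Nat.card (w.asIdeal.inertia Gal(M/F)) = 1 := by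
    rw [Subgroup.card_eq_one, Subgroup.eq_bot_iff_forall]
    intro σ hσ
    exact hI σ hσ
  have h2 := Ideal.card_inertia_eq_ramificationIdxIn (G := Gal(M/F)) v.asIdeal w.asIdeal
  have h3 := Ideal.ramificationIdxIn_eq_ramificationIdx v.asIdeal w.asIdeal Gal(M/F)
  have h4 := Ideal.ramificationIdx'_eq_ramificationIdx v.asIdeal w.asIdeal v.ne_bot
  have h5 := HeightOneSpectrum.intValuation_liesOver v w x
  rw [h4, ← h3, ← h2, h1, pow_one] at h5
  exact h5.symm

omit [NumberField F] [NumberField M] [IsGalois F M] in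
/-- There is a height-one prime of `𝓞 M` over every height-one prime of `𝓞 F`. -/
theorem exists_heightOneSpectrum_liesOver (v : HeightOneSpectrum (𝓞 F)) :
    ∃ w : HeightOneSpectrum (𝓞 M), w.asIdeal.LiesOver v.asIdeal := by
  obtain ⟨⟨P, hP, hPv⟩⟩ := (inferInstance : Nonempty (v.asIdeal.primesOver (𝓞 M)))
  exact ⟨⟨P, hP, Ideal.ne_bot_of_liesOver_of_ne_bot v.ne_bot P⟩, hPv⟩

/-- **Unramified Kummer elements are singular (valuation form).** -/
theorem exists_intValuation_eq_exp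
    (hun : ∀ (P : Ideal (𝓞 M)), P.IsPrime → P ≠ ⊥ →
      ∀ σ : Gal(M/F), (∀ x : 𝓞 M, σ • x - x ∈ P) → σ = 1)
    {p : ℕ} (hp : p ≠ 0) (x : 𝓞 F) (hx : x ≠ 0) (B : 𝓞 M)
    (hB : B ^ p = algebraMap (𝓞 F) (𝓞 M) x) (v : HeightOneSpectrum (𝓞 F)) :
    ∃ d : ℕ, v.intValuation x = WithZero.exp (-((p * d : ℕ) : ℤ)) := by
  obtain ⟨w, hw⟩ := exists_heightOneSpectrum_liesOver (M := M) v
  have h1 := intValuation_eq_of_inertia_trivial w v (hun w.asIdeal w.isPrime w.ne_bot) x
  have hB0 : B ≠ 0 := by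
    rintro rfl
    rw [zero_pow hp] at hB
    exact hx ((map_eq_zero_iff _ (FaithfulSMul.algebraMap_injective _ _)).mp hB.symm)
  refine ⟨multiplicity w.asIdeal (Ideal.span {B}), ?_⟩
  rw [← h1, ← hB, map_pow, HeightOneSpectrum.intValuation_eq_exp_neg_multiplicity w hB0,
    ← WithZero.exp_nsmul]
  congr 1
  push_cast
  simp

/-- **Unramified Kummer elements are singular (ideal form).** -/
theorem exists_ideal_pow_eq_span
    (hun : ∀ (P : Ideal (𝓞 M)), P.IsPrime → P ≠ ⊥ →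
      ∀ σ : Gal(M/F), (∀ x : 𝓞 M, σ • x - x ∈ P) → σ = 1)
    {p : ℕ} (hp : p ≠ 0) (x : 𝓞 F) (hx : x ≠ 0) (B : 𝓞 M)
    (hB : B ^ p = algebraMap (𝓞 F) (𝓞 M) x) :
    ∃ I : Ideal (𝓞 F), Ideal.span {x} = I ^ p := by
  classical
  have hspan : Ideal.span {x} ≠ (0 : Ideal (𝓞 F)) := by
    simpa [Ideal.zero_eq_bot] using hx
  have ha : Associates.mk (Ideal.span {x}) ≠ 0 := by
    rwa [Ne, Associates.mk_eq_zero]
  have hk : ∀ q : Associates (Ideal (𝓞 F)), Irreducible q →
      p ∣ q.count (Associates.mk (Ideal.span {x})).factors := by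
    intro q hq
    obtain ⟨J, rfl⟩ := Associates.mk_surjective q
    have hJirr : Irreducible J := Associates.irreducible_mk.mp hq
    have hJprime : Prime J := UniqueFactorizationMonoid.irreducible_iff_prime.mp hJirr
    have hJ0 : J ≠ ⊥ := hJprime.ne_zero
    let v : HeightOneSpectrum (𝓞 F) := ⟨J, Ideal.isPrime_of_prime hJprime, hJ0⟩
    obtain ⟨d, hd⟩ := exists_intValuation_eq_exp hun hp x hx B hB v
    rw [HeightOneSpectrum.intValuation_if_neg v hx] at hd
    have := WithZero.exp_injective hd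
    have h2 : ((Associates.mk J).count (Associates.mk (Ideal.span {x})).factors : ℤ) =
        ((p * d : ℕ) : ℤ) := by
      simpa using this
    exact ⟨d, by exact_mod_cast h2⟩
  obtain ⟨b, hb⟩ := Associates.is_pow_of_dvd_count ha hk
  obtain ⟨I, rfl⟩ := Associates.mk_surjective b
  refine ⟨I, ?_⟩
  rw [← Associates.mk_pow] at hb
  exact Associates.mk_injective hb

/-- **The twist makes Kummer generators `ω²`-eigenvectors.**  If `A ^ p ∈ F`, `σ ζ = ζ ^ a` and
conjugation by `σ` acts on `Gal(M/F)` through the inverse of the cyclotomic character, then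
`σ A / A ^ (a²) ∈ F`. -/
theorem exists_eq_mul_pow_of_twist {p : ℕ} (hp : p ≠ 0) {ζ : F} (hζ : IsPrimitiveRoot ζ p)
    (htw : ∀ (σ : Gal(M/ℚ)) (n : Gal(M/F)) (a : ℕ),
      σ (algebraMap F M ζ) = algebraMap F M ζ ^ a →
        (σ * n.restrictScalars ℚ * σ⁻¹) ^ a = n.restrictScalars ℚ)
    (A : M) (hA0 : A ≠ 0) (α : F) (hA : A ^ p = algebraMap F M α)
    (σ : Gal(M/ℚ)) (a : ℕ) (hσ : σ (algebraMap F M ζ) = algebraMap F M ζ ^ a) :
    ∃ c : F, σ A = algebraMap F M c * A ^ (a ^ 2) := by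
  have : NeZero p := ⟨hp⟩
  have hζM : IsPrimitiveRoot (algebraMap F M ζ) p :=
    hζ.map_of_injective (algebraMap F M).injective
  have hζM0 : algebraMap F M ζ ≠ 0 := hζM.ne_zero hp
  have hApow : A ^ p ≠ 0 := pow_ne_zero _ hA0
  have key : ∀ n : Gal(M/F), n (σ A / A ^ (a ^ 2)) = σ A / A ^ (a ^ 2) := by
    intro n
    have hnA : (n A / A) ^ p = 1 := by
      rw [div_pow, ← map_pow, hA, n.commutes, ← hA, div_self hApow]
    obtain ⟨i, -, hi⟩ := hζM.eq_pow_of_pow_eq_one hnA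
    have hnA' : n A = algebraMap F M ζ ^ i * A := by
      rw [hi, div_mul_cancel₀ _ hA0]
    have hm : (σ * n.restrictScalars ℚ * σ⁻¹) ^ a = n.restrictScalars ℚ := htw σ n a hσ
    have hmζ : (σ * n.restrictScalars ℚ * σ⁻¹) (algebraMap F M ζ) = algebraMap F M ζ := by
      have h1 : (σ⁻¹ (algebraMap F M ζ)) ^ p = 1 := by
        rw [← map_pow, hζM.pow_eq_one, map_one]
      obtain ⟨b, -, hb⟩ := hζM.eq_pow_of_pow_eq_one h1
      rw [AlgEquiv.mul_apply, AlgEquiv.mul_apply, ← hb, map_pow, AlgEquiv.restrictScalars_apply,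
        n.commutes, hb]
      exact AlgEquiv.apply_symm_apply σ _
    have hmσA : (σ * n.restrictScalars ℚ * σ⁻¹) (σ A) = algebraMap F M ζ ^ (a * i) * σ A := by
      rw [AlgEquiv.mul_apply, AlgEquiv.mul_apply]
      have h1 : σ⁻¹ (σ A) = A := AlgEquiv.symm_apply_apply σ A
      rw [h1, AlgEquiv.restrictScalars_apply, hnA', map_mul, map_pow, hσ, ← pow_mul]
    have hmk : ∀ k : ℕ, ((σ * n.restrictScalars ℚ * σ⁻¹) ^ k) (σ A) =
        algebraMap F M ζ ^ (a * i * k) * σ A := by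
      intro k
      induction k with
      | zero => simp
      | succ k ih =>
        rw [pow_succ', AlgEquiv.mul_apply, ih, map_mul, map_pow, hmζ, hmσA, ← mul_assoc,
          ← pow_add]
        congr 2
    have hnσA : n (σ A) = algebraMap F M ζ ^ (a * i * a) * σ A := by
      have := hmk a
      rw [hm, AlgEquiv.restrictScalars_apply] at this
      exact this
    rw [map_div₀, map_pow, hnσA, hnA', mul_pow, ← pow_mul]
    have h2 : a * i * a = i * a ^ 2 := by ring
    rw [h2, mul_div_mul_left _ _ (pow_ne_zero _ hζM0)]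
  have hmem : σ A / A ^ (a ^ 2) ∈ (⊥ : IntermediateField F M) :=
    (IsGalois.mem_bot_iff_fixed _).mpr key
  obtain ⟨c, hc⟩ := IntermediateField.mem_bot.mp hmem
  refine ⟨c, ?_⟩
  rw [hc, div_mul_cancel₀ _ (pow_ne_zero _ hA0)]

/-- **Split primes make Kummer elements primary.**  If the inertia and decomposition groups of
`P` are trivial and `A ^ p = α ∈ 𝓞 F`, then `α` is a `p`-th power modulo every power of the prime
below `P`.  (CRT idempotent for the conjugates of `P`, then a trace.) -/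
theorem exists_sub_pow_mem_of_split
    (hun : ∀ (P : Ideal (𝓞 M)), P.IsPrime → P ≠ ⊥ →
      ∀ σ : Gal(M/F), (∀ x : 𝓞 M, σ • x - x ∈ P) → σ = 1)
    (P : Ideal (𝓞 M)) [hPprime : P.IsPrime] (hP0 : P ≠ ⊥)
    (hsp : ∀ σ : Gal(M/F), (∀ x : 𝓞 M, x ∈ P → σ • x ∈ P) → σ = 1)
    (p k : ℕ) (α : 𝓞 F) (A : 𝓞 M) (hA : A ^ p = algebraMap (𝓞 F) (𝓞 M) α) :
    ∃ x : 𝓞 F, α - x ^ p ∈ (P.under (𝓞 F)) ^ k := by
  classical
  have hprime : ∀ σ ∈ (Finset.univ : Finset Gal(M/F)), Prime (σ • P) := by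
    intro σ _
    have h1 : (σ • P).IsPrime := inferInstance
    have h2 : σ • P ≠ ⊥ := by
      intro h
      apply hP0
      have := congrArg (fun I => σ⁻¹ • I) h
      simpa using this
    exact Ideal.prime_of_isPrime h2 h1
  have hcop : ∀ σ ∈ (Finset.univ : Finset Gal(M/F)), ∀ τ ∈ (Finset.univ : Finset Gal(M/F)),
      σ ≠ τ → σ • P ≠ τ • P := by
    intro σ _ τ _ hne h
    apply hne
    have h1 : (τ⁻¹ * σ) • P = P := by rw [mul_smul, h, inv_smul_smul]
    have h2 := hsp (τ⁻¹ * σ) (fun x hx => by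
      rw [← h1]
      exact Ideal.smul_mem_pointwise_smul _ _ _ hx)
    exact (inv_mul_eq_one.mp h2).symm
  obtain ⟨e, he⟩ := IsDedekindDomain.exists_forall_sub_mem_ideal (s := Finset.univ)
    (fun σ : Gal(M/F) => σ • P) (fun _ => k) hprime hcop
    (fun σ => if (σ : Gal(M/F)) = 1 then 1 else 0)
  let t : 𝓞 M := ∑ σ : Gal(M/F), σ • (e * A)
  have ht : ∀ g : Gal(M/F), g • t = t := by
    intro g
    simp only [t, Finset.smul_sum, smul_smul]
    exact Fintype.sum_equiv (Equiv.mulLeft g) _ _ (fun σ => rfl)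
  obtain ⟨x, hx⟩ := Algebra.IsInvariant.isInvariant (A := 𝓞 F) (G := Gal(M/F)) t ht
  have htA : t - A ∈ P ^ k := by
    have h1 : t - A = (e - 1) * A + ∑ σ ∈ (Finset.univ : Finset Gal(M/F)).erase 1, σ • (e * A) := by
      simp only [t]
      rw [← Finset.add_sum_erase _ _ (Finset.mem_univ (1 : Gal(M/F))), one_smul]
      ring
    rw [h1]
    refine Ideal.add_mem _ ?_ (Ideal.sum_mem _ ?_)
    · have h2 := he 1 (Finset.mem_univ _)
      simp only [if_true, one_smul] at h2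
      exact Ideal.mul_mem_right _ _ h2
    · intro σ hσ
      have hσ1 : σ ≠ 1 := Finset.ne_of_mem_erase hσ
      have h2 := he σ⁻¹ (Finset.mem_univ _)
      simp only [inv_eq_one, if_neg hσ1, sub_zero] at h2
      have h3 : σ • e ∈ P ^ k := by
        have h4 := Ideal.smul_mem_pointwise_smul σ _ _ h2
        rwa [smul_pow', smul_inv_smul] at h4
      rw [smul_mul']
      exact Ideal.mul_mem_right _ _ h3
  have h4 : algebraMap (𝓞 F) (𝓞 M) (α - x ^ p) ∈ P ^ k := by
    rw [map_sub, map_pow, hx, ← hA]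
    obtain ⟨c, hc⟩ := sub_dvd_pow_sub_pow A t p
    rw [hc]
    have h5 : A - t ∈ P ^ k := by
      rw [← neg_sub]
      exact neg_mem htA
    exact Ideal.mul_mem_right _ _ h5
  let w : HeightOneSpectrum (𝓞 M) := ⟨P, hPprime, hP0⟩
  let v : HeightOneSpectrum (𝓞 F) := ⟨P.under (𝓞 F), inferInstance, P.under_ne_bot (𝓞 F) hP0⟩
  have : w.asIdeal.LiesOver v.asIdeal := ⟨rfl⟩
  have h5 := intValuation_eq_of_inertia_trivial w v (hun P hPprime hP0) (α - x ^ p)
  have h6 := (w.intValuation_le_pow_iff_mem _ k).mpr h4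
  rw [h5] at h6
  exact ⟨x, (v.intValuation_le_pow_iff_mem _ k).mp h6⟩

end General

section Main

variable {F M : Type} [Field F] [Field M] [NumberField F] [NumberField M] [Algebra F M]

omit [NumberField F] [NumberField M] in
theorem algebraMap_algebraMap_ringOfIntegers (a : 𝓞 F) :
    algebraMap (𝓞 M) M (algebraMap (𝓞 F) (𝓞 M) a) = algebraMap F M (algebraMap (𝓞 F) F a) := rfl

omit [NumberField F] [NumberField M] in
/-- Elements of `M` whose `p`-th power is the image of an integer of `F` are integral. -/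
theorem exists_ringOfIntegers_pow_eq {p : ℕ} (hp : 0 < p) (A : M) (α : 𝓞 F)
    (hA : A ^ p = algebraMap F M (algebraMap (𝓞 F) F α)) :
    ∃ A' : 𝓞 M, algebraMap (𝓞 M) M A' = A ∧ A' ^ p = algebraMap (𝓞 F) (𝓞 M) α := by
  have hint : IsIntegral ℤ A := by
    refine IsIntegral.of_pow hp ?_
    rw [hA]
    exact (RingOfIntegers.isIntegral_coe α).algebraMap
  refine ⟨⟨A, hint⟩, rfl, ?_⟩
  apply RingOfIntegers.coe_injective
  rw [algebraMap_algebraMap_ringOfIntegers, ← hA]
  exact map_pow (algebraMap (𝓞 M) M) _ p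

end Main

/-- **Package K of the Thaine route.**  The Kummer core implies that there is no twisted split
extension of `ℚ(ζ_p)`. -/
theorem stmt_Kummer (p : ℕ) [Fact p.Prime] : Stmt_Kummer p := by
  intro _ hcore F M _ _ _ _ _ _ ζ h
  have hp : p.Prime := Fact.out
  have hp0 : p ≠ 0 := hp.ne_zero
  have hζ : IsPrimitiveRoot ζ p := h.prim
  have : IsGalois F M := h.galois
  have : IsGalois ℚ M := h.galoisQ
  have hinj : Function.Injective (algebraMap (𝓞 F) F) := RingOfIntegers.coe_injective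
  -- Kummer generator
  have hcard : Nat.card Gal(M/F) = p := by
    rw [IsGalois.card_aut_eq_finrank, h.degree]
  have : IsCyclic Gal(M/F) := isCyclic_of_prime_card hcard
  have hroots : (primitiveRoots (Module.finrank F M) F).Nonempty := by
    rw [h.degree]
    exact ⟨ζ, (mem_primitiveRoots hp.pos).mpr hζ⟩
  obtain ⟨A₀, ⟨α₀, hα₀⟩, hA₀top⟩ := exists_root_adjoin_eq_top_of_isCyclic F M hroots
  rw [h.degree] at hα₀
  -- `A₀` is not in `F`
  have hA₀range : ∀ c : F, algebraMap F M c ≠ A₀ := by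
    intro c hc
    have h1 : F⟮A₀⟯ = ⊥ := by
      rw [IntermediateField.adjoin_simple_eq_bot_iff]
      exact IntermediateField.mem_bot.mpr ⟨c, hc⟩
    rw [h1] at hA₀top
    have h2 := IntermediateField.bot_eq_top_iff_finrank_eq_one.mp hA₀top
    rw [h.degree] at h2
    exact hp.one_lt.ne' h2
  have hA₀ne : A₀ ≠ 0 := fun h0 => hA₀range 0 (by rw [map_zero, h0])
  have hα₀ne : α₀ ≠ 0 := by
    rintro rfl
    rw [map_zero] at hα₀
    exact hA₀ne (pow_eq_zero_iff hp0 |>.mp hα₀.symm)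
  -- clear denominators
  obtain ⟨x, y, hy, hxy⟩ := IsFractionRing.div_surjective (A := 𝓞 F) α₀
  have hy0 : y ≠ 0 := nonZeroDivisors.ne_zero hy
  have hyF : algebraMap (𝓞 F) F y ≠ 0 := (map_ne_zero_iff _ hinj).mpr hy0
  have hx0 : x ≠ 0 := by
    rintro rfl
    apply hα₀ne
    rw [← hxy]
    simp
  have hα₁0 : x * y ^ (p - 1) ≠ 0 := mul_ne_zero hx0 (pow_ne_zero _ hy0)
  have hA₁pow : (A₀ * algebraMap F M (algebraMap (𝓞 F) F y)) ^ p =
      algebraMap F M (algebraMap (𝓞 F) F (x * y ^ (p - 1))) := by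
    rw [mul_pow, ← hα₀, ← map_pow, ← map_mul, ← hxy]
    congr 1
    have hpow : (algebraMap (𝓞 F) F y) ^ p =
        (algebraMap (𝓞 F) F y) ^ (p - 1) * algebraMap (𝓞 F) F y := by
      rw [← pow_succ, Nat.sub_add_cancel hp.pos]
    rw [map_mul, map_pow, hpow]
    field_simp
  obtain ⟨A₁, hA₁coe, hA₁⟩ := exists_ringOfIntegers_pow_eq hp.pos _ _ hA₁pow
  -- the prime `π = 1 - ζ`
  have hζ' : IsPrimitiveRoot hζ.toInteger p := hζ.toInteger_isPrimitiveRoot
  have hπprime : Prime (1 - hζ.toInteger) := by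
    have h1 := hζ.zeta_sub_one_prime'
    rw [← neg_sub]
    exact h1.neg
  have hπ0 : (1 - hζ.toInteger : 𝓞 F) ≠ 0 := hπprime.ne_zero
  let vπ : HeightOneSpectrum (𝓞 F) := ⟨Ideal.span {1 - hζ.toInteger},
    (Ideal.span_singleton_prime hπ0).mpr hπprime, by simpa using hπ0⟩
  -- remove the `π`-part
  have hfin : FiniteMultiplicity (1 - hζ.toInteger) (x * y ^ (p - 1)) :=
    FiniteMultiplicity.of_prime_left hπprime hα₁0
  obtain ⟨α, hα₁eq, hπα⟩ := hfin.exists_eq_pow_mul_and_not_dvd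
  have hα0 : α ≠ 0 := by
    rintro rfl
    rw [mul_zero] at hα₁eq
    exact hα₁0 hα₁eq
  obtain ⟨d, hd⟩ := exists_intValuation_eq_exp h.unram hp0 _ hα₁0 A₁ hA₁ vπ
  have hαmem : α ∉ Ideal.span {1 - hζ.toInteger} := by
    rw [Ideal.mem_span_singleton]
    exact hπα
  have hmult : multiplicity (1 - hζ.toInteger) (x * y ^ (p - 1)) = p * d := by
    have h1 : vπ.intValuation (x * y ^ (p - 1)) =
        WithZero.exp (-((multiplicity (1 - hζ.toInteger) (x * y ^ (p - 1)) : ℕ) : ℤ)) := by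
      conv_lhs => rw [hα₁eq]
      rw [map_mul, map_pow, HeightOneSpectrum.intValuation_singleton vπ hπ0 rfl,
        HeightOneSpectrum.intValuation_eq_one_iff.mpr hαmem, mul_one, ← WithZero.exp_nsmul]
      congr 1
      simp
    rw [h1] at hd
    have h2 := WithZero.exp_injective hd
    exact_mod_cast neg_injective h2
  rw [hmult] at hα₁eq
  -- the normalised Kummer element
  have hπF : algebraMap (𝓞 F) F (1 - hζ.toInteger) ≠ 0 := (map_ne_zero_iff _ hinj).mpr hπ0
  have hπM : algebraMap F M (algebraMap (𝓞 F) F (1 - hζ.toInteger)) ≠ 0 :=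
    (map_ne_zero _).mpr hπF
  have hApow : (A₀ * algebraMap F M (algebraMap (𝓞 F) F y) /
      algebraMap F M (algebraMap (𝓞 F) F (1 - hζ.toInteger)) ^ d) ^ p =
        algebraMap F M (algebraMap (𝓞 F) F α) := by
    rw [div_pow, hA₁pow, hα₁eq, div_eq_iff (pow_ne_zero _ (pow_ne_zero _ hπM)), ← map_pow,
      ← map_pow, ← map_mul]
    congr 1
    rw [map_mul, map_pow]
    ring
  obtain ⟨A, hAcoe, hA⟩ := exists_ringOfIntegers_pow_eq hp.pos _ _ hApow
  have hAM0 : algebraMap (𝓞 M) M A ≠ 0 := by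
    rw [hAcoe]
    exact div_ne_zero (mul_ne_zero hA₀ne ((map_ne_zero _).mpr hyF)) (pow_ne_zero _ hπM)
  have hAp : (algebraMap (𝓞 M) M A) ^ p = algebraMap F M (algebraMap (𝓞 F) F α) := by
    rw [hAcoe]
    exact hApow
  -- (i) singular
  have hsing : ∃ I : Ideal (𝓞 F), Ideal.span {α} = I ^ p :=
    exists_ideal_pow_eq_span h.unram hp0 α hα0 A hA
  -- (iii) primary
  have hprim : ∃ x : 𝓞 F, α - x ^ p ∈ Ideal.span {(1 - hζ.toInteger) ^ 3} := by
    obtain ⟨w, hw⟩ := exists_heightOneSpectrum_liesOver (M := M) vπ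
    obtain ⟨P, hP, hP0⟩ := w
    have hunder : P.under (𝓞 F) = Ideal.span {1 - hζ.toInteger} :=
      (Ideal.over_def P vπ.asIdeal).symm
    have hpP : (p : 𝓞 M) ∈ P := by
      have h1 : (p : 𝓞 F) ∈ P.under (𝓞 F) := by
        rw [hunder, Ideal.mem_span_singleton]
        have h2 := hζ.toInteger_sub_one_dvd_prime'
        rw [← neg_sub, neg_dvd] at h2
        exact h2
      have h2 : algebraMap (𝓞 F) (𝓞 M) (p : 𝓞 F) ∈ P := h1
      rwa [map_natCast] at h2
    obtain ⟨x, hx⟩ := exists_sub_pow_mem_of_split h.unram P hP0 (h.split P hP hpP) p 3 α A hA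
    refine ⟨x, ?_⟩
    rw [hunder, Ideal.span_singleton_pow] at hx
    exact hx
  -- (iv) eigen
  have heig : IsOmegaTwoElt p hζ.toInteger α := by
    intro g a hg
    let gF : F ≃+* F := IsFractionRing.ringEquivOfRingEquiv (K := F) (L := F) g
    have hgF : ∀ z : 𝓞 F, gF (algebraMap (𝓞 F) F z) = algebraMap (𝓞 F) F (g z) := fun z =>
      IsFractionRing.ringEquivOfRingEquiv_algebraMap g z
    let gQ : F ≃ₐ[ℚ] F := AlgEquiv.ofRingEquiv (f := gF) (fun q => by simp)
    have hgQ : ∀ z : 𝓞 F, gQ (algebraMap (𝓞 F) F z) = algebraMap (𝓞 F) F (g z) := hgF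
    let σ : Gal(M/ℚ) := gQ.liftNormal M
    have hσcomm : ∀ z : F, σ (algebraMap F M z) = algebraMap F M (gQ z) := fun z =>
      AlgEquiv.liftNormal_commutes gQ M z
    have hσζ : σ (algebraMap F M ζ) = algebraMap F M ζ ^ a := by
      have h1 : algebraMap (𝓞 F) F hζ.toInteger = ζ := rfl
      rw [hσcomm, ← h1, hgQ, hg, map_pow, map_pow]
    obtain ⟨c₀, hc₀⟩ := exists_eq_mul_pow_of_twist hp0 hζ h.twist (algebraMap (𝓞 M) M A) hAM0
      (algebraMap (𝓞 F) F α) hAp σ a hσζ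
    have h2 : algebraMap (𝓞 F) F (g α) = c₀ ^ p * (algebraMap (𝓞 F) F α) ^ (a ^ 2) := by
      apply (algebraMap F M).injective
      rw [← hgQ, ← hσcomm, ← hAp, map_pow, hc₀, mul_pow, map_mul, map_pow, map_pow, ← hAp,
        ← pow_mul, ← pow_mul, mul_comm p]
    obtain ⟨c₁, c₂, hc₂, hc⟩ := IsFractionRing.div_surjective (A := 𝓞 F) c₀
    have hc₂0 : c₂ ≠ 0 := nonZeroDivisors.ne_zero hc₂
    have hc₂F : algebraMap (𝓞 F) F c₂ ≠ 0 := (map_ne_zero_iff _ hinj).mpr hc₂0
    have hgα0 : g α ≠ 0 := by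
      rw [Ne, map_eq_zero_iff g g.injective]
      exact hα0
    have hc₀0 : c₀ ≠ 0 := by
      rintro rfl
      rw [zero_pow hp0, zero_mul] at h2
      exact hgα0 ((map_eq_zero_iff _ hinj).mp h2)
    have hc₁0 : c₁ ≠ 0 := by
      rintro rfl
      apply hc₀0
      rw [← hc]
      simp
    refine ⟨c₂, c₁, hc₂0, hc₁0, ?_⟩
    apply hinj
    rw [map_mul, map_mul, map_pow, map_pow, map_pow, h2, ← hc, div_pow]
    field_simp
  -- apply the Kummer core
  obtain ⟨β, hβ⟩ := hcore F hζ.toInteger hζ' α hα0 hsing hαmem hprim heig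
  -- contradiction: `A₀ ∈ F`
  have hβ0 : β ≠ 0 := by
    rintro rfl
    rw [zero_pow hp0] at hβ
    exact hα0 hβ
  have hβM : algebraMap F M (algebraMap (𝓞 F) F β) ≠ 0 :=
    (map_ne_zero _).mpr ((map_ne_zero_iff _ hinj).mpr hβ0)
  have hAp' : (algebraMap (𝓞 M) M A) ^ p = algebraMap F M (algebraMap (𝓞 F) F β) ^ p := by
    rw [hAp, hβ, map_pow, map_pow]
  have hζM : IsPrimitiveRoot (algebraMap F M ζ) p :=
    hζ.map_of_injective (algebraMap F M).injective
  have hquot : (algebraMap (𝓞 M) M A / algebraMap F M (algebraMap (𝓞 F) F β)) ^ p = 1 := by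
    rw [div_pow, hAp', div_self (pow_ne_zero _ hβM)]
  have : NeZero p := ⟨hp0⟩
  obtain ⟨i, -, hi⟩ := hζM.eq_pow_of_pow_eq_one hquot
  have hAeq : algebraMap (𝓞 M) M A = algebraMap F M (ζ ^ i * algebraMap (𝓞 F) F β) := by
    rw [map_mul, map_pow, hi, div_mul_cancel₀ _ hβM]
  refine hA₀range (ζ ^ i * algebraMap (𝓞 F) F β *
    (algebraMap (𝓞 F) F (1 - hζ.toInteger)) ^ d / algebraMap (𝓞 F) F y) ?_
  rw [map_div₀, map_mul, ← hAeq, hAcoe, map_pow,
    div_mul_cancel₀ _ (pow_ne_zero _ hπM), mul_div_cancel_right₀ _ ((map_ne_zero _).mpr hyF)]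

end Fermat.Agent.S14.helper4885
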