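import Fermat.Agent.S14.helper1934_ThaineChain
import Fermat.Agent.S14.helper207_PackageR
import Fermat.Agent.S14.helper4885_Kummer
import Fermat.Agent.S14.helper1759_ThaineChar
import Fermat.Agent.S14.helper134_Thaine

/-!
# S14: assembly, level 3 (captain file, helper14)

Everything of the Thaine route is wired except the analytic core W0
(`helper1934.Stmt_PartialZetaDiff`: the partial zeta functions of two ideal classes differ by a
bounded function on `(1, 2)`).
-/

namespace Fermat.Agent.S14.helper14

/-- Thaine's relation in character form, closed. -/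
theorem stmt_ThaineChar (p : ℕ) [Fact p.Prime] : helper1934.Stmt_ThaineChar p :=
  helper1759.thaineChar_of_core p (helper134.thaineCore p)

/-- The Kummer core from the analytic core W0. -/
theorem stmt_Core_of_partialZetaDiff {p : ℕ} [Fact p.Prime] (h3 : 3 ≤ p)
    (hW0 : helper1934.Stmt_PartialZetaDiff) : helper1934.Stmt_Core p :=
  helper1934.stmt_Core_of_open p h3 hW0 (fun _ => stmt_ThaineChar p)

/-- **S14 from the analytic core W0 alone.** -/
theorem extVanishingCts_of_partialZetaDiff {p : ℕ} [Fact p.Prime] (h3 : 3 ≤ p)
    (hW0 : helper1934.Stmt_PartialZetaDiff) : ExtCitation.ExtVanishingCts p :=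
  helper207.stmt_Reduction p h3
    (helper4885.stmt_Kummer p h3 (stmt_Core_of_partialZetaDiff h3 hW0))

end Fermat.Agent.S14.helper14
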