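import Mathlib
import Fermat.Prelude.Def_ExtCitation_AdmissibleExtension_v2
import Fermat.Prelude.Def_ClassGroup_GaloisAction

/-!
# S14 (Ext vanishing) — blueprint without class field theory (helper1441)

Route: Thaine's relation + upper bounds for Dirichlet densities. See findings #1696.
Every intermediate result is a `Prop`-valued definition `Stmt_*`; workers prove
`theorem foo (h₁ : Stmt_A p) ... : Stmt_B p` in their own files.

Notation: `K = ℚ(ζ_p)`, `π = ζ - 1`, `E_2 = eTwo p ζ` (a cyclotomic unit in the `ω²`-eigenspace).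
-/

set_option autoImplicit false

namespace Fermat.Agent.S14.helper1441

open NumberField
open scoped Pointwise nonZeroDivisors

local notation "GQ" => (AlgebraicClosure ℚ ≃ₐ[ℚ] AlgebraicClosure ℚ)

/-! ## 1. Interface between the Galois side and the arithmetic side -/

/-- A *Kummer datum*: `α ∈ 𝓞 K` which is (i) not a `p`-th power in `K`, (ii) generates the `p`-th
power of an ideal, (iii) lies in the `ω²`-eigenspace of `Kˣ/Kˣᵖ`, (iv) is congruent to a rational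
integer prime to `p` modulo `(ζ - 1)³`. -/
def IsKummerDatum (p : ℕ) (K : Type) [Field K] [NumberField K] (ζ : K) (α : 𝓞 K) : Prop :=
  (∀ y : K, y ^ p ≠ (α : K)) ∧
  (∃ 𝔞 : Ideal (𝓞 K), Ideal.span {α} = 𝔞 ^ p) ∧
  (∀ (σ : K ≃ₐ[ℚ] K) (c : ℕ), σ ζ = ζ ^ c →
      ∃ (γ : K) (j : ℕ), (j : ZMod p) = (c : ZMod p) ^ 2 ∧ σ (α : K) = γ ^ p * (α : K) ^ j) ∧
  (∃ (n : ℤ) (t : 𝓞 K), ¬ (p : ℤ) ∣ n ∧ (α : K) = (n : K) + (ζ - 1) ^ 3 * (t : K))

/-- ARITHMETIC SIDE: there is no Kummer datum in `ℚ(ζ_p)`. -/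
def Stmt_NoKummerDatum (p : ℕ) : Prop :=
  ∀ (K : Type) [Field K] [NumberField K] [IsCyclotomicExtension {p} ℚ K] (ζ : K),
    IsPrimitiveRoot ζ p → ∀ α : 𝓞 K, ¬ IsKummerDatum p K ζ α

/-- GALOIS SIDE: a non-split admissible extension produces a Kummer datum. -/
def Stmt_GaloisReduction (p : ℕ) [Fact p.Prime] : Prop :=
  3 ≤ p → ∀ (V : Type) [AddCommGroup V] [Module (ZMod p) V] [DistribMulAction GQ V]
    [SMulCommClass GQ (ZMod p) V] (C : Submodule (ZMod p) V),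
    ExtCitation.IsAdmissibleExtensionCts p V C → ¬ ExtCitation.SplitsGlobally C →
    ∃ (K : Type) (_ : Field K) (_ : NumberField K) (_ : IsCyclotomicExtension {p} ℚ K) (ζ : K)
      (_ : IsPrimitiveRoot ζ p) (α : 𝓞 K), IsKummerDatum p K ζ α

/-- Top-level wiring: S14 follows from the two sides. -/
theorem extVanishingCts_of {p : ℕ} [Fact p.Prime] (h3 : 3 ≤ p) (hG : Stmt_GaloisReduction p)
    (hN : Stmt_NoKummerDatum p) : ExtCitation.ExtVanishingCts p := by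
  intro V _ _ _ _ C hadm
  by_contra hns
  obtain ⟨K, _, _, _, ζ, hζ, α, hα⟩ := hG h3 V C hadm hns
  exact hN K ζ hζ α hα

/-! ## 2. Galois side, split in two -/

/-- G1 (pure linear algebra + surjectivity of the mod `p` cyclotomic character, `p ≥ 3`):
if `ker χ` acts trivially on `V`, the extension splits. -/
def Stmt_SplitOfKernel (p : ℕ) [Fact p.Prime] : Prop :=
  ∀ (V : Type) [AddCommGroup V] [Module (ZMod p) V] [DistribMulAction GQ V]
    [SMulCommClass GQ (ZMod p) V] (C : Submodule (ZMod p) V),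
    ExtCitation.IsAdmissibleExtension p V C →
    (∀ σ : GQ, ExtCitation.cycloExp p σ = 1 → ∀ v : V, σ • v = v) →
    ExtCitation.SplitsGlobally C

/-- G2 (fixed field of the kernel, Kummer generator, ramification transfer): if some element of
`ker χ` acts non-trivially, there is a Kummer datum. -/
def Stmt_KummerOfNontrivial (p : ℕ) [Fact p.Prime] : Prop :=
  3 ≤ p → ∀ (V : Type) [AddCommGroup V] [Module (ZMod p) V] [DistribMulAction GQ V]
    [SMulCommClass GQ (ZMod p) V] (C : Submodule (ZMod p) V),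
    ExtCitation.IsAdmissibleExtensionCts p V C →
    (∃ σ : GQ, ExtCitation.cycloExp p σ = 1 ∧ ∃ v : V, σ • v ≠ v) →
    ∃ (K : Type) (_ : Field K) (_ : NumberField K) (_ : IsCyclotomicExtension {p} ℚ K) (ζ : K)
      (_ : IsPrimitiveRoot ζ p) (α : 𝓞 K), IsKummerDatum p K ζ α

theorem stmt_GaloisReduction_of {p : ℕ} [Fact p.Prime] (h1 : Stmt_SplitOfKernel p)
    (h2 : Stmt_KummerOfNontrivial p) : Stmt_GaloisReduction p := by
  intro h3 V _ _ _ _ C hadm hns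
  apply h2 h3 V C hadm
  by_contra hcon
  apply hns
  apply h1 V C hadm.toIsAdmissibleExtension
  intro σ hσ v
  by_contra hv
  exact hcon ⟨σ, hσ, v, hv⟩

/-! ## 3. Arithmetic side: objects -/

section Objects

variable {K : Type} [Field K]

/-- The cyclotomic number `1 + ζ + ⋯ + ζ^(a-1) = (ζ^a - 1)/(ζ - 1)`. -/
def cycUnit (ζ : K) (a : ℕ) : K := ∑ i ∈ Finset.range a, ζ ^ i

/-- The cyclotomic unit `E_2 = ∏_{a=1}^{p-1} ((ζ^a - 1)/(ζ - 1))^(a^(p-3) mod p)`; modulo `p`-th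
powers it lies in the `ω²`-eigenspace: `σ_c E_2 ∈ E_2^(c²) · Kˣᵖ`. -/
def eTwo (p : ℕ) (ζ : K) : K := ∏ a ∈ Finset.Ico 1 p, cycUnit ζ a ^ (a ^ (p - 3) % p)

end Objects

/-- Action of `Gal(K/ℚ)` on the class group of `𝓞 K`. -/
noncomputable def clAct (K : Type) [Field K] [NumberField K] (σ : K ≃ₐ[ℚ] K) :
    ClassGroup (𝓞 K) ≃* ClassGroup (𝓞 K) :=
  ClassGroup.mulEquiv (MulSemiringAction.toRingEquiv (K ≃ₐ[ℚ] K) (𝓞 K) σ)

/-- The class of a nonzero ideal, as a function on all ideals (junk value `1` on `⊥`). -/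
noncomputable def cls (K : Type) [Field K] [NumberField K] (I : Ideal (𝓞 K)) : ClassGroup (𝓞 K) :=
  open Classical in if h : I ∈ (Ideal (𝓞 K))⁰ then ClassGroup.mk0 ⟨I, h⟩ else 1

/-- `f` is an `ω²`-equivariant functional on the class group. -/
def IsOmegaSqFunctional (p : ℕ) (K : Type) [Field K] [NumberField K] (ζ : K)
    (f : ClassGroup (𝓞 K) →* Multiplicative (ZMod p)) : Prop :=
  ∀ (σ : K ≃ₐ[ℚ] K) (c : ℕ) (y : ClassGroup (𝓞 K)), σ ζ = ζ ^ c → f (clAct K σ y) = f y ^ (c ^ 2)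

/-- `P` is a prime of `𝓞 K` of degree one, of residue characteristic `≠ q`. -/
def IsDegOnePrime (K : Type) [Field K] [NumberField K] (q : ℕ) (P : Ideal (𝓞 K)) : Prop :=
  P.IsPrime ∧ (Ideal.absNorm P).Prime ∧ Ideal.absNorm P ≠ q

/-- `e` is a `p`-th power residue modulo `P`. -/
def IsPowResidue (p : ℕ) {R : Type} [CommRing R] (e : R) (P : Ideal R) : Prop :=
  ∃ y : R, y ^ p - e ∈ P

/-! ## 4. Arithmetic side: statements (all for a prime `p ≥ 5` unless said otherwise) -/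

/-- P3: the case `p = 3` (`ℤ[ζ₃]` is a PID with unit group `μ₆`; (iv) is not needed). -/
def Stmt_NoKummerDatumThree : Prop := Stmt_NoKummerDatum 3

/-- U0: `E_2` is an algebraic integer (indeed a unit). -/
def Stmt_ETwoIntegral (p : ℕ) : Prop :=
  ∀ (K : Type) [Field K] [NumberField K] [IsCyclotomicExtension {p} ℚ K] (ζ : K),
    IsPrimitiveRoot ζ p → ∃ e : (𝓞 K)ˣ, ((e : 𝓞 K) : K) = eTwo p ζ

/-- U1: `E_2 ≡ A·(1 - π²/24) mod π³` in the following usable form: no `E_2^j · γ^p` with `p ∤ j`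
is congruent to an integer prime to `p` modulo `π³`. (Take `j = 1`, `n = 1`, `t = 0`: `E_2` is not
a `p`-th power in `K`.) -/
def Stmt_ETwoCong (p : ℕ) : Prop :=
  ∀ (K : Type) [Field K] [NumberField K] [IsCyclotomicExtension {p} ℚ K] (ζ : K),
    IsPrimitiveRoot ζ p → ∀ (j : ℕ) (γ : K) (n : ℤ) (t : 𝓞 K), ¬ p ∣ j → ¬ (p : ℤ) ∣ n →
      eTwo p ζ ^ j * γ ^ p ≠ (n : K) + (ζ - 1) ^ 3 * (t : K)

/-- U2: the `ω²`-eigenspace of `E/E^p` is spanned by `E_2` (equivariant Dirichlet unit theorem +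
eigen-property of `E_2` + `E_2 ∉ E^p`). -/
def Stmt_UnitEigen (p : ℕ) : Prop :=
  ∀ (K : Type) [Field K] [NumberField K] [IsCyclotomicExtension {p} ℚ K] (ζ : K),
    IsPrimitiveRoot ζ p → ∀ u : (𝓞 K)ˣ,
      (∀ (σ : K ≃ₐ[ℚ] K) (c : ℕ), σ ζ = ζ ^ c → ∃ (η : K) (j : ℕ),
        (j : ZMod p) = (c : ZMod p) ^ 2 ∧ σ ((u : 𝓞 K) : K) = η ^ p * ((u : 𝓞 K) : K) ^ j) →
      ∃ (j : ℕ) (v : K), ((u : 𝓞 K) : K) = eTwo p ζ ^ j * v ^ p

/-- B: the `ω²`-eigenspace of `Cl(K)[p]` vanishes. -/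
def Stmt_ClassEigen (p : ℕ) : Prop :=
  ∀ (K : Type) [Field K] [NumberField K] [IsCyclotomicExtension {p} ℚ K] (ζ : K),
    IsPrimitiveRoot ζ p → ∀ x : ClassGroup (𝓞 K), x ^ p = 1 →
      (∀ (σ : K ≃ₐ[ℚ] K) (c : ℕ), σ ζ = ζ ^ c → clAct K σ x = x ^ (c ^ 2)) → x = 1

/-- B1 (finite abelian groups with operators): a nontrivial `ω²`-eigenvector in `Cl(K)[p]` gives a
nontrivial `ω²`-equivariant functional `Cl(K) → 𝔽_p`. -/
def Stmt_Functional (p : ℕ) : Prop :=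
  ∀ (K : Type) [Field K] [NumberField K] [IsCyclotomicExtension {p} ℚ K] (ζ : K),
    IsPrimitiveRoot ζ p → ∀ x : ClassGroup (𝓞 K), x ≠ 1 → x ^ p = 1 →
      (∀ (σ : K ≃ₐ[ℚ] K) (c : ℕ), σ ζ = ζ ^ c → clAct K σ x = x ^ (c ^ 2)) →
      ∃ f : ClassGroup (𝓞 K) →* Multiplicative (ZMod p),
        (∃ y, f y ≠ 1) ∧ IsOmegaSqFunctional p K ζ f

/-- T (Thaine's relation, one cyclotomic number at a time): for a degree-one prime `P ∣ ℓ ≠ p`,
a primitive root `g` mod `ℓ` and `1 ≤ a < p` there are exponents `r σ` with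
`g^(r σ) ≡ ζ^a - 1 mod σ P` and `∏_σ [σ P]^(r σ) ∈ Cl(K)^p`.
(Proof: `F = K(ζ_ℓ)`, `N_{F/K}(ζ^a ζ_ℓ - 1) = 1`, Hilbert 90, `b = N_{F/K} β`.) -/
def Stmt_Thaine (p : ℕ) : Prop :=
  ∀ (K : Type) [Field K] [NumberField K] [IsCyclotomicExtension {p} ℚ K] (ζ : K),
    IsPrimitiveRoot ζ p → ∀ (P : Ideal (𝓞 K)), IsDegOnePrime K p P →
    ∀ g : ℕ, orderOf (g : ZMod (Ideal.absNorm P)) = Ideal.absNorm P - 1 →
    ∀ a ∈ Finset.Ico 1 p, ∃ r : (K ≃ₐ[ℚ] K) → ℕ,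
      (∀ σ : K ≃ₐ[ℚ] K, ∃ w ∈ σ • P, ((w : 𝓞 K) : K) = ζ ^ a - 1 - (g : K) ^ r σ) ∧
      ∃ z : ClassGroup (𝓞 K), ∏ σ : K ≃ₐ[ℚ] K, cls K (σ • P) ^ r σ = z ^ p

/-- B2 (consequence of T by eigen-summation): if `f` is `ω²`-equivariant and `f [P] ≠ 0` for a
degree-one prime `P ∤ p`, then `E_2` is a `p`-th power modulo `P`. -/
def Stmt_ThaineResidue (p : ℕ) : Prop :=
  ∀ (K : Type) [Field K] [NumberField K] [IsCyclotomicExtension {p} ℚ K] (ζ : K),
    IsPrimitiveRoot ζ p → ∀ f : ClassGroup (𝓞 K) →* Multiplicative (ZMod p),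
    IsOmegaSqFunctional p K ζ f → ∀ e : 𝓞 K, (e : K) = eTwo p ζ →
    ∀ P : Ideal (𝓞 K), IsDegOnePrime K p P → f (cls K P) ≠ 1 → IsPowResidue p e P

/-- D0: degree-one primes have Dirichlet density one (lower bound), from the pole of `ζ_F`. -/
def Stmt_DensityAll : Prop :=
  ∀ (F : Type) [Field F] [NumberField F] (q : ℕ), ∃ C δ : ℝ, 0 < δ ∧
    ∀ s : ℝ, 1 < s → s < 1 + δ → ∃ T : Finset (Ideal (𝓞 F)),
      (∀ P ∈ T, IsDegOnePrime F q P) ∧
      Real.log (1 / (s - 1)) - C ≤ ∑ P ∈ T, (Ideal.absNorm P : ℝ) ^ (-s)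

/-- D1: degree-one primes modulo which a non-`p`-th power `e` is a `p`-th power have upper density
`≤ 1/p` (they split completely in `F(e^(1/p))`; pole of its zeta function). -/
def Stmt_DensitySplit (p : ℕ) : Prop :=
  ∀ (F : Type) [Field F] [NumberField F] (ζ : F), IsPrimitiveRoot ζ p →
    ∀ e : 𝓞 F, (∀ y : F, y ^ p ≠ (e : F)) → ∃ C δ : ℝ, 0 < δ ∧
    ∀ s : ℝ, 1 < s → s < 1 + δ → ∀ T : Finset (Ideal (𝓞 F)),
      (∀ P ∈ T, IsDegOnePrime F p P ∧ IsPowResidue p e P) →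
      ∑ P ∈ T, (Ideal.absNorm P : ℝ) ^ (-s) ≤ (1 / p : ℝ) * Real.log (1 / (s - 1)) + C

/-- D2: primes whose class lies in the kernel of a nontrivial `f : Cl(F) → 𝔽_p` have upper density
`≤ 1/p` (finite Euler products + boundedness of class-group `L`-series). -/
def Stmt_DensityClass (p : ℕ) : Prop :=
  ∀ (F : Type) [Field F] [NumberField F] (f : ClassGroup (𝓞 F) →* Multiplicative (ZMod p)),
    (∃ y, f y ≠ 1) → ∃ C δ : ℝ, 0 < δ ∧
    ∀ s : ℝ, 1 < s → s < 1 + δ → ∀ T : Finset (Ideal (𝓞 F)),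
      (∀ P ∈ T, P.IsPrime ∧ P ≠ ⊥ ∧ f (cls F P) = 1) →
      ∑ P ∈ T, (Ideal.absNorm P : ℝ) ^ (-s) ≤ (1 / p : ℝ) * Real.log (1 / (s - 1)) + C

/-- B3: the density contradiction. -/
def Stmt_DensityContradiction (p : ℕ) : Prop :=
  ∀ (F : Type) [Field F] [NumberField F] (ζ : F), IsPrimitiveRoot ζ p →
    ∀ e : 𝓞 F, (∀ y : F, y ^ p ≠ (e : F)) →
    ∀ f : ClassGroup (𝓞 F) →* Multiplicative (ZMod p), (∃ y, f y ≠ 1) →
    ¬ ∀ P : Ideal (𝓞 F), IsDegOnePrime F p P → f (cls F P) ≠ 1 → IsPowResidue p e P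

/-- The partial zeta function of an ideal class. -/
noncomputable def partialZeta (F : Type) [Field F] [NumberField F] (c : ClassGroup (𝓞 F))
    (s : ℝ) : ℝ :=
  ∑' I : {I : (Ideal (𝓞 F))⁰ // ClassGroup.mk0 I = c}, (Ideal.absNorm (I : Ideal (𝓞 F)) : ℝ) ^ (-s)

/-- PZ (the only new analytic input): partial zeta functions of two ideal classes differ by
`O(1)` on `(1, 2]`, and are summable. -/
def Stmt_PartialZeta : Prop :=
  ∀ (F : Type) [Field F] [NumberField F], ∃ C : ℝ, ∀ s : ℝ, 1 < s → s ≤ 2 →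
    ∀ c c' : ClassGroup (𝓞 F),
      Summable (fun I : {I : (Ideal (𝓞 F))⁰ // ClassGroup.mk0 I = c} =>
        (Ideal.absNorm (I : Ideal (𝓞 F)) : ℝ) ^ (-s)) ∧
      |partialZeta F c s - partialZeta F c' s| ≤ C

/-- Z1: two-sided bounds for `∑_I N(I)^(-s)` near `s = 1` (from Mathlib's residue theorem
`NumberField.tendsto_sub_one_mul_dedekindZeta_nhdsGT`). -/
def Stmt_ZetaBounds : Prop :=
  ∀ (F : Type) [Field F] [NumberField F], ∃ c C δ : ℝ, 0 < c ∧ 0 < δ ∧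
    ∀ s : ℝ, 1 < s → s < 1 + δ →
      Summable (fun I : (Ideal (𝓞 F))⁰ => (Ideal.absNorm (I : Ideal (𝓞 F)) : ℝ) ^ (-s)) ∧
      c / (s - 1) ≤ ∑' I : (Ideal (𝓞 F))⁰, (Ideal.absNorm (I : Ideal (𝓞 F)) : ℝ) ^ (-s) ∧
      ∑' I : (Ideal (𝓞 F))⁰, (Ideal.absNorm (I : Ideal (𝓞 F)) : ℝ) ^ (-s) ≤ C / (s - 1)

/-- `I` is a nonzero ideal all of whose prime divisors lie in `T`. -/
def IsSmoothIdeal {F : Type} [Field F] [NumberField F] (T : Finset (Ideal (𝓞 F)))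
    (I : Ideal (𝓞 F)) : Prop :=
  I ≠ ⊥ ∧ ∀ Q : Ideal (𝓞 F), Q.IsPrime → I ≤ Q → Q ∈ T

/-- Z0 (finite Euler products; shared by D0, D1, D2): for a finite set `T` of nonzero primes and a
multiplicative `χ` of absolute value `≤ 1` on nonzero ideals, the sum of `χ(I) N(I)^(-s)` over
`T`-smooth ideals equals `∏_{P ∈ T} (1 - χ(P) N(P)^(-s))⁻¹`. -/
def Stmt_EulerFinite : Prop :=
  ∀ (F : Type) [Field F] [NumberField F] (T : Finset (Ideal (𝓞 F))),
    (∀ P ∈ T, P.IsPrime ∧ P ≠ ⊥) → ∀ χ : Ideal (𝓞 F) → ℂ, χ ⊤ = 1 →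
    (∀ I J : Ideal (𝓞 F), I ≠ ⊥ → J ≠ ⊥ → χ (I * J) = χ I * χ J) → (∀ I, ‖χ I‖ ≤ 1) →
    ∀ s : ℝ, 1 < s →
      Summable (fun I : {I : Ideal (𝓞 F) // IsSmoothIdeal T I} =>
        χ I * ((Ideal.absNorm (I : Ideal (𝓞 F)) : ℝ) ^ (-s) : ℝ)) ∧
      ∑' I : {I : Ideal (𝓞 F) // IsSmoothIdeal T I},
          χ I * ((Ideal.absNorm (I : Ideal (𝓞 F)) : ℝ) ^ (-s) : ℝ) =
        ∏ P ∈ T, (1 - χ P * ((Ideal.absNorm P : ℝ) ^ (-s) : ℝ))⁻¹

/-! ## 5. Wiring (proved here) -/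

/-- B3 from D0, D1, D2. -/
theorem stmt_DensityContradiction_of {p : ℕ} (h3 : 3 ≤ p) (h0 : Stmt_DensityAll)
    (h1 : Stmt_DensitySplit p) (h2 : Stmt_DensityClass p) : Stmt_DensityContradiction p := by
  intro F _ _ ζ hζ e he f hf hall
  obtain ⟨C0, δ0, hδ0, H0⟩ := h0 F p
  obtain ⟨C1, δ1, hδ1, H1⟩ := h1 F ζ hζ e he
  obtain ⟨C2, δ2, hδ2, H2⟩ := h2 F f hf
  have hp0 : (0 : ℝ) < p := by exact_mod_cast (by omega : 0 < p)
  have hp3 : (3 : ℝ) ≤ p := by exact_mod_cast h3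
  -- the key inequality for all `s` close to `1`
  have key : ∀ s : ℝ, 1 < s → s < 1 + δ0 → s < 1 + δ1 → s < 1 + δ2 →
      Real.log (1 / (s - 1)) - C0 ≤ (2 / p : ℝ) * Real.log (1 / (s - 1)) + (C1 + C2) := by
    intro s hs hs0 hs1 hs2
    obtain ⟨T, hT, hlow⟩ := H0 s hs hs0
    classical
    have hsplit : ∑ P ∈ T, (Ideal.absNorm P : ℝ) ^ (-s) =
        ∑ P ∈ T.filter (fun P => f (cls F P) ≠ 1), (Ideal.absNorm P : ℝ) ^ (-s) +
        ∑ P ∈ T.filter (fun P => ¬ f (cls F P) ≠ 1), (Ideal.absNorm P : ℝ) ^ (-s) :=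
      (Finset.sum_filter_add_sum_filter_not T _ _).symm
    have hA := H1 s hs hs1 (T.filter (fun P => f (cls F P) ≠ 1)) (by
      intro P hP
      rw [Finset.mem_filter] at hP
      exact ⟨hT P hP.1, hall P (hT P hP.1) hP.2⟩)
    have hB := H2 s hs hs2 (T.filter (fun P => ¬ f (cls F P) ≠ 1)) (by
      intro P hP
      rw [Finset.mem_filter] at hP
      have hdeg := hT P hP.1
      refine ⟨hdeg.1, ?_, not_not.mp hP.2⟩
      rintro rfl
      have := hdeg.2.1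
      rw [Ideal.absNorm_bot] at this
      exact Nat.not_prime_zero this)
    have : (2 / p : ℝ) * Real.log (1 / (s - 1)) =
        (1 / p : ℝ) * Real.log (1 / (s - 1)) + (1 / p : ℝ) * Real.log (1 / (s - 1)) := by ring
    linarith
  -- choose `s` with `log (1/(s-1))` huge
  set M : ℝ := 3 * (|C0| + |C1| + |C2| + 1) with hM
  have hMpos : 0 < M := by positivity
  set s : ℝ := 1 + min (min δ0 δ1) (min δ2 (Real.exp (-M))) / 2 with hs
  have hmin : 0 < min (min δ0 δ1) (min δ2 (Real.exp (-M))) :=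
    lt_min (lt_min hδ0 hδ1) (lt_min hδ2 (Real.exp_pos _))
  have hs1 : 1 < s := by rw [hs]; linarith
  have hle0 : min (min δ0 δ1) (min δ2 (Real.exp (-M))) ≤ δ0 :=
    (min_le_left _ _).trans (min_le_left _ _)
  have hle1 : min (min δ0 δ1) (min δ2 (Real.exp (-M))) ≤ δ1 :=
    (min_le_left _ _).trans (min_le_right _ _)
  have hle2 : min (min δ0 δ1) (min δ2 (Real.exp (-M))) ≤ δ2 :=
    (min_le_right _ _).trans (min_le_left _ _)
  have hle3 : min (min δ0 δ1) (min δ2 (Real.exp (-M))) ≤ Real.exp (-M) :=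
    (min_le_right _ _).trans (min_le_right _ _)
  have hk := key s hs1 (by rw [hs]; linarith) (by rw [hs]; linarith) (by rw [hs]; linarith)
  have hsm : s - 1 ≤ Real.exp (-M) := by rw [hs]; linarith
  have hspos : 0 < s - 1 := by linarith
  have hlog : M ≤ Real.log (1 / (s - 1)) := by
    rw [one_div, Real.log_inv, le_neg]
    calc Real.log (s - 1) ≤ Real.log (Real.exp (-M)) := Real.log_le_log hspos hsm
      _ = -M := Real.log_exp _
  have h2p : (2 / p : ℝ) ≤ 2 / 3 := by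
    rw [div_le_div_iff₀ hp0 (by norm_num)]
    linarith
  have hL : 0 ≤ Real.log (1 / (s - 1)) := hMpos.le.trans hlog
  have : Real.log (1 / (s - 1)) - C0 ≤ (2 / 3 : ℝ) * Real.log (1 / (s - 1)) + (C1 + C2) :=
    hk.trans (by nlinarith)
  have hC0 := le_abs_self C0
  have hC1 := le_abs_self C1
  have hC2 := le_abs_self C2
  have hn0 := abs_nonneg C0
  have hn1 := abs_nonneg C1
  have hn2 := abs_nonneg C2
  nlinarith

/-- B from B1, B2, B3 and the facts on `E_2`. -/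
theorem stmt_ClassEigen_of {p : ℕ} (hI : Stmt_ETwoIntegral p) (hC : Stmt_ETwoCong p)
    (hF : Stmt_Functional p) (hT : Stmt_ThaineResidue p) (hD : Stmt_DensityContradiction p)
    (hp : p.Prime) : Stmt_ClassEigen p := by
  intro K _ _ _ ζ hζ x hxp hx
  by_contra hx1
  obtain ⟨f, hf1, hf⟩ := hF K ζ hζ x hx1 hxp hx
  obtain ⟨e, he⟩ := hI K ζ hζ
  have he0 : eTwo p ζ ≠ 0 := by
    rw [← he]
    exact RingOfIntegers.coe_ne_zero_iff.mpr e.ne_zero
  have hnp : ∀ y : K, y ^ p ≠ (((e : 𝓞 K)) : K) := by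
    intro y hy
    rw [he] at hy
    have hy0 : y ≠ 0 := by
      rintro rfl
      rw [zero_pow hp.ne_zero] at hy
      exact he0 hy.symm
    refine hC K ζ hζ 1 y⁻¹ 1 0 ?_ ?_ ?_
    · exact fun h => hp.one_lt.ne' (Nat.dvd_one.mp h)
    · intro h
      have := Int.eq_one_of_dvd_one (by positivity) h
      exact hp.one_lt.ne' (by exact_mod_cast this)
    · rw [pow_one, ← hy, inv_pow, mul_inv_cancel₀ (pow_ne_zero _ hy0)]
      simp
  exact hD K ζ hζ (e : 𝓞 K) hnp f hf1 (fun P hP hne => hT K ζ hζ f hf (e : 𝓞 K) he P hP hne)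

end Fermat.Agent.S14.helper1441
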