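import Mathlib

/-!
# S14 / Weber bound core, part 2: an abstract lattice summation bound

If `g` is a function on a `ℤ`-lattice `L` of rank `< d` which is bounded by `M` everywhere and
by `A * ‖x‖⁻¹ ^ d` outside the ball of radius `R`, then `∑ |g|` is bounded by `M * N + A * S`
with `N`, `S` depending only on `L`, `d` and `R`.
-/

set_option autoImplicit false

namespace Fermat.Agent.S14.helper914

open Module

theorem exists_lattice_bound {E : Type*} [NormedAddCommGroup E] [NormedSpace ℝ E]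
    [FiniteDimensional ℝ E] (L : Submodule ℤ E) [DiscreteTopology L] (d : ℕ)
    (hd : Module.finrank ℤ L < d) (R : ℝ) :
    ∃ N S : ℝ, 0 ≤ N ∧ 0 ≤ S ∧ ∀ (M A : ℝ) (g : L → ℝ), 0 ≤ M → 0 ≤ A →
      (∀ x, |g x| ≤ M) → (∀ x : L, R ≤ ‖x‖ → |g x| ≤ A * ‖x‖⁻¹ ^ d) →
      Summable (fun x ↦ |g x|) ∧ ∑' x, |g x| ≤ M * N + A * S := by
  classical
  have hsum : Summable fun z : L ↦ ‖z‖⁻¹ ^ d := ZLattice.summable_norm_pow_inv L d hd
  have hclosed : IsClosed (X := E) L := @AddSubgroup.isClosed_of_discrete _ _ _ _ _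
    L.toAddSubgroup (inferInstanceAs (DiscreteTopology L))
  have hfin : {x : L | ‖x‖ < R}.Finite := by
    refine ((Metric.finite_isBounded_inter_isClosed DiscreteTopology.isDiscrete
      (Metric.isBounded_closedBall (x := (0 : E)) (r := R)) hclosed).preimage_embedding
      (.subtype _)).subset ?_
    intro t ht
    simp only [Set.mem_ofPred_eq] at ht
    simp only [Set.mem_preimage, Set.mem_inter_iff, Metric.mem_closedBall, dist_zero_right]
    exact ⟨by simpa using ht.le, t.2⟩
  let T : Finset L := hfin.toFinset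
  refine ⟨T.card, ∑' z : L, ‖z‖⁻¹ ^ d, Nat.cast_nonneg _,
    tsum_nonneg fun z ↦ by positivity, ?_⟩
  intro M A g hM hA hgM hgA
  have hind : Summable fun x : L ↦ (if x ∈ T then M else 0) :=
    summable_of_ne_finset_zero (s := T) (fun x hx ↦ by simp [hx])
  have hle : ∀ x : L, |g x| ≤ (if x ∈ T then M else 0) + A * ‖x‖⁻¹ ^ d := by
    intro x
    by_cases hx : x ∈ T
    · simp only [hx, if_true]
      have : 0 ≤ A * ‖x‖⁻¹ ^ d := by positivity
      linarith [hgM x]
    · simp only [hx, if_false, zero_add]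
      apply hgA
      have : ¬ ‖x‖ < R := by
        intro h
        exact hx (hfin.mem_toFinset.mpr h)
      exact not_lt.mp this
  have hS : Summable fun x : L ↦ (if x ∈ T then M else 0) + A * ‖x‖⁻¹ ^ d :=
    hind.add (hsum.mul_left A)
  have hs : Summable fun x : L ↦ |g x| :=
    Summable.of_nonneg_of_le (fun x ↦ abs_nonneg _) hle hS
  refine ⟨hs, ?_⟩
  calc ∑' x, |g x| ≤ ∑' x : L, ((if x ∈ T then M else 0) + A * ‖x‖⁻¹ ^ d) :=
        hs.tsum_le_tsum hle hS
    _ = ∑' x : L, (if x ∈ T then M else 0) + ∑' x : L, A * ‖x‖⁻¹ ^ d :=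
        hind.tsum_add (hsum.mul_left A)
    _ = M * T.card + A * ∑' x : L, ‖x‖⁻¹ ^ d := by
        rw [tsum_mul_left]
        congr 1
        rw [tsum_eq_sum (s := T) (fun x hx ↦ by simp [hx])]
        rw [Finset.sum_ite_mem, Finset.inter_self]
        simp [mul_comm]

end Fermat.Agent.S14.helper914
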