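import Mathlib

/-!
# S14 / Weber bound core, part 1: tent functions and the tent partition of unity

Mathlib-only.  `tent t = max 0 (1 - |t|)`; `∑ k : ℤ, tent (t + k) = 1`.
For a basis `b` of a finite dimensional real normed space, `tentB b h = ∏ i, tent (b.repr h i)`
is a bounded Lipschitz function with bounded support whose translates by the lattice
spanned by `b` sum to `1`.
-/

set_option autoImplicit false

namespace Fermat.Agent.S14.helper914

open Finset

/-- The tent function `max 0 (1 - |t|)`. -/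
noncomputable def tent (t : ℝ) : ℝ := max 0 (1 - |t|)

lemma tent_nonneg (t : ℝ) : 0 ≤ tent t := le_max_left _ _

lemma tent_le_one (t : ℝ) : tent t ≤ 1 := by
  unfold tent
  exact max_le zero_le_one (by linarith [abs_nonneg t])

lemma tent_eq_zero_of_one_le_abs {t : ℝ} (h : 1 ≤ |t|) : tent t = 0 := by
  unfold tent
  exact max_eq_left (by linarith)

lemma abs_lt_one_of_tent_ne_zero {t : ℝ} (h : tent t ≠ 0) : |t| < 1 := by
  by_contra h'
  exact h (tent_eq_zero_of_one_le_abs (not_lt.mp h'))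

lemma tent_eq_of_abs_le_one {t : ℝ} (h : |t| ≤ 1) : tent t = 1 - |t| := by
  unfold tent
  exact max_eq_right (by linarith)

lemma abs_tent_sub_tent_le (t t' : ℝ) : |tent t - tent t'| ≤ |t - t'| := by
  unfold tent
  have h1 : |max 0 (1 - |t|) - max 0 (1 - |t'|)| ≤ |(1 - |t|) - (1 - |t'|)| := by
    have := abs_max_sub_max_le_abs (1 - |t|) (1 - |t'|) (0 : ℝ)
    rwa [max_comm (1 - |t|) 0, max_comm (1 - |t'|) 0] at this
  have h2 : |(1 - |t|) - (1 - |t'|)| ≤ |t - t'| := by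
    have : (1 - |t|) - (1 - |t'|) = |t'| - |t| := by ring
    rw [this, abs_sub_comm t t']
    exact abs_abs_sub_abs_le_abs_sub t' t
  exact h1.trans h2

/-- The integer translates of the tent function form a partition of unity. -/
lemma hasSum_tent (t : ℝ) : HasSum (fun k : ℤ ↦ tent (t + k)) 1 := by
  have hsupp : ∀ k : ℤ, k ∉ ({-⌊t⌋ - 1, -⌊t⌋} : Finset ℤ) → tent (t + k) = 0 := by
    intro k hk
    simp only [Finset.mem_insert, Finset.mem_singleton, not_or] at hk
    apply tent_eq_zero_of_one_le_abs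
    rcases lt_or_gt_of_ne hk.2 with h | h
    · have h' : k ≤ -⌊t⌋ - 2 := by
        have : k ≤ -⌊t⌋ - 1 := by omega
        rcases lt_or_eq_of_le this with h'' | h''
        · omega
        · exact absurd h'' hk.1
      have h3 : (k : ℝ) ≤ -(⌊t⌋ : ℝ) - 2 := by exact_mod_cast h'
      have h4 : t < ⌊t⌋ + 1 := Int.lt_floor_add_one t
      rw [le_abs]
      right
      linarith
    · have h' : -⌊t⌋ + 1 ≤ k := by omega
      have h3 : -(⌊t⌋ : ℝ) + 1 ≤ (k : ℝ) := by exact_mod_cast h'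
      have h4 : (⌊t⌋ : ℝ) ≤ t := Int.floor_le t
      rw [le_abs]
      left
      linarith
  have hsum : ∑ k ∈ ({-⌊t⌋ - 1, -⌊t⌋} : Finset ℤ), tent (t + k) = 1 := by
    rw [Finset.sum_pair (by omega)]
    have h1 : (⌊t⌋ : ℝ) ≤ t := Int.floor_le t
    have h2 : t < ⌊t⌋ + 1 := Int.lt_floor_add_one t
    have e1 : tent (t + ((-⌊t⌋ - 1 : ℤ) : ℝ)) = 1 - |t + ((-⌊t⌋ - 1 : ℤ) : ℝ)| := by
      apply tent_eq_of_abs_le_one
      push_cast
      rw [abs_le]
      constructor <;> linarith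
    have e2 : tent (t + ((-⌊t⌋ : ℤ) : ℝ)) = 1 - |t + ((-⌊t⌋ : ℤ) : ℝ)| := by
      apply tent_eq_of_abs_le_one
      push_cast
      rw [abs_le]
      constructor <;> linarith
    rw [e1, e2]
    push_cast
    rw [abs_of_nonpos (by linarith : t + (-(⌊t⌋ : ℝ) - 1) ≤ 0),
      abs_of_nonneg (by linarith : 0 ≤ t + -(⌊t⌋ : ℝ))]
    ring
  have : HasSum (fun k : ℤ ↦ tent (t + k)) (∑ k ∈ ({-⌊t⌋ - 1, -⌊t⌋} : Finset ℤ), tent (t + k)) :=
    hasSum_sum_of_ne_finset_zero hsupp
  rwa [hsum] at this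

section prod

variable {ι : Type*} [Fintype ι]

/-- Product of tents in the coordinates. -/
noncomputable def tentProd (v : ι → ℝ) : ℝ := ∏ i, tent (v i)

lemma tentProd_nonneg (v : ι → ℝ) : 0 ≤ tentProd v :=
  Finset.prod_nonneg fun i _ ↦ tent_nonneg (v i)

lemma tentProd_le_one (v : ι → ℝ) : tentProd v ≤ 1 :=
  Finset.prod_le_one (fun i _ ↦ tent_nonneg (v i)) (fun i _ ↦ tent_le_one (v i))

lemma abs_lt_one_of_tentProd_ne_zero {v : ι → ℝ} (h : tentProd v ≠ 0) (i : ι) : |v i| < 1 := by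
  apply abs_lt_one_of_tent_ne_zero
  intro h0
  exact h (Finset.prod_eq_zero (Finset.mem_univ i) h0)

/-- Products of numbers in `[0,1]` are Lipschitz in the factors. -/
lemma abs_prod_sub_prod_le {α : Type*} (s : Finset α) (a b : α → ℝ)
    (ha : ∀ i ∈ s, 0 ≤ a i ∧ a i ≤ 1) (hb : ∀ i ∈ s, 0 ≤ b i ∧ b i ≤ 1) :
    |∏ i ∈ s, a i - ∏ i ∈ s, b i| ≤ ∑ i ∈ s, |a i - b i| := by
  classical
  induction s using Finset.induction_on with
  | empty => simp
  | insert j s hj ih =>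
    rw [Finset.prod_insert hj, Finset.prod_insert hj, Finset.sum_insert hj]
    have ha' : ∀ i ∈ s, 0 ≤ a i ∧ a i ≤ 1 := fun i hi ↦ ha i (Finset.mem_insert_of_mem hi)
    have hb' : ∀ i ∈ s, 0 ≤ b i ∧ b i ≤ 1 := fun i hi ↦ hb i (Finset.mem_insert_of_mem hi)
    have hA0 : 0 ≤ ∏ i ∈ s, a i := Finset.prod_nonneg fun i hi ↦ (ha' i hi).1
    have hA1 : ∏ i ∈ s, a i ≤ 1 :=
      Finset.prod_le_one (fun i hi ↦ (ha' i hi).1) (fun i hi ↦ (ha' i hi).2)
    have hbj := hb j (Finset.mem_insert_self j s)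
    have key : a j * ∏ i ∈ s, a i - b j * ∏ i ∈ s, b i =
        (a j - b j) * ∏ i ∈ s, a i + b j * (∏ i ∈ s, a i - ∏ i ∈ s, b i) := by ring
    rw [key]
    calc |(a j - b j) * ∏ i ∈ s, a i + b j * (∏ i ∈ s, a i - ∏ i ∈ s, b i)|
        ≤ |(a j - b j) * ∏ i ∈ s, a i| + |b j * (∏ i ∈ s, a i - ∏ i ∈ s, b i)| := abs_add_le _ _
      _ = |a j - b j| * ∏ i ∈ s, a i + b j * |∏ i ∈ s, a i - ∏ i ∈ s, b i| := by
          rw [abs_mul, abs_mul, abs_of_nonneg hA0, abs_of_nonneg hbj.1]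
      _ ≤ |a j - b j| * 1 + 1 * ∑ i ∈ s, |a i - b i| := by
          apply add_le_add
          · exact mul_le_mul_of_nonneg_left hA1 (abs_nonneg _)
          · exact mul_le_mul hbj.2 (ih ha' hb') (abs_nonneg _) zero_le_one
      _ = |a j - b j| + ∑ i ∈ s, |a i - b i| := by ring

lemma abs_tentProd_sub_le (v v' : ι → ℝ) :
    |tentProd v - tentProd v'| ≤ ∑ i, |v i - v' i| := by
  unfold tentProd
  refine (abs_prod_sub_prod_le Finset.univ _ _ (fun i _ ↦ ⟨tent_nonneg _, tent_le_one _⟩)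
    (fun i _ ↦ ⟨tent_nonneg _, tent_le_one _⟩)).trans ?_
  exact Finset.sum_le_sum fun i _ ↦ abs_tent_sub_tent_le _ _

/-- The `ℤ^ι`-translates of the product tent form a partition of unity. -/
lemma hasSum_tentProd (v : ι → ℝ) :
    HasSum (fun e : ι → ℤ ↦ tentProd (fun i ↦ v i + e i)) 1 := by
  classical
  let S : ι → Finset ℤ := fun i ↦ {-⌊v i⌋ - 1, -⌊v i⌋}
  have hS : ∀ i, ∀ k : ℤ, k ∉ S i → tent (v i + k) = 0 := by
    intro i k hk
    by_contra h0
    have hlt := abs_lt_one_of_tent_ne_zero h0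
    rw [abs_lt] at hlt
    have h1 : (⌊v i⌋ : ℝ) ≤ v i := Int.floor_le _
    have h2 : v i < ⌊v i⌋ + 1 := Int.lt_floor_add_one _
    have hk1 : (-(⌊v i⌋ : ℝ) - 2 : ℝ) < k := by linarith
    have hk2 : (k : ℝ) < -(⌊v i⌋ : ℝ) + 1 := by linarith
    have hk1' : -⌊v i⌋ - 2 < k := by exact_mod_cast hk1
    have hk2' : k < -⌊v i⌋ + 1 := by exact_mod_cast hk2
    apply hk
    simp only [S, Finset.mem_insert, Finset.mem_singleton]
    omega
  have hsupp : ∀ e : ι → ℤ, e ∉ Fintype.piFinset S → tentProd (fun i ↦ v i + e i) = 0 := by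
    intro e he
    rw [Fintype.mem_piFinset] at he
    obtain ⟨i, hi⟩ := not_forall.mp he
    exact Finset.prod_eq_zero (Finset.mem_univ i) (hS i (e i) hi)
  have hsum : ∑ e ∈ Fintype.piFinset S, tentProd (fun i ↦ v i + e i) = 1 := by
    unfold tentProd
    rw [← Finset.prod_univ_sum S (fun i k ↦ tent (v i + (k : ℝ)))]
    apply Finset.prod_eq_one
    intro i _
    have h' : HasSum (fun k : ℤ ↦ tent (v i + k)) (∑ k ∈ S i, tent (v i + k)) :=
      hasSum_sum_of_ne_finset_zero (hS i)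
    exact ((hasSum_tent (v i)).unique h').symm
  have : HasSum (fun e : ι → ℤ ↦ tentProd (fun i ↦ v i + e i))
      (∑ e ∈ Fintype.piFinset S, tentProd (fun i ↦ v i + e i)) :=
    hasSum_sum_of_ne_finset_zero hsupp
  rwa [hsum] at this

end prod

section basis

variable {ι : Type*} [Fintype ι] {V : Type*} [NormedAddCommGroup V] [NormedSpace ℝ V]

/-- The product tent in the coordinates of a basis. -/
noncomputable def tentB (b : Module.Basis ι ℝ V) (h : V) : ℝ := tentProd (fun i ↦ b.repr h i)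

lemma tentB_nonneg (b : Module.Basis ι ℝ V) (h : V) : 0 ≤ tentB b h := tentProd_nonneg _

lemma tentB_le_one (b : Module.Basis ι ℝ V) (h : V) : tentB b h ≤ 1 := tentProd_le_one _

/-- The support of `tentB b` is bounded. -/
lemma norm_le_of_tentB_ne_zero (b : Module.Basis ι ℝ V) {h : V} (hh : tentB b h ≠ 0) :
    ‖h‖ ≤ ∑ i, ‖b i‖ := by
  have hi := abs_lt_one_of_tentProd_ne_zero hh
  conv_lhs => rw [← b.sum_repr h]
  refine (norm_sum_le _ _).trans (Finset.sum_le_sum fun i _ ↦ ?_)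
  rw [norm_smul, Real.norm_eq_abs]
  calc |b.repr h i| * ‖b i‖ ≤ 1 * ‖b i‖ :=
        mul_le_mul_of_nonneg_right (hi i).le (norm_nonneg _)
    _ = ‖b i‖ := one_mul _

/-- `tentB b` is Lipschitz. -/
lemma exists_tentB_lipschitz [FiniteDimensional ℝ V] (b : Module.Basis ι ℝ V) :
    ∃ C : ℝ, 0 ≤ C ∧ ∀ h h' : V, |tentB b h - tentB b h'| ≤ C * ‖h - h'‖ := by
  classical
  let f : ι → (V →L[ℝ] ℝ) := fun i ↦ LinearMap.toContinuousLinearMap (b.coord i)
  refine ⟨∑ i, ‖f i‖, Finset.sum_nonneg fun i _ ↦ norm_nonneg _, fun h h' ↦ ?_⟩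
  unfold tentB
  refine (abs_tentProd_sub_le _ _).trans ?_
  rw [Finset.sum_mul]
  refine Finset.sum_le_sum fun i _ ↦ ?_
  have : b.repr h i - b.repr h' i = f i (h - h') := by
    simp [f]
  rw [this]
  exact (f i).le_opNorm _

/-- The translates of `tentB b` by the lattice spanned by `b` sum to `1`. -/
lemma hasSum_tentB (b : Module.Basis ι ℝ V) (h : V) :
    HasSum (fun e : ι → ℤ ↦ tentB b (h + ∑ i, (e i : ℝ) • b i)) 1 := by
  have := hasSum_tentProd (fun i ↦ b.repr h i)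
  convert this using 2 with e
  unfold tentB
  congr 1
  funext i
  classical
  simp [map_add, map_sum, Finsupp.single_apply, Finset.sum_ite_eq']

end basis

end Fermat.Agent.S14.helper914
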