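import Mathlib
import Fermat.Agent.S14.helper914_PZTent

/-!
# S14 / Weber bound core, part 3: the weight on the mixed space

`wPhi K x = tentB (logBasis K) (logMap x) / torsionOrder K` is a partition of unity for the action
of the units on the elements of nonzero norm of the mixed space, and
`wF K s x = wPhi K x * (mixedEmbedding.norm x) ^ (-s)` is the weight whose sum over the nonzero
elements of an ideal computes a partial zeta function.
-/

set_option autoImplicit false

namespace Fermat.Agent.S14.helper914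

open NumberField NumberField.mixedEmbedding NumberField.InfinitePlace NumberField.Units
open NumberField.Units.dirichletUnitTheorem
open scoped Classical

variable (K : Type*) [Field K] [NumberField K]

/-- The real basis of the log space given by the fundamental system of units. -/
noncomputable def logBasis : Module.Basis (Fin (rank K)) ℝ (logSpace K) :=
  (basisUnitLattice K).ofZLatticeBasis ℝ (unitLattice K)

lemma logBasis_apply (i : Fin (rank K)) :
    logBasis K i = logEmbedding K (Additive.ofMul (fundSystem K i)) := by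
  rw [logBasis, Module.Basis.ofZLatticeBasis_apply, logEmbedding_fundSystem]

/-- The partition of unity for the unit action. -/
noncomputable def wPhi (x : mixedSpace K) : ℝ :=
  tentB (logBasis K) (logMap x) / torsionOrder K

lemma wPhi_nonneg (x : mixedSpace K) : 0 ≤ wPhi K x :=
  div_nonneg (tentB_nonneg _ _) (Nat.cast_nonneg _)

lemma wPhi_le_one (x : mixedSpace K) : wPhi K x ≤ 1 := by
  unfold wPhi
  have h1 : (1 : ℝ) ≤ torsionOrder K := by exact_mod_cast (torsionOrder_pos K)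
  rw [div_le_one (by linarith)]
  exact (tentB_le_one _ _).trans h1

/-- The bijection between units and (torsion, exponent vector). -/
noncomputable def unitsEquiv : torsion K × (Fin (rank K) → ℤ) ≃ (𝓞 K)ˣ :=
  Equiv.ofBijective (fun ζe ↦ (ζe.1 : (𝓞 K)ˣ) * ∏ i, fundSystem K i ^ ζe.2 i) (by
    constructor
    · intro a b hab
      obtain ⟨c, -, hc⟩ := exist_unique_eq_mul_prod K ((a.1 : (𝓞 K)ˣ) * ∏ i, fundSystem K i ^ a.2 i)
      have ha := hc a rfl
      have hb := hc b hab
      rw [ha, hb]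
    · intro x
      obtain ⟨c, hc, -⟩ := exist_unique_eq_mul_prod K x
      exact ⟨c, hc.symm⟩)

lemma unitsEquiv_apply (ζe : torsion K × (Fin (rank K) → ℤ)) :
    unitsEquiv K ζe = (ζe.1 : (𝓞 K)ˣ) * ∏ i, fundSystem K i ^ ζe.2 i := rfl

lemma logEmbedding_unitsEquiv (ζe : torsion K × (Fin (rank K) → ℤ)) :
    logEmbedding K (Additive.ofMul (unitsEquiv K ζe)) = ∑ i, (ζe.2 i : ℝ) • logBasis K i := by
  have h1 : logEmbedding K (Additive.ofMul (ζe.1 : (𝓞 K)ˣ)) = 0 :=
    logEmbedding_eq_zero_iff.mpr ζe.1.2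
  rw [unitsEquiv_apply, ofMul_mul, map_add, h1, zero_add, ofMul_prod, map_sum]
  refine Finset.sum_congr rfl fun i _ ↦ ?_
  rw [ofMul_zpow, map_zsmul, logBasis_apply, Int.cast_smul_eq_zsmul ℝ]

/-- `wPhi` is a partition of unity for the action of the units. -/
theorem hasSum_wPhi_units {x : mixedSpace K} (hx : mixedEmbedding.norm x ≠ 0) :
    HasSum (fun u : (𝓞 K)ˣ ↦ wPhi K (u • x)) 1 := by
  rw [← (unitsEquiv K).hasSum_iff]
  have hw : (0 : ℝ) < torsionOrder K := by exact_mod_cast (torsionOrder_pos K)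
  have hg := hasSum_tentB (logBasis K) (logMap x)
  have hfun : ((fun u : (𝓞 K)ˣ ↦ wPhi K (u • x)) ∘ (unitsEquiv K)) =
      fun ζe : torsion K × (Fin (rank K) → ℤ) ↦
        tentB (logBasis K) (logMap x + ∑ i, (ζe.2 i : ℝ) • logBasis K i) / torsionOrder K := by
    funext ζe
    simp only [Function.comp_apply, wPhi]
    rw [logMap_unit_smul _ hx, logEmbedding_unitsEquiv, add_comm]
  rw [hfun]
  have hnn : (0 : torsion K × (Fin (rank K) → ℤ) → ℝ) ≤ fun ζe ↦
      tentB (logBasis K) (logMap x + ∑ i, (ζe.2 i : ℝ) • logBasis K i) / torsionOrder K :=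
    fun ζe ↦ div_nonneg (tentB_nonneg _ _) hw.le
  have hfib : ∀ ζ : torsion K, HasSum (fun e : Fin (rank K) → ℤ ↦
      tentB (logBasis K) (logMap x + ∑ i, (e i : ℝ) • logBasis K i) / torsionOrder K)
      (1 / torsionOrder K) := fun ζ ↦ hg.div_const _
  have hsummable : Summable fun ζe : torsion K × (Fin (rank K) → ℤ) ↦
      tentB (logBasis K) (logMap x + ∑ i, (ζe.2 i : ℝ) • logBasis K i) / torsionOrder K := by
    rw [summable_prod_of_nonneg hnn]
    exact ⟨fun ζ ↦ (hfib ζ).summable, Summable.of_finite⟩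
  have htsum := hsummable.tsum_prod
  have : ∑' (ζe : torsion K × (Fin (rank K) → ℤ)),
      tentB (logBasis K) (logMap x + ∑ i, (ζe.2 i : ℝ) • logBasis K i) / torsionOrder K = 1 := by
    rw [htsum]
    have : Fintype (torsion K) := Fintype.ofFinite _
    have hcard : (Fintype.card (torsion K) : ℝ) = torsionOrder K := by
      rw [torsionOrder, Nat.card_eq_fintype_card]
    calc ∑' (b : torsion K) (c : Fin (rank K) → ℤ),
          tentB (logBasis K) (logMap x + ∑ i, (((b, c) : torsion K × (Fin (rank K) → ℤ)).2 i : ℝ) •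
            logBasis K i) / torsionOrder K
        = ∑' (b : torsion K), (1 / (torsionOrder K : ℝ)) := tsum_congr fun b ↦ (hfib b).tsum_eq
      _ = 1 := by
        rw [tsum_fintype, Finset.sum_const, Finset.card_univ, nsmul_eq_mul, hcard]
        field_simp
  rw [← this]
  exact hsummable.hasSum

/-! ### Log coordinates -/

/-- `∑ w, mult w * l w`. -/
noncomputable def lSum (l : InfinitePlace K → ℝ) : ℝ := ∑ w, (mult w : ℝ) * l w

/-- The weighted mean of a vector of `realSpace K`. -/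
noncomputable def lMean (l : InfinitePlace K → ℝ) : ℝ := lSum K l / Module.finrank ℚ K

/-- The linear map from `realSpace K` to `logSpace K` underlying `logMap`. -/
noncomputable def lMap (l : InfinitePlace K → ℝ) : logSpace K :=
  fun w ↦ mult w.val * (l w.val - lMean K l)

/-- The weight in log coordinates. -/
noncomputable def wTheta (s : ℝ) (l : InfinitePlace K → ℝ) : ℝ :=
  tentB (logBasis K) (lMap K l) / torsionOrder K * Real.exp (-s * lSum K l)

lemma finrank_pos' : (0 : ℝ) < Module.finrank ℚ K := by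
  exact_mod_cast (Module.finrank_pos : 0 < Module.finrank ℚ K)

lemma sum_mult_eq' : ∑ w : InfinitePlace K, (mult w : ℝ) = Module.finrank ℚ K := by
  exact_mod_cast (sum_mult_eq (K := K))

omit [NumberField K] in
lemma mult_le_two' (w : InfinitePlace K) : (mult w : ℝ) ≤ 2 := by
  rw [mult]; split_ifs <;> norm_num

omit [NumberField K] in
lemma one_le_mult' (w : InfinitePlace K) : (1 : ℝ) ≤ mult w := by
  exact_mod_cast (mult_pos : 0 < mult w)

lemma abs_lSum_le (l : InfinitePlace K → ℝ) : |lSum K l| ≤ Module.finrank ℚ K * ‖l‖ := by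
  unfold lSum
  rw [← sum_mult_eq', Finset.sum_mul]
  refine (Finset.abs_sum_le_sum_abs _ _).trans (Finset.sum_le_sum fun w _ ↦ ?_)
  rw [abs_mul, abs_of_nonneg (Nat.cast_nonneg _)]
  exact mul_le_mul_of_nonneg_left (by simpa using norm_le_pi_norm l w) (Nat.cast_nonneg _)

lemma lSum_sub (l l' : InfinitePlace K → ℝ) : lSum K (l - l') = lSum K l - lSum K l' := by
  unfold lSum
  rw [← Finset.sum_sub_distrib]
  refine Finset.sum_congr rfl fun w _ ↦ ?_
  simp [mul_sub]

lemma abs_lMean_le (l : InfinitePlace K → ℝ) : |lMean K l| ≤ ‖l‖ := by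
  unfold lMean
  rw [abs_div, abs_of_pos (finrank_pos' K), div_le_iff₀ (finrank_pos' K), mul_comm]
  exact abs_lSum_le K l

lemma lMap_sub (l l' : InfinitePlace K → ℝ) : lMap K (l - l') = lMap K l - lMap K l' := by
  funext w
  simp only [lMap, lMean, lSum_sub, Pi.sub_apply]
  ring

lemma norm_lMap_le (l : InfinitePlace K → ℝ) : ‖lMap K l‖ ≤ 4 * ‖l‖ := by
  rw [pi_norm_le_iff_of_nonneg (by positivity)]
  intro w
  simp only [lMap, Real.norm_eq_abs]
  rw [abs_mul, abs_of_nonneg (Nat.cast_nonneg _)]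
  have h1 : |l w.val - lMean K l| ≤ 2 * ‖l‖ := by
    have h2 : |l w.val| ≤ ‖l‖ := by simpa using norm_le_pi_norm l w.val
    have h3 := abs_lMean_le K l
    calc |l w.val - lMean K l| ≤ |l w.val| + |lMean K l| := abs_sub _ _
      _ ≤ 2 * ‖l‖ := by linarith
  calc (mult w.val : ℝ) * |l w.val - lMean K l| ≤ 2 * (2 * ‖l‖) :=
        mul_le_mul (mult_le_two' K _) h1 (abs_nonneg _) (by norm_num)
    _ = 4 * ‖l‖ := by ring

/-- The constant controlling the support of the weight. -/
noncomputable def wC : ℝ := Fintype.card (InfinitePlace K) * ∑ i, ‖logBasis K i‖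

lemma wC_nonneg : 0 ≤ wC K :=
  mul_nonneg (Nat.cast_nonneg _) (Finset.sum_nonneg fun _ _ ↦ norm_nonneg _)

/-- Support condition in log coordinates: on the support of the weight all coordinates are within
`wC K` of the weighted mean. -/
lemma abs_sub_lMean_le {l : InfinitePlace K → ℝ} (h : tentB (logBasis K) (lMap K l) ≠ 0)
    (w : InfinitePlace K) : |l w - lMean K l| ≤ wC K := by
  have hC0 : ‖lMap K l‖ ≤ ∑ i, ‖logBasis K i‖ := norm_le_of_tentB_ne_zero _ h
  have hC0' : 0 ≤ ∑ i, ‖logBasis K i‖ := Finset.sum_nonneg fun i _ ↦ norm_nonneg _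
  have hcard : (1 : ℝ) ≤ Fintype.card (InfinitePlace K) := by
    exact_mod_cast Fintype.card_pos
  have hne : ∀ v : {w : InfinitePlace K // w ≠ w₀},
      |(mult v.val : ℝ) * (l v.val - lMean K l)| ≤ ∑ i, ‖logBasis K i‖ := by
    intro v
    have := norm_le_pi_norm (lMap K l) v
    rw [Real.norm_eq_abs] at this
    exact this.trans hC0
  have hmul : ∀ v : InfinitePlace K, |l v - lMean K l| ≤ |(mult v : ℝ) * (l v - lMean K l)| := by
    intro v
    rw [abs_mul, abs_of_nonneg (Nat.cast_nonneg (mult v) : (0 : ℝ) ≤ (mult v : ℝ))]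
    exact le_mul_of_one_le_left (abs_nonneg _) (one_le_mult' K v)
  by_cases hw : w = w₀
  · subst hw
    have hzero : ∑ v : InfinitePlace K, (mult v : ℝ) * (l v - lMean K l) = 0 := by
      simp only [mul_sub]
      rw [Finset.sum_sub_distrib, ← Finset.sum_mul, sum_mult_eq']
      unfold lMean
      rw [mul_div_cancel₀ _ (finrank_pos' K).ne']
      unfold lSum
      ring
    rw [Fintype.sum_eq_add_sum_subtype_ne _ (w₀ : InfinitePlace K)] at hzero
    have h1 : (mult (w₀ : InfinitePlace K) : ℝ) * (l w₀ - lMean K l) =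
        - ∑ v : {w : InfinitePlace K // w ≠ w₀}, (mult v.val : ℝ) * (l v.val - lMean K l) := by
      linarith
    have h2 : |∑ v : {w : InfinitePlace K // w ≠ w₀}, (mult v.val : ℝ) * (l v.val - lMean K l)| ≤
        Fintype.card {w : InfinitePlace K // w ≠ w₀} * ∑ i, ‖logBasis K i‖ := by
      refine (Finset.abs_sum_le_sum_abs _ _).trans ?_
      calc ∑ v : {w : InfinitePlace K // w ≠ w₀}, |(mult v.val : ℝ) * (l v.val - lMean K l)|
          ≤ ∑ _v : {w : InfinitePlace K // w ≠ w₀}, ∑ j, ‖logBasis K j‖ :=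
            Finset.sum_le_sum fun v _ ↦ hne v
        _ = Fintype.card {w : InfinitePlace K // w ≠ w₀} * ∑ i, ‖logBasis K i‖ := by
            rw [Finset.sum_const, Finset.card_univ, nsmul_eq_mul]
    have h3 : (Fintype.card {w : InfinitePlace K // w ≠ w₀} : ℝ) ≤
        Fintype.card (InfinitePlace K) := by
      exact_mod_cast Fintype.card_subtype_le _
    calc |l w₀ - lMean K l| ≤ |(mult (w₀ : InfinitePlace K) : ℝ) * (l w₀ - lMean K l)| := hmul _
      _ = |∑ v : {w : InfinitePlace K // w ≠ w₀}, (mult v.val : ℝ) * (l v.val - lMean K l)| := by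
          rw [h1, abs_neg]
      _ ≤ Fintype.card {w : InfinitePlace K // w ≠ w₀} * ∑ i, ‖logBasis K i‖ := h2
      _ ≤ wC K := mul_le_mul_of_nonneg_right h3 hC0'
  · calc |l w - lMean K l| ≤ |(mult w : ℝ) * (l w - lMean K l)| := hmul _
      _ ≤ ∑ i, ‖logBasis K i‖ := hne ⟨w, hw⟩
      _ ≤ wC K := le_mul_of_one_le_left hC0' hcard

/-! ### The weight `wF` and its expression in log coordinates -/

/-- The weight `wPhi x * N(x) ^ (-s)`. -/
noncomputable def wF (s : ℝ) (x : mixedSpace K) : ℝ :=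
  wPhi K x * (mixedEmbedding.norm x) ^ (-s)

/-- The vector of the logarithms of the norms at all places. -/
noncomputable def lOf (x : mixedSpace K) : InfinitePlace K → ℝ :=
  fun w ↦ Real.log (normAtPlace w x)

lemma wF_nonneg (s : ℝ) (x : mixedSpace K) : 0 ≤ wF K s x :=
  mul_nonneg (wPhi_nonneg K x) (Real.rpow_nonneg (mixedEmbedding.norm_nonneg x) _)

lemma wF_unit_smul (s : ℝ) (u : (𝓞 K)ˣ) (x : mixedSpace K) :
    wF K s (u • x) = wPhi K (u • x) * (mixedEmbedding.norm x) ^ (-s) := by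
  unfold wF
  rw [norm_unit_smul]

lemma wF_eq_zero_of_norm_eq_zero {s : ℝ} (hs : s ≠ 0) {x : mixedSpace K}
    (hx : mixedEmbedding.norm x = 0) : wF K s x = 0 := by
  unfold wF
  rw [hx, Real.zero_rpow (neg_ne_zero.mpr hs), mul_zero]

lemma lSum_lOf {x : mixedSpace K} (hx : mixedEmbedding.norm x ≠ 0) :
    lSum K (lOf K x) = Real.log (mixedEmbedding.norm x) := by
  rw [mixedEmbedding.norm_apply,
    Real.log_prod (fun w _ ↦ pow_ne_zero _ (mixedEmbedding.norm_ne_zero_iff.mp hx w))]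
  simp [lSum, lOf, Real.log_pow]

lemma lMap_lOf {x : mixedSpace K} (hx : mixedEmbedding.norm x ≠ 0) :
    lMap K (lOf K x) = logMap x := by
  funext w
  simp only [lMap, lMean, lSum_lOf K hx, logMap_apply, lOf]
  ring

lemma wF_eq_wTheta {x : mixedSpace K} (hx : mixedEmbedding.norm x ≠ 0) (s : ℝ) :
    wF K s x = wTheta K s (lOf K x) := by
  have hpos : 0 < mixedEmbedding.norm x := lt_of_le_of_ne (mixedEmbedding.norm_nonneg x) (Ne.symm hx)
  unfold wF wTheta wPhi
  rw [lMap_lOf K hx, lSum_lOf K hx, Real.rpow_def_of_pos hpos]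
  congr 2
  ring

lemma abs_exp_sub_exp_le (u v : ℝ) : |Real.exp u - Real.exp v| ≤ Real.exp (max u v) * |u - v| := by
  have key : ∀ a b : ℝ, b ≤ a → Real.exp a - Real.exp b ≤ Real.exp a * (a - b) := by
    intro a b hab
    have h1 : b - a + 1 ≤ Real.exp (b - a) := Real.add_one_le_exp _
    have h2 : Real.exp b = Real.exp a * Real.exp (b - a) := by
      rw [← Real.exp_add]; congr 1; ring
    rw [h2]
    have h3 : 0 < Real.exp a := Real.exp_pos a
    nlinarith
  rcases le_total v u with h | h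
  · rw [max_eq_left h, abs_of_nonneg (sub_nonneg.mpr (Real.exp_le_exp.mpr h)),
      abs_of_nonneg (sub_nonneg.mpr h)]
    exact key u v h
  · rw [max_eq_right h, abs_sub_comm, abs_of_nonneg (sub_nonneg.mpr (Real.exp_le_exp.mpr h)),
      abs_sub_comm, abs_of_nonneg (sub_nonneg.mpr h)]
    exact key v u h

/-- `wTheta` is Lipschitz on bounded sets, uniformly in `s ∈ [0,2]`. -/
lemma exists_wTheta_lipschitz (Λ : ℝ) : ∃ A : ℝ, 0 ≤ A ∧ ∀ s : ℝ, 0 ≤ s → s ≤ 2 →
    ∀ l l' : InfinitePlace K → ℝ, ‖l‖ ≤ Λ → ‖l'‖ ≤ Λ →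
      |wTheta K s l - wTheta K s l'| ≤ A * ‖l - l'‖ := by
  obtain ⟨CT, hCT0, hCT⟩ := exists_tentB_lipschitz (logBasis K)
  set n : ℝ := ((Module.finrank ℚ K : ℕ) : ℝ) with hn
  have hn0 : 0 < n := finrank_pos' K
  set E : ℝ := Real.exp (2 * n * Λ) with hE
  have hE0 : 0 < E := Real.exp_pos _
  refine ⟨E * (4 * CT + 2 * n), by positivity, ?_⟩
  intro s hs0 hs2 l l' hl hl'
  have hw : (1 : ℝ) ≤ torsionOrder K := by exact_mod_cast (torsionOrder_pos K)
  set a := tentB (logBasis K) (lMap K l) / torsionOrder K with ha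
  set a' := tentB (logBasis K) (lMap K l') / torsionOrder K with ha'
  set b := Real.exp (-s * lSum K l) with hb
  set b' := Real.exp (-s * lSum K l') with hb'
  have hd0 : 0 ≤ ‖l - l'‖ := norm_nonneg _
  have h_a : |a - a'| ≤ 4 * CT * ‖l - l'‖ := by
    have h1 : a - a' = (tentB (logBasis K) (lMap K l) - tentB (logBasis K) (lMap K l')) /
        torsionOrder K := by rw [ha, ha']; ring
    rw [h1, abs_div, abs_of_pos (by linarith : (0 : ℝ) < torsionOrder K)]
    have h2 := hCT (lMap K l) (lMap K l')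
    rw [← lMap_sub] at h2
    have h3 := norm_lMap_le K (l - l')
    have h4 : |tentB (logBasis K) (lMap K l) - tentB (logBasis K) (lMap K l')| ≤
        4 * CT * ‖l - l'‖ := by
      calc _ ≤ CT * ‖lMap K (l - l')‖ := h2
        _ ≤ CT * (4 * ‖l - l'‖) := mul_le_mul_of_nonneg_left h3 hCT0
        _ = 4 * CT * ‖l - l'‖ := by ring
    calc _ ≤ |tentB (logBasis K) (lMap K l) - tentB (logBasis K) (lMap K l')| / 1 :=
          div_le_div_of_nonneg_left (abs_nonneg _) one_pos hw
      _ ≤ 4 * CT * ‖l - l'‖ := by rw [div_one]; exact h4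
  have h_a'0 : 0 ≤ a' := div_nonneg (tentB_nonneg _ _) (by linarith)
  have h_a'1 : a' ≤ 1 := by
    rw [ha', div_le_one (by linarith)]
    exact (tentB_le_one _ _).trans hw
  have hexp : ∀ m : InfinitePlace K → ℝ, ‖m‖ ≤ Λ → -s * lSum K m ≤ 2 * n * Λ := by
    intro m hm
    have h1 := abs_lSum_le K m
    have h2 : -s * lSum K m ≤ s * |lSum K m| := by
      have := neg_abs_le (lSum K m)
      nlinarith
    have h3 : s * |lSum K m| ≤ 2 * (n * Λ) := by
      apply mul_le_mul hs2 (h1.trans (mul_le_mul_of_nonneg_left hm hn0.le)) (abs_nonneg _)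
        (by norm_num)
    linarith
  have h_b : b ≤ E := Real.exp_le_exp.mpr (hexp l hl)
  have h_b0 : 0 ≤ b := (Real.exp_pos _).le
  have h_bb : |b - b'| ≤ E * (2 * n * ‖l - l'‖) := by
    refine (abs_exp_sub_exp_le _ _).trans ?_
    apply mul_le_mul (Real.exp_le_exp.mpr (max_le (hexp l hl) (hexp l' hl'))) _ (abs_nonneg _)
      hE0.le
    have h1 : -s * lSum K l - -s * lSum K l' = -s * lSum K (l - l') := by
      rw [lSum_sub]; ring
    rw [h1, abs_mul, abs_neg, abs_of_nonneg hs0]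
    have h2 := abs_lSum_le K (l - l')
    calc s * |lSum K (l - l')| ≤ 2 * (n * ‖l - l'‖) :=
          mul_le_mul hs2 h2 (abs_nonneg _) (by norm_num)
      _ = 2 * n * ‖l - l'‖ := by ring
  have hsplit : wTheta K s l - wTheta K s l' = (a - a') * b + a' * (b - b') := by
    unfold wTheta
    rw [← ha, ← ha', ← hb, ← hb']
    ring
  rw [hsplit]
  calc |(a - a') * b + a' * (b - b')| ≤ |(a - a') * b| + |a' * (b - b')| := abs_add_le _ _
    _ = |a - a'| * b + a' * |b - b'| := by
        rw [abs_mul, abs_mul, abs_of_nonneg h_b0, abs_of_nonneg h_a'0]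
    _ ≤ (4 * CT * ‖l - l'‖) * E + 1 * (E * (2 * n * ‖l - l'‖)) := by
        apply add_le_add
        · exact mul_le_mul h_a h_b h_b0 (by positivity)
        · exact mul_le_mul h_a'1 h_bb (abs_nonneg _) zero_le_one
    _ = E * (4 * CT + 2 * n) * ‖l - l'‖ := by ring

/-! ### Clamping -/

/-- `log` of the clamp of `t` to `[c, 4]`. -/
noncomputable def clampLog (c t : ℝ) : ℝ := Real.log (max c (min t 4))

lemma le_clampLog {c : ℝ} (hc : 0 < c) (t : ℝ) : Real.log c ≤ clampLog c t :=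
  Real.log_le_log hc (le_max_left _ _)

lemma clampLog_le {c : ℝ} (hc : 0 < c) (hc4 : c ≤ 4) (t : ℝ) : clampLog c t ≤ 3 := by
  unfold clampLog
  have h1 : max c (min t 4) ≤ 4 := max_le hc4 (min_le_right _ _)
  have h2 : 0 < max c (min t 4) := lt_of_lt_of_le hc (le_max_left _ _)
  have h3 := Real.log_le_sub_one_of_pos h2
  linarith

lemma clampLog_eq {c t : ℝ} (hc : c ≤ t) (ht : t ≤ 4) : clampLog c t = Real.log t := by
  unfold clampLog
  rw [min_eq_left ht, max_eq_right hc]

lemma clampLog_eq_of_lt {c t : ℝ} (ht : t < c) : clampLog c t = Real.log c := by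
  unfold clampLog
  rw [max_eq_left]
  exact (min_le_left _ _).trans ht.le

lemma clampLog_nonneg_of_one_le {c t : ℝ} (ht : 1 ≤ t) : 0 ≤ clampLog c t := by
  unfold clampLog
  apply Real.log_nonneg
  exact le_max_of_le_right (le_min ht (by norm_num))

lemma abs_log_sub_log_le {c a b : ℝ} (hc : 0 < c) (ha : c ≤ a) (hb : c ≤ b) :
    |Real.log a - Real.log b| ≤ |a - b| / c := by
  have key : ∀ x y : ℝ, c ≤ y → y ≤ x → Real.log x - Real.log y ≤ (x - y) / c := by
    intro x y hy hyx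
    have hy0 : 0 < y := lt_of_lt_of_le hc hy
    have hx0 : 0 < x := lt_of_lt_of_le hy0 hyx
    rw [← Real.log_div hx0.ne' hy0.ne']
    have h1 := Real.log_le_sub_one_of_pos (div_pos hx0 hy0)
    have h2 : x / y - 1 = (x - y) / y := by field_simp
    rw [h2] at h1
    exact h1.trans (div_le_div_of_nonneg_left (sub_nonneg.mpr hyx) hc hy)
  rcases le_total b a with h | h
  · rw [abs_of_nonneg (sub_nonneg.mpr (Real.log_le_log (lt_of_lt_of_le hc hb) h)),
      abs_of_nonneg (sub_nonneg.mpr h)]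
    exact key a b hb h
  · rw [abs_sub_comm, abs_of_nonneg (sub_nonneg.mpr (Real.log_le_log (lt_of_lt_of_le hc ha) h)),
      abs_sub_comm, abs_of_nonneg (sub_nonneg.mpr h)]
    exact key b a ha h

lemma abs_clampLog_sub_le {c : ℝ} (hc : 0 < c) (t t' : ℝ) :
    |clampLog c t - clampLog c t'| ≤ |t - t'| / c := by
  unfold clampLog
  refine (abs_log_sub_log_le hc (le_max_left _ _) (le_max_left _ _)).trans ?_
  apply div_le_div_of_nonneg_right _ hc.le
  have h1 : |max c (min t 4) - max c (min t' 4)| ≤ |min t 4 - min t' 4| := by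
    have := abs_max_sub_max_le_abs (min t 4) (min t' 4) c
    rwa [max_comm (min t 4) c, max_comm (min t' 4) c] at this
  have h2 : |min t 4 - min t' 4| ≤ |t - t'| := by
    have := abs_min_sub_min_le_max t 4 t' 4
    simpa using this
  exact h1.trans h2

/-! ### The weight on the shell `1 ≤ ‖y‖ ≤ 4` -/

omit [NumberField K] in
lemma normAtPlace_le_norm [NumberField K] (w : InfinitePlace K) (x : mixedSpace K) :
    normAtPlace w x ≤ ‖x‖ := by
  rw [norm_eq_sup'_normAtPlace]
  exact Finset.le_sup' (fun w => normAtPlace w x) (Finset.mem_univ w)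

lemma exists_normAtPlace_eq_norm (x : mixedSpace K) : ∃ w : InfinitePlace K, normAtPlace w x = ‖x‖ := by
  rw [norm_eq_sup'_normAtPlace]
  obtain ⟨w, -, hw⟩ := Finset.exists_mem_eq_sup' Finset.univ_nonempty (fun w => normAtPlace w x)
  exact ⟨w, hw.symm⟩

lemma abs_normAtPlace_sub_le (w : InfinitePlace K) (x y : mixedSpace K) :
    |normAtPlace w x - normAtPlace w y| ≤ ‖x - y‖ := by
  have h1 : normAtPlace w (x - y) ≤ ‖x - y‖ := normAtPlace_le_norm K w _
  have h2 : normAtPlace w x ≤ normAtPlace w (x - y) + normAtPlace w y := by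
    have := normAtPlace_add_le w (x - y) y
    simpa using this
  have h3 : normAtPlace w y ≤ normAtPlace w (y - x) + normAtPlace w x := by
    have := normAtPlace_add_le w (y - x) x
    simpa using this
  have h4 : normAtPlace w (y - x) = normAtPlace w (x - y) := by
    rw [← neg_sub, normAtPlace_neg]
  rw [abs_le]
  constructor <;> linarith

/-- The clamp level. -/
noncomputable def wc : ℝ := Real.exp (-(2 * wC K + 1))

lemma wc_pos : 0 < wc K := Real.exp_pos _

lemma wc_le_one : wc K ≤ 1 := by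
  unfold wc
  rw [Real.exp_le_one_iff]
  linarith [wC_nonneg K]

lemma log_wc : Real.log (wc K) = -(2 * wC K + 1) := Real.log_exp _

/-- Key vanishing: if some coordinate is `≥ 0` and another is `≤ log (wc K)`, the weight
vanishes. -/
lemma tentB_lMap_eq_zero {l : InfinitePlace K → ℝ} {w₁ w' : InfinitePlace K} (h1 : 0 ≤ l w₁)
    (h' : l w' ≤ Real.log (wc K)) : tentB (logBasis K) (lMap K l) = 0 := by
  by_contra h
  have ha := abs_sub_lMean_le K h w₁
  have hb := abs_sub_lMean_le K h w'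
  rw [abs_le] at ha hb
  rw [log_wc] at h'
  linarith

/-- On the shell, the weight is given by `wTheta` at the clamped log coordinates. -/
lemma wF_eq_wTheta_clamp {s : ℝ} (hs : s ≠ 0) {y : mixedSpace K} (h1 : 1 ≤ ‖y‖) (h4 : ‖y‖ ≤ 4) :
    wF K s y = wTheta K s (fun w ↦ clampLog (wc K) (normAtPlace w y)) := by
  obtain ⟨w₁, hw₁⟩ := exists_normAtPlace_eq_norm K y
  by_cases hA : ∀ w, wc K ≤ normAtPlace w y
  · have hy : mixedEmbedding.norm y ≠ 0 :=
      mixedEmbedding.norm_ne_zero_iff.mpr fun w ↦ (lt_of_lt_of_le (wc_pos K) (hA w)).ne'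
    rw [wF_eq_wTheta K hy]
    congr 1
    funext w
    rw [clampLog_eq (hA w) ((normAtPlace_le_norm K w y).trans h4)]
    rfl
  · obtain ⟨w', hw'⟩ := not_forall.mp hA
    rw [not_le] at hw'
    have hR : wTheta K s (fun w ↦ clampLog (wc K) (normAtPlace w y)) = 0 := by
      unfold wTheta
      rw [tentB_lMap_eq_zero K (w₁ := w₁) (w' := w'), zero_div, zero_mul]
      · exact clampLog_nonneg_of_one_le (by rw [hw₁]; exact h1)
      · exact (clampLog_eq_of_lt hw').le
    rw [hR]
    by_cases hy : mixedEmbedding.norm y = 0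
    · exact wF_eq_zero_of_norm_eq_zero K hs hy
    · rw [wF_eq_wTheta K hy]
      unfold wTheta
      rw [tentB_lMap_eq_zero K (w₁ := w₁) (w' := w'), zero_div, zero_mul]
      · show 0 ≤ Real.log (normAtPlace w₁ y)
        rw [hw₁]
        exact Real.log_nonneg h1
      · show Real.log (normAtPlace w' y) ≤ Real.log (wc K)
        have hpos : 0 < normAtPlace w' y :=
          lt_of_le_of_ne (normAtPlace_nonneg _ _) (Ne.symm (mixedEmbedding.norm_ne_zero_iff.mp hy w'))
        exact Real.log_le_log hpos hw'.le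

/-- The weight is Lipschitz on the shell `1 ≤ ‖y‖ ≤ 4`, uniformly in `s ∈ (0,2]`. -/
theorem exists_wF_lipschitz_shell : ∃ A : ℝ, 0 ≤ A ∧ ∀ s : ℝ, 0 < s → s ≤ 2 →
    ∀ y y' : mixedSpace K, 1 ≤ ‖y‖ → ‖y‖ ≤ 4 → 1 ≤ ‖y'‖ → ‖y'‖ ≤ 4 →
      |wF K s y - wF K s y'| ≤ A * ‖y - y'‖ := by
  obtain ⟨A₀, hA₀, hLip⟩ := exists_wTheta_lipschitz K (2 * wC K + 3)
  have hc := wc_pos K
  have hc4 : wc K ≤ 4 := (wc_le_one K).trans (by norm_num)
  refine ⟨A₀ / wc K, div_nonneg hA₀ hc.le, ?_⟩
  intro s hs0 hs2 y y' h1 h4 h1' h4'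
  rw [wF_eq_wTheta_clamp K hs0.ne' h1 h4, wF_eq_wTheta_clamp K hs0.ne' h1' h4']
  have hbox : ∀ z : mixedSpace K, ‖fun w ↦ clampLog (wc K) (normAtPlace w z)‖ ≤ 2 * wC K + 3 := by
    intro z
    rw [pi_norm_le_iff_of_nonneg (by linarith [wC_nonneg K])]
    intro w
    rw [Real.norm_eq_abs, abs_le]
    constructor
    · have := le_clampLog hc (normAtPlace w z)
      rw [log_wc] at this
      linarith
    · have := clampLog_le hc hc4 (normAtPlace w z)
      linarith [wC_nonneg K]
  have hdist : ‖(fun w ↦ clampLog (wc K) (normAtPlace w y)) -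
      (fun w ↦ clampLog (wc K) (normAtPlace w y'))‖ ≤ ‖y - y'‖ / wc K := by
    rw [pi_norm_le_iff_of_nonneg (div_nonneg (norm_nonneg _) hc.le)]
    intro w
    rw [Pi.sub_apply, Real.norm_eq_abs]
    refine (abs_clampLog_sub_le hc _ _).trans ?_
    exact div_le_div_of_nonneg_right (abs_normAtPlace_sub_le K w y y') hc.le
  calc _ ≤ A₀ * ‖(fun w ↦ clampLog (wc K) (normAtPlace w y)) -
        (fun w ↦ clampLog (wc K) (normAtPlace w y'))‖ := hLip s hs0.le hs2 _ _ (hbox y) (hbox y')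
    _ ≤ A₀ * (‖y - y'‖ / wc K) := mul_le_mul_of_nonneg_left hdist hA₀
    _ = A₀ / wc K * ‖y - y'‖ := by ring

/-! ### Homogeneity, shifts, decay -/

lemma wF_smul {s : ℝ} (hs : s ≠ 0) {t : ℝ} (ht : 0 < t) (x : mixedSpace K) :
    wF K s (t • x) = t ^ (-(Module.finrank ℚ K : ℝ) * s) * wF K s x := by
  by_cases hx : mixedEmbedding.norm x = 0
  · have hx' : mixedEmbedding.norm (t • x) = 0 := by
      rw [mixedEmbedding.norm_smul, hx, mul_zero]
    rw [wF_eq_zero_of_norm_eq_zero K hs hx, wF_eq_zero_of_norm_eq_zero K hs hx', mul_zero]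
  · unfold wF wPhi
    rw [logMap_real_smul hx ht.ne', mixedEmbedding.norm_smul, abs_of_pos ht,
      Real.mul_rpow (pow_nonneg ht.le _) (mixedEmbedding.norm_nonneg x)]
    have h1 : (t ^ Module.finrank ℚ K) ^ (-s) = t ^ (-(Module.finrank ℚ K : ℝ) * s) := by
      rw [← Real.rpow_natCast, ← Real.rpow_mul ht.le]
      congr 1
      ring
    rw [h1]
    ring

/-- The shift estimate: `|F_s (x + r) - F_s x| ≤ A * ‖r‖ * ‖x‖⁻¹ ^ (n + 1)` for `‖x‖ ≥ 2`,
`‖x‖ ≥ 2 * ‖r‖`, uniformly in `s ∈ [1,2]`. -/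
theorem exists_wF_shift : ∃ A : ℝ, 0 ≤ A ∧ ∀ s : ℝ, 1 ≤ s → s ≤ 2 → ∀ x r : mixedSpace K,
    2 ≤ ‖x‖ → 2 * ‖r‖ ≤ ‖x‖ →
      |wF K s (x + r) - wF K s x| ≤ A * ‖r‖ * ‖x‖⁻¹ ^ (Module.finrank ℚ K + 1) := by
  obtain ⟨A₀, hA₀, hLip⟩ := exists_wF_lipschitz_shell K
  refine ⟨A₀ * 2 ^ (Module.finrank ℚ K + 1), by positivity, ?_⟩
  intro s hs1 hs2 x r hx2 hxr
  have hs0 : 0 < s := by linarith
  set ρ : ℝ := ‖x‖ / 2 with hρ
  have hρ1 : 1 ≤ ρ := by rw [hρ]; linarith
  have hρ0 : 0 < ρ := by linarith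
  have hr0 : 0 ≤ ‖r‖ := norm_nonneg _
  set y : mixedSpace K := ρ⁻¹ • x with hy
  set y' : mixedSpace K := ρ⁻¹ • (x + r) with hy'
  have hxy : x = ρ • y := by rw [hy, smul_smul, mul_inv_cancel₀ hρ0.ne', one_smul]
  have hxy' : x + r = ρ • y' := by rw [hy', smul_smul, mul_inv_cancel₀ hρ0.ne', one_smul]
  have hny : ‖y‖ = 2 := by
    rw [hy, _root_.norm_smul, norm_inv, Real.norm_eq_abs, abs_of_pos hρ0, hρ]
    field_simp
  have hnxr1 : ‖x‖ - ‖r‖ ≤ ‖x + r‖ := by
    have := norm_sub_norm_le x (-r)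
    simpa [sub_neg_eq_add] using this
  have hnxr2 : ‖x + r‖ ≤ ‖x‖ + ‖r‖ := norm_add_le _ _
  have hny' : ‖y'‖ = ‖x + r‖ / ρ := by
    rw [hy', _root_.norm_smul, norm_inv, Real.norm_eq_abs, abs_of_pos hρ0]
    field_simp
  have hny'1 : 1 ≤ ‖y'‖ := by
    rw [hny', le_div_iff₀ hρ0, hρ]
    linarith
  have hny'4 : ‖y'‖ ≤ 4 := by
    rw [hny', div_le_iff₀ hρ0, hρ]
    linarith
  have hyy' : ‖y' - y‖ = ‖r‖ / ρ := by
    rw [hy, hy', ← smul_sub, add_sub_cancel_left, _root_.norm_smul, norm_inv, Real.norm_eq_abs,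
      abs_of_pos hρ0]
    field_simp
  have hL := hLip s hs0 hs2 y' y hny'1 hny'4 (by rw [hny]; norm_num) (by rw [hny]; norm_num)
  have e1 : wF K s (x + r) = ρ ^ (-(Module.finrank ℚ K : ℝ) * s) * wF K s y' := by
    rw [← wF_smul K hs0.ne' hρ0, ← hxy']
  have e2 : wF K s x = ρ ^ (-(Module.finrank ℚ K : ℝ) * s) * wF K s y := by
    rw [← wF_smul K hs0.ne' hρ0, ← hxy]
  rw [e1, e2, ← mul_sub, abs_mul, abs_of_nonneg (Real.rpow_nonneg hρ0.le _)]
  have hpow : ρ ^ (-(Module.finrank ℚ K : ℝ) * s) ≤ ρ⁻¹ ^ (Module.finrank ℚ K) := by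
    rw [← Real.rpow_natCast, Real.inv_rpow hρ0.le, ← Real.rpow_neg hρ0.le]
    apply Real.rpow_le_rpow_of_exponent_le hρ1
    have : (0 : ℝ) ≤ Module.finrank ℚ K := Nat.cast_nonneg _
    nlinarith
  have hρx : ρ⁻¹ = 2 * ‖x‖⁻¹ := by
    rw [hρ]
    field_simp
  calc ρ ^ (-(Module.finrank ℚ K : ℝ) * s) * |wF K s y' - wF K s y|
      ≤ ρ⁻¹ ^ (Module.finrank ℚ K) * (A₀ * ‖y' - y‖) :=
        mul_le_mul hpow hL (abs_nonneg _) (by positivity)
    _ = A₀ * ‖r‖ * ρ⁻¹ ^ (Module.finrank ℚ K + 1) := by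
        rw [hyy', pow_succ]
        field_simp
    _ = A₀ * 2 ^ (Module.finrank ℚ K + 1) * ‖r‖ * ‖x‖⁻¹ ^ (Module.finrank ℚ K + 1) := by
        rw [hρx, mul_pow]
        ring

/-- Decay of the weight. -/
theorem wF_le_decay {s : ℝ} (hs : 0 < s) (x : mixedSpace K) :
    wF K s x ≤ Real.exp (Module.finrank ℚ K * wC K * s) *
      ‖x‖ ^ (-(Module.finrank ℚ K : ℝ) * s) := by
  have hn0 : (0 : ℝ) < Module.finrank ℚ K := finrank_pos' K
  by_cases h0 : wF K s x = 0
  · rw [h0]
    exact mul_nonneg (Real.exp_pos _).le (Real.rpow_nonneg (norm_nonneg _) _)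
  · have hx : mixedEmbedding.norm x ≠ 0 := fun h ↦ h0 (wF_eq_zero_of_norm_eq_zero K hs.ne' h)
    have hpos : 0 < mixedEmbedding.norm x :=
      lt_of_le_of_ne (mixedEmbedding.norm_nonneg x) (Ne.symm hx)
    have hphi : tentB (logBasis K) (lMap K (lOf K x)) ≠ 0 := by
      intro h
      apply h0
      rw [wF_eq_wTheta K hx]
      unfold wTheta
      rw [h, zero_div, zero_mul]
    obtain ⟨w₁, hw₁⟩ := exists_normAtPlace_eq_norm K x
    have hxpos : 0 < ‖x‖ := by
      rw [← hw₁]
      exact lt_of_le_of_ne (normAtPlace_nonneg _ _)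
        (Ne.symm (mixedEmbedding.norm_ne_zero_iff.mp hx w₁))
    have hsc := (abs_le.mp (abs_sub_lMean_le K hphi w₁)).2
    have hl1 : lOf K x w₁ = Real.log ‖x‖ := by rw [← hw₁]; rfl
    rw [hl1, lMean, lSum_lOf K hx] at hsc
    have hlog : (Module.finrank ℚ K : ℝ) * (Real.log ‖x‖ - wC K) ≤
        Real.log (mixedEmbedding.norm x) := by
      have : Real.log ‖x‖ - wC K ≤ Real.log (mixedEmbedding.norm x) / Module.finrank ℚ K := by
        linarith
      rw [le_div_iff₀ hn0] at this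
      linarith
    have h1 : wF K s x ≤ (mixedEmbedding.norm x) ^ (-s) := by
      unfold wF
      exact mul_le_of_le_one_left (Real.rpow_nonneg hpos.le _) (wPhi_le_one K x)
    refine h1.trans ?_
    rw [Real.rpow_def_of_pos hpos, Real.rpow_def_of_pos hxpos, ← Real.exp_add,
      Real.exp_le_exp]
    nlinarith

/-- On nonzero integers the weight is at most `1`. -/
lemma wF_le_one_of_int {s : ℝ} (hs : 0 < s) (a : 𝓞 K) :
    wF K s (mixedEmbedding K (a : K)) ≤ 1 := by
  by_cases ha : a = 0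
  · have h0 : mixedEmbedding.norm (mixedEmbedding K (a : K)) = 0 := by
      rw [ha]; simp
    rw [wF_eq_zero_of_norm_eq_zero K hs.ne' h0]
    exact zero_le_one
  · unfold wF
    have h1 : (1 : ℝ) ≤ mixedEmbedding.norm (mixedEmbedding K (a : K)) := by
      rw [norm_eq_norm, ← Algebra.coe_norm_int, ← Int.cast_abs, Rat.cast_intCast]
      have : (1 : ℤ) ≤ |Algebra.norm ℤ a| :=
        Int.one_le_abs (Algebra.norm_ne_zero_iff.mpr ha)
      exact_mod_cast this
    have h2 : mixedEmbedding.norm (mixedEmbedding K (a : K)) ^ (-s) ≤ 1 :=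
      Real.rpow_le_one_of_one_le_of_nonpos h1 (by linarith)
    calc _ ≤ 1 * 1 := mul_le_mul (wPhi_le_one K _) h2 (Real.rpow_nonneg (by linarith) _)
          zero_le_one
      _ = 1 := one_mul 1

end Fermat.Agent.S14.helper914
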