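import Mathlib
import Fermat.Agent.S14.helper914_PZWeight
import Fermat.Agent.Lib.helper1121_ZetaIdealSum

/-!
# S14 / Weber bound core, part 4: unfolding

For a nonzero ideal `J` of `𝓞 K` and `s > 1`:
`∑_{a ∈ J, a ≠ 0} wF K s a = N(J)^(-s) * Z_{[J]⁻¹}(s)`,
where `Z_C(s)` is the partial zeta function of the ideal class `C`.
-/

set_option autoImplicit false

namespace Fermat.Agent.S14.helper914

open NumberField NumberField.mixedEmbedding NumberField.InfinitePlace NumberField.Units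
open Ideal nonZeroDivisors
open Fermat.Agent.Lib.helper1121
open scoped Classical

variable (K : Type*) [Field K] [NumberField K]

lemma absNorm_span_singleton_eq_norm (x : 𝓞 K) :
    (absNorm (Ideal.span {x}) : ℝ) = mixedEmbedding.norm (mixedEmbedding K (x : K)) := by
  rw [Ideal.absNorm_span_singleton, Nat.cast_natAbs, ← Rat.cast_intCast, Int.cast_abs,
    Algebra.coe_norm_int, ← norm_eq_norm]

variable (J : (Ideal (𝓞 K))⁰)

lemma isPrincipal_mul_of_classFiber (I : ClassFiber K (ClassGroup.mk0 J)⁻¹) :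
    Submodule.IsPrincipal ((J : Ideal (𝓞 K)) * (I.1 : Ideal (𝓞 K))) := by
  have h : ClassGroup.mk0 (J * I.1) = 1 := by rw [map_mul, I.2, mul_inv_cancel]
  exact (ClassGroup.mk0_eq_one_iff (J * I.1).2).mp h

/-- A chosen generator of `J * I`. -/
noncomputable def pzGen (I : ClassFiber K (ClassGroup.mk0 J)⁻¹) : 𝓞 K :=
  (isPrincipal_mul_of_classFiber K J I).generator

lemma span_pzGen (I : ClassFiber K (ClassGroup.mk0 J)⁻¹) :
    Ideal.span {pzGen K J I} = (J : Ideal (𝓞 K)) * (I.1 : Ideal (𝓞 K)) :=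
  @Ideal.span_singleton_generator _ _ _ (isPrincipal_mul_of_classFiber K J I)

lemma pzGen_ne_zero (I : ClassFiber K (ClassGroup.mk0 J)⁻¹) : pzGen K J I ≠ 0 := by
  intro h
  have h1 := span_pzGen K J I
  rw [h, Ideal.span_singleton_eq_bot.mpr rfl] at h1
  exact (nonZeroDivisors.coe_ne_zero (J * I.1)) h1.symm

lemma pzGen_mem (I : ClassFiber K (ClassGroup.mk0 J)⁻¹) : pzGen K J I ∈ (J : Ideal (𝓞 K)) := by
  have h1 : pzGen K J I ∈ Ideal.span {pzGen K J I} := Ideal.mem_span_singleton_self _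
  rw [span_pzGen] at h1
  exact Ideal.mul_le_left h1

lemma norm_pzGen (I : ClassFiber K (ClassGroup.mk0 J)⁻¹) :
    mixedEmbedding.norm (mixedEmbedding K (pzGen K J I : K)) =
      (absNorm (J : Ideal (𝓞 K)) : ℝ) * (absNorm (I.1 : Ideal (𝓞 K)) : ℝ) := by
  rw [← absNorm_span_singleton_eq_norm, span_pzGen, map_mul, Nat.cast_mul]

/-- The bijection `(I, u) ↦ u * gen(J * I)` onto the nonzero elements of `J`. -/
noncomputable def pzEquiv : ClassFiber K (ClassGroup.mk0 J)⁻¹ × (𝓞 K)ˣ ≃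
    {a : 𝓞 K // a ∈ (J : Ideal (𝓞 K)) ∧ a ≠ 0} :=
  Equiv.ofBijective
    (fun Iu ↦ ⟨(Iu.2 : 𝓞 K) * pzGen K J Iu.1,
      Ideal.mul_mem_left _ _ (pzGen_mem K J Iu.1),
      mul_ne_zero (Units.ne_zero _) (pzGen_ne_zero K J Iu.1)⟩) (by
    constructor
    · rintro ⟨I, u⟩ ⟨I', u'⟩ h
      simp only [Subtype.mk.injEq] at h
      have hspan : Ideal.span {pzGen K J I} = Ideal.span {pzGen K J I'} := by
        rw [Ideal.span_singleton_eq_span_singleton]
        refine ⟨u'⁻¹ * u, ?_⟩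
        have h' : (u : 𝓞 K) * pzGen K J I = (u' : 𝓞 K) * pzGen K J I' := h
        calc pzGen K J I * ((u'⁻¹ * u : (𝓞 K)ˣ) : 𝓞 K)
            = ((u'⁻¹ : (𝓞 K)ˣ) : 𝓞 K) * ((u : 𝓞 K) * pzGen K J I) := by
              rw [Units.val_mul]; ring
          _ = ((u'⁻¹ : (𝓞 K)ˣ) : 𝓞 K) * ((u' : 𝓞 K) * pzGen K J I') := by rw [h']
          _ = pzGen K J I' := by rw [← mul_assoc, Units.inv_mul, one_mul]
      rw [span_pzGen, span_pzGen] at hspan
      have hJ : (J : Ideal (𝓞 K)) ≠ 0 := nonZeroDivisors.coe_ne_zero J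
      have hII' : (I.1 : Ideal (𝓞 K)) = I'.1 := mul_left_cancel₀ hJ hspan
      have hI : I = I' := Subtype.ext (Subtype.ext hII')
      subst hI
      have hu : (u : 𝓞 K) = u' := mul_right_cancel₀ (pzGen_ne_zero K J I) h
      rw [Units.ext hu]
    · rintro ⟨a, haJ, ha0⟩
      have hdvd : (J : Ideal (𝓞 K)) ∣ Ideal.span {a} := by
        rw [Ideal.dvd_iff_le, Ideal.span_singleton_le_iff_mem]
        exact haJ
      obtain ⟨I₀, hI₀⟩ := hdvd
      have hI₀ne : I₀ ≠ 0 := by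
        rintro rfl
        rw [mul_zero] at hI₀
        exact ha0 (Ideal.span_singleton_eq_bot.mp hI₀)
      let I₁ : (Ideal (𝓞 K))⁰ := ⟨I₀, mem_nonZeroDivisors_of_ne_zero hI₀ne⟩
      have hspan_mem : Ideal.span {a} ∈ (Ideal (𝓞 K))⁰ :=
        mem_nonZeroDivisors_of_ne_zero (by
          rw [Ne, Ideal.zero_eq_bot, Ideal.span_singleton_eq_bot]; exact ha0)
      have hclass : ClassGroup.mk0 I₁ = (ClassGroup.mk0 J)⁻¹ := by
        have h1 : ClassGroup.mk0 (J * I₁) = 1 := by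
          have : (J * I₁ : (Ideal (𝓞 K))⁰) = ⟨Ideal.span {a}, hspan_mem⟩ :=
            Subtype.ext hI₀.symm
          rw [this, ClassGroup.mk0_eq_one_iff]
          exact ⟨⟨a, rfl⟩⟩
        rw [map_mul] at h1
        exact eq_inv_of_mul_eq_one_right h1
      let I : ClassFiber K (ClassGroup.mk0 J)⁻¹ := ⟨I₁, hclass⟩
      have hsp : Ideal.span {pzGen K J I} = Ideal.span {a} := by
        rw [span_pzGen, hI₀]
      obtain ⟨u, hu⟩ := Ideal.span_singleton_eq_span_singleton.mp hsp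
      refine ⟨(I, u), ?_⟩
      simp only [Subtype.mk.injEq]
      rw [mul_comm]
      exact hu)

lemma pzEquiv_apply (Iu : ClassFiber K (ClassGroup.mk0 J)⁻¹ × (𝓞 K)ˣ) :
    ((pzEquiv K J Iu : {a : 𝓞 K // a ∈ (J : Ideal (𝓞 K)) ∧ a ≠ 0}) : 𝓞 K) =
      (Iu.2 : 𝓞 K) * pzGen K J Iu.1 := rfl

/-- **Unfolding**: the sum of the weight over the nonzero elements of `J` is
`N(J)^(-s)` times the partial zeta function of the inverse class. -/
theorem hasSum_wF_ideal {s : ℝ} (hs : 1 < s) :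
    HasSum (fun a : {a : 𝓞 K // a ∈ (J : Ideal (𝓞 K)) ∧ a ≠ 0} ↦
        wF K s (mixedEmbedding K ((a : 𝓞 K) : K)))
      ((absNorm (J : Ideal (𝓞 K)) : ℝ) ^ (-s) *
        ∑' I : ClassFiber K (ClassGroup.mk0 J)⁻¹, (absNorm (I.1 : Ideal (𝓞 K)) : ℝ) ^ (-s)) := by
  rw [← (pzEquiv K J).hasSum_iff]
  set f : ClassFiber K (ClassGroup.mk0 J)⁻¹ × (𝓞 K)ˣ → ℝ :=
    (fun a : {a : 𝓞 K // a ∈ (J : Ideal (𝓞 K)) ∧ a ≠ 0} ↦
        wF K s (mixedEmbedding K ((a : 𝓞 K) : K))) ∘ (pzEquiv K J) with hf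
  have hf_apply : ∀ I u, f (I, u) = wPhi K (u • mixedEmbedding K (pzGen K J I : K)) *
      ((absNorm (J : Ideal (𝓞 K)) : ℝ) * (absNorm (I.1 : Ideal (𝓞 K)) : ℝ)) ^ (-s) := by
    intro I u
    simp only [hf, Function.comp_apply, pzEquiv_apply]
    rw [← norm_pzGen, ← wF_unit_smul, unitSMul_smul]
    congr 1
    simp [map_mul]
  have hfib : ∀ I : ClassFiber K (ClassGroup.mk0 J)⁻¹, HasSum (fun u : (𝓞 K)ˣ ↦ f (I, u))
      (((absNorm (J : Ideal (𝓞 K)) : ℝ) * (absNorm (I.1 : Ideal (𝓞 K)) : ℝ)) ^ (-s)) := by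
    intro I
    have hne : mixedEmbedding.norm (mixedEmbedding K (pzGen K J I : K)) ≠ 0 := by
      rw [norm_pzGen]
      exact mul_ne_zero (Nat.cast_ne_zero.mpr (absNorm_pos K J).ne')
        (Nat.cast_ne_zero.mpr (absNorm_pos K I.1).ne')
    have := (hasSum_wPhi_units K hne).mul_right
      (((absNorm (J : Ideal (𝓞 K)) : ℝ) * (absNorm (I.1 : Ideal (𝓞 K)) : ℝ)) ^ (-s))
    rw [one_mul] at this
    simp only [hf_apply]
    exact this
  have hnn : 0 ≤ f := by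
    rintro ⟨I, u⟩
    simp only [hf, Function.comp_apply, Pi.zero_apply]
    exact wF_nonneg K s _
  have hmul : ∀ I : ClassFiber K (ClassGroup.mk0 J)⁻¹,
      ((absNorm (J : Ideal (𝓞 K)) : ℝ) * (absNorm (I.1 : Ideal (𝓞 K)) : ℝ)) ^ (-s) =
        (absNorm (J : Ideal (𝓞 K)) : ℝ) ^ (-s) * (absNorm (I.1 : Ideal (𝓞 K)) : ℝ) ^ (-s) :=
    fun I ↦ Real.mul_rpow (Nat.cast_nonneg _) (Nat.cast_nonneg _)
  have hsum : Summable f := by
    rw [summable_prod_of_nonneg hnn]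
    refine ⟨fun I ↦ (hfib I).summable, ?_⟩
    simp only [fun I ↦ (hfib I).tsum_eq, hmul]
    exact (summable_class_rpow K _ hs).mul_left _
  have h1 := hsum.hasSum.prod_fiberwise hfib
  have h2 : HasSum (fun I : ClassFiber K (ClassGroup.mk0 J)⁻¹ ↦
      ((absNorm (J : Ideal (𝓞 K)) : ℝ) * (absNorm (I.1 : Ideal (𝓞 K)) : ℝ)) ^ (-s))
      ((absNorm (J : Ideal (𝓞 K)) : ℝ) ^ (-s) *
        ∑' I : ClassFiber K (ClassGroup.mk0 J)⁻¹, (absNorm (I.1 : Ideal (𝓞 K)) : ℝ) ^ (-s)) := by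
    simp only [hmul]
    exact (summable_class_rpow K _ hs).hasSum.mul_left _
  rw [← h1.unique h2]
  exact hsum.hasSum

end Fermat.Agent.S14.helper914
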