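import Mathlib
import Fermat.Agent.S14.helper914_PZLattice
import Fermat.Agent.S14.helper914_PZUnfold

/-!
# S14 / Weber bound core: partial zeta functions of two ideal classes differ by a bounded function

Main result (any number field `K`):
`partialZeta_diff_bounded : ∃ B, ∀ s ∈ (1, 2], ∀ C C', |Z_C(s) - Z_C'(s)| ≤ B`
where `Z_C(s) = ∑' I : {I : (Ideal (𝓞 K))⁰ // ClassGroup.mk0 I = C}, (absNorm I : ℝ) ^ (-s)`.
-/

set_option autoImplicit false

namespace Fermat.Agent.S14.helper914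

open NumberField NumberField.mixedEmbedding NumberField.InfinitePlace NumberField.Units
open Ideal nonZeroDivisors
open Fermat.Agent.Lib.helper1121
open scoped Classical

/-- Coset decomposition of an additive commutative group along a subgroup. -/
noncomputable def cosetEquiv {G : Type*} [AddCommGroup G] (H : AddSubgroup G) :
    (G ⧸ H) × H ≃ G where
  toFun p := Quotient.out p.1 + (p.2 : G)
  invFun a := ((a : G ⧸ H), ⟨-(Quotient.out (a : G ⧸ H)) + a, by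
    rw [← QuotientAddGroup.eq]
    exact Quotient.out_eq' _⟩)
  left_inv := by
    rintro ⟨q, x⟩
    have h1 : ((Quotient.out q + (x : G) : G) : G ⧸ H) = q := by
      rw [QuotientAddGroup.mk_add, (QuotientAddGroup.eq_zero_iff (x : G)).mpr x.2, add_zero]
      exact Quotient.out_eq' q
    ext
    · exact h1
    · simp only [h1]
      abel
  right_inv := by
    intro a
    simp

lemma cosetEquiv_apply {G : Type*} [AddCommGroup G] (H : AddSubgroup G) (q : G ⧸ H) (x : H) :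
    cosetEquiv H (q, x) = Quotient.out q + (x : G) := rfl

variable (K : Type*) [Field K] [NumberField K]

/-- The weight on the integers of `K`. -/
noncomputable def wG (s : ℝ) (a : 𝓞 K) : ℝ := wF K s (mixedEmbedding K (a : K))

lemma wG_nonneg (s : ℝ) (a : 𝓞 K) : 0 ≤ wG K s a := wF_nonneg K s _

lemma wG_le_one {s : ℝ} (hs : 0 < s) (a : 𝓞 K) : wG K s a ≤ 1 := wF_le_one_of_int K hs a

lemma wG_zero {s : ℝ} (hs : s ≠ 0) : wG K s 0 = 0 := by
  unfold wG
  exact wF_eq_zero_of_norm_eq_zero K hs (by simp)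

lemma abs_wG_sub_le_one {s : ℝ} (hs : 0 < s) (a b : 𝓞 K) : |wG K s a - wG K s b| ≤ 1 := by
  rw [abs_le]
  constructor <;> linarith [wG_nonneg K s a, wG_nonneg K s b, wG_le_one K hs a, wG_le_one K hs b]

/-- The bijection between `𝓞 K` and its image in the mixed space. -/
noncomputable def intEquiv : 𝓞 K ≃ mixedEmbedding.integerLattice K :=
  Equiv.ofBijective (fun a ↦ ⟨mixedEmbedding K (a : K), ⟨a, rfl⟩⟩) (by
    constructor
    · intro a b h
      have h' : mixedEmbedding K (a : K) = mixedEmbedding K (b : K) := congrArg Subtype.val h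
      exact RingOfIntegers.coe_injective (mixedEmbedding_injective K h')
    · rintro ⟨x, a, ha⟩
      exact ⟨a, Subtype.ext ha⟩)

lemma intEquiv_apply (a : 𝓞 K) :
    ((intEquiv K a : mixedEmbedding.integerLattice K) : mixedSpace K) = mixedEmbedding K (a : K) :=
  rfl

/-- Uniform bound for the total variation of the weight under a shift of the lattice `𝓞 K`. -/
theorem exists_shift_sum_bound (r : 𝓞 K) : ∃ B : ℝ, ∀ s : ℝ, 1 < s → s ≤ 2 →
    Summable (fun a : 𝓞 K ↦ |wG K s (a + r) - wG K s a|) ∧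
      ∑' a : 𝓞 K, |wG K s (a + r) - wG K s a| ≤ B := by
  obtain ⟨A, hA0, hA⟩ := exists_wF_shift K
  set ρ : mixedSpace K := mixedEmbedding K (r : K) with hρ
  have hd : Module.finrank ℤ (mixedEmbedding.integerLattice K) < Module.finrank ℚ K + 1 := by
    rw [ZLattice.rank ℝ (mixedEmbedding.integerLattice K), mixedEmbedding.finrank]
    exact Nat.lt_succ_self _
  obtain ⟨N, S, -, -, hb⟩ := exists_lattice_bound (mixedEmbedding.integerLattice K)
    (Module.finrank ℚ K + 1) hd (max 2 (2 * ‖ρ‖))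
  refine ⟨1 * N + A * ‖ρ‖ * S, fun s hs1 hs2 ↦ ?_⟩
  have hs0 : 0 < s := by linarith
  have hfun : (fun a : 𝓞 K ↦ |wG K s (a + r) - wG K s a|) =
      (fun x : mixedEmbedding.integerLattice K ↦
        |wF K s ((x : mixedSpace K) + ρ) - wF K s (x : mixedSpace K)|) ∘ (intEquiv K) := by
    funext a
    simp only [Function.comp_apply, intEquiv_apply, wG, hρ]
    rw [← map_add, ← map_add]
  have h := hb 1 (A * ‖ρ‖)
    (fun x : mixedEmbedding.integerLattice K ↦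
      wF K s ((x : mixedSpace K) + ρ) - wF K s (x : mixedSpace K))
    zero_le_one (mul_nonneg hA0 (norm_nonneg _))
    (by
      intro x
      obtain ⟨a, ha⟩ := (intEquiv K).surjective x
      have h1 : (x : mixedSpace K) = mixedEmbedding K (a : K) := by rw [← ha]; rfl
      have h2 : (x : mixedSpace K) + ρ = mixedEmbedding K ((a + r : 𝓞 K) : K) := by
        rw [h1, hρ, ← map_add]; rfl
      rw [h1] at h2 ⊢
      rw [h2]
      exact abs_wG_sub_le_one K hs0 (a + r) a)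
    (by
      intro x hx
      have hx' : max 2 (2 * ‖ρ‖) ≤ ‖(x : mixedSpace K)‖ := hx
      exact hA s hs1.le hs2 (x : mixedSpace K) ρ ((le_max_left _ _).trans hx')
        ((le_max_right _ _).trans hx'))
  rw [hfun]
  refine ⟨(intEquiv K).summable_iff.mpr h.1, ?_⟩
  exact (((intEquiv K).tsum_eq (fun x : mixedEmbedding.integerLattice K ↦
        |wF K s ((x : mixedSpace K) + ρ) - wF K s (x : mixedSpace K)|)).trans_le h.2)

variable {K}

/-- Unfolding, with the class as a parameter. -/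
theorem hasSum_wG_ideal (J : (Ideal (𝓞 K))⁰) {C : ClassGroup (𝓞 K)}
    (hJ : (ClassGroup.mk0 J)⁻¹ = C) {s : ℝ} (hs : 1 < s) :
    HasSum (fun x : (J : Ideal (𝓞 K)).toAddSubgroup ↦ wG K s (x : 𝓞 K))
      ((absNorm (J : Ideal (𝓞 K)) : ℝ) ^ (-s) *
        ∑' I : ClassFiber K C, (absNorm (I.1 : Ideal (𝓞 K)) : ℝ) ^ (-s)) := by
  subst hJ
  have h := hasSum_wF_ideal K J hs
  let i : {a : 𝓞 K // a ∈ (J : Ideal (𝓞 K)) ∧ a ≠ 0} → (J : Ideal (𝓞 K)).toAddSubgroup :=
    fun a ↦ ⟨a.1, a.2.1⟩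
  have hi : Function.Injective i := by
    intro a b hab
    exact Subtype.ext (congrArg (fun x : (J : Ideal (𝓞 K)).toAddSubgroup ↦ (x : 𝓞 K)) hab)
  refine (hi.hasSum_iff (f := fun x : (J : Ideal (𝓞 K)).toAddSubgroup ↦ wG K s (x : 𝓞 K)) ?_).mp h
  intro x hx
  have hx0 : (x : 𝓞 K) = 0 := by
    by_contra h0
    exact hx ⟨⟨x.1, x.2, h0⟩, rfl⟩
  show wG K s (x : 𝓞 K) = 0
  rw [hx0]
  exact wG_zero K (by linarith)

/-- The sum of the weight over all of `𝓞 K` is the partial zeta function of the trivial class. -/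
theorem hasSum_wG_top {s : ℝ} (hs : 1 < s) :
    HasSum (fun a : 𝓞 K ↦ wG K s a)
      (∑' I : ClassFiber K 1, (absNorm (I.1 : Ideal (𝓞 K)) : ℝ) ^ (-s)) := by
  have h := hasSum_wG_ideal (K := K) (1 : (Ideal (𝓞 K))⁰) (C := 1) (by simp) hs
  have h1 : (absNorm ((1 : (Ideal (𝓞 K))⁰) : Ideal (𝓞 K)) : ℝ) ^ (-s) = 1 := by
    simp
  rw [h1, one_mul] at h
  let i : ((1 : (Ideal (𝓞 K))⁰) : Ideal (𝓞 K)).toAddSubgroup → 𝓞 K := fun x ↦ (x : 𝓞 K)
  have hi : Function.Injective i := Subtype.val_injective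
  refine (hi.hasSum_iff (f := fun a : 𝓞 K ↦ wG K s a) ?_).mp h
  intro x hx
  exfalso
  apply hx
  refine ⟨⟨x, ?_⟩, rfl⟩
  show x ∈ ((1 : (Ideal (𝓞 K))⁰) : Ideal (𝓞 K))
  simp

/-- Comparison of the lattice `𝓞 K` with the sublattice `J`. -/
theorem exists_compare (J : (Ideal (𝓞 K))⁰) {C : ClassGroup (𝓞 K)}
    (hJ : (ClassGroup.mk0 J)⁻¹ = C) : ∃ B : ℝ, ∀ s : ℝ, 1 < s → s ≤ 2 →
    |(∑' I : ClassFiber K 1, (absNorm (I.1 : Ideal (𝓞 K)) : ℝ) ^ (-s)) -
      (absNorm (J : Ideal (𝓞 K)) : ℝ) * ((absNorm (J : Ideal (𝓞 K)) : ℝ) ^ (-s) *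
        ∑' I : ClassFiber K C, (absNorm (I.1 : Ideal (𝓞 K)) : ℝ) ^ (-s))| ≤ B := by
  set H : AddSubgroup (𝓞 K) := (J : Ideal (𝓞 K)).toAddSubgroup with hH
  have hcard : Nat.card (𝓞 K ⧸ H) = absNorm (J : Ideal (𝓞 K)) := rfl
  have hfin : Finite (𝓞 K ⧸ H) := Nat.finite_of_card_ne_zero (by
    rw [hcard]
    exact (absNorm_pos K J).ne')
  have : Fintype (𝓞 K ⧸ H) := Fintype.ofFinite _
  choose Bf hBf using exists_shift_sum_bound K
  refine ⟨∑ q : 𝓞 K ⧸ H, Bf (Quotient.out q), fun s hs1 hs2 ↦ ?_⟩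
  have hZ1 := hasSum_wG_top (K := K) hs1
  have hSJ := hasSum_wG_ideal J hJ hs1
  set Z1 := ∑' I : ClassFiber K 1, (absNorm (I.1 : Ideal (𝓞 K)) : ℝ) ^ (-s) with hZ1def
  set SJ := (absNorm (J : Ideal (𝓞 K)) : ℝ) ^ (-s) *
        ∑' I : ClassFiber K C, (absNorm (I.1 : Ideal (𝓞 K)) : ℝ) ^ (-s) with hSJdef
  have hprod : HasSum ((fun a : 𝓞 K ↦ wG K s a) ∘ (cosetEquiv H)) Z1 :=
    (cosetEquiv H).hasSum_iff.mpr hZ1
  have hfibsum : ∀ q : 𝓞 K ⧸ H, Summable (fun x : H ↦ wG K s (Quotient.out q + (x : 𝓞 K))) :=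
    fun q ↦ hprod.summable.prod_factor q
  have h1 : HasSum (fun q : 𝓞 K ⧸ H ↦ ∑' x : H, wG K s (Quotient.out q + (x : 𝓞 K))) Z1 :=
    hprod.prod_fiberwise (fun q ↦ (hfibsum q).hasSum)
  have h2 : ∑ q : 𝓞 K ⧸ H, ∑' x : H, wG K s (Quotient.out q + (x : 𝓞 K)) = Z1 :=
    (hasSum_fintype _).unique h1
  have hq : ∀ q : 𝓞 K ⧸ H,
      |(∑' x : H, wG K s (Quotient.out q + (x : 𝓞 K))) - SJ| ≤ Bf (Quotient.out q) := by
    intro q
    obtain ⟨hsum, hle⟩ := hBf (Quotient.out q) s hs1 hs2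
    have hsumH : Summable (fun x : H ↦ |wG K s ((x : 𝓞 K) + Quotient.out q) - wG K s (x : 𝓞 K)|) :=
      hsum.subtype _
    rw [← hSJ.tsum_eq, ← (hfibsum q).tsum_sub hSJ.summable]
    have hcongr : (fun x : H ↦ wG K s (Quotient.out q + (x : 𝓞 K)) - wG K s (x : 𝓞 K)) =
        fun x : H ↦ wG K s ((x : 𝓞 K) + Quotient.out q) - wG K s (x : 𝓞 K) := by
      funext x
      rw [add_comm]
    rw [hcongr]
    calc |∑' x : H, (wG K s ((x : 𝓞 K) + Quotient.out q) - wG K s (x : 𝓞 K))|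
        ≤ ∑' x : H, |wG K s ((x : 𝓞 K) + Quotient.out q) - wG K s (x : 𝓞 K)| := by
          have := norm_tsum_le_tsum_norm (f := fun x : H ↦
            wG K s ((x : 𝓞 K) + Quotient.out q) - wG K s (x : 𝓞 K)) (by simpa using hsumH)
          simpa using this
      _ ≤ ∑' a : 𝓞 K, |wG K s (a + Quotient.out q) - wG K s a| :=
          hsum.tsum_subtype_le (fun a : 𝓞 K ↦ |wG K s (a + Quotient.out q) - wG K s a|)
            (H : Set (𝓞 K)) (fun a ↦ abs_nonneg _)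
      _ ≤ Bf (Quotient.out q) := hle
  have hcardR : (absNorm (J : Ideal (𝓞 K)) : ℝ) = (Fintype.card (𝓞 K ⧸ H) : ℝ) := by
    rw [← hcard, Nat.card_eq_fintype_card]
  have h3 : Z1 - (absNorm (J : Ideal (𝓞 K)) : ℝ) * SJ =
      ∑ q : 𝓞 K ⧸ H, ((∑' x : H, wG K s (Quotient.out q + (x : 𝓞 K))) - SJ) := by
    rw [Finset.sum_sub_distrib, h2, Finset.sum_const, Finset.card_univ, nsmul_eq_mul, hcardR]
  rw [h3]
  exact (Finset.abs_sum_le_sum_abs _ _).trans (Finset.sum_le_sum fun q _ ↦ hq q)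

variable (K)

/-- **Weber bound core (W0)**: the partial zeta functions of two ideal classes differ by a
function which is bounded on `(1, 2]`. -/
theorem partialZeta_diff_bounded : ∃ B : ℝ, ∀ s : ℝ, 1 < s → s ≤ 2 → ∀ C C' : ClassGroup (𝓞 K),
    |(∑' I : ClassFiber K C, (absNorm (I.1 : Ideal (𝓞 K)) : ℝ) ^ (-s)) -
      ∑' I : ClassFiber K C', (absNorm (I.1 : Ideal (𝓞 K)) : ℝ) ^ (-s)| ≤ B := by
  have hJ : ∀ C : ClassGroup (𝓞 K), ∃ J : (Ideal (𝓞 K))⁰, (ClassGroup.mk0 J)⁻¹ = C := by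
    intro C
    obtain ⟨J, hJ⟩ := ClassGroup.mk0_surjective C⁻¹
    exact ⟨J, by rw [hJ, inv_inv]⟩
  choose Jf hJf using hJ
  have hcmp := fun C : ClassGroup (𝓞 K) ↦ exists_compare (Jf C) (hJf C)
  choose Bc hBc using hcmp
  obtain ⟨B₀, hB₀⟩ := exists_class_upper K
  set β : ClassGroup (𝓞 K) → ℝ :=
    fun C ↦ Real.log (absNorm (Jf C : Ideal (𝓞 K)) : ℝ) * B₀ + Bc C with hβ
  have key : ∀ s : ℝ, 1 < s → s ≤ 2 → ∀ C : ClassGroup (𝓞 K),
      |(∑' I : ClassFiber K C, (absNorm (I.1 : Ideal (𝓞 K)) : ℝ) ^ (-s)) -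
        ∑' I : ClassFiber K 1, (absNorm (I.1 : Ideal (𝓞 K)) : ℝ) ^ (-s)| ≤ β C := by
    intro s hs1 hs2 C
    set ZC := ∑' I : ClassFiber K C, (absNorm (I.1 : Ideal (𝓞 K)) : ℝ) ^ (-s) with hZC
    set Z1 := ∑' I : ClassFiber K 1, (absNorm (I.1 : Ideal (𝓞 K)) : ℝ) ^ (-s) with hZ1
    set N : ℝ := (absNorm (Jf C : Ideal (𝓞 K)) : ℝ) with hN
    have hN1 : 1 ≤ N := one_le_absNorm K (Jf C)
    have hN0 : 0 < N := by linarith
    have hc := hBc C s hs1 hs2
    rw [← hZC, ← hZ1, ← hN] at hc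
    have hZC0 : 0 ≤ ZC := tsum_class_rpow_nonneg K C s
    have hup : (s - 1) * ZC ≤ B₀ := hB₀ s hs1 hs2 C
    set θ : ℝ := N * N ^ (-s) with hθ
    have hθexp : θ = Real.exp (-((s - 1) * Real.log N)) := by
      rw [hθ, Real.rpow_def_of_pos hN0]
      nth_rewrite 1 [← Real.exp_log hN0]
      rw [← Real.exp_add]
      congr 1
      ring
    have hlog0 : 0 ≤ Real.log N := Real.log_nonneg hN1
    have hθ1 : θ ≤ 1 := by
      rw [hθexp, Real.exp_le_one_iff]
      have : 0 ≤ (s - 1) * Real.log N := mul_nonneg (by linarith) hlog0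
      linarith
    have hθ2 : 1 - (s - 1) * Real.log N ≤ θ := by
      rw [hθexp]
      have := Real.add_one_le_exp (-((s - 1) * Real.log N))
      linarith
    have hc' : |Z1 - θ * ZC| ≤ Bc C := by
      have : N * (N ^ (-s) * ZC) = θ * ZC := by rw [hθ]; ring
      rw [← this]
      exact hc
    have h4 : (1 - θ) * ZC ≤ Real.log N * B₀ := by
      calc (1 - θ) * ZC ≤ ((s - 1) * Real.log N) * ZC :=
            mul_le_mul_of_nonneg_right (by linarith) hZC0
        _ = Real.log N * ((s - 1) * ZC) := by ring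
        _ ≤ Real.log N * B₀ := mul_le_mul_of_nonneg_left hup hlog0
    have h5 : 0 ≤ (1 - θ) * ZC := mul_nonneg (by linarith) hZC0
    rw [abs_le] at hc' ⊢
    simp only [hβ]
    constructor <;> nlinarith [hc'.1, hc'.2]
  refine ⟨2 * ∑ C : ClassGroup (𝓞 K), |β C|, fun s hs1 hs2 C C' ↦ ?_⟩
  have hC := key s hs1 hs2 C
  have hC' := key s hs1 hs2 C'
  have hle : ∀ D : ClassGroup (𝓞 K), β D ≤ ∑ C : ClassGroup (𝓞 K), |β C| := fun D ↦
    (le_abs_self _).trans (Finset.single_le_sum (f := fun C : ClassGroup (𝓞 K) ↦ |β C|)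
      (fun _ _ ↦ abs_nonneg _) (Finset.mem_univ D))
  have h1 := hle C
  have h2 := hle C'
  rw [abs_le] at hC hC' ⊢
  constructor <;> linarith [hC.1, hC.2, hC'.1, hC'.2]

end Fermat.Agent.S14.helper914
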