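import Mathlib
import Fermat.Agent.S14.helper914_PartialZeta
import Fermat.Agent.S14.helper1934_ThaineSpec
import Fermat.Agent.S14.helper1441_Spec

/-!
# S14 / Weber bound core: the spec statements `Stmt_PartialZetaDiff` and `Stmt_PartialZeta`

Adapters from `helper914.partialZeta_diff_bounded` to the interface statements of the
Thaine-route spec (`helper1934.Stmt_PartialZetaDiff`) and of `helper1441.Stmt_PartialZeta`.
-/

set_option autoImplicit false

namespace Fermat.Agent.S14.helper914

open NumberField Ideal nonZeroDivisors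
open Fermat.Agent.Lib.helper1121

/-- The Thaine-route interface (W0): `helper1934.Stmt_PartialZetaDiff`. -/
theorem stmt_PartialZetaDiff : Fermat.Agent.S14.helper1934.Stmt_PartialZetaDiff := by
  intro K _ _ C C'
  obtain ⟨B, hB⟩ := partialZeta_diff_bounded K
  exact ⟨B, fun s hs1 hs2 ↦ hB s hs1 hs2.le C C'⟩

/-- The interface `helper1441.Stmt_PartialZeta`. -/
theorem stmt_PartialZeta : Fermat.Agent.S14.helper1441.Stmt_PartialZeta := by
  intro F _ _
  obtain ⟨B, hB⟩ := partialZeta_diff_bounded F
  exact ⟨B, fun s hs1 hs2 c c' ↦ ⟨summable_class_rpow F c hs1, hB s hs1 hs2 c c'⟩⟩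

end Fermat.Agent.S14.helper914
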