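/-
S14 moonshot, leaf SUNIT (seat helper2613): the S-unit theorem for number fields in Mathlib's
`Set.unit` language.  Mathlib only.
-/
import Mathlib

set_option autoImplicit false

open IsDedekindDomain NumberField WithZero Module
open scoped nonZeroDivisors

namespace Fermat.Agent.S14.helper2613

noncomputable section

variable {K : Type*} [Field K] [NumberField K]

/-- The order (additive valuation, sign convention: `ord π = -1` for a uniformizer, i.e. the
`log` of Mathlib's multiplicative valuation) of a unit of `K` at a finite place. -/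
def ordAt (v : HeightOneSpectrum (𝓞 K)) (x : Kˣ) : ℤ := log (v.valuation K (x : K))

theorem valuation_unit_ne_zero (v : HeightOneSpectrum (𝓞 K)) (x : Kˣ) :
    v.valuation K (x : K) ≠ 0 := (Valuation.ne_zero_iff _).mpr x.ne_zero

theorem ordAt_one (v : HeightOneSpectrum (𝓞 K)) : ordAt v (1 : Kˣ) = 0 := by
  simp [ordAt]

theorem ordAt_mul (v : HeightOneSpectrum (𝓞 K)) (x y : Kˣ) :
    ordAt v (x * y) = ordAt v x + ordAt v y := by
  simp only [ordAt, Units.val_mul, map_mul]
  exact log_mul (valuation_unit_ne_zero v x) (valuation_unit_ne_zero v y)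

theorem ordAt_eq_zero_iff (v : HeightOneSpectrum (𝓞 K)) (x : Kˣ) :
    ordAt v x = 0 ↔ v.valuation K (x : K) = 1 := by
  unfold ordAt
  constructor
  · intro h
    have := exp_log (valuation_unit_ne_zero v x)
    rw [h] at this
    simpa using this.symm
  · intro h
    rw [h, log_one]

/-- `ordAt v` as a monoid hom to `Multiplicative ℤ`. -/
def ordHom (v : HeightOneSpectrum (𝓞 K)) : Kˣ →* Multiplicative ℤ where
  toFun x := Multiplicative.ofAdd (ordAt v x)
  map_one' := by simp [ordAt_one]
  map_mul' x y := by simp [ordAt_mul]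

/-! ## The valuation-vector map on `S`-units -/

variable (K) in
/-- The group of `S`-units of the number field `K`, for a finite set `S` of finite places. -/
abbrev SUnits (S : Finset (HeightOneSpectrum (𝓞 K))) : Subgroup Kˣ :=
  (S : Set (HeightOneSpectrum (𝓞 K))).unit K

theorem mem_SUnits {S : Finset (HeightOneSpectrum (𝓞 K))} {x : Kˣ} :
    x ∈ SUnits K S ↔ ∀ v, v ∉ S → v.valuation K (x : K) = 1 := by
  constructor
  · intro h v hv
    exact h v (by simpa using hv)
  · intro h v hv
    exact h v (by simpa using hv)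

theorem mem_SUnits_iff_ordAt {S : Finset (HeightOneSpectrum (𝓞 K))} {x : Kˣ} :
    x ∈ SUnits K S ↔ ∀ v, v ∉ S → ordAt v x = 0 := by
  simp only [mem_SUnits, ordAt_eq_zero_iff]

/-- The valuation vector `x ↦ (ord_v x)_{v ∈ S}` as a `ℤ`-linear map on the additive group of
`S`-units. -/
def valVec (S : Finset (HeightOneSpectrum (𝓞 K))) : Additive (SUnits K S) →ₗ[ℤ] (S → ℤ) :=
  AddMonoidHom.toIntLinearMap
    { toFun := fun x v => ordAt v.1 ((Additive.toMul x : SUnits K S) : Kˣ)
      map_zero' := by
        funext v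
        simp [ordAt_one]
      map_add' := fun x y => by
        funext v
        simp [ordAt_mul] }

@[simp]
theorem valVec_apply (S : Finset (HeightOneSpectrum (𝓞 K))) (x : Additive (SUnits K S)) (v : S) :
    valVec S x v = ordAt v.1 ((Additive.toMul x : SUnits K S) : Kˣ) := rfl

/-- The inclusion of the units of `𝓞 K` into the `S`-units. -/
def unitsToSUnits (S : Finset (HeightOneSpectrum (𝓞 K))) : (𝓞 K)ˣ →* SUnits K S where
  toFun u := ⟨Units.map (algebraMap (𝓞 K) K : 𝓞 K →* K) u, by
    rw [mem_SUnits]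
    intro v _
    have h1 : v.valuation K ((u : 𝓞 K) : K) ≤ 1 := v.valuation_le_one _
    have h2 : v.valuation K ((u⁻¹ : (𝓞 K)ˣ) : 𝓞 K) ≤ 1 := v.valuation_le_one _
    have h3 : v.valuation K ((u : 𝓞 K) : K) * v.valuation K (((u⁻¹ : (𝓞 K)ˣ) : 𝓞 K) : K) = 1 := by
      rw [← map_mul, ← map_mul (algebraMap (𝓞 K) K), Units.mul_inv, map_one, map_one]
    exact eq_one_of_one_le_mul_left h1 h2 h3.ge⟩
  map_one' := by
    apply Subtype.ext
    simp
  map_mul' x y := by
    apply Subtype.ext
    simp

theorem unitsToSUnits_injective (S : Finset (HeightOneSpectrum (𝓞 K))) :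
    Function.Injective (unitsToSUnits (K := K) S) := by
  intro x y h
  have h1 : ((unitsToSUnits S x : SUnits K S) : Kˣ) = unitsToSUnits S y := by rw [h]
  have h2 : (algebraMap (𝓞 K) K) (x : 𝓞 K) = (algebraMap (𝓞 K) K) (y : 𝓞 K) :=
    congrArg Units.val h1
  exact Units.ext (RingOfIntegers.coe_injective h2)


/-! ## Kernel of the valuation vector: the units of `𝓞 K` -/

theorem exists_unit_of_valuation_eq_one (x : Kˣ)
    (h : ∀ v : HeightOneSpectrum (𝓞 K), v.valuation K (x : K) = 1) :
    ∃ u : (𝓞 K)ˣ, Units.map (algebraMap (𝓞 K) K : 𝓞 K →* K) u = x := by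
  obtain ⟨a, ha⟩ := HeightOneSpectrum.mem_integers_of_valuation_le_one K (x : K)
    (fun v => (h v).le)
  have hinv : ∀ v : HeightOneSpectrum (𝓞 K), v.valuation K ((x⁻¹ : Kˣ) : K) ≤ 1 := by
    intro v
    rw [Units.val_inv_eq_inv_val, map_inv₀, h v, inv_one]
  obtain ⟨b, hb⟩ := HeightOneSpectrum.mem_integers_of_valuation_le_one K ((x⁻¹ : Kˣ) : K) hinv
  have hab : a * b = 1 := by
    apply RingOfIntegers.coe_injective
    have : (algebraMap (𝓞 K) K) (a * b) = 1 := by
      rw [map_mul, ha, hb, Units.mul_inv]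
    simpa using this
  refine ⟨⟨a, b, hab, by rw [mul_comm]; exact hab⟩, ?_⟩
  apply Units.ext
  simpa using ha

/-- The inclusion of units into `S`-units as a `ℤ`-linear map of additive groups. -/
def unitsLin (S : Finset (HeightOneSpectrum (𝓞 K))) :
    Additive (𝓞 K)ˣ →ₗ[ℤ] Additive (SUnits K S) :=
  (MonoidHom.toAdditive (unitsToSUnits S)).toIntLinearMap

theorem unitsLin_injective (S : Finset (HeightOneSpectrum (𝓞 K))) :
    Function.Injective (unitsLin (K := K) S) := by
  intro x y h
  exact unitsToSUnits_injective S h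

theorem ker_valVec (S : Finset (HeightOneSpectrum (𝓞 K))) :
    LinearMap.ker (valVec (K := K) S) = LinearMap.range (unitsLin S) := by
  ext x
  constructor
  · intro hx
    rw [LinearMap.mem_ker] at hx
    have hall : ∀ v : HeightOneSpectrum (𝓞 K),
        v.valuation K (((Additive.toMul x : SUnits K S) : Kˣ) : K) = 1 := by
      intro v
      by_cases hv : v ∈ S
      · rw [← ordAt_eq_zero_iff]
        have := congrFun hx ⟨v, hv⟩
        simpa using this
      · exact mem_SUnits.mp (Additive.toMul x : SUnits K S).2 v hv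
    obtain ⟨u, hu⟩ := exists_unit_of_valuation_eq_one _ hall
    refine ⟨Additive.ofMul u, ?_⟩
    apply Additive.toMul.injective
    apply Subtype.ext
    exact hu
  · rintro ⟨u, rfl⟩
    rw [LinearMap.mem_ker]
    funext v
    have hmem := (unitsToSUnits S (Additive.toMul u)).2
    -- all valuations of a unit of `𝓞 K` are one
    have h1 : (unitsToSUnits (∅ : Finset (HeightOneSpectrum (𝓞 K))) (Additive.toMul u) : Kˣ)
        = (unitsToSUnits S (Additive.toMul u) : Kˣ) := rfl
    have h2 := mem_SUnits.mp (unitsToSUnits (∅ : Finset (HeightOneSpectrum (𝓞 K)))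
      (Additive.toMul u)).2 v.1 (by simp)
    rw [h1] at h2
    simp only [valVec_apply, Pi.zero_apply]
    rw [ordAt_eq_zero_iff]
    exact h2


/-! ## Elements supported at a single prime (class group is finite) -/

theorem exists_mem_supported (v : HeightOneSpectrum (𝓞 K)) :
    ∃ a : 𝓞 K, a ≠ 0 ∧ a ∈ v.asIdeal ∧
      ∀ w : HeightOneSpectrum (𝓞 K), w ≠ v → a ∉ w.asIdeal := by
  classical
  set h : ℕ := Fintype.card (ClassGroup (𝓞 K)) with hh
  have hpos : 0 < h := Fintype.card_pos
  have hI : v.asIdeal ∈ (Ideal (𝓞 K))⁰ := mem_nonZeroDivisors_of_ne_zero v.ne_bot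
  have h1 : (ClassGroup.mk0 ⟨v.asIdeal, hI⟩) ^ h = 1 := pow_card_eq_one
  rw [← map_pow] at h1
  have h2 : ((⟨v.asIdeal, hI⟩ : (Ideal (𝓞 K))⁰) ^ h : (Ideal (𝓞 K))⁰)
      = ⟨v.asIdeal ^ h, pow_mem hI h⟩ := by
    apply Subtype.ext
    simp
  rw [h2, ClassGroup.mk0_eq_one_iff] at h1
  obtain ⟨a, ha⟩ := h1
  have hne : v.asIdeal ^ h ≠ ⊥ := pow_ne_zero h v.ne_bot
  refine ⟨a, ?_, ?_, ?_⟩
  · rintro rfl
    apply hne
    rw [ha]
    simp
  · have : a ∈ v.asIdeal ^ h := by
      rw [ha]
      exact Submodule.mem_span_singleton_self a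
    exact Ideal.pow_le_self hpos.ne' this
  · intro w hw haw
    apply hw
    have hle : v.asIdeal ^ h ≤ w.asIdeal := by
      rw [ha]
      exact (Ideal.span_singleton_le_iff_mem (I := w.asIdeal)).mpr haw
    have hle' : v.asIdeal ≤ w.asIdeal := w.isPrime.le_of_pow_le hle
    have hmax : v.asIdeal.IsMaximal := v.isMaximal
    have : v.asIdeal = w.asIdeal := hmax.eq_of_le w.isPrime.ne_top hle'
    exact (HeightOneSpectrum.ext this).symm

/-- For every `v ∈ S` there is an `S`-unit whose valuation vector is a nonzero multiple of the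
`v`-th coordinate vector. -/
theorem exists_sUnit_single (S : Finset (HeightOneSpectrum (𝓞 K))) (v : S) :
    ∃ (x : Additive (SUnits K S)) (n : ℤ), n ≠ 0 ∧ valVec S x v = n ∧
      ∀ w : S, w ≠ v → valVec S x w = 0 := by
  obtain ⟨a, ha0, hav, haw⟩ := exists_mem_supported v.1
  have ha0' : (algebraMap (𝓞 K) K a) ≠ 0 := by
    intro h
    apply ha0
    exact RingOfIntegers.coe_injective (by simpa using h)
  set π : Kˣ := Units.mk0 (algebraMap (𝓞 K) K a) ha0' with hπ
  have hval : ∀ w : HeightOneSpectrum (𝓞 K), w ≠ v.1 → w.valuation K (π : K) = 1 := by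
    intro w hw
    rw [hπ, Units.val_mk0, HeightOneSpectrum.valuation_of_algebraMap,
      HeightOneSpectrum.intValuation_eq_one_iff]
    exact haw w hw
  have hmem : π ∈ SUnits K S := by
    rw [mem_SUnits]
    intro w hw
    exact hval w (fun h => hw (h ▸ v.2))
  have hv : ordAt v.1 π ≠ 0 := by
    rw [Ne, ordAt_eq_zero_iff, hπ, Units.val_mk0]
    have : v.1.valuation K (algebraMap (𝓞 K) K a) < 1 :=
      (HeightOneSpectrum.valuation_lt_one_iff_mem v.1 a).mpr hav
    exact this.ne
  refine ⟨Additive.ofMul ⟨π, hmem⟩, ordAt v.1 π, hv, rfl, ?_⟩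
  intro w hwv
  have hwv' : (w : HeightOneSpectrum (𝓞 K)) ≠ v.1 := fun h => hwv (Subtype.ext h)
  exact (ordAt_eq_zero_iff _ _).mpr (hval w.1 hwv')

/-! ## Finite generation and rank: the `S`-unit theorem -/

instance instFiniteSUnits (S : Finset (HeightOneSpectrum (𝓞 K))) :
    Module.Finite ℤ (Additive (SUnits K S)) := by
  rw [Module.finite_def]
  refine Submodule.fg_of_fg_map_of_fg_inf_ker (valVec S) ?_ ?_
  · exact IsNoetherian.noetherian _
  · rw [inf_of_le_right le_top, ker_valVec, LinearMap.range_eq_map]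
    exact (Module.Finite.fg_top).map _

theorem finrank_range_valVec (S : Finset (HeightOneSpectrum (𝓞 K))) :
    finrank ℤ (LinearMap.range (valVec (K := K) S)) = S.card := by
  classical
  choose x n hn hxv hxw using exists_sUnit_single (K := K) S
  let m : (S → ℤ) →ₗ[ℤ] (S → ℤ) :=
    { toFun := fun c v => n v * c v
      map_add' := fun c d => by
        funext v
        simp [mul_add]
      map_smul' := fun a c => by
        funext v
        simp only [Pi.smul_apply, smul_eq_mul, RingHom.id_apply]
        ring }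
  have hm_inj : Function.Injective m := by
    intro c d h
    funext v
    have h1 : n v * c v = n v * d v := congrFun h v
    exact mul_left_cancel₀ (hn v) h1
  have hm_le : LinearMap.range m ≤ LinearMap.range (valVec S) := by
    rintro _ ⟨c, rfl⟩
    refine ⟨∑ v, c v • x v, ?_⟩
    funext w
    rw [map_sum]
    simp only [map_smul, Finset.sum_apply, Pi.smul_apply, smul_eq_mul]
    rw [Finset.sum_eq_single w]
    · rw [hxv w]
      show c w * n w = n w * c w
      ring
    · intro v _ hvw
      rw [hxw v w (Ne.symm hvw), mul_zero]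
    · intro h
      exact absurd (Finset.mem_univ w) h
  have h1 : finrank ℤ (LinearMap.range m) = S.card := by
    rw [LinearMap.finrank_range_of_inj hm_inj]
    simp
  have h2 : finrank ℤ (LinearMap.range m) ≤ finrank ℤ (LinearMap.range (valVec S)) :=
    Submodule.finrank_mono hm_le
  have h3 : finrank ℤ (LinearMap.range (valVec (K := K) S)) ≤ finrank ℤ (S → ℤ) :=
    Submodule.finrank_le _
  have h4 : finrank ℤ (S → ℤ) = S.card := by simp
  omega

/-- **Dirichlet's `S`-unit theorem** (rank form): the `S`-units of a number field form a finitely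
generated group (`instFiniteSUnits`) of rank `rank K + #S`, where
`rank K = #(infinite places) - 1`. -/
theorem finrank_SUnits (S : Finset (HeightOneSpectrum (𝓞 K))) :
    finrank ℤ (Additive (SUnits K S)) = NumberField.Units.rank K + S.card := by
  have h1 := Submodule.finrank_quotient_add_finrank (LinearMap.ker (valVec (K := K) S))
  have h2 : finrank ℤ (Additive (SUnits K S) ⧸ LinearMap.ker (valVec S))
      = finrank ℤ (LinearMap.range (valVec S)) :=
    LinearEquiv.finrank_eq (valVec S).quotKerEquivRange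
  have h3 : finrank ℤ (LinearMap.ker (valVec (K := K) S)) = NumberField.Units.rank K := by
    rw [ker_valVec, LinearMap.finrank_range_of_inj (unitsLin_injective S)]
    exact NumberField.Units.finrank_eq K
  rw [← h1, h2, h3, finrank_range_valVec]
  ring


end

end Fermat.Agent.S14.helper2613
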