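/-
S14 moonshot, module M6 = SECOND INEQUALITY (Tate's counting proof, completion-free).
Architect: helper1892.  This file: the definitions of M6 and the `Prop`-valued interfaces
(`Stmt_*`) of its leaves, so that the leaves can be proved independently and the assembly
(`helper1892_M6Core.lean`) is hypothesis-passing.

Setting: `F` a number field, `p` a prime, places `v : HeightOneSpectrum (𝓞 F)`,
`v.valuation F : Valuation F ℤᵐ⁰` (a uniformizer has valuation `exp (-1)`).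
-/
import Mathlib
import Fermat.Agent.S14.helper2613_SUnit

set_option autoImplicit false

open IsDedekindDomain NumberField WithZero

namespace Fermat.Agent.S14.helper1892

open Fermat.Agent.S14.helper2613 (ordAt SUnits)

noncomputable section

variable {F : Type*} [Field F] [NumberField F]

/-! ## Completion-free local `p`-th powers -/

/-- `x` is a `p`-th power at the finite place `v` to precision `N`:
there is `y` with `ord_v (x / y ^ p - 1) ≥ N`. -/
def LocPowN (p : ℕ) (v : HeightOneSpectrum (𝓞 F)) (N : ℕ) (x : Fˣ) : Prop :=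
  ∃ y : Fˣ, v.valuation F ((x : F) / (y : F) ^ p - 1) ≤ WithZero.exp (-(N : ℤ))

/-- Completion-free version of "`x` is a `p`-th power in the completion `F_v`". -/
def LocPow (p : ℕ) (v : HeightOneSpectrum (𝓞 F)) (x : Fˣ) : Prop :=
  ∀ N : ℕ, LocPowN p v N x

theorem LocPowN.mono {p : ℕ} {v : HeightOneSpectrum (𝓞 F)} {N N' : ℕ} (h : N ≤ N') {x : Fˣ}
    (hx : LocPowN p v N' x) : LocPowN p v N x := by
  obtain ⟨y, hy⟩ := hx
  refine ⟨y, hy.trans ?_⟩
  rw [WithZero.exp_le_exp]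
  omega

theorem val_eq_one_of_sub_one_lt (v : HeightOneSpectrum (𝓞 F)) {t : F}
    (h : v.valuation F (t - 1) < 1) : v.valuation F t = 1 := by
  have := (v.valuation F).map_one_add_of_lt h
  simpa using this

theorem exp_neg_succ_lt_one (N : ℕ) : WithZero.exp (-((N + 1 : ℕ) : ℤ)) < (1 : ℤᵐ⁰) := by
  rw [← WithZero.exp_zero, WithZero.exp_lt_exp]
  push_cast
  omega

theorem locPow_one (p : ℕ) (v : HeightOneSpectrum (𝓞 F)) : LocPow p v (1 : Fˣ) := by
  intro N
  exact ⟨1, by simp⟩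

theorem locPow_pow (p : ℕ) (v : HeightOneSpectrum (𝓞 F)) (y : Fˣ) : LocPow p v (y ^ p) := by
  intro N
  refine ⟨y, ?_⟩
  have hy : ((y : F)) ^ p ≠ 0 := pow_ne_zero _ y.ne_zero
  simp

theorem locPow_mul {p : ℕ} {v : HeightOneSpectrum (𝓞 F)} {x x' : Fˣ}
    (hx : LocPow p v x) (hx' : LocPow p v x') : LocPow p v (x * x') := by
  intro N
  obtain ⟨y, hy⟩ := hx (N + 1)
  obtain ⟨y', hy'⟩ := hx' (N + 1)
  refine ⟨y * y', ?_⟩
  have h1 : v.valuation F ((x' : F) / (y' : F) ^ p) = 1 :=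
    val_eq_one_of_sub_one_lt v (lt_of_le_of_lt hy' (exp_neg_succ_lt_one N))
  have key : ((x * x' : Fˣ) : F) / ((y * y' : Fˣ) : F) ^ p - 1
      = ((x : F) / (y : F) ^ p - 1) * ((x' : F) / (y' : F) ^ p) + ((x' : F) / (y' : F) ^ p - 1) := by
    have hy0 : ((y : F)) ^ p ≠ 0 := pow_ne_zero _ y.ne_zero
    have hy0' : ((y' : F)) ^ p ≠ 0 := pow_ne_zero _ y'.ne_zero
    push_cast
    field_simp
    ring
  rw [key]
  have hle : (WithZero.exp (-((N + 1 : ℕ) : ℤ)) : ℤᵐ⁰) ≤ WithZero.exp (-(N : ℤ)) := by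
    rw [WithZero.exp_le_exp]
    push_cast
    omega
  refine Valuation.map_add_le _ ?_ (hy'.trans hle)
  rw [map_mul, h1, mul_one]
  exact hy.trans hle

theorem locPow_inv {p : ℕ} {v : HeightOneSpectrum (𝓞 F)} {x : Fˣ}
    (hx : LocPow p v x) : LocPow p v x⁻¹ := by
  intro N
  obtain ⟨y, hy⟩ := hx (N + 1)
  refine ⟨y⁻¹, ?_⟩
  have h1 : v.valuation F ((x : F) / (y : F) ^ p) = 1 :=
    val_eq_one_of_sub_one_lt v (lt_of_le_of_lt hy (exp_neg_succ_lt_one N))
  have hy0 : ((y : F)) ^ p ≠ 0 := pow_ne_zero _ y.ne_zero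
  have hx0 : (x : F) ≠ 0 := x.ne_zero
  have ht0 : (x : F) / (y : F) ^ p ≠ 0 := div_ne_zero hx0 hy0
  have key : ((x⁻¹ : Fˣ) : F) / ((y⁻¹ : Fˣ) : F) ^ p - 1
      = -((x : F) / (y : F) ^ p - 1) * ((x : F) / (y : F) ^ p)⁻¹ := by
    have e1 : ((x⁻¹ : Fˣ) : F) / ((y⁻¹ : Fˣ) : F) ^ p = ((x : F) / (y : F) ^ p)⁻¹ := by
      push_cast
      rw [inv_pow, inv_div, div_inv_eq_mul, mul_comm, div_eq_mul_inv]
    rw [e1, neg_mul, sub_mul, mul_inv_cancel₀ ht0, one_mul, neg_sub]
  rw [key, map_mul, map_inv₀, h1, inv_one, mul_one, Valuation.map_neg]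
  refine hy.trans ?_
  rw [WithZero.exp_le_exp]
  push_cast
  omega

/-- The subgroup of `Fˣ` of elements that are `p`-th powers at `v` (completion-free). -/
def locPowSubgroup (p : ℕ) (v : HeightOneSpectrum (𝓞 F)) : Subgroup Fˣ where
  carrier := {x | LocPow p v x}
  mul_mem' := fun hx hx' => locPow_mul hx hx'
  one_mem' := locPow_one p v
  inv_mem' := fun hx => locPow_inv hx

@[simp] theorem mem_locPowSubgroup {p : ℕ} {v : HeightOneSpectrum (𝓞 F)} {x : Fˣ} :
    x ∈ locPowSubgroup p v ↔ LocPow p v x := Iff.rfl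

/-- Elements of `Fˣ` which are local `p`-th powers at every place of the finite set `S`. -/
def locPowS (p : ℕ) (S : Finset (HeightOneSpectrum (𝓞 F))) : Subgroup Fˣ :=
  ⨅ v ∈ S, locPowSubgroup p v

theorem mem_locPowS {p : ℕ} {S : Finset (HeightOneSpectrum (𝓞 F))} {x : Fˣ} :
    x ∈ locPowS p S ↔ ∀ v ∈ S, LocPow p v x := by
  simp [locPowS, Subgroup.mem_iInf]

/-! ## Class-group generation -/

/-- `S` generates the class group: every prime outside `S` is principal up to primes in `S`. -/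
def ClassGen (S : Finset (HeightOneSpectrum (𝓞 F))) : Prop :=
  ∀ v₁ : HeightOneSpectrum (𝓞 F), v₁ ∉ S →
    ∃ x : Fˣ, v₁.valuation F (x : F) = WithZero.exp (-1 : ℤ) ∧
      ∀ v : HeightOneSpectrum (𝓞 F), v ∉ S → v ≠ v₁ → v.valuation F (x : F) = 1

theorem ClassGen.mono {S S' : Finset (HeightOneSpectrum (𝓞 F))} (h : S ⊆ S')
    (hS : ClassGen S) : ClassGen S' := by
  intro v₁ hv₁
  obtain ⟨x, hx, hx'⟩ := hS v₁ (fun hv => hv₁ (h hv))
  exact ⟨x, hx, fun v hv hne => hx' v (fun hv' => hv (h hv')) hne⟩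

/-! ## Interfaces of the inputs of M6 (`Prop`-valued; to be discharged by the leaf owners) -/

variable (F) in
/-- **M5, first inequality**, in `Fˣ`-language (equivalent to `Div^R ≠ P^(R) + N_b^R`).
`b` not a `p`-th power, a local `p`-th power at every place over `p`;
`R := {v | p ∤ ord_v b}` (the ramified places of `F(b^(1/p))`).  Then there is a place `v₀ ∉ R`,
not split, such that `p ∣ ord_{v₀} x` for EVERY `x` which (1) is a unit and a `p`-th power residue
at every place of `R` and (2) has `p ∣ ord_v x` at every non-split `v ∉ R`, `v ≠ v₀`. -/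
def Stmt_M5 (p : ℕ) : Prop :=
  ∀ b : Fˣ, (¬ ∃ y : Fˣ, b = y ^ p) →
    (∀ v : HeightOneSpectrum (𝓞 F), (p : 𝓞 F) ∈ v.asIdeal → LocPow p v b) →
    ∃ v₀ : HeightOneSpectrum (𝓞 F), (p : ℤ) ∣ ordAt v₀ b ∧ ¬ LocPow p v₀ b ∧
      ∀ x : Fˣ,
        (∀ v : HeightOneSpectrum (𝓞 F), ¬ (p : ℤ) ∣ ordAt v b →
          v.valuation F (x : F) = 1 ∧ LocPowN p v 1 x) →
        (∀ v : HeightOneSpectrum (𝓞 F), (p : ℤ) ∣ ordAt v b → v ≠ v₀ → ¬ LocPow p v b →
          (p : ℤ) ∣ ordAt v x) →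
        (p : ℤ) ∣ ordAt v₀ x

/-- **M2, zeta lemma in Kummer form** for the number field `E`: an integer of `E` which is not a
`p`-th power in `E` is a non-`p`-th-power modulo some prime of degree one outside any finite set. -/
def Stmt_M2 (E : Type*) [Field E] [NumberField E] (p : ℕ) : Prop :=
  ∀ u : 𝓞 E, (¬ ∃ y : E, (u : E) = y ^ p) → ∀ T : Finset (HeightOneSpectrum (𝓞 E)),
    ∃ W : HeightOneSpectrum (𝓞 E), W ∉ T ∧ (Ideal.absNorm W.asIdeal).Prime ∧
      ¬ ∃ β : 𝓞 E, β ^ p - u ∈ W.asIdeal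

variable (F) in
/-- **Leaf SELECT-ONE** (from M2 over `E = F(a^(1/p))` + Kummer theory + degree-one transfer):
if `a` is not a `p`-th power and `u ∉ ⟨a⟩ · (Fˣ)^p`, then outside any finite set there is a place
`w` not over `p`, at which `a` and `u` are units, `a` is a local `p`-th power and `u` is not a
`p`-th power residue. -/
def Stmt_SelectOne (p : ℕ) : Prop :=
  ∀ a u : Fˣ, (¬ ∃ y : Fˣ, a = y ^ p) → (∀ (k : ℕ) (y : Fˣ), u ≠ a ^ k * y ^ p) →
    ∀ S : Finset (HeightOneSpectrum (𝓞 F)),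
      ∃ w : HeightOneSpectrum (𝓞 F), w ∉ S ∧ (p : 𝓞 F) ∉ w.asIdeal ∧
        w.valuation F (a : F) = 1 ∧ w.valuation F (u : F) = 1 ∧
        LocPow p w a ∧ ¬ LocPowN p w 1 u

variable (F) in
/-- **Leaf LOCAL-CYCLIC** (tame places): at a place `w` not over `p`, the `w`-units modulo
`p`-th power residues form a cyclic group of order dividing `p`: if the `w`-unit `t` is not a
`p`-th power residue, every `w`-unit `x` is `t^k` times a `p`-th power residue. -/
def Stmt_LocalCyclic (p : ℕ) : Prop :=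
  ∀ w : HeightOneSpectrum (𝓞 F), (p : 𝓞 F) ∉ w.asIdeal →
    ∀ t x : Fˣ, w.valuation F (t : F) = 1 → w.valuation F (x : F) = 1 → ¬ LocPowN p w 1 t →
      ∃ k : ℕ, LocPowN p w 1 (x * t ^ k)

variable (F) in
/-- **Leaf LOCPOW index** (helper4204 (LP4)): if `S` contains all places over `p`, the subgroup of
elements which are local `p`-th powers at all of `S` has finite index `≤ p^(2#S + [F:ℚ])`. -/
def Stmt_LocIndex (p : ℕ) : Prop :=
  ∀ S : Finset (HeightOneSpectrum (𝓞 F)),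
    (∀ v : HeightOneSpectrum (𝓞 F), (p : 𝓞 F) ∈ v.asIdeal → v ∈ S) →
    (locPowS p S).index ≠ 0 ∧ (locPowS p S).index ≤ p ^ (2 * S.card + Module.finrank ℚ F)

variable (F) in
/-- **Leaf S-UNIT count** (helper2613 (SU4)): if `F` contains a primitive `p`-th root of unity,
`[U_S : U_S^p] = p^(rank + #S + 1)`. -/
def Stmt_SUnitCount (p : ℕ) : Prop :=
  ∀ S : Finset (HeightOneSpectrum (𝓞 F)),
    ((SUnits F S).map (powMonoidHom p)).relIndex (SUnits F S)
      = p ^ (NumberField.Units.rank F + S.card + 1)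

variable (F) in
/-- **Leaf TOTALLY-COMPLEX**: `[F:ℚ] = 2 (rank + 1)` (no real places). -/
def Stmt_TotComplex : Prop :=
  Module.finrank ℚ F = 2 * (NumberField.Units.rank F + 1)

variable (F) in
/-- **Leaf CLASSGEN**: every finite set of places is contained in one generating the class group. -/
def Stmt_ClassGen : Prop :=
  ∀ S₀ : Finset (HeightOneSpectrum (𝓞 F)), ∃ S : Finset (HeightOneSpectrum (𝓞 F)),
    S₀ ⊆ S ∧ ClassGen S

/-! ## Output of M6 in `Fˣ`-language -/

open Classical in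
variable (F) in
/-- **M6 core (Tate's count)**: for `a` not a `p`-th power and any finite `S₀` there are finite
disjoint sets `S ⊇ S₀` (containing the places over `p`, generating the class group, `a` an
`S`-unit) and `T` (places at which `a` is a local `p`-th power) with
`[Fˣ : locPowS p S · U_{S ∪ T}] ≤ p`. -/
def Stmt_TateCount (p : ℕ) : Prop :=
  ∀ a : Fˣ, (¬ ∃ y : Fˣ, a = y ^ p) → ∀ S₀ : Finset (HeightOneSpectrum (𝓞 F)),
    ∃ S T : Finset (HeightOneSpectrum (𝓞 F)), S₀ ⊆ S ∧ Disjoint S T ∧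
      (∀ v : HeightOneSpectrum (𝓞 F), (p : 𝓞 F) ∈ v.asIdeal → v ∈ S) ∧ ClassGen S ∧
      a ∈ SUnits F S ∧ (∀ w ∈ T, LocPow p w a) ∧
      (locPowS p S ⊔ SUnits F (S ∪ T)).index ≠ 0 ∧ (locPowS p S ⊔ SUnits F (S ∪ T)).index ≤ p

end

end Fermat.Agent.S14.helper1892
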