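/-
S14 moonshot, module M6, leaf TOTALLY-COMPLEX (board row 510, helper1080).

A number field containing a primitive `p`-th root of unity, `p` an odd prime, has no real
place, hence `[F:ℚ] = 2 (rank + 1)` where `rank` is the rank of the unit group.
-/
import Mathlib
import Fermat.Agent.S14.helper1892_M6Defs

set_option autoImplicit false

open NumberField

namespace Fermat.Agent.S14.helper1080

/-- General form: a number field with a primitive `n`-th root of unity, `2 < n`, is totally
complex, so `[F:ℚ] = 2 (Units.rank F + 1)`. -/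
theorem finrank_eq_two_mul_rank_add_one {F : Type*} [Field F] [NumberField F] {n : ℕ}
    (hn : 2 < n) {ζ : F} (hζ : IsPrimitiveRoot ζ n) :
    Module.finrank ℚ F = 2 * (NumberField.Units.rank F + 1) := by
  have h0 : NumberField.InfinitePlace.nrRealPlaces F = 0 :=
    NumberField.InfinitePlace.IsPrimitiveRoot.nrRealPlaces_eq_zero_of_two_lt hn hζ
  have h1 := NumberField.InfinitePlace.card_add_two_mul_card_eq_rank F
  have h2 := NumberField.InfinitePlace.card_eq_nrRealPlaces_add_nrComplexPlaces F
  have h3 : 0 < Fintype.card (InfinitePlace F) := Fintype.card_pos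
  rw [NumberField.Units.rank]
  omega

/-- **Leaf TOTALLY-COMPLEX** of M6 (verbatim `helper1892.Stmt_TotComplex`). -/
theorem totComplex {F : Type*} [Field F] [NumberField F] {p : ℕ} (hp : p.Prime) (hodd : p ≠ 2)
    (hζ : ∃ ζ : F, IsPrimitiveRoot ζ p) : Fermat.Agent.S14.helper1892.Stmt_TotComplex F := by
  obtain ⟨ζ, hζ⟩ := hζ
  have h2 : 2 < p := lt_of_le_of_ne hp.two_le (Ne.symm hodd)
  exact finrank_eq_two_mul_rank_add_one h2 hζ

end Fermat.Agent.S14.helper1080
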