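import Mathlib

/-!
# S14 (W-c): the Weber bound from the partial-zeta core

Owner: helper1094.  Mathlib-only.

For a number field `K` and a surjective homomorphism `φ` from the class group of `K` onto a finite
abelian group `G`, the primes whose class lies in the kernel of `φ` satisfy
`|G| * ∑_{φ(v)=1} N v ^ (-s) ≤ log (1/(s-1)) + B` on `(1,2)`, PROVIDED the partial zeta functions
of any two ideal classes differ by a bounded function (the analytic core, proved elsewhere) and the
full zeta sum is `≤ C/(s-1)`.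

The proof uses no complex characters and no infinite products: the "group determinant"
`det (circulant z)` (`z j` = zeta sum over ideals whose class maps to `j`) is multiplied by the
local factors `det (circulant (δ₀ - N v ^ (-s) δ_{φ v}))` one prime at a time (a sieve identity),
and the result tends to `1`.
-/

set_option autoImplicit false

namespace Fermat.Agent.S14.helper1094

open Matrix

section Algebra


/-- the matrix `1 - t • (cyclic shift)` on `Fin m`. -/
noncomputable def shiftMat (m : ℕ) (t : ℝ) : Matrix (Fin m) (Fin m) ℝ :=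
  Matrix.of fun i j => (if i = j then (1 : ℝ) else 0) - t * (if (i : ℕ) = ((j : ℕ) + 1) % m then 1 else 0)

theorem det_shiftMat_succ (n : ℕ) (t : ℝ) : (shiftMat (n + 1) t).det = 1 - t ^ (n + 1) := by
  set U : Matrix (Fin (n + 1)) (Fin (n + 1)) ℝ :=
    Matrix.of fun i j => (if i = j then (1 : ℝ) else 0) - (if j = Fin.last n then t ^ ((i : ℕ) + 1) else 0)
    with hU
  have h : U.det = (shiftMat (n + 1) t).det := by
    refine Matrix.det_eq_of_forall_row_eq_smul_add_pred (fun _ => t) ?_ ?_
    · intro j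
      simp only [hU, shiftMat, Matrix.of_apply, Fin.val_zero, zero_add, pow_one]
      congr 1
      by_cases hj : j = Fin.last n
      · subst hj
        simp
      · have hjn : (j : ℕ) < n := lt_of_le_of_ne (Nat.lt_succ_iff.mp j.isLt) (fun h => hj (Fin.ext h))
        have : ((j : ℕ) + 1) % (n + 1) = (j : ℕ) + 1 := Nat.mod_eq_of_lt (by omega)
        simp [hj, this]
    · intro i j
      simp only [hU, shiftMat, Matrix.of_apply, Fin.val_succ, Fin.val_castSucc]
      by_cases hj : j = Fin.last n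
      · subst hj
        have h1 : (Fin.last n : ℕ) = n := rfl
        have h2 : ¬ (i.succ = Fin.last n) ↔ ¬ ((i : ℕ) + 1 = n) := by
          rw [not_iff_not, Fin.ext_iff]; simp
        have h3 : i.castSucc ≠ Fin.last n := by
          intro h; have := congrArg Fin.val h; simp at this; omega
        have h4 : (n + 1) % (n + 1) = 0 := Nat.mod_self _
        simp only [h1, h4, h3, if_false, if_true]
        have h5 : ((i : ℕ) + 1 = 0) ↔ False := iff_false_intro (Nat.succ_ne_zero _)
        simp only [h5, if_false]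
        ring
      · have hjn : (j : ℕ) < n := lt_of_le_of_ne (Nat.lt_succ_iff.mp j.isLt) (fun h => hj (Fin.ext h))
        have : ((j : ℕ) + 1) % (n + 1) = (j : ℕ) + 1 := Nat.mod_eq_of_lt (by omega)
        simp only [hj, if_false, this, sub_zero]
        have h6 : ((i : ℕ) + 1 = (j : ℕ) + 1) ↔ (i.castSucc = j) := by
          rw [Fin.ext_iff]; simp
        simp only [h6]
        ring
  rw [← h]
  have htri : U.BlockTriangular id := by
    intro i j hij
    simp only [hU, Matrix.of_apply, id] at hij ⊢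
    have h1 : i ≠ j := ne_of_gt hij
    have h2 : j ≠ Fin.last n := fun h => by
      subst h; exact absurd hij (not_lt_of_ge (Fin.le_last i))
    simp [h1, h2]
  rw [Matrix.det_of_isUpperTriangular htri]
  rw [Fin.prod_univ_castSucc]
  have : ∀ i : Fin n, U i.castSucc i.castSucc = 1 := by
    intro i
    have h3 : i.castSucc ≠ Fin.last n := by
      intro h; have := congrArg Fin.val h; simp at this; omega
    simp [hU, h3]
  simp only [this, Finset.prod_const_one, one_mul]
  simp [hU]

theorem det_shiftMat (m : ℕ) (hm : m ≠ 0) (t : ℝ) : (shiftMat m t).det = 1 - t ^ m := by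
  obtain ⟨n, rfl⟩ := Nat.exists_eq_succ_of_ne_zero hm
  exact det_shiftMat_succ n t

/-- the "local Euler factor" `δ₀ - t δ_c` in the group algebra, as a function on `G`. -/
noncomputable def locFac {G : Type*} [AddCommGroup G] [DecidableEq G] (c : G) (t : ℝ) : G → ℝ :=
  fun g => (if g = 0 then 1 else 0) - t * (if g = c then 1 else 0)

theorem det_circulant_locFac {G : Type*} [AddCommGroup G] [Fintype G] [DecidableEq G] (c : G) (t : ℝ) :
    (circulant (locFac c t)).det =
      (1 - t ^ addOrderOf c) ^ Nat.card (G ⧸ AddSubgroup.zmultiples c) := by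
  classical
  set o := addOrderOf c with ho
  have ho_pos : 0 < o := addOrderOf_pos c
  set H := AddSubgroup.zmultiples c with hH
  let Q := G ⧸ H
  have : Fintype Q := Fintype.ofFinite Q
  let e : Fin o × Q → G := fun x => (x.1 : ℕ) • c + Quotient.out x.2
  have hπ : ∀ x : Fin o × Q, (QuotientAddGroup.mk (e x) : Q) = x.2 := by
    intro x
    have h1 : (QuotientAddGroup.mk ((x.1 : ℕ) • c) : Q) = 0 := by
      rw [QuotientAddGroup.eq_zero_iff]
      exact AddSubgroup.nsmul_mem _ (AddSubgroup.mem_zmultiples c) _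
    simp only [e, QuotientAddGroup.mk_add, h1, zero_add]
    exact QuotientAddGroup.out_eq' x.2
  have hc0 : (QuotientAddGroup.mk c : Q) = 0 := by
    rw [QuotientAddGroup.eq_zero_iff]
    exact AddSubgroup.mem_zmultiples c
  have h_i : ∀ x y : Fin o × Q, e x - e y = 0 ↔ x = y := by
    intro x y
    constructor
    · intro h
      have hq : x.2 = y.2 := by
        have := congrArg (QuotientAddGroup.mk : G → Q) (sub_eq_zero.mp h)
        rwa [hπ, hπ] at this
      have h2 : (x.1 : ℕ) • c = (y.1 : ℕ) • c := by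
        have := sub_eq_zero.mp h
        simp only [e, hq] at this
        exact add_right_cancel this
      have h3 := (nsmul_eq_nsmul_iff_modEq (x := c)).mp h2
      have h4 : (x.1 : ℕ) = (y.1 : ℕ) := Nat.ModEq.eq_of_lt_of_lt h3 x.1.isLt y.1.isLt
      exact Prod.ext (Fin.ext h4) hq
    · rintro rfl; simp
  have h_ii : ∀ x y : Fin o × Q, e x - e y = c ↔ (x.2 = y.2 ∧ (x.1 : ℕ) = ((y.1 : ℕ) + 1) % o) := by
    intro x y
    constructor
    · intro h
      have hq : x.2 = y.2 := by
        have := congrArg (QuotientAddGroup.mk : G → Q) h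
        rw [QuotientAddGroup.mk_sub, hπ, hπ, hc0, sub_eq_zero] at this
        exact this
      refine ⟨hq, ?_⟩
      have h2 : (x.1 : ℕ) • c = ((y.1 : ℕ) + 1) • c := by
        have h' := sub_eq_iff_eq_add.mp h
        simp only [e, hq] at h'
        rw [add_nsmul, one_nsmul]
        have : (x.1 : ℕ) • c + Quotient.out y.2 = ((y.1 : ℕ) • c + c) + Quotient.out y.2 := by
          rw [h']; abel
        exact add_right_cancel this
      have h3 := (nsmul_eq_nsmul_iff_modEq (x := c)).mp h2
      have h4 : (x.1 : ℕ) % o = ((y.1 : ℕ) + 1) % o := h3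
      rwa [Nat.mod_eq_of_lt x.1.isLt] at h4
    · rintro ⟨hq, hk⟩
      have h3 : (x.1 : ℕ) ≡ (y.1 : ℕ) + 1 [MOD o] := by
        rw [hk]; exact Nat.mod_modEq _ _
      have h2 : (x.1 : ℕ) • c = ((y.1 : ℕ) + 1) • c := (nsmul_eq_nsmul_iff_modEq (x := c)).mpr h3
      simp only [e, hq, h2, add_nsmul, one_nsmul]
      abel
  have he_inj : Function.Injective e := by
    intro x y hxy
    exact (h_i x y).mp (sub_eq_zero.mpr hxy)
  have hcard : Fintype.card (Fin o × Q) = Fintype.card G := by
    rw [Fintype.card_prod, Fintype.card_fin]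
    have h1 := AddSubgroup.card_eq_card_quotient_mul_card_addSubgroup H
    have h2 : Nat.card H = o := Nat.card_zmultiples c
    rw [h2] at h1
    rw [← Nat.card_eq_fintype_card, ← Nat.card_eq_fintype_card, h1, mul_comm]
  have he_bij : Function.Bijective e := (Fintype.bijective_iff_injective_and_card e).mpr ⟨he_inj, hcard⟩
  let E : Fin o × Q ≃ G := Equiv.ofBijective e he_bij
  have hE : ∀ x, E x = e x := fun x => rfl
  have hsub : (circulant (locFac c t)).submatrix E E = blockDiagonal (fun _ : Q => shiftMat o t) := by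
    ext x y
    rw [Matrix.submatrix_apply, circulant_apply, hE, hE, blockDiagonal_apply]
    simp only [locFac, shiftMat, Matrix.of_apply]
    simp only [h_i x y, h_ii x y]
    by_cases hq : x.2 = y.2
    · have : x = y ↔ x.1 = y.1 := by
        constructor
        · rintro rfl; rfl
        · intro h; exact Prod.ext h hq
      simp [hq, this]
    · have : x ≠ y := fun h => hq (by rw [h])
      simp [hq, this]
  rw [← Matrix.det_submatrix_equiv_self E, hsub, Matrix.det_blockDiagonal]
  simp only [det_shiftMat o ho_pos.ne' t, Finset.prod_const, Finset.card_univ]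
  rw [Nat.card_eq_fintype_card]



/-- (P3) determinant of a circulant matrix whose entries are all close to each other. -/
theorem abs_det_circulant_le {G : Type*} [AddCommGroup G] [Fintype G] [DecidableEq G]
    (z : G → ℝ) (B : ℝ) (hB : ∀ i j, |z i - z j| ≤ B) :
    |(circulant z).det| ≤ |∑ j, z j| * ((Fintype.card G).factorial * (max 1 B) ^ Fintype.card G) := by
  classical
  set M : Matrix G G ℝ := circulant z with hM
  -- step 1: replace row 0 by the sum of all rows
  have h1 : (M.updateRow 0 (∑ k, (1 : G → ℝ) k • M k)).det = (1 : G → ℝ) 0 • M.det :=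
    Matrix.det_updateRow_sum M 0 1
  have hcol : ∀ i, ∑ k, M k i = ∑ j, z j := by
    intro i
    simp only [hM, circulant_apply]
    exact Fintype.sum_equiv (Equiv.subRight i) _ _ (fun k => rfl)
  have h2 : M.det = (∑ j, z j) * (M.updateRow 0 (fun _ => 1)).det := by
    have : (∑ k, (1 : G → ℝ) k • M k) = (∑ j, z j) • (fun _ : G => (1 : ℝ)) := by
      funext i
      have := hcol i
      simp only [one_smul, Pi.one_apply, Pi.smul_apply, smul_eq_mul, mul_one]
      exact (Finset.sum_apply i Finset.univ fun x => M x).trans this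
    rw [this, Matrix.det_updateRow_smul] at h1
    simpa using h1.symm
  -- step 2: subtract z 0 times row 0 from the other rows
  set A₂ : Matrix G G ℝ := M.updateRow 0 (fun _ => 1) with hA₂
  set A₃ : Matrix G G ℝ := Matrix.of (fun i j => if i = 0 then (1 : ℝ) else z (i - j) - z 0) with hA₃
  have h3 : A₂.det = A₃.det := by
    refine Matrix.det_eq_of_forall_row_eq_smul_add_const (fun i => if i = 0 then 0 else z 0) 0 (by simp) ?_
    intro i j
    by_cases hi : i = 0
    · subst hi
      simp [hA₂, hA₃]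
    · simp [hA₂, hA₃, hi, Matrix.updateRow_apply, hM, circulant_apply]
  have h4 : |A₃.det| ≤ (Fintype.card G).factorial • (max 1 B) ^ Fintype.card G := by
    refine Matrix.det_le (abv := AbsoluteValue.abs) (fun i j => ?_)
    simp only [hA₃, Matrix.of_apply, AbsoluteValue.abs_apply]
    split_ifs
    · simp
    · exact (hB _ _).trans (le_max_right _ _)
  rw [h2, h3, abs_mul]
  refine mul_le_mul_of_nonneg_left ?_ (abs_nonneg _)
  simpa using h4


end Algebra

section Sieve

open NumberField IsDedekindDomain Filter Topology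
open scoped nonZeroDivisors

variable {K : Type*} [Field K] [NumberField K]

/-- the nonzero ideal attached to a prime. -/
noncomputable def pr (v : HeightOneSpectrum (𝓞 K)) : (Ideal (𝓞 K))⁰ :=
  ⟨v.asIdeal, mem_nonZeroDivisors_iff_ne_zero.mpr v.ne_bot⟩

/-- the weight `N I ^ (-s)`. -/
noncomputable def wt (s : ℝ) (I : (Ideal (𝓞 K))⁰) : ℝ :=
  (Ideal.absNorm (I : Ideal (𝓞 K)) : ℝ) ^ (-s)

theorem wt_nonneg (s : ℝ) (I : (Ideal (𝓞 K))⁰) : 0 ≤ wt s I := by
  unfold wt; positivity

theorem wt_one (s : ℝ) : wt s (1 : (Ideal (𝓞 K))⁰) = 1 := by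
  simp [wt, Ideal.one_eq_top]

theorem wt_mul (s : ℝ) (I J : (Ideal (𝓞 K))⁰) : wt s (I * J) = wt s I * wt s J := by
  simp only [wt, Submonoid.coe_mul, map_mul, Nat.cast_mul]
  exact Real.mul_rpow (Nat.cast_nonneg _) (Nat.cast_nonneg _)

theorem wt_pr_lt_one {s : ℝ} (hs : 0 < s) (v : HeightOneSpectrum (𝓞 K)) : wt s (pr v) < 1 := by
  have h2 : 2 ≤ Ideal.absNorm v.asIdeal := by
    have h0 : Ideal.absNorm v.asIdeal ≠ 0 := by
      rw [Ne, Ideal.absNorm_eq_zero_iff]; exact v.ne_bot
    have h1 : Ideal.absNorm v.asIdeal ≠ 1 := by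
      rw [Ne, Ideal.absNorm_eq_one_iff]; exact v.isPrime.ne_top
    omega
  have : (1 : ℝ) < (Ideal.absNorm v.asIdeal : ℝ) := by exact_mod_cast h2
  exact Real.rpow_lt_one_of_one_lt_of_neg this (by linarith)

variable {G : Type*} [AddCommGroup G] (φ : ClassGroup (𝓞 K) →* Multiplicative G)

/-- the image in `G` of the class of a nonzero ideal. -/
noncomputable def cls (I : (Ideal (𝓞 K))⁰) : G := Multiplicative.toAdd (φ (ClassGroup.mk0 I))

theorem cls_one : cls φ 1 = 0 := by simp [cls]

theorem cls_mul (I J : (Ideal (𝓞 K))⁰) : cls φ (I * J) = cls φ I + cls φ J := by simp [cls]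

/-- `I` is prime to all the primes in `Q`. -/
def cop (Q : Finset (HeightOneSpectrum (𝓞 K))) (I : (Ideal (𝓞 K))⁰) : Prop :=
  ∀ v ∈ Q, ¬ v.asIdeal ∣ (I : Ideal (𝓞 K))

theorem cop_one (Q : Finset (HeightOneSpectrum (𝓞 K))) : cop Q (1 : (Ideal (𝓞 K))⁰) := by
  intro v _ hdvd
  have : v.asIdeal = ⊤ := by
    rw [Ideal.dvd_iff_le] at hdvd
    simpa [Ideal.one_eq_top] using hdvd
  exact v.isPrime.ne_top this

theorem cop_insert [DecidableEq (HeightOneSpectrum (𝓞 K))] (Q : Finset (HeightOneSpectrum (𝓞 K))) (v : HeightOneSpectrum (𝓞 K))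
    (I : (Ideal (𝓞 K))⁰) :
    cop (insert v Q) I ↔ ¬ v.asIdeal ∣ (I : Ideal (𝓞 K)) ∧ cop Q I := by
  simp [cop]

theorem cop_pr_mul (Q : Finset (HeightOneSpectrum (𝓞 K))) (v : HeightOneSpectrum (𝓞 K))
    (hv : v ∉ Q) (I : (Ideal (𝓞 K))⁰) : cop Q (pr v * I) ↔ cop Q I := by
  unfold cop
  refine forall₂_congr fun u hu => ?_
  rw [not_iff_not]
  simp only [Submonoid.coe_mul]
  rw [u.prime.dvd_mul]
  constructor
  · rintro (h | h)
    · exfalso
      have hle : v.asIdeal ≤ u.asIdeal := Ideal.dvd_iff_le.mp h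
      have huv : v.asIdeal = u.asIdeal := v.isMaximal.eq_of_le u.isPrime.ne_top hle
      have : v = u := HeightOneSpectrum.ext huv
      exact hv (this ▸ hu)
    · exact h
  · exact Or.inr

open Classical in
/-- zeta sum over the nonzero ideals prime to `Q` whose class maps to `j`. -/
noncomputable def zQ (s : ℝ) (Q : Finset (HeightOneSpectrum (𝓞 K))) (j : G) : ℝ :=
  ∑' I : (Ideal (𝓞 K))⁰, if cls φ I = j ∧ cop Q I then wt s I else 0

theorem summable_ite_wt {s : ℝ} (hsum : Summable (wt (K := K) s)) (P : (Ideal (𝓞 K))⁰ → Prop)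
    [DecidablePred P] : Summable (fun I => if P I then wt s I else 0) := by
  refine Summable.of_nonneg_of_le (fun I => ?_) (fun I => ?_) hsum
  · split_ifs
    · exact wt_nonneg s I
    · exact le_rfl
  · split_ifs
    · exact le_rfl
    · exact wt_nonneg s I

/-- the sieve identity: removing the multiples of one more prime. -/
theorem zQ_insert [DecidableEq (HeightOneSpectrum (𝓞 K))] {s : ℝ} (hsum : Summable (wt (K := K) s))
    (Q : Finset (HeightOneSpectrum (𝓞 K))) (v : HeightOneSpectrum (𝓞 K)) (hv : v ∉ Q) (j : G) :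
    zQ φ s (insert v Q) j = zQ φ s Q j - wt s (pr v) * zQ φ s Q (j - cls φ (pr v)) := by
  classical
  set f : (Ideal (𝓞 K))⁰ → ℝ := fun I => if cls φ I = j ∧ cop Q I then wt s I else 0 with hf
  set g : (Ideal (𝓞 K))⁰ → ℝ :=
    fun I => if cls φ I = j ∧ cop (insert v Q) I then wt s I else 0 with hg
  set h : (Ideal (𝓞 K))⁰ → ℝ :=
    fun I => if v.asIdeal ∣ (I : Ideal (𝓞 K)) ∧ (cls φ I = j ∧ cop Q I) then wt s I else 0 with hh
  set f' : (Ideal (𝓞 K))⁰ → ℝ :=
    fun I => if cls φ I = j - cls φ (pr v) ∧ cop Q I then wt s I else 0 with hf'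
  have hfgh : ∀ I, f I = g I + h I := by
    intro I
    simp only [hf, hg, hh, cop_insert]
    by_cases h1 : v.asIdeal ∣ (I : Ideal (𝓞 K)) <;> simp [h1]
  have hg_sum : Summable g := summable_ite_wt hsum _
  have hh_sum : Summable h := summable_ite_wt hsum _
  have hmul : ∀ I, h (pr v * I) = wt s (pr v) * f' I := by
    intro I
    have hd : v.asIdeal ∣ ((pr v * I : (Ideal (𝓞 K))⁰) : Ideal (𝓞 K)) := by
      simp only [Submonoid.coe_mul]; exact Dvd.intro _ rfl
    have hiff : (cls φ (pr v) + cls φ I = j) ↔ (cls φ I = j - cls φ (pr v)) := by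
      rw [eq_sub_iff_add_eq, add_comm]
    simp only [hh, hf', hd, true_and, cls_mul, cop_pr_mul Q v hv, wt_mul, hiff]
    split_ifs <;> simp
  have hinj : Function.Injective (fun I : (Ideal (𝓞 K))⁰ => pr v * I) := by
    intro I J hIJ
    have h1 : ((pr v * I : (Ideal (𝓞 K))⁰) : Ideal (𝓞 K)) = ((pr v * J : (Ideal (𝓞 K))⁰) : Ideal (𝓞 K)) :=
      congrArg Subtype.val hIJ
    simp only [Submonoid.coe_mul] at h1
    exact Subtype.ext (mul_left_cancel₀ (nonZeroDivisors.coe_ne_zero (pr v)) h1)
  have hsupp : Function.support h ⊆ Set.range (fun I : (Ideal (𝓞 K))⁰ => pr v * I) := by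
    intro I hI
    have hd : v.asIdeal ∣ (I : Ideal (𝓞 K)) := by
      by_contra hd
      simp [hh, hd] at hI
    obtain ⟨J, hJ⟩ := hd
    have hJ0 : J ≠ 0 := by
      rintro rfl
      exact (nonZeroDivisors.coe_ne_zero I) (by simpa using hJ)
    exact ⟨⟨J, mem_nonZeroDivisors_iff_ne_zero.mpr hJ0⟩, Subtype.ext hJ.symm⟩
  have h1 : ∑' I, h I = wt s (pr v) * ∑' I, f' I := by
    rw [← hinj.tsum_eq hsupp, ← tsum_mul_left]
    exact tsum_congr hmul
  show ∑' I, g I = ∑' I, f I - wt s (pr v) * ∑' I, f' I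
  rw [← h1, tsum_congr hfgh, hg_sum.tsum_add hh_sum]
  ring

theorem exists_prime_dvd (I : (Ideal (𝓞 K))⁰) (hI : I ≠ 1) :
    ∃ v : HeightOneSpectrum (𝓞 K), v.asIdeal ∣ (I : Ideal (𝓞 K)) := by
  have hI' : (I : Ideal (𝓞 K)) ≠ ⊤ := by
    intro h
    apply hI
    exact Subtype.ext (by simpa [Ideal.one_eq_top] using h)
  obtain ⟨M, hM, hIM⟩ := Ideal.exists_le_maximal _ hI'
  have hM0 : M ≠ ⊥ := by
    rintro rfl
    exact (nonZeroDivisors.coe_ne_zero I) (by simpa using le_bot_iff.mp hIM)
  exact ⟨⟨M, hM.isPrime, hM0⟩, Ideal.dvd_iff_le.mpr hIM⟩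

/-- removing all primes leaves only the unit ideal. -/
theorem zQ_tendsto [DecidableEq G] {s : ℝ} (hsum : Summable (wt (K := K) s)) (j : G) :
    Tendsto (fun Q : Finset (HeightOneSpectrum (𝓞 K)) => zQ φ s Q j) atTop
      (𝓝 (if j = 0 then 1 else 0)) := by
  classical
  have key : Tendsto (fun Q : Finset (HeightOneSpectrum (𝓞 K)) => zQ φ s Q j) atTop
      (𝓝 (∑' I : (Ideal (𝓞 K))⁰, if I = 1 then (if j = 0 then (1 : ℝ) else 0) else 0)) := by
    unfold zQ
    refine tendsto_tsum_of_dominated_convergence hsum (fun I => ?_)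
      (Eventually.of_forall fun Q I => ?_)
    · by_cases hI : I = 1
      · subst hI
        simp only [cls_one, cop_one, and_true, wt_one, if_true]
        have : ((0 : G) = j) = (j = 0) := propext eq_comm
        simp only [this]
        exact tendsto_const_nhds
      · obtain ⟨v, hv⟩ := exists_prime_dvd I hI
        simp only [hI, if_false]
        refine tendsto_const_nhds.congr' ?_
        filter_upwards [eventually_ge_atTop {v}] with Q hQ
        have : ¬ cop Q I := fun h => h v (hQ (Finset.mem_singleton_self v)) hv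
        simp [this]
    · rw [Real.norm_eq_abs]
      split_ifs
      · rw [abs_of_nonneg (wt_nonneg s I)]
      · simp [wt_nonneg s I]
  rw [tsum_ite_eq] at key
  exact key


section MatrixPart

variable [Fintype G] [DecidableEq G]

omit [Field K] [NumberField K] in
theorem circulant_mulVec_locFac (x : G → ℝ) (c : G) (t : ℝ) :
    circulant x *ᵥ locFac c t = fun i => x i - t * x (i - c) := by
  funext i
  simp only [Matrix.mulVec, dotProduct, circulant_apply, locFac, mul_sub, Finset.sum_sub_distrib]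
  congr 1
  · simp
  · simp [mul_comm]

theorem circulant_zQ_insert [DecidableEq (HeightOneSpectrum (𝓞 K))] {s : ℝ}
    (hsum : Summable (wt (K := K) s))
    (Q : Finset (HeightOneSpectrum (𝓞 K))) (v : HeightOneSpectrum (𝓞 K)) (hv : v ∉ Q) :
    circulant (zQ φ s (insert v Q)) =
      circulant (zQ φ s Q) * circulant (locFac (cls φ (pr v)) (wt s (pr v))) := by
  rw [circulant_mul, circulant_mulVec_locFac]
  congr 1
  funext j
  exact zQ_insert φ hsum Q v hv j

theorem det_zQ [DecidableEq (HeightOneSpectrum (𝓞 K))] {s : ℝ} (hsum : Summable (wt (K := K) s))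
    (Q : Finset (HeightOneSpectrum (𝓞 K))) :
    (circulant (zQ φ s Q)).det = (circulant (zQ φ s ∅)).det *
      ∏ v ∈ Q, (circulant (locFac (cls φ (pr v)) (wt s (pr v)))).det := by
  induction Q using Finset.induction_on with
  | empty => simp
  | insert v Q hv ih =>
    rw [circulant_zQ_insert φ hsum Q v hv, det_mul, ih, Finset.prod_insert hv]
    ring

omit [Field K] [NumberField K] in
theorem det_locFac_pos (c : G) {t : ℝ} (h0 : 0 ≤ t) (h1 : t < 1) :
    0 < (circulant (locFac c t)).det := by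
  rw [det_circulant_locFac]
  have : t ^ addOrderOf c < 1 := pow_lt_one₀ h0 h1 (addOrderOf_pos c).ne'
  exact pow_pos (by linarith) _

omit [Field K] [NumberField K] in
theorem det_locFac_le_one (c : G) {t : ℝ} (h0 : 0 ≤ t) (h1 : t < 1) :
    (circulant (locFac c t)).det ≤ 1 := by
  rw [det_circulant_locFac]
  have h2 : 0 ≤ t ^ addOrderOf c := pow_nonneg h0 _
  have : t ^ addOrderOf c < 1 := pow_lt_one₀ h0 h1 (addOrderOf_pos c).ne'
  exact pow_le_one₀ (by linarith) (by linarith)

omit [Field K] [NumberField K] in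
theorem det_locFac_zero (t : ℝ) :
    (circulant (locFac (0 : G) t)).det = (1 - t) ^ Fintype.card G := by
  rw [det_circulant_locFac]
  have h1 : addOrderOf (0 : G) = 1 := addOrderOf_zero
  have h2 : Nat.card (G ⧸ AddSubgroup.zmultiples (0 : G)) = Fintype.card G := by
    have := AddSubgroup.card_eq_card_quotient_mul_card_addSubgroup (AddSubgroup.zmultiples (0 : G))
    rw [Nat.card_zmultiples, h1, mul_one] at this
    rw [← this, Nat.card_eq_fintype_card]
  rw [h1, h2, pow_one]

theorem prod_det_locFac_le {s : ℝ} (hs : 0 < s) (Q : Finset (HeightOneSpectrum (𝓞 K))) :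
    0 < ∏ v ∈ Q, (circulant (locFac (cls φ (pr v)) (wt s (pr v)))).det ∧
    ∏ v ∈ Q, (circulant (locFac (cls φ (pr v)) (wt s (pr v)))).det ≤
      Real.exp (-((Fintype.card G : ℝ) * ∑ v ∈ Q, if cls φ (pr v) = 0 then wt s (pr v) else 0)) := by
  have h0 : ∀ v : HeightOneSpectrum (𝓞 K), 0 ≤ wt s (pr v) := fun v => wt_nonneg s _
  have h1 : ∀ v : HeightOneSpectrum (𝓞 K), wt s (pr v) < 1 := fun v => wt_pr_lt_one hs v
  refine ⟨Finset.prod_pos fun v _ => det_locFac_pos _ (h0 v) (h1 v), ?_⟩
  rw [Finset.mul_sum, ← Finset.sum_neg_distrib, Real.exp_sum]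
  refine Finset.prod_le_prod (fun v _ => (det_locFac_pos _ (h0 v) (h1 v)).le) (fun v _ => ?_)
  by_cases hc : cls φ (pr v) = 0
  · rw [hc, det_locFac_zero, if_pos rfl]
    have h3 : 1 - wt s (pr v) ≤ Real.exp (-wt s (pr v)) := Real.one_sub_le_exp_neg _
    have h4 : (1 - wt s (pr v)) ^ Fintype.card G ≤ Real.exp (-wt s (pr v)) ^ Fintype.card G :=
      pow_le_pow_left₀ (by linarith [h1 v]) h3 _
    refine h4.trans (le_of_eq ?_)
    rw [← Real.exp_nat_mul]
    congr 1
    ring
  · rw [if_neg hc]
    simpa using det_locFac_le_one _ (h0 v) (h1 v)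

theorem pr_injective : Function.Injective (pr (K := K)) := by
  intro v w h
  exact HeightOneSpectrum.ext (congrArg Subtype.val h)

/-- the key lower bound for the group determinant. -/
theorem exp_le_det_zQ {s : ℝ} (hs : 0 < s) (hsum : Summable (wt (K := K) s)) :
    Real.exp ((Fintype.card G : ℝ) *
        ∑' v : HeightOneSpectrum (𝓞 K), if cls φ (pr v) = 0 then wt s (pr v) else 0)
      ≤ (circulant (zQ φ s ∅)).det := by
  classical
  set a : Finset (HeightOneSpectrum (𝓞 K)) → ℝ := fun Q => (circulant (zQ φ s Q)).det with ha_def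
  have ha : Tendsto a atTop (𝓝 1) := by
    have hz : Tendsto (fun Q : Finset (HeightOneSpectrum (𝓞 K)) => zQ φ s Q) atTop
        (𝓝 (locFac (0 : G) 0)) := by
      refine tendsto_pi_nhds.mpr (fun j => ?_)
      have := zQ_tendsto φ hsum j
      simpa [locFac] using this
    have hc : Continuous (fun x : G → ℝ => (circulant x).det) :=
      Continuous.matrix_det (continuous_matrix fun i j => continuous_apply (i - j))
    have h1 := (hc.tendsto (locFac (0 : G) 0)).comp hz
    rw [det_locFac_zero] at h1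
    have h2 : ((1 : ℝ) - 0) ^ Fintype.card G = 1 := by simp
    rw [h2] at h1
    exact h1
  set ind : HeightOneSpectrum (𝓞 K) → ℝ := fun v => if cls φ (pr v) = 0 then wt s (pr v) else 0
    with hind
  have hP : Summable ind := by
    refine Summable.of_nonneg_of_le (fun v => ?_) (fun v => ?_) (hsum.comp_injective pr_injective)
    · simp only [hind]; split_ifs
      · exact wt_nonneg s _
      · exact le_rfl
    · simp only [hind, Function.comp]; split_ifs
      · exact le_rfl
      · exact wt_nonneg s _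
  have hS : Tendsto (fun Q : Finset (HeightOneSpectrum (𝓞 K)) => ∑ v ∈ Q, ind v) atTop
      (𝓝 (∑' v, ind v)) := hP.hasSum
  have hprod := prod_det_locFac_le φ hs
  have hdet := det_zQ φ hsum
  obtain ⟨Q₀, hQ₀⟩ : ∃ Q, 0 < a Q := (ha.eventually (lt_mem_nhds zero_lt_one)).exists
  have ha0 : 0 < a ∅ := by
    have h1 := hdet Q₀
    have h2 := (hprod Q₀).1
    have h3 : 0 < a ∅ * ∏ v ∈ Q₀, (circulant (locFac (cls φ (pr v)) (wt s (pr v)))).det := by
      rw [← h1]; exact hQ₀
    exact (pos_iff_pos_of_mul_pos h3).mpr h2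
  have hle : ∀ Q, a Q ≤ a ∅ * Real.exp (-((Fintype.card G : ℝ) * ∑ v ∈ Q, ind v)) := by
    intro Q
    simp only [ha_def]
    rw [hdet Q]
    exact mul_le_mul_of_nonneg_left (hprod Q).2 ha0.le
  have hlim : Tendsto (fun Q : Finset (HeightOneSpectrum (𝓞 K)) =>
      a ∅ * Real.exp (-((Fintype.card G : ℝ) * ∑ v ∈ Q, ind v))) atTop
      (𝓝 (a ∅ * Real.exp (-((Fintype.card G : ℝ) * ∑' v, ind v)))) := by
    have hcont : Continuous (fun x : ℝ => a ∅ * Real.exp (-((Fintype.card G : ℝ) * x))) := by
      fun_prop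
    exact (hcont.tendsto _).comp hS
  have h1 : 1 ≤ a ∅ * Real.exp (-((Fintype.card G : ℝ) * ∑' v, ind v)) :=
    le_of_tendsto_of_tendsto' ha hlim hle
  rw [Real.exp_neg] at h1
  have h2 := Real.exp_pos ((Fintype.card G : ℝ) * ∑' v, ind v)
  rw [← div_eq_mul_inv, le_div_iff₀ h2, one_mul] at h1
  exact h1

end MatrixPart

section Final

variable [Fintype G] [DecidableEq G]

/-- the partial zeta sum of an ideal class. -/
noncomputable def Zc (s : ℝ) (c : ClassGroup (𝓞 K)) : ℝ :=
  ∑' I : {I : (Ideal (𝓞 K))⁰ // ClassGroup.mk0 I = c},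
    (Ideal.absNorm (I.1 : Ideal (𝓞 K)) : ℝ) ^ (-s)

open Classical in
theorem Zc_eq_tsum_ite (s : ℝ) (c : ClassGroup (𝓞 K)) :
    Zc s c = ∑' I : (Ideal (𝓞 K))⁰, if ClassGroup.mk0 I = c then wt s I else 0 := by
  have h := tsum_subtype {I : (Ideal (𝓞 K))⁰ | ClassGroup.mk0 I = c} (wt (K := K) s)
  have h2 : ∀ I : (Ideal (𝓞 K))⁰,
      Set.indicator {I : (Ideal (𝓞 K))⁰ | ClassGroup.mk0 I = c} (wt (K := K) s) I =
        if ClassGroup.mk0 I = c then wt s I else 0 := by
    intro I
    simp [Set.indicator_apply]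
  rw [← tsum_congr h2, ← h]
  rfl

omit [Fintype G] in
theorem zQ_empty_eq {s : ℝ} (hsum : Summable (wt (K := K) s)) (j : G) :
    zQ φ s ∅ j = ∑ c : ClassGroup (𝓞 K), if Multiplicative.toAdd (φ c) = j then Zc s c else 0 := by
  classical
  have hz : zQ φ s ∅ j = ∑' I : (Ideal (𝓞 K))⁰, ∑ c : ClassGroup (𝓞 K),
      if ClassGroup.mk0 I = c ∧ Multiplicative.toAdd (φ c) = j then wt s I else 0 := by
    unfold zQ
    refine tsum_congr fun I => ?_
    have h1 : cop ∅ I := fun v hv => absurd hv (Finset.notMem_empty v)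
    have h2 : ∀ c : ClassGroup (𝓞 K),
        (if ClassGroup.mk0 I = c ∧ Multiplicative.toAdd (φ c) = j then wt s I else 0) =
          if c = ClassGroup.mk0 I then (if cls φ I = j then wt s I else 0) else 0 := by
      intro c
      by_cases hc : c = ClassGroup.mk0 I
      · subst hc
        by_cases hj : Multiplicative.toAdd (φ (ClassGroup.mk0 I)) = j <;> simp [cls, hj]
      · have : ¬ (ClassGroup.mk0 I = c) := fun h => hc h.symm
        simp [hc, this]
    rw [Finset.sum_congr rfl (fun c _ => h2 c), Finset.sum_ite_eq']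
    simp [h1]
  rw [hz, Summable.tsum_finsetSum (fun c _ => summable_ite_wt hsum _)]
  refine Finset.sum_congr rfl fun c _ => ?_
  by_cases hc : Multiplicative.toAdd (φ c) = j
  · rw [if_pos hc, Zc_eq_tsum_ite]
    refine tsum_congr fun I => ?_
    simp [hc]
  · rw [if_neg hc]
    have : ∀ I : (Ideal (𝓞 K))⁰,
        (if ClassGroup.mk0 I = c ∧ Multiplicative.toAdd (φ c) = j then wt s I else 0) = 0 := by
      intro I; simp [hc]
    rw [tsum_congr this, tsum_zero]

omit [DecidableEq G] in
theorem sum_zQ_empty {s : ℝ} (hsum : Summable (wt (K := K) s)) :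
    ∑ j : G, zQ φ s ∅ j = ∑' I : (Ideal (𝓞 K))⁰, wt s I := by
  classical
  unfold zQ
  rw [← Summable.tsum_finsetSum (fun j _ => summable_ite_wt hsum _)]
  refine tsum_congr fun I => ?_
  have h1 : cop ∅ I := fun v hv => absurd hv (Finset.notMem_empty v)
  simp [h1]

omit [Fintype G] [DecidableEq G] in
theorem zQ_nonneg (s : ℝ) (Q : Finset (HeightOneSpectrum (𝓞 K))) (j : G) : 0 ≤ zQ φ s Q j := by
  unfold zQ
  refine tsum_nonneg fun I => ?_
  split_ifs
  · exact wt_nonneg s I
  · exact le_rfl

theorem summable_wt_of {s : ℝ}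
    (h : Summable fun I : Ideal (𝓞 K) => (Ideal.absNorm I : ℝ) ^ (-s)) :
    Summable (wt (K := K) s) :=
  h.comp_injective Subtype.val_injective

theorem tsum_wt_eq {s : ℝ} (hs : s ≠ 0) :
    ∑' I : (Ideal (𝓞 K))⁰, wt s I = ∑' I : Ideal (𝓞 K), (Ideal.absNorm I : ℝ) ^ (-s) := by
  refine Function.Injective.tsum_eq (f := fun I : Ideal (𝓞 K) => (Ideal.absNorm I : ℝ) ^ (-s))
    Subtype.val_injective ?_
  intro I hI
  have hI0 : I ≠ 0 := by
    rintro rfl
    apply hI
    simp [Real.zero_rpow (neg_ne_zero.mpr hs)]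
  exact ⟨⟨I, mem_nonZeroDivisors_iff_ne_zero.mpr hI0⟩, rfl⟩

omit [Fintype G] in
theorem abs_zQ_empty_sub_le (hφ : Function.Surjective φ) {s : ℝ} (hsum : Summable (wt (K := K) s))
    (B : ℝ) (hB : ∀ c c' : ClassGroup (𝓞 K), |Zc s c - Zc s c'| ≤ B) (j j' : G) :
    |zQ φ s ∅ j - zQ φ s ∅ j'| ≤ (Fintype.card (ClassGroup (𝓞 K)) : ℝ) * B := by
  classical
  obtain ⟨g₀, hg₀⟩ := hφ (Multiplicative.ofAdd (j' - j))
  rw [zQ_empty_eq φ hsum j, zQ_empty_eq φ hsum j']
  have h1 : (∑ c : ClassGroup (𝓞 K), if Multiplicative.toAdd (φ c) = j' then Zc s c else 0) =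
      ∑ c : ClassGroup (𝓞 K), if Multiplicative.toAdd (φ c) = j then Zc s (c * g₀) else 0 := by
    rw [← Fintype.sum_equiv (Equiv.mulRight g₀)
      (fun c => if Multiplicative.toAdd (φ (c * g₀)) = j' then Zc s (c * g₀) else 0)
      (fun c => if Multiplicative.toAdd (φ c) = j' then Zc s c else 0) (fun c => rfl)]
    refine Finset.sum_congr rfl fun c _ => ?_
    have : (Multiplicative.toAdd (φ (c * g₀)) = j') ↔ (Multiplicative.toAdd (φ c) = j) := by
      rw [map_mul, hg₀, toAdd_mul, toAdd_ofAdd]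
      constructor
      · intro h; exact add_right_cancel (b := j' - j) (by rw [h]; abel)
      · intro h; rw [h]; abel
    simp only [this]
  rw [h1, ← Finset.sum_sub_distrib]
  have hB0 : 0 ≤ B := (abs_nonneg _).trans (hB 1 1)
  calc |∑ c : ClassGroup (𝓞 K), ((if Multiplicative.toAdd (φ c) = j then Zc s c else 0) -
          (if Multiplicative.toAdd (φ c) = j then Zc s (c * g₀) else 0))|
      ≤ ∑ c : ClassGroup (𝓞 K), |(if Multiplicative.toAdd (φ c) = j then Zc s c else 0) -
          (if Multiplicative.toAdd (φ c) = j then Zc s (c * g₀) else 0)| :=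
        Finset.abs_sum_le_sum_abs _ _
    _ ≤ ∑ _c : ClassGroup (𝓞 K), B := by
        refine Finset.sum_le_sum fun c _ => ?_
        split_ifs
        · exact hB _ _
        · simpa using hB0
    _ = (Fintype.card (ClassGroup (𝓞 K)) : ℝ) * B := by
        simp [Finset.sum_const, Finset.card_univ]

end Final

end Sieve

section Main

variable {K : Type*} [Field K] [NumberField K]

open NumberField IsDedekindDomain Filter Topology
open scoped nonZeroDivisors

/-- **Weber bound, core form.**  `K` a number field, `φ` a surjective homomorphism from the class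
group onto a finite abelian group `G`.  If the partial zeta sums of any two ideal classes differ
by a bounded amount on `(1,2)` and the full zeta sum is `≤ C/(s-1)`, then the primes whose class
lies in `ker φ` satisfy `|G| * ∑ N v ^ (-s) ≤ log (1/(s-1)) + B` on `(1,2)`. -/
theorem weber_core
    (hsum : ∀ s : ℝ, 1 < s → Summable fun I : Ideal (𝓞 K) => (Ideal.absNorm I : ℝ) ^ (-s))
    (hzeta : ∃ C : ℝ, ∀ s : ℝ, 1 < s → s < 2 →
      ∑' I : Ideal (𝓞 K), (Ideal.absNorm I : ℝ) ^ (-s) ≤ C / (s - 1))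
    (hdiff : ∀ c c' : ClassGroup (𝓞 K), ∃ M : ℝ, ∀ s : ℝ, 1 < s → s < 2 →
      |Zc s c - Zc s c'| ≤ M)
    {G : Type*} [AddCommGroup G] [Finite G] (φ : ClassGroup (𝓞 K) →* Multiplicative G)
    (hφ : Function.Surjective φ) :
    ∃ B : ℝ, ∀ s : ℝ, 1 < s → s < 2 →
      (Nat.card G : ℝ) * NumberField.Set.primeIdealZetaSum
          {v : HeightOneSpectrum (𝓞 K) | φ (ClassGroup.mk0 (pr v)) = 1} s ≤
        Real.log (1 / (s - 1)) + B := by
  classical
  have : Fintype G := Fintype.ofFinite G
  obtain ⟨C, hC⟩ := hzeta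
  choose M hM using hdiff
  set B₀ : ℝ := ∑ c, ∑ c', |M c c'| with hB₀
  set B₁ : ℝ := (Fintype.card (ClassGroup (𝓞 K)) : ℝ) * B₀ with hB₁
  set D : ℝ := ((Fintype.card G).factorial : ℝ) * (max 1 B₁) ^ Fintype.card G with hD
  have hD_pos : 0 < D := by positivity
  set C' : ℝ := max C 1 with hC'
  refine ⟨Real.log (C' * D), fun s hs1 hs2 => ?_⟩
  have hs0 : 0 < s := by linarith
  have hw : Summable (wt (K := K) s) := summable_wt_of (hsum s hs1)
  have hMB : ∀ c c' : ClassGroup (𝓞 K), |Zc s c - Zc s c'| ≤ B₀ := by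
    intro c c'
    refine (hM c c' s hs1 hs2).trans ?_
    calc M c c' ≤ |M c c'| := le_abs_self _
      _ ≤ ∑ c'', |M c c''| :=
          Finset.single_le_sum (f := fun c'' : ClassGroup (𝓞 K) => |M c c''|) (fun _ _ => abs_nonneg _)
            (Finset.mem_univ c')
      _ ≤ B₀ :=
          Finset.single_le_sum (f := fun c : ClassGroup (𝓞 K) => ∑ c', |M c c'|)
            (fun _ _ => Finset.sum_nonneg fun _ _ => abs_nonneg _) (Finset.mem_univ c)
  have h1 := exp_le_det_zQ φ hs0 hw
  have h2 := abs_det_circulant_le (zQ φ s ∅) B₁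
    (fun i j => abs_zQ_empty_sub_le φ hφ hw B₀ hMB i j)
  have hs1' : 0 < s - 1 := by linarith
  have h3 : ∑ j : G, zQ φ s ∅ j ≤ C' / (s - 1) := by
    rw [sum_zQ_empty φ hw, tsum_wt_eq hs0.ne']
    exact (hC s hs1 hs2).trans (div_le_div_of_nonneg_right (le_max_left _ _) hs1'.le)
  have h3' : 0 ≤ ∑ j : G, zQ φ s ∅ j := Finset.sum_nonneg fun j _ => zQ_nonneg φ s ∅ j
  have h4 : Real.exp ((Fintype.card G : ℝ) *
      ∑' v : HeightOneSpectrum (𝓞 K), if cls φ (pr v) = 0 then wt s (pr v) else 0) ≤
        C' / (s - 1) * D := by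
    calc _ ≤ (circulant (zQ φ s ∅)).det := h1
      _ ≤ |(circulant (zQ φ s ∅)).det| := le_abs_self _
      _ ≤ |∑ j, zQ φ s ∅ j| * D := h2
      _ = (∑ j, zQ φ s ∅ j) * D := by rw [abs_of_nonneg h3']
      _ ≤ C' / (s - 1) * D := mul_le_mul_of_nonneg_right h3 hD_pos.le
  have h5 : NumberField.Set.primeIdealZetaSum
      {v : HeightOneSpectrum (𝓞 K) | φ (ClassGroup.mk0 (pr v)) = 1} s =
        ∑' v : HeightOneSpectrum (𝓞 K), if cls φ (pr v) = 0 then wt s (pr v) else 0 := by
    rw [NumberField.Set.primeIdealZetaSum_def,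
      tsum_subtype {v : HeightOneSpectrum (𝓞 K) | φ (ClassGroup.mk0 (pr v)) = 1}
        (fun v => (Ideal.absNorm v.asIdeal : ℝ) ^ (-s))]
    refine tsum_congr fun v => ?_
    by_cases hv : φ (ClassGroup.mk0 (pr v)) = 1
    · have : cls φ (pr v) = 0 := by simp [cls, hv]
      rw [Set.indicator_of_mem (show v ∈ {v : HeightOneSpectrum (𝓞 K) |
        φ (ClassGroup.mk0 (pr v)) = 1} from hv), if_pos this]
      rfl
    · have : ¬ cls φ (pr v) = 0 := by
        intro h; apply hv
        simpa [cls] using h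
      rw [Set.indicator_of_notMem (show v ∉ {v : HeightOneSpectrum (𝓞 K) |
        φ (ClassGroup.mk0 (pr v)) = 1} from hv), if_neg this]
  rw [h5, Nat.card_eq_fintype_card]
  have hC'pos : 0 < C' := lt_of_lt_of_le one_pos (le_max_right _ _)
  have h6 := Real.log_le_log (Real.exp_pos _) h4
  rw [Real.log_exp] at h6
  have h7 : Real.log (C' / (s - 1) * D) = Real.log (1 / (s - 1)) + Real.log (C' * D) := by
    rw [← Real.log_mul (by positivity) (by positivity)]
    congr 1
    field_simp
  linarith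

end Main

end Fermat.Agent.S14.helper1094
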