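import Mathlib
import Fermat.Agent.S14.helper1934_ThaineSpec
import Fermat.Agent.S14.helper1094_Weber

/-!
# S14, Thaine route: `Stmt_Weber` from the partial-zeta core

Owner: helper1094.  Adapter of `helper1094.weber_core` to the interface of
`helper1934_ThaineSpec`: `Stmt_PartialZetaDiff → Stmt_IdealZeta → Stmt_Weber p`.
(`Stmt_EulerIdeals` is not needed.)
-/

set_option autoImplicit false

namespace Fermat.Agent.S14.helper1094

open NumberField IsDedekindDomain

open scoped nonZeroDivisors

/-- a nontrivial homomorphism into a group of prime order is surjective. -/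
theorem surjective_of_ne_one_zmod (p : ℕ) [Fact p.Prime] {H : Type*} [Group H]
    (χ : H →* Multiplicative (ZMod p)) (hχ : χ ≠ 1) : Function.Surjective χ := by
  have hcard : Nat.card (Multiplicative (ZMod p)) = p := by
    rw [Nat.card_eq_fintype_card, Fintype.card_multiplicative, ZMod.card]
  have hp : Fact (Nat.card (Multiplicative (ZMod p))).Prime := ⟨by rw [hcard]; exact Fact.out⟩
  rcases Subgroup.eq_bot_or_eq_top_of_prime_card (χ.range) with h | h
  · exfalso
    apply hχ
    ext x
    have : χ x ∈ χ.range := ⟨x, rfl⟩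
    rw [h, Subgroup.mem_bot] at this
    simpa using congrArg Multiplicative.toAdd this
  · exact MonoidHom.range_eq_top.mp h

/-- **Weber bound** in the interface of the Thaine-route specification. -/
theorem stmt_weber_of_partialZetaDiff (p : ℕ) [Fact p.Prime]
    (hPZ : helper1934.Stmt_PartialZetaDiff) (hIZ : helper1934.Stmt_IdealZeta) :
    helper1934.Stmt_Weber p := by
  intro K _ _ χ hχ
  obtain ⟨hsum, C, _, hC⟩ := hIZ K
  have hsurj : Function.Surjective χ := surjective_of_ne_one_zmod p χ hχ
  obtain ⟨B, hB⟩ := weber_core hsum ⟨C, fun s h1 h2 => (hC s h1 h2).2⟩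
    (fun c c' => hPZ K c c') χ hsurj
  refine ⟨B, fun s h1 h2 => ?_⟩
  have h := hB s h1 h2
  have hcard : Nat.card (ZMod p) = p := by
    rw [Nat.card_eq_fintype_card, ZMod.card]
  rw [hcard] at h
  exact h

end Fermat.Agent.S14.helper1094
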