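import Mathlib
import Fermat.Agent.S14.helper1934_ThaineSpec
import Fermat.Agent.Lib.helper1121_ZetaIdealSum

/-!
# S14 (Thaine route): `helper1934.Stmt_IdealZeta` in the exact Spec shape

`stmt_IdealZeta : helper1934.Stmt_IdealZeta` — summability of `∑_I N(I)^(-s)` over *all* ideals
of `𝓞 K` (the zero ideal contributes `0`) and two-sided bounds `C⁻¹/(s-1) ≤ ∑ ≤ C/(s-1)` on `(1,2)`.
Adapter from `Fermat.Agent.Lib.helper1121` (sums over `(Ideal (𝓞 K))⁰`).
-/

set_option autoImplicit false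

namespace Fermat.Agent.S14.helper1121

open NumberField Ideal
open scoped nonZeroDivisors

variable (K : Type) [Field K] [NumberField K]

/-- Terms of the zeta series vanish outside the nonzero ideals. -/
theorem term_eq_zero_of_not_mem_range {s : ℝ} (hs : s ≠ 0) (I : Ideal (𝓞 K))
    (hI : I ∉ Set.range (Subtype.val : (Ideal (𝓞 K))⁰ → Ideal (𝓞 K))) :
    (absNorm I : ℝ) ^ (-s) = 0 := by
  have h0 : I = ⊥ := by
    by_contra h
    exact hI ⟨⟨I, mem_nonZeroDivisors_iff_ne_zero.mpr h⟩, rfl⟩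
  subst h0
  rw [Ideal.absNorm_bot, Nat.cast_zero, Real.zero_rpow (neg_ne_zero.mpr hs)]

/-- Summability over all ideals. -/
theorem summable_allIdeal_rpow {s : ℝ} (hs : 1 < s) :
    Summable fun I : Ideal (𝓞 K) => (absNorm I : ℝ) ^ (-s) := by
  have h := Fermat.Agent.Lib.helper1121.summable_ideal_rpow K hs
  exact (Function.Injective.summable_iff Subtype.val_injective
    (fun I hI => term_eq_zero_of_not_mem_range K (by linarith) I hI)).mp h

/-- The sum over all ideals equals the sum over the nonzero ideals. -/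
theorem tsum_allIdeal_rpow {s : ℝ} (hs : s ≠ 0) :
    ∑' I : Ideal (𝓞 K), (absNorm I : ℝ) ^ (-s)
      = ∑' I : (Ideal (𝓞 K))⁰, (absNorm (I : Ideal (𝓞 K)) : ℝ) ^ (-s) := by
  refine (Function.Injective.tsum_eq Subtype.val_injective ?_).symm
  intro I hI
  by_contra h
  exact hI (term_eq_zero_of_not_mem_range K hs I h)

/-- `helper1934.Stmt_IdealZeta`, exact Spec shape. -/
theorem stmt_IdealZeta : Fermat.Agent.S14.helper1934.Stmt_IdealZeta := by
  intro K _ _
  refine ⟨fun s hs => summable_allIdeal_rpow K hs, ?_⟩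
  obtain ⟨A, hA⟩ := Fermat.Agent.Lib.helper1121.exists_zeta_upper K
  obtain ⟨c, hc, hc'⟩ := Fermat.Agent.Lib.helper1121.exists_zeta_lower K
  refine ⟨max A c⁻¹, lt_of_lt_of_le (inv_pos.mpr hc) (le_max_right _ _), fun s hs hs2 => ?_⟩
  have hs1 : 0 < s - 1 := by linarith
  rw [tsum_allIdeal_rpow K (by linarith : s ≠ 0)]
  have hC : 0 < max A c⁻¹ := lt_of_lt_of_le (inv_pos.mpr hc) (le_max_right _ _)
  constructor
  · rw [div_le_iff₀ hs1, mul_comm]
    refine le_trans ?_ (hc' s hs hs2.le)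
    rw [inv_le_comm₀ hC hc]
    exact le_max_right _ _
  · rw [le_div_iff₀ hs1, mul_comm]
    exact le_trans (hA s hs hs2.le) (le_max_left _ _)

end Fermat.Agent.S14.helper1121
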