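import Mathlib

set_option autoImplicit false

/-!
# S14, Thaine route, item (C): the class part  (helper1122)

* `exists_nsmul_eq_of_forall_addMonoidHom_eq_zero` : an element of an abelian group killed by every
  additive functional to `ZMod p` is a multiple of `p`.
* `eigen_torsion_eq_zero` (C0) : abstract core.  If every `ψ`-eigen additive functional
  `A →+ ZMod p` vanishes, then every `ψ`-eigen `p`-torsion element of the finite group `A` vanishes.
-/

namespace Fermat.Agent.S14.helper1122

open Finset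

/-- A vector of an `𝔽_p`-vector space killed by all additive functionals is zero. -/
theorem eq_zero_of_forall_addMonoidHom_zmod_eq_zero {p : ℕ} [Fact p.Prime] {V : Type*}
    [AddCommGroup V] [Module (ZMod p) V] (v : V) (h : ∀ φ : V →+ ZMod p, φ v = 0) : v = 0 :=
  (Module.forall_dual_apply_eq_zero_iff (ZMod p) v).mp fun f => h f.toAddMonoidHom

/-- In an abelian group, an element killed by all additive maps to `ZMod p` is divisible by `p`. -/
theorem exists_nsmul_eq_of_forall_addMonoidHom_eq_zero {A : Type*} [AddCommGroup A]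
    (p : ℕ) [Fact p.Prime] (z : A) (h : ∀ φ : A →+ ZMod p, φ z = 0) :
    ∃ y : A, z = p • y := by
  classical
  let H : AddSubgroup A := (nsmulAddMonoidHom (α := A) p).range
  let inst : Module (ZMod p) (A ⧸ H) := AddCommGroup.zmodModule (n := p) (G := A ⧸ H) (by
    intro x
    induction x using QuotientAddGroup.induction_on with
    | H a =>
      rw [← QuotientAddGroup.mk_nsmul, QuotientAddGroup.eq_zero_iff]
      exact ⟨a, rfl⟩)
  have key : (QuotientAddGroup.mk' H z : A ⧸ H) = 0 :=
    @eq_zero_of_forall_addMonoidHom_zmod_eq_zero p _ (A ⧸ H) _ inst _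
      (fun φ => h (φ.comp (QuotientAddGroup.mk' H)))
  rw [QuotientAddGroup.mk'_apply, QuotientAddGroup.eq_zero_iff] at key
  obtain ⟨y, hy⟩ := key
  exact ⟨y, hy.symm⟩

/-- `n • x` only depends on `n` modulo `p` when `p • x = 0`. -/
theorem nsmul_eq_nsmul_of_natCast_zmod_eq {A : Type*} [AddCommGroup A] {p : ℕ} {x : A}
    (hpx : p • x = 0) {m n : ℕ} (h : (m : ZMod p) = (n : ZMod p)) : m • x = n • x :=
  nsmul_eq_nsmul_of_modEq ((ZMod.natCast_eq_natCast_iff _ _ _).mp h) hpx

/-- **(C0) abstract core of the class part.**  `A` a finite abelian group with an action `s` of a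
finite group `G` of order prime to `p`, `ψ` a character of `G` with values in `(ZMod p)ˣ`.
If every `ψ`-eigen additive functional `A →+ ZMod p` is zero, then every `ψ`-eigen element of `A`
killed by `p` is zero. -/
theorem eigen_torsion_eq_zero {A : Type*} [AddCommGroup A] [Finite A] {G : Type*} [Group G]
    [Fintype G] (p : ℕ) [Fact p.Prime] (hG : ¬ p ∣ Fintype.card G)
    (s : G →* AddMonoid.End A) (ψ : G →* (ZMod p)ˣ)
    (H : ∀ χ : A →+ ZMod p, (∀ g x, χ (s g x) = (ψ g : ZMod p) * χ x) → χ = 0)
    (x : A) (hpx : p • x = 0) (hx : ∀ g, s g x = ((ψ g : ZMod p).val) • x) : x = 0 := by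
  classical
  have hp : p.Prime := Fact.out
  -- the averaging operator
  let T : A →+ A := ∑ g : G, (((ψ g)⁻¹ : (ZMod p)ˣ) : ZMod p).val • (s g : A →+ A)
  have hT : ∀ y, T y = ∑ g : G, (((ψ g)⁻¹ : (ZMod p)ˣ) : ZMod p).val • s g y := by
    intro y
    simp only [T, AddMonoidHom.finsetSum_apply]
    rfl
  -- Step 1: every functional kills the image of `T`
  have h1 : ∀ (φ : A →+ ZMod p) (y : A), φ (T y) = 0 := by
    intro φ y
    have hχ : φ.comp T = 0 := by
      apply H
      intro h y
      simp only [AddMonoidHom.comp_apply, hT, map_sum, map_nsmul, nsmul_eq_mul,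
        ZMod.natCast_val, ZMod.cast_id', id_eq, Finset.mul_sum]
      refine Fintype.sum_equiv (Equiv.mulRight h) _ _ (fun g => ?_)
      have e1 : s (g * h) y = s g (s h y) := by
        rw [map_mul]; rfl
      rw [Equiv.coe_mulRight, e1, map_mul, mul_inv_rev, Units.val_mul, ← mul_assoc, ← mul_assoc,
        ← Units.val_mul, mul_inv_cancel, Units.val_one, one_mul]
    have := DFunLike.congr_fun hχ y
    simpa using this
  -- Step 2: the image of `T` is divisible by `p`
  have h2 : ∀ y, ∃ w, T y = p • w := fun y =>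
    exists_nsmul_eq_of_forall_addMonoidHom_eq_zero p (T y) (fun φ => h1 φ y)
  -- Step 4: `T x = |G| • x`
  have h4 : T x = Fintype.card G • x := by
    rw [hT]
    have : ∀ g : G, (((ψ g)⁻¹ : (ZMod p)ˣ) : ZMod p).val • s g x = x := by
      intro g
      rw [hx g, ← mul_nsmul']
      conv_rhs => rw [← one_nsmul x]
      apply nsmul_eq_nsmul_of_natCast_zmod_eq hpx
      rw [Nat.cast_mul, ZMod.natCast_val, ZMod.natCast_val, ZMod.cast_id']
      simp only [id_eq]
      rw [Nat.cast_one, ← Units.val_mul, inv_mul_cancel, Units.val_one]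
    simp only [this, Finset.sum_const, Finset.card_univ]
  -- Step 5: an inverse of `|G|` modulo `p`
  obtain ⟨m, hm⟩ : ∃ m : ℕ, ((m * Fintype.card G : ℕ) : ZMod p) = 1 := by
    have hne : (Fintype.card G : ZMod p) ≠ 0 := by
      rwa [Ne, ZMod.natCast_eq_zero_iff]
    refine ⟨((Fintype.card G : ZMod p)⁻¹).val, ?_⟩
    rw [Nat.cast_mul, ZMod.natCast_val, ZMod.cast_id', id_eq, inv_mul_cancel₀ hne]
  have h5 : m • T x = x := by
    rw [h4, ← mul_nsmul']
    conv_rhs => rw [← one_nsmul x]
    apply nsmul_eq_nsmul_of_natCast_zmod_eq hpx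
    rw [hm]; simp
  -- Step 6: `x` is infinitely `p`-divisible
  have h6 : ∀ k : ℕ, ∃ w, x = p ^ k • w := by
    intro k
    induction k with
    | zero => exact ⟨x, by simp⟩
    | succ k ih =>
      obtain ⟨w, hw⟩ := ih
      obtain ⟨w', hw'⟩ := h2 w
      refine ⟨m • w', ?_⟩
      conv_lhs => rw [← h5, hw, map_nsmul, hw']
      rw [pow_succ, mul_nsmul', smul_comm m (p ^ k), smul_comm m p]
  -- Step 7: conclude by finiteness
  have hcard : Nat.card A ≠ 0 := Nat.card_pos.ne'
  obtain ⟨e, n', hn', hcn⟩ := Nat.exists_eq_pow_mul_and_not_dvd hcard p hp.ne_one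
  obtain ⟨w, hw⟩ := h6 e
  have hn'x : n' • x = 0 := by
    rw [hw, ← mul_nsmul', mul_comm, ← hcn]
    exact card_nsmul_eq_zero'
  have hd1 : addOrderOf x ∣ p := addOrderOf_dvd_of_nsmul_eq_zero hpx
  have hd2 : addOrderOf x ∣ n' := addOrderOf_dvd_of_nsmul_eq_zero hn'x
  have hcop : Nat.Coprime p n' := (Nat.Prime.coprime_iff_not_dvd hp).mpr hn'
  have : addOrderOf x = 1 := Nat.eq_one_of_dvd_coprimes hcop hd1 hd2
  exact AddMonoid.addOrderOf_eq_one_iff.mp this

end Fermat.Agent.S14.helper1122
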