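import Mathlib
import Fermat.Agent.S14.helper1934_ThaineSpec
import Fermat.Agent.S14.helper1122_ClassPart

set_option autoImplicit false

/-!
# S14, Thaine route, glue item (C): `Stmt_NoChar p → Stmt_NoClass p`  (helper1122)

Adapter from the abstract core `eigen_torsion_eq_zero` (file `helper1122_ClassPart`) to the exact
shapes of `helper1934_ThaineSpec`.
-/

namespace Fermat.Agent.S14.helper1122

open NumberField

/-- Ring automorphisms as `ℤ`-algebra automorphisms, as a monoid hom. -/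
def ringAutToIntAlgAut (R : Type*) [Ring R] : (R ≃+* R) →* (R ≃ₐ[ℤ] R) where
  toFun g := g.toIntAlgEquiv
  map_one' := by ext x; rfl
  map_mul' g h := by ext x; rfl

/-- The mod `p` cyclotomic character on the ring automorphisms of a domain, relative to a
primitive root `ζ`. -/
noncomputable def cycChar {R : Type*} [CommRing R] [IsDomain R] {p : ℕ} [NeZero p] {ζ : R}
    (hζ : IsPrimitiveRoot ζ p) : (R ≃+* R) →* (ZMod p)ˣ :=
  (hζ.autToPow ℤ).comp (ringAutToIntAlgAut R)

theorem cycChar_spec {R : Type*} [CommRing R] [IsDomain R] {p : ℕ} [NeZero p] {ζ : R}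
    (hζ : IsPrimitiveRoot ζ p) (g : R ≃+* R) :
    ζ ^ ((cycChar hζ g : (ZMod p)ˣ) : ZMod p).val = g ζ :=
  hζ.autToPow_spec ℤ g.toIntAlgEquiv

theorem cycChar_eq_of_apply_eq_pow {R : Type*} [CommRing R] [IsDomain R] {p : ℕ} [NeZero p]
    {ζ : R} (hζ : IsPrimitiveRoot ζ p) (g : R ≃+* R) (a : ℕ) (hg : g ζ = ζ ^ a) :
    ((cycChar hζ g : (ZMod p)ˣ) : ZMod p) = (a : ZMod p) := by
  have hp : 0 < p := Nat.pos_of_ne_zero (NeZero.ne p)
  have hmod : ζ ^ a = ζ ^ (a % p) := by
    conv_lhs => rw [← Nat.div_add_mod a p, pow_add, pow_mul, hζ.pow_eq_one, one_pow, one_mul]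
  have h1 : ζ ^ ((cycChar hζ g : (ZMod p)ˣ) : ZMod p).val = ζ ^ (a % p) := by
    rw [cycChar_spec, hg, hmod]
  have h2 : ((cycChar hζ g : (ZMod p)ˣ) : ZMod p).val = a % p :=
    hζ.pow_inj (ZMod.val_lt _) (Nat.mod_lt _ hp) h1
  rw [← ZMod.natCast_mod a p, ← h2, ZMod.natCast_zmod_val]

/-- In the ring of integers of the `p`-th cyclotomic field, a ring automorphism is determined by
its value on a primitive `p`-th root of unity. -/
theorem ringAut_ext_of_apply_zeta {p : ℕ} [Fact p.Prime] {K : Type} [Field K] [NumberField K]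
    [IsCyclotomicExtension {p} ℚ K] {ζ : 𝓞 K} (hζ : IsPrimitiveRoot ζ p)
    (g g' : 𝓞 K ≃+* 𝓞 K) (h : g ζ = g' ζ) : g = g' := by
  have : NeZero p := ⟨(Fact.out : p.Prime).ne_zero⟩
  have hζK : IsPrimitiveRoot (ζ : K) p :=
    hζ.map_of_injective (f := algebraMap (𝓞 K) K) RingOfIntegers.coe_injective
  have hgen : hζK.integralPowerBasis.gen = ζ := by
    rw [IsPrimitiveRoot.integralPowerBasis_gen]
    rfl
  have key : (g.toIntAlgEquiv : 𝓞 K →ₐ[ℤ] 𝓞 K) = (g'.toIntAlgEquiv : 𝓞 K →ₐ[ℤ] 𝓞 K) := by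
    apply hζK.integralPowerBasis.algHom_ext
    rw [hgen]
    exact h
  ext x
  have := DFunLike.congr_fun key x
  exact congrArg _ this

theorem cycChar_injective {p : ℕ} [Fact p.Prime] [NeZero p] {K : Type} [Field K] [NumberField K]
    [IsCyclotomicExtension {p} ℚ K] {ζ : 𝓞 K} (hζ : IsPrimitiveRoot ζ p) :
    Function.Injective (cycChar hζ) := by
  intro g g' hgg
  apply ringAut_ext_of_apply_zeta hζ
  rw [← cycChar_spec hζ g, ← cycChar_spec hζ g', hgg]

/-- **Glue (C) of the Thaine route**: no nontrivial `ω²`-character of the class group implies no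
nontrivial `p`-torsion class in the `ω²`-part. -/
theorem stmt_NoClass_of_NoChar (p : ℕ) [Fact p.Prime] (h : helper1934.Stmt_NoChar p) :
    helper1934.Stmt_NoClass p := by
  intro K _ _ _ ζ hζ h5 c hcp hc
  classical
  have hp : p.Prime := Fact.out
  have : NeZero p := ⟨hp.ne_zero⟩
  let G := 𝓞 K ≃+* 𝓞 K
  let χ : G →* (ZMod p)ˣ := cycChar hζ
  have hinj : Function.Injective χ := cycChar_injective hζ
  have : Finite G := Finite.of_injective χ hinj
  let _ : Fintype G := Fintype.ofFinite G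
  have hcard : ¬ p ∣ Fintype.card G := by
    intro hdvd
    have h1 : Nat.card G ∣ Nat.card (ZMod p)ˣ := Subgroup.card_dvd_of_injective χ hinj
    rw [Nat.card_eq_fintype_card, Nat.card_eq_fintype_card, ZMod.card_units_eq_totient,
      Nat.totient_prime hp] at h1
    have h2 : p ∣ p - 1 := hdvd.trans h1
    have h3 : p ≤ p - 1 := Nat.le_of_dvd (Nat.sub_pos_of_lt hp.one_lt) h2
    have := hp.one_lt
    omega
  -- the action on the additive class group
  let s : G →* AddMonoid.End (Additive (ClassGroup (𝓞 K))) :=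
    { toFun := fun g => MonoidHom.toAdditive (ClassGroup.mulEquiv g).toMonoidHom
      map_one' := by
        ext x
        exact congrArg Additive.ofMul (ClassGroup.mulEquiv_refl_apply (Additive.toMul x))
      map_mul' := fun g g' => by
        ext x
        exact congrArg Additive.ofMul
          (ClassGroup.mulEquiv_trans_apply g' g (Additive.toMul x)) }
  have hs : ∀ (g : G) (d : ClassGroup (𝓞 K)),
      s g (Additive.ofMul d) = Additive.ofMul (ClassGroup.mulEquiv g d) := fun g d => rfl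
  let ψ : G →* (ZMod p)ˣ := (powMonoidHom 2).comp χ
  have hψ : ∀ g : G, ((ψ g : (ZMod p)ˣ) : ZMod p) = ((χ g : (ZMod p)ˣ) : ZMod p) ^ 2 := by
    intro g
    simp [ψ]
  have hψa : ∀ (g : G) (a : ℕ), g ζ = ζ ^ a → ((ψ g : (ZMod p)ˣ) : ZMod p) = (a : ZMod p) ^ 2 := by
    intro g a hg
    rw [hψ g, cycChar_eq_of_apply_eq_pow hζ g a hg]
  -- the hypothesis of the abstract core
  have H : ∀ χ' : Additive (ClassGroup (𝓞 K)) →+ ZMod p,
      (∀ g x, χ' (s g x) = (ψ g : ZMod p) * χ' x) → χ' = 0 := by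
    intro χ' hχ'
    have hΧ : helper1934.IsOmegaTwoChar p ζ (AddMonoidHom.toMultiplicativeRight χ') := by
      intro g a hg d
      have e1 := hχ' g (Additive.ofMul d)
      rw [hs, hψa g a hg] at e1
      change Multiplicative.ofAdd (χ' (Additive.ofMul (ClassGroup.mulEquiv g d))) =
        Multiplicative.ofAdd (χ' (Additive.ofMul d)) ^ (a ^ 2)
      rw [e1, ← ofAdd_nsmul, nsmul_eq_mul, Nat.cast_pow]
    have h1 := h K ζ hζ h5 _ hΧ
    ext x
    have h2 := DFunLike.congr_fun h1 (Additive.toMul x)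
    exact congrArg Multiplicative.toAdd h2
  have hpx : p • (Additive.ofMul c) = 0 := by
    rw [← ofMul_pow, hcp, ofMul_one]
  have hx : ∀ g : G, s g (Additive.ofMul c) = ((ψ g : ZMod p).val) • (Additive.ofMul c) := by
    intro g
    have hg : g ζ = ζ ^ ((χ g : (ZMod p)ˣ) : ZMod p).val := (cycChar_spec hζ g).symm
    rw [hs, hc g _ hg, ofMul_pow]
    apply nsmul_eq_nsmul_of_natCast_zmod_eq hpx
    rw [Nat.cast_pow, ZMod.natCast_zmod_val, ZMod.natCast_zmod_val, hψ g]
  have hfin := eigen_torsion_eq_zero p hcard s ψ H (Additive.ofMul c) hpx hx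
  exact hfin

end Fermat.Agent.S14.helper1122
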