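import Mathlib

/-!
# S14, Thaine route: the "Weber bound" (W1) in its `2`-form, without characters

For a number field `K`, a group hom `χ : ClassGroup (𝓞 K) →* G` and `c₀ ≠ 1` in `G`, we show:
if the coset partial zeta functions `Z_c(s) = ∑_{χ(I) = c} N(I)^(-s)` have bounded differences
on `(1, 2]` and the prime sums satisfy `∑_{v ∈ T} N(v)^(-s) ≤ log (1/(s-1)) + B`, then the primes
with `χ(v) = 1` satisfy `2 * ∑_{v ∈ T} N(v)^(-s) ≤ log (1/(s-1)) + B'`.

The proof is a prime-removal induction (inclusion–exclusion); no complex numbers, no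
`L`-functions, no Euler products.
-/

set_option autoImplicit false

open NumberField IsDedekindDomain
open scoped nonZeroDivisors

namespace Fermat.Agent.S14.helper1331

variable {K : Type*} [Field K] [NumberField K]

/-- The nonzero ideal attached to a finite prime. -/
def primeIdeal (v : HeightOneSpectrum (𝓞 K)) : (Ideal (𝓞 K))⁰ :=
  ⟨v.asIdeal, mem_nonZeroDivisors_iff_ne_zero.mpr v.ne_bot⟩

omit [NumberField K] in
@[simp] theorem coe_primeIdeal (v : HeightOneSpectrum (𝓞 K)) :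
    ((primeIdeal v : (Ideal (𝓞 K))⁰) : Ideal (𝓞 K)) = v.asIdeal := rfl

/-- The term `N(I)^(-s)`. -/
noncomputable def nrm (s : ℝ) (I : (Ideal (𝓞 K))⁰) : ℝ :=
  (Ideal.absNorm (I : Ideal (𝓞 K)) : ℝ) ^ (-s)

theorem nrm_nonneg (s : ℝ) (I : (Ideal (𝓞 K))⁰) : 0 ≤ nrm s I :=
  Real.rpow_nonneg (Nat.cast_nonneg _) _

theorem nrm_mul (s : ℝ) (I J : (Ideal (𝓞 K))⁰) : nrm s (I * J) = nrm s I * nrm s J := by
  unfold nrm
  rw [Submonoid.coe_mul, map_mul, Nat.cast_mul,
    Real.mul_rpow (Nat.cast_nonneg _) (Nat.cast_nonneg _)]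

/-- The set of ideals in the fibre `c` of `χ` that are prime to `D`. -/
def good {G : Type*} [CommGroup G] (χ : ClassGroup (𝓞 K) →* G)
    (D : Finset (HeightOneSpectrum (𝓞 K))) (c : G) : Set ((Ideal (𝓞 K))⁰) :=
  {I | χ (ClassGroup.mk0 I) = c ∧ ∀ v ∈ D, ¬ v.asIdeal ∣ (I : Ideal (𝓞 K))}

/-- The restricted coset partial zeta function. -/
noncomputable def Zfun {G : Type*} [CommGroup G] (χ : ClassGroup (𝓞 K) →* G)
    (D : Finset (HeightOneSpectrum (𝓞 K))) (c : G) (s : ℝ) : ℝ :=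
  ∑' I : (Ideal (𝓞 K))⁰, (good χ D c).indicator (nrm s) I

section basic

variable {G : Type*} [CommGroup G] (χ : ClassGroup (𝓞 K) →* G)

theorem summable_indicator {s : ℝ} (hs : Summable (nrm (K := K) s))
    (A : Set ((Ideal (𝓞 K))⁰)) : Summable (A.indicator (nrm s)) :=
  hs.indicator A

theorem Zfun_nonneg (D : Finset (HeightOneSpectrum (𝓞 K))) (c : G) (s : ℝ) :
    0 ≤ Zfun χ D c s :=
  tsum_nonneg fun I => Set.indicator_nonneg (fun J _ => nrm_nonneg s J) I

theorem dvd_primeIdeal_mul {v w : HeightOneSpectrum (𝓞 K)} (hwv : w ≠ v)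
    (J : Ideal (𝓞 K)) : w.asIdeal ∣ v.asIdeal * J ↔ w.asIdeal ∣ J := by
  constructor
  · intro h
    rcases (w.prime.dvd_or_dvd h) with h1 | h1
    · exfalso
      apply hwv
      have hle : v.asIdeal ≤ w.asIdeal := Ideal.dvd_iff_le.mp h1
      have hmax : v.asIdeal.IsMaximal := v.isMaximal
      have hne : w.asIdeal ≠ ⊤ := w.isPrime.ne_top
      exact HeightOneSpectrum.ext (hmax.eq_of_le hne hle).symm
    · exact h1
  · intro h
    exact Dvd.dvd.mul_left h _

/-- Removal identity. -/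
theorem Zfun_insert [DecidableEq (HeightOneSpectrum (𝓞 K))] {s : ℝ}
    (hs : Summable (nrm (K := K) s))
    (D : Finset (HeightOneSpectrum (𝓞 K))) (v : HeightOneSpectrum (𝓞 K)) (hv : v ∉ D)
    (c : G) :
    Zfun χ (insert v D) c s
      = Zfun χ D c s - nrm s (primeIdeal v) * Zfun χ D (c / χ (ClassGroup.mk0 (primeIdeal v))) s := by
  set c' := c / χ (ClassGroup.mk0 (primeIdeal v)) with hc'
  set g : (Ideal (𝓞 K))⁰ → (Ideal (𝓞 K))⁰ := fun J => primeIdeal v * J with hg
  have hginj : Function.Injective g := by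
    intro J₁ J₂ h
    exact mul_left_cancel h
  -- the set of ideals in `good D c` divisible by `v` is the image of `good D c'` under `g`
  have himage : good χ D c \ good χ (insert v D) c = g '' good χ D c' := by
    ext I
    constructor
    · rintro ⟨⟨hI1, hI2⟩, hI3⟩
      have hdvd : v.asIdeal ∣ (I : Ideal (𝓞 K)) := by
        by_contra hnd
        apply hI3
        refine ⟨hI1, ?_⟩
        intro w hw
        rcases Finset.mem_insert.mp hw with rfl | hw
        · exact hnd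
        · exact hI2 w hw
      obtain ⟨J, hJ⟩ := hdvd
      have hJ0 : J ≠ ⊥ := by
        rintro rfl
        have : (I : Ideal (𝓞 K)) ≠ 0 := nonZeroDivisors.coe_ne_zero I
        apply this
        rw [hJ]
        simp
      let J' : (Ideal (𝓞 K))⁰ := ⟨J, mem_nonZeroDivisors_iff_ne_zero.mpr hJ0⟩
      have hIJ : I = g J' := by
        apply Subtype.ext
        rw [hg]
        simp only [Submonoid.coe_mul, coe_primeIdeal]
        exact hJ
      refine ⟨J', ⟨?_, ?_⟩, hIJ.symm⟩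
      · rw [hc', ← hI1, hIJ, hg]
        simp only [map_mul]
        rw [mul_div_cancel_left]
      · intro w hw hwJ
        apply hI2 w hw
        rw [hJ]
        exact Dvd.dvd.mul_left hwJ _
    · rintro ⟨J, ⟨hJ1, hJ2⟩, rfl⟩
      refine ⟨⟨?_, ?_⟩, ?_⟩
      · rw [hg]
        simp only [map_mul]
        rw [hJ1, hc']
        exact mul_div_cancel _ _
      · intro w hw
        have hwv : w ≠ v := fun h => hv (h ▸ hw)
        rw [hg]
        simp only [Submonoid.coe_mul, coe_primeIdeal]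
        rw [dvd_primeIdeal_mul hwv]
        exact hJ2 w hw
      · rintro ⟨_, h2⟩
        apply h2 v (Finset.mem_insert_self v D)
        rw [hg]
        simp only [Submonoid.coe_mul, coe_primeIdeal]
        exact dvd_mul_right _ _
  have hsub : good χ (insert v D) c ⊆ good χ D c := by
    rintro I ⟨h1, h2⟩
    exact ⟨h1, fun w hw => h2 w (Finset.mem_insert_of_mem hw)⟩
  -- split the sum
  have hsplit : ∀ I, (good χ D c).indicator (nrm s) I
      = (good χ (insert v D) c).indicator (nrm s) I + (g '' good χ D c').indicator (nrm s) I := by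
    intro I
    rw [← himage]
    by_cases h1 : I ∈ good χ (insert v D) c
    · have h2 : I ∈ good χ D c := hsub h1
      have h3 : I ∉ good χ D c \ good χ (insert v D) c := fun h => h.2 h1
      simp [h1, h2, h3]
    · by_cases h2 : I ∈ good χ D c
      · have h3 : I ∈ good χ D c \ good χ (insert v D) c := ⟨h2, h1⟩
        simp [h1, h2, h3]
      · have h3 : I ∉ good χ D c \ good χ (insert v D) c := fun h => h2 h.1
        simp [h1, h2, h3]
  have h1 : Zfun χ D c s = Zfun χ (insert v D) c s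
      + ∑' I : (Ideal (𝓞 K))⁰, (g '' good χ D c').indicator (nrm s) I := by
    unfold Zfun
    rw [← Summable.tsum_add (summable_indicator hs _) (summable_indicator hs _)]
    exact tsum_congr hsplit
  have h2 : ∑' I : (Ideal (𝓞 K))⁰, (g '' good χ D c').indicator (nrm s) I
      = nrm s (primeIdeal v) * Zfun χ D c' s := by
    have hsupp : Function.support ((g '' good χ D c').indicator (nrm s)) ⊆ Set.range g := by
      intro I hI
      have : I ∈ g '' good χ D c' := by
        by_contra h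
        exact hI (Set.indicator_of_notMem h _)
      exact Set.image_subset_range _ _ this
    rw [← hginj.tsum_eq hsupp]
    unfold Zfun
    rw [← tsum_mul_left]
    apply tsum_congr
    intro J
    by_cases hJ : J ∈ good χ D c'
    · have : g J ∈ g '' good χ D c' := Set.mem_image_of_mem g hJ
      rw [Set.indicator_of_mem this, Set.indicator_of_mem hJ, hg]
      exact nrm_mul s _ _
    · have : g J ∉ g '' good χ D c' := by
        rintro ⟨J', hJ', h⟩
        exact hJ (hginj h ▸ hJ')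
      rw [Set.indicator_of_notMem this, Set.indicator_of_notMem hJ, mul_zero]
  rw [h1, h2]
  ring

/-- Differences of the restricted coset partial zeta functions. -/
theorem abs_Zfun_sub_le {s : ℝ} (hs : Summable (nrm (K := K) s)) (B : ℝ)
    (hB : ∀ c c' : G, |Zfun χ ∅ c s - Zfun χ ∅ c' s| ≤ B)
    (D : Finset (HeightOneSpectrum (𝓞 K))) :
    ∀ c c' : G, |Zfun χ D c s - Zfun χ D c' s| ≤ B * ∏ v ∈ D, (1 + nrm s (primeIdeal v)) := by
  classical
  induction D using Finset.induction_on with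
  | empty => simpa using hB
  | insert v D hv ih =>
    intro c c'
    rw [Zfun_insert χ hs D v hv, Zfun_insert χ hs D v hv, Finset.prod_insert hv]
    have h1 := ih c c'
    have h2 := ih (c / χ (ClassGroup.mk0 (primeIdeal v))) (c' / χ (ClassGroup.mk0 (primeIdeal v)))
    have ht : 0 ≤ nrm s (primeIdeal v) := nrm_nonneg s _
    set t := nrm s (primeIdeal v)
    set P := ∏ v ∈ D, (1 + nrm s (primeIdeal v))
    set a := Zfun χ D c s
    set b := Zfun χ D c' s
    set a' := Zfun χ D (c / χ (ClassGroup.mk0 (primeIdeal v))) s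
    set b' := Zfun χ D (c' / χ (ClassGroup.mk0 (primeIdeal v))) s
    have e : a - t * a' - (b - t * b') = (a - b) - t * (a' - b') := by ring
    rw [e]
    calc |(a - b) - t * (a' - b')| ≤ |a - b| + |t * (a' - b')| := abs_sub _ _
      _ = |a - b| + t * |a' - b'| := by rw [abs_mul, abs_of_nonneg ht]
      _ ≤ B * P + t * (B * P) := by
          exact add_le_add h1 (mul_le_mul_of_nonneg_left h2 ht)
      _ = B * ((1 + t) * P) := by ring

/-- The product of the primes in a finite set. -/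
noncomputable def prodIdeal (U : Finset (HeightOneSpectrum (𝓞 K))) : (Ideal (𝓞 K))⁰ :=
  ∏ v ∈ U, primeIdeal v

theorem nrm_one (s : ℝ) : nrm (K := K) s 1 = 1 := by
  unfold nrm
  simp

theorem nrm_prodIdeal (s : ℝ) (U : Finset (HeightOneSpectrum (𝓞 K))) :
    nrm s (prodIdeal U) = ∏ v ∈ U, nrm s (primeIdeal v) := by
  classical
  unfold prodIdeal
  induction U using Finset.induction_on with
  | empty => simp [nrm_one]
  | insert v U hv ih => rw [Finset.prod_insert hv, Finset.prod_insert hv, nrm_mul, ih]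

theorem dvd_prodIdeal_iff (U : Finset (HeightOneSpectrum (𝓞 K))) (w : HeightOneSpectrum (𝓞 K)) :
    w.asIdeal ∣ (prodIdeal U : Ideal (𝓞 K)) ↔ w ∈ U := by
  classical
  unfold prodIdeal
  induction U using Finset.induction_on with
  | empty =>
    simp only [Finset.prod_empty, Finset.notMem_empty, iff_false]
    intro h
    have : w.asIdeal = ⊤ := by
      have h1 : (1 : Ideal (𝓞 K)) ≤ w.asIdeal := Ideal.dvd_iff_le.mp h
      exact top_le_iff.mp (by simpa using h1)
    exact w.isPrime.ne_top this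
  | insert v U hv ih =>
    rw [Finset.prod_insert hv, Submonoid.coe_mul, coe_primeIdeal, Finset.mem_insert]
    by_cases hwv : w = v
    · subst hwv
      simp
    · rw [dvd_primeIdeal_mul hwv, ih]
      simp [hwv]

theorem prodIdeal_injective :
    Function.Injective (prodIdeal : Finset (HeightOneSpectrum (𝓞 K)) → (Ideal (𝓞 K))⁰) := by
  intro U U' h
  ext w
  rw [← dvd_prodIdeal_iff U w, ← dvd_prodIdeal_iff U' w, h]

theorem map_prodIdeal (U : Finset (HeightOneSpectrum (𝓞 K)))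
    (hU : ∀ v ∈ U, χ (ClassGroup.mk0 (primeIdeal v)) = 1) :
    χ (ClassGroup.mk0 (prodIdeal U)) = 1 := by
  unfold prodIdeal
  rw [map_prod, map_prod]
  exact Finset.prod_eq_one hU

/-- Lower bound by squarefree products. -/
theorem prod_le_Zfun {s : ℝ} (hs : Summable (nrm (K := K) s))
    (T D : Finset (HeightOneSpectrum (𝓞 K)))
    (hT : ∀ v ∈ T, χ (ClassGroup.mk0 (primeIdeal v)) = 1)
    (hD : ∀ v ∈ D, χ (ClassGroup.mk0 (primeIdeal v)) ≠ 1) :
    ∏ v ∈ T, (1 + nrm s (primeIdeal v)) ≤ Zfun χ D 1 s := by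
  classical
  rw [Finset.prod_one_add]
  have hmem : ∀ U ∈ T.powerset, prodIdeal U ∈ good χ D 1 := by
    intro U hU
    have hUT : U ⊆ T := Finset.mem_powerset.mp hU
    refine ⟨map_prodIdeal χ U (fun v hv => hT v (hUT hv)), ?_⟩
    intro w hw hdvd
    rw [dvd_prodIdeal_iff] at hdvd
    exact hD w hw (hT w (hUT hdvd))
  calc ∑ U ∈ T.powerset, ∏ v ∈ U, nrm s (primeIdeal v)
      = ∑ U ∈ T.powerset, (good χ D 1).indicator (nrm s) (prodIdeal U) := by
        apply Finset.sum_congr rfl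
        intro U hU
        rw [Set.indicator_of_mem (hmem U hU), nrm_prodIdeal]
    _ = ∑ I ∈ T.powerset.image prodIdeal, (good χ D 1).indicator (nrm s) I := by
        rw [Finset.sum_image]
        intro U _ U' _ h
        exact prodIdeal_injective h
    _ ≤ Zfun χ D 1 s := by
        unfold Zfun
        apply Summable.sum_le_tsum
        · intro I _
          exact Set.indicator_nonneg (fun J _ => nrm_nonneg s J) I
        · exact summable_indicator hs _

/-- An ideal with nontrivial `χ` has a prime factor with nontrivial `χ`. -/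
theorem exists_prime_dvd_of_ne_one (I : (Ideal (𝓞 K))⁰) (h : χ (ClassGroup.mk0 I) ≠ 1) :
    ∃ v : HeightOneSpectrum (𝓞 K), v.asIdeal ∣ (I : Ideal (𝓞 K)) ∧
      χ (ClassGroup.mk0 (primeIdeal v)) ≠ 1 := by
  obtain ⟨J, hJ⟩ := I
  revert hJ
  induction J using UniqueFactorizationMonoid.induction_on_prime with
  | h₁ =>
    intro hJ
    exact absurd rfl (nonZeroDivisors.ne_zero hJ)
  | h₂ x hx =>
    intro hJ h
    exfalso
    apply h
    have hx1 : x = 1 := by
      rw [Ideal.isUnit_iff.mp hx, Ideal.one_eq_top]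
    subst hx1
    have : (⟨1, hJ⟩ : (Ideal (𝓞 K))⁰) = 1 := rfl
    rw [this, map_one, map_one]
  | h₃ a p ha hp ih =>
    intro hJ h
    have hp0 : p ≠ ⊥ := hp.ne_zero
    have hpP : p.IsPrime := Ideal.isPrime_of_prime hp
    let v : HeightOneSpectrum (𝓞 K) := ⟨p, hpP, hp0⟩
    have ha' : a ∈ (Ideal (𝓞 K))⁰ := mem_nonZeroDivisors_iff_ne_zero.mpr ha
    have hmul : (⟨p * a, hJ⟩ : (Ideal (𝓞 K))⁰) = primeIdeal v * ⟨a, ha'⟩ := rfl
    by_cases hv : χ (ClassGroup.mk0 (primeIdeal v)) = 1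
    · have h2 : χ (ClassGroup.mk0 ⟨a, ha'⟩) ≠ 1 := by
        intro h3
        apply h
        rw [hmul, map_mul, map_mul, hv, h3, mul_one]
      obtain ⟨w, hw1, hw2⟩ := ih ha' h2
      exact ⟨w, Dvd.dvd.mul_left hw1 _, hw2⟩
    · exact ⟨v, dvd_mul_right _ _, hv⟩

/-- The restricted partial zeta of a nontrivial coset becomes arbitrarily small. -/
theorem exists_finset_Zfun_le {s : ℝ} (hs : Summable (nrm (K := K) s)) (c₀ : G) (hc₀ : c₀ ≠ 1)
    (ε : ℝ) (hε : 0 < ε) :
    ∃ D : Finset (HeightOneSpectrum (𝓞 K)),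
      (∀ v ∈ D, χ (ClassGroup.mk0 (primeIdeal v)) ≠ 1) ∧ Zfun χ D c₀ s ≤ ε := by
  classical
  have htail := tendsto_tsum_compl_atTop_zero (nrm (K := K) s)
  obtain ⟨F, hF⟩ := (htail.eventually (gt_mem_nhds hε)).exists
  let pick : (Ideal (𝓞 K))⁰ → Finset (HeightOneSpectrum (𝓞 K)) := fun I =>
    if h : ∃ v : HeightOneSpectrum (𝓞 K), v.asIdeal ∣ (I : Ideal (𝓞 K)) ∧
      χ (ClassGroup.mk0 (primeIdeal v)) ≠ 1 then {h.choose} else ∅
  refine ⟨F.biUnion pick, ?_, ?_⟩
  · intro v hv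
    obtain ⟨I, _, hvI⟩ := Finset.mem_biUnion.mp hv
    by_cases h : ∃ v : HeightOneSpectrum (𝓞 K), v.asIdeal ∣ (I : Ideal (𝓞 K)) ∧
      χ (ClassGroup.mk0 (primeIdeal v)) ≠ 1
    · simp only [pick, dif_pos h, Finset.mem_singleton] at hvI
      rw [hvI]
      exact h.choose_spec.2
    · simp [pick, dif_neg h] at hvI
  · have hF' : ∑' I : (Ideal (𝓞 K))⁰,
        ({I | I ∉ F} : Set ((Ideal (𝓞 K))⁰)).indicator (nrm s) I < ε := by
      rw [← tsum_subtype]
      exact hF
    have hss : good χ (F.biUnion pick) c₀ ⊆ ({I | I ∉ F} : Set ((Ideal (𝓞 K))⁰)) := by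
      rintro J ⟨hJ1, hJ2⟩ hJF
      have h : ∃ v : HeightOneSpectrum (𝓞 K), v.asIdeal ∣ (J : Ideal (𝓞 K)) ∧
          χ (ClassGroup.mk0 (primeIdeal v)) ≠ 1 :=
        exists_prime_dvd_of_ne_one χ J (hJ1 ▸ hc₀)
      apply hJ2 h.choose
      · apply Finset.mem_biUnion.mpr
        refine ⟨J, hJF, ?_⟩
        simp [pick, dif_pos h]
      · exact h.choose_spec.1
    have hsub : ∀ I, (good χ (F.biUnion pick) c₀).indicator (nrm s) I
        ≤ ({I | I ∉ F} : Set ((Ideal (𝓞 K))⁰)).indicator (nrm s) I :=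
      fun I => Set.indicator_le_indicator_of_subset hss (fun J => nrm_nonneg s J) I
    have h1 : Zfun χ (F.biUnion pick) c₀ s
        ≤ ∑' I : (Ideal (𝓞 K))⁰, ({I | I ∉ F} : Set ((Ideal (𝓞 K))⁰)).indicator (nrm s) I :=
      Summable.tsum_le_tsum hsub (summable_indicator hs _) (summable_indicator hs _)
    exact h1.trans (le_of_lt hF')

theorem exp_sub_sq_le (t : ℝ) (ht : 0 ≤ t) : Real.exp (t - t ^ 2) ≤ 1 + t := by
  have h1 : 1 - (t - t ^ 2) ≤ Real.exp (-(t - t ^ 2)) := Real.one_sub_le_exp_neg _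
  have hpos : 0 < 1 - (t - t ^ 2) := by nlinarith [sq_nonneg (t - 1 / 2)]
  have h2 : Real.exp (t - t ^ 2) * (1 - (t - t ^ 2)) ≤ 1 := by
    calc Real.exp (t - t ^ 2) * (1 - (t - t ^ 2))
        ≤ Real.exp (t - t ^ 2) * Real.exp (-(t - t ^ 2)) :=
          mul_le_mul_of_nonneg_left h1 (Real.exp_pos _).le
      _ = 1 := by rw [← Real.exp_add]; simp
  have h3 : 1 ≤ (1 + t) * (1 - (t - t ^ 2)) := by nlinarith [pow_nonneg ht 3]
  have h4 : Real.exp (t - t ^ 2) * (1 - (t - t ^ 2)) ≤ (1 + t) * (1 - (t - t ^ 2)) :=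
    h2.trans h3
  exact le_of_mul_le_mul_right h4 hpos

theorem one_le_absNorm_primeIdeal (v : HeightOneSpectrum (𝓞 K)) :
    (1 : ℝ) ≤ (Ideal.absNorm ((primeIdeal v : (Ideal (𝓞 K))⁰) : Ideal (𝓞 K)) : ℝ) := by
  have h : Ideal.absNorm ((primeIdeal v : (Ideal (𝓞 K))⁰) : Ideal (𝓞 K)) ≠ 0 := by
    rw [Ne, Ideal.absNorm_eq_zero_iff]
    exact v.ne_bot
  exact_mod_cast Nat.one_le_iff_ne_zero.mpr h

theorem nrm_sq_le {s : ℝ} (hs : 1 ≤ s) (v : HeightOneSpectrum (𝓞 K)) :
    nrm s (primeIdeal v) ^ 2 ≤ nrm 2 (primeIdeal v) := by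
  have h1 := one_le_absNorm_primeIdeal v
  have h0 : (0 : ℝ) < (Ideal.absNorm ((primeIdeal v : (Ideal (𝓞 K))⁰) : Ideal (𝓞 K)) : ℝ) := by
    linarith
  unfold nrm
  rw [← Real.rpow_natCast, ← Real.rpow_mul h0.le]
  apply Real.rpow_le_rpow_of_exponent_le h1
  push_cast
  linarith

/-- **Weber bound, `2`-form.** If the coset partial zeta functions of `χ` have bounded
differences on `(1, 2]`, then the primes in the kernel of a nontrivial `χ` carry at most half
of the logarithmic mass. -/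
theorem weber_two (c₀ : G) (hc₀ : c₀ ≠ 1)
    (hsum : ∀ s : ℝ, 1 < s → Summable (nrm (K := K) s))
    (hBD : ∃ B : ℝ, ∀ s ∈ Set.Ioc (1 : ℝ) 2, ∀ c c' : G,
      |Zfun χ ∅ c s - Zfun χ ∅ c' s| ≤ B)
    (hZup : ∃ B : ℝ, ∀ s ∈ Set.Ioc (1 : ℝ) 2, ∀ T : Finset (HeightOneSpectrum (𝓞 K)),
      ∑ v ∈ T, nrm s (primeIdeal v) ≤ Real.log (1 / (s - 1)) + B) :
    ∃ B : ℝ, ∀ s ∈ Set.Ioc (1 : ℝ) 2, ∀ T : Finset (HeightOneSpectrum (𝓞 K)),
      (∀ v ∈ T, χ (ClassGroup.mk0 (primeIdeal v)) = 1) →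
      2 * ∑ v ∈ T, nrm s (primeIdeal v) ≤ Real.log (1 / (s - 1)) + B := by
  classical
  obtain ⟨B₁, hB₁⟩ := hBD
  obtain ⟨B₂, hB₂⟩ := hZup
  set Bm : ℝ := max B₁ 1 with hBm
  have hBm1 : 1 ≤ Bm := le_max_right _ _
  have hBm0 : 0 < Bm := by linarith
  refine ⟨2 * B₂ + Real.log Bm, ?_⟩
  intro s hs T hT
  have hs1 : 1 < s := hs.1
  have hS := hsum s hs1
  set X := ∑ v ∈ T, nrm s (primeIdeal v) with hX
  set L := Real.log (1 / (s - 1)) with hL
  -- Step 1: the sum of squares is bounded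
  have hsq : ∑ v ∈ T, nrm s (primeIdeal v) ^ 2 ≤ B₂ := by
    have h2 : (2 : ℝ) ∈ Set.Ioc (1 : ℝ) 2 := ⟨by norm_num, le_refl _⟩
    have h3 := hB₂ 2 h2 T
    have h4 : Real.log (1 / ((2 : ℝ) - 1)) = 0 := by norm_num
    rw [h4, zero_add] at h3
    exact (Finset.sum_le_sum fun v _ => nrm_sq_le hs1.le v).trans h3
  -- Step 2: lower bound for the product
  have hprod : Real.exp (X - B₂) ≤ ∏ v ∈ T, (1 + nrm s (primeIdeal v)) := by
    calc Real.exp (X - B₂)
        ≤ Real.exp (∑ v ∈ T, (nrm s (primeIdeal v) - nrm s (primeIdeal v) ^ 2)) := by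
          apply Real.exp_le_exp.mpr
          rw [Finset.sum_sub_distrib]
          linarith
      _ = ∏ v ∈ T, Real.exp (nrm s (primeIdeal v) - nrm s (primeIdeal v) ^ 2) :=
          Real.exp_sum _ _
      _ ≤ ∏ v ∈ T, (1 + nrm s (primeIdeal v)) := by
          apply Finset.prod_le_prod
          · intro v _
            exact (Real.exp_pos _).le
          · intro v _
            exact exp_sub_sq_le _ (nrm_nonneg s _)
  -- Step 3: for every ε
  have hmain : ∀ ε : ℝ, 0 < ε → Real.exp (X - B₂) ≤ Bm * Real.exp (L + B₂ - X) + ε := by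
    intro ε hε
    obtain ⟨D, hD, hDε⟩ := exists_finset_Zfun_le χ hS c₀ hc₀ ε hε
    have h1 : ∏ v ∈ T, (1 + nrm s (primeIdeal v)) ≤ Zfun χ D 1 s :=
      prod_le_Zfun χ hS T D hT hD
    have h2 : |Zfun χ D 1 s - Zfun χ D c₀ s| ≤ B₁ * ∏ v ∈ D, (1 + nrm s (primeIdeal v)) :=
      abs_Zfun_sub_le χ hS B₁ (hB₁ s hs) D 1 c₀
    have h3 : Zfun χ D 1 s ≤ Zfun χ D c₀ s + B₁ * ∏ v ∈ D, (1 + nrm s (primeIdeal v)) := by
      have := le_abs_self (Zfun χ D 1 s - Zfun χ D c₀ s)
      linarith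
    set Y := ∑ v ∈ D, nrm s (primeIdeal v) with hY
    have hP0 : 0 ≤ ∏ v ∈ D, (1 + nrm s (primeIdeal v)) :=
      Finset.prod_nonneg fun v _ => by have := nrm_nonneg s (primeIdeal v); linarith
    have h4 : ∏ v ∈ D, (1 + nrm s (primeIdeal v)) ≤ Real.exp Y := by
      rw [hY, Real.exp_sum]
      apply Finset.prod_le_prod
      · intro v _
        have := nrm_nonneg s (primeIdeal v); linarith
      · intro v _
        have := Real.add_one_le_exp (nrm s (primeIdeal v)); linarith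
    have hdisj : Disjoint T D := by
      rw [Finset.disjoint_left]
      intro v hvT hvD
      exact hD v hvD (hT v hvT)
    have h5 : X + Y ≤ L + B₂ := by
      have := hB₂ s hs (T ∪ D)
      rw [Finset.sum_union hdisj] at this
      exact this
    have h6 : Real.exp Y ≤ Real.exp (L + B₂ - X) := Real.exp_le_exp.mpr (by linarith)
    have h7 : B₁ * ∏ v ∈ D, (1 + nrm s (primeIdeal v)) ≤ Bm * Real.exp (L + B₂ - X) := by
      calc B₁ * ∏ v ∈ D, (1 + nrm s (primeIdeal v))
          ≤ Bm * ∏ v ∈ D, (1 + nrm s (primeIdeal v)) :=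
            mul_le_mul_of_nonneg_right (le_max_left _ _) hP0
        _ ≤ Bm * Real.exp (L + B₂ - X) :=
            mul_le_mul_of_nonneg_left (h4.trans h6) hBm0.le
    linarith
  have hfin : Real.exp (X - B₂) ≤ Bm * Real.exp (L + B₂ - X) :=
    le_of_forall_pos_le_add hmain
  have hfin2 : Real.exp (X - B₂) ≤ Real.exp (Real.log Bm + (L + B₂ - X)) := by
    rw [Real.exp_add, Real.exp_log hBm0]
    exact hfin
  have := Real.exp_le_exp.mp hfin2
  linarith

end basic

/-! ## Adapters: class partial zeta functions -/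

section adapters

variable {G : Type*} [CommGroup G] (χ : ClassGroup (𝓞 K) →* G)

/-- The partial zeta function of an ideal class. -/
noncomputable def classZ (C : ClassGroup (𝓞 K)) (s : ℝ) : ℝ :=
  ∑' I : (Ideal (𝓞 K))⁰, ({I | ClassGroup.mk0 I = C} : Set ((Ideal (𝓞 K))⁰)).indicator (nrm s) I

theorem nrm_def (s : ℝ) (I : (Ideal (𝓞 K))⁰) :
    nrm s I = (Ideal.absNorm (I : Ideal (𝓞 K)) : ℝ) ^ (-s) := rfl

/-- `classZ` as a sum over the subtype of ideals of the class. -/
theorem classZ_eq_tsum_subtype (C : ClassGroup (𝓞 K)) (s : ℝ) :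
    classZ C s = ∑' I : {I : (Ideal (𝓞 K))⁰ // ClassGroup.mk0 I = C},
      (Ideal.absNorm ((I : (Ideal (𝓞 K))⁰) : Ideal (𝓞 K)) : ℝ) ^ (-s) := by
  unfold classZ
  rw [← tsum_subtype]
  rfl

/-- `classZ` in `if … then … else` form. -/
theorem classZ_eq_tsum_ite (C : ClassGroup (𝓞 K)) (s : ℝ)
    [DecidablePred fun I : (Ideal (𝓞 K))⁰ => ClassGroup.mk0 I = C] :
    classZ C s = ∑' I : (Ideal (𝓞 K))⁰, if ClassGroup.mk0 I = C then
      (Ideal.absNorm (I : Ideal (𝓞 K)) : ℝ) ^ (-s) else 0 := by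
  unfold classZ
  apply tsum_congr
  intro I
  by_cases h : ClassGroup.mk0 I = C
  · rw [if_pos h, Set.indicator_of_mem (by exact h)]
    rfl
  · rw [if_neg h, Set.indicator_of_notMem (by exact h)]

/-- The coset partial zeta function is the sum of the class partial zeta functions. -/
theorem Zfun_empty_eq_sum {s : ℝ} (hs : Summable (nrm (K := K) s)) (c : G)
    [DecidablePred fun C : ClassGroup (𝓞 K) => χ C = c] :
    Zfun χ ∅ c s = ∑ C ∈ Finset.univ.filter (fun C : ClassGroup (𝓞 K) => χ C = c), classZ C s := by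
  classical
  unfold Zfun classZ
  rw [← Summable.tsum_finsetSum (fun C _ => summable_indicator hs _)]
  apply tsum_congr
  intro I
  by_cases h : χ (ClassGroup.mk0 I) = c
  · have hI : I ∈ good χ ∅ c := ⟨h, by simp⟩
    rw [Set.indicator_of_mem hI]
    rw [Finset.sum_eq_single (ClassGroup.mk0 I)]
    · rw [Set.indicator_of_mem (by exact rfl)]
    · intro C _ hC
      exact Set.indicator_of_notMem (by exact fun h' => hC h'.symm) _
    · intro h'
      exact (h' (Finset.mem_filter.mpr ⟨Finset.mem_univ (ClassGroup.mk0 I), h⟩)).elim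
  · have hI : I ∉ good χ ∅ c := fun h' => h h'.1
    rw [Set.indicator_of_notMem hI]
    symm
    apply Finset.sum_eq_zero
    intro C hC
    apply Set.indicator_of_notMem
    intro h'
    apply h
    have h'' : ClassGroup.mk0 I = C := h'
    rw [h'']
    exact (Finset.mem_filter.mp hC).2

/-- From class-wise bounded differences to coset-wise bounded differences (`χ` onto). -/
theorem coset_bound_of_class_bound (hχ : Function.Surjective χ)
    (hsum : ∀ s : ℝ, 1 < s → Summable (nrm (K := K) s))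
    (hW0 : ∀ C C' : ClassGroup (𝓞 K), ∃ B : ℝ, ∀ s ∈ Set.Ioc (1 : ℝ) 2,
      |classZ C s - classZ C' s| ≤ B) :
    ∃ B : ℝ, ∀ s ∈ Set.Ioc (1 : ℝ) 2, ∀ c c' : G, |Zfun χ ∅ c s - Zfun χ ∅ c' s| ≤ B := by
  classical
  choose Bf hBf using hW0
  set B₀ : ℝ := ∑ C : ClassGroup (𝓞 K), ∑ C' : ClassGroup (𝓞 K), |Bf C C'| with hB₀
  have hB₀le : ∀ C C' : ClassGroup (𝓞 K), Bf C C' ≤ B₀ := by
    intro C C'
    calc Bf C C' ≤ |Bf C C'| := le_abs_self _
      _ ≤ ∑ C'' : ClassGroup (𝓞 K), |Bf C C''| :=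
          Finset.single_le_sum (f := fun C'' => |Bf C C''|) (fun _ _ => abs_nonneg _)
            (Finset.mem_univ C')
      _ ≤ B₀ :=
          Finset.single_le_sum (f := fun C₁ => ∑ C'' : ClassGroup (𝓞 K), |Bf C₁ C''|)
            (fun _ _ => Finset.sum_nonneg fun _ _ => abs_nonneg _) (Finset.mem_univ C)
  have hB₀0 : 0 ≤ B₀ :=
    Finset.sum_nonneg fun _ _ => Finset.sum_nonneg fun _ _ => abs_nonneg _
  refine ⟨(Fintype.card (ClassGroup (𝓞 K)) : ℝ) * B₀, ?_⟩
  intro s hs c c'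
  have hS := hsum s hs.1
  obtain ⟨C₁, hC₁⟩ := hχ (c' / c)
  rw [Zfun_empty_eq_sum χ hS c, Zfun_empty_eq_sum χ hS c']
  have hbij : ∑ C ∈ Finset.univ.filter (fun C : ClassGroup (𝓞 K) => χ C = c'), classZ C s
      = ∑ C ∈ Finset.univ.filter (fun C : ClassGroup (𝓞 K) => χ C = c), classZ (C * C₁) s := by
    symm
    apply Finset.sum_nbij' (fun C => C * C₁) (fun C => C * C₁⁻¹)
    · intro C hC
      simp only [Finset.mem_filter, Finset.mem_univ, true_and] at hC ⊢
      rw [map_mul, hC, hC₁]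
      exact mul_div_cancel _ _
    · intro C hC
      simp only [Finset.mem_filter, Finset.mem_univ, true_and] at hC ⊢
      rw [map_mul, map_inv, hC, hC₁, inv_div]
      exact mul_div_cancel _ _
    · intro C _
      group
    · intro C _
      group
    · intro C _
      rfl
  rw [hbij, ← Finset.sum_sub_distrib]
  calc |∑ C ∈ Finset.univ.filter (fun C : ClassGroup (𝓞 K) => χ C = c),
        (classZ C s - classZ (C * C₁) s)|
      ≤ ∑ C ∈ Finset.univ.filter (fun C : ClassGroup (𝓞 K) => χ C = c),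
        |classZ C s - classZ (C * C₁) s| := Finset.abs_sum_le_sum_abs _ _
    _ ≤ ∑ _C ∈ Finset.univ.filter (fun C : ClassGroup (𝓞 K) => χ C = c), B₀ :=
        Finset.sum_le_sum fun C _ => (hBf C (C * C₁) s hs).trans (hB₀le _ _)
    _ = ((Finset.univ.filter (fun C : ClassGroup (𝓞 K) => χ C = c)).card : ℝ) * B₀ := by
        rw [Finset.sum_const, nsmul_eq_mul]
    _ ≤ (Fintype.card (ClassGroup (𝓞 K)) : ℝ) * B₀ := by
        apply mul_le_mul_of_nonneg_right _ hB₀0
        exact_mod_cast Finset.card_le_univ _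

/-- **Weber bound, `2`-form, from class-wise bounded differences.** -/
theorem weber_two_of_class_bound (hχ : Function.Surjective χ) (c₀ : G) (hc₀ : c₀ ≠ 1)
    (hsum : ∀ s : ℝ, 1 < s → Summable (nrm (K := K) s))
    (hW0 : ∀ C C' : ClassGroup (𝓞 K), ∃ B : ℝ, ∀ s ∈ Set.Ioc (1 : ℝ) 2,
      |classZ C s - classZ C' s| ≤ B)
    (hZup : ∃ B : ℝ, ∀ s ∈ Set.Ioc (1 : ℝ) 2, ∀ T : Finset (HeightOneSpectrum (𝓞 K)),
      ∑ v ∈ T, nrm s (primeIdeal v) ≤ Real.log (1 / (s - 1)) + B) :
    ∃ B : ℝ, ∀ s ∈ Set.Ioc (1 : ℝ) 2, ∀ T : Finset (HeightOneSpectrum (𝓞 K)),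
      (∀ v ∈ T, χ (ClassGroup.mk0 (primeIdeal v)) = 1) →
      2 * ∑ v ∈ T, nrm s (primeIdeal v) ≤ Real.log (1 / (s - 1)) + B :=
  weber_two χ c₀ hc₀ hsum (coset_bound_of_class_bound χ hχ hsum hW0) hZup

omit [NumberField K] in
/-- A nontrivial hom to a group of prime order is onto. -/
theorem surjective_of_prime_card (hG : (Nat.card G).Prime) (hχ1 : ∃ C, χ C ≠ 1) :
    Function.Surjective χ := by
  have : Fact (Nat.card G).Prime := ⟨hG⟩
  rw [← MonoidHom.range_eq_top]
  rcases Subgroup.eq_bot_or_eq_top_of_prime_card χ.range with h | h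
  · exfalso
    obtain ⟨C, hC⟩ := hχ1
    apply hC
    have : χ C ∈ χ.range := ⟨C, rfl⟩
    rw [h] at this
    exact Subgroup.mem_bot.mp this
  · exact h

end adapters

/-! ## The density comparison, abstractly -/

/-- Abstract density comparison: if the primes with `P` carry at most `1/2` and the primes
without `P` at most `1/p` (`p ≥ 3`) of the logarithmic mass, the total cannot be the full mass. -/
theorem density_contradiction {ι : Type*} (t : ℝ → ι → ℝ) (P : ι → Prop) (p : ℕ) (hp : 3 ≤ p)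
    (B : ℝ)
    (h1 : ∀ s ∈ Set.Ioc (1 : ℝ) 2, ∃ T : Finset ι,
      Real.log (1 / (s - 1)) - B ≤ ∑ v ∈ T, t s v)
    (h2 : ∀ s ∈ Set.Ioc (1 : ℝ) 2, ∀ T : Finset ι, (∀ v ∈ T, P v) →
      2 * ∑ v ∈ T, t s v ≤ Real.log (1 / (s - 1)) + B)
    (h3 : ∀ s ∈ Set.Ioc (1 : ℝ) 2, ∀ T : Finset ι, (∀ v ∈ T, ¬ P v) →
      (p : ℝ) * ∑ v ∈ T, t s v ≤ Real.log (1 / (s - 1)) + B) : False := by
  classical
  set M : ℝ := 11 * |B| + 1 with hM
  have hM0 : 0 < M := by positivity
  set s : ℝ := 1 + Real.exp (-M) with hs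
  have hsmem : s ∈ Set.Ioc (1 : ℝ) 2 := by
    constructor
    · have := Real.exp_pos (-M); linarith
    · have : Real.exp (-M) ≤ 1 := Real.exp_le_one_iff.mpr (by linarith)
      linarith
  have hlog : Real.log (1 / (s - 1)) = M := by
    have : s - 1 = Real.exp (-M) := by rw [hs]; ring
    rw [this, one_div, ← Real.exp_neg, neg_neg, Real.log_exp]
  obtain ⟨T, hT⟩ := h1 s hsmem
  have hsplit : ∑ v ∈ T, t s v
      = ∑ v ∈ T.filter P, t s v + ∑ v ∈ T.filter (fun v => ¬ P v), t s v :=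
    (Finset.sum_filter_add_sum_filter_not T P (t s)).symm
  have hA := h2 s hsmem (T.filter P) (fun v hv => (Finset.mem_filter.mp hv).2)
  have hB := h3 s hsmem (T.filter (fun v => ¬ P v)) (fun v hv => (Finset.mem_filter.mp hv).2)
  rw [hlog] at hT hA hB
  have hp3 : (3 : ℝ) ≤ (p : ℝ) := by exact_mod_cast hp
  have hMB : 0 ≤ M + B := by
    have := neg_abs_le B
    rw [hM]; linarith [abs_nonneg B]
  -- bound for the non-`P` part: 3 * Σ ≤ p * Σ if Σ ≥ 0, and trivially otherwise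
  have hB' : 3 * ∑ v ∈ T.filter (fun v => ¬ P v), t s v ≤ M + B := by
    by_cases h0 : 0 ≤ ∑ v ∈ T.filter (fun v => ¬ P v), t s v
    · calc 3 * ∑ v ∈ T.filter (fun v => ¬ P v), t s v
          ≤ (p : ℝ) * ∑ v ∈ T.filter (fun v => ¬ P v), t s v :=
            mul_le_mul_of_nonneg_right hp3 h0
        _ ≤ M + B := hB
    · have h0' := not_le.mp h0
      linarith
  have habs := le_abs_self B
  rw [hsplit] at hT
  rw [hM] at hT hA hB'
  linarith

end Fermat.Agent.S14.helper1331
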