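import Mathlib

/-!
# Leaves T1 + T2 of the Thaine relation (S14, Thaine route)

Setting: `p ≠ q` primes, `K` a `{p}`-cyclotomic extension of `ℚ`, `M` a `{q}`-cyclotomic
extension of `K`.

* `isCyclotomicExtension_mul` : `M` is a `{p * q}`-cyclotomic extension of `ℚ`.
* `finrank_eq` : `Module.finrank K M = q - 1`.
* `irreducible_cyclotomic` : `Irreducible (cyclotomic q K)`.
-/

namespace Fermat.Agent.S14.helper1334

open Polynomial Module

section T1

variable {p q : ℕ} (K M : Type*) [Field K] [CharZero K] [Field M] [CharZero M] [Algebra K M]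

/-- `M` is a `{p * q}`-cyclotomic extension of `ℚ`. -/
theorem isCyclotomicExtension_mul (hp : p.Prime) (hq : q.Prime) (hpq : p ≠ q)
    [IsCyclotomicExtension {p} ℚ K] [IsCyclotomicExtension {q} K M] :
    IsCyclotomicExtension {p * q} ℚ M := by
  have : NeZero p := ⟨hp.ne_zero⟩
  have : NeZero q := ⟨hq.ne_zero⟩
  have : NeZero (p * q) := ⟨mul_ne_zero hp.ne_zero hq.ne_zero⟩
  have h1 : IsCyclotomicExtension ({p} ∪ {q}) ℚ M :=
    IsCyclotomicExtension.trans {p} {q} ℚ K M (algebraMap K M).injective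
  obtain ⟨ζp, hζp⟩ := IsCyclotomicExtension.exists_isPrimitiveRoot ℚ M
    (S := {p} ∪ {q}) (n := p) (by simp) hp.ne_zero
  obtain ⟨ζq, hζq⟩ := IsCyclotomicExtension.exists_isPrimitiveRoot ℚ M
    (S := {p} ∪ {q}) (n := q) (by simp) hq.ne_zero
  have hcop : Nat.Coprime p q := (Nat.coprime_primes hp hq).2 hpq
  have hζ : IsPrimitiveRoot (ζp * ζq) (p * q) := by
    rw [IsPrimitiveRoot.iff_orderOf, (Commute.all ζp ζq).orderOf_mul_eq_mul_orderOf_of_coprime,
      ← hζp.eq_orderOf, ← hζq.eq_orderOf]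
    rwa [← hζp.eq_orderOf, ← hζq.eq_orderOf]
  have h2 : IsCyclotomicExtension (({p} ∪ {q}) ∪ {p * q}) ℚ M :=
    IsCyclotomicExtension.union_of_isPrimitiveRoot _ ℚ M hζ
  have h3 : IsCyclotomicExtension {p * q} ℚ M ↔ IsCyclotomicExtension ({p * q} ∪ {p}) ℚ M :=
    IsCyclotomicExtension.iff_union_of_dvd ℚ M
      ⟨p * q, rfl, mul_ne_zero hp.ne_zero hq.ne_zero, dvd_mul_right p q⟩
  have h4 : IsCyclotomicExtension ({p * q} ∪ {p}) ℚ M ↔
      IsCyclotomicExtension (({p * q} ∪ {p}) ∪ {q}) ℚ M :=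
    IsCyclotomicExtension.iff_union_of_dvd ℚ M
      ⟨p * q, by simp, mul_ne_zero hp.ne_zero hq.ne_zero, dvd_mul_left q p⟩
  rw [h3, h4]
  convert h2 using 1
  ext x
  simp only [Set.union_singleton, Set.mem_insert_iff, Set.mem_singleton_iff]
  tauto

/-- `[M : K] = q - 1`. -/
theorem finrank_eq (hp : p.Prime) (hq : q.Prime) (hpq : p ≠ q)
    [IsCyclotomicExtension {p} ℚ K] [IsCyclotomicExtension {q} K M] :
    Module.finrank K M = q - 1 := by
  have : NeZero p := ⟨hp.ne_zero⟩
  have : NeZero q := ⟨hq.ne_zero⟩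
  have : NeZero (p * q) := ⟨mul_ne_zero hp.ne_zero hq.ne_zero⟩
  have := isCyclotomicExtension_mul K M hp hq hpq
  have hK : Module.finrank ℚ K = p - 1 := by
    rw [IsCyclotomicExtension.Rat.finrank p K, Nat.totient_prime hp]
  have hM : Module.finrank ℚ M = (p - 1) * (q - 1) := by
    rw [IsCyclotomicExtension.Rat.finrank (p * q) M,
      Nat.totient_mul ((Nat.coprime_primes hp hq).2 hpq), Nat.totient_prime hp,
      Nat.totient_prime hq]
  have : FiniteDimensional ℚ K := IsCyclotomicExtension.finiteDimensional {p} ℚ K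
  have : FiniteDimensional K M := IsCyclotomicExtension.finiteDimensional {q} K M
  have htower := Module.finrank_mul_finrank ℚ K M
  rw [hK, hM] at htower
  have hp1 : 0 < p - 1 := Nat.sub_pos_of_lt hp.one_lt
  exact Nat.eq_of_mul_eq_mul_left hp1 htower

/-- The `q`-th cyclotomic polynomial is irreducible over `K = ℚ(ζ_p)`. -/
theorem irreducible_cyclotomic (hp : p.Prime) (hq : q.Prime) (hpq : p ≠ q)
    [IsCyclotomicExtension {p} ℚ K] [IsCyclotomicExtension {q} K M] :
    Irreducible (cyclotomic q K) := by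
  have : NeZero q := ⟨hq.ne_zero⟩
  have : NeZero (q : K) := ⟨by exact_mod_cast hq.ne_zero⟩
  have : FiniteDimensional K M := IsCyclotomicExtension.finiteDimensional {q} K M
  obtain ⟨ζ, hζ⟩ := IsCyclotomicExtension.exists_isPrimitiveRoot K M
    (S := {q}) (n := q) rfl hq.ne_zero
  have hint : IsIntegral K ζ := Algebra.IsIntegral.isIntegral ζ
  have hdvd : minpoly K ζ ∣ cyclotomic q K := by
    apply minpoly.dvd
    rw [aeval_def, eval₂_eq_eval_map, map_cyclotomic]
    exact hζ.isRoot_cyclotomic hq.pos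
  have hdeg : (minpoly K ζ).natDegree = q - 1 := by
    rw [← hζ.powerBasis_dim K, ← PowerBasis.finrank, finrank_eq K M hp hq hpq]
  have heq : cyclotomic q K = minpoly K ζ :=
    eq_of_monic_of_dvd_of_natDegree_le (minpoly.monic hint) (cyclotomic.monic q K) hdvd
      (by rw [natDegree_cyclotomic, Nat.totient_prime hq, hdeg])
  rw [heq]
  exact minpoly.irreducible hint

omit [CharZero K] [CharZero M] in
/-- An automorphism of `M/K` acts on `q`-th roots of unity by the power given by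
`IsCyclotomicExtension.autEquivPow`. -/
theorem autEquivPow_apply_of_pow_eq [NeZero q] [IsCyclotomicExtension {q} K M]
    (hirr : Irreducible (cyclotomic q K)) (σ : M ≃ₐ[K] M) {x : M} (hx : x ^ q = 1) :
    σ x = x ^ ((IsCyclotomicExtension.autEquivPow M hirr σ : (ZMod q)ˣ) : ZMod q).val := by
  obtain ⟨a, -, rfl⟩ := (IsCyclotomicExtension.zeta_spec q K M).eq_pow_of_pow_eq_one hx
  rw [map_pow, pow_right_comm, IsCyclotomicExtension.autEquivPow_apply, OneHom.toFun_eq_coe,
    MonoidHom.toOneHom_coe, IsPrimitiveRoot.autToPow_spec]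

/-- **T1b.** For a primitive root `g` mod `q` there is a generator `τ` of `Gal(M/K)` acting
on the `q`-th roots of unity by `x ↦ x ^ g`. -/
theorem exists_gal_generator (hp : p.Prime) (hq : q.Prime) (hpq : p ≠ q)
    [IsCyclotomicExtension {p} ℚ K] [IsCyclotomicExtension {q} K M]
    (g : ℕ) (hg : orderOf (g : ZMod q) = q - 1) :
    ∃ τ : M ≃ₐ[K] M, (∀ x : M, x ^ q = 1 → τ x = x ^ g) ∧
      ∀ σ : M ≃ₐ[K] M, σ ∈ Subgroup.zpowers τ := by
  have : NeZero q := ⟨hq.ne_zero⟩
  have : Fact q.Prime := ⟨hq⟩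
  have hirr := irreducible_cyclotomic K M hp hq hpq
  have hq1 : q - 1 ≠ 0 := (Nat.sub_pos_of_lt hq.one_lt).ne'
  -- the unit `u = g` of `ZMod q`
  let u : (ZMod q)ˣ := Units.ofPowEqOne (g : ZMod q) (q - 1) (hg ▸ pow_orderOf_eq_one _) hq1
  have hu : (u : ZMod q) = g := rfl
  have hordu : orderOf u = q - 1 := by rw [← orderOf_units, hu, hg]
  have htop : Subgroup.zpowers u = ⊤ := by
    apply Subgroup.eq_top_of_card_eq
    rw [Nat.card_zpowers, hordu, Nat.card_eq_fintype_card, ZMod.card_units]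
  let e := IsCyclotomicExtension.autEquivPow M hirr
  refine ⟨e.symm u, fun x hx => ?_, fun σ => ?_⟩
  · rw [autEquivPow_apply_of_pow_eq K M hirr _ hx]
    have he : e (e.symm u) = u := e.apply_symm_apply u
    change x ^ ((e (e.symm u) : (ZMod q)ˣ) : ZMod q).val = x ^ g
    rw [he, hu, ZMod.val_natCast]
    have hord : orderOf x ∣ q := orderOf_dvd_of_pow_eq_one hx
    rw [← pow_mod_orderOf x (g % q), ← pow_mod_orderOf x g, Nat.mod_mod_of_dvd g hord]
  · have hmem : e σ ∈ Subgroup.zpowers u := by rw [htop]; exact Subgroup.mem_top _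
    obtain ⟨k, hk⟩ := Subgroup.mem_zpowers_iff.1 hmem
    refine Subgroup.mem_zpowers_iff.2 ⟨k, ?_⟩
    apply e.injective
    rw [map_zpow, e.apply_symm_apply, hk]

/-- `Gal(M/K)` is cyclic. -/
theorem isCyclic_gal (hp : p.Prime) (hq : q.Prime) (hpq : p ≠ q)
    [IsCyclotomicExtension {p} ℚ K] [IsCyclotomicExtension {q} K M] :
    IsCyclic (M ≃ₐ[K] M) := by
  have : NeZero q := ⟨hq.ne_zero⟩
  have : Fact q.Prime := ⟨hq⟩
  exact (IsCyclotomicExtension.autEquivPow M (irreducible_cyclotomic K M hp hq hpq)).symm.isCyclic.1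
    inferInstance

/-- There is a primitive root `g` mod the prime `q` (as a natural number `< q`). -/
theorem exists_primitive_root_mod (hq : q.Prime) :
    ∃ g : ℕ, 0 < g ∧ g < q ∧ orderOf (g : ZMod q) = q - 1 := by
  have : Fact q.Prime := ⟨hq⟩
  have : NeZero q := ⟨hq.ne_zero⟩
  obtain ⟨u, hu⟩ := IsCyclic.exists_ofOrder_eq_natCard (α := (ZMod q)ˣ)
  rw [Nat.card_eq_fintype_card, ZMod.card_units] at hu
  refine ⟨(u : ZMod q).val, ?_, ZMod.val_lt _, ?_⟩
  · exact Nat.pos_of_ne_zero fun h => u.ne_zero ((ZMod.val_eq_zero _).1 h)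
  · rw [ZMod.natCast_zmod_val, orderOf_units, hu]

end T1

section T2

variable {p q : ℕ} (K M : Type*) [Field K] [Field M] [Algebra K M]

/-- If `cyclotomic q K` is irreducible and `ζ` is a primitive `q`-th root of unity in the
`{q}`-cyclotomic extension `M/K`, then `N_{M/K}(a - ζ) = Φ_q(a)` for `a : K`. -/
theorem norm_algebraMap_sub_eq_eval [NeZero q] [IsCyclotomicExtension {q} K M]
    (hirr : Irreducible (cyclotomic q K)) {ζ : M} (hζ : IsPrimitiveRoot ζ q) (a : K) :
    Algebra.norm K (algebraMap K M a - ζ) = eval a (cyclotomic q K) := by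
  have := IsCyclotomicExtension.neZero' q K M
  let E := AlgebraicClosure M
  obtain ⟨z, hz⟩ := IsAlgClosed.exists_root _ (degree_cyclotomic_pos q E (NeZero.pos _)).ne.symm
  apply (algebraMap K E).injective
  have := IsCyclotomicExtension.finiteDimensional {q} K M
  have := IsCyclotomicExtension.isGalois {q} K M
  rw [Algebra.norm_eq_prod_embeddings]
  have Hprod : (Finset.univ.prod fun σ : M →ₐ[K] E => σ (algebraMap K M a - ζ)) =
      eval (algebraMap K E a) (cyclotomic' q E) := by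
    rw [cyclotomic', eval_prod, ← @Finset.prod_attach E E, ← Finset.univ_eq_attach]
    refine Fintype.prod_equiv (hζ.embeddingsEquivPrimitiveRoots E hirr) _ _ fun σ => ?_
    simp
  have : NeZero (q : E) := NeZero.of_faithfulSMul K _ q
  rw [Hprod, cyclotomic', ← cyclotomic_eq_prod_X_sub_primitiveRoots (isRoot_cyclotomic_iff.1 hz),
    ← map_cyclotomic q (algebraMap K E), eval_map_algebraMap, aeval_algebraMap_apply,
    coe_aeval_eq_eval]

/-- `Φ_q(z) = 1` for a nontrivial `p`-th root of unity `z` when `q ≡ 1 mod p`. -/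
theorem eval_cyclotomic_eq_one {R : Type*} [CommRing R] [IsDomain R] (hq : q.Prime)
    (hqp : q % p = 1) {z : R} (hz : z ^ p = 1) (hz1 : z ≠ 1) :
    eval z (cyclotomic q R) = 1 := by
  have : Fact q.Prime := ⟨hq⟩
  have h1 : eval z (cyclotomic q R) * (z - 1) = z ^ q - 1 := by
    have := congrArg (eval z) (cyclotomic_prime_mul_X_sub_one R q)
    simpa using this
  have h2 : z ^ q = z := by
    conv_lhs => rw [← Nat.div_add_mod q p, hqp, pow_add, pow_mul, hz, one_pow, one_mul, pow_one]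
  rw [h2] at h1
  have hne : z - 1 ≠ 0 := sub_ne_zero.2 hz1
  exact mul_right_cancel₀ hne (by rw [h1, one_mul])

end T2

section T2'

variable {p q : ℕ} (K M : Type*) [Field K] [CharZero K] [Field M] [CharZero M] [Algebra K M]

/-- **T2.** `N_{M/K}(z - ζ_q) = 1` for a nontrivial `p`-th root of unity `z : K` and a primitive
`q`-th root of unity `ζ_q : M`, when `q ≡ 1 mod p`. -/
theorem norm_sub_eq_one (hp : p.Prime) (hq : q.Prime) (hqp : q % p = 1)
    [IsCyclotomicExtension {p} ℚ K] [IsCyclotomicExtension {q} K M]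
    {z : K} (hz : z ^ p = 1) (hz1 : z ≠ 1) {ζ : M} (hζ : IsPrimitiveRoot ζ q) :
    Algebra.norm K (algebraMap K M z - ζ) = 1 := by
  have : NeZero q := ⟨hq.ne_zero⟩
  have hpq : p ≠ q := by
    rintro rfl
    rw [Nat.mod_self] at hqp
    exact zero_ne_one hqp
  rw [norm_algebraMap_sub_eq_eval K M (irreducible_cyclotomic K M hp hq hpq) hζ,
    eval_cyclotomic_eq_one hq hqp hz hz1]

end T2'

section T2int

open NumberField

variable {p q : ℕ} (K M : Type*) [Field K] [NumberField K] [Field M] [NumberField M]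
  [Algebra K M]

/-- **T2, integral form.** For a nontrivial `p`-th root of unity `z : 𝓞 K` and a primitive
`q`-th root of unity `ζ : 𝓞 M` (`q ≡ 1 mod p`), the element `δ = z - ζ` of `𝓞 M` has relative
norm `1` (in the shape consumed by Mathlib's integral Hilbert 90) and is a unit. -/
theorem norm_sub_eq_one_and_isUnit (hp : p.Prime) (hq : q.Prime) (hqp : q % p = 1)
    [IsCyclotomicExtension {p} ℚ K] [IsCyclotomicExtension {q} K M]
    {z : 𝓞 K} (hz : z ^ p = 1) (hz1 : z ≠ 1) {ζ : 𝓞 M} (hζ : IsPrimitiveRoot ζ q) :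
    Algebra.norm K (algebraMap (𝓞 M) M (algebraMap (𝓞 K) (𝓞 M) z - ζ)) = 1 ∧
      IsUnit (algebraMap (𝓞 K) (𝓞 M) z - ζ) := by
  have hzK : (z : K) ^ p = 1 := by exact_mod_cast congrArg (algebraMap (𝓞 K) K) hz
  have hz1K : (z : K) ≠ 1 := fun h => hz1 (RingOfIntegers.ext h)
  have hζM : IsPrimitiveRoot (ζ : M) q :=
    hζ.map_of_injective (FaithfulSMul.algebraMap_injective (𝓞 M) M)
  have hcoe : algebraMap (𝓞 M) M (algebraMap (𝓞 K) (𝓞 M) z - ζ) =
      algebraMap K M (z : K) - (ζ : M) := by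
    rw [map_sub]
    rfl
  have hnorm : Algebra.norm K (algebraMap (𝓞 M) M (algebraMap (𝓞 K) (𝓞 M) z - ζ)) = 1 := by
    rw [hcoe]
    exact norm_sub_eq_one K M hp hq hqp hzK hz1K hζM
  refine ⟨hnorm, ?_⟩
  have : FiniteDimensional K M := IsCyclotomicExtension.finiteDimensional {q} K M
  have : IsGalois K M := IsCyclotomicExtension.isGalois {q} K M
  rw [← RingOfIntegers.isUnit_norm_of_isGalois K]
  have h1 : RingOfIntegers.norm K (algebraMap (𝓞 K) (𝓞 M) z - ζ) = 1 := by
    apply RingOfIntegers.ext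
    rw [RingOfIntegers.coe_norm]
    exact hnorm
  rw [h1]
  exact isUnit_one

end T2int

end Fermat.Agent.S14.helper1334
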