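import Mathlib

/-!
# Thaine relation, part 1: the field `M = K(ζ_q)` over `K = ℚ(ζ_p)`

`p ≠ q` primes, `K` a `p`-th cyclotomic extension of `ℚ`, `M` a `q`-th cyclotomic extension of `K`.
* `M` is a `p*q`-th cyclotomic extension of `ℚ`;
* `[M : K] = q - 1`, the Galois group is cyclic, `σ ↦ (exponent of σ on ζ_q)` is a bijection
  onto `(ZMod q)ˣ`;
* if `q ≡ 1 mod p` then `N_{M/K}(ζ_p - ζ_q) = 1`.
-/

namespace Fermat.Agent.S14.helper134

open NumberField Polynomial

section setup

variable {p q : ℕ} [hp : Fact p.Prime] [hq : Fact q.Prime]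
variable (K : Type) [Field K] [NumberField K] [hK : IsCyclotomicExtension {p} ℚ K]
variable (M : Type) [Field M] [NumberField M] [Algebra K M] [hM : IsCyclotomicExtension {q} K M]

include hK hM in
theorem isCyclotomicExtension_mul (hpq : p ≠ q) : IsCyclotomicExtension {p * q} ℚ M := by
  have hp0 : p ≠ 0 := hp.out.ne_zero
  have hq0 : q ≠ 0 := hq.out.ne_zero
  have h1 : IsCyclotomicExtension ({p} ∪ {q}) ℚ M :=
    IsCyclotomicExtension.trans {p} {q} ℚ K M (algebraMap K M).injective
  rw [IsCyclotomicExtension.iff_adjoin_eq_top] at h1 ⊢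
  obtain ⟨h1a, h1b⟩ := h1
  refine ⟨?_, ?_⟩
  · intro n hn _
    rw [Set.mem_singleton_iff] at hn
    subst hn
    obtain ⟨a, ha⟩ := h1a p (by simp) hp0
    obtain ⟨b, hb⟩ := h1a q (by simp) hq0
    refine ⟨a * b, ?_⟩
    have hcop : Nat.Coprime (orderOf a) (orderOf b) := by
      rw [← ha.eq_orderOf, ← hb.eq_orderOf]
      exact (Nat.coprime_primes hp.out hq.out).mpr hpq
    have := (Commute.all a b).orderOf_mul_eq_mul_orderOf_of_coprime hcop
    rw [← ha.eq_orderOf, ← hb.eq_orderOf] at this
    rw [← this]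
    exact IsPrimitiveRoot.orderOf (a * b)
  · rw [eq_top_iff, ← h1b]
    refine Algebra.adjoin_mono ?_
    rintro x ⟨n, hn, hn0, hx⟩
    refine ⟨p * q, rfl, mul_ne_zero hp0 hq0, ?_⟩
    rcases hn with hn | hn
    · rw [Set.mem_singleton_iff] at hn
      subst hn
      rw [pow_mul, hx, one_pow]
    · rw [Set.mem_singleton_iff] at hn
      subst hn
      rw [mul_comm, pow_mul, hx, one_pow]

include hK hM in
theorem finrank_eq_sub_one (hpq : p ≠ q) : Module.finrank K M = q - 1 := by
  have := isCyclotomicExtension_mul (p := p) (q := q) K M hpq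
  have hpq0 : NeZero (p * q) := ⟨mul_ne_zero hp.out.ne_zero hq.out.ne_zero⟩
  have h1 : Module.finrank ℚ M = (p * q).totient :=
    IsCyclotomicExtension.finrank M (cyclotomic.irreducible_rat (Nat.pos_of_ne_zero hpq0.out))
  have h2 : Module.finrank ℚ K = p.totient :=
    IsCyclotomicExtension.finrank K (cyclotomic.irreducible_rat hp.out.pos)
  have h3 := Module.finrank_mul_finrank ℚ K M
  rw [h1, h2, Nat.totient_mul ((Nat.coprime_primes hp.out hq.out).mpr hpq),
    Nat.totient_prime hp.out, Nat.totient_prime hq.out] at h3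
  have hp1 : 0 < p - 1 := by have := hp.out.two_le; omega
  exact Nat.eq_of_mul_eq_mul_left hp1 h3

end setup

section galois

variable {p q : ℕ} [hp : Fact p.Prime] [hq : Fact q.Prime]
variable {K : Type} [Field K] [NumberField K] [hK : IsCyclotomicExtension {p} ℚ K]
variable {M : Type} [Field M] [NumberField M] [Algebra K M] [hM : IsCyclotomicExtension {q} K M]

include hK hM in
theorem autToPow_bijective [NeZero q] (hpq : p ≠ q) {ζq : M} (hζq : IsPrimitiveRoot ζq q) :
    Function.Bijective (hζq.autToPow K) := by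
  have hinj := hζq.autToPow_injective K
  have : IsGalois K M := IsCyclotomicExtension.isGalois {q} K M
  have : FiniteDimensional K M := IsCyclotomicExtension.finiteDimensional {q} K M
  refine hinj.bijective_of_nat_card_le ?_
  rw [IsGalois.card_aut_eq_finrank, finrank_eq_sub_one (p := p) K M hpq,
    Nat.card_eq_fintype_card, ZMod.card_units_eq_totient, Nat.totient_prime hq.out]

include hK hM in
/-- The Galois group of `M/K` is cyclic, with a generator `τ` acting on `ζ_q` by `ζ_q ↦ ζ_q ^ g`,
`g` prime to `q`. -/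
theorem exists_generator (hpq : p ≠ q) {ζq : M} (hζq : IsPrimitiveRoot ζq q) :
    ∃ (τ : M ≃ₐ[K] M) (g : ℕ), (∀ σ, σ ∈ Subgroup.zpowers τ) ∧ τ ζq = ζq ^ g ∧
      Nat.Coprime g q := by
  have : NeZero q := ⟨hq.out.ne_zero⟩
  have hbij := autToPow_bijective (p := p) (K := K) hpq hζq
  let e : (M ≃ₐ[K] M) ≃* (ZMod q)ˣ := MulEquiv.ofBijective (hζq.autToPow K) hbij
  have hcyc : IsCyclic (M ≃ₐ[K] M) := isCyclic_of_surjective e.symm e.symm.surjective
  obtain ⟨τ, hτ⟩ := hcyc.exists_generator
  refine ⟨τ, ((hζq.autToPow K τ : (ZMod q)ˣ) : ZMod q).val, hτ, ?_, ?_⟩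
  · exact (hζq.autToPow_spec K τ).symm
  · exact ZMod.val_coe_unit_coprime _

include hK hM in
/-- The conjugates of `ζ_q` over `K` are exactly the primitive `q`-th roots of unity. -/
theorem image_aut_eq_primitiveRoots [DecidableEq M] (hpq : p ≠ q) {ζq : M}
    (hζq : IsPrimitiveRoot ζq q) :
    letI : FiniteDimensional K M := IsCyclotomicExtension.finiteDimensional {q} K M
    (Finset.univ : Finset (M ≃ₐ[K] M)).image (fun σ => σ ζq) = primitiveRoots q M := by
  have : NeZero q := ⟨hq.out.ne_zero⟩
  have : IsGalois K M := IsCyclotomicExtension.isGalois {q} K M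
  have : FiniteDimensional K M := IsCyclotomicExtension.finiteDimensional {q} K M
  have hinj : Function.Injective (fun σ : M ≃ₐ[K] M => σ ζq) := by
    intro σ σ' h
    exact IsCyclotomicExtension.algEquiv_eq_of_apply_eq (S := {q}) (A := K) (B := M)
      (fun n hn _ => by
        rw [Set.mem_singleton_iff] at hn
        subst hn
        exact ⟨ζq, hζq, h⟩)
  refine Finset.eq_of_subset_of_card_le ?_ ?_
  · intro x hx
    rw [Finset.mem_image] at hx
    obtain ⟨σ, -, rfl⟩ := hx
    rw [mem_primitiveRoots hq.out.pos]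
    exact hζq.map_of_injective σ.injective
  · rw [Finset.card_image_of_injective _ hinj, hζq.card_primitiveRoots, Finset.card_univ,
      ← Nat.card_eq_fintype_card, IsGalois.card_aut_eq_finrank,
      finrank_eq_sub_one (p := p) K M hpq, Nat.totient_prime hq.out]

include hK hM in
/-- The norm of `ζ_p - ζ_q` from `M = K(ζ_q)` to `K = ℚ(ζ_p)` is `1` when `q ≡ 1 mod p`. -/
theorem norm_sub_eq_one (hpq : p ∣ q - 1) {ζp : K} (hζp : IsPrimitiveRoot ζp p) {ζq : M}
    (hζq : IsPrimitiveRoot ζq q) : Algebra.norm K (algebraMap K M ζp - ζq) = 1 := by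
  have hne : p ≠ q := by
    rintro rfl
    have h1 := Nat.le_of_dvd (by have := hp.out.two_le; omega) hpq
    have := hp.out.two_le
    omega
  classical
  have : IsGalois K M := IsCyclotomicExtension.isGalois {q} K M
  have : FiniteDimensional K M := IsCyclotomicExtension.finiteDimensional {q} K M
  apply (algebraMap K M).injective
  rw [Algebra.norm_eq_prod_automorphisms, map_one]
  have himg := image_aut_eq_primitiveRoots (p := p) (K := K) hne hζq
  have hinj : Function.Injective (fun σ : M ≃ₐ[K] M => σ ζq) := by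
    intro σ σ' h
    exact IsCyclotomicExtension.algEquiv_eq_of_apply_eq (S := {q}) (A := K) (B := M)
      (fun n hn _ => by
        rw [Set.mem_singleton_iff] at hn
        subst hn
        exact ⟨ζq, hζq, h⟩)
  set a : M := algebraMap K M ζp with ha
  have h1 : ∏ σ : M ≃ₐ[K] M, σ (a - ζq) = ∏ μ ∈ primitiveRoots q M, (a - μ) := by
    rw [← himg, Finset.prod_image (fun x _ y _ h => hinj h)]
    refine Finset.prod_congr rfl (fun σ _ => ?_)
    rw [map_sub, ha, AlgEquiv.commutes]
  have h2 : ∏ μ ∈ primitiveRoots q M, (a - μ) = (cyclotomic q M).eval a := by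
    rw [cyclotomic_eq_prod_X_sub_primitiveRoots hζq, eval_prod]
    refine Finset.prod_congr rfl (fun μ _ => ?_)
    rw [eval_sub, eval_X, eval_C]
  have h3 : (cyclotomic q M).eval a * (a - 1) = a ^ q - 1 := by
    have := congrArg (eval a) (cyclotomic_prime_mul_X_sub_one M q)
    simpa using this
  have hap : a ^ p = 1 := by
    rw [ha, ← map_pow, hζp.pow_eq_one, map_one]
  have haq : a ^ q = a := by
    obtain ⟨k, hk⟩ := hpq
    have hq1 : q = p * k + 1 := by have := hq.out.pos; omega
    rw [hq1, pow_succ, pow_mul, hap, one_pow, one_mul]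
  have ha1 : a - 1 ≠ 0 := by
    rw [sub_ne_zero, ha]
    intro h
    have h' : ζp = 1 := (algebraMap K M).injective (by rw [h, map_one])
    exact hζp.ne_one hp.out.one_lt h'
  rw [h1, h2]
  rw [haq] at h3
  exact mul_right_cancel₀ ha1 (by rw [h3, one_mul])

end galois

end Fermat.Agent.S14.helper134
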