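import Fermat.Agent.S14.helper134_ThaineGalois

/-!
# Thaine relation, part 3: ramification in `M = K(ζ_q)` over `K = ℚ(ζ_p)`

* `exists_mul_eq_of_span_eq_pow`: transfer of exact prime powers along an extension of Dedekind
  domains.
* `ramificationIdx_eq_one_of_not_mem`: primes of `M` not over `q` are unramified over `K`.
* `ramificationIdx_eq_sub_one_of_mem`: primes of `M` over `q` have ramification index `q - 1`
  over `K`.
-/

namespace Fermat.Agent.S14.helper134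

open NumberField Polynomial

section general

variable {A B : Type*} [CommRing A] [CommRing B] [IsDedekindDomain A] [IsDedekindDomain B]
  [Algebra A B] [FaithfulSMul A B]

/-- If `b ∈ P^n \ P^(n+1)`, `R` is a prime of `B` over `P` with ramification index `e`, and
`b B = (ε B)^k`, then `ε ∈ R^m \ R^(m+1)` with `e * n = k * m`. -/
theorem exists_mul_eq_of_span_eq_pow (P : Ideal A) [hPp : P.IsPrime] (hP : P ≠ ⊥) (R : Ideal B)
    [hRp : R.IsPrime] (hR : R ≠ ⊥) [R.LiesOver P] {b : A} {n : ℕ} (hn : b ∈ P ^ n)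
    (hn' : b ∉ P ^ (n + 1)) {ε : B} (hε : ε ≠ 0) {k : ℕ}
    (h : Ideal.span {algebraMap A B b} = Ideal.span {ε} ^ k) :
    ∃ m : ℕ, ε ∈ R ^ m ∧ ε ∉ R ^ (m + 1) ∧ P.ramificationIdx' R * n = k * m := by
  have hb : b ≠ 0 := by
    rintro rfl
    exact hn' (Ideal.zero_mem _)
  have hPprime : Prime P := Ideal.prime_of_isPrime hP hPp
  have hRprime : Prime R := Ideal.prime_of_isPrime hR hRp
  have hspan : Ideal.span {b} ≠ ⊥ := by
    rw [Ne, Ideal.span_singleton_eq_bot]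
    exact hb
  have h1 := Ideal.IsDedekindDomain.emultiplicity_map_eq_ramificationIdx'_mul (S := B) (v := P)
    (w := R) hspan hPprime.irreducible hRprime.irreducible hR
  rw [Ideal.map_span, Set.image_singleton, h, emultiplicity_pow hRprime] at h1
  have h2 : emultiplicity P (Ideal.span {b}) = n := by
    rw [emultiplicity_eq_coe, Ideal.dvd_iff_le, Ideal.dvd_iff_le, Ideal.span_singleton_le_iff_mem,
      Ideal.span_singleton_le_iff_mem]
    exact ⟨hn, hn'⟩
  have hfin : FiniteMultiplicity R (Ideal.span {ε}) :=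
    FiniteMultiplicity.of_prime_left hRprime (by
      rw [Ne, Ideal.zero_eq_bot, Ideal.span_singleton_eq_bot]
      exact hε)
  have h3 := hfin.emultiplicity_eq_multiplicity
  refine ⟨multiplicity R (Ideal.span {ε}), ?_, ?_, ?_⟩
  · have := (emultiplicity_eq_coe.mp h3).1
    rwa [Ideal.dvd_iff_le, Ideal.span_singleton_le_iff_mem] at this
  · have := (emultiplicity_eq_coe.mp h3).2
    rwa [Ideal.dvd_iff_le, Ideal.span_singleton_le_iff_mem] at this
  · rw [h2, h3] at h1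
    have h4 : ((k * multiplicity R (Ideal.span {ε}) : ℕ) : ℕ∞) =
        ((P.ramificationIdx' R * n : ℕ) : ℕ∞) := by
      push_cast
      exact h1
    exact (Nat.cast_injective h4).symm

end general

section ram

variable {p q : ℕ} [hp : Fact p.Prime] [hq : Fact q.Prime]
variable {K : Type} [Field K] [NumberField K] [hK : IsCyclotomicExtension {p} ℚ K]
variable {M : Type} [Field M] [NumberField M] [Algebra K M] [hM : IsCyclotomicExtension {q} K M]

omit hp hq [NumberField M] in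
/-- The rational prime below a nonzero prime of `𝓞 M`. -/
theorem exists_prime_under (R : Ideal (𝓞 M)) [R.IsPrime] (hR : R ≠ ⊥) :
    ∃ ℓ : ℕ, ℓ.Prime ∧ R.under ℤ = Ideal.span {(ℓ : ℤ)} := by
  have hRZ : (R.under ℤ).IsPrime := inferInstance
  have hRZ0 : R.under ℤ ≠ ⊥ := Ideal.under_ne_bot ℤ hR
  obtain h | ⟨ℓ, hℓ, hRℓ⟩ := Ideal.isPrime_int_iff.mp hRZ
  · exact absurd h hRZ0
  · exact ⟨ℓ, hℓ, hRℓ⟩

omit hp [NumberField M] in
theorem natCast_mem_iff_of_under (R : Ideal (𝓞 M)) {ℓ : ℕ} (hℓ : ℓ.Prime)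
    (hRℓ : R.under ℤ = Ideal.span {(ℓ : ℤ)}) : (q : 𝓞 M) ∈ R ↔ ℓ = q := by
  have key : (q : 𝓞 M) ∈ R ↔ (q : ℤ) ∈ R.under ℤ := by
    rw [Ideal.under_def, Ideal.mem_comap]
    simp
  rw [key, hRℓ, Ideal.mem_span_singleton, Int.natCast_dvd_natCast,
    Nat.prime_dvd_prime_iff_eq hℓ hq.out]

include hK hM in
/-- Primes of `M = K(ζ_q)` not above `q` are unramified over `K = ℚ(ζ_p)`. -/
theorem ramificationIdx_eq_one_of_not_mem (hpq : p ≠ q) (R : Ideal (𝓞 M)) [R.IsPrime]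
    (hR : R ≠ ⊥) (hqR : (q : 𝓞 M) ∉ R) : R.ramificationIdx (𝓞 K) = 1 := by
  have hcyc := isCyclotomicExtension_mul (p := p) (q := q) K M hpq
  have : NeZero (p * q) := ⟨mul_ne_zero hp.out.ne_zero hq.out.ne_zero⟩
  have : NeZero p := ⟨hp.out.ne_zero⟩
  obtain ⟨ℓ, hℓ, hRℓ⟩ := exists_prime_under R hR
  have hℓq : ℓ ≠ q := fun h => hqR ((natCast_mem_iff_of_under R hℓ hRℓ).mpr h)
  have : Fact ℓ.Prime := ⟨hℓ⟩
  have hlo : R.LiesOver (Ideal.span {(ℓ : ℤ)}) := ⟨hRℓ.symm⟩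
  have hPlo : (R.under (𝓞 K)).LiesOver (Ideal.span {(ℓ : ℤ)}) :=
    ⟨by rw [Ideal.under_under, hRℓ]⟩
  have htower := Ideal.ramificationIdx_tower (R := ℤ) (R.under (𝓞 K)) R
  by_cases hℓp : ℓ = p
  · subst hℓp
    have h1 : R.ramificationIdx ℤ = ℓ ^ 0 * (ℓ - 1) :=
      IsCyclotomicExtension.Rat.ramificationIdx_eq (ℓ * q) (m := q) (p := ℓ) (k := 0) M R
        (by ring) (fun h => hℓq ((Nat.prime_dvd_prime_iff_eq hℓ hq.out).mp h))
    have h2 : (R.under (𝓞 K)).ramificationIdx ℤ = ℓ - 1 :=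
      IsCyclotomicExtension.Rat.ramificationIdx_eq_of_prime ℓ K (R.under (𝓞 K))
    rw [h1, h2, pow_zero, one_mul] at htower
    have hpos : 0 < ℓ - 1 := by have := hℓ.two_le; omega
    have : (ℓ - 1) * 1 = (ℓ - 1) * R.ramificationIdx (𝓞 K) := by rw [mul_one]; exact htower
    exact (Nat.eq_of_mul_eq_mul_left hpos this).symm
  · have h1 : R.ramificationIdx ℤ = 1 :=
      IsCyclotomicExtension.Rat.ramificationIdx_eq_of_not_dvd (m := p * q) ℓ M R (fun h => by
        rcases (Nat.Prime.dvd_mul hℓ).mp h with h | h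
        · exact hℓp ((Nat.prime_dvd_prime_iff_eq hℓ hp.out).mp h)
        · exact hℓq ((Nat.prime_dvd_prime_iff_eq hℓ hq.out).mp h))
    rw [h1] at htower
    exact Nat.eq_one_of_mul_eq_one_left htower.symm

include hK hM in
/-- Primes of `M = K(ζ_q)` above `q` have ramification index `q - 1` over `K = ℚ(ζ_p)`. -/
theorem ramificationIdx_eq_sub_one_of_mem (hpq : p ≠ q) (R : Ideal (𝓞 M)) [R.IsPrime]
    (hR : R ≠ ⊥) (hqR : (q : 𝓞 M) ∈ R) : R.ramificationIdx (𝓞 K) = q - 1 := by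
  have hcyc := isCyclotomicExtension_mul (p := p) (q := q) K M hpq
  have : NeZero (p * q) := ⟨mul_ne_zero hp.out.ne_zero hq.out.ne_zero⟩
  have : NeZero p := ⟨hp.out.ne_zero⟩
  obtain ⟨ℓ, hℓ, hRℓ⟩ := exists_prime_under R hR
  have hℓq : ℓ = q := (natCast_mem_iff_of_under R hℓ hRℓ).mp hqR
  subst hℓq
  have hlo : R.LiesOver (Ideal.span {(ℓ : ℤ)}) := ⟨hRℓ.symm⟩
  have hPlo : (R.under (𝓞 K)).LiesOver (Ideal.span {(ℓ : ℤ)}) :=
    ⟨by rw [Ideal.under_under, hRℓ]⟩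
  have htower := Ideal.ramificationIdx_tower (R := ℤ) (R.under (𝓞 K)) R
  have hnd : ¬ ℓ ∣ p := fun h => hpq ((Nat.prime_dvd_prime_iff_eq hℓ hp.out).mp h).symm
  have h1 : R.ramificationIdx ℤ = ℓ ^ 0 * (ℓ - 1) :=
    IsCyclotomicExtension.Rat.ramificationIdx_eq (p * ℓ) (m := p) (p := ℓ) (k := 0) M R
      (by ring) hnd
  have h2 : (R.under (𝓞 K)).ramificationIdx ℤ = 1 :=
    IsCyclotomicExtension.Rat.ramificationIdx_eq_of_not_dvd (m := p) ℓ K (R.under (𝓞 K)) hnd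
  rw [h1, h2, pow_zero, one_mul, one_mul] at htower
  exact htower.symm

include hK hM in
/-- Primes of `M = K(ζ_q)` above `q` have ramification index `q - 1` over `ℤ`. -/
theorem ramificationIdx_int_eq_sub_one_of_mem (hpq : p ≠ q) (R : Ideal (𝓞 M)) [R.IsPrime]
    (hR : R ≠ ⊥) (hqR : (q : 𝓞 M) ∈ R) : R.ramificationIdx ℤ = q - 1 := by
  have hcyc := isCyclotomicExtension_mul (p := p) (q := q) K M hpq
  have : NeZero (p * q) := ⟨mul_ne_zero hp.out.ne_zero hq.out.ne_zero⟩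
  obtain ⟨ℓ, hℓ, hRℓ⟩ := exists_prime_under R hR
  have hℓq : ℓ = q := (natCast_mem_iff_of_under R hℓ hRℓ).mp hqR
  subst hℓq
  have hlo : R.LiesOver (Ideal.span {(ℓ : ℤ)}) := ⟨hRℓ.symm⟩
  have hnd : ¬ ℓ ∣ p := fun h => hpq ((Nat.prime_dvd_prime_iff_eq hℓ hp.out).mp h).symm
  have h1 : R.ramificationIdx ℤ = ℓ ^ 0 * (ℓ - 1) :=
    IsCyclotomicExtension.Rat.ramificationIdx_eq (p * ℓ) (m := p) (p := ℓ) (k := 0) M R
      (by ring) hnd
  rw [h1, pow_zero, one_mul]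

end ram

end Fermat.Agent.S14.helper134
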