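import Mathlib

/-!
# S14, Thaine route, unit part (U)   [helper1378]

For `K = ℚ(ζ_p)`, `p ≥ 5`: the `ω²`-eigenspace of the units of `K` modulo torsion and `p`-th
powers is at most one-dimensional (`unit_eigen`, `unit_eigen_coe`).

Proof: the Galois group acts on Mathlib's `unitLattice K ⊂ logSpace K` by permuting the infinite
places (`logAct`, `latAct`); the trace of `σ` on the lattice is `rank K` if `σ` fixes the infinite
places and `-1` otherwise (`trace_latAct_of_mem`, `trace_latAct_of_not_mem`).  Modulo `p`, minus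
`T = ∑ σ, χ(σ)⁻² • σ` is the projector onto the `χ²`-eigenspace, and `trace T = -1`, so the
eigenspace has dimension `1` (`finrank_eigSpace`).
-/

set_option autoImplicit false

namespace Fermat.Agent.S14.helper1378

open NumberField NumberField.Units NumberField.InfinitePlace Module
open NumberField.Units.dirichletUnitTheorem

variable (K : Type*) [Field K] [NumberField K]

/-- Galois action on the units of the ring of integers. -/
noncomputable def unitMap (σ : K ≃ₐ[ℚ] K) : (𝓞 K)ˣ ≃* (𝓞 K)ˣ :=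
  Units.mapEquiv (RingOfIntegers.mapRingEquiv σ.toRingEquiv).toMulEquiv

lemma coe_unitMap (σ : K ≃ₐ[ℚ] K) (u : (𝓞 K)ˣ) :
    ((unitMap K σ u : (𝓞 K)ˣ) : K) = σ (u : K) := rfl

lemma unitMap_mul (σ τ : K ≃ₐ[ℚ] K) (u : (𝓞 K)ˣ) :
    unitMap K (σ * τ) u = unitMap K σ (unitMap K τ u) := by
  apply Units.ext
  apply RingOfIntegers.ext
  rfl

lemma mult_smul_eq (σ : K ≃ₐ[ℚ] K) (w : InfinitePlace K) : mult (σ • w) = mult w := by
  unfold mult
  rw [isReal_smul_iff]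

lemma place_unitMap (σ : K ≃ₐ[ℚ] K) (u : (𝓞 K)ˣ) (w : InfinitePlace K) :
    w ((unitMap K σ u : (𝓞 K)ˣ) : K) = (σ⁻¹ • w) (u : K) := by
  rw [coe_unitMap, InfinitePlace.smul_apply]
  rfl

open Classical in
/-- The action of the Galois group on the logarithmic space, compatible with `logEmbedding`. -/
noncomputable def logAct (σ : K ≃ₐ[ℚ] K) : logSpace K →ₗ[ℝ] logSpace K where
  toFun x := fun w => if h : σ⁻¹ • w.1 = w₀ then - ∑ w', x w' else x ⟨σ⁻¹ • w.1, h⟩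
  map_add' x y := by
    funext w
    by_cases h : σ⁻¹ • w.1 = w₀
    · simp only [h, dite_true, Pi.add_apply, Finset.sum_add_distrib]; ring
    · simp only [h, dite_false, Pi.add_apply]
  map_smul' c x := by
    funext w
    by_cases h : σ⁻¹ • w.1 = w₀
    · simp only [h, dite_true, Pi.smul_apply, smul_eq_mul, RingHom.id_apply]
      rw [mul_neg, Finset.mul_sum]
    · simp only [h, dite_false, Pi.smul_apply, smul_eq_mul, RingHom.id_apply]

lemma logAct_logEmbedding (σ : K ≃ₐ[ℚ] K) (u : (𝓞 K)ˣ) :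
    logAct K σ (logEmbedding K (Additive.ofMul u)) =
      logEmbedding K (Additive.ofMul (unitMap K σ u)) := by
  classical
  funext w
  rw [logEmbedding_component, place_unitMap]
  by_cases h : σ⁻¹ • w.1 = w₀
  · have : logAct K σ (logEmbedding K (Additive.ofMul u)) w =
        - ∑ w', logEmbedding K (Additive.ofMul u) w' := by
      simp only [logAct, LinearMap.coe_mk, AddHom.coe_mk, h, dite_true]
    rw [this, sum_logEmbedding_component, h, ← mult_smul_eq K σ⁻¹ w.1, h]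
    ring
  · have : logAct K σ (logEmbedding K (Additive.ofMul u)) w =
        logEmbedding K (Additive.ofMul u) ⟨σ⁻¹ • w.1, h⟩ := by
      simp only [logAct, LinearMap.coe_mk, AddHom.coe_mk, h, dite_false]
    rw [this, logEmbedding_component, mult_smul_eq]

open Classical in
lemma logAct_apply_of_eq (σ : K ≃ₐ[ℚ] K) (x : logSpace K) (w : {w : InfinitePlace K // w ≠ w₀})
    (h : σ⁻¹ • w.1 = w₀) : logAct K σ x w = - ∑ w', x w' := by
  classical
  simp only [logAct, LinearMap.coe_mk, AddHom.coe_mk, h, dite_true]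

open Classical in
lemma logAct_apply_of_ne (σ : K ≃ₐ[ℚ] K) (x : logSpace K) (w : {w : InfinitePlace K // w ≠ w₀})
    (h : σ⁻¹ • w.1 ≠ w₀) : logAct K σ x w = x ⟨σ⁻¹ • w.1, h⟩ := by
  classical
  simp only [logAct, LinearMap.coe_mk, AddHom.coe_mk, h, dite_false]

open Classical in
lemma trace_logAct (σ : K ≃ₐ[ℚ] K) :
    LinearMap.trace ℝ (logSpace K) (logAct K σ) =
      ∑ w : {w : InfinitePlace K // w ≠ w₀},
        (if σ⁻¹ • w.1 = w₀ then (-1 : ℝ) else if σ⁻¹ • w.1 = w.1 then 1 else 0) := by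
  rw [LinearMap.trace_eq_matrix_trace ℝ (Pi.basisFun ℝ _)]
  unfold Matrix.trace
  apply Finset.sum_congr rfl
  intro w _
  rw [Matrix.diag_apply, LinearMap.toMatrix_apply, Pi.basisFun_repr, Pi.basisFun_apply]
  by_cases h : σ⁻¹ • w.1 = w₀
  · rw [logAct_apply_of_eq K σ _ w h, if_pos h, Finset.sum_pi_single']
    simp
  · rw [logAct_apply_of_ne K σ _ w h, if_neg h]
    by_cases h' : σ⁻¹ • w.1 = w.1
    · rw [if_pos h']
      have : (⟨σ⁻¹ • w.1, h⟩ : {w : InfinitePlace K // w ≠ w₀}) = w := Subtype.ext h'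
      rw [this, Pi.single_eq_same]
    · rw [if_neg h']
      have : (⟨σ⁻¹ • w.1, h⟩ : {w : InfinitePlace K // w ≠ w₀}) ≠ w := fun hh => h' (congrArg Subtype.val hh)
      rw [Pi.single_eq_of_ne this]

lemma trace_logAct_of_mem (S : Subgroup (K ≃ₐ[ℚ] K))
    (hS : ∀ w : InfinitePlace K, MulAction.stabilizer (K ≃ₐ[ℚ] K) w = S)
    (σ : K ≃ₐ[ℚ] K) (hσ : σ ∈ S) :
    LinearMap.trace ℝ (logSpace K) (logAct K σ) = (rank K : ℝ) := by
  classical
  rw [trace_logAct]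
  have hfix : ∀ w : InfinitePlace K, σ⁻¹ • w = w := fun w => by
    have : σ⁻¹ ∈ MulAction.stabilizer (K ≃ₐ[ℚ] K) w := by rw [hS w]; exact S.inv_mem hσ
    exact this
  have : ∀ w : {w : InfinitePlace K // w ≠ w₀},
      (if σ⁻¹ • w.1 = w₀ then (-1 : ℝ) else if σ⁻¹ • w.1 = w.1 then 1 else 0) = 1 := by
    intro w
    rw [hfix w.1, if_neg w.2, if_pos rfl]
  simp only [this, Finset.sum_const, Finset.card_univ, nsmul_eq_mul, mul_one]
  rw [← NumberField.Units.finrank_eq_rank K, Module.finrank_fintype_fun_eq_card]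

lemma trace_logAct_of_not_mem (S : Subgroup (K ≃ₐ[ℚ] K))
    (hS : ∀ w : InfinitePlace K, MulAction.stabilizer (K ≃ₐ[ℚ] K) w = S)
    (σ : K ≃ₐ[ℚ] K) (hσ : σ ∉ S) :
    LinearMap.trace ℝ (logSpace K) (logAct K σ) = -1 := by
  classical
  rw [trace_logAct]
  have hnofix : ∀ w : InfinitePlace K, σ⁻¹ • w ≠ w := fun w hw => by
    have : σ⁻¹ ∈ MulAction.stabilizer (K ≃ₐ[ℚ] K) w := hw
    rw [hS w] at this
    exact hσ (by simpa using S.inv_mem this)
  have hne : σ • (w₀ : InfinitePlace K) ≠ w₀ := fun hw => by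
    have : σ ∈ MulAction.stabilizer (K ≃ₐ[ℚ] K) (w₀ : InfinitePlace K) := hw
    rw [hS] at this
    exact hσ this
  rw [Finset.sum_eq_single (⟨σ • w₀, hne⟩ : {w : InfinitePlace K // w ≠ w₀})]
  · rw [if_pos]
    simp
  · intro w _ hw
    have h1 : σ⁻¹ • w.1 ≠ w₀ := fun h => by
      have h2 : w.1 = σ • w₀ := (smul_inv_smul σ w.1).symm.trans (congrArg (σ • ·) h)
      exact hw (Subtype.ext h2)
    rw [if_neg h1, if_neg (hnofix w.1)]
  · intro h
    exact absurd (Finset.mem_univ _) h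

lemma logAct_mem_unitLattice (σ : K ≃ₐ[ℚ] K) (x : logSpace K) (hx : x ∈ unitLattice K) :
    logAct K σ x ∈ unitLattice K := by
  obtain ⟨u, -, rfl⟩ := hx
  exact ⟨Additive.ofMul (unitMap K σ (Additive.toMul u)), trivial,
    (logAct_logEmbedding K σ _).symm⟩

/-- The Galois action on the unit lattice. -/
noncomputable def latAct (σ : K ≃ₐ[ℚ] K) : unitLattice K →ₗ[ℤ] unitLattice K :=
  ((logAct K σ).restrictScalars ℤ).restrict (fun x hx => logAct_mem_unitLattice K σ x hx)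

lemma coe_latAct (σ : K ≃ₐ[ℚ] K) (x : unitLattice K) :
    ((latAct K σ x : unitLattice K) : logSpace K) = logAct K σ (x : logSpace K) := rfl

lemma trace_latAct (σ : K ≃ₐ[ℚ] K) :
    ((LinearMap.trace ℤ (unitLattice K) (latAct K σ) : ℤ) : ℝ) =
      LinearMap.trace ℝ (logSpace K) (logAct K σ) := by
  classical
  let b := basisUnitLattice K
  rw [LinearMap.trace_eq_matrix_trace ℤ b,
    LinearMap.trace_eq_matrix_trace ℝ (b.ofZLatticeBasis ℝ (unitLattice K))]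
  unfold Matrix.trace
  rw [Int.cast_sum]
  apply Finset.sum_congr rfl
  intro i _
  rw [Matrix.diag_apply, Matrix.diag_apply, LinearMap.toMatrix_apply, LinearMap.toMatrix_apply,
    Basis.ofZLatticeBasis_apply, ← coe_latAct, Basis.ofZLatticeBasis_repr_apply]


section Vec

/-- The lattice point of a unit. -/
noncomputable def latt (u : (𝓞 K)ˣ) : unitLattice K :=
  ⟨logEmbedding K (Additive.ofMul u), ⟨Additive.ofMul u, trivial, rfl⟩⟩

lemma latt_mul (u v : (𝓞 K)ˣ) : latt K (u * v) = latt K u + latt K v :=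
  Subtype.ext (by simp [latt, ofMul_mul])

lemma latt_one : latt K 1 = 0 :=
  Subtype.ext (by simp [latt])

lemma latt_pow (u : (𝓞 K)ˣ) (n : ℕ) : latt K (u ^ n) = n • latt K u := by
  induction n with
  | zero => simp [latt_one]
  | succ n ih => rw [pow_succ, latt_mul, ih, succ_nsmul]

lemma latt_eq_zero_iff (u : (𝓞 K)ˣ) : latt K u = 0 ↔ u ∈ torsion K := by
  rw [← logEmbedding_eq_zero_iff]
  constructor
  · intro h; exact congrArg Subtype.val h
  · intro h; exact Subtype.ext h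

lemma latt_surjective : Function.Surjective (latt K) := by
  rintro ⟨x, u, -, rfl⟩
  exact ⟨Additive.toMul u, rfl⟩

lemma latt_unitMap (σ : K ≃ₐ[ℚ] K) (u : (𝓞 K)ˣ) :
    latt K (unitMap K σ u) = latAct K σ (latt K u) :=
  Subtype.ext (logAct_logEmbedding K σ u).symm

lemma latAct_mul (σ τ : K ≃ₐ[ℚ] K) : latAct K (σ * τ) = latAct K σ ∘ₗ latAct K τ := by
  ext1 x
  obtain ⟨u, rfl⟩ := latt_surjective K x
  rw [LinearMap.comp_apply, ← latt_unitMap, ← latt_unitMap, ← latt_unitMap, unitMap_mul]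

/-- Integer matrix of the Galois action on the unit lattice. -/
noncomputable def matZ (σ : K ≃ₐ[ℚ] K) : Matrix (Fin (rank K)) (Fin (rank K)) ℤ :=
  LinearMap.toMatrix (basisUnitLattice K) (basisUnitLattice K) (latAct K σ)

/-- Integer coordinates of a unit. -/
noncomputable def vecZ (u : (𝓞 K)ˣ) : Fin (rank K) → ℤ :=
  (basisUnitLattice K).repr (latt K u)

lemma vecZ_unitMap (σ : K ≃ₐ[ℚ] K) (u : (𝓞 K)ˣ) :
    vecZ K (unitMap K σ u) = (matZ K σ).mulVec (vecZ K u) := by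
  unfold vecZ matZ
  rw [LinearMap.toMatrix_mulVec_repr, latt_unitMap]

lemma vecZ_mul (u v : (𝓞 K)ˣ) : vecZ K (u * v) = vecZ K u + vecZ K v := by
  unfold vecZ
  rw [latt_mul, map_add]
  rfl

lemma vecZ_pow (u : (𝓞 K)ˣ) (n : ℕ) : vecZ K (u ^ n) = n • vecZ K u := by
  unfold vecZ
  rw [latt_pow, map_nsmul]
  rfl

lemma vecZ_torsion (u : (𝓞 K)ˣ) (hu : u ∈ torsion K) : vecZ K u = 0 := by
  unfold vecZ
  rw [(latt_eq_zero_iff K u).mpr hu, map_zero]
  rfl

lemma matZ_mul (σ τ : K ≃ₐ[ℚ] K) : matZ K (σ * τ) = matZ K σ * matZ K τ := by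
  unfold matZ
  rw [latAct_mul, LinearMap.toMatrix_comp (basisUnitLattice K) (basisUnitLattice K)]

lemma trace_matZ (σ : K ≃ₐ[ℚ] K) :
    (matZ K σ).trace = LinearMap.trace ℤ (unitLattice K) (latAct K σ) := by
  unfold matZ
  rw [LinearMap.trace_eq_matrix_trace ℤ (basisUnitLattice K)]

variable (p : ℕ) [hp : Fact p.Prime]

/-- Matrix mod `p` of the Galois action on the unit lattice. -/
noncomputable def mat (σ : K ≃ₐ[ℚ] K) : Matrix (Fin (rank K)) (Fin (rank K)) (ZMod p) :=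
  (matZ K σ).map (Int.castRingHom (ZMod p))

/-- Coordinates mod `p` of a unit. -/
noncomputable def vec (u : (𝓞 K)ˣ) : Fin (rank K) → ZMod p :=
  fun i => ((vecZ K u i : ℤ) : ZMod p)

lemma vec_unitMap (σ : K ≃ₐ[ℚ] K) (u : (𝓞 K)ˣ) :
    vec K p (unitMap K σ u) = (mat K p σ).mulVec (vec K p u) := by
  funext i
  unfold vec mat
  rw [vecZ_unitMap]
  exact (RingHom.map_mulVec (Int.castRingHom (ZMod p)) (matZ K σ) (vecZ K u) i).symm ▸ rfl

lemma vec_mul (u v : (𝓞 K)ˣ) : vec K p (u * v) = vec K p u + vec K p v := by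
  funext i
  simp [vec, vecZ_mul]

lemma vec_pow (u : (𝓞 K)ˣ) (n : ℕ) : vec K p (u ^ n) = (n : ZMod p) • vec K p u := by
  funext i
  simp [vec, vecZ_pow]

lemma vec_pow_p (u : (𝓞 K)ˣ) : vec K p (u ^ p) = 0 := by
  rw [vec_pow]
  simp

lemma vec_torsion (u : (𝓞 K)ˣ) (hu : u ∈ torsion K) : vec K p u = 0 := by
  funext i
  simp [vec, vecZ_torsion K u hu]

lemma mat_mul (σ τ : K ≃ₐ[ℚ] K) : mat K p (σ * τ) = mat K p σ * mat K p τ := by
  unfold mat
  rw [matZ_mul, Matrix.map_mul]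

lemma trace_mat (σ : K ≃ₐ[ℚ] K) :
    (mat K p σ).trace = ((LinearMap.trace ℤ (unitLattice K) (latAct K σ) : ℤ) : ZMod p) := by
  unfold mat
  rw [← trace_matZ]
  exact (AddMonoidHom.map_trace (Int.castAddHom (ZMod p)) (matZ K σ)).symm

lemma exists_of_vec_eq_zero (u : (𝓞 K)ˣ) (h : vec K p u = 0) :
    ∃ (t v : (𝓞 K)ˣ), t ∈ torsion K ∧ u = t * v ^ p := by
  have hdiv : ∀ i, (p : ℤ) ∣ vecZ K u i := fun i => by
    have := congrFun h i
    simp only [vec, Pi.zero_apply] at this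
    exact (ZMod.intCast_zmod_eq_zero_iff_dvd _ _).mp this
  choose k hk using hdiv
  obtain ⟨v, hv⟩ := latt_surjective K (∑ i, k i • basisUnitLattice K i)
  refine ⟨u * (v ^ p)⁻¹, v, ?_, by group⟩
  rw [← latt_eq_zero_iff]
  have h1 : latt K (u * (v ^ p)⁻¹) + latt K (v ^ p) = latt K u := by
    rw [← latt_mul]; congr 1; group
  have h2 : latt K u = latt K (v ^ p) := by
    rw [latt_pow, hv]
    apply (basisUnitLattice K).repr.injective
    ext i
    rw [map_nsmul, Finsupp.smul_apply, Basis.repr_sum_self]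
    have := hk i
    unfold vecZ at this
    rw [this]
    simp
  rw [← h2] at h1
  simpa using h1

end Vec

section Cyclo

variable (p : ℕ) [hp : Fact p.Prime] [IsCyclotomicExtension {p} ℚ K]
variable {K}

/-- The cyclotomic character attached to a primitive `p`-th root of unity. -/
noncomputable def chi {ζ : K} (hζ : IsPrimitiveRoot ζ p) : (K ≃ₐ[ℚ] K) →* (ZMod p)ˣ :=
  hζ.autToPow ℚ

omit [IsCyclotomicExtension {p} ℚ K] in
lemma chi_spec {ζ : K} (hζ : IsPrimitiveRoot ζ p) (σ : K ≃ₐ[ℚ] K) :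
    σ ζ = ζ ^ ((chi p hζ σ : (ZMod p)ˣ) : ZMod p).val :=
  (hζ.autToPow_spec ℚ σ).symm

lemma chi_injective {ζ : K} (hζ : IsPrimitiveRoot ζ p) : Function.Injective (chi p hζ) :=
  hζ.autToPow_injective ℚ

lemma gal_comm {ζ : K} (hζ : IsPrimitiveRoot ζ p) (σ τ : K ≃ₐ[ℚ] K) : σ * τ = τ * σ := by
  apply chi_injective p hζ
  rw [map_mul, map_mul, mul_comm]

variable (K) in
lemma card_gal : Nat.card (K ≃ₐ[ℚ] K) = p - 1 := by
  have : IsGalois ℚ K := IsCyclotomicExtension.isGalois {p} ℚ K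
  rw [IsGalois.card_aut_eq_finrank,
    IsCyclotomicExtension.finrank (n := p) K (Polynomial.cyclotomic.irreducible_rat hp.out.pos),
    Nat.totient_prime hp.out]

lemma chi_bijective {ζ : K} (hζ : IsPrimitiveRoot ζ p) : Function.Bijective (chi p hζ) := by
  have : Finite (K ≃ₐ[ℚ] K) := Nat.finite_of_card_ne_zero (by
    rw [card_gal K p]; have := hp.out.two_le; omega)
  rw [Nat.bijective_iff_injective_and_card]
  refine ⟨chi_injective p hζ, ?_⟩
  rw [card_gal K p, Nat.card_eq_fintype_card, ZMod.card_units_eq_totient, Nat.totient_prime hp.out]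

variable (K) in
lemma stabilizer_eq {ζ : K} (hζ : IsPrimitiveRoot ζ p) (w w' : InfinitePlace K) :
    MulAction.stabilizer (K ≃ₐ[ℚ] K) w = MulAction.stabilizer (K ≃ₐ[ℚ] K) w' := by
  have : IsGalois ℚ K := IsCyclotomicExtension.isGalois {p} ℚ K
  obtain ⟨τ, rfl⟩ := exists_smul_eq_of_comap_eq (k := ℚ) (w := w) (w' := w')
    (Subsingleton.elim _ _)
  ext σ
  simp only [MulAction.mem_stabilizer_iff]
  rw [← mul_smul, gal_comm p hζ σ τ, mul_smul]
  constructor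
  · intro h; rw [h]
  · intro h; exact smul_left_cancel τ h

variable (K) in
lemma card_stab (hp3 : 2 < p) :
    Nat.card (MulAction.stabilizer (K ≃ₐ[ℚ] K) (w₀ : InfinitePlace K)) = 2 := by
  have : IsGalois ℚ K := IsCyclotomicExtension.isGalois {p} ℚ K
  have htc : IsTotallyComplex K := IsCyclotomicExtension.Rat.isTotallyComplex (n := p) K hp3
  rw [← isRamified_iff_card_stabilizer_eq_two, isRamified_iff]
  refine ⟨htc.isComplex _, ?_⟩
  rw [Subsingleton.elim (InfinitePlace.comap w₀ (algebraMap ℚ K)) Rat.infinitePlace]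
  exact Rat.isReal_infinitePlace

variable (K) in
lemma two_mul_rank (hp3 : 2 < p) : 2 * (rank K + 1) = p - 1 := by
  classical
  have h1 := card_add_two_mul_card_eq_rank K
  have h2 := card_eq_nrRealPlaces_add_nrComplexPlaces K
  have h3 := IsCyclotomicExtension.Rat.nrRealPlaces_eq_zero (n := p) K hp3
  have h4 := IsCyclotomicExtension.finrank (n := p) K
    (Polynomial.cyclotomic.irreducible_rat hp.out.pos)
  rw [Nat.totient_prime hp.out] at h4
  have h5 : 0 < Fintype.card (InfinitePlace K) := Fintype.card_pos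
  unfold rank
  omega

variable (K) in
lemma trace_latAct_of_mem {ζ : K} (hζ : IsPrimitiveRoot ζ p) (σ : K ≃ₐ[ℚ] K)
    (hσ : σ ∈ MulAction.stabilizer (K ≃ₐ[ℚ] K) (w₀ : InfinitePlace K)) :
    LinearMap.trace ℤ (unitLattice K) (latAct K σ) = (rank K : ℤ) := by
  have h := trace_latAct K σ
  rw [trace_logAct_of_mem K _ (fun w => stabilizer_eq K p hζ w w₀) σ hσ] at h
  exact_mod_cast h

variable (K) in
lemma trace_latAct_of_not_mem {ζ : K} (hζ : IsPrimitiveRoot ζ p) (σ : K ≃ₐ[ℚ] K)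
    (hσ : σ ∉ MulAction.stabilizer (K ≃ₐ[ℚ] K) (w₀ : InfinitePlace K)) :
    LinearMap.trace ℤ (unitLattice K) (latAct K σ) = -1 := by
  have h := trace_latAct K σ
  rw [trace_logAct_of_not_mem K _ (fun w => stabilizer_eq K p hζ w w₀) σ hσ] at h
  exact_mod_cast h

end Cyclo

section Main

variable (p : ℕ) [hp : Fact p.Prime] [IsCyclotomicExtension {p} ℚ K]
variable {K}
variable {ζ : K} (hζ : IsPrimitiveRoot ζ p)

/-- The coefficient `χ(σ)⁻²`. -/
noncomputable def coef (σ : K ≃ₐ[ℚ] K) : ZMod p :=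
  (((chi p hζ σ)⁻¹ : (ZMod p)ˣ) : ZMod p) ^ 2

omit [IsCyclotomicExtension {p} ℚ K] in
lemma coef_mul_sq (σ : K ≃ₐ[ℚ] K) :
    coef p hζ σ * ((chi p hζ σ : (ZMod p)ˣ) : ZMod p) ^ 2 = 1 := by
  unfold coef
  rw [← mul_pow, ← Units.val_mul, inv_mul_cancel, Units.val_one, one_pow]

omit [IsCyclotomicExtension {p} ℚ K] in
lemma coef_inv_mul (τ σ : K ≃ₐ[ℚ] K) :
    coef p hζ (τ⁻¹ * σ) = ((chi p hζ τ : (ZMod p)ˣ) : ZMod p) ^ 2 * coef p hζ σ := by
  unfold coef
  rw [map_mul, map_inv, mul_inv, inv_inv, Units.val_mul, mul_pow]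

/-- The (negative of the) projector onto the `χ²`-eigenspace. -/
noncomputable def Tmat : Matrix (Fin (rank K)) (Fin (rank K)) (ZMod p) :=
  ∑ σ : K ≃ₐ[ℚ] K, coef p hζ σ • mat K p σ

omit [IsCyclotomicExtension {p} ℚ K] in
lemma mat_mul_Tmat (τ : K ≃ₐ[ℚ] K) :
    mat K p τ * Tmat p hζ = ((chi p hζ τ : (ZMod p)ˣ) : ZMod p) ^ 2 • Tmat p hζ := by
  unfold Tmat
  rw [Matrix.mul_sum, Finset.smul_sum]
  rw [← Fintype.sum_equiv (Equiv.mulLeft τ)
    (fun σ => mat K p τ * coef p hζ σ • mat K p σ)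
    (fun σ => ((chi p hζ τ : (ZMod p)ˣ) : ZMod p) ^ 2 • coef p hζ σ • mat K p σ)]
  intro σ
  simp only [Equiv.coe_mulLeft]
  rw [Matrix.mul_smul, ← mat_mul, smul_smul, ← coef_inv_mul, inv_mul_cancel_left]

/-- The `χ²`-eigenspace of the Galois action on the unit lattice mod `p`. -/
noncomputable def eigSpace : Submodule (ZMod p) (Fin (rank K) → ZMod p) where
  carrier := {v | ∀ σ : K ≃ₐ[ℚ] K,
    (mat K p σ).mulVec v = ((chi p hζ σ : (ZMod p)ˣ) : ZMod p) ^ 2 • v}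
  add_mem' := by
    intro a b ha hb σ
    rw [Matrix.mulVec_add, ha σ, hb σ, smul_add]
  zero_mem' := by
    intro σ
    rw [Matrix.mulVec_zero, smul_zero]
  smul_mem' := by
    intro c v hv σ
    rw [Matrix.mulVec_smul, hv σ, smul_comm]

omit [IsCyclotomicExtension {p} ℚ K] in
lemma mem_eigSpace (v : Fin (rank K) → ZMod p) :
    v ∈ eigSpace p hζ ↔ ∀ σ : K ≃ₐ[ℚ] K,
      (mat K p σ).mulVec v = ((chi p hζ σ : (ZMod p)ˣ) : ZMod p) ^ 2 • v := Iff.rfl

lemma card_gal_cast : ((Fintype.card (K ≃ₐ[ℚ] K) : ℕ) : ZMod p) = -1 := by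
  rw [← Nat.card_eq_fintype_card, card_gal K p, Nat.cast_sub hp.out.one_le]
  simp

lemma Tmat_mulVec_of_mem (v : Fin (rank K) → ZMod p) (hv : v ∈ eigSpace p hζ) :
    (Tmat p hζ).mulVec v = -v := by
  unfold Tmat
  rw [Matrix.sum_mulVec]
  have : ∀ σ : K ≃ₐ[ℚ] K, (coef p hζ σ • mat K p σ).mulVec v = v := by
    intro σ
    rw [Matrix.smul_mulVec, hv σ, smul_smul, coef_mul_sq, one_smul]
  simp only [this, Finset.sum_const, Finset.card_univ]
  rw [← Nat.cast_smul_eq_nsmul (ZMod p), card_gal_cast, neg_smul, one_smul]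

lemma sum_units_inv_sq (hp5 : 5 ≤ p) :
    ∑ x : (ZMod p)ˣ, ((x⁻¹ : (ZMod p)ˣ) : ZMod p) ^ 2 = 0 := by
  have h2 : Nat.Coprime 2 p := by
    rw [Nat.coprime_comm, Nat.Prime.coprime_iff_not_dvd hp.out]
    intro h
    have := Nat.le_of_dvd (by norm_num) h
    omega
  let y : (ZMod p)ˣ := ZMod.unitOfCoprime 2 h2
  have hy : ((y : (ZMod p)ˣ) : ZMod p) = 2 := by simp [y]
  set S := ∑ x : (ZMod p)ˣ, ((x⁻¹ : (ZMod p)ˣ) : ZMod p) ^ 2 with hS
  have key : S = ((y⁻¹ : (ZMod p)ˣ) : ZMod p) ^ 2 * S := by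
    rw [hS, Finset.mul_sum]
    rw [← Fintype.sum_equiv (Equiv.mulLeft y)
      (fun x => ((y⁻¹ : (ZMod p)ˣ) : ZMod p) ^ 2 * ((x⁻¹ : (ZMod p)ˣ) : ZMod p) ^ 2)
      (fun x => ((x⁻¹ : (ZMod p)ˣ) : ZMod p) ^ 2)]
    intro x
    simp only [Equiv.coe_mulLeft]
    rw [mul_inv, Units.val_mul, mul_pow]
  have hne : ((y⁻¹ : (ZMod p)ˣ) : ZMod p) ^ 2 ≠ 1 := by
    intro h
    have h4 : ((y : (ZMod p)ˣ) : ZMod p) ^ 2 = 1 := by
      have h' : ((y⁻¹ : (ZMod p)ˣ) : ZMod p) ^ 2 * ((y : (ZMod p)ˣ) : ZMod p) ^ 2 = 1 := by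
        rw [← mul_pow, ← Units.val_mul, inv_mul_cancel, Units.val_one, one_pow]
      rw [h, one_mul] at h'
      exact h'
    rw [hy] at h4
    have h3 : ((3 : ℕ) : ZMod p) = 0 := by
      have : (2 : ZMod p) ^ 2 - 1 = 0 := by rw [h4, sub_self]
      have h3' : (3 : ZMod p) = 0 := by linear_combination this
      exact_mod_cast h3'
    rw [ZMod.natCast_eq_zero_iff] at h3
    have := Nat.le_of_dvd (by norm_num) h3
    omega
  have : (1 - ((y⁻¹ : (ZMod p)ˣ) : ZMod p) ^ 2) * S = 0 := by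
    rw [sub_mul, one_mul, ← key, sub_self]
  rcases mul_eq_zero.mp this with h | h
  · exact absurd (sub_eq_zero.mp h).symm hne
  · exact h

lemma sum_coef (hp5 : 5 ≤ p) : ∑ σ : K ≃ₐ[ℚ] K, coef p hζ σ = 0 := by
  rw [← sum_units_inv_sq p hp5]
  exact Fintype.sum_bijective (chi p hζ) (chi_bijective p hζ) _ _ (fun σ => rfl)

lemma coef_of_mem_stab (hp3 : 2 < p) (σ : K ≃ₐ[ℚ] K)
    (hσ : σ ∈ MulAction.stabilizer (K ≃ₐ[ℚ] K) (w₀ : InfinitePlace K)) :
    coef p hζ σ = 1 := by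
  have h2 : σ ^ 2 = 1 := by
    have := pow_card_eq_one' (G := MulAction.stabilizer (K ≃ₐ[ℚ] K) (w₀ : InfinitePlace K))
      (x := ⟨σ, hσ⟩)
    rw [card_stab K p hp3] at this
    exact congrArg Subtype.val this
  unfold coef
  rw [← Units.val_pow_eq_pow_val, inv_pow, ← map_pow, h2, map_one, inv_one, Units.val_one]

open Classical in
lemma trace_Tmat (hp5 : 5 ≤ p) : (Tmat p hζ).trace = -1 := by
  have hp3 : 2 < p := by omega
  unfold Tmat
  rw [Matrix.trace_sum]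
  simp only [Matrix.trace_smul, smul_eq_mul]
  have hterm : ∀ σ : K ≃ₐ[ℚ] K, coef p hζ σ * (mat K p σ).trace =
      (if σ ∈ MulAction.stabilizer (K ≃ₐ[ℚ] K) (w₀ : InfinitePlace K)
        then ((rank K + 1 : ℕ) : ZMod p) else 0) - coef p hζ σ := by
    intro σ
    by_cases hσ : σ ∈ MulAction.stabilizer (K ≃ₐ[ℚ] K) (w₀ : InfinitePlace K)
    · rw [if_pos hσ, trace_mat, trace_latAct_of_mem K p hζ σ hσ, coef_of_mem_stab p hζ hp3 σ hσ]
      push_cast
      ring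
    · rw [if_neg hσ, trace_mat, trace_latAct_of_not_mem K p hζ σ hσ]
      push_cast
      ring
  simp only [hterm]
  rw [Finset.sum_sub_distrib, sum_coef p hζ hp5, sub_zero, Finset.sum_ite, Finset.sum_const_zero,
    add_zero, Finset.sum_const]
  have hcard : (Finset.univ.filter
      (fun σ : K ≃ₐ[ℚ] K => σ ∈ MulAction.stabilizer (K ≃ₐ[ℚ] K) (w₀ : InfinitePlace K))).card
      = 2 := by
    rw [← card_stab K p hp3, Nat.card_eq_fintype_card, Fintype.card_subtype]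
  rw [hcard, nsmul_eq_mul, ← Nat.cast_mul, two_mul_rank K p hp3, Nat.cast_sub hp.out.one_le]
  simp

lemma finrank_eigSpace (hp5 : 5 ≤ p) : Module.finrank (ZMod p) (eigSpace p hζ) = 1 := by
  have hp3 : 2 < p := by omega
  have hproj : LinearMap.IsProj (eigSpace p hζ) (Matrix.toLin' (-(Tmat p hζ))) := by
    constructor
    · intro x τ
      rw [Matrix.toLin'_apply, Matrix.mulVec_mulVec, Matrix.mul_neg, mat_mul_Tmat,
        Matrix.neg_mulVec, Matrix.neg_mulVec, Matrix.smul_mulVec, smul_neg]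
    · intro x hx
      rw [Matrix.toLin'_apply, Matrix.neg_mulVec, Tmat_mulVec_of_mem p hζ x hx, neg_neg]
  have htr := hproj.trace
  rw [Matrix.trace_toLin'_eq, Matrix.trace_neg, trace_Tmat p hζ hp5, neg_neg] at htr
  have hle : Module.finrank (ZMod p) (eigSpace p hζ) ≤ rank K := by
    have := Submodule.finrank_le (eigSpace p hζ)
    rwa [Module.finrank_fin_fun] at this
  have hr : rank K < p := by
    have := two_mul_rank K p hp3
    omega
  have h1 : ((Module.finrank (ZMod p) (eigSpace p hζ) : ℕ) : ZMod p) = ((1 : ℕ) : ZMod p) := by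
    rw [← htr]; simp
  rw [ZMod.natCast_eq_natCast_iff'] at h1
  rw [Nat.mod_eq_of_lt (lt_of_le_of_lt hle hr), Nat.mod_eq_of_lt (by omega)] at h1
  exact h1

omit [NumberField K] in
lemma exists_unit_of_pow (w : (𝓞 K)ˣ) (c : K) (n : ℕ) (hn : n ≠ 0) (h : c ^ n = (w : K)) :
    ∃ v : (𝓞 K)ˣ, (v : K) = c := by
  have hc : IsIntegral ℤ c :=
    IsIntegral.of_pow (Nat.pos_of_ne_zero hn) (h ▸ RingOfIntegers.isIntegral_coe (w : 𝓞 K))
  let c' : 𝓞 K := ⟨c, hc⟩
  have hpow : c' ^ n = (w : 𝓞 K) := by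
    apply RingOfIntegers.ext
    change algebraMap (𝓞 K) K (c' ^ n) = _
    rw [map_pow]
    exact h
  have hu : IsUnit c' := (isUnit_pow_iff hn).mp (hpow ▸ w.isUnit)
  exact ⟨hu.unit, rfl⟩

omit [IsCyclotomicExtension {p} ℚ K] in
lemma vec_mem_eigSpace (u : (𝓞 K)ˣ)
    (h : ∀ (σ : K ≃ₐ[ℚ] K) (a : ℕ), σ ζ = ζ ^ a →
      ∃ c : K, σ (u : K) = (u : K) ^ (a ^ 2) * c ^ p) :
    vec K p u ∈ eigSpace p hζ := by
  intro σ
  set a := ((chi p hζ σ : (ZMod p)ˣ) : ZMod p).val with ha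
  obtain ⟨c, hc⟩ := h σ a (chi_spec p hζ σ)
  have hcp : c ^ p = ((unitMap K σ u * (u ^ (a ^ 2))⁻¹ : (𝓞 K)ˣ) : K) := by
    have h1 : ((unitMap K σ u * (u ^ (a ^ 2))⁻¹ : (𝓞 K)ˣ) : K) * (u : K) ^ (a ^ 2) = σ (u : K) := by
      rw [← NumberField.Units.coe_pow, ← NumberField.Units.coe_mul, inv_mul_cancel_right]
      rfl
    have h2 : (u : K) ^ (a ^ 2) ≠ 0 := pow_ne_zero _ (NumberField.Units.coe_ne_zero u)
    apply mul_right_cancel₀ h2
    rw [h1, hc, mul_comm]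
  obtain ⟨v, hv⟩ := exists_unit_of_pow _ c p hp.out.ne_zero hcp
  have hunit : unitMap K σ u = u ^ (a ^ 2) * v ^ p := by
    apply NumberField.Units.coe_injective
    change ((unitMap K σ u : (𝓞 K)ˣ) : K) = ((u ^ (a ^ 2) * v ^ p : (𝓞 K)ˣ) : K)
    rw [NumberField.Units.coe_mul, NumberField.Units.coe_pow, NumberField.Units.coe_pow, hv, ← hc]
    rfl
  rw [← vec_unitMap, hunit, vec_mul, vec_pow, vec_pow_p, add_zero]
  congr 1
  rw [Nat.cast_pow, ha, ZMod.natCast_zmod_val]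

/-- **Unit part (U) of the Thaine route for S14.**  Let `K = ℚ(ζ_p)`, `p ≥ 5`.  The
`ω²`-eigenspace of the units modulo torsion and `p`-th powers is at most one-dimensional:
if `u₁`, `u₂` are units with `σ u = u ^ (a²) * c ^ p` whenever `σ ζ = ζ ^ a`, and `u₁` is not a
torsion unit times a `p`-th power, then `u₂ = t * u₁ ^ j * v ^ p` with `t` torsion. -/
theorem unit_eigen (hζ : IsPrimitiveRoot ζ p) (hp5 : 5 ≤ p) (u₁ u₂ : (𝓞 K)ˣ)
    (h₁ : ∀ (σ : K ≃ₐ[ℚ] K) (a : ℕ), σ ζ = ζ ^ a →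
      ∃ c : K, σ (u₁ : K) = (u₁ : K) ^ (a ^ 2) * c ^ p)
    (h₂ : ∀ (σ : K ≃ₐ[ℚ] K) (a : ℕ), σ ζ = ζ ^ a →
      ∃ c : K, σ (u₂ : K) = (u₂ : K) ^ (a ^ 2) * c ^ p)
    (hne : ¬ ∃ (t v : (𝓞 K)ˣ), t ∈ torsion K ∧ u₁ = t * v ^ p) :
    ∃ (j : ℕ) (t v : (𝓞 K)ˣ), t ∈ torsion K ∧ u₂ = t * u₁ ^ j * v ^ p := by
  have hv1 : vec K p u₁ ≠ 0 := fun h0 => hne (exists_of_vec_eq_zero K p u₁ h0)
  have hm1 := vec_mem_eigSpace p hζ u₁ h₁
  have hm2 := vec_mem_eigSpace p hζ u₂ h₂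
  have hfin := finrank_eigSpace p hζ hp5
  have hnz : (⟨vec K p u₁, hm1⟩ : eigSpace p hζ) ≠ 0 := fun h0 => hv1 (congrArg Subtype.val h0)
  obtain ⟨c, hc⟩ := (finrank_eq_one_iff_of_nonzero' _ hnz).mp hfin ⟨vec K p u₂, hm2⟩
  have hc' : c • vec K p u₁ = vec K p u₂ := congrArg Subtype.val hc
  have hzero : vec K p (u₂ * (u₁ ^ c.val)⁻¹) = 0 := by
    have h1 : vec K p (u₂ * (u₁ ^ c.val)⁻¹) + vec K p (u₁ ^ c.val) = vec K p u₂ := by
      rw [← vec_mul, inv_mul_cancel_right]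
    rw [vec_pow, ZMod.natCast_zmod_val, hc'] at h1
    simpa using h1
  obtain ⟨t, v, ht, htv⟩ := exists_of_vec_eq_zero K p _ hzero
  refine ⟨c.val, t, v, ht, ?_⟩
  have : u₂ = u₂ * (u₁ ^ c.val)⁻¹ * u₁ ^ c.val := by rw [inv_mul_cancel_right]
  rw [this, htv]
  exact mul_right_comm _ _ _

lemma torsion_eq_neg_zeta_pow (hζ : IsPrimitiveRoot ζ p) (hp3 : 2 < p) (t : (𝓞 K)ˣ)
    (ht : t ∈ torsion K) : ∃ r : ℕ, (t : K) = (-ζ) ^ r := by
  have hodd : Odd p := hp.out.odd_of_ne_two (by omega)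
  have hfin : IsOfFinOrder (t : K) := by
    have h1 : IsOfFinOrder t := (CommGroup.mem_torsion _).mp ht
    exact ((algebraMap (𝓞 K) K).toMonoidHom.comp (Units.coeHom (𝓞 K))).isOfFinOrder h1
  exact hζ.exists_neg_pow_of_isOfFinOrder hodd hfin

/-- Consumer form of `unit_eigen` with everything stated inside `K` and the torsion written as a
power of `-ζ`. -/
theorem unit_eigen_coe (hζ : IsPrimitiveRoot ζ p) (hp5 : 5 ≤ p) (u₁ u₂ : (𝓞 K)ˣ)
    (h₁ : ∀ (σ : K ≃ₐ[ℚ] K) (a : ℕ), σ ζ = ζ ^ a →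
      ∃ c : K, σ (u₁ : K) = (u₁ : K) ^ (a ^ 2) * c ^ p)
    (h₂ : ∀ (σ : K ≃ₐ[ℚ] K) (a : ℕ), σ ζ = ζ ^ a →
      ∃ c : K, σ (u₂ : K) = (u₂ : K) ^ (a ^ 2) * c ^ p)
    (hne : ¬ ∃ (r : ℕ) (v : (𝓞 K)ˣ), (u₁ : K) = (-ζ) ^ r * (v : K) ^ p) :
    ∃ (j r : ℕ) (v : (𝓞 K)ˣ), (u₂ : K) = (-ζ) ^ r * (u₁ : K) ^ j * (v : K) ^ p := by
  have hp3 : 2 < p := by omega
  have hne' : ¬ ∃ (t v : (𝓞 K)ˣ), t ∈ torsion K ∧ u₁ = t * v ^ p := by
    rintro ⟨t, v, ht, htv⟩
    obtain ⟨r, hr⟩ := torsion_eq_neg_zeta_pow p hζ hp3 t ht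
    exact hne ⟨r, v, by rw [htv, NumberField.Units.coe_mul, NumberField.Units.coe_pow, hr]⟩
  obtain ⟨j, t, v, ht, htv⟩ := unit_eigen p hζ hp5 u₁ u₂ h₁ h₂ hne'
  obtain ⟨r, hr⟩ := torsion_eq_neg_zeta_pow p hζ hp3 t ht
  exact ⟨j, r, v, by
    rw [htv, NumberField.Units.coe_mul, NumberField.Units.coe_mul, NumberField.Units.coe_pow,
      NumberField.Units.coe_pow, hr]⟩

end Main

end Fermat.Agent.S14.helper1378
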