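import Mathlib
import Fermat.Agent.S14.helper1934_ThaineSpec
import Fermat.Agent.S14.helper1378_UnitEigen

/-!
# S14, Thaine route: `helper1934.Stmt_Units p` (verbatim Spec shape)

Adapter from `helper1378.unit_eigen_coe` (statement inside `K`, automorphisms `K ≃ₐ[ℚ] K`, torsion
written as a power of `-ζ`) to the exact Spec Prop `helper1934.Stmt_Units p` (statement inside
`𝓞 K`, ring automorphisms of `𝓞 K`, torsion written as `ζ ^ k`).
-/

set_option autoImplicit false

namespace Fermat.Agent.S14.helper1378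

open NumberField

section Adapter

variable {K : Type} [Field K] [NumberField K]

/-- An `ω²`-unit in the sense of the Spec satisfies the eigen hypothesis of `unit_eigen_coe`. -/
theorem eigen_of_isOmegaTwoUnit (p : ℕ) (ζ : 𝓞 K) (w : (𝓞 K)ˣ)
    (hw : helper1934.IsOmegaTwoUnit p ζ w) (σ : K ≃ₐ[ℚ] K) (a : ℕ)
    (hσ : σ (ζ : K) = (ζ : K) ^ a) :
    ∃ c : K, σ (w : K) = (w : K) ^ (a ^ 2) * c ^ p := by
  obtain ⟨c, hc⟩ := hw (RingOfIntegers.mapRingEquiv (σ : K ≃+* K)) a (by
    apply RingOfIntegers.ext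
    rw [RingOfIntegers.mapRingEquiv_apply]
    simpa using hσ)
  refine ⟨((c : 𝓞 K) : K), ?_⟩
  have h := congrArg (fun x : 𝓞 K => (x : K)) hc
  simp only [RingOfIntegers.mapRingEquiv_apply, map_mul, map_pow] at h
  simpa using h

end Adapter

/-- **Package U**, `helper1934.Stmt_Units p`, verbatim: the `ω²`-eigenspace of `E / E^p` is at most
one-dimensional. -/
theorem stmt_Units (p : ℕ) [hpF : Fact p.Prime] : helper1934.Stmt_Units p := by
  intro K _ _ _ ζ hζ h5 u e hu he hne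
  have hζK : IsPrimitiveRoot (ζ : K) p :=
    hζ.map_of_injective (f := algebraMap (𝓞 K) K) RingOfIntegers.coe_injective
  have hodd : Odd p := hpF.out.odd_of_ne_two (by omega)
  have hneg : ∀ r : ℕ, ((-1 : K) ^ r) ^ p = (-1 : K) ^ r := by
    intro r
    rw [← pow_mul, mul_comm, pow_mul, hodd.neg_one_pow]
  have hne' : ¬ ∃ (r : ℕ) (v : (𝓞 K)ˣ), (e : K) = (-(ζ : K)) ^ r * (v : K) ^ p := by
    rintro ⟨r, v, hrv⟩
    refine hne r ((-1) ^ r * v) ?_
    apply RingOfIntegers.ext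
    have h1 : (e : K) = (ζ : K) ^ r * (((-1 : K) ^ r) * (v : K)) ^ p := by
      rw [hrv, mul_pow, hneg r, neg_pow]
      ring
    rw [show ((e : 𝓞 K) : K) = (e : K) from rfl, h1]
    simp
  obtain ⟨j, r, v, hv⟩ := unit_eigen_coe p hζK h5 e u
    (eigen_of_isOmegaTwoUnit p ζ e he) (eigen_of_isOmegaTwoUnit p ζ u hu) hne'
  refine ⟨r, j, (-1) ^ r * v, ?_⟩
  apply RingOfIntegers.ext
  have h1 : (u : K) = (ζ : K) ^ r * (e : K) ^ j * (((-1 : K) ^ r) * (v : K)) ^ p := by
    rw [hv, mul_pow, hneg r, neg_pow]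
    ring
  rw [show ((u : 𝓞 K) : K) = (u : K) from rfl, h1]
  simp

end Fermat.Agent.S14.helper1378
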