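import Mathlib
import Fermat.Agent.S14.helper1934_ThaineSpec
import Fermat.Agent.Lib.helper1121_ZetaIdealSum

/-!
# S14, Thaine route: the Spec Props `Stmt_PrimeZeta` and `Stmt_NonDegOne` (helper1383)

Both are proved unconditionally, in the exact shape of `helper1934_ThaineSpec`.

* `stmt_PrimeZeta` : summability of `∑_v N(v)^(-s)` and `log (1/(s-1)) - B ≤ ∑_v N(v)^(-s)`.
  Proof: finite Euler-product inequality `∑_{I ∈ F} N(I)^(-s) ≤ ∏_{v ∈ T} ∑_{k ≤ M} N(v)^(-ks)`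
  (only the existence of prime factorisations is used), `∑_{k ≤ M} x^k ≤ exp (x + 2 x^2)` for
  `0 ≤ x ≤ 1/2`, and the lower bound `c/(s-1) ≤ ζ_K(s)` (helper1121).
* `stmt_NonDegOne` : the primes whose norm is not a prime number contribute a bounded amount.
-/

set_option autoImplicit false

namespace Fermat.Agent.S14.helper1383

open NumberField IsDedekindDomain

open scoped nonZeroDivisors

section General

variable (K : Type) [Field K] [NumberField K]

/-- A nonzero prime as a nonzero ideal. -/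
noncomputable def prime0 (v : HeightOneSpectrum (𝓞 K)) : (Ideal (𝓞 K))⁰ :=
  ⟨v.asIdeal, mem_nonZeroDivisors_iff_ne_zero.mpr v.ne_bot⟩

omit [NumberField K] in
theorem prime0_injective : Function.Injective (prime0 K) := by
  intro v w h
  exact HeightOneSpectrum.ext (congrArg (fun I : (Ideal (𝓞 K))⁰ => (I : Ideal (𝓞 K))) h)

/-- Summability of the prime zeta series of a number field. -/
theorem summable_prime_rpow {s : ℝ} (hs : 1 < s) :
    Summable fun v : HeightOneSpectrum (𝓞 K) => (Ideal.absNorm v.asIdeal : ℝ) ^ (-s) := by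
  have h := Fermat.Agent.Lib.helper1121.summable_ideal_rpow K hs
  have h2 := h.comp_injective (prime0_injective K)
  exact h2

theorem two_le_absNorm (v : HeightOneSpectrum (𝓞 K)) : 2 ≤ Ideal.absNorm v.asIdeal := by
  have h0 : Ideal.absNorm v.asIdeal ≠ 0 := by
    rw [Ne, Ideal.absNorm_eq_zero_iff]
    exact v.ne_bot
  have h1 : Ideal.absNorm v.asIdeal ≠ 1 := by
    rw [Ne, Ideal.absNorm_eq_one_iff]
    exact v.isPrime.ne_top
  omega

theorem prime_rpow_nonneg (v : HeightOneSpectrum (𝓞 K)) (s : ℝ) :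
    0 ≤ (Ideal.absNorm v.asIdeal : ℝ) ^ (-s) :=
  Real.rpow_nonneg (Nat.cast_nonneg _) _

theorem prime_rpow_le_half (v : HeightOneSpectrum (𝓞 K)) {s : ℝ} (hs : 1 ≤ s) :
    (Ideal.absNorm v.asIdeal : ℝ) ^ (-s) ≤ 1 / 2 := by
  have h2 : (2 : ℝ) ≤ Ideal.absNorm v.asIdeal := by exact_mod_cast two_le_absNorm K v
  have h1 : (Ideal.absNorm v.asIdeal : ℝ) ^ (-s) ≤ (Ideal.absNorm v.asIdeal : ℝ) ^ (-1 : ℝ) :=
    Real.rpow_le_rpow_of_exponent_le (by linarith) (by linarith)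
  rw [Real.rpow_neg_one] at h1
  have h3 : ((Ideal.absNorm v.asIdeal : ℝ))⁻¹ ≤ 2⁻¹ := inv_anti₀ (by norm_num) h2
  linarith

/-- `I ↦ N(I)^(-s)` as a monoid homomorphism. -/
noncomputable def normPow (s : ℝ) : Ideal (𝓞 K) →* ℝ where
  toFun I := (Ideal.absNorm I : ℝ) ^ (-s)
  map_one' := by simp
  map_mul' I J := by
    simp only [map_mul, Nat.cast_mul]
    exact Real.mul_rpow (Nat.cast_nonneg _) (Nat.cast_nonneg _)

theorem normPow_apply (s : ℝ) (I : Ideal (𝓞 K)) :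
    normPow K s I = (Ideal.absNorm I : ℝ) ^ (-s) := rfl

theorem normPow_nonneg (s : ℝ) (I : Ideal (𝓞 K)) : 0 ≤ normPow K s I :=
  Real.rpow_nonneg (Nat.cast_nonneg _) _

/-- A nonzero ideal is the product of its prime powers over any finite set of primes containing
its support. -/
theorem eq_prod_of_support_subset {I : Ideal (𝓞 K)} (hI : I ≠ 0)
    (T : Finset (HeightOneSpectrum (𝓞 K)))
    (hT : Function.mulSupport (fun v : HeightOneSpectrum (𝓞 K) => v.maxPowDividing I) ⊆ T) :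
    I = ∏ v ∈ T, v.asIdeal ^ ((Associates.mk v.asIdeal).count (Associates.mk I).factors) := by
  conv_lhs => rw [← Ideal.finprod_heightOneSpectrum_factorization hI]
  rw [finprod_eq_prod_of_mulSupport_subset _ hT]
  rfl

/-- **Finite Euler-product inequality.** -/
theorem sum_le_prod_geom (s : ℝ) (F : Finset (Ideal (𝓞 K))) (hF : ∀ I ∈ F, I ≠ 0) :
    ∃ (T : Finset (HeightOneSpectrum (𝓞 K))) (M : ℕ),
      ∑ I ∈ F, (Ideal.absNorm I : ℝ) ^ (-s) ≤
        ∏ v ∈ T, ∑ k ∈ Finset.range (M + 1), ((Ideal.absNorm v.asIdeal : ℝ) ^ (-s)) ^ k := by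
  classical
  have hfin : (⋃ I ∈ (F : Set (Ideal (𝓞 K))),
      Function.mulSupport (fun v : HeightOneSpectrum (𝓞 K) => v.maxPowDividing I)).Finite :=
    Set.Finite.biUnion F.finite_toSet (fun I hI => Ideal.hasFiniteMulSupport (hF I hI))
  set T : Finset (HeightOneSpectrum (𝓞 K)) := hfin.toFinset with hTdef
  set c : Ideal (𝓞 K) → HeightOneSpectrum (𝓞 K) → ℕ := fun I v =>
    (Associates.mk v.asIdeal).count (Associates.mk I).factors with hc
  set M : ℕ := F.sup (fun I => T.sup (fun v => c I v)) with hM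
  refine ⟨T, M, ?_⟩
  have hsub : ∀ I ∈ F,
      Function.mulSupport (fun v : HeightOneSpectrum (𝓞 K) => v.maxPowDividing I) ⊆ T := by
    intro I hI v hv
    rw [hTdef, Set.Finite.coe_toFinset]
    exact Set.mem_biUnion (Finset.mem_coe.mpr hI) hv
  have hfact : ∀ I ∈ F, I = ∏ v ∈ T, v.asIdeal ^ c I v := fun I hI =>
    eq_prod_of_support_subset K (hF I hI) T (hsub I hI)
  have hle : ∀ I ∈ F, ∀ v ∈ T, c I v ≤ M := by
    intro I hI v hv
    have h1 : c I v ≤ T.sup (fun v => c I v) := Finset.le_sup (f := fun v => c I v) hv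
    have h2 : T.sup (fun v => c I v) ≤ M := Finset.le_sup (f := fun I => T.sup (fun v => c I v)) hI
    exact h1.trans h2
  -- exponent vectors
  let Φ : (T → ℕ) → Ideal (𝓞 K) := fun e => ∏ v : T, (v : HeightOneSpectrum (𝓞 K)).asIdeal ^ e v
  let P : Finset (T → ℕ) := Fintype.piFinset (fun _ : T => Finset.range (M + 1))
  have hFsub : F ⊆ P.image Φ := by
    intro I hI
    rw [Finset.mem_image]
    refine ⟨fun v => c I v, ?_, ?_⟩
    · rw [Fintype.mem_piFinset]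
      intro v
      rw [Finset.mem_range]
      exact Nat.lt_succ_of_le (hle I hI v v.2)
    · show ∏ v : T, (v : HeightOneSpectrum (𝓞 K)).asIdeal ^ c I v = I
      rw [Finset.prod_coe_sort T (fun v => v.asIdeal ^ c I v)]
      exact (hfact I hI).symm
  calc ∑ I ∈ F, (Ideal.absNorm I : ℝ) ^ (-s)
      = ∑ I ∈ F, normPow K s I := rfl
    _ ≤ ∑ I ∈ P.image Φ, normPow K s I :=
        Finset.sum_le_sum_of_subset_of_nonneg hFsub (fun I _ _ => normPow_nonneg K s I)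
    _ ≤ ∑ e ∈ P, normPow K s (Φ e) :=
        Finset.sum_image_le_of_nonneg (fun I _ => normPow_nonneg K s I)
    _ = ∑ e ∈ P, ∏ v : T,
          ((Ideal.absNorm (v : HeightOneSpectrum (𝓞 K)).asIdeal : ℝ) ^ (-s)) ^ e v := by
        refine Finset.sum_congr rfl fun e _ => ?_
        show normPow K s (∏ v : T, (v : HeightOneSpectrum (𝓞 K)).asIdeal ^ e v) = _
        rw [map_prod]
        refine Finset.prod_congr rfl fun v _ => ?_
        rw [map_pow, normPow_apply]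
    _ = ∏ v : T, ∑ k ∈ Finset.range (M + 1),
          ((Ideal.absNorm (v : HeightOneSpectrum (𝓞 K)).asIdeal : ℝ) ^ (-s)) ^ k :=
        (Finset.prod_univ_sum (fun _ : T => Finset.range (M + 1))
          (fun (v : T) (k : ℕ) =>
            ((Ideal.absNorm (v : HeightOneSpectrum (𝓞 K)).asIdeal : ℝ) ^ (-s)) ^ k)).symm
    _ = ∏ v ∈ T, ∑ k ∈ Finset.range (M + 1), ((Ideal.absNorm v.asIdeal : ℝ) ^ (-s)) ^ k :=
        Finset.prod_coe_sort T (fun v => ∑ k ∈ Finset.range (M + 1),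
          ((Ideal.absNorm v.asIdeal : ℝ) ^ (-s)) ^ k)

end General

/-- Geometric sums are bounded by `exp (x + 2 x^2)` on `[0, 1/2]`. -/
theorem geom_sum_le_exp {x : ℝ} (hx0 : 0 ≤ x) (hx : x ≤ 1 / 2) (n : ℕ) :
    ∑ k ∈ Finset.range n, x ^ k ≤ Real.exp (x + 2 * x ^ 2) := by
  have h1 : (∑ k ∈ Finset.range n, x ^ k) * (1 - x) = 1 - x ^ n := geom_sum_mul_neg x n
  have h2 : 1 + (x + 2 * x ^ 2) ≤ Real.exp (x + 2 * x ^ 2) := by
    have := Real.add_one_le_exp (x + 2 * x ^ 2)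
    linarith
  have h3 : 0 ≤ x ^ n := pow_nonneg hx0 n
  have h4 : 0 < 1 - x := by linarith
  have h5 : 1 ≤ (1 + (x + 2 * x ^ 2)) * (1 - x) := by nlinarith [sq_nonneg x, mul_nonneg (sq_nonneg x) (by linarith : (0:ℝ) ≤ 1 - 2 * x)]
  have h6 : (∑ k ∈ Finset.range n, x ^ k) * (1 - x) ≤ Real.exp (x + 2 * x ^ 2) * (1 - x) := by
    calc (∑ k ∈ Finset.range n, x ^ k) * (1 - x) = 1 - x ^ n := h1
      _ ≤ 1 := by linarith
      _ ≤ (1 + (x + 2 * x ^ 2)) * (1 - x) := h5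
      _ ≤ Real.exp (x + 2 * x ^ 2) * (1 - x) := mul_le_mul_of_nonneg_right h2 h4.le
  exact le_of_mul_le_mul_right h6 h4

section Main

variable (K : Type) [Field K] [NumberField K]

/-- `ζ_K(s) ≤ exp (P(s) + 2 P(2))`, `P` the prime zeta series. -/
theorem tsum_ideal_le_exp {s : ℝ} (hs : 1 < s) :
    ∑' I : (Ideal (𝓞 K))⁰, (Ideal.absNorm (I : Ideal (𝓞 K)) : ℝ) ^ (-s) ≤
      Real.exp ((∑' v : HeightOneSpectrum (𝓞 K), (Ideal.absNorm v.asIdeal : ℝ) ^ (-s)) +
        2 * ∑' v : HeightOneSpectrum (𝓞 K), (Ideal.absNorm v.asIdeal : ℝ) ^ (-(2 : ℝ))) := by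
  classical
  refine Real.tsum_le_of_sum_le (fun I => Real.rpow_nonneg (Nat.cast_nonneg _) _) fun u => ?_
  obtain ⟨T, M, hTM⟩ := sum_le_prod_geom K s
    (u.image (fun I : (Ideal (𝓞 K))⁰ => (I : Ideal (𝓞 K))))
    (by
      intro I hI
      rw [Finset.mem_image] at hI
      obtain ⟨J, -, rfl⟩ := hI
      exact nonZeroDivisors.coe_ne_zero J)
  rw [Finset.sum_image (fun a _ b _ h => Subtype.ext h)] at hTM
  refine hTM.trans ?_
  have hs1 : (1 : ℝ) ≤ s := hs.le
  have hsum1 := summable_prime_rpow K hs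
  have hsum2 := summable_prime_rpow K (s := 2) (by norm_num)
  have hsq : ∀ v : HeightOneSpectrum (𝓞 K),
      ((Ideal.absNorm v.asIdeal : ℝ) ^ (-s)) ^ 2 ≤ (Ideal.absNorm v.asIdeal : ℝ) ^ (-(2 : ℝ)) := by
    intro v
    have h1 : (1 : ℝ) ≤ Ideal.absNorm v.asIdeal := by
      have := two_le_absNorm K v
      exact_mod_cast (by omega : 1 ≤ Ideal.absNorm v.asIdeal)
    rw [← Real.rpow_natCast, ← Real.rpow_mul (Nat.cast_nonneg _)]
    exact Real.rpow_le_rpow_of_exponent_le h1 (by push_cast; linarith)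
  calc ∏ v ∈ T, ∑ k ∈ Finset.range (M + 1), ((Ideal.absNorm v.asIdeal : ℝ) ^ (-s)) ^ k
      ≤ ∏ v ∈ T, Real.exp ((Ideal.absNorm v.asIdeal : ℝ) ^ (-s) +
          2 * ((Ideal.absNorm v.asIdeal : ℝ) ^ (-s)) ^ 2) :=
        Finset.prod_le_prod
          (fun v _ => Finset.sum_nonneg fun k _ => pow_nonneg (prime_rpow_nonneg K v s) k)
          (fun v _ => geom_sum_le_exp (prime_rpow_nonneg K v s) (prime_rpow_le_half K v hs1)
            (M + 1))
    _ = Real.exp (∑ v ∈ T, ((Ideal.absNorm v.asIdeal : ℝ) ^ (-s) +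
          2 * ((Ideal.absNorm v.asIdeal : ℝ) ^ (-s)) ^ 2)) := (Real.exp_sum T _).symm
    _ ≤ _ := by
        apply Real.exp_le_exp.mpr
        rw [Finset.sum_add_distrib, ← Finset.mul_sum]
        have h1 : ∑ v ∈ T, (Ideal.absNorm v.asIdeal : ℝ) ^ (-s) ≤
            ∑' v : HeightOneSpectrum (𝓞 K), (Ideal.absNorm v.asIdeal : ℝ) ^ (-s) :=
          hsum1.sum_le_tsum T (fun v _ => prime_rpow_nonneg K v s)
        have h2 : ∑ v ∈ T, ((Ideal.absNorm v.asIdeal : ℝ) ^ (-s)) ^ 2 ≤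
            ∑' v : HeightOneSpectrum (𝓞 K), (Ideal.absNorm v.asIdeal : ℝ) ^ (-(2 : ℝ)) :=
          (Finset.sum_le_sum fun v _ => hsq v).trans
            (hsum2.sum_le_tsum T (fun v _ => prime_rpow_nonneg K v 2))
        linarith

end Main

/-- **`Stmt_PrimeZeta`** of `helper1934_ThaineSpec`, unconditionally. -/
theorem stmt_PrimeZeta : helper1934.Stmt_PrimeZeta := by
  intro K _ _
  refine ⟨fun s hs => summable_prime_rpow K hs, ?_⟩
  obtain ⟨c, hc, hlow⟩ := Fermat.Agent.Lib.helper1121.exists_zeta_lower K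
  refine ⟨2 * (∑' v : HeightOneSpectrum (𝓞 K), (Ideal.absNorm v.asIdeal : ℝ) ^ (-(2 : ℝ)))
    - Real.log c, fun s hs hs2 => ?_⟩
  have h1 := hlow s hs hs2.le
  have h2 := tsum_ideal_le_exp K hs
  have hs1 : 0 < s - 1 := by linarith
  generalize (∑' v : HeightOneSpectrum (𝓞 K), (Ideal.absNorm v.asIdeal : ℝ) ^ (-(2 : ℝ))) = D
    at h2 ⊢
  generalize (∑' v : HeightOneSpectrum (𝓞 K), (Ideal.absNorm v.asIdeal : ℝ) ^ (-s)) = P at h2 ⊢
  generalize (∑' I : (Ideal (𝓞 K))⁰, (Ideal.absNorm (I : Ideal (𝓞 K)) : ℝ) ^ (-s)) = Z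
    at h1 h2
  have h3 : c / (s - 1) ≤ Real.exp (P + 2 * D) := by
    rw [div_le_iff₀ hs1]
    calc c ≤ (s - 1) * Z := h1
      _ ≤ (s - 1) * Real.exp (P + 2 * D) := mul_le_mul_of_nonneg_left h2 hs1.le
      _ = Real.exp (P + 2 * D) * (s - 1) := mul_comm _ _
  have h4 : Real.log (c / (s - 1)) ≤ P + 2 * D := by
    have := Real.log_le_log (div_pos hc hs1) h3
    rwa [Real.log_exp] at this
  have h5 : Real.log (c / (s - 1)) = Real.log c + Real.log (1 / (s - 1)) := by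
    rw [div_eq_mul_one_div, Real.log_mul hc.ne' (one_div_pos.mpr hs1).ne']
  linarith

/-! ## Primes of degree at least two -/

section NonDeg

variable (K : Type) [Field K] [NumberField K]

/-- Every nonzero prime of `𝓞 K` contains a rational prime. -/
theorem exists_prime_natCast_mem (v : HeightOneSpectrum (𝓞 K)) :
    ∃ ℓ : ℕ, ℓ.Prime ∧ (ℓ : 𝓞 K) ∈ v.asIdeal := by
  have key : ∀ N : ℕ, 0 < N → (N : 𝓞 K) ∈ v.asIdeal → ∃ ℓ : ℕ, ℓ.Prime ∧ (ℓ : 𝓞 K) ∈ v.asIdeal := by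
    intro N
    induction N using Nat.strong_induction_on with
    | _ N ih =>
      intro hN hmem
      have hN1 : N ≠ 1 := by
        rintro rfl
        rw [Nat.cast_one] at hmem
        exact v.isPrime.ne_top ((Ideal.eq_top_iff_one _).mpr hmem)
      have hp : N.minFac.Prime := Nat.minFac_prime hN1
      have hdvd : N.minFac ∣ N := Nat.minFac_dvd N
      obtain ⟨m, hm⟩ := hdvd
      have hmem' : ((N.minFac : ℕ) : 𝓞 K) * (m : 𝓞 K) ∈ v.asIdeal := by
        rw [← Nat.cast_mul, ← hm]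
        exact hmem
      rcases v.isPrime.mem_or_mem hmem' with h | h
      · exact ⟨N.minFac, hp, h⟩
      · have hm0 : 0 < m := by
          rcases Nat.eq_zero_or_pos m with h0 | h0
          · rw [h0, mul_zero] at hm
            omega
          · exact h0
        have hlt : m < N := by
          have h2 := hp.two_le
          nlinarith
        exact ih m hlt hm0 h
  have h0 : Ideal.absNorm v.asIdeal ≠ 0 := by
    rw [Ne, Ideal.absNorm_eq_zero_iff]
    exact v.ne_bot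
  exact key _ (Nat.pos_of_ne_zero h0) (Ideal.absNorm_mem v.asIdeal)

/-- If the rational prime `ℓ` lies in `v`, then `N(v) = ℓ^m` with `1 ≤ m`. -/
theorem absNorm_eq_prime_pow (v : HeightOneSpectrum (𝓞 K)) {ℓ : ℕ} (hℓ : ℓ.Prime)
    (hmem : (ℓ : 𝓞 K) ∈ v.asIdeal) :
    ∃ m : ℕ, 1 ≤ m ∧ Ideal.absNorm v.asIdeal = ℓ ^ m := by
  have hdvd : v.asIdeal ∣ Ideal.span {(ℓ : 𝓞 K)} := Ideal.dvd_span_singleton.mpr hmem
  have h1 : Ideal.absNorm v.asIdeal ∣ ℓ ^ Module.finrank ℤ (𝓞 K) := by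
    have := map_dvd Ideal.absNorm hdvd
    rwa [Ideal.absNorm_span_natCast] at this
  obtain ⟨m, -, hm⟩ := (Nat.dvd_prime_pow hℓ).mp h1
  refine ⟨m, ?_, hm⟩
  rcases Nat.eq_zero_or_pos m with h0 | h0
  · rw [h0, pow_zero] at hm
    have := two_le_absNorm K v
    omega
  · exact h0

/-- At most `[K : ℚ]` primes contain a given rational prime. -/
theorem card_le_of_prime_mem {ℓ : ℕ} (hℓ : ℓ.Prime) (T : Finset (HeightOneSpectrum (𝓞 K)))
    (hT : ∀ v ∈ T, (ℓ : 𝓞 K) ∈ v.asIdeal) : T.card ≤ Module.finrank ℤ (𝓞 K) := by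
  classical
  have hinj : Set.InjOn (fun v : HeightOneSpectrum (𝓞 K) => v.asIdeal) (T : Set _) :=
    fun v _ w _ h => HeightOneSpectrum.ext h
  have hdvd : ∏ v ∈ T, v.asIdeal ∣ Ideal.span {(ℓ : 𝓞 K)} := by
    have himg : ∏ I ∈ T.image (fun v : HeightOneSpectrum (𝓞 K) => v.asIdeal), I =
        ∏ v ∈ T, v.asIdeal := Finset.prod_image (f := fun I : Ideal (𝓞 K) => I) hinj
    rw [← himg]
    refine Finset.prod_primes_dvd _ ?_ ?_
    · intro I hI
      rw [Finset.mem_image] at hI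
      obtain ⟨v, -, rfl⟩ := hI
      exact v.prime
    · intro I hI
      rw [Finset.mem_image] at hI
      obtain ⟨v, hv, rfl⟩ := hI
      exact Ideal.dvd_span_singleton.mpr (hT v hv)
  have h1 : ∏ v ∈ T, Ideal.absNorm v.asIdeal ∣ ℓ ^ Module.finrank ℤ (𝓞 K) := by
    have := map_dvd Ideal.absNorm hdvd
    rwa [Ideal.absNorm_span_natCast, map_prod] at this
  have h2 : ℓ ^ T.card ∣ ∏ v ∈ T, Ideal.absNorm v.asIdeal := by
    rw [← Finset.prod_const]
    refine Finset.prod_dvd_prod_of_dvd _ _ fun v hv => ?_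
    obtain ⟨m, hm1, hm⟩ := absNorm_eq_prime_pow K v hℓ (hT v hv)
    rw [hm]
    exact dvd_pow_self ℓ (by omega)
  exact (Nat.pow_dvd_pow_iff_le_right hℓ.one_lt).mp (h2.trans h1)

/-- A rational prime contained in `v`. -/
noncomputable def below (v : HeightOneSpectrum (𝓞 K)) : ℕ :=
  (exists_prime_natCast_mem K v).choose

theorem below_prime (v : HeightOneSpectrum (𝓞 K)) : (below K v).Prime :=
  (exists_prime_natCast_mem K v).choose_spec.1

theorem below_mem (v : HeightOneSpectrum (𝓞 K)) : ((below K v : ℕ) : 𝓞 K) ∈ v.asIdeal :=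
  (exists_prime_natCast_mem K v).choose_spec.2

/-- For a prime of non-prime norm, `N(v)^(-s) ≤ ℓ^(-2)`. -/
theorem rpow_le_inv_sq (v : HeightOneSpectrum (𝓞 K)) (hv : ¬ (Ideal.absNorm v.asIdeal).Prime)
    {s : ℝ} (hs : 1 ≤ s) :
    (Ideal.absNorm v.asIdeal : ℝ) ^ (-s) ≤ (((below K v : ℕ) : ℝ) ^ 2)⁻¹ := by
  obtain ⟨m, hm1, hm⟩ := absNorm_eq_prime_pow K v (below_prime K v) (below_mem K v)
  have hℓ := below_prime K v
  have hm2 : 2 ≤ m := by
    by_contra h
    have : m = 1 := by omega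
    rw [this, pow_one] at hm
    apply hv
    rw [hm]
    exact hℓ
  have hle : (below K v) ^ 2 ≤ Ideal.absNorm v.asIdeal := by
    rw [hm]
    exact Nat.pow_le_pow_right hℓ.pos hm2
  have hle' : ((below K v : ℕ) : ℝ) ^ 2 ≤ (Ideal.absNorm v.asIdeal : ℝ) := by exact_mod_cast hle
  have hpos : (0 : ℝ) < ((below K v : ℕ) : ℝ) ^ 2 := by
    have : (0 : ℝ) < ((below K v : ℕ) : ℝ) := by exact_mod_cast hℓ.pos
    positivity
  have h1 : (1 : ℝ) ≤ Ideal.absNorm v.asIdeal := by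
    have := two_le_absNorm K v
    exact_mod_cast (by omega : 1 ≤ Ideal.absNorm v.asIdeal)
  calc (Ideal.absNorm v.asIdeal : ℝ) ^ (-s) ≤ (Ideal.absNorm v.asIdeal : ℝ) ^ (-1 : ℝ) :=
        Real.rpow_le_rpow_of_exponent_le h1 (by linarith)
    _ = ((Ideal.absNorm v.asIdeal : ℝ))⁻¹ := Real.rpow_neg_one _
    _ ≤ (((below K v : ℕ) : ℝ) ^ 2)⁻¹ := inv_anti₀ hpos hle'

end NonDeg


theorem stmt_NonDegOne : helper1934.Stmt_NonDegOne := by
  intro K _ _
  classical
  have hsumm : Summable (fun n : ℕ => (((n : ℝ) ^ 2)⁻¹ : ℝ)) :=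
    Real.summable_nat_pow_inv.mpr (by norm_num)
  refine ⟨(Module.finrank ℤ (𝓞 K) : ℝ) * ∑' n : ℕ, (((n : ℝ) ^ 2)⁻¹ : ℝ), fun s hs _ => ?_⟩
  rw [Set.primeIdealZetaSum_def]
  have hnn : ∀ a : {v : HeightOneSpectrum (𝓞 K) | ¬ (Ideal.absNorm v.asIdeal).Prime},
      0 ≤ (Ideal.absNorm a.1.asIdeal : ℝ) ^ (-s) := fun a => prime_rpow_nonneg K a.1 s
  refine Real.tsum_le_of_sum_le hnn fun u => ?_
  have hfib : ∀ b : ℕ, (u.filter (fun a => below K a.1 = b)).card ≤ Module.finrank ℤ (𝓞 K) := by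
    intro b
    by_cases hb : ∃ a ∈ u, below K a.1 = b
    · obtain ⟨a0, -, ha0⟩ := hb
      have hbp : b.Prime := by
        rw [← ha0]
        exact below_prime K a0.1
      have hmem : ∀ v ∈ (u.filter (fun a => below K a.1 = b)).map
          ⟨Subtype.val, Subtype.val_injective⟩, (b : 𝓞 K) ∈ v.asIdeal := by
        intro v hv
        rw [Finset.mem_map] at hv
        obtain ⟨a, ha, rfl⟩ := hv
        rw [Finset.mem_filter] at ha
        have h3 := below_mem K a.1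
        rw [ha.2] at h3
        exact h3
      have h4 := card_le_of_prime_mem K hbp _ hmem
      rwa [Finset.card_map] at h4
    · have h5 : u.filter (fun a => below K a.1 = b) = ∅ := by
        rw [Finset.filter_eq_empty_iff]
        intro a ha hab
        exact hb ⟨a, ha, hab⟩
      rw [h5, Finset.card_empty]
      exact Nat.zero_le _
  have step1 : ∑ a ∈ u, (Ideal.absNorm a.1.asIdeal : ℝ) ^ (-s)
      ≤ ∑ a ∈ u, (((below K a.1 : ℕ) : ℝ) ^ 2)⁻¹ :=
    Finset.sum_le_sum fun a _ => rpow_le_inv_sq K a.1 a.2 hs.le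
  have step2 := Finset.sum_comp (s := u) (fun b : ℕ => (((b : ℝ) ^ 2)⁻¹ : ℝ))
    (fun a => below K a.1)
  have step3 : ∑ a ∈ u, (((below K a.1 : ℕ) : ℝ) ^ 2)⁻¹
      ≤ ∑ b ∈ u.image (fun a => below K a.1),
          (Module.finrank ℤ (𝓞 K) : ℝ) * (((b : ℝ) ^ 2)⁻¹ : ℝ) := by
    rw [step2]
    refine Finset.sum_le_sum fun b _ => ?_
    rw [nsmul_eq_mul]
    exact mul_le_mul_of_nonneg_right (by exact_mod_cast hfib b) (by positivity)
  have step4 : ∑ b ∈ u.image (fun a => below K a.1),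
          (Module.finrank ℤ (𝓞 K) : ℝ) * (((b : ℝ) ^ 2)⁻¹ : ℝ)
      = (Module.finrank ℤ (𝓞 K) : ℝ) * ∑ b ∈ u.image (fun a => below K a.1),
          (((b : ℝ) ^ 2)⁻¹ : ℝ) := (Finset.mul_sum _ _ _).symm
  have step5 : (Module.finrank ℤ (𝓞 K) : ℝ) * ∑ b ∈ u.image (fun a => below K a.1),
          (((b : ℝ) ^ 2)⁻¹ : ℝ)
      ≤ (Module.finrank ℤ (𝓞 K) : ℝ) * ∑' n : ℕ, (((n : ℝ) ^ 2)⁻¹ : ℝ) :=
    mul_le_mul_of_nonneg_left (hsumm.sum_le_tsum _ (fun n _ => by positivity))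
      (Nat.cast_nonneg _)
  linarith

end Fermat.Agent.S14.helper1383
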