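/-
S14 (Thaine route, Weber bound core), abstract sub-leaves (seat helper141). Mathlib only.

* `summable_of_decay` / `shift_sum_bound` : (W-a) uniform bound for lattice sums of a function
  that is bounded near the origin and decays like `‖x‖ ^ (-(d+1))` (`d` = rank of the lattice).
* `exists_lipschitz_partition` : (W-tent) a Lipschitz partition of unity for the translation
  action of a full `ℤ`-lattice on a finite dimensional real normed space.
-/
import Mathlib

set_option autoImplicit false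

open Module

namespace Fermat.Agent.S14.helper141

noncomputable section

variable {E : Type*} [NormedAddCommGroup E] [NormedSpace ℝ E] [FiniteDimensional ℝ E]

/-- Lattice points in a ball are finite in number. -/
theorem finite_norm_lt (L : Submodule ℤ E) [DiscreteTopology L] (R0 : ℝ) :
    {x : L | ‖(x : E)‖ < R0}.Finite := by
  have H : IsClosed (X := E) L := @AddSubgroup.isClosed_of_discrete _ _ _ _ _
    L.toAddSubgroup (inferInstanceAs (DiscreteTopology L))
  refine ((Metric.finite_isBounded_inter_isClosed DiscreteTopology.isDiscrete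
    (Metric.isBounded_closedBall (x := (0 : E)) (r := R0)) H).preimage_embedding
    (.subtype _)).subset ?_
  intro t ht
  have ht : ‖(t : E)‖ < R0 := ht
  simp only [Set.mem_preimage, Function.Embedding.coe_subtype, Set.mem_inter_iff,
    Metric.mem_closedBall, dist_zero_right, SetLike.mem_coe, SetLike.coe_mem, and_true]
  exact ht.le

/-- **(W-a), general form.** For a discrete subgroup `L` of rank `d` and a radius `R0` there are
constants `n0`, `S` (depending only on `L`, `R0`) such that every nonnegative `g : L → ℝ` with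
`g ≤ c` on `‖x‖ < R0` and `g x ≤ A * ‖x‖ ^ (-(d+1))` on `R0 ≤ ‖x‖` is summable with
`∑' g ≤ c * n0 + A * S`. -/
theorem summable_of_decay (L : Submodule ℤ E) [DiscreteTopology L] (R0 : ℝ) :
    ∃ (n0 : ℕ) (S : ℝ), 0 ≤ S ∧ ∀ (g : L → ℝ) (c A : ℝ), 0 ≤ c → 0 ≤ A →
      (∀ x, 0 ≤ g x) →
      (∀ x : L, ‖(x : E)‖ < R0 → g x ≤ c) →
      (∀ x : L, R0 ≤ ‖(x : E)‖ → g x ≤ A * ‖(x : E)‖ ^ (-((finrank ℤ L : ℝ) + 1))) →
      Summable g ∧ ∑' x : L, g x ≤ c * n0 + A * S := by
  classical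
  have hfin := finite_norm_lt L R0
  set T : Finset L := hfin.toFinset with hT
  have hsum : Summable fun z : L ↦ ‖(z : E)‖ ^ (-((finrank ℤ L : ℝ) + 1)) := by
    have := ZLattice.summable_norm_rpow L (-((finrank ℤ L : ℝ) + 1)) (by linarith)
    simpa using this
  refine ⟨T.card, ∑' z : L, ‖(z : E)‖ ^ (-((finrank ℤ L : ℝ) + 1)),
    tsum_nonneg fun z ↦ by positivity, ?_⟩
  intro g c A hc hA hg0 hg1 hg2
  -- the dominating function
  set G : L → ℝ := fun x ↦ (if x ∈ T then c else 0) + A * ‖(x : E)‖ ^ (-((finrank ℤ L : ℝ) + 1))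
    with hG
  have hind : Summable fun x : L ↦ (if x ∈ T then c else (0 : ℝ)) :=
    summable_of_ne_finset_zero (s := T) fun x hx ↦ by simp [hx]
  have hGs : Summable G := hind.add (hsum.mul_left A)
  have hle : ∀ x, g x ≤ G x := by
    intro x
    by_cases hx : ‖(x : E)‖ < R0
    · have hxT : x ∈ T := by simpa [hT] using hx
      have : 0 ≤ A * ‖(x : E)‖ ^ (-((finrank ℤ L : ℝ) + 1)) := by positivity
      simp only [hG, hxT, if_true]
      linarith [hg1 x hx]
    · have hxT : x ∉ T := by simpa [hT] using hx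
      simp only [hG, hxT, if_false, zero_add]
      exact hg2 x (not_lt.mp hx)
  have hgs : Summable g := Summable.of_nonneg_of_le hg0 hle hGs
  refine ⟨hgs, ?_⟩
  calc ∑' x : L, g x ≤ ∑' x : L, G x := hgs.tsum_le_tsum hle hGs
    _ = (∑' x : L, (if x ∈ T then c else (0 : ℝ))) +
          ∑' x : L, A * ‖(x : E)‖ ^ (-((finrank ℤ L : ℝ) + 1)) := hind.tsum_add (hsum.mul_left A)
    _ = c * T.card + A * ∑' z : L, ‖(z : E)‖ ^ (-((finrank ℤ L : ℝ) + 1)) := by
        rw [tsum_mul_left]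
        congr 1
        rw [tsum_eq_sum (s := T) fun x hx ↦ by simp [hx]]
        rw [Finset.sum_ite_mem, Finset.inter_self, Finset.sum_const, nsmul_eq_mul, mul_comm]

/-- **(W-a), shift form.** Uniform bound for `∑_{x ∈ L} |F (x + r) - F x|` when `F` is bounded by
`M` at the points `x`, `x + r` (`x ∈ L`, `‖x‖ < R0`) and the differences decay like
`A * ‖x‖ ^ (-(d+1))` for `R0 ≤ ‖x‖`.  The constants `n0`, `S` depend only on `L` and `R0`. -/
theorem shift_sum_bound (L : Submodule ℤ E) [DiscreteTopology L] (R0 : ℝ) :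
    ∃ (n0 : ℕ) (S : ℝ), 0 ≤ S ∧ ∀ (F : E → ℝ) (M A : ℝ) (r : E), 0 ≤ M → 0 ≤ A →
      (∀ x : L, ‖(x : E)‖ < R0 → |F x| ≤ M ∧ |F (x + r)| ≤ M) →
      (∀ x : L, R0 ≤ ‖(x : E)‖ →
        |F (x + r) - F x| ≤ A * ‖(x : E)‖ ^ (-((finrank ℤ L : ℝ) + 1))) →
      Summable (fun x : L ↦ |F (x + r) - F x|) ∧
        ∑' x : L, |F (x + r) - F x| ≤ 2 * M * n0 + A * S := by
  obtain ⟨n0, S, hS, H⟩ := summable_of_decay L R0
  refine ⟨n0, S, hS, fun F M A r hM hA h1 h2 ↦ ?_⟩
  refine H (fun x : L ↦ |F (x + r) - F x|) (2 * M) A (by positivity) hA (fun x ↦ abs_nonneg _)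
    (fun x hx ↦ ?_) h2
  obtain ⟨ha, hb⟩ := h1 x hx
  calc |F (x + r) - F x| ≤ |F (x + r)| + |F x| := abs_sub _ _
    _ ≤ 2 * M := by linarith


/-! ### (W-tent) Lipschitz partition of unity for a full lattice -/

/-- Covering radius of a full lattice: every point is within bounded distance of `L`. -/
theorem exists_covering_radius (L : Submodule ℤ E) [DiscreteTopology L] [IsZLattice ℝ L] :
    ∃ R1 : ℝ, 0 ≤ R1 ∧ ∀ x : E, ∃ l : L, ‖x + (l : E)‖ ≤ R1 := by
  classical
  have : Module.Finite ℤ L := ZLattice.module_finite ℝ L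
  have : Module.Free ℤ L := ZLattice.module_free ℝ L
  let b0 := Module.Free.chooseBasis ℤ L
  let b := b0.ofZLatticeBasis ℝ L
  have hspan : Submodule.span ℤ (Set.range b) = L := b0.ofZLatticeBasis_span ℝ L
  refine ⟨∑ i, ‖b i‖, Finset.sum_nonneg fun i _ ↦ norm_nonneg _, fun x ↦ ?_⟩
  have hmem : ((ZSpan.floor b x : Submodule.span ℤ (Set.range b)) : E) ∈ L := by
    have h : ((ZSpan.floor b x : Submodule.span ℤ (Set.range b)) : E) ∈
        Submodule.span ℤ (Set.range b) := (ZSpan.floor b x).2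
    exact hspan.le h
  refine ⟨-⟨_, hmem⟩, ?_⟩
  have h := ZSpan.norm_fract_le b x
  rw [ZSpan.fract_apply, sub_eq_add_neg] at h
  exact h

/-- The tent function of radius `ρ`. -/
def tent (ρ : ℝ) (x : E) : ℝ := max 0 (ρ - ‖x‖)

theorem tent_nonneg (ρ : ℝ) (x : E) : 0 ≤ tent ρ x := le_max_left _ _

theorem tent_ne_zero {ρ : ℝ} {x : E} (h : tent ρ x ≠ 0) : ‖x‖ < ρ := by
  by_contra hx
  exact h (max_eq_left (by linarith [not_lt.mp hx]))

theorem tent_lipschitz (ρ : ℝ) (x y : E) : |tent ρ x - tent ρ y| ≤ ‖x - y‖ := by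
  have h1 : |max (ρ - ‖x‖) 0 - max (ρ - ‖y‖) 0| ≤ |(ρ - ‖x‖) - (ρ - ‖y‖)| :=
    abs_max_sub_max_le_abs _ _ _
  have h2 : |(ρ - ‖x‖) - (ρ - ‖y‖)| = |‖y‖ - ‖x‖| := by congr 1; ring
  have h3 : |‖y‖ - ‖x‖| ≤ ‖y - x‖ := abs_norm_sub_norm_le y x
  rw [norm_sub_rev] at h3
  unfold tent
  rw [max_comm 0, max_comm 0]
  linarith

/-- The periodisation of the tent function along the lattice. -/
def tentSum (L : Submodule ℤ E) (ρ : ℝ) (x : E) : ℝ := ∑' l : L, tent ρ (x + (l : E))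

theorem tent_support_finite (L : Submodule ℤ E) [DiscreteTopology L] (ρ : ℝ) (x : E) :
    {l : L | ‖x + (l : E)‖ < ρ}.Finite := by
  refine (finite_norm_lt L (ρ + ‖x‖)).subset fun l hl ↦ ?_
  have hl : ‖x + (l : E)‖ < ρ := hl
  show ‖(l : E)‖ < ρ + ‖x‖
  have : ‖(l : E)‖ ≤ ‖x + (l : E)‖ + ‖x‖ := by
    calc ‖(l : E)‖ = ‖(x + (l : E)) - x‖ := by congr 1; abel
      _ ≤ ‖x + (l : E)‖ + ‖x‖ := norm_sub_le _ _
  linarith

theorem tent_support_ncard_le (L : Submodule ℤ E) [DiscreteTopology L] (ρ : ℝ) (x : E) :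
    {l : L | ‖x + (l : E)‖ < ρ}.ncard ≤ {m : L | ‖(m : E)‖ < 2 * ρ}.ncard := by
  rcases Set.eq_empty_or_nonempty {l : L | ‖x + (l : E)‖ < ρ} with h | ⟨l0, hl0⟩
  · rw [h]; simp
  · refine Set.ncard_le_ncard_of_injOn (fun l ↦ l - l0) (fun l hl ↦ ?_)
      (fun a _ b _ hab ↦ by simpa using hab) (finite_norm_lt L (2 * ρ))
    have hl : ‖x + (l : E)‖ < ρ := hl
    have hl0 : ‖x + (l0 : E)‖ < ρ := hl0
    show ‖((l - l0 : L) : E)‖ < 2 * ρ
    calc ‖((l - l0 : L) : E)‖ = ‖(x + (l : E)) - (x + (l0 : E))‖ := by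
          push_cast; congr 1; abel
      _ ≤ ‖x + (l : E)‖ + ‖x + (l0 : E)‖ := norm_sub_le _ _
      _ < 2 * ρ := by linarith

theorem tentSum_eq_sum (L : Submodule ℤ E) (ρ : ℝ) (x : E) (T : Finset L)
    (hT : ∀ l : L, ‖x + (l : E)‖ < ρ → l ∈ T) :
    tentSum L ρ x = ∑ l ∈ T, tent ρ (x + (l : E)) :=
  tsum_eq_sum fun l hl ↦ by
    by_contra h
    exact hl (hT l (tent_ne_zero h))

theorem tentSum_add (L : Submodule ℤ E) (ρ : ℝ) (x : E) (m : L) :
    tentSum L ρ (x + (m : E)) = tentSum L ρ x := by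
  unfold tentSum
  rw [← (Equiv.addLeft m).tsum_eq (fun l : L ↦ tent ρ (x + (l : E)))]
  refine tsum_congr fun l ↦ ?_
  simp [add_assoc]

theorem tentSum_lipschitz (L : Submodule ℤ E) [DiscreteTopology L] (ρ : ℝ) (x y : E) :
    |tentSum L ρ x - tentSum L ρ y| ≤
      2 * ({m : L | ‖(m : E)‖ < 2 * ρ}.ncard : ℝ) * ‖x - y‖ := by
  classical
  set Tx := (tent_support_finite L ρ x).toFinset with hTx
  set Ty := (tent_support_finite L ρ y).toFinset with hTy
  have hx : tentSum L ρ x = ∑ l ∈ Tx ∪ Ty, tent ρ (x + (l : E)) :=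
    tentSum_eq_sum L ρ x _ fun l hl ↦ Finset.mem_union_left _ (by simpa [hTx] using hl)
  have hy : tentSum L ρ y = ∑ l ∈ Tx ∪ Ty, tent ρ (y + (l : E)) :=
    tentSum_eq_sum L ρ y _ fun l hl ↦ Finset.mem_union_right _ (by simpa [hTy] using hl)
  have hcx : Tx.card ≤ {m : L | ‖(m : E)‖ < 2 * ρ}.ncard := by
    rw [hTx, ← Set.ncard_eq_toFinset_card _ (tent_support_finite L ρ x)]
    exact tent_support_ncard_le L ρ x
  have hcy : Ty.card ≤ {m : L | ‖(m : E)‖ < 2 * ρ}.ncard := by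
    rw [hTy, ← Set.ncard_eq_toFinset_card _ (tent_support_finite L ρ y)]
    exact tent_support_ncard_le L ρ y
  have hcard : ((Tx ∪ Ty).card : ℝ) ≤ 2 * ({m : L | ‖(m : E)‖ < 2 * ρ}.ncard : ℝ) := by
    have h1 : (Tx ∪ Ty).card ≤ Tx.card + Ty.card := Finset.card_union_le _ _
    have h2 : (Tx ∪ Ty).card ≤ 2 * {m : L | ‖(m : E)‖ < 2 * ρ}.ncard := by omega
    exact_mod_cast h2
  rw [hx, hy, ← Finset.sum_sub_distrib]
  calc |∑ l ∈ Tx ∪ Ty, (tent ρ (x + (l : E)) - tent ρ (y + (l : E)))|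
      ≤ ∑ l ∈ Tx ∪ Ty, |tent ρ (x + (l : E)) - tent ρ (y + (l : E))| :=
        Finset.abs_sum_le_sum_abs _ _
    _ ≤ ∑ _l ∈ Tx ∪ Ty, ‖x - y‖ := Finset.sum_le_sum fun l _ ↦ by
        have := tent_lipschitz ρ (x + (l : E)) (y + (l : E))
        rwa [add_sub_add_right_eq_sub] at this
    _ = ((Tx ∪ Ty).card : ℝ) * ‖x - y‖ := by rw [Finset.sum_const, nsmul_eq_mul]
    _ ≤ 2 * ({m : L | ‖(m : E)‖ < 2 * ρ}.ncard : ℝ) * ‖x - y‖ :=
        mul_le_mul_of_nonneg_right hcard (norm_nonneg _)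

/-- **(W-tent).** Lipschitz partition of unity for the translation action of a full lattice `L`
on a finite dimensional real normed space: a nonnegative Lipschitz function `φ ≤ 1` supported in
a ball, whose `L`-translates sum to `1` (each sum being finite). -/
theorem exists_lipschitz_partition (L : Submodule ℤ E) [DiscreteTopology L] [IsZLattice ℝ L] :
    ∃ (φ : E → ℝ) (K R : ℝ), 0 ≤ K ∧ 0 < R ∧
      (∀ x, 0 ≤ φ x) ∧ (∀ x, φ x ≤ 1) ∧ (∀ x, φ x ≠ 0 → ‖x‖ < R) ∧
      (∀ x y, |φ x - φ y| ≤ K * ‖x - y‖) ∧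
      (∀ x, {l : L | φ (x + (l : E)) ≠ 0}.Finite) ∧
      (∀ x, Summable fun l : L ↦ φ (x + (l : E))) ∧
      (∀ x, ∑' l : L, φ (x + (l : E)) = 1) := by
  classical
  obtain ⟨R1, hR1, hcov⟩ := exists_covering_radius L
  set ρ : ℝ := R1 + 1 with hρ
  set N : ℝ := ({m : L | ‖(m : E)‖ < 2 * ρ}.ncard : ℝ) with hN
  have hN0 : 0 ≤ N := Nat.cast_nonneg _
  -- the periodisation is at least one
  have hΘ1 : ∀ x, 1 ≤ tentSum L ρ x := by
    intro x
    obtain ⟨l0, hl0⟩ := hcov x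
    have hmem : l0 ∈ (tent_support_finite L ρ x).toFinset := by
      rw [Set.Finite.mem_toFinset]
      show ‖x + (l0 : E)‖ < ρ
      linarith
    rw [tentSum_eq_sum L ρ x (tent_support_finite L ρ x).toFinset fun l hl ↦ by simpa using hl]
    calc (1 : ℝ) ≤ tent ρ (x + (l0 : E)) := by
          unfold tent
          exact le_max_of_le_right (by linarith)
      _ ≤ _ := Finset.single_le_sum (f := fun l : L ↦ tent ρ (x + (l : E)))
          (fun l _ ↦ tent_nonneg _ _) hmem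
  have hΘpos : ∀ x, 0 < tentSum L ρ x := fun x ↦ lt_of_lt_of_le one_pos (hΘ1 x)
  -- a single tent is at most the periodisation
  have hθΘ : ∀ x, tent ρ x ≤ tentSum L ρ x := by
    intro x
    have hsupp : ∀ l : L, ‖x + (l : E)‖ < ρ → l ∈ insert (0 : L) (tent_support_finite L ρ x).toFinset :=
      fun l hl ↦ Finset.mem_insert_of_mem (by simpa using hl)
    rw [tentSum_eq_sum L ρ x _ hsupp]
    have := Finset.single_le_sum (f := fun l : L ↦ tent ρ (x + (l : E)))
      (fun l _ ↦ tent_nonneg _ _) (Finset.mem_insert_self (0 : L) (tent_support_finite L ρ x).toFinset)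
    simpa using this
  refine ⟨fun x ↦ tent ρ x / tentSum L ρ x, 1 + 2 * N, ρ, by positivity, by positivity,
    fun x ↦ div_nonneg (tent_nonneg _ _) (hΘpos x).le,
    fun x ↦ (div_le_one (hΘpos x)).mpr (hθΘ x), fun x hx ↦ ?_, fun x y ↦ ?_, fun x ↦ ?_,
    fun x ↦ ?_, fun x ↦ ?_⟩
  · -- support
    refine tent_ne_zero fun h ↦ hx ?_
    simp [h]
  · -- Lipschitz
    have hx1 := hΘ1 x
    have hy1 := hΘ1 y
    have hxp := hΘpos x
    have hyp := hΘpos y
    have e : tent ρ x / tentSum L ρ x - tent ρ y / tentSum L ρ y =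
        (tent ρ x - tent ρ y) / tentSum L ρ x +
          (tent ρ y / tentSum L ρ y) * ((tentSum L ρ y - tentSum L ρ x) / tentSum L ρ x) := by
      field_simp
      ring
    have b1 : |(tent ρ x - tent ρ y) / tentSum L ρ x| ≤ ‖x - y‖ := by
      rw [abs_div, abs_of_pos hxp]
      calc |tent ρ x - tent ρ y| / tentSum L ρ x ≤ |tent ρ x - tent ρ y| / 1 := by
            gcongr
        _ ≤ ‖x - y‖ := by rw [div_one]; exact tent_lipschitz ρ x y
    have b2 : |(tent ρ y / tentSum L ρ y) * ((tentSum L ρ y - tentSum L ρ x) / tentSum L ρ x)|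
        ≤ 2 * N * ‖x - y‖ := by
      rw [abs_mul, abs_of_nonneg (div_nonneg (tent_nonneg _ _) hyp.le), abs_div, abs_of_pos hxp]
      have c1 : tent ρ y / tentSum L ρ y ≤ 1 := (div_le_one hyp).mpr (hθΘ y)
      have c2 : |tentSum L ρ y - tentSum L ρ x| / tentSum L ρ x ≤ 2 * N * ‖x - y‖ := by
        calc |tentSum L ρ y - tentSum L ρ x| / tentSum L ρ x
            ≤ |tentSum L ρ y - tentSum L ρ x| / 1 := by gcongr
          _ ≤ 2 * N * ‖x - y‖ := by
              rw [div_one, abs_sub_comm]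
              exact tentSum_lipschitz L ρ x y
      have c3 : 0 ≤ |tentSum L ρ y - tentSum L ρ x| / tentSum L ρ x :=
        div_nonneg (abs_nonneg _) hxp.le
      calc tent ρ y / tentSum L ρ y * (|tentSum L ρ y - tentSum L ρ x| / tentSum L ρ x)
          ≤ 1 * (|tentSum L ρ y - tentSum L ρ x| / tentSum L ρ x) := by gcongr
        _ ≤ 2 * N * ‖x - y‖ := by rw [one_mul]; exact c2
    rw [e]
    calc _ ≤ |(tent ρ x - tent ρ y) / tentSum L ρ x| +
          |(tent ρ y / tentSum L ρ y) * ((tentSum L ρ y - tentSum L ρ x) / tentSum L ρ x)| :=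
        abs_add_le _ _
      _ ≤ ‖x - y‖ + 2 * N * ‖x - y‖ := add_le_add b1 b2
      _ = (1 + 2 * N) * ‖x - y‖ := by ring
  · -- finiteness of the support of the translates
    refine (tent_support_finite L ρ x).subset fun l hl ↦ ?_
    have hl : tent ρ (x + (l : E)) / tentSum L ρ (x + (l : E)) ≠ 0 := hl
    refine tent_ne_zero fun h ↦ hl ?_
    simp [h]
  · -- summability
    refine summable_of_ne_finset_zero (s := (tent_support_finite L ρ x).toFinset) fun l hl ↦ ?_
    have hl' : ¬ ‖x + (l : E)‖ < ρ := by simpa using hl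
    have : tent ρ (x + (l : E)) = 0 := by
      by_contra h
      exact hl' (tent_ne_zero h)
    simp [this]
  · -- the translates sum to one
    have h1 : ∀ l : L, tent ρ (x + (l : E)) / tentSum L ρ (x + (l : E)) =
        tent ρ (x + (l : E)) / tentSum L ρ x := fun l ↦ by rw [tentSum_add]
    simp_rw [h1]
    rw [tsum_div_const]
    exact div_self (hΘpos x).ne'


/-- **(W-tent), `LipschitzWith` form.**  Same as `exists_lipschitz_partition`, with the Lipschitz
property stated via `LipschitzWith` (so continuity, measurability, ... follow from Mathlib). -/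
theorem exists_lipschitzWith_partition (L : Submodule ℤ E) [DiscreteTopology L]
    [IsZLattice ℝ L] :
    ∃ (φ : E → ℝ) (K : NNReal) (R : ℝ), 0 < R ∧ LipschitzWith K φ ∧ Continuous φ ∧
      (∀ x, 0 ≤ φ x) ∧ (∀ x, φ x ≤ 1) ∧ (∀ x, φ x ≠ 0 → ‖x‖ < R) ∧
      (∀ x, {l : L | φ (x + (l : E)) ≠ 0}.Finite) ∧
      (∀ x, Summable fun l : L ↦ φ (x + (l : E))) ∧
      (∀ x, ∑' l : L, φ (x + (l : E)) = 1) := by
  obtain ⟨φ, K, R, hK, hR, h0, h1, hsupp, hlip, hfin, hsum, hone⟩ := exists_lipschitz_partition L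
  have hL : LipschitzWith K.toNNReal φ := by
    refine LipschitzWith.of_dist_le_mul fun x y ↦ ?_
    rw [Real.dist_eq, dist_eq_norm, Real.coe_toNNReal K hK]
    exact hlip x y
  exact ⟨φ, K.toNNReal, R, hR, hL, hL.continuous, h0, h1, hsupp, hfin, hsum, hone⟩

end

end Fermat.Agent.S14.helper141
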