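/-
S14 (Thaine route, Weber bound core): design-independent TAIL of the partial-zeta difference
bound (W0) (seat helper141).

`partialZeta_diff_bounded_of_kernel`: let `F s : 𝓞 K → ℝ` (`s ∈ (1,2]`) be any family with
* (unfold)  `∑_{a ∈ J, a ≠ 0} F s a = c * N(J)^(-s) * Z_{[J]⁻¹}(s)` for every nonzero ideal `J`,
* (bdd)     `|F s a| ≤ M` for `a ≠ 0`,
* (shift)   `|F s (a + r) - F s a| ≤ A_r * ‖a‖^(-(n+1))` for `‖a‖ ≥ R0_r` (`n = [K:ℚ]`),
with constants independent of `s`.  Then the partial zeta functions of any two ideal classes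
differ by a bounded function on `(1,2]`.
-/
import Mathlib
import Fermat.Agent.S14.helper141_LatticeTent
import Fermat.Agent.Lib.helper1121_ZetaIdealSum

set_option autoImplicit false

open NumberField Ideal nonZeroDivisors Module

open scoped Classical

namespace Fermat.Agent.S14.helper141

noncomputable section

/-! ### Coset decomposition of a sum over a commutative ring -/

/-- The decomposition of a ring into the cosets of an ideal, given coset representatives. -/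
def cosetEquiv {R : Type*} [CommRing R] (J : Ideal R) (rep : R ⧸ J → R)
    (hrep : ∀ q, Ideal.Quotient.mk J (rep q) = q) : (R ⧸ J) × J ≃ R where
  toFun p := (p.2 : R) + rep p.1
  invFun b := (Ideal.Quotient.mk J b, ⟨b - rep (Ideal.Quotient.mk J b), by
    rw [← Ideal.Quotient.eq]; exact (hrep _).symm⟩)
  left_inv := by
    rintro ⟨q, a⟩
    have h1 : Ideal.Quotient.mk J ((a : R) + rep q) = q := by
      rw [map_add, hrep, Ideal.Quotient.eq_zero_iff_mem.mpr a.2, zero_add]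
    refine Prod.ext h1 (Subtype.ext ?_)
    simp [h1]
  right_inv := by
    intro b
    simp

theorem tsum_coset {R : Type*} [CommRing R] (J : Ideal R) [Fintype (R ⧸ J)] (rep : R ⧸ J → R)
    (hrep : ∀ q, Ideal.Quotient.mk J (rep q) = q) (f : R → ℝ) (hf : Summable f) :
    (∀ q, Summable fun a : J ↦ f ((a : R) + rep q)) ∧
      ∑' b, f b = ∑ q : R ⧸ J, ∑' a : J, f ((a : R) + rep q) := by
  have hs : Summable (fun p : (R ⧸ J) × J ↦ f (cosetEquiv J rep hrep p)) :=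
    (cosetEquiv J rep hrep).summable_iff.mpr hf
  refine ⟨fun q ↦ hs.prod_factor q, ?_⟩
  rw [← (cosetEquiv J rep hrep).tsum_eq f, hs.tsum_prod, tsum_fintype]
  rfl

/-! ### The integer lattice -/

variable (K : Type*) [Field K] [NumberField K]

/-- The bijection between `𝓞 K` and the integer lattice of the mixed space. -/
def intLatEquiv : 𝓞 K ≃ mixedEmbedding.integerLattice K :=
  Equiv.ofBijective (fun a ↦ ⟨mixedEmbedding K (a : K), ⟨a, rfl⟩⟩) (by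
    constructor
    · intro a b h
      have h' : mixedEmbedding K (a : K) = mixedEmbedding K (b : K) := congrArg Subtype.val h
      exact RingOfIntegers.coe_injective (mixedEmbedding_injective K h')
    · rintro ⟨x, a, rfl⟩
      exact ⟨a, rfl⟩)

theorem intLatEquiv_coe (a : 𝓞 K) :
    ((intLatEquiv K a : mixedEmbedding.integerLattice K) : mixedEmbedding.mixedSpace K) =
      mixedEmbedding K (a : K) := rfl

variable {K}

/-- A function on `𝓞 K` with its value at `0` replaced by `0`. -/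
def cut (f : 𝓞 K → ℝ) (a : 𝓞 K) : ℝ := if a = 0 then 0 else f a

theorem hasSum_cut_ideal (f : 𝓞 K → ℝ) (J : Ideal (𝓞 K)) (v : ℝ)
    (h : HasSum (fun a : {a : 𝓞 K // a ∈ J ∧ a ≠ 0} ↦ f a) v) :
    HasSum (fun a : J ↦ cut f a) v := by
  have h1 : HasSum (Set.indicator {a : 𝓞 K | a ∈ J ∧ a ≠ 0} f) v :=
    (hasSum_subtype_iff_indicator (s := {a : 𝓞 K | a ∈ J ∧ a ≠ 0})).mp h
  have h2 : Set.indicator {a : 𝓞 K | a ∈ J ∧ a ≠ 0} f = Set.indicator (J : Set (𝓞 K)) (cut f) := by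
    ext a
    by_cases haJ : a ∈ J
    · by_cases ha0 : a = 0
      · simp [Set.indicator, cut, ha0]
      · simp [Set.indicator, cut, ha0, haJ]
    · simp [Set.indicator, haJ]
  rw [h2] at h1
  exact (hasSum_subtype_iff_indicator (s := (J : Set (𝓞 K)))).mpr h1

theorem hasSum_cut_top (f : 𝓞 K → ℝ) (v : ℝ)
    (h : HasSum (fun a : {a : 𝓞 K // a ∈ (⊤ : Ideal (𝓞 K)) ∧ a ≠ 0} ↦ f a) v) :
    HasSum (cut f) v := by
  have h1 : HasSum (Set.indicator {a : 𝓞 K | a ∈ (⊤ : Ideal (𝓞 K)) ∧ a ≠ 0} f) v :=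
    (hasSum_subtype_iff_indicator (s := {a : 𝓞 K | a ∈ (⊤ : Ideal (𝓞 K)) ∧ a ≠ 0})).mp h
  have h2 : Set.indicator {a : 𝓞 K | a ∈ (⊤ : Ideal (𝓞 K)) ∧ a ≠ 0} f = cut f := by
    ext a
    by_cases ha0 : a = 0
    · simp [Set.indicator, cut, ha0]
    · simp [Set.indicator, cut, ha0]
  rwa [h2] at h1

/-! ### The uniform shift-sum bound on `𝓞 K` -/

/-- **Shift sums over `𝓞 K`.** If `F s` is bounded (off `0`) and `F s (a + r) - F s a` decays like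
`‖a‖ ^ (-(n+1))`, uniformly in `s ∈ (1,2]`, then `∑_{a ∈ 𝓞 K} |F s (a + r) - F s a|` is bounded
uniformly in `s ∈ (1,2]` (with `F s` cut off at `0`). -/
theorem shift_sum_int (F : ℝ → 𝓞 K → ℝ)
    (hbdd : ∃ M : ℝ, ∀ s : ℝ, 1 < s → s ≤ 2 → ∀ a : 𝓞 K, a ≠ 0 → |F s a| ≤ M) (r : 𝓞 K)
    (hshift : ∃ A R0 : ℝ, ∀ s : ℝ, 1 < s → s ≤ 2 → ∀ a : 𝓞 K,
      R0 ≤ ‖mixedEmbedding K (a : K)‖ →
      |F s (a + r) - F s a| ≤ A * ‖mixedEmbedding K (a : K)‖ ^ (-((finrank ℚ K : ℝ) + 1))) :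
    ∃ B : ℝ, ∀ s : ℝ, 1 < s → s ≤ 2 →
      Summable (fun a : 𝓞 K ↦ |cut (F s) (a + r) - cut (F s) a|) ∧
      ∑' a : 𝓞 K, |cut (F s) (a + r) - cut (F s) a| ≤ B := by
  obtain ⟨M, hM⟩ := hbdd
  obtain ⟨A, R0, hA⟩ := hshift
  set R1 : ℝ := max R0 (‖mixedEmbedding K (r : K)‖ + 1) with hR1
  obtain ⟨n0, S, hS, H⟩ := summable_of_decay (mixedEmbedding.integerLattice K) R1
  have hrank : (finrank ℤ (mixedEmbedding.integerLattice K) : ℝ) = (finrank ℚ K : ℝ) := by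
    rw [ZLattice.rank ℝ, mixedEmbedding.finrank]
  refine ⟨2 * max M 0 * n0 + max A 0 * S, fun s hs hs2 ↦ ?_⟩
  have hcut : ∀ b : 𝓞 K, |cut (F s) b| ≤ max M 0 := by
    intro b
    by_cases hb : b = 0
    · simp [cut, hb]
    · simp only [cut, hb, if_false]
      exact (hM s hs hs2 b hb).trans (le_max_left _ _)
  have key := H (fun x ↦ |cut (F s) ((intLatEquiv K).symm x + r) - cut (F s) ((intLatEquiv K).symm x)|)
    (2 * max M 0) (max A 0) (by positivity) (le_max_right _ _) (fun x ↦ abs_nonneg _) ?_ ?_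
  · obtain ⟨h1, h2⟩ := key
    have e1 := (intLatEquiv K).summable_iff.mpr h1
    have e2 := (intLatEquiv K).tsum_eq
      (fun x ↦ |cut (F s) ((intLatEquiv K).symm x + r) - cut (F s) ((intLatEquiv K).symm x)|)
    simp only [Function.comp_def, Equiv.symm_apply_apply] at e1 e2
    refine ⟨e1, ?_⟩
    rw [e2]
    exact h2
  · intro x _
    calc |cut (F s) ((intLatEquiv K).symm x + r) - cut (F s) ((intLatEquiv K).symm x)|
        ≤ |cut (F s) ((intLatEquiv K).symm x + r)| + |cut (F s) ((intLatEquiv K).symm x)| :=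
          abs_sub _ _
      _ ≤ 2 * max M 0 := by
          linarith [hcut ((intLatEquiv K).symm x + r), hcut ((intLatEquiv K).symm x)]
  · intro x hx
    obtain ⟨a, rfl⟩ := (intLatEquiv K).surjective x
    rw [Equiv.symm_apply_apply, hrank]
    rw [intLatEquiv_coe] at hx ⊢
    have hR0 : R0 ≤ ‖mixedEmbedding K (a : K)‖ := (le_max_left _ _).trans hx
    have hr1 : ‖mixedEmbedding K (r : K)‖ + 1 ≤ ‖mixedEmbedding K (a : K)‖ :=
      (le_max_right _ _).trans hx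
    have ha0 : a ≠ 0 := by
      rintro rfl
      have e0 : ((0 : 𝓞 K) : K) = 0 := map_zero (algebraMap (𝓞 K) K)
      rw [e0, map_zero, norm_zero] at hr1
      linarith [norm_nonneg (mixedEmbedding K (r : K))]
    have har : a + r ≠ 0 := by
      intro h
      have h' : a = -r := eq_neg_of_add_eq_zero_left h
      have e1 : ((-r : 𝓞 K) : K) = -(r : K) := map_neg (algebraMap (𝓞 K) K) r
      rw [h', e1, map_neg, norm_neg] at hr1
      linarith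
    simp only [cut, ha0, har, if_false]
    calc |F s (a + r) - F s a|
        ≤ A * ‖mixedEmbedding K (a : K)‖ ^ (-((finrank ℚ K : ℝ) + 1)) := hA s hs hs2 a hR0
      _ ≤ max A 0 * ‖mixedEmbedding K (a : K)‖ ^ (-((finrank ℚ K : ℝ) + 1)) := by
          gcongr
          exact le_max_left _ _

/-! ### Partial zeta sums -/

variable (K)

/-- The partial zeta sum of an ideal class (real `s`). -/
abbrev partialZeta (s : ℝ) (C : ClassGroup (𝓞 K)) : ℝ :=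
  ∑' I : {I : (Ideal (𝓞 K))⁰ // ClassGroup.mk0 I = C}, (absNorm (I.1 : Ideal (𝓞 K)) : ℝ) ^ (-s)

variable {K}

/-- **Coset comparison.**  `|S_𝓞(s) - N(J) * S_J(s)| ≤ D` uniformly in `s ∈ (1,2]`, where
`S_J(s) = c * N(J)^(-s) * Z_{[J]⁻¹}(s)` is the unfolded sum over `J`. -/
theorem coset_compare (F : ℝ → 𝓞 K → ℝ) (c : ℝ)
    (hunfold : ∀ s : ℝ, 1 < s → s ≤ 2 → ∀ J : (Ideal (𝓞 K))⁰,
      HasSum (fun a : {a : 𝓞 K // a ∈ (J : Ideal (𝓞 K)) ∧ a ≠ 0} ↦ F s a)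
        (c * (absNorm (J : Ideal (𝓞 K)) : ℝ) ^ (-s) * partialZeta K s (ClassGroup.mk0 J)⁻¹))
    (hbdd : ∃ M : ℝ, ∀ s : ℝ, 1 < s → s ≤ 2 → ∀ a : 𝓞 K, a ≠ 0 → |F s a| ≤ M)
    (hshift : ∀ r : 𝓞 K, ∃ A R0 : ℝ, ∀ s : ℝ, 1 < s → s ≤ 2 → ∀ a : 𝓞 K,
      R0 ≤ ‖mixedEmbedding K (a : K)‖ →
      |F s (a + r) - F s a| ≤ A * ‖mixedEmbedding K (a : K)‖ ^ (-((finrank ℚ K : ℝ) + 1)))
    (J : (Ideal (𝓞 K))⁰) :
    ∃ D : ℝ, ∀ s : ℝ, 1 < s → s ≤ 2 →
      |c * partialZeta K s 1 - (absNorm (J : Ideal (𝓞 K)) : ℝ) *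
        (c * (absNorm (J : Ideal (𝓞 K)) : ℝ) ^ (-s) * partialZeta K s (ClassGroup.mk0 J)⁻¹)| ≤ D := by
  classical
  have hJ0 : (J : Ideal (𝓞 K)) ≠ ⊥ := by
    have := mem_nonZeroDivisors_iff_ne_zero.mp J.2
    simpa using this
  have : Finite (𝓞 K ⧸ (J : Ideal (𝓞 K))) := Ideal.finiteQuotientOfFreeOfNeBot _ hJ0
  let _ : Fintype (𝓞 K ⧸ (J : Ideal (𝓞 K))) := Fintype.ofFinite _
  have hcard : (absNorm (J : Ideal (𝓞 K)) : ℝ) =
      (Fintype.card (𝓞 K ⧸ (J : Ideal (𝓞 K))) : ℝ) := by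
    rw [Ideal.absNorm_apply, Submodule.cardQuot_apply, Nat.card_eq_fintype_card]
  let rep : 𝓞 K ⧸ (J : Ideal (𝓞 K)) → 𝓞 K := fun q ↦ Quotient.out q
  have hrep : ∀ q, Ideal.Quotient.mk (J : Ideal (𝓞 K)) (rep q) = q := fun q ↦ Quotient.out_eq q
  choose Bq hBq using fun q ↦ shift_sum_int F hbdd (rep q) (hshift (rep q))
  refine ⟨∑ q, Bq q, fun s hs hs2 ↦ ?_⟩
  -- the two unfolded sums
  have hO : HasSum (cut (F s)) (c * partialZeta K s 1) := by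
    have h := hunfold s hs hs2 1
    have e1 : ((1 : (Ideal (𝓞 K))⁰) : Ideal (𝓞 K)) = ⊤ := by simp
    rw [e1] at h
    have e2 : (ClassGroup.mk0 (1 : (Ideal (𝓞 K))⁰))⁻¹ = (1 : ClassGroup (𝓞 K)) := by simp
    rw [e2] at h
    have e3 : (absNorm (⊤ : Ideal (𝓞 K)) : ℝ) ^ (-s) = 1 := by simp
    rw [e3, mul_one] at h
    exact hasSum_cut_top (F s) _ h
  set TJ : ℝ := c * (absNorm (J : Ideal (𝓞 K)) : ℝ) ^ (-s) * partialZeta K s (ClassGroup.mk0 J)⁻¹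
    with hTJ
  have hJ : HasSum (fun a : (J : Ideal (𝓞 K)) ↦ cut (F s) a) TJ :=
    hasSum_cut_ideal (F s) _ _ (hunfold s hs hs2 J)
  -- coset decomposition
  obtain ⟨hsec, hdec⟩ := tsum_coset (J : Ideal (𝓞 K)) rep hrep (cut (F s)) hO.summable
  rw [← hO.tsum_eq, hdec, hcard]
  have hconst : (Fintype.card (𝓞 K ⧸ (J : Ideal (𝓞 K))) : ℝ) * TJ =
      ∑ _q : 𝓞 K ⧸ (J : Ideal (𝓞 K)), TJ := by
    rw [Finset.sum_const, Finset.card_univ, nsmul_eq_mul]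
  rw [hconst, ← Finset.sum_sub_distrib]
  refine (Finset.abs_sum_le_sum_abs _ _).trans (Finset.sum_le_sum fun q _ ↦ ?_)
  obtain ⟨hsum, hle⟩ := hBq q s hs hs2
  have hd : ∑' a : (J : Ideal (𝓞 K)), cut (F s) ((a : 𝓞 K) + rep q) - TJ =
      ∑' a : (J : Ideal (𝓞 K)), (cut (F s) ((a : 𝓞 K) + rep q) - cut (F s) a) := by
    rw [(hsec q).tsum_sub hJ.summable, hJ.tsum_eq]
  rw [hd]
  have hsumJ : Summable fun a : (J : Ideal (𝓞 K)) ↦
      |cut (F s) ((a : 𝓞 K) + rep q) - cut (F s) a| :=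
    hsum.subtype (J : Set (𝓞 K))
  calc |∑' a : (J : Ideal (𝓞 K)), (cut (F s) ((a : 𝓞 K) + rep q) - cut (F s) a)|
      ≤ ∑' a : (J : Ideal (𝓞 K)), |cut (F s) ((a : 𝓞 K) + rep q) - cut (F s) a| := by
        have := norm_tsum_le_tsum_norm (f := fun a : (J : Ideal (𝓞 K)) ↦
          cut (F s) ((a : 𝓞 K) + rep q) - cut (F s) a) (by simpa [Real.norm_eq_abs] using hsumJ)
        simpa [Real.norm_eq_abs] using this
    _ ≤ ∑' a : 𝓞 K, |cut (F s) (a + rep q) - cut (F s) a| :=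
        hsum.tsum_subtype_le _ (J : Set (𝓞 K)) (fun a ↦ abs_nonneg _)
    _ ≤ Bq q := hle

/-- Comparison of the class `[J]⁻¹` with the trivial class. -/
theorem partialZeta_sub_one_bounded (F : ℝ → 𝓞 K → ℝ) (c : ℝ) (hc : 0 < c)
    (hunfold : ∀ s : ℝ, 1 < s → s ≤ 2 → ∀ J : (Ideal (𝓞 K))⁰,
      HasSum (fun a : {a : 𝓞 K // a ∈ (J : Ideal (𝓞 K)) ∧ a ≠ 0} ↦ F s a)
        (c * (absNorm (J : Ideal (𝓞 K)) : ℝ) ^ (-s) * partialZeta K s (ClassGroup.mk0 J)⁻¹))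
    (hbdd : ∃ M : ℝ, ∀ s : ℝ, 1 < s → s ≤ 2 → ∀ a : 𝓞 K, a ≠ 0 → |F s a| ≤ M)
    (hshift : ∀ r : 𝓞 K, ∃ A R0 : ℝ, ∀ s : ℝ, 1 < s → s ≤ 2 → ∀ a : 𝓞 K,
      R0 ≤ ‖mixedEmbedding K (a : K)‖ →
      |F s (a + r) - F s a| ≤ A * ‖mixedEmbedding K (a : K)‖ ^ (-((finrank ℚ K : ℝ) + 1)))
    (C : ClassGroup (𝓞 K)) :
    ∃ D : ℝ, ∀ s : ℝ, 1 < s → s ≤ 2 → |partialZeta K s 1 - partialZeta K s C| ≤ D := by
  obtain ⟨J, hJ⟩ := ClassGroup.mk0_surjective C⁻¹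
  have hJC : (ClassGroup.mk0 J)⁻¹ = C := by rw [hJ, inv_inv]
  obtain ⟨D, hD⟩ := coset_compare F c hunfold hbdd hshift J
  obtain ⟨Bup, hBup⟩ := Fermat.Agent.Lib.helper1121.exists_class_upper K
  set N : ℝ := (absNorm (J : Ideal (𝓞 K)) : ℝ) with hN
  have hN1 : 1 ≤ N := Fermat.Agent.Lib.helper1121.one_le_absNorm K J
  have hlogN : 0 ≤ Real.log N := Real.log_nonneg hN1
  refine ⟨D / c + Real.log N * Bup, fun s hs hs2 ↦ ?_⟩
  have h1 := hD s hs hs2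
  rw [hJC] at h1
  have hZ0 : 0 ≤ partialZeta K s C := Fermat.Agent.Lib.helper1121.tsum_class_rpow_nonneg K C s
  have hup : (s - 1) * partialZeta K s C ≤ Bup := hBup s hs hs2 C
  have hNpos : 0 < N := lt_of_lt_of_le one_pos hN1
  -- `N * N ^ (-s) = N ^ (1 - s)`
  have hpow : N * N ^ (-s) = N ^ (1 - s) := by
    rw [sub_eq_add_neg, Real.rpow_add hNpos, Real.rpow_one]
  have h2 : |partialZeta K s 1 - N ^ (1 - s) * partialZeta K s C| ≤ D / c := by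
    have e : c * partialZeta K s 1 - N * (c * N ^ (-s) * partialZeta K s C) =
        c * (partialZeta K s 1 - N ^ (1 - s) * partialZeta K s C) := by
      rw [← hpow]; ring
    rw [e, abs_mul, abs_of_pos hc] at h1
    rw [le_div_iff₀ hc]
    linarith
  -- `1 - N ^ (1 - s) ≤ (s - 1) * log N`
  have h3 : 1 - N ^ (1 - s) ≤ (s - 1) * Real.log N := by
    rw [Real.rpow_def_of_pos hNpos]
    have := Real.add_one_le_exp (Real.log N * (1 - s))
    linarith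
  have h4 : N ^ (1 - s) ≤ 1 := Real.rpow_le_one_of_one_le_of_nonpos hN1 (by linarith)
  have h5 : |N ^ (1 - s) * partialZeta K s C - partialZeta K s C| ≤ Real.log N * Bup := by
    have e : N ^ (1 - s) * partialZeta K s C - partialZeta K s C =
        -((1 - N ^ (1 - s)) * partialZeta K s C) := by ring
    rw [e, abs_neg, abs_of_nonneg (mul_nonneg (by linarith) hZ0)]
    calc (1 - N ^ (1 - s)) * partialZeta K s C
        ≤ ((s - 1) * Real.log N) * partialZeta K s C := by gcongr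
      _ = Real.log N * ((s - 1) * partialZeta K s C) := by ring
      _ ≤ Real.log N * Bup := by gcongr
  calc |partialZeta K s 1 - partialZeta K s C|
      = |(partialZeta K s 1 - N ^ (1 - s) * partialZeta K s C) +
          (N ^ (1 - s) * partialZeta K s C - partialZeta K s C)| := by congr 1; ring
    _ ≤ |partialZeta K s 1 - N ^ (1 - s) * partialZeta K s C| +
          |N ^ (1 - s) * partialZeta K s C - partialZeta K s C| := abs_add_le _ _
    _ ≤ D / c + Real.log N * Bup := add_le_add h2 h5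

/-- **(W-ASM) Partial-zeta difference bound from a kernel.**  Design-independent tail of (W0):
any family `F s : 𝓞 K → ℝ` with the unfolding identity, boundedness and the pointwise
shift-decay estimate (constants uniform in `s ∈ (1,2]`) yields the boundedness of the
differences of partial zeta functions of ideal classes on `(1,2]`. -/
theorem partialZeta_diff_bounded_of_kernel (K : Type*) [Field K] [NumberField K]
    (F : ℝ → 𝓞 K → ℝ) (c : ℝ) (hc : 0 < c)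
    (hunfold : ∀ s : ℝ, 1 < s → s ≤ 2 → ∀ J : (Ideal (𝓞 K))⁰,
      HasSum (fun a : {a : 𝓞 K // a ∈ (J : Ideal (𝓞 K)) ∧ a ≠ 0} ↦ F s a)
        (c * (absNorm (J : Ideal (𝓞 K)) : ℝ) ^ (-s) *
          ∑' I : {I : (Ideal (𝓞 K))⁰ // ClassGroup.mk0 I = (ClassGroup.mk0 J)⁻¹},
            (absNorm (I.1 : Ideal (𝓞 K)) : ℝ) ^ (-s)))
    (hbdd : ∃ M : ℝ, ∀ s : ℝ, 1 < s → s ≤ 2 → ∀ a : 𝓞 K, a ≠ 0 → |F s a| ≤ M)
    (hshift : ∀ r : 𝓞 K, ∃ A R0 : ℝ, ∀ s : ℝ, 1 < s → s ≤ 2 → ∀ a : 𝓞 K,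
      R0 ≤ ‖mixedEmbedding K (a : K)‖ →
      |F s (a + r) - F s a| ≤ A * ‖mixedEmbedding K (a : K)‖ ^ (-((finrank ℚ K : ℝ) + 1))) :
    ∃ B : ℝ, ∀ s : ℝ, 1 < s → s ≤ 2 → ∀ C C' : ClassGroup (𝓞 K),
      |(∑' I : {I : (Ideal (𝓞 K))⁰ // ClassGroup.mk0 I = C},
          (absNorm (I.1 : Ideal (𝓞 K)) : ℝ) ^ (-s)) -
        ∑' I : {I : (Ideal (𝓞 K))⁰ // ClassGroup.mk0 I = C'},
          (absNorm (I.1 : Ideal (𝓞 K)) : ℝ) ^ (-s)| ≤ B := by
  classical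
  choose D hD using fun C ↦ partialZeta_sub_one_bounded F c hc hunfold hbdd hshift C
  refine ⟨(∑ C, |D C|) + ∑ C, |D C|, fun s hs hs2 C C' ↦ ?_⟩
  have hC : |partialZeta K s 1 - partialZeta K s C| ≤ ∑ C, |D C| :=
    ((hD C s hs hs2).trans (le_abs_self _)).trans
      (Finset.single_le_sum (f := fun C ↦ |D C|) (fun _ _ ↦ abs_nonneg _) (Finset.mem_univ C))
  have hC' : |partialZeta K s 1 - partialZeta K s C'| ≤ ∑ C, |D C| :=
    ((hD C' s hs hs2).trans (le_abs_self _)).trans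
      (Finset.single_le_sum (f := fun C ↦ |D C|) (fun _ _ ↦ abs_nonneg _) (Finset.mem_univ C'))
  calc |partialZeta K s C - partialZeta K s C'|
      = |(partialZeta K s 1 - partialZeta K s C') - (partialZeta K s 1 - partialZeta K s C)| := by
        congr 1; ring
    _ ≤ |partialZeta K s 1 - partialZeta K s C'| + |partialZeta K s 1 - partialZeta K s C| :=
        abs_sub _ _
    _ ≤ (∑ C, |D C|) + ∑ C, |D C| := by linarith


/-! ### Adapters for the hypotheses -/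

/-- `hbdd` for kernels of the form `F s a = φ a * |N a| ^ (-s)` with `φ` bounded. -/
theorem hbdd_of_bounded {K : Type*} [Field K] [NumberField K] (φ : 𝓞 K → ℝ) (M : ℝ)
    (hφ : ∀ a : 𝓞 K, a ≠ 0 → |φ a| ≤ M) :
    ∃ M' : ℝ, ∀ s : ℝ, 1 < s → s ≤ 2 → ∀ a : 𝓞 K, a ≠ 0 →
      |φ a * (|Algebra.norm ℤ (a : 𝓞 K)| : ℝ) ^ (-s)| ≤ M' := by
  refine ⟨max M 0, fun s hs _ a ha ↦ ?_⟩
  have hN : (1 : ℝ) ≤ (|Algebra.norm ℤ (a : 𝓞 K)| : ℝ) := by
    have h0 : Algebra.norm ℤ (a : 𝓞 K) ≠ 0 := Algebra.norm_ne_zero_iff.mpr ha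
    have h1 : (1 : ℤ) ≤ |Algebra.norm ℤ (a : 𝓞 K)| := Int.one_le_abs h0
    exact_mod_cast h1
  have hpow : (|Algebra.norm ℤ (a : 𝓞 K)| : ℝ) ^ (-s) ≤ 1 :=
    Real.rpow_le_one_of_one_le_of_nonpos hN (by linarith)
  have hpow0 : 0 ≤ (|Algebra.norm ℤ (a : 𝓞 K)| : ℝ) ^ (-s) :=
    Real.rpow_nonneg (by linarith) _
  rw [abs_mul, abs_of_nonneg hpow0]
  calc |φ a| * (|Algebra.norm ℤ (a : 𝓞 K)| : ℝ) ^ (-s) ≤ max M 0 * 1 :=
        mul_le_mul ((hφ a ha).trans (le_max_left M 0)) hpow hpow0 (le_max_right M 0)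
    _ = max M 0 := mul_one _

/-- `hshift` from a two-sided pointwise estimate
`|F s (a + r) - F s a| ≤ A * ‖r‖ * (‖a‖ ^ (-(n+1)) + ‖a + r‖ ^ (-(n+1)))`. -/
theorem hshift_of_two_sided {K : Type*} [Field K] [NumberField K] (F : ℝ → 𝓞 K → ℝ)
    (h : ∃ A : ℝ, ∀ s : ℝ, 1 < s → s ≤ 2 → ∀ r a : 𝓞 K,
      |F s (a + r) - F s a| ≤ A * ‖mixedEmbedding K (r : K)‖ *
        (‖mixedEmbedding K (a : K)‖ ^ (-((finrank ℚ K : ℝ) + 1)) +
         ‖mixedEmbedding K ((a + r : 𝓞 K) : K)‖ ^ (-((finrank ℚ K : ℝ) + 1)))) :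
    ∀ r : 𝓞 K, ∃ A R0 : ℝ, ∀ s : ℝ, 1 < s → s ≤ 2 → ∀ a : 𝓞 K,
      R0 ≤ ‖mixedEmbedding K (a : K)‖ →
      |F s (a + r) - F s a| ≤ A * ‖mixedEmbedding K (a : K)‖ ^ (-((finrank ℚ K : ℝ) + 1)) := by
  obtain ⟨A, hA⟩ := h
  intro r
  set ρ : ℝ := ‖mixedEmbedding K (r : K)‖ with hρ
  have hρ0 : 0 ≤ ρ := norm_nonneg _
  set e : ℝ := -((finrank ℚ K : ℝ) + 1) with he
  have he0 : e ≤ 0 := by rw [he]; have : (0 : ℝ) ≤ (finrank ℚ K : ℝ) := Nat.cast_nonneg _; linarith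
  refine ⟨max A 0 * ρ * (1 + (1 / 2 : ℝ) ^ e), 2 * ρ + 1, fun s hs hs2 a ha ↦ ?_⟩
  set x : ℝ := ‖mixedEmbedding K (a : K)‖ with hx
  have hx0 : 0 < x := by linarith
  have hsum : ((a + r : 𝓞 K) : K) = (a : K) + (r : K) := map_add (algebraMap (𝓞 K) K) a r
  have hy : x / 2 ≤ ‖mixedEmbedding K ((a + r : 𝓞 K) : K)‖ := by
    rw [hsum, map_add]
    have h1 : x - ρ ≤ ‖mixedEmbedding K (a : K) + mixedEmbedding K (r : K)‖ := by
      have := norm_sub_norm_le (mixedEmbedding K (a : K)) (-(mixedEmbedding K (r : K)))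
      rw [norm_neg, sub_neg_eq_add] at this
      exact this
    linarith
  have hy2 : ‖mixedEmbedding K ((a + r : 𝓞 K) : K)‖ ^ e ≤ (1 / 2 : ℝ) ^ e * x ^ e := by
    calc ‖mixedEmbedding K ((a + r : 𝓞 K) : K)‖ ^ e ≤ (x / 2) ^ e :=
          Real.rpow_le_rpow_of_nonpos (by linarith) hy he0
      _ = (1 / 2 : ℝ) ^ e * x ^ e := by
          rw [div_eq_mul_inv, Real.mul_rpow hx0.le (by norm_num), mul_comm, one_div]
  have hxe : 0 ≤ x ^ e := Real.rpow_nonneg hx0.le _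
  have hye : 0 ≤ ‖mixedEmbedding K ((a + r : 𝓞 K) : K)‖ ^ e := Real.rpow_nonneg (norm_nonneg _) _
  calc |F s (a + r) - F s a|
      ≤ A * ρ * (x ^ e + ‖mixedEmbedding K ((a + r : 𝓞 K) : K)‖ ^ e) := hA s hs hs2 r a
    _ ≤ max A 0 * ρ * (x ^ e + ‖mixedEmbedding K ((a + r : 𝓞 K) : K)‖ ^ e) := by
        gcongr
        exact le_max_left _ _
    _ ≤ max A 0 * ρ * (x ^ e + (1 / 2 : ℝ) ^ e * x ^ e) := by
        have : 0 ≤ max A 0 * ρ := mul_nonneg (le_max_right _ _) hρ0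
        gcongr
    _ = max A 0 * ρ * (1 + (1 / 2 : ℝ) ^ e) * x ^ e := by ring

end

end Fermat.Agent.S14.helper141
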