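import Mathlib
import Fermat.Agent.S14.helper1934_ThaineSpec

/-!
# S14, Thaine route: glue `Stmt_NoClass + Stmt_Units + Stmt_Local + Stmt_E2 ⟹ Stmt_Core`

Hypothesis-passing glue in the exact shapes of `helper1934_ThaineSpec`.
-/

set_option autoImplicit false

namespace Fermat.Agent.S14.helper3506

open NumberField IsDedekindDomain
open scoped nonZeroDivisors
open Fermat.Agent.S14.helper1934

section General

variable {K : Type} [Field K] [NumberField K]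

/-- If `u₁ X^n = u₂ Y^n` with units `u₁, u₂` and `X ≠ 0`, then `u₁ = u₂ w^n` for a unit `w`. -/
lemma exists_unit_of_mul_pow_eq {u₁ u₂ : (𝓞 K)ˣ} {X Y : 𝓞 K} {n : ℕ} (hn : n ≠ 0) (hX : X ≠ 0)
    (h : (u₁ : 𝓞 K) * X ^ n = (u₂ : 𝓞 K) * Y ^ n) :
    ∃ w : (𝓞 K)ˣ, (u₁ : 𝓞 K) = (u₂ : 𝓞 K) * (w : 𝓞 K) ^ n := by
  have hspan : Ideal.span {X} ^ n = Ideal.span {Y} ^ n := by
    rw [Ideal.span_singleton_pow, Ideal.span_singleton_pow,
      ← Ideal.span_singleton_mul_left_unit u₁.isUnit, h,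
      Ideal.span_singleton_mul_left_unit u₂.isUnit]
  have hXY : Ideal.span {X} = Ideal.span {Y} := pow_left_injective hn hspan
  obtain ⟨w, hw⟩ := Ideal.span_singleton_eq_span_singleton.mp hXY
  refine ⟨w, ?_⟩
  have hXn : X ^ n ≠ 0 := pow_ne_zero n hX
  apply mul_right_cancel₀ hXn
  rw [h, ← hw]
  ring

end General

/-- **Glue**: the Kummer core from the class-group, unit, local and `E2` packages. -/
theorem core_of (p : ℕ) [Fact p.Prime] (h5 : 5 ≤ p) (hC : Stmt_NoClass p) (hU : Stmt_Units p)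
    (hL : Stmt_Local p) (hE : Stmt_E2 p) : Stmt_Core p := by
  intro K _ _ _ ζ hζ α hα0 hsing hαπ hprim hω
  obtain ⟨I, hI⟩ := hsing
  obtain ⟨x, hx⟩ := hprim
  have hp : p.Prime := Fact.out
  have hp0 : p ≠ 0 := hp.ne_zero
  have hI0 : I ≠ ⊥ := by
    rintro rfl
    rw [← Ideal.zero_eq_bot, zero_pow hp0, Ideal.zero_eq_bot, Ideal.span_singleton_eq_bot] at hI
    exact hα0 hI
  have hImem : I ∈ (Ideal (𝓞 K))⁰ := mem_nonZeroDivisors_iff_ne_zero.mpr hI0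
  -- the class of `I`
  have hcp : (ClassGroup.mk0 ⟨I, hImem⟩ : ClassGroup (𝓞 K)) ^ p = 1 := by
    rw [← map_pow, ClassGroup.mk0_eq_one_iff]
    show (I ^ p).IsPrincipal
    rw [← hI]
    exact ⟨⟨α, rfl⟩⟩
  have hgal : ∀ (g : 𝓞 K ≃+* 𝓞 K) (a : ℕ), g ζ = ζ ^ a →
      ClassGroup.mulEquiv g (ClassGroup.mk0 ⟨I, hImem⟩) =
        (ClassGroup.mk0 ⟨I, hImem⟩ : ClassGroup (𝓞 K)) ^ (a ^ 2) := by
    intro g a hg
    obtain ⟨c₁, d, hc₁, hd, hrel⟩ := hω g a hg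
    rw [ClassGroup.mulEquiv_mk0, ← map_pow, ClassGroup.mk0_eq_mk0_iff]
    refine ⟨c₁, d, hc₁, hd, ?_⟩
    apply pow_left_injective hp0
    show (Ideal.span {c₁} * I.map (g : 𝓞 K →+* 𝓞 K)) ^ p = (Ideal.span {d} * I ^ (a ^ 2)) ^ p
    rw [mul_pow, mul_pow, Ideal.span_singleton_pow, Ideal.span_singleton_pow, ← Ideal.map_pow,
      ← pow_mul, mul_comm (a ^ 2) p, pow_mul, ← hI, Ideal.map_span, Set.image_singleton,
      Ideal.span_singleton_pow, Ideal.span_singleton_mul_span_singleton,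
      Ideal.span_singleton_mul_span_singleton]
    congr 1
    rw [Set.singleton_eq_singleton_iff]
    have : (g : 𝓞 K →+* 𝓞 K) α = g α := rfl
    rw [this, mul_comm, hrel, mul_comm]
  have hc1 := hC K ζ hζ h5 _ hcp hgal
  rw [ClassGroup.mk0_eq_one_iff] at hc1
  obtain ⟨γ, hγ⟩ := hc1.principal
  have hγ' : I = Ideal.span {γ} := hγ
  have hassoc : Associated (γ ^ p) α := by
    rw [← Ideal.span_singleton_eq_span_singleton, hI, hγ', Ideal.span_singleton_pow]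
  obtain ⟨u, hu⟩ := hassoc
  -- `α = γ^p * u`
  have hγ0 : γ ≠ 0 := by
    rintro rfl
    rw [zero_pow hp0, zero_mul] at hu
    exact hα0 hu.symm
  -- `u` is an `ω²`-unit
  have huω : IsOmegaTwoUnit p ζ u := by
    intro g a hg
    obtain ⟨c₁, d, hc₁, hd, hrel⟩ := hω g a hg
    have hX : g γ * c₁ ≠ 0 := mul_ne_zero (by simpa using hγ0) hc₁
    have key : ((Units.map (g : 𝓞 K →* 𝓞 K) u : (𝓞 K)ˣ) : 𝓞 K) * (g γ * c₁) ^ p =
        ((u ^ (a ^ 2) : (𝓞 K)ˣ) : 𝓞 K) * (γ ^ (a ^ 2) * d) ^ p := by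
      have h1 : ((Units.map (g : 𝓞 K →* 𝓞 K) u : (𝓞 K)ˣ) : 𝓞 K) = g (u : 𝓞 K) := rfl
      rw [h1, Units.val_pow_eq_pow_val]
      rw [← hu] at hrel
      simp only [map_mul, map_pow] at hrel
      linear_combination hrel
    obtain ⟨w, hw⟩ := exists_unit_of_mul_pow_eq hp0 hX key
    refine ⟨w, ?_⟩
    rw [Units.val_pow_eq_pow_val] at hw
    exact hw
  -- the unit `E2`
  obtain ⟨e, he, heω⟩ := hE K ζ hζ h5
  have h1π : (1 : 𝓞 K) ∉ Ideal.span {1 - ζ} := by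
    intro h1
    exact hαπ ((Ideal.eq_top_iff_one _).mpr h1 ▸ Submodule.mem_top)
  have hne : ∀ (k : ℕ) (v : (𝓞 K)ˣ), (e : 𝓞 K) ≠ ζ ^ k * (v : 𝓞 K) ^ p := by
    intro k v hev
    have hmem : ζ ^ (k * (p - 1)) * E2 p ζ ^ 1 * (1 : 𝓞 K) ^ p - (v : 𝓞 K) ^ p ∈
        Ideal.span {(1 - ζ) ^ 3} := by
      have hz : ζ ^ (k * (p - 1)) * E2 p ζ ^ 1 * (1 : 𝓞 K) ^ p - (v : 𝓞 K) ^ p = 0 := by
        rw [← he, hev, pow_one, one_pow, mul_one, ← mul_assoc, ← pow_add]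
        have : k * (p - 1) + k = p * k := by
          obtain ⟨q, rfl⟩ : ∃ q, p = q + 1 := ⟨p - 1, by omega⟩
          simp only [Nat.add_sub_cancel]
          ring
        rw [this, pow_mul, hζ.pow_eq_one, one_pow, one_mul, sub_self]
      rw [hz]
      exact Submodule.zero_mem _
    have := (hL K ζ hζ h5 (k * (p - 1)) 1 1 v h1π hmem).2
    exact hp.one_lt.ne' (Nat.dvd_one.mp this)
  obtain ⟨k, j, v, huv⟩ := hU K ζ hζ h5 u e huω heω hne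
  -- apply the local statement to `α = ζ^k E2^j (v γ)^p`
  have hvγ : (v : 𝓞 K) * γ ∉ Ideal.span {1 - ζ} := by
    intro hmem
    apply hαπ
    rw [← hu, huv]
    have : ζ ^ k * (e : 𝓞 K) ^ j * (v : 𝓞 K) ^ p * γ ^ p =
        (ζ ^ k * (e : 𝓞 K) ^ j * ((v : 𝓞 K) * γ) ^ (p - 1)) * ((v : 𝓞 K) * γ) := by
      obtain ⟨q, rfl⟩ : ∃ q, p = q + 1 := ⟨p - 1, by omega⟩
      simp only [Nat.add_sub_cancel]
      ring
    rw [mul_comm (γ ^ p), this]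
    exact Ideal.mul_mem_left _ _ hmem
  have hmem2 : ζ ^ k * E2 p ζ ^ j * ((v : 𝓞 K) * γ) ^ p - x ^ p ∈ Ideal.span {(1 - ζ) ^ 3} := by
    have : ζ ^ k * E2 p ζ ^ j * ((v : 𝓞 K) * γ) ^ p = α := by
      rw [← hu, huv, he]
      ring
    rw [this]
    exact hx
  obtain ⟨⟨k', rfl⟩, ⟨j', rfl⟩⟩ := hL K ζ hζ h5 k j ((v : 𝓞 K) * γ) x hvγ hmem2
  refine ⟨ζ ^ k' * E2 p ζ ^ j' * ((v : 𝓞 K) * γ), ?_⟩
  rw [← hu, huv, he]
  ring

end Fermat.Agent.S14.helper3506
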