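import Mathlib

/-!
# S14 / Thaine route, module (U1): the character-projection trace lemma

Pure linear algebra.  For a finite group `G` acting linearly on a finite-dimensional
vector space `V` over a field `F` in which `|G|` is invertible, and a character
`χ : G →* Fˣ`, the `χ`-eigenspace `{v | ∀ g, g v = χ g • v}` has dimension (as an element of `F`)
`|G|⁻¹ * ∑ g, χ g⁻¹ * tr (g | V)`.
-/

namespace Fermat.Agent.S14.helper4347

open Module

section Abstract

variable {F : Type*} [Field F] {V : Type*} [AddCommGroup V] [Module F V]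
variable {G : Type*} [Group G]

/-- The `χ`-eigenspace of a linear representation `ρ`. -/
def eigenSub (ρ : G →* Module.End F V) (χ : G →* Fˣ) : Submodule F V where
  carrier := {v | ∀ g, ρ g v = (χ g : F) • v}
  add_mem' := by
    intro a b ha hb g
    rw [map_add, ha g, hb g, smul_add]
  zero_mem' := by
    intro g
    simp
  smul_mem' := by
    intro c v hv g
    rw [map_smul, hv g, smul_comm]

theorem mem_eigenSub {ρ : G →* Module.End F V} {χ : G →* Fˣ} {v : V} :
    v ∈ eigenSub ρ χ ↔ ∀ g, ρ g v = (χ g : F) • v := Iff.rfl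

variable [Fintype G]

/-- The (unnormalised) projector `∑ g, χ g⁻¹ • ρ g`. -/
def eigenProj (ρ : G →* Module.End F V) (χ : G →* Fˣ) : Module.End F V :=
  ∑ g : G, ((χ g)⁻¹ : Fˣ) • ρ g

theorem eigenProj_apply (ρ : G →* Module.End F V) (χ : G →* Fˣ) (v : V) :
    eigenProj ρ χ v = ∑ g : G, (((χ g)⁻¹ : Fˣ) : F) • ρ g v := by
  unfold eigenProj
  rw [LinearMap.sum_apply]
  rfl

theorem eigenProj_mem (ρ : G →* Module.End F V) (χ : G →* Fˣ) (v : V) :
    eigenProj ρ χ v ∈ eigenSub ρ χ := by
  intro h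
  rw [eigenProj_apply, map_sum, Finset.smul_sum]
  -- reindex g ↦ h⁻¹ * g on the left
  rw [← Equiv.sum_comp (Equiv.mulLeft h⁻¹)]
  refine Finset.sum_congr rfl fun g _ => ?_
  simp only [Equiv.coe_mulLeft, map_smul]
  have h1 : ρ h (ρ (h⁻¹ * g) v) = ρ g v := by
    rw [← Module.End.mul_apply, ← map_mul, mul_inv_cancel_left]
  rw [h1, smul_smul]
  congr 1
  rw [map_mul, map_inv, mul_inv_rev, inv_inv, Units.val_mul, mul_comm]

theorem eigenProj_of_mem (ρ : G →* Module.End F V) (χ : G →* Fˣ) {v : V}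
    (hv : v ∈ eigenSub ρ χ) : eigenProj ρ χ v = (Fintype.card G : F) • v := by
  rw [eigenProj_apply]
  have : ∀ g : G, (((χ g)⁻¹ : Fˣ) : F) • ρ g v = v := by
    intro g
    rw [hv g, smul_smul, Units.inv_mul, one_smul]
  rw [Finset.sum_congr rfl fun g _ => this g, Finset.sum_const, Finset.card_univ,
    Nat.cast_smul_eq_nsmul]

variable [FiniteDimensional F V]

/-- **Character-projection trace formula.** -/
theorem card_mul_finrank_eigenSub (ρ : G →* Module.End F V) (χ : G →* Fˣ)
    (hG : (Fintype.card G : F) ≠ 0) :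
    (Fintype.card G : F) * (finrank F (eigenSub ρ χ) : F) =
      ∑ g : G, (((χ g)⁻¹ : Fˣ) : F) * LinearMap.trace F V (ρ g) := by
  have hproj : LinearMap.IsProj (eigenSub ρ χ) ((Fintype.card G : F)⁻¹ • eigenProj ρ χ) := by
    refine ⟨fun v => ?_, fun v hv => ?_⟩
    · rw [LinearMap.smul_apply]
      exact Submodule.smul_mem _ _ (eigenProj_mem ρ χ v)
    · rw [LinearMap.smul_apply, eigenProj_of_mem ρ χ hv, smul_smul, inv_mul_cancel₀ hG, one_smul]
  have htr := hproj.trace
  rw [map_smul, smul_eq_mul] at htr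
  have h2 : LinearMap.trace F V (eigenProj ρ χ) =
      ∑ g : G, (((χ g)⁻¹ : Fˣ) : F) * LinearMap.trace F V (ρ g) := by
    unfold eigenProj
    rw [map_sum]
    refine Finset.sum_congr rfl fun g _ => ?_
    rw [Units.smul_def, map_smul, smul_eq_mul]
  rw [← h2, ← htr, ← mul_assoc, mul_inv_cancel₀ hG, one_mul]

end Abstract

/-- Specialisation to `F = ZMod p`: if `dim V < p` and the character sum of traces equals `|G|`
(nonzero in `ZMod p`), the `χ`-eigenspace is one-dimensional. -/
theorem finrank_eigenSub_eq_one {p : ℕ} [Fact p.Prime] {V : Type*} [AddCommGroup V]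
    [Module (ZMod p) V] [FiniteDimensional (ZMod p) V] {G : Type*} [Group G] [Fintype G]
    (ρ : G →* Module.End (ZMod p) V) (χ : G →* (ZMod p)ˣ)
    (hG : (Fintype.card G : ZMod p) ≠ 0) (hdim : finrank (ZMod p) V < p)
    (htr : ∑ g : G, (((χ g)⁻¹ : (ZMod p)ˣ) : ZMod p) * LinearMap.trace (ZMod p) V (ρ g) =
      (Fintype.card G : ZMod p)) :
    finrank (ZMod p) (eigenSub ρ χ) = 1 := by
  have h := card_mul_finrank_eigenSub ρ χ hG
  rw [htr] at h
  have h1 : ((finrank (ZMod p) (eigenSub ρ χ) : ℕ) : ZMod p) = ((1 : ℕ) : ZMod p) := by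
    have := mul_left_cancel₀ hG (h.trans (mul_one _).symm)
    simpa using this
  have hle : finrank (ZMod p) (eigenSub ρ χ) ≤ finrank (ZMod p) V := Submodule.finrank_le _
  have hp1 : 1 < p := (Fact.out : p.Prime).one_lt
  rw [ZMod.natCast_eq_natCast_iff'] at h1
  rwa [Nat.mod_eq_of_lt (lt_of_le_of_lt hle hdim), Nat.mod_eq_of_lt hp1] at h1

/-- In a one-dimensional eigenspace every vector is a multiple of a given nonzero vector;
over `ZMod p` the scalar is the cast of a natural number. -/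
theorem exists_nat_smul_of_finrank_eigenSub_eq_one {p : ℕ} [Fact p.Prime] {V : Type*}
    [AddCommGroup V] [Module (ZMod p) V] {G : Type*} [Group G]
    (ρ : G →* Module.End (ZMod p) V) (χ : G →* (ZMod p)ˣ)
    (h1 : finrank (ZMod p) (eigenSub ρ χ) = 1) {u e : V} (hu : u ∈ eigenSub ρ χ)
    (he : e ∈ eigenSub ρ χ) (hne : e ≠ 0) : ∃ j : ℕ, u = (j : ZMod p) • e := by
  have hne' : (⟨e, he⟩ : eigenSub ρ χ) ≠ 0 := by
    intro h
    exact hne (congrArg Subtype.val h)
  obtain ⟨c, hc⟩ := (finrank_eq_one_iff_of_nonzero' (⟨e, he⟩ : eigenSub ρ χ) hne').mp h1 ⟨u, hu⟩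
  refine ⟨c.val, ?_⟩
  have := congrArg Subtype.val hc
  simp only [Submodule.coe_smul] at this
  rw [ZMod.natCast_zmod_val, this]

end Fermat.Agent.S14.helper4347
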