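import Mathlib

/-!
# S14 / Thaine route, module (U2): trace of a field automorphism on the unit lattice

For a number field `K` and `σ : K ≃ₐ[ℚ] K`, the automorphism induced by `σ` on the unit lattice
(units modulo torsion, realised inside Mathlib's `logSpace K`) has trace
`#{infinite places fixed by σ} - 1`.
-/

namespace Fermat.Agent.S14.helper4347

open NumberField NumberField.Units NumberField.InfinitePlace
  NumberField.Units.dirichletUnitTheorem Module

noncomputable section

variable {K : Type*} [Field K] [NumberField K]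

/-- The action of a field automorphism on the units of the ring of integers. -/
def unitAut (σ : K ≃ₐ[ℚ] K) : (𝓞 K)ˣ ≃* (𝓞 K)ˣ :=
  Units.mapEquiv (RingOfIntegers.mapRingEquiv σ.toRingEquiv).toMulEquiv

theorem coe_unitAut (σ : K ≃ₐ[ℚ] K) (u : (𝓞 K)ˣ) :
    ((unitAut σ u : (𝓞 K)ˣ) : K) = σ (u : K) := rfl

theorem unitAut_one (u : (𝓞 K)ˣ) : unitAut (1 : K ≃ₐ[ℚ] K) u = u := by
  refine NumberField.Units.coe_injective K ?_
  show ((unitAut (1 : K ≃ₐ[ℚ] K) u : (𝓞 K)ˣ) : K) = (u : K)
  rw [coe_unitAut]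
  rfl

theorem unitAut_mul (σ τ : K ≃ₐ[ℚ] K) (u : (𝓞 K)ˣ) :
    unitAut (σ * τ) u = unitAut σ (unitAut τ u) := by
  refine NumberField.Units.coe_injective K ?_
  show ((unitAut (σ * τ) u : (𝓞 K)ˣ) : K) = ((unitAut σ (unitAut τ u) : (𝓞 K)ˣ) : K)
  rw [coe_unitAut, coe_unitAut, coe_unitAut]
  rfl

open scoped Classical in
/-- Extension of a log-space vector to all infinite places: the value at `w₀` is minus the sum
of the other coordinates. -/
def extLog : logSpace K →ₗ[ℝ] (InfinitePlace K → ℝ) where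
  toFun x w := if h : w = w₀ then - ∑ w', x w' else x ⟨w, h⟩
  map_add' x y := by
    funext w
    by_cases h : w = w₀
    · simp only [h, dif_pos, Pi.add_apply, Finset.sum_add_distrib]
      ring
    · simp only [h, dif_neg, not_false_eq_true, Pi.add_apply]
  map_smul' c x := by
    funext w
    by_cases h : w = w₀
    · simp only [h, dif_pos, Pi.smul_apply, smul_eq_mul, RingHom.id_apply, ← Finset.mul_sum]
      ring
    · simp only [h, dif_neg, not_false_eq_true, Pi.smul_apply, RingHom.id_apply]

/-- Restriction to the places different from `w₀`. -/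
def resLog : (InfinitePlace K → ℝ) →ₗ[ℝ] logSpace K :=
  LinearMap.funLeft ℝ ℝ (Subtype.val : {w : InfinitePlace K // w ≠ w₀} → InfinitePlace K)

/-- The permutation action of `σ` on functions on the infinite places. -/
def permLog (σ : K ≃ₐ[ℚ] K) : (InfinitePlace K → ℝ) →ₗ[ℝ] (InfinitePlace K → ℝ) :=
  LinearMap.funLeft ℝ ℝ (fun w : InfinitePlace K => σ⁻¹ • w)

/-- The action of `σ` on the log space. -/
def logAut (σ : K ≃ₐ[ℚ] K) : logSpace K →ₗ[ℝ] logSpace K :=
  resLog ∘ₗ permLog σ ∘ₗ extLog

theorem extLog_logEmbedding (u : (𝓞 K)ˣ) (w : InfinitePlace K) :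
    extLog (logEmbedding K (Additive.ofMul u)) w = mult w * Real.log (w (u : K)) := by
  classical
  by_cases h : w = w₀
  · subst h
    simp only [extLog, LinearMap.coe_mk, AddHom.coe_mk, dif_pos]
    have := sum_logEmbedding_component (K := K) u
    rw [this]
    ring
  · simp only [extLog, LinearMap.coe_mk, AddHom.coe_mk, h, dif_neg, not_false_eq_true,
      logEmbedding_component]

theorem mult_smul_eq (σ : K ≃ₐ[ℚ] K) (w : InfinitePlace K) : mult (σ • w) = mult w := by
  unfold mult
  rw [isReal_smul_iff]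

theorem logAut_logEmbedding (σ : K ≃ₐ[ℚ] K) (u : (𝓞 K)ˣ) :
    logAut σ (logEmbedding K (Additive.ofMul u)) =
      logEmbedding K (Additive.ofMul (unitAut σ u)) := by
  funext w
  simp only [logAut, LinearMap.comp_apply, resLog, permLog, LinearMap.funLeft_apply,
    extLog_logEmbedding, logEmbedding_component, mult_smul_eq, coe_unitAut]
  congr 2

open scoped Classical in
/-- The trace of `σ` on the log space is the number of fixed infinite places minus one. -/
theorem trace_logAut (σ : K ≃ₐ[ℚ] K) :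
    LinearMap.trace ℝ (logSpace K) (logAut σ) =
      ((Finset.univ.filter (fun w : InfinitePlace K => σ • w = w)).card : ℝ) - 1 := by
  have h1 : LinearMap.trace ℝ (logSpace K) (logAut σ) =
      LinearMap.trace ℝ (InfinitePlace K → ℝ) ((permLog σ ∘ₗ extLog) ∘ₗ resLog) := by
    unfold logAut
    exact LinearMap.trace_comp_comm' (R := ℝ) (permLog σ ∘ₗ extLog) resLog
  rw [h1, LinearMap.trace_eq_matrix_trace ℝ (Pi.basisFun ℝ (InfinitePlace K)),
    LinearMap.toMatrix_eq_toMatrix', Matrix.trace]
  simp only [Matrix.diag_apply, LinearMap.toMatrix'_apply]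
  have key : ∀ w : InfinitePlace K,
      ((permLog σ ∘ₗ extLog) ∘ₗ resLog) (Pi.single w 1) w =
        (if σ • w = w then (1 : ℝ) else 0) - (if w = σ • w₀ then (1 : ℝ) else 0) := by
    intro w
    have e1 : (σ⁻¹ • w = w₀) ↔ (w = σ • w₀) := by
      rw [inv_smul_eq_iff]
    have e2 : (σ⁻¹ • w = w) ↔ (σ • w = w) := by
      rw [inv_smul_eq_iff, eq_comm]
    simp only [LinearMap.comp_apply, permLog, resLog, LinearMap.funLeft_apply, extLog,
      LinearMap.coe_mk, AddHom.coe_mk]
    by_cases h : σ⁻¹ • w = w₀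
    · rw [dif_pos h, if_pos (e1.mp h)]
      by_cases hw : w = w₀
      · have hfix : σ • w = w := e2.mp (h.trans hw.symm)
        rw [if_pos hfix]
        have : ∑ w' : {w : InfinitePlace K // w ≠ w₀}, (Pi.single w (1 : ℝ) : InfinitePlace K → ℝ) w'.1
            = 0 := by
          refine Finset.sum_eq_zero fun w' _ => ?_
          rw [Pi.single_apply, if_neg]
          exact fun h' => w'.2 (h'.trans hw)
        rw [this]; ring
      · have hnfix : ¬ σ • w = w := fun h' => hw ((e2.mpr h').symm.trans h)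
        rw [if_neg hnfix]
        have : ∑ w' : {w : InfinitePlace K // w ≠ w₀}, (Pi.single w (1 : ℝ) : InfinitePlace K → ℝ) w'.1
            = 1 := by
          rw [Finset.sum_eq_single (⟨w, hw⟩ : {w : InfinitePlace K // w ≠ w₀})]
          · simp
          · intro b _ hb
            rw [Pi.single_apply, if_neg]
            exact fun h' => hb (Subtype.ext h')
          · intro h'; exact absurd (Finset.mem_univ _) h'
        rw [this]; ring
    · rw [dif_neg h, if_neg (fun h' => h (e1.mpr h')), Pi.single_apply, sub_zero]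
      by_cases hf : σ • w = w
      · rw [if_pos hf, if_pos (e2.mpr hf)]
      · rw [if_neg hf, if_neg (fun h' => hf (e2.mp h'))]
  rw [Finset.sum_congr rfl fun w _ => key w, Finset.sum_sub_distrib, Finset.sum_ite_eq',
    if_pos (Finset.mem_univ _), Finset.sum_boole]

/-- The `ℤ`-linear endomorphism of the unit lattice induced by `σ`. -/
def latAut (σ : K ≃ₐ[ℚ] K) : unitLattice K →ₗ[ℤ] unitLattice K :=
  ((logAut σ).restrictScalars ℤ).restrict (p := unitLattice K) (q := unitLattice K) (by
    rintro x ⟨u, -, rfl⟩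
    exact ⟨Additive.ofMul (unitAut σ u.toMul), trivial, (logAut_logEmbedding σ _).symm⟩)

theorem coe_latAut (σ : K ≃ₐ[ℚ] K) (x : unitLattice K) :
    ((latAut σ x : unitLattice K) : logSpace K) = logAut σ (x : logSpace K) := rfl

/-- The class of a unit in the unit lattice. -/
def unitVec (u : (𝓞 K)ˣ) : unitLattice K :=
  ⟨logEmbedding K (Additive.ofMul u), ⟨Additive.ofMul u, trivial, rfl⟩⟩

theorem coe_unitVec (u : (𝓞 K)ˣ) :
    ((unitVec u : unitLattice K) : logSpace K) = logEmbedding K (Additive.ofMul u) := rfl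

theorem exists_eq_unitVec (x : unitLattice K) : ∃ u : (𝓞 K)ˣ, x = unitVec u := by
  obtain ⟨x, ⟨u, -, rfl⟩⟩ := x
  exact ⟨u.toMul, rfl⟩

theorem latAut_unitVec (σ : K ≃ₐ[ℚ] K) (u : (𝓞 K)ˣ) :
    latAut σ (unitVec u) = unitVec (unitAut σ u) := by
  apply Subtype.ext
  rw [coe_latAut, coe_unitVec, coe_unitVec, logAut_logEmbedding]

theorem unitVec_mul (u v : (𝓞 K)ˣ) : unitVec (u * v) = unitVec u + unitVec v := by
  apply Subtype.ext
  rw [Submodule.coe_add, coe_unitVec, coe_unitVec, coe_unitVec, ofMul_mul, map_add]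

theorem unitVec_pow (u : (𝓞 K)ˣ) (n : ℕ) : unitVec (u ^ n) = n • unitVec u := by
  apply Subtype.ext
  rw [Submodule.coe_smul_of_tower, coe_unitVec, coe_unitVec, ofMul_pow, map_nsmul]

theorem unitVec_eq_zero_iff (u : (𝓞 K)ˣ) : unitVec u = 0 ↔ u ∈ torsion K := by
  rw [← logEmbedding_eq_zero_iff, ← coe_unitVec, Submodule.coe_eq_zero]

theorem unitVec_inv (u : (𝓞 K)ˣ) : unitVec u⁻¹ = - unitVec u := by
  have h := unitVec_mul u u⁻¹
  rw [mul_inv_cancel] at h
  have h0 : unitVec (1 : (𝓞 K)ˣ) = 0 := (unitVec_eq_zero_iff 1).mpr (one_mem _)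
  rw [h0] at h
  exact eq_neg_of_add_eq_zero_right h.symm

theorem latAut_one : latAut (1 : K ≃ₐ[ℚ] K) = LinearMap.id := by
  ext x
  obtain ⟨u, rfl⟩ := exists_eq_unitVec x
  rw [latAut_unitVec, unitAut_one, LinearMap.id_apply]

theorem latAut_mul (σ τ : K ≃ₐ[ℚ] K) : latAut (σ * τ) = latAut σ ∘ₗ latAut τ := by
  ext x
  obtain ⟨u, rfl⟩ := exists_eq_unitVec x
  rw [LinearMap.comp_apply, latAut_unitVec, latAut_unitVec, latAut_unitVec, unitAut_mul]

/-- The integer trace of `σ` on the unit lattice is the real trace of `logAut σ`. -/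
theorem trace_latAut (σ : K ≃ₐ[ℚ] K) :
    ((LinearMap.trace ℤ (unitLattice K) (latAut σ) : ℤ) : ℝ) =
      LinearMap.trace ℝ (logSpace K) (logAut σ) := by
  classical
  let b := basisUnitLattice K
  let B := b.ofZLatticeBasis ℝ (unitLattice K)
  rw [LinearMap.trace_eq_matrix_trace ℤ b, LinearMap.trace_eq_matrix_trace ℝ B, Matrix.trace,
    Matrix.trace, Int.cast_sum]
  refine Finset.sum_congr rfl fun i _ => ?_
  rw [Matrix.diag_apply, Matrix.diag_apply, LinearMap.toMatrix_apply, LinearMap.toMatrix_apply]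
  have h1 : logAut σ (B i) = ((latAut σ (b i) : unitLattice K) : logSpace K) := by
    rw [coe_latAut, Basis.ofZLatticeBasis_apply]
  rw [h1, Basis.ofZLatticeBasis_repr_apply]

open scoped Classical in
/-- **Trace of a field automorphism on the unit lattice**: number of fixed infinite places minus
one. -/
theorem trace_latAut_eq (σ : K ≃ₐ[ℚ] K) :
    LinearMap.trace ℤ (unitLattice K) (latAut σ) =
      ((Finset.univ.filter (fun w : InfinitePlace K => σ • w = w)).card : ℤ) - 1 := by
  have h := (trace_latAut σ).trans (trace_logAut σ)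
  exact_mod_cast h

end

end Fermat.Agent.S14.helper4347
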