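import Mathlib
import Fermat.Agent.S14.helper4347_EigenTrace
import Fermat.Agent.S14.helper4347_UnitTrace

/-!
# S14 / Thaine route, module (U): the `ω²`-eigenspace of units modulo `p`-th powers

For `K = ℚ(ζ_p)`, `p ≥ 5`, the `ω²`-eigenspace of `E / μ E^p` (`E` the unit group of `𝓞 K`,
`μ` its torsion) is one-dimensional over `𝔽_p`.  Consumer form: `unit_eigen_dim_le_one`.
-/

namespace Fermat.Agent.S14.helper4347

open NumberField NumberField.Units NumberField.InfinitePlace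
  NumberField.Units.dirichletUnitTheorem Module
open scoped TensorProduct

noncomputable section

section General

variable {K : Type*} [Field K] [NumberField K]

theorem free_unitLattice : Module.Free ℤ (unitLattice K) :=
  Module.Free.of_basis (basisUnitLattice K)

theorem finite_unitLattice : Module.Finite ℤ (unitLattice K) :=
  Module.Finite.of_basis (basisUnitLattice K)

/-- The representation of the automorphism group on the unit lattice modulo `p`. -/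
def redRep (p : ℕ) : (K ≃ₐ[ℚ] K) →* Module.End (ZMod p) (ZMod p ⊗[ℤ] unitLattice K) where
  toFun σ := (latAut σ).baseChange (ZMod p)
  map_one' := by
    rw [latAut_one, LinearMap.baseChange_id]
    rfl
  map_mul' σ τ := by
    rw [latAut_mul, LinearMap.baseChange_comp]
    rfl

theorem redRep_apply (p : ℕ) (σ : K ≃ₐ[ℚ] K) :
    redRep p σ = (latAut σ).baseChange (ZMod p) := rfl

open scoped Classical in
theorem trace_redRep (p : ℕ) (σ : K ≃ₐ[ℚ] K) :
    LinearMap.trace (ZMod p) (ZMod p ⊗[ℤ] unitLattice K) (redRep p σ) =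
      ((Finset.univ.filter (fun w : InfinitePlace K => σ • w = w)).card : ZMod p) - 1 := by
  have := free_unitLattice (K := K)
  have := finite_unitLattice (K := K)
  rw [redRep_apply, LinearMap.trace_baseChange, trace_latAut_eq]
  simp

theorem finrank_latMod (p : ℕ) [Fact p.Prime] :
    finrank (ZMod p) (ZMod p ⊗[ℤ] unitLattice K) = Units.rank K := by
  have := free_unitLattice (K := K)
  rw [Module.finrank_baseChange, unitLattice_rank]

theorem finite_latMod (p : ℕ) : Module.Finite (ZMod p) (ZMod p ⊗[ℤ] unitLattice K) := by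
  have := finite_unitLattice (K := K)
  infer_instance

/-- The class of a unit in the unit lattice modulo `p`. -/
def redVec (p : ℕ) (u : (𝓞 K)ˣ) : ZMod p ⊗[ℤ] unitLattice K := (1 : ZMod p) ⊗ₜ[ℤ] unitVec u

theorem redRep_redVec (p : ℕ) (σ : K ≃ₐ[ℚ] K) (u : (𝓞 K)ˣ) :
    redRep p σ (redVec p u) = redVec p (unitAut σ u) := by
  rw [redRep_apply, redVec, LinearMap.baseChange_tmul, latAut_unitVec]
  rfl

theorem redVec_mul (p : ℕ) (u v : (𝓞 K)ˣ) : redVec p (u * v) = redVec p u + redVec p v := by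
  rw [redVec, unitVec_mul, TensorProduct.tmul_add]
  rfl

theorem redVec_pow (p : ℕ) (u : (𝓞 K)ˣ) (n : ℕ) :
    redVec p (u ^ n) = (n : ZMod p) • redVec p u := by
  rw [redVec, unitVec_pow, redVec, TensorProduct.smul_tmul', ← TensorProduct.smul_tmul]
  congr 1
  simp

theorem redVec_pow_self (p : ℕ) (u : (𝓞 K)ˣ) : redVec p (u ^ p) = 0 := by
  rw [redVec_pow, ZMod.natCast_self, zero_smul]

theorem redVec_of_torsion (p : ℕ) {t : (𝓞 K)ˣ} (ht : t ∈ torsion K) : redVec p t = 0 := by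
  rw [redVec, (unitVec_eq_zero_iff t).mpr ht, TensorProduct.tmul_zero]

theorem redVec_inv (p : ℕ) (u : (𝓞 K)ˣ) : redVec p u⁻¹ = - redVec p u := by
  rw [redVec, unitVec_inv, TensorProduct.tmul_neg]
  rfl

/-- A unit whose class modulo `p` vanishes is a root of unity times a `p`-th power. -/
theorem exists_of_redVec_eq_zero (p : ℕ) [Fact p.Prime] {u : (𝓞 K)ˣ} (h : redVec p u = 0) :
    ∃ t w : (𝓞 K)ˣ, t ∈ torsion K ∧ u = t * w ^ p := by
  classical
  let b := basisUnitLattice K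
  have hrepr : ∀ i, ((b.repr (unitVec u) i : ℤ) : ZMod p) = 0 := by
    intro i
    have h1 := congrArg (fun x => (Algebra.TensorProduct.basis (ZMod p) b).repr x i) h
    simp only [redVec, Algebra.TensorProduct.basis_repr_tmul, map_zero, Finsupp.zero_apply,
      one_smul, Finsupp.mapRange_apply] at h1
    simpa using h1
  have hdvd : ∀ i, (p : ℤ) ∣ b.repr (unitVec u) i := fun i =>
    (ZMod.intCast_zmod_eq_zero_iff_dvd _ p).mp (hrepr i)
  choose c hc using hdvd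
  obtain ⟨w, hw⟩ := exists_eq_unitVec (∑ i, c i • b i)
  have hu : unitVec u = unitVec (w ^ p) := by
    rw [unitVec_pow, ← hw, ← b.sum_repr (unitVec u), Finset.smul_sum]
    refine Finset.sum_congr rfl fun i _ => ?_
    rw [hc i, mul_smul]
    simp
  have htors : u * (w ^ p)⁻¹ ∈ torsion K := by
    rw [← unitVec_eq_zero_iff, unitVec_mul, unitVec_inv, hu, add_neg_cancel]
  exact ⟨u * (w ^ p)⁻¹, w, htors, by group⟩

omit [NumberField K] in
/-- A `p`-th root (in `K`) of a unit is a unit. -/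
theorem exists_unit_of_pow_eq {n : ℕ} (hn : 0 < n) (v : (𝓞 K)ˣ) (w : K) (h : w ^ n = (v : K)) :
    ∃ w' : (𝓞 K)ˣ, (w' : K) = w := by
  have hw : IsIntegral ℤ w := by
    refine IsIntegral.of_pow hn ?_
    rw [h]
    exact RingOfIntegers.isIntegral_coe _
  have hw' : IsIntegral ℤ w⁻¹ := by
    refine IsIntegral.of_pow hn ?_
    rw [inv_pow, h]
    have : ((v : K))⁻¹ = ((v⁻¹ : (𝓞 K)ˣ) : K) := by
      rw [eq_comm, ← mul_eq_one_iff_eq_inv₀ (coe_ne_zero v), ← coe_mul, inv_mul_cancel, coe_one]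
    rw [this]
    exact RingOfIntegers.isIntegral_coe _
  have hw0 : w ≠ 0 := by
    intro h0
    rw [h0, zero_pow hn.ne'] at h
    exact coe_ne_zero v h.symm
  refine ⟨⟨⟨w, hw⟩, ⟨w⁻¹, hw'⟩, ?_, ?_⟩, rfl⟩
  · apply RingOfIntegers.coe_injective
    show w * w⁻¹ = 1
    exact mul_inv_cancel₀ hw0
  · apply RingOfIntegers.coe_injective
    show w⁻¹ * w = 1
    exact inv_mul_cancel₀ hw0

end General

section Cyclotomic

variable {p : ℕ} [Fact p.Prime] {K : Type*} [Field K] [NumberField K]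
  [IsCyclotomicExtension {p} ℚ K]

/-- The square of the cyclotomic character. -/
def chiSq {ζ : K} (hζ : IsPrimitiveRoot ζ p) : (K ≃ₐ[ℚ] K) →* (ZMod p)ˣ :=
  (powMonoidHom 2).comp (hζ.autToPow ℚ)

omit [IsCyclotomicExtension {p} ℚ K] in
theorem chiSq_apply {ζ : K} (hζ : IsPrimitiveRoot ζ p) (σ : K ≃ₐ[ℚ] K) :
    chiSq hζ σ = (hζ.autToPow ℚ σ) ^ 2 := rfl

omit [NumberField K] in
theorem card_gal_cyclo (p : ℕ) [Fact p.Prime] (K : Type*) [Field K] [NumberField K]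
    [IsCyclotomicExtension {p} ℚ K] : Fintype.card (K ≃ₐ[ℚ] K) = p - 1 := by
  have hp : p.Prime := Fact.out
  have : IsGalois ℚ K := IsCyclotomicExtension.isGalois {p} ℚ K
  rw [← Nat.card_eq_fintype_card, IsGalois.card_aut_eq_finrank ℚ K,
    IsCyclotomicExtension.finrank K (Polynomial.cyclotomic.irreducible_rat hp.pos),
    Nat.totient_prime hp]

theorem autToPow_bijective {ζ : K} (hζ : IsPrimitiveRoot ζ p) :
    Function.Bijective (hζ.autToPow ℚ) := by
  have hp : p.Prime := Fact.out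
  rw [Fintype.bijective_iff_injective_and_card]
  refine ⟨hζ.autToPow_injective ℚ, ?_⟩
  rw [card_gal_cyclo p K, ZMod.card_units_eq_totient, Nat.totient_prime hp]

theorem sum_chiSq_inv (hp5 : 5 ≤ p) {ζ : K} (hζ : IsPrimitiveRoot ζ p) :
    ∑ σ : K ≃ₐ[ℚ] K, (((chiSq hζ σ)⁻¹ : (ZMod p)ˣ) : ZMod p) = 0 := by
  classical
  have h1 : ∑ σ : K ≃ₐ[ℚ] K, (((chiSq hζ σ)⁻¹ : (ZMod p)ˣ) : ZMod p) =
      ∑ a : (ZMod p)ˣ, (((a ^ 2)⁻¹ : (ZMod p)ˣ) : ZMod p) :=
    (autToPow_bijective hζ).sum_comp (fun a : (ZMod p)ˣ => (((a ^ 2)⁻¹ : (ZMod p)ˣ) : ZMod p))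
  rw [h1]
  have h2 : ∑ a : (ZMod p)ˣ, (((a ^ 2)⁻¹ : (ZMod p)ˣ) : ZMod p) =
      ∑ a : (ZMod p)ˣ, ((a : ZMod p) ^ 2) := by
    rw [← Equiv.sum_comp (Equiv.inv (ZMod p)ˣ)]
    refine Finset.sum_congr rfl fun a _ => ?_
    simp
  rw [h2, FiniteField.sum_pow_units, ZMod.card, if_neg]
  intro hdvd
  have := Nat.le_of_dvd (by norm_num) hdvd
  omega

theorem card_infinitePlace_cyclo (hp3 : 3 ≤ p) :
    2 * Fintype.card (InfinitePlace K) = p - 1 := by
  have hp : p.Prime := Fact.out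
  have h0 := IsCyclotomicExtension.Rat.nrRealPlaces_eq_zero (n := p) K (by omega)
  have h1 := card_add_two_mul_card_eq_rank K
  rw [h0, zero_add, IsCyclotomicExtension.finrank K (Polynomial.cyclotomic.irreducible_rat hp.pos),
    Nat.totient_prime hp] at h1
  rw [card_eq_nrRealPlaces_add_nrComplexPlaces, h0, zero_add, h1]

theorem card_stabilizer_cyclo (hp3 : 3 ≤ p) (w : InfinitePlace K) :
    Nat.card (MulAction.stabilizer (K ≃ₐ[ℚ] K) w) = 2 := by
  have : IsGalois ℚ K := IsCyclotomicExtension.isGalois {p} ℚ K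
  have : IsTotallyComplex K := IsCyclotomicExtension.Rat.isTotallyComplex (n := p) K (by omega)
  rw [card_stabilizer, if_neg]
  rw [isUnramified_iff, not_or]
  refine ⟨not_isReal_iff_isComplex.mpr (IsTotallyComplex.isComplex w), ?_⟩
  exact not_isComplex_iff_isReal.mpr (IsTotallyReal.isReal _)

theorem chiSq_eq_one_of_smul_eq (hp3 : 3 ≤ p) {ζ : K} (hζ : IsPrimitiveRoot ζ p)
    {σ : K ≃ₐ[ℚ] K} {w : InfinitePlace K} (h : σ • w = w) : chiSq hζ σ = 1 := by
  have h2 : σ ^ 2 = 1 := by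
    have := pow_card_eq_one' (G := MulAction.stabilizer (K ≃ₐ[ℚ] K) w) (x := ⟨σ, h⟩)
    rw [card_stabilizer_cyclo hp3 w] at this
    exact congrArg Subtype.val this
  rw [chiSq_apply, ← map_pow, h2, map_one]

open scoped Classical in
theorem sum_card_fixed (hp3 : 3 ≤ p) :
    ∑ σ : K ≃ₐ[ℚ] K, (Finset.univ.filter (fun w : InfinitePlace K => σ • w = w)).card = p - 1 := by
  simp_rw [Finset.card_filter]
  rw [Finset.sum_comm]
  have : ∀ w : InfinitePlace K, (∑ σ : K ≃ₐ[ℚ] K, if σ • w = w then 1 else 0) = 2 := by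
    intro w
    rw [← Finset.card_filter, ← card_stabilizer_cyclo hp3 w, Nat.card_eq_fintype_card]
    exact (Fintype.card_of_subtype _ (fun x => by simp [MulAction.mem_stabilizer_iff])).symm
  rw [Finset.sum_congr rfl fun w _ => this w, Finset.sum_const, Finset.card_univ, smul_eq_mul,
    mul_comm, card_infinitePlace_cyclo hp3]

open scoped Classical in
/-- The character sum of traces for `χ = ω²` equals `|G| = -1` in `ZMod p`. -/
theorem sum_chiSq_trace (hp5 : 5 ≤ p) {ζ : K} (hζ : IsPrimitiveRoot ζ p) :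
    ∑ σ : K ≃ₐ[ℚ] K, (((chiSq hζ σ)⁻¹ : (ZMod p)ˣ) : ZMod p) *
        LinearMap.trace (ZMod p) (ZMod p ⊗[ℤ] unitLattice K) (redRep p σ) =
      (Fintype.card (K ≃ₐ[ℚ] K) : ZMod p) := by
  have hp3 : 3 ≤ p := by omega
  have hterm : ∀ σ : K ≃ₐ[ℚ] K, (((chiSq hζ σ)⁻¹ : (ZMod p)ˣ) : ZMod p) *
        LinearMap.trace (ZMod p) (ZMod p ⊗[ℤ] unitLattice K) (redRep p σ) =
      ((Finset.univ.filter (fun w : InfinitePlace K => σ • w = w)).card : ZMod p) -
        (((chiSq hζ σ)⁻¹ : (ZMod p)ˣ) : ZMod p) := by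
    intro σ
    rw [trace_redRep, mul_sub, mul_one]
    congr 1
    by_cases hne : (Finset.univ.filter (fun w : InfinitePlace K => σ • w = w)).Nonempty
    · obtain ⟨w, hw⟩ := hne
      rw [chiSq_eq_one_of_smul_eq hp3 hζ (Finset.mem_filter.mp hw).2, inv_one, Units.val_one,
        one_mul]
    · rw [Finset.not_nonempty_iff_eq_empty.mp hne, Finset.card_empty, Nat.cast_zero, mul_zero]
  rw [Finset.sum_congr rfl fun σ _ => hterm σ, Finset.sum_sub_distrib, sum_chiSq_inv hp5 hζ,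
    sub_zero, ← Nat.cast_sum, sum_card_fixed hp3, card_gal_cyclo p K]

theorem card_gal_ne_zero (p : ℕ) [Fact p.Prime] (K : Type*) [Field K] [NumberField K]
    [IsCyclotomicExtension {p} ℚ K] : (Fintype.card (K ≃ₐ[ℚ] K) : ZMod p) ≠ 0 := by
  have hp : p.Prime := Fact.out
  rw [card_gal_cyclo p K, Ne, ZMod.natCast_eq_zero_iff]
  intro h
  have := Nat.le_of_dvd (by have := hp.two_le; omega) h
  have := hp.two_le
  omega

/-- **The `ω²`-eigenspace of the unit lattice modulo `p` is one-dimensional** (`p ≥ 5`). -/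
theorem finrank_eigenSub_chiSq (hp5 : 5 ≤ p) {ζ : K} (hζ : IsPrimitiveRoot ζ p) :
    finrank (ZMod p) (eigenSub (redRep (K := K) p) (chiSq hζ)) = 1 := by
  have hp3 : 3 ≤ p := by omega
  have := finite_latMod (K := K) p
  refine finrank_eigenSub_eq_one (redRep (K := K) p) (chiSq hζ) (card_gal_ne_zero p K) ?_
    (sum_chiSq_trace hp5 hζ)
  rw [finrank_latMod, Units.rank]
  have := card_infinitePlace_cyclo (K := K) hp3
  omega

omit [Fact p.Prime] [IsCyclotomicExtension {p} ℚ K] [NumberField K] in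
theorem coe_inv_unit (v : (𝓞 K)ˣ) : ((v⁻¹ : (𝓞 K)ˣ) : K) = ((v : K))⁻¹ := by
  rw [← mul_eq_one_iff_eq_inv₀ (coe_ne_zero v), ← coe_mul, inv_mul_cancel, coe_one]

omit [IsCyclotomicExtension {p} ℚ K] in
/-- A unit which is an `ω²`-eigenvector modulo `p`-th powers of `K` gives an element of the
`ω²`-eigenspace of the unit lattice modulo `p`. -/
theorem redVec_mem_eigenSub {ζ : K} (hζ : IsPrimitiveRoot ζ p) (u : (𝓞 K)ˣ)
    (hu : ∀ (σ : K ≃ₐ[ℚ] K) (a : ℕ), σ ζ = ζ ^ a →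
      ∃ w : K, σ (u : K) = (u : K) ^ (a ^ 2) * w ^ p) :
    redVec p u ∈ eigenSub (redRep (K := K) p) (chiSq hζ) := by
  have hp : p.Prime := Fact.out
  intro σ
  rw [redRep_redVec]
  obtain ⟨w, hw⟩ := hu σ ((hζ.autToPow ℚ σ : (ZMod p)ˣ) : ZMod p).val (hζ.autToPow_spec ℚ σ).symm
  set a := ((hζ.autToPow ℚ σ : (ZMod p)ˣ) : ZMod p).val with ha
  have hw2 : w ^ p = ((unitAut σ u * (u ^ (a ^ 2))⁻¹ : (𝓞 K)ˣ) : K) := by
    rw [coe_mul, coe_inv_unit, coe_unitAut, hw, coe_pow]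
    field_simp [coe_ne_zero u]
  obtain ⟨w', hw'⟩ := exists_unit_of_pow_eq hp.pos _ w hw2
  have h3 : unitAut σ u = u ^ (a ^ 2) * w' ^ p := by
    refine NumberField.Units.coe_injective K ?_
    show ((unitAut σ u : (𝓞 K)ˣ) : K) = ((u ^ (a ^ 2) * w' ^ p : (𝓞 K)ˣ) : K)
    rw [coe_unitAut, hw, coe_mul, coe_pow, coe_pow, hw']
  rw [h3, redVec_mul, redVec_pow, redVec_pow_self, add_zero]
  congr 1
  rw [chiSq_apply, Units.val_pow_eq_pow_val, Nat.cast_pow, ha, ZMod.natCast_zmod_val]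

/-- **Module (U), torsion form.** For `K = ℚ(ζ_p)`, `p ≥ 5`: if the units `u`, `e` are both
`ω²`-eigenvectors modulo `p`-th powers and `e` is not a root of unity times a `p`-th power, then
`u = t * e ^ j * w ^ p` with `t` a root of unity. -/
theorem unit_eigen_dim_le_one (hp5 : 5 ≤ p) {ζ : K} (hζ : IsPrimitiveRoot ζ p) (u e : (𝓞 K)ˣ)
    (hu : ∀ (σ : K ≃ₐ[ℚ] K) (a : ℕ), σ ζ = ζ ^ a →
      ∃ w : K, σ (u : K) = (u : K) ^ (a ^ 2) * w ^ p)
    (he : ∀ (σ : K ≃ₐ[ℚ] K) (a : ℕ), σ ζ = ζ ^ a →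
      ∃ w : K, σ (e : K) = (e : K) ^ (a ^ 2) * w ^ p)
    (hne : ∀ t w : (𝓞 K)ˣ, t ∈ torsion K → e ≠ t * w ^ p) :
    ∃ (j : ℕ) (t w : (𝓞 K)ˣ), t ∈ torsion K ∧ u = t * e ^ j * w ^ p := by
  have h1 := finrank_eigenSub_chiSq (K := K) hp5 hζ
  have hu' := redVec_mem_eigenSub hζ u hu
  have he' := redVec_mem_eigenSub hζ e he
  have hne' : redVec p e ≠ 0 := by
    intro h0
    obtain ⟨t, w, ht, hw⟩ := exists_of_redVec_eq_zero p h0
    exact hne t w ht hw
  obtain ⟨j, hj⟩ := exists_nat_smul_of_finrank_eigenSub_eq_one _ _ h1 hu' he' hne'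
  have h0 : redVec p (u * (e ^ j)⁻¹) = 0 := by
    rw [redVec_mul, redVec_inv, redVec_pow, hj, add_neg_cancel]
  obtain ⟨t, w, ht, hw⟩ := exists_of_redVec_eq_zero p h0
  refine ⟨j, t, w, ht, ?_⟩
  rw [mul_right_comm, ← hw]
  group

omit [NumberField K] [IsCyclotomicExtension {p} ℚ K] in
theorem neg_one_pow_eq_pow_self (hp3 : 3 ≤ p) (r : ℕ) :
    ((-1 : K) ^ r) = ((-1 : K) ^ r) ^ p := by
  have hp : p.Prime := Fact.out
  have hodd : Odd p := hp.odd_of_ne_two (by omega)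
  rw [← pow_mul, mul_comm, pow_mul, hodd.neg_one_pow]

/-- A torsion unit of `ℚ(ζ_p)` is a power of `ζ` times a `p`-th power (of `±1`). -/
theorem torsion_eq_zeta_pow_mul (hp3 : 3 ≤ p) {ζ : K} (hζ : IsPrimitiveRoot ζ p)
    {t : (𝓞 K)ˣ} (ht : t ∈ torsion K) :
    ∃ (k : ℕ) (s : K), s ^ 2 = 1 ∧ (t : K) = ζ ^ k * s ^ p := by
  have hp : p.Prime := Fact.out
  have hodd : Odd p := hp.odd_of_ne_two (by omega)
  have hfin : IsOfFinOrder (t : K) := by
    have h1 : IsOfFinOrder t := (CommGroup.mem_torsion t).mp ht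
    obtain ⟨n, hn, hn1⟩ := h1.exists_pow_eq_one
    refine isOfFinOrder_iff_pow_eq_one.mpr ⟨n, hn, ?_⟩
    rw [← coe_pow, hn1, coe_one]
  obtain ⟨r, hr⟩ := hζ.exists_neg_pow_of_isOfFinOrder hodd hfin
  refine ⟨r, (-1) ^ r, ?_, ?_⟩
  · rw [← pow_mul, mul_comm, pow_mul]
    simp
  · rw [hr, neg_eq_neg_one_mul, mul_pow, mul_comm, ← neg_one_pow_eq_pow_self hp3]

/-- **Module (U), consumer form.** For `K = ℚ(ζ_p)`, `p ≥ 5`: if the units `u`, `e` are both
`ω²`-eigenvectors modulo `p`-th powers (`σ_a x ∈ x^(a²) K^p` whenever `σ_a ζ = ζ^a`) and `e` is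
not of the form `ζ^k w^p`, then `u = ζ^k e^j w^p` for some `k j : ℕ` and a unit `w`. -/
theorem unit_eigen_zeta (hp5 : 5 ≤ p) {ζ : K} (hζ : IsPrimitiveRoot ζ p) (u e : (𝓞 K)ˣ)
    (hu : ∀ (σ : K ≃ₐ[ℚ] K) (a : ℕ), σ ζ = ζ ^ a →
      ∃ w : K, σ (u : K) = (u : K) ^ (a ^ 2) * w ^ p)
    (he : ∀ (σ : K ≃ₐ[ℚ] K) (a : ℕ), σ ζ = ζ ^ a →
      ∃ w : K, σ (e : K) = (e : K) ^ (a ^ 2) * w ^ p)
    (hne : ∀ (k : ℕ) (w : K), (e : K) ≠ ζ ^ k * w ^ p) :
    ∃ (k j : ℕ) (w : (𝓞 K)ˣ), (u : K) = ζ ^ k * (e : K) ^ j * (w : K) ^ p := by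
  have hp : p.Prime := Fact.out
  have hp3 : 3 ≤ p := by omega
  have hne' : ∀ t w : (𝓞 K)ˣ, t ∈ torsion K → e ≠ t * w ^ p := by
    intro t w ht h
    obtain ⟨k, s, -, hs⟩ := torsion_eq_zeta_pow_mul hp3 hζ ht
    refine hne k (s * (w : K)) ?_
    rw [h, coe_mul, coe_pow, hs, mul_pow, mul_assoc]
  obtain ⟨j, t, w, ht, h⟩ := unit_eigen_dim_le_one hp5 hζ u e hu he hne'
  obtain ⟨k, s, hs2, hs⟩ := torsion_eq_zeta_pow_mul hp3 hζ ht
  -- `s` is a unit (a square root of one)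
  obtain ⟨s', hs'⟩ := exists_unit_of_pow_eq (n := 2) (by norm_num) (1 : (𝓞 K)ˣ) s
    (by rw [hs2, coe_one])
  refine ⟨k, j, s' * w, ?_⟩
  rw [h, coe_mul, coe_mul, coe_pow, coe_pow, hs, coe_mul, hs', mul_pow]
  ring

end Cyclotomic

end

end Fermat.Agent.S14.helper4347
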