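import Mathlib
import Fermat.Agent.S14.helper1934_ThaineSpec
import Fermat.Agent.S14.helper4347_UnitEigen

/-!
# S14 / Thaine route: package (U) in the exact shape of `helper1934.Stmt_Units`
-/

namespace Fermat.Agent.S14.helper4347

open NumberField NumberField.Units

/-- **Package (U)** of the Thaine route, in the exact Spec shape, without hypotheses. -/
theorem stmt_Units (p : ℕ) [Fact p.Prime] : Fermat.Agent.S14.helper1934.Stmt_Units p := by
  intro K _ _ _ ζ hζ hp5 u e hu he hne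
  have hp : p.Prime := Fact.out
  have hinj : Function.Injective (algebraMap (𝓞 K) K) := RingOfIntegers.coe_injective
  have hζ' : IsPrimitiveRoot (algebraMap (𝓞 K) K ζ) p := hζ.map_of_injective hinj
  -- transport of the eigen-hypotheses
  have key : ∀ x : (𝓞 K)ˣ, Fermat.Agent.S14.helper1934.IsOmegaTwoUnit p ζ x →
      ∀ (σ : K ≃ₐ[ℚ] K) (a : ℕ), σ (algebraMap (𝓞 K) K ζ) = (algebraMap (𝓞 K) K ζ) ^ a →
        ∃ w : K, σ (x : K) = (x : K) ^ (a ^ 2) * w ^ p := by
    intro x hx σ a hσ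
    have hg : (RingOfIntegers.mapRingEquiv σ.toRingEquiv) ζ = ζ ^ a := by
      apply hinj
      rw [map_pow]
      exact hσ
    obtain ⟨w, hw⟩ := hx (RingOfIntegers.mapRingEquiv σ.toRingEquiv) a hg
    refine ⟨(w : K), ?_⟩
    have := congrArg (algebraMap (𝓞 K) K) hw
    rw [map_mul, map_pow, map_pow] at this
    exact this
  have hne' : ∀ (k : ℕ) (w : K), (e : K) ≠ (algebraMap (𝓞 K) K ζ) ^ k * w ^ p := by
    intro k w h
    have hζu : IsUnit ζ := hζ.isUnit hp.ne_zero
    obtain ⟨ζu, hζu'⟩ := hζu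
    have hw : w ^ p = ((e * (ζu ^ k)⁻¹ : (𝓞 K)ˣ) : K) := by
      rw [coe_mul, coe_inv_unit, coe_pow, h]
      have h0 : ((ζu : (𝓞 K)ˣ) : K) = algebraMap (𝓞 K) K ζ := by rw [← hζu']
      rw [h0]
      have hne0 : (algebraMap (𝓞 K) K ζ) ^ k ≠ 0 := by
        rw [← h0]; exact pow_ne_zero _ (coe_ne_zero ζu)
      field_simp
    obtain ⟨w', hw'⟩ := exists_unit_of_pow_eq hp.pos _ w hw
    refine hne k w' (hinj ?_)
    rw [map_mul, map_pow, map_pow]
    rw [← hw'] at h
    exact h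
  obtain ⟨k, j, w, h⟩ := unit_eigen_zeta hp5 hζ' u e (key u hu) (key e he) hne'
  refine ⟨k, j, w, hinj ?_⟩
  rw [map_mul, map_mul, map_pow, map_pow, map_pow]
  exact h

end Fermat.Agent.S14.helper4347
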