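import Fermat.Agent.S14.helper4440_Local
import Fermat.Agent.S14.helper1934_ThaineSpec

/-!
# S14, Thaine route, module (L): number-field adapter

`LocalHyp p (1 - ζ)` holds in the ring of integers of the `p`-th cyclotomic field (`p ≥ 5`),
hence `Stmt_Local p` of `helper1934_ThaineSpec` (exact Spec shape), together with the companion
facts in number-field form (`E2 ≡ m (1 - c π²)`, `E2` is not `ζ^k v^p`, …).
-/

set_option autoImplicit false

namespace Fermat.Agent.S14.helper4440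

open NumberField

section NF

variable {p : ℕ} [hp : Fact p.Prime] {K : Type} [Field K] [NumberField K]
  [IsCyclotomicExtension {p} ℚ K] {ζ : 𝓞 K}

/-- `ζ - 1` is a prime element of `𝓞 K`. -/
lemma prime_zeta_sub_one (hζ : IsPrimitiveRoot ζ p) : Prime (ζ - 1) := by
  have hζK : IsPrimitiveRoot (ζ : K) p := hζ.map_of_injective RingOfIntegers.coe_injective
  exact hζK.zeta_sub_one_prime'

omit [NumberField K] [IsCyclotomicExtension {p} ℚ K] hp in
lemma span_one_sub_eq (ζ : 𝓞 K) : Ideal.span {1 - ζ} = Ideal.span {ζ - 1} := by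
  rw [← neg_sub ζ 1, Ideal.span_singleton_neg]

/-- every algebraic integer of `ℚ(ζ_p)` is congruent to a rational integer modulo `1 - ζ`. -/
lemma exists_int_sub_mem (hζ : IsPrimitiveRoot ζ p) (h2 : p ≠ 2) (y : 𝓞 K) :
    ∃ n : ℤ, y - (n : 𝓞 K) ∈ Ideal.span {1 - ζ} := by
  have hζK : IsPrimitiveRoot (ζ : K) p := hζ.map_of_injective RingOfIntegers.coe_injective
  have hcard : Nat.card (𝓞 K ⧸ Ideal.span {ζ - 1}) = p := by
    have h1 := hζK.card_quotient_toInteger_sub_one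
    rw [hζK.norm_toInteger_sub_one_of_prime_ne_two' h2] at h1
    simpa using h1
  rw [span_one_sub_eq]
  set I : Ideal (𝓞 K) := Ideal.span {ζ - 1} with hI
  have hfin : Finite (𝓞 K ⧸ I) := Nat.finite_of_card_ne_zero (by rw [hcard]; exact hp.out.ne_zero)
  have hnt : Nontrivial (𝓞 K ⧸ I) := by
    rw [← Finite.one_lt_card_iff_nontrivial, hcard]; exact hp.out.one_lt
  -- the subgroup generated by `1` is everything
  have htop : AddSubgroup.zmultiples (1 : 𝓞 K ⧸ I) = ⊤ :=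
    zmultiples_eq_top_of_prime_card hcard one_ne_zero
  have hy : Ideal.Quotient.mk I y ∈ AddSubgroup.zmultiples (1 : 𝓞 K ⧸ I) := by
    rw [htop]; exact AddSubgroup.mem_top _
  obtain ⟨n, hn⟩ := AddSubgroup.mem_zmultiples_iff.1 hy
  refine ⟨n, ?_⟩
  rw [← Ideal.Quotient.eq_zero_iff_mem, map_sub, ← hn]
  simp

/-- the hypotheses of the abstract local computation hold in `𝓞 K`, `K = ℚ(ζ_p)`, `p ≥ 5`. -/
theorem localHyp (hζ : IsPrimitiveRoot ζ p) (h5 : 5 ≤ p) : LocalHyp p (1 - ζ) where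
  five_le := h5
  ne_zero := sub_ne_zero.2 (hζ.ne_one hp.out.one_lt).symm
  not_isUnit := by
    intro hu
    have h1 : IsUnit (ζ - 1) := by
      have := hu.neg
      rwa [neg_sub] at this
    exact (prime_zeta_sub_one hζ).not_isUnit h1
  p_mem := by
    obtain ⟨z, -, hz⟩ := hζ.self_sub_one_pow_dvd_order (k := 3) (by omega)
    rw [Ideal.mem_span_singleton]
    refine ⟨-z, ?_⟩
    rw [hz]; ring
  res := exists_int_sub_mem hζ (by omega)

omit [NumberField K] [IsCyclotomicExtension {p} ℚ K] hp in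
/-- the Spec's `E2` is the abstract `E2` at `π = 1 - ζ`. -/
lemma spec_E2_eq (ζ : 𝓞 K) : helper1934.E2 p ζ = E2 p (1 - ζ) := by
  simp only [helper1934.E2, helper1934.cyc, E2, geo, invp, sub_sub_cancel]

end NF

/-- **Package (L)** of the Thaine route, in the exact shape of `helper1934_ThaineSpec`. -/
theorem stmt_Local (p : ℕ) [Fact p.Prime] : helper1934.Stmt_Local p := by
  intro K _ _ _ ζ hζ h5 k j v x hv hcong
  have hloc : LocalHyp p (1 - ζ) := localHyp hζ h5
  refine hloc.dvd_of_zeta_pow_mul_E2_pow k j x v hv ?_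
  rw [sub_sub_cancel, ← spec_E2_eq]
  exact hcong

section Extras

variable {p : ℕ} [hp : Fact p.Prime] {K : Type} [Field K] [NumberField K]
  [IsCyclotomicExtension {p} ℚ K] {ζ : 𝓞 K}

/-- `E2 ≡ m (1 - c π²) mod π³` in `𝓞 K` (`π = 1 - ζ`, `m = mConst p` prime to `p`,
`24 c ≡ 1 mod p`). -/
theorem spec_E2_congr (hζ : IsPrimitiveRoot ζ p) (h5 : 5 ≤ p) :
    helper1934.E2 p ζ - (mConst p : 𝓞 K) * (1 - (c24 p : 𝓞 K) * (1 - ζ) ^ 2)
      ∈ Ideal.span {(1 - ζ) ^ 3} := by
  rw [spec_E2_eq]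
  exact (localHyp hζ h5).E2_congr

/-- `E2` is not of the form `ζ^k v^p` (in particular it is not a `p`-th power): the hypothesis
on `e = E2` in `Stmt_Units`, and the input of `Stmt_KummerDensity`. -/
theorem spec_E2_ne (hζ : IsPrimitiveRoot ζ p) (h5 : 5 ≤ p) (k : ℕ) (v : 𝓞 K) :
    helper1934.E2 p ζ ≠ ζ ^ k * v ^ p := by
  intro h
  have hloc : LocalHyp p (1 - ζ) := localHyp hζ h5
  have hzp : ζ ^ p = 1 := hζ.pow_eq_one
  have hz : ζ ^ ((p - 1) * k) * ζ ^ k = 1 := by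
    have hexp : (p - 1) * k + k = p * k := by
      have := hp.out.one_lt
      obtain ⟨q, rfl⟩ : ∃ q, p = q + 1 := ⟨p - 1, by omega⟩
      simp; ring
    rw [← pow_add, hexp, pow_mul, hzp, one_pow]
  have hcong : (1 - (1 - ζ)) ^ ((p - 1) * k) * E2 p (1 - ζ) ^ 1 * (1 : 𝓞 K) ^ p - v ^ p
      ∈ Ideal.span {(1 - ζ) ^ 3} := by
    have e : (1 - (1 - ζ)) ^ ((p - 1) * k) * E2 p (1 - ζ) ^ 1 * (1 : 𝓞 K) ^ p - v ^ p = 0 := by
      rw [sub_sub_cancel, ← spec_E2_eq, h]
      linear_combination (v ^ p) * hz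
    rw [e]
    exact Ideal.zero_mem _
  have h1 : (1 : 𝓞 K) ∉ Ideal.span {1 - ζ} := by
    intro h1
    exact hloc.not_isUnit (Ideal.span_singleton_eq_top.1 ((Ideal.eq_top_iff_one _).2 h1))
  have := (hloc.dvd_of_zeta_pow_mul_E2_pow ((p - 1) * k) 1 v 1 h1 hcong).2
  exact hp.out.one_lt.ne' (Nat.dvd_one.1 this)

end Extras

end Fermat.Agent.S14.helper4440
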