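import Mathlib

/-!
# S14, Thaine route: the case `p = 3`

For `K = ℚ(ζ₃)` the Kummer datum produced by the reduction step is trivially a cube:
`𝓞 K` is a PID, its units are `± ζ^k`, and the `ω²`-eigen condition at `a = 2` kills `ζ^k`.
No local condition at `1 - ζ` is needed.
-/

set_option autoImplicit false

namespace Fermat.Agent.S14.helper5605

open NumberField nonZeroDivisors

section dedekind

/-! ### Fractional ideals all of whose exponents are divisible by `n` are `n`-th powers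
(any Dedekind domain; reusable for the class part `(α) = A ^ p` of the general case) -/

open IsDedekindDomain FractionalIdeal

variable {R K : Type*} [CommRing R] [IsDedekindDomain R] [Field K] [Algebra R K]
  [IsFractionRing R K]

/-- A nonzero fractional ideal whose exponent at every prime is divisible by `n` is an `n`-th
power. -/
theorem exists_pow_eq_of_dvd_count {n : ℕ} {I : FractionalIdeal R⁰ K} (hI : I ≠ 0)
    (h : ∀ v : HeightOneSpectrum R, (n : ℤ) ∣ count K v I) :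
    ∃ A : FractionalIdeal R⁰ K, I = A ^ n := by
  refine ⟨∏ᶠ v : HeightOneSpectrum R,
    (v.asIdeal : FractionalIdeal R⁰ K) ^ (count K v I / (n : ℤ)), ?_⟩
  have hfin : Function.HasFiniteMulSupport (fun v : HeightOneSpectrum R =>
      (v.asIdeal : FractionalIdeal R⁰ K) ^ (count K v I / (n : ℤ))) := by
    have h0 := finite_factors (K := K) I
    rw [Filter.eventually_cofinite] at h0
    refine h0.subset ?_
    intro v hv
    simp only [Function.mem_mulSupport, ne_eq] at hv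
    intro hc
    apply hv
    show (v.asIdeal : FractionalIdeal R⁰ K) ^ (count K v I / (n : ℤ)) = 1
    rw [hc, Int.zero_ediv, zpow_zero]
  rw [finprod_pow hfin]
  conv_lhs => rw [← finprod_heightOneSpectrum_factorization' K hI]
  apply finprod_congr
  intro v
  rw [← zpow_natCast, ← zpow_mul, Int.ediv_mul_cancel (h v)]

/-- The `v`-adic valuation of `x ≠ 0` is `exp` of minus the exponent of `v` in the fractional
ideal `(x)`. -/
theorem valuation_eq_exp_neg_count (v : HeightOneSpectrum R) {x : K} (hx : x ≠ 0) :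
    v.valuation K x = WithZero.exp (-(count K v (spanSingleton R⁰ x))) := by
  obtain ⟨r, d, rfl⟩ := IsLocalization.exists_mk'_eq R⁰ x
  have hd_ne_zero : (algebraMap R K) (d : R) ≠ 0 :=
    map_ne_zero_of_mem_nonZeroDivisors _ (IsFractionRing.injective R K) d.property
  have hr : r ≠ 0 := by
    rintro rfl
    apply hx
    simp
  have hd : (d : R) ≠ 0 := nonZeroDivisors.ne_zero d.property
  have h0 : spanSingleton R⁰ (IsLocalization.mk' K r d) ≠ 0 := by
    rwa [spanSingleton_ne_zero_iff]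
  have hI : spanSingleton R⁰ (IsLocalization.mk' K r d) =
      spanSingleton R⁰ ((algebraMap R K) d)⁻¹ * ↑(Ideal.span {r} : Ideal R) := by
    rw [coeIdeal_span_singleton, spanSingleton_mul_spanSingleton]
    apply congr_arg
    rw [IsFractionRing.mk'_eq_div, div_eq_mul_inv, mul_comm]
  rw [count_well_defined K v h0 hI, HeightOneSpectrum.valuation_of_mk',
    v.intValuation_if_neg hr, v.intValuation_if_neg hd, ← WithZero.exp_sub]
  congr 1
  ring

/-- Valuation form: if the `v`-adic valuation of `x ≠ 0` is an `n`-th power in the value group for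
every `v`, then the fractional ideal `(x)` is an `n`-th power. -/
theorem exists_pow_eq_spanSingleton_of_valuation {n : ℕ} {x : K} (hx : x ≠ 0)
    (h : ∀ v : HeightOneSpectrum R, ∃ m : ℤ, v.valuation K x = WithZero.exp ((n : ℤ) * m)) :
    ∃ A : FractionalIdeal R⁰ K, spanSingleton R⁰ x = A ^ n := by
  refine exists_pow_eq_of_dvd_count (by rwa [spanSingleton_ne_zero_iff]) fun v => ?_
  obtain ⟨m, hm⟩ := h v
  rw [valuation_eq_exp_neg_count v hx, WithZero.exp_inj] at hm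
  exact ⟨-m, by rw [mul_neg, ← hm, neg_neg]⟩

/-- Valuation form with `WithZero.log`. -/
theorem exists_pow_eq_spanSingleton_of_dvd_log {n : ℕ} {x : K} (hx : x ≠ 0)
    (h : ∀ v : HeightOneSpectrum R, (n : ℤ) ∣ WithZero.log (v.valuation K x)) :
    ∃ A : FractionalIdeal R⁰ K, spanSingleton R⁰ x = A ^ n := by
  refine exists_pow_eq_spanSingleton_of_valuation hx fun v => ?_
  obtain ⟨m, hm⟩ := h v
  refine ⟨m, ?_⟩
  rw [← hm, WithZero.exp_log]
  exact (Valuation.ne_zero_iff _).2 hx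

end dedekind

section core

variable {K : Type*} [Field K] [NumberField K] [IsCyclotomicExtension {3} ℚ K]

/-- A primitive cube root of unity is not a cube in `ℚ(ζ₃)`. -/
theorem cube_ne_of_isPrimitiveRoot_three {ζ : K} (hζ : IsPrimitiveRoot ζ 3) (β : K) :
    β ^ 3 ≠ ζ := by
  intro h
  have h9 : β ^ 9 = 1 := by
    have : β ^ 9 = (β ^ 3) ^ 3 := by ring
    rw [this, h, hζ.pow_eq_one]
  have hfin : IsOfFinOrder β := isOfFinOrder_iff_pow_eq_one.2 ⟨9, by norm_num, h9⟩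
  obtain ⟨r, -, hr⟩ := hζ.exists_pow_or_neg_mul_pow_of_isOfFinOrder (by decide) hfin
  have h1 : ζ ≠ 1 := hζ.ne_one (by norm_num)
  rcases hr with hr | hr
  · apply h1
    rw [← h, hr, ← pow_mul, mul_comm, pow_mul, hζ.pow_eq_one, one_pow]
  · have hm : ζ = -1 := by
      rw [← h, hr]
      have : (-ζ ^ r) ^ 3 = -((ζ ^ 3) ^ r) := by ring
      rw [this, hζ.pow_eq_one, one_pow]
    have h3 := hζ.pow_eq_one
    rw [hm] at h3
    norm_num at h3

/-- Every unit of `𝓞 ℚ(ζ₃)` is `ζ^k` times a cube (namely `(±1)³`). -/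
theorem unit_eq_zeta_pow_mul_cube {ζ : K} (hζ : IsPrimitiveRoot ζ 3) (u : (𝓞 K)ˣ) :
    ∃ (k : ℕ) (ε : K), k < 3 ∧ ε ^ 3 = ε ∧ ((u : 𝓞 K) : K) = ζ ^ k * ε := by
  have hmem := IsCyclotomicExtension.Rat.Three.Units.mem hζ u
  simp only [List.mem_cons, List.not_mem_nil, or_false] at hmem
  have hc : ((hζ.toInteger : 𝓞 K) : K) = ζ := hζ.coe_toInteger
  rcases hmem with h | h | h | h | h | h
  · exact ⟨0, 1, by norm_num, by norm_num, by simp [h]⟩
  · exact ⟨0, -1, by norm_num, by norm_num, by simp [h]⟩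
  · exact ⟨1, 1, by norm_num, by norm_num, by simp [h, hc]⟩
  · exact ⟨1, -1, by norm_num, by norm_num, by simp [h, hc]⟩
  · exact ⟨2, 1, by norm_num, by norm_num, by simp [h, hc]⟩
  · exact ⟨2, -1, by norm_num, by norm_num, by simp [h, hc]⟩

/-- **Unit form.** If `α = u * γ ^ 3` with `u` a unit of `𝓞 K`, and `α` satisfies the eigen
condition `σ α = α ^ 4 * c ^ 3` for an automorphism with `σ ζ = ζ ^ 2`, then `α` is a cube. -/
theorem cube_of_unit_mul_cube {ζ : K} (hζ : IsPrimitiveRoot ζ 3) {α γ : K} (hα : α ≠ 0)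
    (u : (𝓞 K)ˣ) (hu : α = ((u : 𝓞 K) : K) * γ ^ 3)
    (σ : K ≃ₐ[ℚ] K) (hσ : σ ζ = ζ ^ 2) (c : K) (hc : σ α = α ^ 4 * c ^ 3) :
    ∃ β : K, α = β ^ 3 := by
  obtain ⟨k, ε, hk, hε, huk⟩ := unit_eq_zeta_pow_mul_cube hζ u
  -- `α = ζ ^ k * δ ^ 3` with `δ = ε * γ`
  set δ : K := ε * γ with hδ
  have hαδ : α = ζ ^ k * δ ^ 3 := by
    rw [hu, huk, hδ, mul_pow, hε, mul_assoc]
  have hζ0 : ζ ≠ 0 := hζ.ne_zero (by norm_num)
  have hδ0 : δ ≠ 0 := by
    rintro h0
    apply hα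
    rw [hαδ, h0]
    simp
  have hσδ0 : σ δ ≠ 0 := by simpa using hδ0
  have h3 : ζ ^ 3 = 1 := hζ.pow_eq_one
  -- `ζ ^ k` is a cube
  have hcube : ζ ^ k = (δ ^ 4 * c / σ δ) ^ 3 := by
    have e1 : σ α = (ζ ^ k) ^ 2 * (σ δ) ^ 3 := by
      rw [hαδ, map_mul, map_pow, map_pow, hσ, ← pow_mul, ← pow_mul, mul_comm 2 k]
    have e2 : α ^ 4 * c ^ 3 = ζ ^ k * (δ ^ 4 * c) ^ 3 * (ζ ^ 3) ^ k := by
      rw [hαδ]; ring
    rw [h3, one_pow, mul_one] at e2
    have e3 : (ζ ^ k) ^ 2 * (σ δ) ^ 3 = ζ ^ k * (δ ^ 4 * c) ^ 3 := by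
      rw [← e1, hc, e2]
    have hk0 : ζ ^ k ≠ 0 := pow_ne_zero _ hζ0
    have e4 : ζ ^ k * (σ δ) ^ 3 = (δ ^ 4 * c) ^ 3 := by
      apply mul_left_cancel₀ hk0
      rw [← mul_assoc, ← sq, e3]
    rw [div_pow, eq_div_iff (pow_ne_zero _ hσδ0), e4]
  interval_cases k
  · exact ⟨δ, by rw [hαδ, pow_zero, one_mul]⟩
  · exact absurd (by rw [← hcube, pow_one]) (cube_ne_of_isPrimitiveRoot_three hζ _)
  · exfalso
    apply cube_ne_of_isPrimitiveRoot_three hζ ((δ ^ 4 * c / σ δ) ^ 2)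
    have e5 : ((δ ^ 4 * c / σ δ) ^ 2) ^ 3 = ((δ ^ 4 * c / σ δ) ^ 3) ^ 2 := by ring
    rw [e5, ← hcube]
    have : (ζ ^ 2) ^ 2 = ζ ^ 3 * ζ := by ring
    rw [this, h3, one_mul]

/-- In a cyclotomic field `ℚ(ζₙ)`, for every `a` coprime to `n` there is an automorphism raising
every `n`-th root of unity to the power `a`. -/
theorem exists_aut_pow_of_coprime (n : ℕ) [NeZero n] (L : Type*) [Field L] [NumberField L]
    [IsCyclotomicExtension {n} ℚ L] {a : ℕ} (ha : a.Coprime n) :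
    ∃ σ : L ≃ₐ[ℚ] L, ∀ x : L, x ^ n = 1 → σ x = x ^ a := by
  refine ⟨(IsCyclotomicExtension.Rat.galEquivZMod n L).symm (ZMod.unitOfCoprime a ha), ?_⟩
  intro x hx
  rw [IsCyclotomicExtension.Rat.galEquivZMod_apply_of_pow_eq n L _ hx, MulEquiv.apply_symm_apply,
    ZMod.coe_unitOfCoprime, ZMod.val_natCast]
  conv_rhs => rw [← Nat.div_add_mod a n, pow_add, pow_mul, hx, one_pow, one_mul]

/-- **Ideal form.** If the fractional ideal `(α)` is a cube and `α` satisfies the eigen condition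
`σ α = α ^ 4 * c ^ 3` for an automorphism with `σ ζ = ζ ^ 2`, then `α` is a cube in `K = ℚ(ζ₃)`. -/
theorem cube_of_spanSingleton_eq_pow {ζ : K} (hζ : IsPrimitiveRoot ζ 3) {α : K} (hα : α ≠ 0)
    (A : FractionalIdeal (𝓞 K)⁰ K) (hA : FractionalIdeal.spanSingleton (𝓞 K)⁰ α = A ^ 3)
    (σ : K ≃ₐ[ℚ] K) (hσ : σ ζ = ζ ^ 2) (c : K) (hc : σ α = α ^ 4 * c ^ 3) :
    ∃ β : K, α = β ^ 3 := by
  have := IsCyclotomicExtension.Rat.three_pid K
  obtain ⟨γ, hγ⟩ := (FractionalIdeal.isPrincipal_iff A).1 inferInstance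
  rw [hγ, FractionalIdeal.spanSingleton_pow] at hA
  obtain ⟨z, hz⟩ := FractionalIdeal.spanSingleton_eq_spanSingleton.1 hA.symm
  refine cube_of_unit_mul_cube hζ (γ := γ) hα z ?_ σ hσ c hc
  rw [← hz]
  rfl

/-- **Ideal form, universally quantified eigen condition** (the shape produced by the reduction
step): `σ α ∈ α ^ (a ^ 2) * K ^ 3` whenever `σ ζ = ζ ^ a`. -/
theorem cube_of_spanSingleton_eq_pow_of_eigen {ζ : K} (hζ : IsPrimitiveRoot ζ 3) {α : K}
    (hα : α ≠ 0) (hA : ∃ A : FractionalIdeal (𝓞 K)⁰ K,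
      FractionalIdeal.spanSingleton (𝓞 K)⁰ α = A ^ 3)
    (heig : ∀ (σ : K ≃ₐ[ℚ] K) (a : ℕ), σ ζ = ζ ^ a → ∃ c : K, σ α = α ^ (a ^ 2) * c ^ 3) :
    ∃ β : K, α = β ^ 3 := by
  obtain ⟨A, hA⟩ := hA
  obtain ⟨σ, hσ⟩ := exists_aut_pow_of_coprime 3 K (a := 2) (by decide)
  have hσζ : σ ζ = ζ ^ 2 := hσ ζ hζ.pow_eq_one
  obtain ⟨c, hc⟩ := heig σ 2 hσζ
  exact cube_of_spanSingleton_eq_pow hζ hα A hA σ hσζ c (by rw [hc]; norm_num)

/-- **Valuation form**: `3 ∣ ord_v(α)` for every finite place `v`, in the shape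
`v(α) = exp (3 * m)`. -/
theorem cube_of_valuation_of_eigen {ζ : K} (hζ : IsPrimitiveRoot ζ 3) {α : K} (hα : α ≠ 0)
    (hval : ∀ v : IsDedekindDomain.HeightOneSpectrum (𝓞 K),
      ∃ m : ℤ, v.valuation K α = WithZero.exp (3 * m))
    (heig : ∀ (σ : K ≃ₐ[ℚ] K) (a : ℕ), σ ζ = ζ ^ a → ∃ c : K, σ α = α ^ (a ^ 2) * c ^ 3) :
    ∃ β : K, α = β ^ 3 :=
  cube_of_spanSingleton_eq_pow_of_eigen hζ hα
    (exists_pow_eq_spanSingleton_of_valuation (n := 3) hα (by exact_mod_cast hval)) heig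

/-- **Valuation form** with `WithZero.log`: `3 ∣ log (v(α))` for every finite place `v`. -/
theorem cube_of_dvd_log_valuation_of_eigen {ζ : K} (hζ : IsPrimitiveRoot ζ 3) {α : K}
    (hα : α ≠ 0)
    (hval : ∀ v : IsDedekindDomain.HeightOneSpectrum (𝓞 K),
      (3 : ℤ) ∣ WithZero.log (v.valuation K α))
    (heig : ∀ (σ : K ≃ₐ[ℚ] K) (a : ℕ), σ ζ = ζ ^ a → ∃ c : K, σ α = α ^ (a ^ 2) * c ^ 3) :
    ∃ β : K, α = β ^ 3 :=
  cube_of_spanSingleton_eq_pow_of_eigen hζ hα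
    (exists_pow_eq_spanSingleton_of_dvd_log (n := 3) hα (by exact_mod_cast hval)) heig

end core

end Fermat.Agent.S14.helper5605
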