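import Mathlib
import Fermat.Agent.S14.helper1934_ThaineSpec
import Fermat.Agent.S14.helper5605_PThree

/-!
# S14, Thaine route: the Kummer core `Stmt_Core p` for `p = 3`, in the exact Spec shape

`helper1934.Stmt_Core 3` holds unconditionally: `𝓞 ℚ(ζ₃)` is a PID with unit group `μ₆`, and the
`ω²`-eigen condition at `a = 2` kills the root of unity.  (The conditions at `1 - ζ` of the Spec
are not used.)
-/

set_option autoImplicit false

namespace Fermat.Agent.S14.helper5605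

open NumberField

/-- **`Stmt_Core 3`** of `helper1934_ThaineSpec`, with no hypotheses. -/
theorem stmt_Core_three : helper1934.Stmt_Core 3 := by
  intro K _ _ _ ζ hζ α hα hI _ _ hω
  have := IsCyclotomicExtension.Rat.three_pid K
  -- the primitive root in `K`
  have hζK : IsPrimitiveRoot ((ζ : 𝓞 K) : K) 3 :=
    hζ.map_of_injective (FaithfulSMul.algebraMap_injective (𝓞 K) K)
  -- `α = u * γ ^ 3`
  obtain ⟨I, hI⟩ := hI
  obtain ⟨γ, rfl⟩ : ∃ γ : 𝓞 K, I = Ideal.span {γ} :=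
    ⟨_, (Submodule.IsPrincipal.span_singleton_generator I).symm⟩
  rw [Ideal.span_singleton_pow, Ideal.span_singleton_eq_span_singleton] at hI
  obtain ⟨u, hu⟩ := hI.symm
  -- the automorphism `ζ ↦ ζ ^ 2`
  obtain ⟨σ, hσ⟩ := exists_aut_pow_of_coprime 3 K (a := 2) (by decide)
  have hσζ : σ ((ζ : 𝓞 K) : K) = ((ζ : 𝓞 K) : K) ^ 2 := hσ _ hζK.pow_eq_one
  let g : 𝓞 K ≃+* 𝓞 K := RingOfIntegers.mapRingEquiv (σ : K ≃+* K)
  have hg : ∀ x : 𝓞 K, ((g x : 𝓞 K) : K) = σ (x : K) := fun x => rfl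
  have hgζ : g ζ = ζ ^ 2 := by
    apply FaithfulSMul.algebraMap_injective (𝓞 K) K
    rw [map_pow]
    exact hσζ
  obtain ⟨c, d, hc, hd, hcd⟩ := hω g 2 hgζ
  have hcK : ((c : 𝓞 K) : K) ≠ 0 := by
    simpa using hc
  have hαK : ((α : 𝓞 K) : K) ≠ 0 := by
    simpa using hα
  have hcdK : σ (α : K) * (c : K) ^ 3 = (α : K) ^ (2 ^ 2) * (d : K) ^ 3 := by
    have h1 := congrArg (algebraMap (𝓞 K) K) hcd
    rw [map_mul, map_mul, map_pow, map_pow, map_pow] at h1
    exact h1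
  have hσα : σ (α : K) = (α : K) ^ 4 * ((d : K) / (c : K)) ^ 3 := by
    rw [div_pow, mul_div_assoc', eq_div_iff (pow_ne_zero _ hcK), hcdK]
    norm_num
  have huK : ((α : 𝓞 K) : K) = ((u : 𝓞 K) : K) * ((γ : 𝓞 K) : K) ^ 3 := by
    have h1 := congrArg (algebraMap (𝓞 K) K) hu
    rw [map_mul, map_pow] at h1
    rw [mul_comm]
    exact h1.symm
  obtain ⟨β, hβ⟩ := cube_of_unit_mul_cube hζK hαK u huK σ hσζ _ hσα
  -- `β` is integral
  have hβint : IsIntegral ℤ β := by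
    apply IsIntegral.of_pow (n := 3) (by norm_num)
    rw [← hβ]
    exact RingOfIntegers.isIntegral_coe α
  obtain ⟨β', hβ'⟩ : ∃ β' : 𝓞 K, algebraMap (𝓞 K) K β' = β := ⟨⟨β, hβint⟩, rfl⟩
  refine ⟨β', ?_⟩
  apply FaithfulSMul.algebraMap_injective (𝓞 K) K
  rw [map_pow, hβ']
  exact hβ

end Fermat.Agent.S14.helper5605
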