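import Mathlib
import Fermat.Prelude.Def_ExtCitation_AdmissibleExtension_v2

/-!
# S14, module M1 (helper662): reduction of `ExtVanishingCts p` to a Kummer datum

We show that a non-split admissible extension `0 → ℤ/p → V → μ_p → 0` of `G_ℚ`-modules
produces a *Kummer datum*: `θ ∈ ℚ̄` with `θ ^ p ∈ K = ℚ(ζ_p)`, `θ ∉ K`, fixed by all inertia
groups away from `p`, fixed by `D_A ∩ G_K` for all places `A` above `p`, and with
`τ θ = c * θ ^ (a ^ 2)`, `c ∈ K`, whenever `τ ζ = ζ ^ a` (the `ω²`-eigenvector property).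
Hence `ExtVanishingCts p` follows from the non-existence of Kummer data (`Core p`).
-/

set_option autoImplicit false
set_option linter.unusedSectionVars false

namespace Fermat.Agent.S14.helper662

open ExtCitation ValuationSubring

/-- Local abbreviation for the absolute Galois group of `ℚ`. -/
abbrev GQ : Type := AlgebraicClosure ℚ ≃ₐ[ℚ] AlgebraicClosure ℚ

/-- Local abbreviation for `ℚ̄`. -/
abbrev Qb : Type := AlgebraicClosure ℚ

theorem isAlgClosure_Qb : IsAlgClosure ℚ (AlgebraicClosure ℚ) :=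
  ⟨inferInstance, AlgebraicClosure.isAlgebraic ℚ⟩

theorem isGalois_Qb : IsGalois ℚ (AlgebraicClosure ℚ) :=
  haveI := isAlgClosure_Qb
  inferInstance

attribute [local instance] isAlgClosure_Qb isGalois_Qb

section cyclo

variable (p : ℕ) [Fact p.Prime]

/-- The mod `p` cyclotomic character as an element of `ZMod p`. -/
noncomputable def chi (σ : GQ) : ZMod p :=
  haveI : NeZero p := ⟨(Fact.out : p.Prime).ne_zero⟩
  ((modularCyclotomicCharacter (AlgebraicClosure ℚ) (card_rootsOfUnity_eq_self p)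
      (σ : AlgebraicClosure ℚ ≃+* AlgebraicClosure ℚ) : (ZMod p)ˣ) : ZMod p)

theorem cycloExp_eq (σ : GQ) : cycloExp p σ = (chi p σ).val := rfl

theorem cycloExp_cast (σ : GQ) : ((cycloExp p σ : ℕ) : ZMod p) = chi p σ := by
  have : NeZero p := ⟨(Fact.out : p.Prime).ne_zero⟩
  rw [cycloExp_eq, ZMod.natCast_zmod_val]

theorem map_root_eq_pow (σ : GQ) {ζ : Qb} (hζ : ζ ^ p = 1) : σ ζ = ζ ^ (chi p σ).val := by
  have : NeZero p := ⟨(Fact.out : p.Prime).ne_zero⟩
  have hu : IsUnit ζ := IsUnit.of_pow_eq_one hζ (NeZero.ne p)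
  obtain ⟨u, rfl⟩ := hu
  have hu' : u ∈ rootsOfUnity p (AlgebraicClosure ℚ) := by
    rw [mem_rootsOfUnity]
    exact Units.ext (by simpa using hζ)
  have := modularCyclotomicCharacter.spec (AlgebraicClosure ℚ) (card_rootsOfUnity_eq_self p)
    (σ : AlgebraicClosure ℚ ≃+* AlgebraicClosure ℚ) hu'
  simpa [chi] using this

theorem chi_eq_of_map_eq_pow (σ : GQ) {ζ : Qb} (hζ : IsPrimitiveRoot ζ p) {a : ℕ}
    (h : σ ζ = ζ ^ a) : chi p σ = (a : ZMod p) := by
  have hp0 : NeZero p := ⟨(Fact.out : p.Prime).ne_zero⟩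
  have hppos : 0 < p := (Fact.out : p.Prime).pos
  have h1 := map_root_eq_pow p σ hζ.pow_eq_one
  rw [h] at h1
  have hmod : ζ ^ a = ζ ^ (a % p) := by
    conv_lhs => rw [← Nat.mod_add_div a p, pow_add, pow_mul, hζ.pow_eq_one, one_pow, mul_one]
  rw [hmod] at h1
  have h2 : a % p = (chi p σ).val :=
    hζ.pow_inj (Nat.mod_lt _ hppos) (ZMod.val_lt _) h1
  have h3 : ((a % p : ℕ) : ZMod p) = (a : ZMod p) := ZMod.natCast_mod a p
  rw [← h3, h2, ZMod.natCast_zmod_val]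

theorem chi_eq_one_of_map_eq (σ : GQ) {ζ : Qb} (hζ : IsPrimitiveRoot ζ p)
    (h : σ ζ = ζ) : chi p σ = 1 := by
  have := chi_eq_of_map_eq_pow p σ hζ (a := 1) (by simpa using h)
  simpa using this

theorem map_eq_of_chi_eq_one (σ : GQ) {ζ : Qb} (hζ : ζ ^ p = 1)
    (h : chi p σ = 1) : σ ζ = ζ := by
  have : Fact (1 < p) := ⟨(Fact.out : p.Prime).one_lt⟩
  rw [map_root_eq_pow p σ hζ, h, ZMod.val_one, pow_one]

end cyclo


section linalg

variable {p : ℕ} [Fact p.Prime]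

/-- In a `ZMod p`-module with exactly `p` elements every element is a multiple of any
nonzero element. -/
theorem exists_smul_eq_of_card {M : Type*} [AddCommGroup M] [Module (ZMod p) M]
    (hcard : Nat.card M = p) {m : M} (hm : m ≠ 0) (y : M) : ∃ t : ZMod p, y = t • m := by
  have hp : p.Prime := Fact.out
  have hfin : Finite M := Nat.finite_of_card_ne_zero (by rw [hcard]; exact hp.ne_zero)
  have hinj : Function.Injective (fun t : ZMod p => t • m) := by
    intro t s hts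
    have h0 : (t - s) • m = 0 := by rw [sub_smul]; exact sub_eq_zero.mpr hts
    rcases smul_eq_zero.mp h0 with h | h
    · exact sub_eq_zero.mp h
    · exact absurd h hm
  have hbij := hinj.bijective_of_nat_card_le (by rw [hcard, Nat.card_zmod])
  obtain ⟨t, ht⟩ := hbij.2 y
  exact ⟨t, ht.symm⟩

end linalg


section ext

variable {p : ℕ} [Fact p.Prime] {V : Type} [AddCommGroup V] [Module (ZMod p) V]
  [DistribMulAction GQ V] [SMulCommClass GQ (ZMod p) V] {C : Submodule (ZMod p) V}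

theorem exists_not_mem (h : IsAdmissibleExtension p V C) : ∃ x₀ : V, x₀ ∉ C := by
  have hp : p.Prime := Fact.out
  by_contra hcon
  push Not at hcon
  have htop : C = ⊤ := by
    rw [_root_.eq_top_iff]; intro x _; exact hcon x
  have h1 : Nat.card C = Nat.card V := by
    rw [htop]; exact Nat.card_congr (Submodule.topEquiv (R := ZMod p) (M := V)).toEquiv
  rw [h.card_sub, h.card_total] at h1
  have h2 : p * 1 = p * p := by rw [mul_one, ← sq]; exact h1
  have := Nat.eq_of_mul_eq_mul_left hp.pos h2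
  exact hp.one_lt.ne this

theorem card_quotient (h : IsAdmissibleExtension p V C) : Nat.card (V ⧸ C) = p := by
  have hp : p.Prime := Fact.out
  have h1 := Submodule.card_eq_card_quotient_mul_card C
  rw [h.card_sub, h.card_total, sq] at h1
  exact (Nat.eq_of_mul_eq_mul_left hp.pos h1).symm

/-- Every vector is a multiple of `x₀ ∉ C` modulo `C`. -/
theorem exists_smul_add (h : IsAdmissibleExtension p V C) {x₀ : V} (hx₀ : x₀ ∉ C) (v : V) :
    ∃ t : ZMod p, ∃ c ∈ C, v = t • x₀ + c := by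
  have hm : (Submodule.Quotient.mk x₀ : V ⧸ C) ≠ 0 := by
    rw [Ne, Submodule.Quotient.mk_eq_zero]; exact hx₀
  obtain ⟨t, ht⟩ := exists_smul_eq_of_card (card_quotient h) hm (Submodule.Quotient.mk v)
  refine ⟨t, v - t • x₀, ?_, by abel⟩
  rw [← Submodule.Quotient.mk_eq_zero, Submodule.Quotient.mk_sub, Submodule.Quotient.mk_smul, ht,
    sub_self]

/-- Every element of `C` is a multiple of any nonzero element of `C`. -/
theorem exists_smul_eq_of_mem (h : IsAdmissibleExtension p V C) {c₁ : V} (hc₁ : c₁ ∈ C)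
    (hne : c₁ ≠ 0) {c : V} (hc : c ∈ C) : ∃ t : ZMod p, c = t • c₁ := by
  have hm : (⟨c₁, hc₁⟩ : C) ≠ 0 := by
    intro h0; exact hne (congrArg Subtype.val h0)
  obtain ⟨t, ht⟩ := exists_smul_eq_of_card h.card_sub hm (⟨c, hc⟩ : C)
  exact ⟨t, congrArg Subtype.val ht⟩

/-- If `χ(σ) = 1` then `σ` acts trivially on `V / C`. -/
theorem smul_sub_mem (h : IsAdmissibleExtension p V C) {σ : GQ} (hσ : chi p σ = 1) (x : V) :
    σ • x - x ∈ C := by
  have := h.cyclo_quot σ x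
  rwa [cycloExp_cast, hσ, one_smul] at this

/-- The kernel of the action on `V`. -/
def actKer (V : Type) [AddCommGroup V] [DistribMulAction GQ V] : Subgroup GQ where
  carrier := {σ | ∀ v : V, σ • v = v}
  mul_mem' := by
    intro a b ha hb v
    rw [mul_smul, hb v, ha v]
  one_mem' := by intro v; exact one_smul _ v
  inv_mem' := by
    intro a ha v
    have := ha v
    calc a⁻¹ • v = a⁻¹ • (a • v) := by rw [this]
      _ = v := inv_smul_smul a v

theorem mem_actKer {σ : GQ} : σ ∈ actKer V ↔ ∀ v : V, σ • v = v := Iff.rfl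

theorem actKer_normal (σ τ : GQ) (hσ : σ ∈ actKer V) : τ * σ * τ⁻¹ ∈ actKer V := by
  intro v
  rw [mul_smul, mul_smul, hσ, smul_inv_smul]

theorem actKer_normal' (σ τ : GQ) (hσ : σ ∈ actKer V) : τ⁻¹ * σ * τ ∈ actKer V := by
  have := actKer_normal (V := V) σ τ⁻¹ hσ
  simpa using this

theorem chi_eq_one_of_mem_actKer (h : IsAdmissibleExtension p V C) {σ : GQ}
    (hσ : σ ∈ actKer V) : chi p σ = 1 := by
  obtain ⟨x₀, hx₀⟩ := exists_not_mem h
  by_contra hne
  have h1 := h.cyclo_quot σ x₀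
  rw [cycloExp_cast, hσ x₀] at h1
  have h2 : (1 - chi p σ) • x₀ ∈ C := by rw [sub_smul, one_smul]; exact h1
  have h3 : (1 - chi p σ) ≠ 0 := sub_ne_zero.mpr (Ne.symm hne)
  have h4 := C.smul_mem (1 - chi p σ)⁻¹ h2
  rw [smul_smul, inv_mul_cancel₀ h3, one_smul] at h4
  exact hx₀ h4

/-- additivity of `σ ↦ σ • x - x` on the kernel of `χ`. -/
theorem mul_smul_sub (h : IsAdmissibleExtension p V C) {σ τ : GQ} (hτ : chi p τ = 1) (x : V) :
    (σ * τ) • x - x = (σ • x - x) + (τ • x - x) := by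
  have h1 := h.fixed_sub σ _ (smul_sub_mem h hτ x)
  rw [smul_sub] at h1
  rw [mul_smul]
  have : σ • τ • x = σ • x + (τ • x - x) := by
    rw [← h1]; abel
  rw [this]; abel

theorem chi_mul (σ τ : GQ) : chi p (σ * τ) = chi p σ * chi p τ := by
  have : NeZero p := ⟨(Fact.out : p.Prime).ne_zero⟩
  unfold chi
  have : ((σ * τ : GQ) : AlgebraicClosure ℚ ≃+* AlgebraicClosure ℚ) =
      (σ : AlgebraicClosure ℚ ≃+* AlgebraicClosure ℚ) * (τ : AlgebraicClosure ℚ ≃+* AlgebraicClosure ℚ) := rfl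
  rw [this, map_mul, Units.val_mul]

theorem chi_one : chi p (1 : GQ) = 1 := by
  have : NeZero p := ⟨(Fact.out : p.Prime).ne_zero⟩
  unfold chi
  have : ((1 : GQ) : AlgebraicClosure ℚ ≃+* AlgebraicClosure ℚ) = 1 := rfl
  rw [this, map_one, Units.val_one]

theorem chi_pow (σ : GQ) (k : ℕ) : chi p (σ ^ k) = chi p σ ^ k := by
  induction k with
  | zero => simp [chi_one]
  | succ k ih => rw [pow_succ, chi_mul, ih, pow_succ]

theorem pow_smul_sub (h : IsAdmissibleExtension p V C) {σ : GQ} (hσ : chi p σ = 1) (x : V)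
    (k : ℕ) : (σ ^ k) • x - x = k • (σ • x - x) := by
  induction k with
  | zero => simp
  | succ k ih =>
    rw [pow_succ, mul_smul_sub h hσ, ih, succ_nsmul]

/-- An element fixing some `x₀ ∉ C` acts trivially. -/
theorem mem_actKer_of_fix (h : IsAdmissibleExtension p V C) {σ : GQ}
    {x₀ : V} (hx₀ : x₀ ∉ C) (hfix : σ • x₀ = x₀) : σ ∈ actKer V := by
  intro v
  obtain ⟨t, c, hc, rfl⟩ := exists_smul_add h hx₀ v
  rw [smul_add, smul_comm, hfix, h.fixed_sub σ c hc]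


/-- Some element of `G_ℚ` moves a primitive `p`-th root of unity (`p ≥ 3`). -/
theorem exists_map_ne (h3 : 3 ≤ p) {ζ : Qb} (hζ : IsPrimitiveRoot ζ p) : ∃ σ₀ : GQ, σ₀ ζ ≠ ζ := by
  have hp : p.Prime := Fact.out
  by_contra hcon
  push Not at hcon
  obtain ⟨r, hr⟩ := (InfiniteGalois.mem_range_algebraMap_iff_fixed (k := ℚ)
    (K := AlgebraicClosure ℚ) ζ).mpr hcon
  have hodd : Odd p := hp.odd_of_ne_two (by omega)
  have hr1 : r ^ p = 1 := by
    have h1 : algebraMap ℚ (AlgebraicClosure ℚ) (r ^ p) = algebraMap ℚ (AlgebraicClosure ℚ) 1 := by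
      rw [map_pow, hr, hζ.pow_eq_one, map_one]
    exact (algebraMap ℚ (AlgebraicClosure ℚ)).injective h1
  have hr2 : r = 1 := by
    have := hodd.strictMono_pow (R := ℚ)
    exact this.injective (by simpa using hr1)
  rw [hr2, map_one] at hr
  exact hζ.ne_one hp.one_lt hr.symm

/-- **Split case.** If `G_K` acts trivially on `V`, the extension splits globally. -/
theorem splitsGlobally_of_trivial (h3 : 3 ≤ p) (h : IsAdmissibleExtension p V C) {ζ : Qb}
    (hζ : IsPrimitiveRoot ζ p) (htriv : ∀ σ : GQ, σ ζ = ζ → ∀ v : V, σ • v = v) :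
    SplitsGlobally C := by
  obtain ⟨σ₀, hσ₀⟩ := exists_map_ne h3 hζ
  have hχ : chi p σ₀ ≠ 1 := fun h1 => hσ₀ (map_eq_of_chi_eq_one p σ₀ hζ.pow_eq_one h1)
  have hχ' : (1 - chi p σ₀) ≠ 0 := sub_ne_zero.mpr (Ne.symm hχ)
  -- commutation of `σ₀` with everything on `V`
  have hcomm : ∀ (τ : GQ) (x : V), σ₀ • τ • x = τ • σ₀ • x := by
    intro τ x
    have hg : ((τ * σ₀)⁻¹ * (σ₀ * τ)) ζ = ζ := by
      have e1 : (σ₀ * τ) ζ = (τ * σ₀) ζ := by
        rw [AlgEquiv.mul_apply, AlgEquiv.mul_apply, map_root_eq_pow p τ hζ.pow_eq_one,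
          map_root_eq_pow p σ₀ hζ.pow_eq_one, map_pow, map_pow,
          map_root_eq_pow p τ hζ.pow_eq_one, map_root_eq_pow p σ₀ hζ.pow_eq_one,
          ← pow_mul, ← pow_mul, mul_comm]
      rw [AlgEquiv.mul_apply, e1]
      change (τ * σ₀)⁻¹ ((τ * σ₀) ζ) = ζ
      rw [← AlgEquiv.mul_apply, inv_mul_cancel, AlgEquiv.one_apply]
    have h1 := htriv _ hg x
    have h2 : (σ₀ * τ) • x = (τ * σ₀) • (((τ * σ₀)⁻¹ * (σ₀ * τ)) • x) := by
      rw [← mul_smul, mul_inv_cancel_left]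
    rw [h1] at h2
    rw [← mul_smul, ← mul_smul]; exact h2
  let C' : Submodule (ZMod p) V :=
    { carrier := {x | σ₀ • x = chi p σ₀ • x}
      add_mem' := by
        intro a b ha hb
        change σ₀ • a = chi p σ₀ • a at ha
        change σ₀ • b = chi p σ₀ • b at hb
        change σ₀ • (a + b) = chi p σ₀ • (a + b)
        rw [smul_add, ha, hb, smul_add]
      zero_mem' := by
        change σ₀ • (0 : V) = chi p σ₀ • (0 : V)
        rw [smul_zero, smul_zero]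
      smul_mem' := by
        intro t x hx
        change σ₀ • x = chi p σ₀ • x at hx
        change σ₀ • (t • x) = chi p σ₀ • (t • x)
        rw [smul_comm σ₀ t x, hx, smul_comm] }
  have hmemC' : ∀ x : V, x ∈ C' ↔ σ₀ • x = chi p σ₀ • x := fun x => Iff.rfl
  refine ⟨C', ?_, ?_⟩
  · intro τ x hx
    rw [hmemC'] at hx ⊢
    rw [hcomm τ x, hx, smul_comm]
  · refine IsCompl.mk ?_ ?_
    · rw [Submodule.disjoint_def]
      intro x hxC hxC'
      rw [hmemC'] at hxC'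
      rw [h.fixed_sub σ₀ x hxC] at hxC'
      have h0 : (1 - chi p σ₀) • x = 0 := by
        rw [sub_smul, one_smul]; exact sub_eq_zero.mpr hxC'
      rcases smul_eq_zero.mp h0 with h1 | h1
      · exact absurd h1 hχ'
      · exact h1
    · rw [Submodule.codisjoint_iff_exists_add_eq]
      intro z
      have hc : σ₀ • z - chi p σ₀ • z ∈ C := by
        have := h.cyclo_quot σ₀ z
        rwa [cycloExp_cast] at this
      set c := σ₀ • z - chi p σ₀ • z with hcdef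
      set c' := (1 - chi p σ₀)⁻¹ • c with hc'def
      have hc'C : c' ∈ C := C.smul_mem _ hc
      refine ⟨c', z - c', hc'C, ?_, by abel⟩
      rw [hmemC', smul_sub, smul_sub, h.fixed_sub σ₀ c' hc'C]
      have e1 : σ₀ • z = chi p σ₀ • z + c := by rw [hcdef]; abel
      have e2 : c = (1 - chi p σ₀) • c' := by
        rw [hc'def, smul_smul, mul_inv_cancel₀ hχ', one_smul]
      rw [e1, e2, sub_smul, one_smul]; abel


end ext

section kummer

/-- An element of `ℚ̄` fixed by every automorphism fixing `ζ` lies in `ℚ(ζ)`. -/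
theorem mem_adjoin_of_fixed {ζ x : Qb} (hx : ∀ τ : GQ, τ ζ = ζ → τ x = x) :
    x ∈ IntermediateField.adjoin ℚ {ζ} := by
  rw [← InfiniteGalois.fixedField_fixingSubgroup (IntermediateField.adjoin ℚ {ζ}),
    IntermediateField.mem_fixedField_iff]
  intro τ hτ
  apply hx
  exact (IntermediateField.mem_fixingSubgroup_iff _ _).mp hτ ζ
    (IntermediateField.mem_adjoin_simple_self ℚ ζ)

/-- An automorphism fixing `ζ` fixes `ℚ(ζ)` pointwise. -/
theorem fixed_of_mem_adjoin {ζ x : Qb} {τ : GQ} (hτ : τ ζ = ζ)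
    (hx : x ∈ IntermediateField.adjoin ℚ {ζ}) : τ x = x := by
  have hle : IntermediateField.adjoin ℚ {ζ} ≤ IntermediateField.fixedField (Subgroup.zpowers τ) := by
    rw [IntermediateField.adjoin_simple_le_iff, IntermediateField.mem_fixedField_iff]
    intro f hf
    have hstab : Subgroup.zpowers τ ≤ MulAction.stabilizer GQ ζ := by
      rw [Subgroup.zpowers_le, MulAction.mem_stabilizer_iff]
      exact hτ
    have := hstab hf
    rw [MulAction.mem_stabilizer_iff] at this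
    exact this
  have := hle hx
  rw [IntermediateField.mem_fixedField_iff] at this
  exact this τ (Subgroup.mem_zpowers τ)

/-- A **Kummer datum** for `p`: a `p`-th root `θ ∈ ℚ̄` of an element `α` of `K = ℚ(ζ)`,
not in `K`, unramified outside `p`, split at `p`, and in the `ω²`-eigenspace. -/
structure KummerDatum (p : ℕ) (ζ α θ : Qb) : Prop where
  prim : IsPrimitiveRoot ζ p
  alpha_mem : α ∈ IntermediateField.adjoin ℚ {ζ}
  pow_eq : θ ^ p = α
  ne_zero : θ ≠ 0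
  not_mem : θ ∉ IntermediateField.adjoin ℚ {ζ}
  unram : ∀ ℓ : ℕ, ℓ.Prime → ℓ ≠ p → ∀ A : ValuationSubring Qb, A.LiesOverPrime ℓ →
    ∀ σ ∈ A.inertiaSubgroupIn ℚ, σ θ = θ
  split : ∀ A : ValuationSubring Qb, A.LiesOverPrime p →
    ∀ σ ∈ A.decompositionSubgroup ℚ, σ ζ = ζ → σ θ = θ
  eigen : ∀ (τ : GQ) (a : ℕ), τ ζ = ζ ^ a →
    ∃ c ∈ IntermediateField.adjoin ℚ {ζ}, τ θ = c * θ ^ (a ^ 2)

/-- The core statement: there is no Kummer datum. -/
def Core (p : ℕ) : Prop := ∀ ζ α θ : Qb, ¬ KummerDatum p ζ α θ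


end kummer

section resolvent

/-- The Lagrange resolvent `∑_{i<p} ζ^(i j) σ^i γ`. -/
noncomputable def resolvent (p : ℕ) (ζ : Qb) (σ : GQ) (γ : Qb) (j : ℕ) : Qb :=
  ∑ i ∈ Finset.range p, ζ ^ (i * j) * (σ ^ i) γ

theorem map_resolvent {p : ℕ} (hp : 0 < p) {ζ : Qb} (hζ : ζ ^ p = 1) {σ : GQ} (hσ : σ ζ = ζ)
    {γ : Qb} (hγ : (σ ^ p) γ = γ) (j : ℕ) :
    σ (resolvent p ζ σ γ j) = ζ ^ (j * (p - 1)) * resolvent p ζ σ γ j := by
  unfold resolvent
  set f : ℕ → Qb := fun i => ζ ^ ((i + (p - 1)) * j) * (σ ^ i) γ with hf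
  have hA : ∀ i, σ (ζ ^ (i * j) * (σ ^ i) γ) = f (i + 1) := by
    intro i
    rw [hf]
    simp only
    rw [map_mul, map_pow, hσ, pow_succ' σ i, AlgEquiv.mul_apply]
    congr 1
    have e : (i + 1 + (p - 1)) * j = i * j + p * j := by
      have : i + 1 + (p - 1) = i + p := by omega
      rw [this, add_mul]
    rw [e, pow_add, pow_mul ζ p j, hζ, one_pow, mul_one]
  have hB : ∀ i, ζ ^ (j * (p - 1)) * (ζ ^ (i * j) * (σ ^ i) γ) = f i := by
    intro i
    rw [hf]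
    simp only
    rw [← mul_assoc, ← pow_add]
    congr 2
    ring
  have hC : f p = f 0 := by
    rw [hf]
    simp only
    rw [hγ, pow_zero, AlgEquiv.one_apply, zero_add, add_mul, pow_add, pow_mul ζ p j, hζ, one_pow,
      one_mul]
  rw [map_sum, Finset.mul_sum]
  rw [Finset.sum_congr rfl (fun i _ => hA i), Finset.sum_congr rfl (fun i _ => hB i)]
  have h1 := Finset.sum_range_succ' f p
  have h2 := Finset.sum_range_succ f p
  rw [h2, hC] at h1
  exact (add_right_cancel h1).symm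

theorem sum_resolvent {p : ℕ} (hp : p.Prime) {ζ : Qb} (hζ : IsPrimitiveRoot ζ p) (σ : GQ)
    (γ : Qb) : ∑ j ∈ Finset.range p, resolvent p ζ σ γ j = (p : Qb) * γ := by
  unfold resolvent
  rw [Finset.sum_comm]
  have h1 : ∀ i ∈ Finset.range p, ∑ j ∈ Finset.range p, ζ ^ (i * j) * (σ ^ i) γ =
      (∑ j ∈ Finset.range p, (ζ ^ i) ^ j) * (σ ^ i) γ := by
    intro i _
    rw [Finset.sum_mul]
    refine Finset.sum_congr rfl (fun j _ => ?_)
    rw [pow_mul]
  rw [Finset.sum_congr rfl h1]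
  rw [Finset.sum_eq_single 0]
  · simp
  · intro i hi hi0
    have hip : i < p := Finset.mem_range.mp hi
    have hcop : i.Coprime p :=
      (Nat.coprime_comm.mp ((Nat.Prime.coprime_iff_not_dvd hp).mpr
        (Nat.not_dvd_of_pos_of_lt (Nat.pos_of_ne_zero hi0) hip)))
    have := (hζ.pow_of_coprime i hcop).geom_sum_eq_zero hp.one_lt
    rw [this, zero_mul]
  · intro h0
    exact absurd (Finset.mem_range.mpr hp.pos) h0


end resolvent

section main

variable {p : ℕ} [Fact p.Prime] {V : Type} [AddCommGroup V] [Module (ZMod p) V]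
  [DistribMulAction GQ V] [SMulCommClass GQ (ZMod p) V] {C : Submodule (ZMod p) V}

/-- **Non-split case.** A non-trivial action of `G_K` on `V` produces a Kummer datum. -/
theorem exists_kummerDatum (h : IsAdmissibleExtensionCts p V C) {ζ : Qb}
    (hζ : IsPrimitiveRoot ζ p) {σ₁ : GQ} (hσ₁ : σ₁ ζ = ζ) {x₁ : V} (hx₁ : σ₁ • x₁ ≠ x₁) :
    ∃ α θ : Qb, KummerDatum p ζ α θ := by
  have hp : p.Prime := Fact.out
  have hA := h.toIsAdmissibleExtension
  obtain ⟨x₀, hx₀⟩ := exists_not_mem hA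
  have hζp : ζ ^ p = 1 := hζ.pow_eq_one
  have hχ₁ : chi p σ₁ = 1 := chi_eq_one_of_map_eq p σ₁ hζ hσ₁
  have hσ₁N : σ₁ ∉ actKer V := fun hmem => hx₁ (hmem x₁)
  have hb₁ : σ₁ • x₀ - x₀ ≠ 0 := fun h0 =>
    hσ₁N (mem_actKer_of_fix hA hx₀ (sub_eq_zero.mp h0))
  have hb₁C : σ₁ • x₀ - x₀ ∈ C := smul_sub_mem hA hχ₁ x₀
  -- `N ≤ H`
  have hNH : ∀ n ∈ actKer V, n ζ = ζ := fun n hn =>
    map_eq_of_chi_eq_one p n hζp (chi_eq_one_of_mem_actKer hA hn)
  -- stabiliser of `ζ`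
  have hS : ∀ g : GQ, g ∈ MulAction.stabilizer GQ ζ ↔ g ζ = ζ := fun g => by
    rw [MulAction.mem_stabilizer_iff]; rfl
  have hσ₁pow : ∀ k : ℕ, (σ₁ ^ k) ζ = ζ := fun k =>
    (hS _).mp (Subgroup.pow_mem _ ((hS σ₁).mpr hσ₁) k)
  -- decomposition of `H = ⟨σ₁⟩ N`
  have hdecomp : ∀ τ : GQ, τ ζ = ζ → ∃ k : ℕ, ∃ n ∈ actKer V, τ = σ₁ ^ k * n := by
    intro τ hτ
    have hχτ : chi p τ = 1 := chi_eq_one_of_map_eq p τ hζ hτ
    obtain ⟨t, ht⟩ := exists_smul_eq_of_mem hA hb₁C hb₁ (smul_sub_mem hA hχτ x₀)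
    refine ⟨t.val, (σ₁ ^ t.val)⁻¹ * τ, ?_, by group⟩
    have hnζ : ((σ₁ ^ t.val)⁻¹ * τ) ζ = ζ :=
      (hS _).mp (Subgroup.mul_mem _ (Subgroup.inv_mem _ (Subgroup.pow_mem _ ((hS σ₁).mpr hσ₁) _))
        ((hS τ).mpr hτ))
    have hχn : chi p ((σ₁ ^ t.val)⁻¹ * τ) = 1 := chi_eq_one_of_map_eq p _ hζ hnζ
    apply mem_actKer_of_fix hA hx₀
    have e := mul_smul_sub hA (σ := σ₁ ^ t.val) hχn x₀
    rw [mul_inv_cancel_left, pow_smul_sub hA hχ₁, ht] at e
    have e2 : t.val • (σ₁ • x₀ - x₀) = t • (σ₁ • x₀ - x₀) := by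
      have : NeZero p := ⟨hp.ne_zero⟩
      rw [← Nat.cast_smul_eq_nsmul (ZMod p), ZMod.natCast_zmod_val]
    rw [e2] at e
    have e3 : ((σ₁ ^ t.val)⁻¹ * τ) • x₀ - x₀ = 0 := by
      have := add_left_cancel (a := t • (σ₁ • x₀ - x₀)) (b := ((σ₁ ^ t.val)⁻¹ * τ) • x₀ - x₀)
        (c := 0) (by rw [add_zero]; exact e.symm)
      exact this
    exact sub_eq_zero.mp e3
  -- `σ₁ ^ p ∈ N`
  have hσ₁p : σ₁ ^ p ∈ actKer V := by
    apply mem_actKer_of_fix hA hx₀
    have e := pow_smul_sub hA hχ₁ x₀ p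
    have e2 : p • (σ₁ • x₀ - x₀) = 0 := by
      rw [← Nat.cast_smul_eq_nsmul (ZMod p), ZMod.natCast_self, zero_smul]
    rw [e2] at e
    exact sub_eq_zero.mp e
  -- the kernel is closed, so the Galois correspondence applies
  have hopen : IsOpen ((actKer V : Subgroup GQ) : Set GQ) := h.open_kernel
  have hclosed : IsClosed ((actKer V : Subgroup GQ) : Set GQ) :=
    Subgroup.isClosed_of_isOpen _ hopen
  let Ncl : ClosedSubgroup GQ := ⟨actKer V, hclosed⟩
  have hfix := InfiniteGalois.fixingSubgroup_fixedField (k := ℚ) (K := AlgebraicClosure ℚ) Ncl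
  have hγ : ∃ γ : Qb, (∀ n ∈ actKer V, n γ = γ) ∧ σ₁ γ ≠ γ := by
    by_contra hcon
    push Not at hcon
    apply hσ₁N
    have : σ₁ ∈ (IntermediateField.fixedField (actKer V : Subgroup GQ)).fixingSubgroup := by
      rw [IntermediateField.mem_fixingSubgroup_iff]
      intro x hx
      rw [IntermediateField.mem_fixedField_iff] at hx
      exact hcon x hx
    have h2 : σ₁ ∈ (Ncl : Subgroup GQ) := by
      rw [← hfix]; exact this
    exact h2
  obtain ⟨γ, hγN, hγσ⟩ := hγ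
  have hγp : (σ₁ ^ p) γ = γ := hγN _ hσ₁p
  -- resolvents
  have hR1 := fun j => map_resolvent hp.pos hζp hσ₁ hγp j
  have hR2 := sum_resolvent hp hζ σ₁ γ
  have hR3 : ∀ j, ∀ n ∈ actKer V, n (resolvent p ζ σ₁ γ j) = resolvent p ζ σ₁ γ j := by
    intro j n hn
    unfold resolvent
    rw [map_sum]
    refine Finset.sum_congr rfl (fun i _ => ?_)
    rw [map_mul, map_pow, hNH n hn]
    congr 1
    have e1 : n ((σ₁ ^ i) γ) = (σ₁ ^ i) (((σ₁ ^ i)⁻¹ * n * σ₁ ^ i) γ) := by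
      have hg : σ₁ ^ i * ((σ₁ ^ i)⁻¹ * n * σ₁ ^ i) = n * σ₁ ^ i := by group
      calc n ((σ₁ ^ i) γ) = (n * σ₁ ^ i) γ := rfl
        _ = (σ₁ ^ i * ((σ₁ ^ i)⁻¹ * n * σ₁ ^ i)) γ := by rw [hg]
        _ = (σ₁ ^ i) (((σ₁ ^ i)⁻¹ * n * σ₁ ^ i) γ) := rfl
    rw [e1, hγN _ (actKer_normal' n (σ₁ ^ i) hn)]
  have hj : ∃ j, 0 < j ∧ j < p ∧ resolvent p ζ σ₁ γ j ≠ 0 := by
    by_contra hcon
    push Not at hcon
    have hsum : ∑ j ∈ Finset.range p, resolvent p ζ σ₁ γ j = resolvent p ζ σ₁ γ 0 := by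
      apply Finset.sum_eq_single 0
      · intro j hj hj0
        exact hcon j (Nat.pos_of_ne_zero hj0) (Finset.mem_range.mp hj)
      · intro h0
        exact absurd (Finset.mem_range.mpr hp.pos) h0
    rw [hR2] at hsum
    have h0 := hR1 0
    rw [← hsum] at h0
    simp only [zero_mul, pow_zero, one_mul, map_mul, map_natCast] at h0
    have hp0 : (p : Qb) ≠ 0 := Nat.cast_ne_zero.mpr hp.ne_zero
    exact hγσ (mul_left_cancel₀ hp0 h0)
  obtain ⟨j, hj0, hjp, hθ0⟩ := hj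
  set θ := resolvent p ζ σ₁ γ j with hθdef
  set e := j * (p - 1) with hedef
  have hθσ : σ₁ θ = ζ ^ e * θ := hR1 j
  have hθN : ∀ n ∈ actKer V, n θ = θ := hR3 j
  have hζe : ζ ^ e ≠ 1 := by
    intro h1
    have hdvd := (hζ.pow_eq_one_iff_dvd e).mp h1
    rcases (Nat.Prime.dvd_mul hp).mp hdvd with h2 | h2
    · exact Nat.not_dvd_of_pos_of_lt hj0 hjp h2
    · have : 0 < p - 1 := by have := hp.two_le; omega
      exact Nat.not_dvd_of_pos_of_lt this (by omega) h2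
  have hθpow : ∀ k : ℕ, (σ₁ ^ k) θ = ζ ^ (e * k) * θ := by
    intro k
    induction k with
    | zero => simp
    | succ k ih =>
      rw [pow_succ, AlgEquiv.mul_apply, hθσ, map_mul, map_pow, hσ₁pow k, ih, ← mul_assoc,
        ← pow_add]
      congr 2
      ring
  -- an element fixed by `σ₁` and by `N` is in `K`
  have hK : ∀ x : Qb, σ₁ x = x → (∀ n ∈ actKer V, n x = x) →
      x ∈ IntermediateField.adjoin ℚ {ζ} := by
    intro x hx1 hxN
    apply mem_adjoin_of_fixed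
    intro τ hτ
    obtain ⟨k, n, hn, rfl⟩ := hdecomp τ hτ
    rw [AlgEquiv.mul_apply, hxN n hn]
    have : ∀ k : ℕ, (σ₁ ^ k) x = x := by
      intro k
      induction k with
      | zero => simp
      | succ k ih => rw [pow_succ, AlgEquiv.mul_apply, hx1, ih]
    exact this k
  refine ⟨θ ^ p, θ, ⟨hζ, ?_, rfl, hθ0, ?_, ?_, ?_, ?_⟩⟩
  · -- α ∈ K
    apply hK
    · rw [map_pow, hθσ, mul_pow, ← pow_mul, mul_comm e p, pow_mul, hζp, one_pow, one_mul]
    · intro n hn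
      rw [map_pow, hθN n hn]
  · -- θ ∉ K
    intro hmem
    have h1 := fixed_of_mem_adjoin hσ₁ hmem
    rw [hθσ] at h1
    have h2 : (ζ ^ e - 1) * θ = 0 := by rw [sub_mul, one_mul, h1, sub_self]
    rcases mul_eq_zero.mp h2 with h3 | h3
    · exact hζe (sub_eq_zero.mp h3)
    · exact hθ0 h3
  · -- unramified outside p
    intro ℓ hℓ hℓp A hAℓ σ hσ
    exact hθN σ (fun v => hA.unramified_outside ℓ hℓ hℓp A hAℓ σ hσ v)
  · -- split at p
    intro A hAp σ hσD hσζ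
    obtain ⟨C', hC'stab, hC'compl⟩ := hA.locally_split A hAp
    have hχσ : chi p σ = 1 := chi_eq_one_of_map_eq p σ hζ hσζ
    apply hθN σ
    intro v
    obtain ⟨c, c', hc, hc', rfl⟩ := Submodule.codisjoint_iff_exists_add_eq.mp hC'compl.codisjoint v
    have h1 : σ • c' - c' ∈ C := smul_sub_mem hA hχσ c'
    have h2 : σ • c' - c' ∈ C' := C'.sub_mem (hC'stab σ hσD c' hc') hc'
    have h3 : σ • c' - c' = 0 := (Submodule.disjoint_def.mp hC'compl.disjoint) _ h1 h2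
    rw [smul_add, hA.fixed_sub σ c hc, sub_eq_zero.mp h3]
  · -- eigenvector property
    intro τ a hτ
    have hχτ : chi p τ = (a : ZMod p) := chi_eq_of_map_eq_pow p τ hζ hτ
    -- `τ⁻¹ σ₁ τ` fixes `ζ`
    have hconjζ : (τ⁻¹ * σ₁ * τ) ζ = ζ := by
      rw [AlgEquiv.mul_apply, AlgEquiv.mul_apply, hτ, map_pow, hσ₁, ← hτ]
      change τ⁻¹ (τ ζ) = ζ
      rw [← AlgEquiv.mul_apply, inv_mul_cancel, AlgEquiv.one_apply]
    have hχconj : chi p (τ⁻¹ * σ₁ * τ) = 1 := chi_eq_one_of_map_eq p _ hζ hconjζ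
    -- value of the cocycle on the conjugate
    have hbconj : (τ⁻¹ * σ₁ * τ) • x₀ - x₀ = (a : ZMod p) • (σ₁ • x₀ - x₀) := by
      have hc : τ • x₀ - chi p τ • x₀ ∈ C := by
        have := hA.cyclo_quot τ x₀
        rwa [cycloExp_cast] at this
      set c := τ • x₀ - chi p τ • x₀ with hcdef
      have e1 : τ • x₀ = chi p τ • x₀ + c := by rw [hcdef]; abel
      have e2 : σ₁ • τ • x₀ - τ • x₀ = chi p τ • (σ₁ • x₀ - x₀) := by
        rw [e1, smul_add, smul_comm σ₁ (chi p τ) x₀, hA.fixed_sub σ₁ c hc, smul_sub]; abel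
      have e3 : σ₁ • τ • x₀ - τ • x₀ ∈ C := smul_sub_mem hA hχ₁ (τ • x₀)
      have e4 : (τ⁻¹ * σ₁ * τ) • x₀ - x₀ = τ⁻¹ • (σ₁ • τ • x₀ - τ • x₀) := by
        rw [mul_smul, mul_smul, smul_sub, inv_smul_smul]
      rw [e4, hA.fixed_sub τ⁻¹ _ e3, e2, hχτ]
    -- hence `τ⁻¹ σ₁ τ = σ₁ ^ a * n`
    have hconj : ∃ n ∈ actKer V, τ⁻¹ * σ₁ * τ = σ₁ ^ a * n := by
      refine ⟨(σ₁ ^ a)⁻¹ * (τ⁻¹ * σ₁ * τ), ?_, by group⟩
      have hnζ : ((σ₁ ^ a)⁻¹ * (τ⁻¹ * σ₁ * τ)) ζ = ζ :=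
        (hS _).mp (Subgroup.mul_mem _ (Subgroup.inv_mem _ (Subgroup.pow_mem _ ((hS σ₁).mpr hσ₁) _))
          ((hS _).mpr hconjζ))
      have hχn : chi p ((σ₁ ^ a)⁻¹ * (τ⁻¹ * σ₁ * τ)) = 1 := chi_eq_one_of_map_eq p _ hζ hnζ
      apply mem_actKer_of_fix hA hx₀
      have e := mul_smul_sub hA (σ := σ₁ ^ a) hχn x₀
      rw [mul_inv_cancel_left, pow_smul_sub hA hχ₁, hbconj,
        ← Nat.cast_smul_eq_nsmul (ZMod p)] at e
      have e3 : ((σ₁ ^ a)⁻¹ * (τ⁻¹ * σ₁ * τ)) • x₀ - x₀ = 0 := by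
        have := add_left_cancel (a := (a : ZMod p) • (σ₁ • x₀ - x₀))
          (b := ((σ₁ ^ a)⁻¹ * (τ⁻¹ * σ₁ * τ)) • x₀ - x₀) (c := 0) (by rw [add_zero]; exact e.symm)
        exact this
      exact sub_eq_zero.mp e3
    obtain ⟨n, hn, hconjeq⟩ := hconj
    -- `σ₁ (τ θ) = ζ ^ (e * a * a) * τ θ`
    have hστ : σ₁ (τ θ) = ζ ^ (e * a * a) * τ θ := by
      have e1 : σ₁ (τ θ) = τ ((τ⁻¹ * σ₁ * τ) θ) := by
        have hg : τ * (τ⁻¹ * σ₁ * τ) = σ₁ * τ := by group
        calc σ₁ (τ θ) = (σ₁ * τ) θ := rfl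
          _ = (τ * (τ⁻¹ * σ₁ * τ)) θ := by rw [hg]
          _ = τ ((τ⁻¹ * σ₁ * τ) θ) := rfl
      rw [e1, hconjeq, AlgEquiv.mul_apply, hθN n hn, hθpow a, map_mul, map_pow, hτ, ← pow_mul]
      congr 2
      ring
    have hθa0 : θ ^ (a ^ 2) ≠ 0 := pow_ne_zero _ hθ0
    refine ⟨τ θ * (θ ^ (a ^ 2))⁻¹, ?_, ?_⟩
    · apply hK
      · rw [map_mul, map_inv₀, map_pow, hστ, hθσ, mul_pow, ← pow_mul]
        have e5 : e * a * a = e * a ^ 2 := by ring
        rw [e5]
        have hz : ζ ^ (e * a ^ 2) ≠ 0 := pow_ne_zero _ (hζ.ne_zero hp.ne_zero)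
        field_simp
      · intro n' hn'
        have e1 : n' (τ θ) = τ ((τ⁻¹ * n' * τ) θ) := by
          have hg : τ * (τ⁻¹ * n' * τ) = n' * τ := by group
          calc n' (τ θ) = (n' * τ) θ := rfl
            _ = (τ * (τ⁻¹ * n' * τ)) θ := by rw [hg]
            _ = τ ((τ⁻¹ * n' * τ) θ) := rfl
        rw [map_mul, map_inv₀, map_pow, hθN n' hn', e1, hθN _ (actKer_normal' n' τ hn')]
    · rw [mul_assoc, inv_mul_cancel₀ hθa0, mul_one]

/-- **M1 (reduction).** `ExtVanishingCts p` follows from the non-existence of Kummer data. -/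
theorem extVanishingCts_of_core {p : ℕ} [Fact p.Prime] (h3 : 3 ≤ p) (hcore : Core p) :
    ExtVanishingCts p := by
  intro V _ _ _ _ C h
  have hp : p.Prime := Fact.out
  have : NeZero p := ⟨hp.ne_zero⟩
  obtain ⟨ζ, hζ⟩ := HasEnoughRootsOfUnity.exists_primitiveRoot (AlgebraicClosure ℚ) p
  by_cases htriv : ∀ σ : GQ, σ ζ = ζ → ∀ v : V, σ • v = v
  · exact splitsGlobally_of_trivial h3 h.toIsAdmissibleExtension hζ htriv
  · push Not at htriv
    obtain ⟨σ₁, hσ₁, x₁, hx₁⟩ := htriv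
    obtain ⟨α, θ, hK⟩ := exists_kummerDatum h hζ hσ₁ hx₁
    exact absurd hK (hcore ζ α θ)

end main

end Fermat.Agent.S14.helper662
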