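import Mathlib

/-!
# S14, Thaine route, glue leaf (G1): the cyclotomic unit `E2`

Ring-level facts about `geo z b = ∑ i < b, z ^ i` for a primitive `p`-th root of unity `z`
in a domain, and about
`E2 z p = ∏ a ∈ Icc 1 (p-1), geo z (invRes p a) ^ (a ^ 2)`  (`invRes p a = ((a : ZMod p)⁻¹).val`):

* `geo z b` is a unit when `p ∤ b`; `E2 z p` is a unit;
* eigen-property: a ring hom `f` with `f z = z ^ c` satisfies
  `f (E2 z p) = E2 z p ^ (c ^ 2) * v ^ p` for a unit `v` (for `5 ≤ p`);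
* product identity `∏ a, (1 - z ^ invRes p a) ^ (a ^ 2) = E2 z p * (1 - z) ^ (∑ a, a ^ 2)`
  and `p ∣ ∑ a ∈ Icc 1 (p-1), a ^ 2`.
-/

namespace Fermat.Agent.S14.helper854

open Finset

/-- The geometric sum `1 + z + ⋯ + z ^ (b-1)`. -/
def geo {R : Type*} [CommRing R] (z : R) (b : ℕ) : R := ∑ i ∈ Finset.range b, z ^ i

/-- The inverse residue `a⁻¹ mod p`, as a natural number in `[0, p-1]`. -/
def invRes (p a : ℕ) : ℕ := ((a : ZMod p)⁻¹).val

/-- The cyclotomic unit `E2 = ∏_{a=1}^{p-1} geo(a⁻¹) ^ (a²)`. -/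
def E2 {R : Type*} [CommRing R] (z : R) (p : ℕ) : R :=
  ∏ a ∈ Finset.Icc 1 (p - 1), geo z (invRes p a) ^ (a ^ 2)

/-- The exponent sum `∑_{a=1}^{p-1} a²`. -/
def sqSum (p : ℕ) : ℕ := ∑ a ∈ Finset.Icc 1 (p - 1), a ^ 2

section ring

variable {R : Type*} [CommRing R]

theorem one_sub_mul_geo (z : R) (b : ℕ) : (1 - z) * geo z b = 1 - z ^ b := by
  unfold geo
  exact mul_neg_geom_sum z b

theorem map_geo {S : Type*} [CommRing S] (f : R →+* S) (z : R) (b : ℕ) :
    f (geo z b) = geo (f z) b := by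
  simp [geo, map_sum, map_pow]

theorem geo_one (z : R) : geo z 1 = 1 := by simp [geo]

/-- The product identity used by the consumer `(T')`. -/
theorem prod_one_sub_pow_eq (z : R) (p : ℕ) :
    ∏ a ∈ Finset.Icc 1 (p - 1), (1 - z ^ invRes p a) ^ (a ^ 2) =
      E2 z p * (1 - z) ^ sqSum p := by
  unfold E2 sqSum
  rw [← Finset.prod_pow_eq_pow_sum, ← Finset.prod_mul_distrib]
  refine Finset.prod_congr rfl fun a _ => ?_
  rw [← one_sub_mul_geo, mul_pow, mul_comm]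

end ring

theorem six_mul_sum_Icc_sq (n : ℕ) :
    6 * ∑ a ∈ Finset.Icc 1 n, a ^ 2 = n * (n + 1) * (2 * n + 1) := by
  induction n with
  | zero => simp
  | succ n ih =>
    rw [Finset.sum_Icc_succ_top (by omega), mul_add, ih]
    ring

theorem dvd_sqSum {p : ℕ} (hp : p.Prime) (h5 : 5 ≤ p) : p ∣ sqSum p := by
  have h6 : 6 * sqSum p = (p - 1) * p * (2 * (p - 1) + 1) := by
    unfold sqSum
    have hpp : p - 1 + 1 = p := by have := hp.pos; omega
    rw [six_mul_sum_Icc_sq, hpp]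
  have hdvd : p ∣ 6 * sqSum p := by
    rw [h6]
    exact Dvd.dvd.mul_right (Dvd.intro_left _ rfl) _
  rcases (Nat.Prime.dvd_mul hp).mp hdvd with h | h
  · exfalso
    have : p ≤ 6 := Nat.le_of_dvd (by norm_num) h
    interval_cases p
    · exact absurd h (by norm_num)
    · exact absurd hp (by norm_num)
  · exact h

section domain

variable {R : Type*} [CommRing R] [IsDomain R] {p : ℕ} {z : R}

theorem geo_congr (hp : 1 < p) (hz : IsPrimitiveRoot z p) {b b' : ℕ} (h : b ≡ b' [MOD p]) :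
    geo z b = geo z b' := by
  have h1 : (1 : R) - z ≠ 0 := sub_ne_zero.mpr (hz.ne_one hp).symm
  apply mul_left_cancel₀ h1
  rw [one_sub_mul_geo, one_sub_mul_geo, pow_eq_pow_mod b hz.pow_eq_one,
    pow_eq_pow_mod b' hz.pow_eq_one, h]

theorem geo_mul_geo (hp : 1 < p) (hz : IsPrimitiveRoot z p) (b c : ℕ) :
    geo z b * geo (z ^ b) c = geo z (b * c) := by
  have h1 : (1 : R) - z ≠ 0 := sub_ne_zero.mpr (hz.ne_one hp).symm
  apply mul_left_cancel₀ h1
  rw [← mul_assoc, one_sub_mul_geo, one_sub_mul_geo, one_sub_mul_geo, pow_mul]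

theorem isUnit_geo (hp : p.Prime) (hz : IsPrimitiveRoot z p) {b : ℕ} (hb : ¬ p ∣ b) :
    IsUnit (geo z b) :=
  hz.geom_sum_isUnit hp.two_le ((Nat.Prime.coprime_iff_not_dvd hp).mpr hb).symm

theorem not_dvd_of_mem_Icc {a : ℕ} (ha : a ∈ Finset.Icc 1 (p - 1)) : ¬ p ∣ a := by
  rw [Finset.mem_Icc] at ha
  exact Nat.not_dvd_of_pos_of_lt (by omega) (by omega)

theorem not_dvd_invRes (hp : p.Prime) {a : ℕ} (ha : ¬ p ∣ a) : ¬ p ∣ invRes p a := by
  have : Fact p.Prime := ⟨hp⟩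
  unfold invRes
  intro h
  have h0 : ((a : ZMod p)⁻¹) = 0 := by
    rw [← ZMod.natCast_zmod_val ((a : ZMod p)⁻¹)]
    exact (ZMod.natCast_eq_zero_iff _ _).mpr h
  rw [inv_eq_zero] at h0
  exact ha ((ZMod.natCast_eq_zero_iff _ _).mp h0)

theorem isUnit_E2 (hp : p.Prime) (hz : IsPrimitiveRoot z p) : IsUnit (E2 z p) := by
  unfold E2
  rw [IsUnit.prod_iff]
  intro a ha
  exact (isUnit_geo hp hz (not_dvd_invRes hp (not_dvd_of_mem_Icc ha))).pow _

omit [IsDomain R] in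
/-- Congruent exponents give the same power of a unit up to a `p`-th power of a unit. -/
theorem exists_pow_eq_pow_mul_pow {u : R} (hu : IsUnit u) {e f : ℕ} (h : e ≡ f [MOD p]) :
    ∃ w : Rˣ, u ^ e = u ^ f * (w : R) ^ p := by
  obtain ⟨u, rfl⟩ := hu
  rcases le_total e f with hef | hfe
  · obtain ⟨k, hk⟩ := (Nat.modEq_iff_dvd' hef).mp h
    refine ⟨u⁻¹ ^ k, ?_⟩
    have hf : f = e + p * k := by omega
    have : u ^ e = u ^ f * (u⁻¹ ^ k) ^ p := by
      rw [hf, pow_add, ← pow_mul, inv_pow, mul_comm k p, mul_inv_cancel_right]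
    exact_mod_cast congrArg Units.val this
  · obtain ⟨k, hk⟩ := (Nat.modEq_iff_dvd' hfe).mp h.symm
    refine ⟨u ^ k, ?_⟩
    have he : e = f + p * k := by omega
    have : u ^ e = u ^ f * (u ^ k) ^ p := by
      rw [he, pow_add, ← pow_mul, mul_comm k p]
    exact_mod_cast congrArg Units.val this

omit [IsDomain R] in
theorem exists_prod_pow_eq {ι : Type*} (s : Finset ι) (G : ι → R) (e f : ι → ℕ)
    (hG : ∀ i ∈ s, IsUnit (G i)) (h : ∀ i ∈ s, e i ≡ f i [MOD p]) :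
    ∃ w : Rˣ, ∏ i ∈ s, G i ^ e i = (∏ i ∈ s, G i ^ f i) * (w : R) ^ p := by
  classical
  induction s using Finset.induction_on with
  | empty => exact ⟨1, by simp⟩
  | insert i s hi ih =>
    obtain ⟨w, hw⟩ := ih (fun j hj => hG j (Finset.mem_insert_of_mem hj))
      (fun j hj => h j (Finset.mem_insert_of_mem hj))
    obtain ⟨w0, hw0⟩ := exists_pow_eq_pow_mul_pow (hG i (Finset.mem_insert_self i s))
      (h i (Finset.mem_insert_self i s))
    refine ⟨w0 * w, ?_⟩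
    rw [Finset.prod_insert hi, Finset.prod_insert hi, hw, hw0, Units.val_mul, mul_pow]
    ring

/-- **Eigen-property of `E2`** (ring-hom form). -/
theorem map_E2_eq (hp : p.Prime) (h5 : 5 ≤ p) (hz : IsPrimitiveRoot z p) (f : R →+* R) {c : ℕ}
    (hc : ¬ p ∣ c) (hf : f z = z ^ c) :
    ∃ v : Rˣ, f (E2 z p) = E2 z p ^ (c ^ 2) * (v : R) ^ p := by
  have : Fact p.Prime := ⟨hp⟩
  have hp1 : 1 < p := hp.one_lt
  have hc0 : (c : ZMod p) ≠ 0 := fun h => hc ((ZMod.natCast_eq_zero_iff _ _).mp h)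
  -- the reindexing maps
  set n : ℕ → ℕ := fun y => ((y : ZMod p) * (c : ZMod p)).val with hn
  set m : ℕ → ℕ := fun a => ((a : ZMod p) * (c : ZMod p)⁻¹).val with hm
  have hcast : ∀ {y : ℕ}, y ∈ Finset.Icc 1 (p - 1) → (y : ZMod p) ≠ 0 := fun hy h =>
    not_dvd_of_mem_Icc hy ((ZMod.natCast_eq_zero_iff _ _).mp h)
  have hmemval : ∀ x : ZMod p, x ≠ 0 → x.val ∈ Finset.Icc 1 (p - 1) := by
    intro x hx
    have h1 : x.val < p := ZMod.val_lt x
    have h2 : x.val ≠ 0 := fun h => hx ((ZMod.val_eq_zero x).mp h)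
    rw [Finset.mem_Icc]; omega
  have hvalcast : ∀ {y : ℕ}, y ∈ Finset.Icc 1 (p - 1) → ((y : ZMod p)).val = y := by
    intro y hy
    rw [Finset.mem_Icc] at hy
    exact ZMod.val_natCast_of_lt (by omega)
  -- step 1: multiply by `geo z c ^ sqSum p`
  have hstep1 : geo z c ^ sqSum p * f (E2 z p) =
      ∏ a ∈ Finset.Icc 1 (p - 1), geo z (c * invRes p a) ^ (a ^ 2) := by
    unfold E2 sqSum
    rw [map_prod, ← Finset.prod_pow_eq_pow_sum, ← Finset.prod_mul_distrib]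
    refine Finset.prod_congr rfl fun a _ => ?_
    rw [map_pow, map_geo, hf, ← mul_pow, geo_mul_geo hp1 hz]
  -- step 2: reindex
  have hstep2 : ∏ a ∈ Finset.Icc 1 (p - 1), geo z (c * invRes p a) ^ (a ^ 2) =
      ∏ y ∈ Finset.Icc 1 (p - 1), geo z (invRes p y) ^ (n y ^ 2) := by
    symm
    refine Finset.prod_nbij' n m ?_ ?_ ?_ ?_ ?_
    · intro y hy
      exact hmemval _ (mul_ne_zero (hcast hy) hc0)
    · intro a ha
      exact hmemval _ (mul_ne_zero (hcast ha) (inv_ne_zero hc0))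
    · intro y hy
      simp only [hn, hm]
      rw [ZMod.natCast_zmod_val, mul_assoc, mul_inv_cancel₀ hc0, mul_one, hvalcast hy]
    · intro a ha
      simp only [hn, hm]
      rw [ZMod.natCast_zmod_val, mul_assoc, inv_mul_cancel₀ hc0, mul_one, hvalcast ha]
    · intro y hy
      congr 1
      apply geo_congr hp1 hz
      rw [← ZMod.natCast_eq_natCast_iff]
      simp only [hn, invRes]
      rw [Nat.cast_mul, ZMod.natCast_zmod_val, ZMod.natCast_zmod_val, ZMod.natCast_zmod_val,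
        mul_inv, mul_comm (c : ZMod p), mul_assoc, inv_mul_cancel₀ hc0, mul_one]
  -- step 3: exponents mod `p`
  obtain ⟨w, hw⟩ := exists_prod_pow_eq (p := p) (Finset.Icc 1 (p - 1))
    (fun y => geo z (invRes p y)) (fun y => n y ^ 2) (fun y => y ^ 2 * c ^ 2)
    (fun y hy => isUnit_geo hp hz (not_dvd_invRes hp (not_dvd_of_mem_Icc hy)))
    (fun y hy => by
      rw [← ZMod.natCast_eq_natCast_iff]
      simp only [hn]
      push_cast
      rw [ZMod.natCast_zmod_val]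
      ring)
  have hE2pow : ∏ y ∈ Finset.Icc 1 (p - 1), geo z (invRes p y) ^ (y ^ 2 * c ^ 2) =
      E2 z p ^ (c ^ 2) := by
    unfold E2
    rw [← Finset.prod_pow]
    exact Finset.prod_congr rfl fun y _ => by rw [pow_mul]
  -- step 4: `geo z c ^ sqSum p` is a `p`-th power of a unit
  obtain ⟨k, hk⟩ := dvd_sqSum hp h5
  obtain ⟨g, hg⟩ := isUnit_geo hp hz hc
  refine ⟨w * (g ^ k)⁻¹, ?_⟩
  have hgp : geo z c ^ sqSum p = ((g ^ k : Rˣ) : R) ^ p := by
    rw [hk, ← hg, Units.val_pow_eq_pow_val, ← pow_mul, mul_comm]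
  have hmain : ((g ^ k : Rˣ) : R) ^ p * f (E2 z p) = E2 z p ^ (c ^ 2) * (w : R) ^ p := by
    have hw' : ∏ y ∈ Finset.Icc 1 (p - 1), geo z (invRes p y) ^ (n y ^ 2) =
        (∏ y ∈ Finset.Icc 1 (p - 1), geo z (invRes p y) ^ (y ^ 2 * c ^ 2)) * (w : R) ^ p := hw
    rw [← hgp, hstep1, hstep2, hw', hE2pow]
  have hcancel : f (E2 z p) = (((g ^ k)⁻¹ : Rˣ) : R) ^ p * (E2 z p ^ (c ^ 2) * (w : R) ^ p) := by
    rw [← hmain, ← mul_assoc, ← mul_pow, ← Units.val_mul, inv_mul_cancel, Units.val_one, one_pow,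
      one_mul]
  rw [hcancel, Units.val_mul, mul_pow]
  ring

end domain

section numberField

open NumberField

variable {K : Type*} [Field K] [NumberField K] {p : ℕ}

/-- `E2` as a unit of the ring of integers. -/
noncomputable def E2Unit (hp : p.Prime) {z : 𝓞 K} (hz : IsPrimitiveRoot z p) : (𝓞 K)ˣ :=
  (isUnit_E2 hp hz).unit

omit [NumberField K] in
@[simp] theorem coe_E2Unit (hp : p.Prime) {z : 𝓞 K} (hz : IsPrimitiveRoot z p) :
    ((E2Unit hp hz : (𝓞 K)ˣ) : 𝓞 K) = E2 z p := rfl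

/-- **`E2` is an `ω²`-eigen unit**: if `σ z = z ^ c` then `σ E2 = E2 ^ (c²) * v ^ p`
for a unit `v` of `𝓞 K`. -/
theorem sigma_E2_eq (hp : p.Prime) (h5 : 5 ≤ p) {z : 𝓞 K} (hz : IsPrimitiveRoot z p)
    (σ : K ≃ₐ[ℚ] K) {c : ℕ} (hσ : σ (z : K) = (z : K) ^ c) :
    ∃ v : (𝓞 K)ˣ, σ ((E2 z p : 𝓞 K) : K) = ((E2 z p : 𝓞 K) : K) ^ (c ^ 2) * ((v : 𝓞 K) : K) ^ p := by
  set f : 𝓞 K →+* 𝓞 K := RingOfIntegers.mapRingHom (σ : K →+* K) with hfdef
  have hf : f z = z ^ c := by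
    apply RingOfIntegers.ext
    rw [hfdef, RingOfIntegers.mapRingHom_apply]
    push_cast
    exact hσ
  have hc : ¬ p ∣ c := by
    intro hdvd
    have h1 : (z : K) ^ c = 1 := by
      obtain ⟨k, rfl⟩ := hdvd
      have : z ^ (p * k) = 1 := by rw [pow_mul, hz.pow_eq_one, one_pow]
      exact_mod_cast congrArg (fun x : 𝓞 K => (x : K)) this
    rw [h1] at hσ
    have h2 : (z : K) = 1 := by
      have := σ.injective (hσ.trans (map_one σ).symm)
      exact this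
    have h3 : z = 1 := RingOfIntegers.ext (by simpa using h2)
    exact hz.ne_one hp.one_lt h3
  obtain ⟨v, hv⟩ := map_E2_eq hp h5 hz f hc hf
  refine ⟨v, ?_⟩
  have := congrArg (fun x : 𝓞 K => (x : K)) hv
  simp only [hfdef, RingOfIntegers.mapRingHom_apply] at this
  rw [show σ ((E2 z p : 𝓞 K) : K) = (σ : K →+* K) ((E2 z p : 𝓞 K) : K) from rfl, this]
  push_cast
  rfl

end numberField

end Fermat.Agent.S14.helper854
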