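import Fermat.Agent.S14.helper1934_ThaineSpec
import Fermat.Agent.S14.helper854_E2Eigen

/-!
# S14, Thaine route: `helper1934.Stmt_E2 p` (verbatim Spec shape)

`E2` is a unit of `𝓞 K` and an `ω²`-eigenvector modulo `p`-th powers.
-/

namespace Fermat.Agent.S14.helper854

open NumberField

theorem spec_E2_eq {K : Type} [Field K] [NumberField K] (p : ℕ) (hp : 0 < p) (ζ : 𝓞 K) :
    helper1934.E2 p ζ = E2 ζ p := by
  unfold helper1934.E2 E2 helper1934.cyc geo invRes
  have hIco : Finset.Ico 1 p = Finset.Icc 1 (p - 1) := by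
    ext a
    simp only [Finset.mem_Ico, Finset.mem_Icc]
    omega
  rw [hIco]

/-- `helper1934.Stmt_E2 p`, verbatim. -/
theorem stmt_E2 (p : ℕ) [hpF : Fact p.Prime] : helper1934.Stmt_E2 p := by
  intro K _ _ _ ζ hζ h5
  have hp : p.Prime := hpF.out
  refine ⟨E2Unit hp hζ, ?_, ?_⟩
  · rw [coe_E2Unit, spec_E2_eq p hp.pos]
  · intro g a hg
    have hc : ¬ p ∣ a := by
      intro hdvd
      obtain ⟨k, rfl⟩ := hdvd
      have h1 : g ζ = 1 := by rw [hg, pow_mul, hζ.pow_eq_one, one_pow]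
      have h2 : ζ = 1 := g.injective (h1.trans (map_one g).symm)
      exact hζ.ne_one hp.one_lt h2
    obtain ⟨v, hv⟩ := map_E2_eq hp h5 hζ (g : 𝓞 K →+* 𝓞 K) hc hg
    exact ⟨v, by simpa [coe_E2Unit] using hv⟩

end Fermat.Agent.S14.helper854
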