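import Fermat.Agent.S14.helper1934_ThaineSpec
import Fermat.Agent.S14.helper3506_Core
import Fermat.Agent.S14.helper1122_NoClass
import Fermat.Agent.S14.helper4440_LocalSpec
import Fermat.Agent.S14.helper854_StmtE2
import Fermat.Agent.S14.helper5605_CoreThree
import Fermat.Agent.S14.helper4347_UnitSpec
import Fermat.Agent.S14.helper662_Reduction

/-!
# S14: assembly skeleton (captain file, helper14)

Hypothesis-passing top-level assembly of the Thaine route.  The remaining hypotheses are the
Spec statements that are not yet closed; each closed leaf removes one hypothesis.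
-/

namespace Fermat.Agent.S14.helper14

/-- `Stmt_Core p` for every prime `p ≥ 3` from the one leaf still to be closed. -/
theorem stmt_Core_of {p : ℕ} [Fact p.Prime] (h3 : 3 ≤ p)
    (hNoChar : 5 ≤ p → helper1934.Stmt_NoChar p) :
    helper1934.Stmt_Core p := by
  rcases Nat.lt_or_ge p 5 with h | h5
  · have hp : p = 3 := by
      have hpr : p.Prime := Fact.out
      interval_cases p
      · rfl
      · exact absurd hpr (by decide)
    subst hp
    exact helper5605.stmt_Core_three
  · exact helper3506.core_of p h5 (helper1122.stmt_NoClass_of_NoChar p (hNoChar h5))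
      (helper4347.stmt_Units p) (helper4440.stmt_Local p) (helper854.stmt_E2 p)

/-- Top-level assembly: the frozen statement from the open leaves
(`Stmt_NoChar` for `p ≥ 5` and the transport `Stmt_Core p → helper662.Core p`). -/
theorem extVanishingCts_of {p : ℕ} [Fact p.Prime] (h3 : 3 ≤ p)
    (hNoChar : 5 ≤ p → helper1934.Stmt_NoChar p)
    (hTR : helper1934.Stmt_Core p → helper662.Core p) :
    ExtCitation.ExtVanishingCts p :=
  helper662.extVanishingCts_of_core h3 (hTR (stmt_Core_of h3 hNoChar))

end Fermat.Agent.S14.helper14
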