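import Fermat.Agent.S14.helper2850_ZetaLemma
import Fermat.Agent.S14.helper1934_ThaineSpec

/-!
# S14, Thaine route, package A: the elementary prime-sum bounds

Author: helper2850.  Proves, in the exact shapes of `helper1934_ThaineSpec`:

* `stmt_IdealZeta  : helper1934.Stmt_IdealZeta`
* `stmt_PrimeZeta  : helper1934.Stmt_PrimeZeta`
* `stmt_NonDegOne  : helper1934.Stmt_NonDegOne`

and the general upper bound `primeSumUpper` (every finite sum of `N(v)^{-s}` over distinct primes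
is at most `log (1/(s-1)) + B`), also in tsum form over an arbitrary set of primes
(`primeIdealZetaSum_le`).
-/

namespace Fermat.Agent.S14.helper2850

open NumberField Ideal Filter Topology IsDedekindDomain

noncomputable section

variable (K : Type*) [Field K] [NumberField K]

theorem wt_anti {s t : ℝ} (hs : 0 < s) (hst : s ≤ t) (I : Ideal (𝓞 K)) : wt K t I ≤ wt K s I := by
  unfold wt
  rcases Nat.eq_zero_or_pos (absNorm I) with h | h
  · rw [h, Nat.cast_zero, Real.zero_rpow (by linarith), Real.zero_rpow (by linarith)]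
  · exact Real.rpow_le_rpow_of_exponent_le (by exact_mod_cast h) (by linarith)

theorem Zr_anti {s t : ℝ} (hs : 1 < s) (hst : s ≤ t) : Zr K t ≤ Zr K s :=
  (summable_wt K (lt_of_lt_of_le hs hst)).tsum_le_tsum (wt_anti K (by linarith) hst)
    (summable_wt K hs)

theorem one_le_Zr {s : ℝ} (hs : 1 < s) : 1 ≤ Zr K s := by
  have := (summable_wt K hs).le_tsum ⊤ (fun I _ ↦ wt_nonneg s I)
  rwa [wt_top] at this

/-- `(s - 1) ζ_K(s)` is bounded above and below by positive constants on `(1, 2)`. -/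
theorem Zr_bounds : ∃ m M : ℝ, 0 < m ∧ ∀ s : ℝ, 1 < s → s < 2 →
    m ≤ (s - 1) * Zr K s ∧ (s - 1) * Zr K s ≤ M := by
  have hρ := dedekindZeta_residue_pos K
  set ρ := dedekindZeta_residue K with hρdef
  have hev : ∀ᶠ s in 𝓝[>] (1 : ℝ), (s - 1) * Zr K s ∈ Set.Ioo (ρ / 2) (ρ + 1) :=
    (tendsto_Zr K).eventually (Ioo_mem_nhds (by linarith) (by linarith))
  obtain ⟨u, hu, hsub⟩ := mem_nhdsGT_iff_exists_Ioo_subset.mp hev
  have hu1 : (1 : ℝ) < u := hu
  set δ := min (u - 1) 1 / 2 with hδdef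
  have hδ0 : 0 < δ := by
    rw [hδdef]
    have : 0 < min (u - 1) 1 := lt_min (by linarith) one_pos
    linarith
  have hδu : 1 + δ < u := by
    have : min (u - 1) 1 ≤ u - 1 := min_le_left _ _
    rw [hδdef]; linarith
  have hδ1 : δ < 1 := by
    have : min (u - 1) 1 ≤ 1 := min_le_right _ _
    rw [hδdef]; linarith
  refine ⟨min (ρ / 2) δ, max (ρ + 1) (Zr K (1 + δ)), lt_min (by linarith) hδ0, ?_⟩
  intro s hs1 hs2
  rcases lt_or_ge s (1 + δ) with h | h
  · have hmem := hsub (show s ∈ Set.Ioo 1 u from ⟨hs1, by linarith⟩)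
    exact ⟨(min_le_left _ _).trans hmem.1.le, hmem.2.le.trans (le_max_left _ _)⟩
  · have h1 := one_le_Zr K hs1
    have h2 := Zr_anti K (by linarith : (1 : ℝ) < 1 + δ) h
    constructor
    · calc min (ρ / 2) δ ≤ δ := min_le_right _ _
        _ ≤ s - 1 := by linarith
        _ = (s - 1) * 1 := (mul_one _).symm
        _ ≤ (s - 1) * Zr K s := mul_le_mul_of_nonneg_left h1 (by linarith)
    · calc (s - 1) * Zr K s ≤ 1 * Zr K (1 + δ) :=
            mul_le_mul (by linarith) h2 (Zr_nonneg K s) zero_le_one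
        _ = Zr K (1 + δ) := one_mul _
        _ ≤ _ := le_max_right _ _

omit [NumberField K] in
theorem asIdeal_injective :
    Function.Injective (fun v : HeightOneSpectrum (𝓞 K) ↦ v.asIdeal) :=
  fun _ _ h ↦ HeightOneSpectrum.ext h

/-- **Upper bound for prime sums**: every finite sum of `N(v)^{-s}` over distinct primes is at
most `log (1/(s-1)) + B`, with `B` independent of `s ∈ (1,2)` and of the finite set. -/
theorem primeSumUpper : ∃ B : ℝ, ∀ s : ℝ, 1 < s → s < 2 →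
    ∀ T : Finset (HeightOneSpectrum (𝓞 K)),
      ∑ w ∈ T, (Ideal.absNorm w.asIdeal : ℝ) ^ (-s) ≤ Real.log (1 / (s - 1)) + B := by
  classical
  obtain ⟨m, M, hm, hb⟩ := Zr_bounds K
  refine ⟨Real.log M, fun s hs1 hs2 T ↦ ?_⟩
  have hpos : 0 < s - 1 := by linarith
  have hZ1 := one_le_Zr K hs1
  have hM : 0 < M := lt_of_lt_of_le (mul_pos hpos (by linarith)) (hb s hs1 hs2).2
  have h1 : ∑ w ∈ T, (Ideal.absNorm w.asIdeal : ℝ) ^ (-s) =
      ∑ 𝔭 ∈ T.image (fun v : HeightOneSpectrum (𝓞 K) ↦ v.asIdeal), wt K s 𝔭 := by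
    rw [Finset.sum_image (fun x _ y _ h ↦ asIdeal_injective K h)]
    rfl
  have h2 : Real.exp (∑ 𝔭 ∈ T.image (fun v : HeightOneSpectrum (𝓞 K) ↦ v.asIdeal), wt K s 𝔭) ≤
      Zr K s := by
    refine exp_sum_le_Zr K hs1 _ (fun 𝔭 h𝔭 ↦ ?_)
    obtain ⟨v, -, rfl⟩ := Finset.mem_image.mp h𝔭
    exact v.prime
  have h3 : Zr K s ≤ M / (s - 1) := by
    rw [le_div_iff₀ hpos, mul_comm]
    exact (hb s hs1 hs2).2
  rw [h1]
  calc _ = Real.log (Real.exp (∑ 𝔭 ∈ T.image (fun v : HeightOneSpectrum (𝓞 K) ↦ v.asIdeal),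
          wt K s 𝔭)) := (Real.log_exp _).symm
    _ ≤ Real.log (M / (s - 1)) := Real.log_le_log (Real.exp_pos _) (h2.trans h3)
    _ = Real.log (1 / (s - 1)) + Real.log M := by
        rw [div_eq_mul_one_div, Real.log_mul hM.ne' (one_div_pos.mpr hpos).ne', add_comm]

theorem summable_primes {s : ℝ} (hs : 1 < s) :
    Summable fun v : HeightOneSpectrum (𝓞 K) => (Ideal.absNorm v.asIdeal : ℝ) ^ (-s) :=
  (summable_wt K hs).comp_injective (asIdeal_injective K)

/-- Tsum form of `primeSumUpper` over an arbitrary set of primes. -/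
theorem primeIdealZetaSum_le : ∃ B : ℝ, ∀ s : ℝ, 1 < s → s < 2 →
    ∀ S : Set (HeightOneSpectrum (𝓞 K)),
      NumberField.Set.primeIdealZetaSum S s ≤ Real.log (1 / (s - 1)) + B := by
  classical
  obtain ⟨B, hB⟩ := primeSumUpper K
  refine ⟨B, fun s hs1 hs2 S ↦ ?_⟩
  rw [NumberField.Set.primeIdealZetaSum_def]
  refine Real.tsum_le_of_sum_le (fun _ ↦ Real.rpow_nonneg (Nat.cast_nonneg _) _) (fun u ↦ ?_)
  have := hB s hs1 hs2 (u.image (fun x : S ↦ x.1))
  rwa [Finset.sum_image (fun x _ y _ h ↦ Subtype.ext h)] at this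

/-- The sum over all primes as a sum over ideals. -/
theorem tsum_primes_eq (s : ℝ) :
    ∑' v : HeightOneSpectrum (𝓞 K), (Ideal.absNorm v.asIdeal : ℝ) ^ (-s) =
      ∑' I : Ideal (𝓞 K), Set.indicator {I | Prime I} (wt K s) I := by
  refine (asIdeal_injective K).tsum_eq (f := Set.indicator {I | Prime I} (wt K s)) ?_ |>.symm.trans ?_ |>.symm
  · intro I hI
    have hI' : Prime I := by
      by_contra hcon
      simp [hcon] at hI
    exact ⟨⟨I, Ideal.isPrime_of_prime hI', hI'.ne_zero⟩, rfl⟩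
  · refine tsum_congr fun v ↦ ?_
    simp [Set.indicator, v.prime, wt]

theorem stmt_PrimeZeta : helper1934.Stmt_PrimeZeta := by
  classical
  intro K _ _
  refine ⟨fun s hs ↦ summable_primes K hs, ?_⟩
  obtain ⟨m, M, hm, hb⟩ := Zr_bounds K
  obtain ⟨C, hC, hupper⟩ := Zr_upper K ∅
  refine ⟨Real.log C - Real.log m, fun s hs1 hs2 ↦ ?_⟩
  have hpos : 0 < s - 1 := by linarith
  obtain ⟨L, hL, hZ⟩ := hupper s hs1
  -- the finite sum is at most the sum over all primes
  have hsumI : Summable (Set.indicator {I : Ideal (𝓞 K) | Prime I} (wt K s)) :=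
    (summable_wt K hs1).indicator _
  have h1 : ∑ I ∈ idealsNormIn K L, wt K s I ≤
      ∑' v : HeightOneSpectrum (𝓞 K), (Ideal.absNorm v.asIdeal : ℝ) ^ (-s) := by
    rw [tsum_primes_eq]
    calc ∑ I ∈ idealsNormIn K L, wt K s I =
          ∑ I ∈ idealsNormIn K L, Set.indicator {I | Prime I} (wt K s) I := by
          refine Finset.sum_congr rfl fun I hI ↦ ?_
          have : Prime I := prime_of_mem_idealsNormIn K (fun ℓ hℓ ↦ (hL ℓ hℓ).1) hI
          simp [Set.indicator, this]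
      _ ≤ _ := hsumI.sum_le_tsum _ (fun I _ ↦ Set.indicator_nonneg (fun I _ ↦ wt_nonneg s I) I)
  have h2 : m / (s - 1) ≤ Zr K s := by
    rw [div_le_iff₀ hpos, mul_comm]
    exact (hb s hs1 hs2).1
  have h3 : m / (s - 1) ≤ C * Real.exp (∑ I ∈ idealsNormIn K L, wt K s I) := h2.trans hZ
  have h4 : Real.log (m / (s - 1)) ≤
      Real.log (C * Real.exp (∑ I ∈ idealsNormIn K L, wt K s I)) :=
    Real.log_le_log (div_pos hm hpos) h3
  rw [Real.log_mul hC.ne' (Real.exp_pos _).ne', Real.log_exp, div_eq_mul_one_div,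
    Real.log_mul hm.ne' (one_div_pos.mpr hpos).ne'] at h4
  linarith

theorem stmt_NonDegOne : helper1934.Stmt_NonDegOne := by
  classical
  intro K _ _
  refine ⟨Module.finrank ℚ K * Bconst, fun s hs1 _ ↦ ?_⟩
  rw [NumberField.Set.primeIdealZetaSum_def]
  refine Real.tsum_le_of_sum_le (fun _ ↦ Real.rpow_nonneg (Nat.cast_nonneg _) _) (fun u ↦ ?_)
  have h1 : ∑ x ∈ u, (Ideal.absNorm x.1.asIdeal : ℝ) ^ (-s) =
      ∑ 𝔭 ∈ u.image (fun x : {v : HeightOneSpectrum (𝓞 K) | ¬ (Ideal.absNorm v.asIdeal).Prime} ↦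
        x.1.asIdeal), wt K s 𝔭 := by
    rw [Finset.sum_image (fun x _ y _ h ↦ Subtype.ext (asIdeal_injective K h))]
    rfl
  rw [h1]
  refine sum_wt_nonprime_le K hs1.le _ (fun 𝔭 h𝔭 ↦ ?_)
  obtain ⟨x, -, rfl⟩ := Finset.mem_image.mp h𝔭
  exact ⟨x.1.prime, x.2⟩

theorem stmt_IdealZeta : helper1934.Stmt_IdealZeta := by
  intro K _ _
  refine ⟨fun s hs ↦ summable_wt K hs, ?_⟩
  obtain ⟨m, M, hm, hb⟩ := Zr_bounds K
  have hM : 0 < M := by
    have := hb (3 / 2) (by norm_num) (by norm_num)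
    have h1 := one_le_Zr K (show (1 : ℝ) < 3 / 2 by norm_num)
    nlinarith
  refine ⟨max M m⁻¹, lt_max_of_lt_left hM, fun s hs1 hs2 ↦ ?_⟩
  have hpos : 0 < s - 1 := by linarith
  have hC : (max M m⁻¹)⁻¹ ≤ m := by
    rw [inv_le_comm₀ (lt_max_of_lt_left hM) hm]
    exact le_max_right _ _
  constructor
  · rw [div_le_iff₀ hpos, mul_comm]
    exact hC.trans (hb s hs1 hs2).1
  · rw [le_div_iff₀ hpos, mul_comm]
    exact (hb s hs1 hs2).2.trans (le_max_left _ _)

end

end Fermat.Agent.S14.helper2850
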