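import Mathlib
import Fermat.Agent.S14.helper1934_ThaineSpec

/-!
# S14, "Thaine route": specification file, part 2 (helper1934)

Additional interface statements (the file `helper1934_ThaineSpec` is frozen, other modules
import it):

* finite-sum ("Finset") forms of the analytic statements: these are the forms consumed by the
  density comparison, they need no summability statement and are what a sieve proof produces;
* the weak Weber bound (upper density of the kernel of a nontrivial character is at most `1/2`);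
* the raw Thaine relation (what Hilbert 90 in `K(ζ_q)/K` gives), from which `Stmt_ThaineChar`
  is derived by pure algebra.
-/

set_option autoImplicit false

namespace Fermat.Agent.S14.helper1934

open NumberField IsDedekindDomain

open scoped nonZeroDivisors

/-! ## Analytic statements, finite-sum forms -/

/-- (Z-lower), finite form: for every `s ∈ (1,2)` some finite set of primes already carries
`log (1/(s-1)) - B`. -/
def Stmt_PrimeZetaFin : Prop :=
  ∀ (K : Type) [Field K] [NumberField K], ∃ B : ℝ, ∀ s : ℝ, 1 < s → s < 2 →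
    ∃ F : Finset (HeightOneSpectrum (𝓞 K)),
      Real.log (1 / (s - 1)) - B ≤ ∑ v ∈ F, (Ideal.absNorm v.asIdeal : ℝ) ^ (-s)

/-- Primes whose norm is not a prime number contribute a bounded amount (finite form). -/
def Stmt_NonDegOneFin : Prop :=
  ∀ (K : Type) [Field K] [NumberField K], ∃ B : ℝ, ∀ s : ℝ, 1 < s → s < 2 →
    ∀ F : Finset (HeightOneSpectrum (𝓞 K)), (∀ v ∈ F, ¬ (Ideal.absNorm v.asIdeal).Prime) →
      ∑ v ∈ F, (Ideal.absNorm v.asIdeal : ℝ) ^ (-s) ≤ B

/-- Kummer density, finite form: `p ·` (any finite sum over primes `v ∤ p` modulo which the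
non-`p`-th-power unit `e` is a `p`-th power) `≤ log (1/(s-1)) + B`. -/
def Stmt_KummerDensityFin (p : ℕ) [Fact p.Prime] : Prop :=
  ∀ (K : Type) [Field K] [NumberField K] (ζ : 𝓞 K), IsPrimitiveRoot ζ p →
    ∀ e : (𝓞 K)ˣ, (¬ ∃ y : 𝓞 K, (e : 𝓞 K) = y ^ p) →
    ∃ B : ℝ, ∀ s : ℝ, 1 < s → s < 2 →
      ∀ F : Finset (HeightOneSpectrum (𝓞 K)),
        (∀ v ∈ F, (p : 𝓞 K) ∉ v.asIdeal ∧ ∃ y : 𝓞 K, (e : 𝓞 K) - y ^ p ∈ v.asIdeal) →
        (p : ℝ) * ∑ v ∈ F, (Ideal.absNorm v.asIdeal : ℝ) ^ (-s) ≤ Real.log (1 / (s - 1)) + B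

/-- **Weak Weber bound**, finite form: for a nontrivial character `χ` of the class group, every
finite sum over primes in the kernel of `χ` is dominated, up to a constant, by a finite sum over
primes outside the kernel. -/
def Stmt_WeberWeakFin (p : ℕ) [Fact p.Prime] : Prop :=
  ∀ (K : Type) [Field K] [NumberField K] (χ : ClassGroup (𝓞 K) →* Multiplicative (ZMod p)),
    χ ≠ 1 →
    ∃ B : ℝ, ∀ s : ℝ, 1 < s → s < 2 →
      ∀ F : Finset (HeightOneSpectrum (𝓞 K)), (∀ v ∈ F, χ (primeClass v) = 1) →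
        ∃ G : Finset (HeightOneSpectrum (𝓞 K)), (∀ v ∈ G, χ (primeClass v) ≠ 1) ∧
          ∑ v ∈ F, (Ideal.absNorm v.asIdeal : ℝ) ^ (-s) ≤
            ∑ v ∈ G, (Ideal.absNorm v.asIdeal : ℝ) ^ (-s) + B

/-- **Weak Weber bound**, `tsum` form (to be used together with the summability part of
`Stmt_PrimeZeta`). -/
def Stmt_WeberWeak (p : ℕ) [Fact p.Prime] : Prop :=
  ∀ (K : Type) [Field K] [NumberField K] (χ : ClassGroup (𝓞 K) →* Multiplicative (ZMod p)),
    χ ≠ 1 →
    ∃ B : ℝ, ∀ s : ℝ, 1 < s → s < 2 →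
      Set.primeIdealZetaSum {v : HeightOneSpectrum (𝓞 K) | χ (primeClass v) = 1} s ≤
        Set.primeIdealZetaSum {v : HeightOneSpectrum (𝓞 K) | χ (primeClass v) ≠ 1} s + B

/-! ## The raw Thaine relation -/

/-- **Thaine's relation, raw form.**  `v` a prime of `K = ℚ(ζ_p)` of prime norm `q ≠ p`
(so `q ≡ 1 mod p`); `S` is the set of all primes of norm `q`.  Then there are `g b : 𝓞 K`, an
ideal `J` and exponents `t w` (`w ∈ S`) with `(b) = ∏_{w ∈ S} w^(t w) · J^p` and
`ζ - 1 ≡ g^(t w) mod w` for every `w ∈ S`.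

(Proof: `δ = ζ - ζ_q` has norm `1` in `M = K(ζ_q)`, Hilbert 90 gives `δ = τ β / β`; the ideal
`(β)` is `τ`-invariant, `b = N_{M/K} β`, `J^p = J₀^(q-1)`; `g` is a primitive root modulo `q` with
`τ ζ_q = ζ_q^g`, and `t w` is the valuation of `β` at the prime of `M` above `w`.) -/
def Stmt_ThaineRaw (p : ℕ) [Fact p.Prime] : Prop :=
  ∀ (K : Type) [Field K] [NumberField K] [IsCyclotomicExtension {p} ℚ K] (ζ : 𝓞 K),
    IsPrimitiveRoot ζ p →
    ∀ v : HeightOneSpectrum (𝓞 K), (Ideal.absNorm v.asIdeal).Prime → (p : 𝓞 K) ∉ v.asIdeal →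
    ∃ (g b : 𝓞 K) (J : Ideal (𝓞 K)) (S : Finset (HeightOneSpectrum (𝓞 K)))
      (t : HeightOneSpectrum (𝓞 K) → ℕ),
      b ≠ 0 ∧
      (∀ w : HeightOneSpectrum (𝓞 K),
        w ∈ S ↔ Ideal.absNorm w.asIdeal = Ideal.absNorm v.asIdeal) ∧
      Ideal.span {b} = (∏ w ∈ S, w.asIdeal ^ t w) * J ^ p ∧
      ∀ w ∈ S, g ^ t w - (ζ - 1) ∈ w.asIdeal

end Fermat.Agent.S14.helper1934
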