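import Mathlib
import Fermat.Agent.S14.helper1934_ThaineSpec2

/-!
# S14, Thaine route: the density comparison (glue `⟹ Stmt_NoChar`)

Hypothesis-passing glue in the exact shapes of `helper1934_ThaineSpec` / `helper1934_ThaineSpec2`.

* `noChar_of_fin`  : finite-sum forms (`Stmt_WeberWeakFin`, `Stmt_PrimeZetaFin`,
  `Stmt_NonDegOneFin`, `Stmt_KummerDensityFin`) + `Stmt_ThaineChar`, `Stmt_Local`, `Stmt_E2`
  give `Stmt_NoChar`;
* adapters from the `tsum` forms to the finite-sum forms;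
* `noChar_of` / `noChar_of_weak` : the same with the `tsum` forms.
-/

set_option autoImplicit false

namespace Fermat.Agent.S14.helper3506

open NumberField IsDedekindDomain
open scoped nonZeroDivisors
open Fermat.Agent.S14.helper1934

section Aux

variable {K : Type} [Field K] [NumberField K]

lemma absNorm_rpow_nonneg (v : HeightOneSpectrum (𝓞 K)) (s : ℝ) :
    0 ≤ (Ideal.absNorm v.asIdeal : ℝ) ^ (-s) :=
  Real.rpow_nonneg (Nat.cast_nonneg _) _

lemma absNorm_rpow_le_one (v : HeightOneSpectrum (𝓞 K)) {s : ℝ} (hs : 0 ≤ s) :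
    (Ideal.absNorm v.asIdeal : ℝ) ^ (-s) ≤ 1 := by
  apply Real.rpow_le_one_of_one_le_of_nonpos
  · have h0 : Ideal.absNorm v.asIdeal ≠ 0 := by
      rw [Ne, Ideal.absNorm_eq_zero_iff]
      exact v.ne_bot
    exact_mod_cast Nat.one_le_iff_ne_zero.mpr h0
  · linarith

/-- Only finitely many primes contain a given nonzero natural number. -/
lemma finite_primes_containing_natCast (n : ℕ) (hn : n ≠ 0) :
    {v : HeightOneSpectrum (𝓞 K) | (n : 𝓞 K) ∈ v.asIdeal}.Finite := by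
  have h0 : Ideal.span {(n : 𝓞 K)} ≠ 0 := by
    rw [Ne, Ideal.zero_eq_bot, Ideal.span_singleton_eq_bot]
    exact_mod_cast hn
  refine (Ideal.finite_factors h0).subset ?_
  intro v hv
  have hv' : (n : 𝓞 K) ∈ v.asIdeal := hv
  show v.asIdeal ∣ Ideal.span {(n : 𝓞 K)}
  rw [Ideal.dvd_iff_le, Ideal.span_singleton_le_iff_mem]
  exact hv'

/-- `1 - ζ` is not a unit. -/
lemma one_notMem_span_one_sub_zeta {p : ℕ} [Fact p.Prime] [IsCyclotomicExtension {p} ℚ K]
    {ζ : 𝓞 K} (hζ : IsPrimitiveRoot ζ p) : (1 : 𝓞 K) ∉ Ideal.span {1 - ζ} := by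
  intro h
  have hζK : IsPrimitiveRoot (ζ : K) p :=
    hζ.map_of_injective (f := algebraMap (𝓞 K) K) RingOfIntegers.coe_injective
  have hprime : Prime (hζK.toInteger - 1) := hζK.zeta_sub_one_prime'
  have hto : hζK.toInteger = ζ := rfl
  rw [hto] at hprime
  have hu : IsUnit (1 - ζ) := by
    rw [← Ideal.span_singleton_eq_top, Ideal.eq_top_iff_one]
    exact h
  apply hprime.not_isUnit
  have hneg : ζ - 1 = -(1 - ζ) := by ring
  rw [hneg]
  exact hu.neg

/-- A finite sum over primes in `S` is at most the `tsum` over `S`. -/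
lemma sum_le_primeIdealZetaSum {s : ℝ}
    (hsum : Summable fun v : HeightOneSpectrum (𝓞 K) => (Ideal.absNorm v.asIdeal : ℝ) ^ (-s))
    (S : Set (HeightOneSpectrum (𝓞 K))) (F : Finset (HeightOneSpectrum (𝓞 K)))
    (hF : ∀ v ∈ F, v ∈ S) :
    ∑ v ∈ F, (Ideal.absNorm v.asIdeal : ℝ) ^ (-s) ≤ Set.primeIdealZetaSum S s := by
  rw [Set.primeIdealZetaSum_def,
    tsum_subtype S (fun v : HeightOneSpectrum (𝓞 K) => (Ideal.absNorm v.asIdeal : ℝ) ^ (-s))]
  have h1 : ∑ v ∈ F, (Ideal.absNorm v.asIdeal : ℝ) ^ (-s) =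
      ∑ v ∈ F, S.indicator
        (fun v : HeightOneSpectrum (𝓞 K) => (Ideal.absNorm v.asIdeal : ℝ) ^ (-s)) v :=
    Finset.sum_congr rfl (fun v hv => (Set.indicator_of_mem (hF v hv)
      (fun v : HeightOneSpectrum (𝓞 K) => (Ideal.absNorm v.asIdeal : ℝ) ^ (-s))).symm)
  rw [h1]
  exact (hsum.indicator S).sum_le_tsum F
    (fun v _ => Set.indicator_nonneg (fun v _ => absNorm_rpow_nonneg v s) v)

/-- The `tsum` over `S` is approximated from below by finite sums over primes in `S`. -/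
lemma exists_finset_primeIdealZetaSum_sub_one_le {s : ℝ}
    (hsum : Summable fun v : HeightOneSpectrum (𝓞 K) => (Ideal.absNorm v.asIdeal : ℝ) ^ (-s))
    (S : Set (HeightOneSpectrum (𝓞 K))) :
    ∃ F : Finset (HeightOneSpectrum (𝓞 K)), (∀ v ∈ F, v ∈ S) ∧
      Set.primeIdealZetaSum S s - 1 ≤ ∑ v ∈ F, (Ideal.absNorm v.asIdeal : ℝ) ^ (-s) := by
  have hS : Summable fun v : S => (Ideal.absNorm v.1.asIdeal : ℝ) ^ (-s) := hsum.subtype S
  have hlub := isLUB_hasSum (fun v : S => absNorm_rpow_nonneg v.1 s) hS.hasSum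
  obtain ⟨b, ⟨T, rfl⟩, hb, -⟩ := hlub.exists_between
    (show (∑' v : S, (Ideal.absNorm v.1.asIdeal : ℝ) ^ (-s)) - 1 <
      ∑' v : S, (Ideal.absNorm v.1.asIdeal : ℝ) ^ (-s) by linarith)
  refine ⟨T.map (Function.Embedding.subtype _), ?_, ?_⟩
  · intro v hv
    rw [Finset.mem_map] at hv
    obtain ⟨w, -, rfl⟩ := hv
    exact w.2
  · rw [Finset.sum_map, Set.primeIdealZetaSum_def]
    exact hb.le

end Aux

/-! ## The density comparison, finite-sum form -/

/-- **Density comparison.**  No nontrivial `ω²`-character of the class group. -/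
theorem noChar_of_fin (p : ℕ) [Fact p.Prime] (hW : Stmt_WeberWeakFin p) (hZ : Stmt_PrimeZetaFin)
    (hD : Stmt_NonDegOneFin) (hK : Stmt_KummerDensityFin p) (hT : Stmt_ThaineChar p)
    (hL : Stmt_Local p) (hE : Stmt_E2 p) : Stmt_NoChar p := by
  intro K _ _ _ ζ hζ h5 χ hχ
  by_contra hχ1
  have hp : p.Prime := Fact.out
  obtain ⟨e, he, -⟩ := hE K ζ hζ h5
  have h1π := one_notMem_span_one_sub_zeta hζ
  have hnot : ¬ ∃ y : 𝓞 K, (e : 𝓞 K) = y ^ p := by
    rintro ⟨y, hy⟩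
    have hmem : ζ ^ 0 * E2 p ζ ^ 1 * (1 : 𝓞 K) ^ p - y ^ p ∈ Ideal.span {(1 - ζ) ^ 3} := by
      have hz : ζ ^ 0 * E2 p ζ ^ 1 * (1 : 𝓞 K) ^ p - y ^ p = 0 := by
        rw [← he, hy]
        ring
      rw [hz]
      exact Submodule.zero_mem _
    exact hp.one_lt.ne' (Nat.dvd_one.mp (hL K ζ hζ h5 0 1 1 y h1π hmem).2)
  obtain ⟨BW, hBW⟩ := hW K χ hχ1
  obtain ⟨BZ, hBZ⟩ := hZ K
  obtain ⟨BD, hBD⟩ := hD K
  obtain ⟨BK, hBK⟩ := hK K ζ hζ e hnot
  have hCfin : {v : HeightOneSpectrum (𝓞 K) | (p : 𝓞 K) ∈ v.asIdeal}.Finite :=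
    finite_primes_containing_natCast p hp.ne_zero
  obtain ⟨nC, hnC⟩ : ∃ nC : ℝ, nC = (hCfin.toFinset.card : ℝ) := ⟨_, rfl⟩
  have hnC0 : 0 ≤ nC := by rw [hnC]; exact Nat.cast_nonneg _
  have hp5 : (5 : ℝ) ≤ p := by exact_mod_cast h5
  obtain ⟨M, hM⟩ : ∃ M : ℝ, M = (p : ℝ) * (|BZ| + |BW| + 2 * |BD| + 2 * nC) + 2 * |BK| + 1 :=
    ⟨_, rfl⟩
  have hM0 : 0 < M := by rw [hM]; positivity
  obtain ⟨s, hs⟩ : ∃ s : ℝ, s = 1 + Real.exp (-M) := ⟨_, rfl⟩
  have hs1 : 1 < s := by have := Real.exp_pos (-M); linarith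
  have hs2 : s < 2 := by
    have : Real.exp (-M) < 1 := by rw [Real.exp_lt_one_iff]; linarith
    linarith
  have hlog : Real.log (1 / (s - 1)) = M := by
    rw [hs, add_sub_cancel_left, one_div, ← Real.exp_neg, neg_neg, Real.log_exp]
  classical
  -- bound for finite sets of primes outside the kernel of `χ`
  have key : ∀ H : Finset (HeightOneSpectrum (𝓞 K)), (∀ v ∈ H, χ (primeClass v) ≠ 1) →
      (p : ℝ) * ∑ v ∈ H, (Ideal.absNorm v.asIdeal : ℝ) ^ (-s) ≤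
        p * BD + p * nC + (M + BK) := by
    intro H hH
    have hsplit1 := Finset.sum_filter_add_sum_filter_not H
      (fun v : HeightOneSpectrum (𝓞 K) => (Ideal.absNorm v.asIdeal).Prime)
      (fun v => (Ideal.absNorm v.asIdeal : ℝ) ^ (-s))
    have hsplit2 := Finset.sum_filter_add_sum_filter_not
      (H.filter (fun v : HeightOneSpectrum (𝓞 K) => (Ideal.absNorm v.asIdeal).Prime))
      (fun v : HeightOneSpectrum (𝓞 K) => (p : 𝓞 K) ∈ v.asIdeal)
      (fun v => (Ideal.absNorm v.asIdeal : ℝ) ^ (-s))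
    have hb1 : ∑ v ∈ H.filter
        (fun v : HeightOneSpectrum (𝓞 K) => ¬ (Ideal.absNorm v.asIdeal).Prime),
        (Ideal.absNorm v.asIdeal : ℝ) ^ (-s) ≤ BD :=
      hBD s hs1 hs2 _ (fun v hv => (Finset.mem_filter.mp hv).2)
    have hb2 : ∑ v ∈ (H.filter
        (fun v : HeightOneSpectrum (𝓞 K) => (Ideal.absNorm v.asIdeal).Prime)).filter
        (fun v : HeightOneSpectrum (𝓞 K) => (p : 𝓞 K) ∈ v.asIdeal),
        (Ideal.absNorm v.asIdeal : ℝ) ^ (-s) ≤ nC := by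
      calc _ ≤ ∑ v ∈ (H.filter
              (fun v : HeightOneSpectrum (𝓞 K) => (Ideal.absNorm v.asIdeal).Prime)).filter
              (fun v : HeightOneSpectrum (𝓞 K) => (p : 𝓞 K) ∈ v.asIdeal), (1 : ℝ) :=
            Finset.sum_le_sum (fun v _ => absNorm_rpow_le_one v (by linarith))
        _ = (((H.filter
              (fun v : HeightOneSpectrum (𝓞 K) => (Ideal.absNorm v.asIdeal).Prime)).filter
              (fun v : HeightOneSpectrum (𝓞 K) => (p : 𝓞 K) ∈ v.asIdeal)).card : ℝ) := by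
            rw [Finset.sum_const, nsmul_eq_mul, mul_one]
        _ ≤ nC := by
            rw [hnC]
            exact_mod_cast Finset.card_le_card (fun v hv => by
              rw [Set.Finite.mem_toFinset]
              exact (Finset.mem_filter.mp hv).2)
    have hb3 : (p : ℝ) * ∑ v ∈ (H.filter
        (fun v : HeightOneSpectrum (𝓞 K) => (Ideal.absNorm v.asIdeal).Prime)).filter
        (fun v : HeightOneSpectrum (𝓞 K) => ¬ (p : 𝓞 K) ∈ v.asIdeal),
        (Ideal.absNorm v.asIdeal : ℝ) ^ (-s) ≤ M + BK := by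
      rw [← hlog]
      refine hBK s hs1 hs2 _ (fun v hv => ?_)
      obtain ⟨hv1, hv2⟩ := Finset.mem_filter.mp hv
      obtain ⟨hv3, hv4⟩ := Finset.mem_filter.mp hv1
      refine ⟨hv2, ?_⟩
      rw [he]
      exact hT K ζ hζ h5 χ hχ v hv4 hv2 (hH v hv3)
    have hp0 : (0 : ℝ) ≤ p := Nat.cast_nonneg _
    have h1 := mul_le_mul_of_nonneg_left hb1 hp0
    have h2 := mul_le_mul_of_nonneg_left hb2 hp0
    rw [← hsplit1, ← hsplit2]
    linarith
  -- the lower bound and the Weber comparison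
  obtain ⟨F₀, hF₀⟩ := hBZ s hs1 hs2
  rw [hlog] at hF₀
  have hsplit := Finset.sum_filter_add_sum_filter_not F₀
    (fun v : HeightOneSpectrum (𝓞 K) => χ (primeClass v) = 1)
    (fun v => (Ideal.absNorm v.asIdeal : ℝ) ^ (-s))
  obtain ⟨G, hG, hFG⟩ := hBW s hs1 hs2
    (F₀.filter (fun v : HeightOneSpectrum (𝓞 K) => χ (primeClass v) = 1))
    (fun v hv => (Finset.mem_filter.mp hv).2)
  have hk1 := key G hG
  have hk2 := key (F₀.filter (fun v : HeightOneSpectrum (𝓞 K) => ¬ χ (primeClass v) = 1))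
    (fun v hv => (Finset.mem_filter.mp hv).2)
  have hp0 : (0 : ℝ) ≤ p := Nat.cast_nonneg _
  have h3 := mul_le_mul_of_nonneg_left hF₀ hp0
  have h4 := mul_le_mul_of_nonneg_left hFG hp0
  rw [← hsplit] at h3
  have h5' : (p : ℝ) * M - 2 * M ≤ p * (BZ + BW + 2 * BD + 2 * nC) + 2 * BK := by
    linarith
  have h6 : (p : ℝ) * (BZ + BW + 2 * BD + 2 * nC) ≤ p * (|BZ| + |BW| + 2 * |BD| + 2 * nC) :=
    mul_le_mul_of_nonneg_left
      (by linarith [le_abs_self BZ, le_abs_self BW, le_abs_self BD]) hp0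
  have h7 : 3 * M ≤ (p : ℝ) * M - 2 * M := by nlinarith
  linarith [le_abs_self BK]

/-! ## Adapters from the `tsum` forms -/

theorem primeZetaFin_of_primeZeta (hZ : Stmt_PrimeZeta) : Stmt_PrimeZetaFin := by
  intro K _ _
  obtain ⟨hsum, B, hB⟩ := hZ K
  refine ⟨B + 1, fun s hs1 hs2 => ?_⟩
  obtain ⟨F, -, hF⟩ := exists_finset_primeIdealZetaSum_sub_one_le (hsum s hs1) Set.univ
  refine ⟨F, ?_⟩
  have h1 := hB s hs1 hs2
  have h2 : Set.primeIdealZetaSum (Set.univ : Set (HeightOneSpectrum (𝓞 K))) s =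
      ∑' v : HeightOneSpectrum (𝓞 K), (Ideal.absNorm v.asIdeal : ℝ) ^ (-s) := by
    rw [Set.primeIdealZetaSum_def,
      tsum_univ fun v : HeightOneSpectrum (𝓞 K) => (Ideal.absNorm v.asIdeal : ℝ) ^ (-s)]
  rw [h2] at hF
  linarith

theorem nonDegOneFin_of (hZ : Stmt_PrimeZeta) (hD : Stmt_NonDegOne) : Stmt_NonDegOneFin := by
  intro K _ _
  obtain ⟨hsum, -⟩ := hZ K
  obtain ⟨B, hB⟩ := hD K
  refine ⟨B, fun s hs1 hs2 F hF => ?_⟩
  exact (sum_le_primeIdealZetaSum (hsum s hs1) _ F hF).trans (hB s hs1 hs2)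

theorem kummerDensityFin_of (p : ℕ) [Fact p.Prime] (hZ : Stmt_PrimeZeta)
    (hK : Stmt_KummerDensity p) : Stmt_KummerDensityFin p := by
  intro K _ _ ζ hζ e he
  obtain ⟨hsum, -⟩ := hZ K
  obtain ⟨B, hB⟩ := hK K ζ hζ e he
  refine ⟨B, fun s hs1 hs2 F hF => ?_⟩
  exact (mul_le_mul_of_nonneg_left (sum_le_primeIdealZetaSum (hsum s hs1) _ F hF)
    (Nat.cast_nonneg _)).trans (hB s hs1 hs2)

theorem weberWeakFin_of_weberWeak (p : ℕ) [Fact p.Prime] (hZ : Stmt_PrimeZeta)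
    (hW : Stmt_WeberWeak p) : Stmt_WeberWeakFin p := by
  intro K _ _ χ hχ
  obtain ⟨hsum, -⟩ := hZ K
  obtain ⟨B, hB⟩ := hW K χ hχ
  refine ⟨B + 1, fun s hs1 hs2 F hF => ?_⟩
  obtain ⟨G, hG, hGs⟩ := exists_finset_primeIdealZetaSum_sub_one_le (hsum s hs1)
    {v : HeightOneSpectrum (𝓞 K) | χ (primeClass v) ≠ 1}
  refine ⟨G, hG, ?_⟩
  have h1 := sum_le_primeIdealZetaSum (hsum s hs1)
    {v : HeightOneSpectrum (𝓞 K) | χ (primeClass v) = 1} F hF
  have h2 := hB s hs1 hs2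
  linarith

theorem weberWeak_of_weber (p : ℕ) [Fact p.Prime] (hZ : Stmt_PrimeZeta) (hW : Stmt_Weber p) :
    Stmt_WeberWeak p := by
  intro K _ _ χ hχ
  have hp : p.Prime := Fact.out
  obtain ⟨hsum, BZ, hBZ⟩ := hZ K
  obtain ⟨B, hB⟩ := hW K χ hχ
  refine ⟨|B| + |BZ|, fun s hs1 hs2 => ?_⟩
  have h1 := hB s hs1 hs2
  have h2 := hBZ s hs1 hs2
  have hL0 : 0 ≤ Real.log (1 / (s - 1)) := by
    apply Real.log_nonneg
    rw [one_div]
    exact (one_le_inv₀ (by linarith)).mpr (by linarith)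
  have hsplit := (hsum s hs1).tsum_subtype_add_tsum_subtype_compl
    {v : HeightOneSpectrum (𝓞 K) | χ (primeClass v) = 1}
  have hc : {v : HeightOneSpectrum (𝓞 K) | χ (primeClass v) = 1}ᶜ =
      {v : HeightOneSpectrum (𝓞 K) | χ (primeClass v) ≠ 1} := rfl
  rw [hc] at hsplit
  rw [Set.primeIdealZetaSum_def, Set.primeIdealZetaSum_def]
  rw [Set.primeIdealZetaSum_def] at h1
  have hp2 : (2 : ℝ) ≤ p := by exact_mod_cast hp.two_le
  have hA0 : 0 ≤ ∑' v : {v : HeightOneSpectrum (𝓞 K) | χ (primeClass v) = 1},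
      (Ideal.absNorm v.1.asIdeal : ℝ) ^ (-s) := tsum_nonneg fun v => absNorm_rpow_nonneg v.1 s
  -- `2 A ≤ p A ≤ L + B` and `A + A' ≥ L - BZ`
  nlinarith [le_abs_self B, le_abs_self BZ, abs_nonneg B, abs_nonneg BZ]

/-! ## The density comparison, `tsum` forms -/

/-- Density comparison with the weak Weber bound (`tsum` forms). -/
theorem noChar_of_weak (p : ℕ) [Fact p.Prime] (hW : Stmt_WeberWeak p) (hZ : Stmt_PrimeZeta)
    (hD : Stmt_NonDegOne) (hK : Stmt_KummerDensity p) (hT : Stmt_ThaineChar p)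
    (hL : Stmt_Local p) (hE : Stmt_E2 p) : Stmt_NoChar p :=
  noChar_of_fin p (weberWeakFin_of_weberWeak p hZ hW) (primeZetaFin_of_primeZeta hZ)
    (nonDegOneFin_of hZ hD) (kummerDensityFin_of p hZ hK) hT hL hE

/-- Density comparison with the Weber bound of `helper1934_ThaineSpec` (`tsum` forms). -/
theorem noChar_of (p : ℕ) [Fact p.Prime] (hW : Stmt_Weber p) (hZ : Stmt_PrimeZeta)
    (hD : Stmt_NonDegOne) (hK : Stmt_KummerDensity p) (hT : Stmt_ThaineChar p)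
    (hL : Stmt_Local p) (hE : Stmt_E2 p) : Stmt_NoChar p :=
  noChar_of_weak p (weberWeak_of_weber p hZ hW) hZ hD hK hT hL hE

end Fermat.Agent.S14.helper3506
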