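import Mathlib
import Fermat.Agent.S14.helper1934_ThaineSpec

/-!
# S14, Thaine route: `Stmt_KummerDensity` (backup copy, helper702)

`Stmt_KummerDensity p` of `helper1934_ThaineSpec` from the Finset form of the prime-ideal zeta
upper bound (`Stmt_ZUpper`), and `Stmt_ZUpper` from `helper1934.Stmt_IdealZeta`.

Splitting lemma: in `L = K(θ)`, `θ^p = e`, with an automorphism `σ θ = ζ θ`, a prime `P` of `𝓞 L`
over `v` (`p ∉ v`, `e ≡ y^p mod v`, `e ∉ v`) has `p` pairwise distinct conjugates `σ^i P`;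
the fundamental identity then forces residue degree one.
-/

set_option autoImplicit false

namespace Fermat.Agent.S14.helper702

open NumberField IsDedekindDomain

/-- The Finset form of the upper bound for sums over prime ideals. -/
def Stmt_ZUpper : Prop :=
  ∀ (L : Type) [Field L] [NumberField L], ∃ B : ℝ, ∀ s : ℝ, 1 < s → s < 2 →
    ∀ T : Finset (HeightOneSpectrum (𝓞 L)),
      ∑ w ∈ T, (Ideal.absNorm w.asIdeal : ℝ) ^ (-s) ≤ Real.log (1 / (s - 1)) + B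

section Split

variable {p : ℕ} {K L : Type} [Field K] [NumberField K] [Field L] [NumberField L] [Algebra K L]

/-- An automorphism `τ` of `𝓞 L` over `𝓞 K` with `τ θ = η θ`, `η ≠ 1` a `p`-th root of unity of
`𝓞 K`, cannot stabilise a prime `P` with `p ∉ P`, `θ^p = e ∉ P` and `e ≡ y^p mod P`. -/
theorem not_stable (hp : p.Prime) (ζ : 𝓞 K) (hζ : IsPrimitiveRoot ζ p)
    (η : 𝓞 K) (hη : η ^ p = 1) (hη1 : η ≠ 1)
    (e : 𝓞 K) (θ : 𝓞 L) (hθ : θ ^ p = algebraMap (𝓞 K) (𝓞 L) e)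
    (τ : 𝓞 L ≃ₐ[𝓞 K] 𝓞 L) (hτ : τ θ = algebraMap (𝓞 K) (𝓞 L) η * θ)
    (P : Ideal (𝓞 L)) [P.IsPrime] (hpP : (p : 𝓞 L) ∉ P)
    (heP : algebraMap (𝓞 K) (𝓞 L) e ∉ P)
    (y : 𝓞 K) (hy : algebraMap (𝓞 K) (𝓞 L) (e - y ^ p) ∈ P)
    (hstab : ∀ z, z ∈ P → τ z ∈ P) : False := by
  have hinj : Function.Injective (algebraMap (𝓞 K) (𝓞 L)) := RingOfIntegers.algebraMap.injective K L
  have hζL : IsPrimitiveRoot (algebraMap (𝓞 K) (𝓞 L) ζ) p := hζ.map_of_injective hinj
  have hprod := IsPrimitiveRoot.pow_sub_pow_eq_prod_sub_mul θ (algebraMap (𝓞 K) (𝓞 L) y) hp.pos hζL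
  have hmem : θ ^ p - (algebraMap (𝓞 K) (𝓞 L) y) ^ p ∈ P := by
    have : θ ^ p - (algebraMap (𝓞 K) (𝓞 L) y) ^ p = algebraMap (𝓞 K) (𝓞 L) (e - y ^ p) := by
      rw [hθ, map_sub, map_pow]
    rw [this]; exact hy
  rw [hprod, Ideal.IsPrime.prod_mem_iff] at hmem
  obtain ⟨μ, hμ, hμP⟩ := hmem
  rw [Polynomial.mem_nthRootsFinset hp.pos] at hμ
  have : NeZero p := ⟨hp.ne_zero⟩
  obtain ⟨i, -, rfl⟩ := hζL.eq_pow_of_pow_eq_one hμ
  -- apply τ
  have h1 : τ (θ - algebraMap (𝓞 K) (𝓞 L) ζ ^ i * algebraMap (𝓞 K) (𝓞 L) y) ∈ P := hstab _ hμP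
  have h2 : τ (θ - algebraMap (𝓞 K) (𝓞 L) ζ ^ i * algebraMap (𝓞 K) (𝓞 L) y) =
      algebraMap (𝓞 K) (𝓞 L) η * θ - algebraMap (𝓞 K) (𝓞 L) ζ ^ i * algebraMap (𝓞 K) (𝓞 L) y := by
    rw [map_sub, hτ, map_mul, map_pow, AlgEquiv.commutes, AlgEquiv.commutes]
  rw [h2] at h1
  have h3 : (algebraMap (𝓞 K) (𝓞 L) η - 1) * θ ∈ P := by
    have := P.sub_mem h1 hμP
    convert this using 1
    ring
  rcases Ideal.IsPrime.mem_or_mem ‹P.IsPrime› h3 with h4 | h4
  · -- η ≡ 1 mod P, so p ∈ P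
    set ηL := algebraMap (𝓞 K) (𝓞 L) η with hηL
    have hηLp : ηL ^ p = 1 := by rw [hηL, ← map_pow, hη, map_one]
    have hηL1 : ηL - 1 ≠ 0 := by
      intro h
      apply hη1
      apply hinj
      rw [map_one]
      exact sub_eq_zero.mp h
    have hgeom : ∑ k ∈ Finset.range p, ηL ^ k = 0 := by
      have := mul_geom_sum ηL p
      rw [hηLp, sub_self] at this
      exact (mul_eq_zero.mp this).resolve_left hηL1
    have hq1 : Ideal.Quotient.mk P ηL = 1 := by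
      have : Ideal.Quotient.mk P (ηL - 1) = 0 := Ideal.Quotient.eq_zero_iff_mem.mpr h4
      rw [map_sub, map_one, sub_eq_zero] at this
      exact this
    have hq2 : Ideal.Quotient.mk P (p : 𝓞 L) = 0 := by
      have := congrArg (Ideal.Quotient.mk P) hgeom
      rw [map_sum] at this
      simp only [map_pow, hq1, one_pow, Finset.sum_const, Finset.card_range, nsmul_eq_mul, mul_one,
        map_zero] at this
      rw [map_natCast]
      exact this
    exact hpP (Ideal.Quotient.eq_zero_iff_mem.mp hq2)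
  · -- θ ∈ P, so e ∈ P
    apply heP
    rw [← hθ]
    exact Ideal.pow_mem_of_mem P h4 p hp.pos

theorem pow_apply_root (ζ : 𝓞 K) (θ : 𝓞 L) (σ : 𝓞 L ≃ₐ[𝓞 K] 𝓞 L)
    (hσ : σ θ = algebraMap (𝓞 K) (𝓞 L) ζ * θ) (d : ℕ) :
    (σ ^ d) θ = algebraMap (𝓞 K) (𝓞 L) (ζ ^ d) * θ := by
  induction d with
  | zero => simp
  | succ d ih =>
    rw [pow_succ', AlgEquiv.mul_apply, ih, map_mul, AlgEquiv.commutes, hσ, pow_succ, map_mul]
    ring

/-- **Splitting lemma.**  `[L : K] = p`, `θ ∈ 𝓞 L` with `θ^p = e`, `σ θ = ζ θ`; `v` a prime of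
`𝓞 K` with `p ∉ v`, `e ∉ v`, `e ≡ y^p mod v`.  Then there are `p` distinct primes of `𝓞 L` over
`v`, each of absolute norm `N v`. -/
theorem exists_primes (hp : p.Prime) (hrank : Module.finrank K L = p)
    (ζ : 𝓞 K) (hζ : IsPrimitiveRoot ζ p)
    (e : 𝓞 K) (θ : 𝓞 L) (hθ : θ ^ p = algebraMap (𝓞 K) (𝓞 L) e)
    (σ : 𝓞 L ≃ₐ[𝓞 K] 𝓞 L) (hσ : σ θ = algebraMap (𝓞 K) (𝓞 L) ζ * θ)
    (v : HeightOneSpectrum (𝓞 K)) (hpv : (p : 𝓞 K) ∉ v.asIdeal) (hev : e ∉ v.asIdeal)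
    (y : 𝓞 K) (hy : e - y ^ p ∈ v.asIdeal) :
    ∃ f : Fin p → HeightOneSpectrum (𝓞 L), Function.Injective f ∧
      ∀ i, (f i).asIdeal.comap (algebraMap (𝓞 K) (𝓞 L)) = v.asIdeal ∧
        Ideal.absNorm (f i).asIdeal = Ideal.absNorm v.asIdeal := by
  have hinj : Function.Injective (algebraMap (𝓞 K) (𝓞 L)) := RingOfIntegers.algebraMap.injective K L
  haveI : v.asIdeal.IsPrime := v.isPrime
  obtain ⟨⟨P, hPprime, hPover⟩⟩ : Nonempty (v.asIdeal.primesOver (𝓞 L)) := inferInstance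
  haveI := hPprime
  -- membership of elements of `𝓞 K` in `P`
  have hmemP : ∀ x : 𝓞 K, algebraMap (𝓞 K) (𝓞 L) x ∈ P ↔ x ∈ v.asIdeal := by
    intro x
    have h := hPover.over
    rw [h]
    rfl
  -- the conjugates
  let Q : ℕ → Ideal (𝓞 L) := fun i => P.comap ((σ ^ i : 𝓞 L ≃ₐ[𝓞 K] 𝓞 L) : 𝓞 L →+* 𝓞 L)
  have hQmem : ∀ i z, z ∈ Q i ↔ (σ ^ i) z ∈ P := fun i z => Iff.rfl
  have hQprime : ∀ i, (Q i).IsPrime := fun i => Ideal.comap_isPrime _ P
  have hQover : ∀ i, (Q i).comap (algebraMap (𝓞 K) (𝓞 L)) = v.asIdeal := by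
    intro i
    ext x
    rw [Ideal.mem_comap, hQmem, AlgEquiv.commutes, hmemP]
  have hQlies : ∀ i, (Q i).LiesOver v.asIdeal := fun i => ⟨(hQover i).symm⟩
  -- distinctness
  have hdist : ∀ i j, i < j → j < p → Q i ≠ Q j := by
    intro i j hij hjp hQ
    have hd0 : j - i ≠ 0 := by omega
    have hdp : j - i < p := by omega
    refine not_stable hp ζ hζ (ζ ^ (j - i)) ?_ (hζ.pow_ne_one_of_pos_of_lt hd0 hdp) e θ hθ
      (σ ^ (j - i)) (pow_apply_root ζ θ σ hσ (j - i)) P ?_ ?_ y ?_ ?_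
    · rw [← pow_mul, mul_comm, pow_mul, hζ.pow_eq_one, one_pow]
    · intro h
      apply hpv
      rw [← hmemP, map_natCast]
      exact h
    · rw [hmemP]; exact hev
    · rw [hmemP]; exact hy
    · intro z hz
      have hw : (σ ^ i).symm z ∈ Q i := by
        rw [hQmem, AlgEquiv.apply_symm_apply]; exact hz
      rw [hQ, hQmem] at hw
      have hpow : σ ^ j = σ ^ (j - i) * σ ^ i := by
        rw [← pow_add]; congr 1; omega
      rw [hpow, AlgEquiv.mul_apply, AlgEquiv.apply_symm_apply] at hw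
      exact hw
  have hQinj : ∀ i j, i < p → j < p → Q i = Q j → i = j := by
    intro i j hi hj hQ
    rcases lt_trichotomy i j with h | h | h
    · exact absurd hQ (hdist i j h hj)
    · exact h
    · exact absurd hQ.symm (hdist j i h hi)
  -- counting
  haveI : Fintype (v.asIdeal.primesOver (𝓞 L)) := Fintype.ofFinite _
  have hsum := Ideal.sum_ramification_inertia_eq_finrank v.asIdeal (𝓞 L)
  rw [← IsFractionRing.finrank_eq (𝓞 K) K (𝓞 L) L, hrank] at hsum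
  let g : Fin p → v.asIdeal.primesOver (𝓞 L) := fun i => ⟨Q i, hQprime i, hQlies i⟩
  have hg : Function.Injective g := by
    intro i j hij
    have : Q i = Q j := congrArg Subtype.val hij
    exact Fin.ext (hQinj i j i.2 j.2 this)
  let t : v.asIdeal.primesOver (𝓞 L) → ℕ := fun q => q.1.ramificationIdx (𝓞 K) * q.1.inertiaDeg (𝓞 K)
  have ht1 : ∀ q, 1 ≤ t q := by
    intro q
    haveI := q.2.1
    exact Nat.one_le_iff_ne_zero.mpr
      (Nat.mul_ne_zero (Ideal.ramificationIdx_pos q.1 (𝓞 K)).ne' (Ideal.inertiaDeg_pos q.1 (𝓞 K)).ne')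
  have hle : ∑ i : Fin p, t (g i) ≤ p := by
    calc ∑ i : Fin p, t (g i) = ∑ q ∈ Finset.univ.image g, t q := by
          rw [Finset.sum_image (fun a _ b _ h => hg h)]
      _ ≤ ∑ q : v.asIdeal.primesOver (𝓞 L), t q :=
          Finset.sum_le_sum_of_subset (Finset.subset_univ _)
      _ = p := hsum
  have hone : ∀ i : Fin p, t (g i) = 1 := by
    have hcard : ∑ _i : Fin p, (1 : ℕ) = p := by simp
    have h1 : ∑ _i : Fin p, (1 : ℕ) ≤ ∑ i : Fin p, t (g i) :=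
      Finset.sum_le_sum fun i _ => ht1 (g i)
    have heq : ∑ _i : Fin p, (1 : ℕ) = ∑ i : Fin p, t (g i) := le_antisymm h1 (by rw [hcard]; exact hle)
    intro i
    exact ((Finset.sum_eq_sum_iff_of_le fun i _ => ht1 (g i)).mp heq i (Finset.mem_univ i)).symm
  have hQbot : ∀ i, Q i ≠ ⊥ := by
    intro i h
    apply v.ne_bot
    rw [← hQover i, h]
    exact Ideal.comap_bot_of_injective _ hinj
  refine ⟨fun i => ⟨Q i, hQprime i, hQbot i⟩, ?_, ?_⟩
  · intro i j hij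
    have : Q i = Q j := congrArg HeightOneSpectrum.asIdeal hij
    exact Fin.ext (hQinj i j i.2 j.2 this)
  · intro i
    refine ⟨hQover i, ?_⟩
    haveI := hQprime i
    haveI := hQlies i
    have hf : (Q i).inertiaDeg (𝓞 K) = 1 := Nat.eq_one_of_mul_eq_one_left (hone i)
    have := Ideal.absNorm_pow_inertiaDeg v.asIdeal (Q i)
    rw [hf, pow_one] at this
    exact this.symm

end Split

section Field

open Polynomial

theorem integral_data {K L : Type} [Field K] [NumberField K] [Field L] [NumberField L] [Algebra K L]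
    (p : ℕ) (hp : 0 < p) (ζ e : 𝓞 K) (r : L) (hr : r ^ p = algebraMap K L (e : K))
    (τ : L ≃ₐ[K] L) (hτ : τ r = algebraMap K L (ζ : K) * r) :
    ∃ (θ : 𝓞 L) (σ : 𝓞 L ≃ₐ[𝓞 K] 𝓞 L),
      θ ^ p = algebraMap (𝓞 K) (𝓞 L) e ∧ σ θ = algebraMap (𝓞 K) (𝓞 L) ζ * θ := by
  have hrint : IsIntegral ℤ r := by
    apply IsIntegral.of_pow hp
    rw [hr]
    exact (RingOfIntegers.isIntegral_coe e).algebraMap
  have hinj : Function.Injective (algebraMap (𝓞 L) L) := RingOfIntegers.coe_injective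
  obtain ⟨θ, hθr⟩ : ∃ θ : 𝓞 L, algebraMap (𝓞 L) L θ = r := ⟨⟨r, hrint⟩, rfl⟩
  refine ⟨θ, galRestrict (𝓞 K) K L (𝓞 L) τ, ?_, ?_⟩
  · apply hinj
    rw [map_pow, ← IsScalarTower.algebraMap_apply (𝓞 K) (𝓞 L) L,
      IsScalarTower.algebraMap_apply (𝓞 K) K L, hθr]
    exact hr
  · apply hinj
    rw [algebraMap_galRestrict_apply, map_mul, ← IsScalarTower.algebraMap_apply (𝓞 K) (𝓞 L) L,
      IsScalarTower.algebraMap_apply (𝓞 K) K L, hθr]
    exact hτ

theorem exists_kummer_field (p : ℕ) (hp : p.Prime) (K : Type) [Field K] [NumberField K]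
    (ζ : 𝓞 K) (hζ : IsPrimitiveRoot ζ p) (e : 𝓞 K) (he : ¬ ∃ y : 𝓞 K, e = y ^ p) :
    ∃ (L : Type) (_ : Field L) (_ : NumberField L) (_ : Algebra K L) (r : L) (τ : L ≃ₐ[K] L),
      Module.finrank K L = p ∧ r ^ p = algebraMap K L (e : K) ∧
        τ r = algebraMap K L (ζ : K) * r := by
  have hirr : Irreducible (X ^ p - C (e : K)) := by
    rw [X_pow_sub_C_irreducible_iff_of_prime hp]
    intro b hb
    apply he
    have hbint : IsIntegral ℤ b := by
      apply IsIntegral.of_pow hp.pos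
      rw [hb]
      exact RingOfIntegers.isIntegral_coe e
    obtain ⟨y, hyb⟩ : ∃ y : 𝓞 K, algebraMap (𝓞 K) K y = b := ⟨⟨b, hbint⟩, rfl⟩
    refine ⟨y, ?_⟩
    apply RingOfIntegers.coe_injective
    change algebraMap (𝓞 K) K e = algebraMap (𝓞 K) K (y ^ p)
    rw [map_pow, hyb]
    exact hb.symm
  haveI : Fact (Irreducible (X ^ p - C (e : K))) := ⟨hirr⟩
  have hne : X ^ p - C (e : K) ≠ 0 := hirr.ne_zero
  let pb := AdjoinRoot.powerBasis hne
  haveI : FiniteDimensional K (AdjoinRoot (X ^ p - C (e : K))) := pb.finite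
  haveI : CharZero (AdjoinRoot (X ^ p - C (e : K))) :=
    charZero_of_injective_algebraMap (algebraMap K _).injective
  haveI : FiniteDimensional ℚ (AdjoinRoot (X ^ p - C (e : K))) := Module.Finite.trans K _
  haveI : NumberField (AdjoinRoot (X ^ p - C (e : K))) := ⟨⟩
  haveI : NeZero p := ⟨hp.ne_zero⟩
  have hζp : (ζ : K) ^ p = 1 := by
    rw [← map_pow, hζ.pow_eq_one, map_one]
  refine ⟨AdjoinRoot (X ^ p - C (e : K)), inferInstance, inferInstance, inferInstance,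
    AdjoinRoot.root _, autAdjoinRootXPowSubC p (e : K) (rootsOfUnity.mkOfPowEq (ζ : K) hζp),
    ?_, ?_, ?_⟩
  · rw [pb.finrank, AdjoinRoot.powerBasis_dim, natDegree_X_pow_sub_C]
  · exact root_X_pow_sub_C_pow p _
  · rw [autAdjoinRootXPowSubC_root, rootsOfUnity.val_mkOfPowEq_coe, Algebra.smul_def]

end Field

section Main

/-- **`Stmt_KummerDensity`** of `helper1934_ThaineSpec`, from the Finset form of the upper bound
for sums over prime ideals. -/
theorem stmt_KummerDensity (p : ℕ) [hpF : Fact p.Prime] (hZ : Stmt_ZUpper) :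
    helper1934.Stmt_KummerDensity p := by
  classical
  intro K _ _ ζ hζ e he
  have hp := hpF.out
  obtain ⟨L, instF, instN, instA, r, τ, hrank, hr, hτ⟩ :=
    exists_kummer_field p hp K ζ hζ (e : 𝓞 K) he
  obtain ⟨θ, σ, hθ, hσ⟩ := integral_data p hp.pos ζ (e : 𝓞 K) r hr τ hτ
  obtain ⟨B, hB⟩ := hZ L
  refine ⟨B, fun s hs1 hs2 => ?_⟩
  set S : Set (HeightOneSpectrum (𝓞 K)) :=
    {v | (p : 𝓞 K) ∉ v.asIdeal ∧ ∃ y : 𝓞 K, (e : 𝓞 K) - y ^ p ∈ v.asIdeal} with hS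
  have hex : ∀ v : S, ∃ f : Fin p → HeightOneSpectrum (𝓞 L), Function.Injective f ∧
      ∀ i, (f i).asIdeal.comap (algebraMap (𝓞 K) (𝓞 L)) = v.1.asIdeal ∧
        Ideal.absNorm (f i).asIdeal = Ideal.absNorm v.1.asIdeal := by
    rintro ⟨v, hpv, y, hy⟩
    refine exists_primes hp hrank ζ hζ (e : 𝓞 K) θ hθ σ hσ v hpv ?_ y hy
    intro hev
    exact v.isPrime.ne_top (Ideal.eq_top_of_isUnit_mem _ hev e.isUnit)
  choose F hFinj hF using hex
  rw [Set.primeIdealZetaSum_def]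
  have hbound : ∀ u : Finset S,
      ∑ v ∈ u, (Ideal.absNorm v.1.asIdeal : ℝ) ^ (-s) ≤ (Real.log (1 / (s - 1)) + B) / p := by
    intro u
    have hinj2 : Set.InjOn (fun x : S × Fin p => F x.1 x.2)
        (u ×ˢ (Finset.univ : Finset (Fin p)) : Finset (S × Fin p)) := by
      rintro ⟨v, i⟩ - ⟨v', i'⟩ - h
      have h' : F v i = F v' i' := h
      have hv : v = v' := by
        apply Subtype.ext
        apply HeightOneSpectrum.ext
        rw [← (hF v i).1, ← (hF v' i').1, h']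
      subst hv
      rw [hFinj v h']
    have key := hB s hs1 hs2 ((u ×ˢ (Finset.univ : Finset (Fin p))).image
      (fun x : S × Fin p => F x.1 x.2))
    rw [Finset.sum_image hinj2, Finset.sum_product] at key
    have h2 : ∀ v ∈ u, ∑ i : Fin p, (Ideal.absNorm (F v i).asIdeal : ℝ) ^ (-s) =
        p * (Ideal.absNorm v.1.asIdeal : ℝ) ^ (-s) := by
      intro v _
      simp only [(hF v _).2, Finset.sum_const, Finset.card_univ, Fintype.card_fin, nsmul_eq_mul]
    rw [Finset.sum_congr rfl h2, ← Finset.mul_sum] at key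
    rw [le_div_iff₀ (by exact_mod_cast hp.pos : (0 : ℝ) < p)]
    linarith
  have htsum := Real.tsum_le_of_sum_le (f := fun v : S => (Ideal.absNorm v.1.asIdeal : ℝ) ^ (-s))
    (fun v => by positivity) hbound
  have hp0 : (0 : ℝ) < p := by exact_mod_cast hp.pos
  calc (p : ℝ) * ∑' v : S, (Ideal.absNorm v.1.asIdeal : ℝ) ^ (-s)
      ≤ p * ((Real.log (1 / (s - 1)) + B) / p) := by gcongr
    _ = Real.log (1 / (s - 1)) + B := by field_simp

end Main

end Fermat.Agent.S14.helper702
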