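import Fermat.Agent.S14.helper14_Assembly
import Fermat.Agent.S14.helper3506_NoChar
import Fermat.Agent.S14.helper2850_PrimeSums
import Fermat.Agent.S14.helper702_KummerDensity

/-!
# S14: assembly skeleton, level 2 (captain file, helper14)

The statement `Stmt_NoChar` is unfolded through the density comparison; the analytic inputs that
are already closed (`Stmt_PrimeZeta`, `Stmt_NonDegOne`, `Stmt_KummerDensity`) are plugged in.
Remaining hypotheses: the weak Weber bound, Thaine's relation in character form, and the
transport of the Kummer core to the reduction of the frozen statement.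
-/

namespace Fermat.Agent.S14.helper14

/-- `Stmt_KummerDensity p`, closed. -/
theorem stmt_KummerDensity (p : ℕ) [Fact p.Prime] : helper1934.Stmt_KummerDensity p :=
  helper702.stmt_KummerDensity p (fun L _ _ => helper2850.primeSumUpper L)

/-- `Stmt_NoChar p` from the weak Weber bound and Thaine's relation in character form. -/
theorem stmt_NoChar_of (p : ℕ) [Fact p.Prime]
    (hW : helper1934.Stmt_WeberWeak p) (hT : helper1934.Stmt_ThaineChar p) :
    helper1934.Stmt_NoChar p :=
  helper3506.noChar_of_weak p hW helper2850.stmt_PrimeZeta helper2850.stmt_NonDegOne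
    (stmt_KummerDensity p) hT (helper4440.stmt_Local p) (helper854.stmt_E2 p)

/-- Top-level assembly, level 2. -/
theorem extVanishingCts_of₂ {p : ℕ} [Fact p.Prime] (h3 : 3 ≤ p)
    (hW : 5 ≤ p → helper1934.Stmt_WeberWeak p)
    (hT : 5 ≤ p → helper1934.Stmt_ThaineChar p)
    (hTR : helper1934.Stmt_Core p → helper662.Core p) :
    ExtCitation.ExtVanishingCts p :=
  extVanishingCts_of h3 (fun h5 => stmt_NoChar_of p (hW h5) (hT h5)) hTR

end Fermat.Agent.S14.helper14
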