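import Mathlib
import Fermat.Prelude.Def_ExtCitation_AdmissibleExtension_v2

/-!
# S14 moonshot: basic definitions (captain file, helper14)

Language used by every module of the S14 project:
* `F` a number field containing a primitive `p`-th root of unity `ζ` (`p` an odd prime);
* primes are `v : HeightOneSpectrum (𝓞 F)`;
* divisors are finitely supported functions `HeightOneSpectrum (𝓞 F) →₀ ℤ`;
* the `p`-th power residue symbol is recorded by the relation `IsSymAt`.
-/

namespace Fermat.Agent.S14.helper14

open NumberField IsDedekindDomain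

variable {F : Type*} [Field F] [NumberField F]

/-- Additive valuation of `x : F` at the prime `v` (junk value `0` at `x = 0`). -/
noncomputable def ord (v : HeightOneSpectrum (𝓞 F)) (x : F) : ℤ :=
  FractionalIdeal.count F v (FractionalIdeal.spanSingleton (nonZeroDivisors (𝓞 F)) x)

/-- The group of divisors of `F`. -/
abbrev Div (F : Type*) [Field F] [NumberField F] : Type _ := HeightOneSpectrum (𝓞 F) →₀ ℤ

/-- The prime `v` lies over the rational prime `p`. -/
def Over (p : ℕ) (v : HeightOneSpectrum (𝓞 F)) : Prop := (p : 𝓞 F) ∈ v.asIdeal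

/-- `x` is a unit at `v`. -/
def UnitAt (v : HeightOneSpectrum (𝓞 F)) (x : F) : Prop := v.valuation F x = 1

/-- `x ≡ y mod v` (for elements that are integral at `v`). -/
def CongrAt (v : HeightOneSpectrum (𝓞 F)) (x y : F) : Prop := v.valuation F (x - y) < 1

/-- `IsSymAt p ζ v a j`: after dividing `a` by a `p`-th power `y ^ p` it becomes a unit `u` at `v`
with `u ^ ((N v - 1) / p) ≡ ζ ^ j mod v`.  For `v` not over `p` and `p ∣ ord v a` this says that the
`p`-th power residue symbol of `a` at `v` is `ζ ^ j`; `j = 0` means that `v` splits completely in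
`F(a^(1/p))`. -/
def IsSymAt (p : ℕ) (ζ : F) (v : HeightOneSpectrum (𝓞 F)) (a : F) (j : ZMod p) : Prop :=
  ∃ y : F, y ≠ 0 ∧ UnitAt v (a / y ^ p) ∧
    CongrAt v ((a / y ^ p) ^ ((Ideal.absNorm v.asIdeal - 1) / p)) (ζ ^ j.val)

/-- `a` is a `p`-th power in the completion at `v`, phrased with congruences:
for every `N` there is `y` with `a / y ^ p ≡ 1 mod v ^ N`. -/
def IsLocalPow (p : ℕ) (v : HeightOneSpectrum (𝓞 F)) (a : F) : Prop :=
  ∀ N : ℕ, ∃ y : F, y ≠ 0 ∧ v.valuation F (a / y ^ p - 1) ≤ WithZero.exp (-(N : ℤ))

/-- `divOf x` is the principal divisor of `x` (only meaningful for `x ≠ 0`). -/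
def IsDivOf (x : F) (D : Div F) : Prop := ∀ v, D v = ord v x

/-- The prime `v` splits completely in the extension `E / F`. -/
def SplitsCompletely (E : Type*) [Field E] [NumberField E] [Algebra F E]
    (v : HeightOneSpectrum (𝓞 F)) : Prop :=
  (Ideal.primesOver v.asIdeal (𝓞 E)).ncard = Module.finrank F E

end Fermat.Agent.S14.helper14
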