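import Mathlib
import Fermat.Prelude.Def_ExtCitation_AdmissibleExtension_v2
import Fermat.Agent.S14.helper14_Defs

/-!
# S14 moonshot: interface statements (captain file, helper14)

Every module proves one of the `Stmt_*` propositions below (or an implication between them).
The final assembly is `helper14_Final.lean`.
-/

namespace Fermat.Agent.S14.helper14

open NumberField IsDedekindDomain

/-- The Kummer datum produced by the reduction step M1 over a `p`-th cyclotomic field `K`. -/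
structure KummerDatum (p : ℕ) {K : Type} [Field K] [NumberField K] (α : K) : Prop where
  ne_zero : α ≠ 0
  not_pow : ¬ ∃ y : K, α = y ^ p
  ord_dvd : ∀ v : HeightOneSpectrum (𝓞 K), ¬ Over p v → (p : ℤ) ∣ ord v α
  loc_pow : ∀ v : HeightOneSpectrum (𝓞 K), Over p v → IsLocalPow p v α
  eigen : ∀ (σ : K ≃ₐ[ℚ] K) (ζ : K) (n : ℕ), IsPrimitiveRoot ζ p → σ ζ = ζ ^ n →
    ∃ y : K, σ α = α ^ (n ^ 2) * y ^ p

/-- M1 (reduction): a non-split admissible extension produces a Kummer datum. -/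
def Stmt_Reduction (p : ℕ) [Fact p.Prime] : Prop :=
  ¬ ExtCitation.ExtVanishingCts p →
    ∃ (K : Type) (_ : Field K) (_ : NumberField K) (_ : IsCyclotomicExtension {p} ℚ K) (α : K),
      KummerDatum p α

/-- M2a (zeta lemma): in a nontrivial extension of number fields there is a prime of prime
absolute norm, outside any given finite set, which does not split completely. -/
def Stmt_Zeta : Prop :=
  ∀ (E E' : Type) [Field E] [NumberField E] [Field E'] [NumberField E'] [Algebra E E'],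
    1 < Module.finrank E E' → ∀ B : Finset (HeightOneSpectrum (𝓞 E)),
      ∃ w : HeightOneSpectrum (𝓞 E), w ∉ B ∧ (Ideal.absNorm w.asIdeal).Prime ∧
        ¬ SplitsCompletely E' w

/-- M2b (weak Chebotarev for Kummer extensions). -/
def Stmt_WCKummer (p : ℕ) : Prop :=
  ∀ (F : Type) [Field F] [NumberField F] (ζ : F), IsPrimitiveRoot ζ p →
  ∀ (as : Finset F) (b : F), (∀ a ∈ as, a ≠ 0) → b ≠ 0 →
    (¬ ∃ (e : F → ℕ) (y : F), b = (∏ a ∈ as, a ^ e a) * y ^ p) →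
    ∀ B : Finset (HeightOneSpectrum (𝓞 F)),
      ∃ v : HeightOneSpectrum (𝓞 F), v ∉ B ∧ (Ideal.absNorm v.asIdeal).Prime ∧ ¬ Over p v ∧
        (∀ a ∈ as, UnitAt v a ∧ IsSymAt p ζ v a 0) ∧ UnitAt v b ∧ ¬ IsSymAt p ζ v b 0

/-- M3 (Gauss sums): explicit symbol of `δ_r = g(χ_r)^p`. -/
def Stmt_Gauss (p : ℕ) : Prop :=
  ∀ r : ℕ, r.Prime → r % p = 1 →
  ∃ (G : Polynomial ℤ) (χ : ℕ → ZMod p),
    (∀ m n : ℕ, m.Coprime r → n.Coprime r → χ (m * n) = χ m + χ n) ∧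
    (∀ m n : ℕ, m % r = n % r → χ m = χ n) ∧
    (∀ m : ℕ, m.Coprime r → (χ m = 0 ↔ ∃ y : ℕ, y ^ p % r = m % r)) ∧
    ∀ (F : Type) [Field F] [NumberField F] (ζ : F), IsPrimitiveRoot ζ p →
      Polynomial.aeval ζ G ≠ 0 ∧
      ∀ v : HeightOneSpectrum (𝓞 F), ¬ Over p v → ¬ Over r v →
        UnitAt v (Polynomial.aeval ζ G) ∧
        IsSymAt p ζ v (Polynomial.aeval ζ G) (χ (Ideal.absNorm v.asIdeal))

/-- M5 (first inequality, via the Herbrand quotient M4). -/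
def Stmt_FI (p : ℕ) : Prop :=
  ∀ (F : Type) [Field F] [NumberField F] (ζ : F), IsPrimitiveRoot ζ p →
  ∀ b : F, b ≠ 0 → (¬ ∃ y : F, b = y ^ p) →
    (∀ v : HeightOneSpectrum (𝓞 F), Over p v → IsLocalPow p v b) →
    ¬ (∀ D : Div F, (∀ v, ¬ Over p v → ¬ (p : ℤ) ∣ ord v b → D v = 0) →
        ∃ (γ : F) (D₁ D₂ : Div F), γ ≠ 0 ∧
          (∀ v, ¬ Over p v → ¬ (p : ℤ) ∣ ord v b → IsSymAt p ζ v γ 0 ∧ D₂ v = 0) ∧
          (∀ v, D₁ v ≠ 0 → Over p v ∨ IsSymAt p ζ v b 0) ∧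
          (∀ v, D v = ord v γ + D₁ v + p * D₂ v))

/-- M6 (second inequality, Tate's count). -/
def Stmt_SI (p : ℕ) : Prop :=
  ∀ (F : Type) [Field F] [NumberField F] (ζ : F), IsPrimitiveRoot ζ p →
  ∀ a : F, a ≠ 0 → ∀ B : Finset (HeightOneSpectrum (𝓞 F)),
    (∀ v, Over p v → v ∈ B) → (∀ v, v ∉ B → (p : ℤ) ∣ ord v a) →
    ∃ D₀ : Div F, ∀ D : Div F, (∀ v ∈ B, D v = 0) →
      ∃ (n : ℤ) (γ : F) (D₁ D₂ : Div F), γ ≠ 0 ∧
        (∀ v ∈ B, IsLocalPow p v γ) ∧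
        (∀ v, D₁ v ≠ 0 → v ∉ B ∧ IsSymAt p ζ v a 0) ∧
        (∀ v, D v = n * D₀ v + ord v γ + D₁ v + p * D₂ v)

/-- M7 (crossing): two primes of distinct prime norms with nonzero symbols are proportional
modulo principal divisors, split primes and `p`-th multiples. -/
def Stmt_Cross (p : ℕ) : Prop :=
  ∀ (K : Type) [Field K] [NumberField K] [IsCyclotomicExtension {p} ℚ K] (ζ : K),
    IsPrimitiveRoot ζ p →
  ∀ α : K, α ≠ 0 → (∀ v : HeightOneSpectrum (𝓞 K), ¬ Over p v → (p : ℤ) ∣ ord v α) →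
  ∀ (v v' : HeightOneSpectrum (𝓞 K)) (d d' : ℤ),
    (Ideal.absNorm v.asIdeal).Prime → (Ideal.absNorm v'.asIdeal).Prime →
    Ideal.absNorm v.asIdeal ≠ Ideal.absNorm v'.asIdeal →
    ¬ Over p v → ¬ Over p v' →
    IsSymAt p ζ v α (d : ZMod p) → IsSymAt p ζ v' α (d' : ZMod p) →
    (d : ZMod p) ≠ 0 → (d' : ZMod p) ≠ 0 →
    ∃ (γ : K) (D₁ D₂ : Div K), γ ≠ 0 ∧
      (∀ u, D₁ u ≠ 0 → Over p u ∨ IsSymAt p ζ u α 0) ∧
      (∀ u, d' * Finsupp.single v (1 : ℤ) u - d * Finsupp.single v' (1 : ℤ) u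
          = ord u γ + D₁ u + p * D₂ u)

/-- M8 (Stickelberger for Jacobi sums at a prime of degree one). -/
def Stmt_Stick (p : ℕ) : Prop :=
  ∀ (K : Type) [Field K] [NumberField K] [IsCyclotomicExtension {p} ℚ K] (ζ : K),
    IsPrimitiveRoot ζ p →
  ∀ v : HeightOneSpectrum (𝓞 K), (Ideal.absNorm v.asIdeal).Prime → ¬ Over p v →
    ∃ J : K, J ≠ 0 ∧ ∀ w : HeightOneSpectrum (𝓞 K),
      ((∃ (σ : K ≃ₐ[ℚ] K) (t : ℕ), 0 < t ∧ 2 * t < p ∧ σ ζ = ζ ^ t ∧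
          ∀ x : K, w.valuation K x = v.valuation K (σ x)) → ord w J = 1) ∧
      ((¬ ∃ (σ : K ≃ₐ[ℚ] K) (t : ℕ), 0 < t ∧ 2 * t < p ∧ σ ζ = ζ ^ t ∧
          ∀ x : K, w.valuation K x = v.valuation K (σ x)) → ord w J = 0)

end Fermat.Agent.S14.helper14
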