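import Fermat.Agent.S14.helper1331_WeberLite
import Fermat.Agent.S14.helper1934_ThaineSpec2
import Fermat.Agent.S14.helper2850_PrimeSums
import Fermat.Agent.S14.helper3506_NoChar
import Fermat.Agent.Lib.helper1121_ZetaIdealSum

/-!
# S14, Thaine route: adapter from the partial-zeta difference bound (W0) to the Spec
statement `helper1934.Stmt_WeberWeakFin` (captain file, helper14)

`Stmt_W0` is the analytic core in the shape consumed by `helper1331.weber_two_of_class_bound`:
the partial zeta functions of two ideal classes differ by a bounded function on `(1, 2]`.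
-/

set_option autoImplicit false

namespace Fermat.Agent.S14.helper14

open NumberField IsDedekindDomain

open scoped nonZeroDivisors

/-- **W0**: partial zeta functions of two ideal classes have bounded difference on `(1, 2]`. -/
def Stmt_W0 : Prop :=
  ∀ (K : Type) [Field K] [NumberField K] (C C' : ClassGroup (𝓞 K)),
    ∃ B : ℝ, ∀ s ∈ Set.Ioc (1 : ℝ) 2, |helper1331.classZ C s - helper1331.classZ C' s| ≤ B

/-- W0 in subtype-`tsum` form implies `Stmt_W0`. -/
theorem stmt_W0_of_subtype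
    (h : ∀ (K : Type) [Field K] [NumberField K] (C C' : ClassGroup (𝓞 K)),
      ∃ B : ℝ, ∀ s ∈ Set.Ioc (1 : ℝ) 2,
        |(∑' I : {I : (Ideal (𝓞 K))⁰ // ClassGroup.mk0 I = C},
            (Ideal.absNorm ((I : (Ideal (𝓞 K))⁰) : Ideal (𝓞 K)) : ℝ) ^ (-s)) -
          (∑' I : {I : (Ideal (𝓞 K))⁰ // ClassGroup.mk0 I = C'},
            (Ideal.absNorm ((I : (Ideal (𝓞 K))⁰) : Ideal (𝓞 K)) : ℝ) ^ (-s))| ≤ B) :
    Stmt_W0 := by
  intro K _ _ C C'
  obtain ⟨B, hB⟩ := h K C C'
  refine ⟨B, fun s hs => ?_⟩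
  rw [helper1331.classZ_eq_tsum_subtype, helper1331.classZ_eq_tsum_subtype]
  exact hB s hs

/-- The upper bound for prime sums on the half-open interval `(1, 2]`. -/
theorem primeSumUpper_Ioc (K : Type) [Field K] [NumberField K] :
    ∃ B : ℝ, ∀ s ∈ Set.Ioc (1 : ℝ) 2, ∀ T : Finset (HeightOneSpectrum (𝓞 K)),
      ∑ v ∈ T, helper1331.nrm s (helper1331.primeIdeal v) ≤ Real.log (1 / (s - 1)) + B := by
  obtain ⟨B, hB⟩ := helper2850.primeSumUpper K
  have hlog2 : 0 ≤ Real.log 2 := Real.log_nonneg (by norm_num)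
  refine ⟨B + Real.log 2, fun s hs T => ?_⟩
  rcases lt_or_eq_of_le hs.2 with h2 | h2
  · have := hB s hs.1 h2 T
    have e : ∑ v ∈ T, helper1331.nrm s (helper1331.primeIdeal v)
        = ∑ v ∈ T, (Ideal.absNorm v.asIdeal : ℝ) ^ (-s) := rfl
    rw [e]
    linarith
  · subst h2
    have h32 := hB (3 / 2) (by norm_num) (by norm_num) T
    have hle : ∑ v ∈ T, helper1331.nrm 2 (helper1331.primeIdeal v)
        ≤ ∑ v ∈ T, (Ideal.absNorm v.asIdeal : ℝ) ^ (-(3 / 2 : ℝ)) := by
      apply Finset.sum_le_sum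
      intro v _
      have h1 := helper1331.one_le_absNorm_primeIdeal v
      exact Real.rpow_le_rpow_of_exponent_le h1 (by norm_num)
    have hl : Real.log (1 / ((3 / 2 : ℝ) - 1)) = Real.log 2 := by norm_num
    have hl2 : Real.log (1 / ((2 : ℝ) - 1)) = 0 := by norm_num
    rw [hl] at h32
    rw [hl2]
    linarith

/-- **Adapter**: the partial-zeta difference bound implies the weak Weber bound of the Spec
(finite-sum form). -/
theorem stmt_WeberWeakFin_of_W0 (p : ℕ) [Fact p.Prime] (h : Stmt_W0) :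
    helper1934.Stmt_WeberWeakFin p := by
  classical
  intro K _ _ χ hχ
  have hp : p.Prime := Fact.out
  have hG : (Nat.card (Multiplicative (ZMod p))).Prime := by
    have : Nat.card (Multiplicative (ZMod p)) = p := by
      rw [Nat.card_congr Multiplicative.toAdd, Nat.card_eq_fintype_card, ZMod.card]
    rw [this]
    exact hp
  have hχ1 : ∃ C, χ C ≠ 1 := by
    by_contra hcon
    exact hχ (MonoidHom.ext fun C => by simpa using not_not.mp (not_exists.mp hcon C))
  have hsurj := helper1331.surjective_of_prime_card χ hG hχ1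
  obtain ⟨C₀, hC₀⟩ := hχ1
  have hsum : ∀ s : ℝ, 1 < s → Summable (helper1331.nrm (K := K) s) :=
    fun s hs => Fermat.Agent.Lib.helper1121.summable_ideal_rpow K hs
  obtain ⟨B₁, hB₁⟩ := helper1331.weber_two_of_class_bound χ hsurj (χ C₀) hC₀ hsum (h K)
    (primeSumUpper_Ioc K)
  obtain ⟨B₂, hB₂⟩ := helper3506.primeZetaFin_of_primeZeta helper2850.stmt_PrimeZeta K
  refine ⟨B₁ + B₂, fun s hs1 hs2 F hF => ?_⟩
  obtain ⟨F₀, hF₀⟩ := hB₂ s hs1 hs2
  set t : HeightOneSpectrum (𝓞 K) → ℝ := fun v => (Ideal.absNorm v.asIdeal : ℝ) ^ (-s) with ht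
  have ht0 : ∀ v, 0 ≤ t v := fun v => Real.rpow_nonneg (Nat.cast_nonneg _) _
  set A := F₀.filter (fun v => χ (helper1934.primeClass v) = 1) with hA
  set G := F₀.filter (fun v => ¬ χ (helper1934.primeClass v) = 1) with hGdef
  refine ⟨G, fun v hv => (Finset.mem_filter.mp hv).2, ?_⟩
  have hsplit : ∑ v ∈ F₀, t v = ∑ v ∈ A, t v + ∑ v ∈ G, t v :=
    (Finset.sum_filter_add_sum_filter_not F₀ _ t).symm
  have hker : ∀ v ∈ F ∪ A, χ (ClassGroup.mk0 (helper1331.primeIdeal v)) = 1 := by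
    intro v hv
    rcases Finset.mem_union.mp hv with hv | hv
    · exact hF v hv
    · exact (Finset.mem_filter.mp hv).2
  have h2 := hB₁ s ⟨hs1, hs2.le⟩ (F ∪ A) hker
  have e2 : ∑ v ∈ F ∪ A, helper1331.nrm s (helper1331.primeIdeal v) = ∑ v ∈ F ∪ A, t v := rfl
  rw [e2] at h2
  have hFle : ∑ v ∈ F, t v ≤ ∑ v ∈ F ∪ A, t v :=
    Finset.sum_le_sum_of_subset_of_nonneg Finset.subset_union_left (fun v _ _ => ht0 v)
  have hAle : ∑ v ∈ A, t v ≤ ∑ v ∈ F ∪ A, t v :=
    Finset.sum_le_sum_of_subset_of_nonneg Finset.subset_union_right (fun v _ _ => ht0 v)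
  have hF₀' : Real.log (1 / (s - 1)) - B₂ ≤ ∑ v ∈ F₀, t v := hF₀
  show ∑ v ∈ F, t v ≤ ∑ v ∈ G, t v + (B₁ + B₂)
  linarith

end Fermat.Agent.S14.helper14
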