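import Fermat.Agent.S14.helper1575_Sieve

namespace Fermat.Agent.S14.helper1575

open NumberField Ideal Filter Topology Finset Asymptotics

section NF

variable (K : Type*) [Field K] [NumberField K]

/-- The weight `N(I)^(-s)` on ideals. -/
noncomputable abbrev wt (s : ℝ) : Ideal (𝓞 K) → ℝ := fun I => (absNorm I : ℝ) ^ (-s)

/-- number of ideals of norm `n` -/
noncomputable abbrev cnt (n : ℕ) : ℝ := (Nat.card {I : Ideal (𝓞 K) // absNorm I = n} : ℝ)

theorem tendsto_cnt :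
    Tendsto (fun n : ℕ ↦ (∑ k ∈ Finset.Icc 1 n, cnt K k) / (n : ℝ)) atTop
      (𝓝 (dedekindZeta_residue K)) := by
  refine ((Ideal.tendsto_norm_le_div_atTop₀ K).comp tendsto_natCast_atTop_atTop).congr fun n ↦ ?_
  simp only [Function.comp_apply, Nat.cast_le, ← Nat.cast_sum, cnt]
  congr
  rw [← add_left_inj 1, ← card_norm_le_eq_card_norm_le_add_one,
    show Finset.Icc 1 n = Finset.Ioc 0 n from Finset.Icc_succ_left_eq_Ioc _ _,
    show 1 = Nat.card {I : Ideal (𝓞 K) // absNorm I = 0} by simp [Ideal.absNorm_eq_zero_iff],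
    Finset.sum_Ioc_add_eq_sum_Icc (n.zero_le),
    ← Finset.card_preimage_eq_sum_card_image_eq (fun k _ ↦ finite_setOfPred_absNorm_eq k)]
  simp [Set.coe_eq_subtype]

theorem lseriesSummable_cnt (s : ℝ) (hs : 1 < s) :
    LSeriesSummable (fun n ↦ (cnt K n : ℂ)) (s : ℂ) := by
  refine LSeriesSummable_of_sum_norm_bigO_and_nonneg ?_ (fun n => Nat.cast_nonneg _) zero_le_one
    (by simpa using hs)
  exact isBigO_atTop_natCast_rpow_of_tendsto_div_rpow (by simpa using tendsto_cnt K)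

theorem summable_cnt_rpow (s : ℝ) (hs : 1 < s) :
    Summable (fun n : ℕ => cnt K n * (n : ℝ) ^ (-s)) := by
  have h := (lseriesSummable_cnt K s hs).norm
  refine h.congr fun n => ?_
  rcases eq_or_ne n 0 with rfl | hn
  · simp [Real.zero_rpow (by linarith : -s ≠ 0)]
  · rw [LSeries.term_of_ne_zero hn, norm_div, Complex.norm_natCast_cpow_of_pos (Nat.pos_of_ne_zero hn)]
    simp [Real.rpow_neg (Nat.cast_nonneg n), div_eq_mul_inv]

theorem summable_wt (s : ℝ) (hs : 1 < s) : Summable (wt K s) := by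
  rw [← (Equiv.sigmaFiberEquiv (fun I : Ideal (𝓞 K) => absNorm I)).summable_iff]
  rw [summable_sigma_of_nonneg (f := wt K s ∘ (Equiv.sigmaFiberEquiv (fun I : Ideal (𝓞 K) => absNorm I))) (fun x => Real.rpow_nonneg (Nat.cast_nonneg _) _)]
  refine ⟨fun n => ?_, ?_⟩
  · have : Finite {I : Ideal (𝓞 K) // absNorm I = n} :=
      (finite_setOfPred_absNorm_eq n).to_subtype
    exact Summable.of_finite
  · refine (summable_cnt_rpow K s hs).congr fun n => ?_
    have : ∀ y : {I : Ideal (𝓞 K) // absNorm I = n},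
        (wt K s ∘ (Equiv.sigmaFiberEquiv (fun I : Ideal (𝓞 K) => absNorm I))) ⟨n, y⟩
          = (n : ℝ) ^ (-s) := by
      intro y
      simp [wt, Equiv.sigmaFiberEquiv, y.2]
    rw [tsum_congr this, tsum_const, nsmul_eq_mul]

theorem tsum_wt_eq (s : ℝ) (hs : 1 < s) :
    ∑' I, wt K s I = ∑' n : ℕ, cnt K n * (n : ℝ) ^ (-s) := by
  have hsum := summable_wt K s hs
  rw [← (Equiv.sigmaFiberEquiv (fun I : Ideal (𝓞 K) => absNorm I)).summable_iff] at hsum
  rw [← (Equiv.sigmaFiberEquiv (fun I : Ideal (𝓞 K) => absNorm I)).tsum_eq]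
  have hfib : ∀ n : ℕ, Summable fun y : {I : Ideal (𝓞 K) // absNorm I = n} =>
      wt K s ((Equiv.sigmaFiberEquiv (fun I : Ideal (𝓞 K) => absNorm I)) ⟨n, y⟩) := by
    intro n
    have : Finite {I : Ideal (𝓞 K) // absNorm I = n} :=
      (finite_setOfPred_absNorm_eq n).to_subtype
    exact Summable.of_finite
  have hsum' : Summable fun c : (Σ n : ℕ, {I : Ideal (𝓞 K) // absNorm I = n}) =>
      wt K s ((Equiv.sigmaFiberEquiv (fun I : Ideal (𝓞 K) => absNorm I)) c) := hsum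
  rw [Summable.tsum_sigma' hfib hsum']
  refine tsum_congr fun n => ?_
  have : ∀ y : {I : Ideal (𝓞 K) // absNorm I = n},
      wt K s ((Equiv.sigmaFiberEquiv (fun I : Ideal (𝓞 K) => absNorm I)) ⟨n, y⟩)
        = (n : ℝ) ^ (-s) := by
    intro y
    simp [wt, Equiv.sigmaFiberEquiv, y.2]
  rw [tsum_congr this, tsum_const, nsmul_eq_mul]

theorem dedekindZeta_eq (s : ℝ) (hs : 1 < s) :
    dedekindZeta K (s : ℂ) = ((∑' I, wt K s I : ℝ) : ℂ) := by
  rw [tsum_wt_eq K s hs, Complex.ofReal_tsum]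
  unfold dedekindZeta LSeries
  refine tsum_congr fun n => ?_
  rcases eq_or_ne n 0 with rfl | hn
  · simp [Real.zero_rpow (by linarith : -s ≠ 0)]
  · rw [LSeries.term_of_ne_zero hn]
    push_cast
    rw [Complex.ofReal_cpow (Nat.cast_nonneg n)]
    simp [Complex.cpow_neg, div_eq_mul_inv]

theorem tendsto_zeta :
    Tendsto (fun s : ℝ => (s - 1) * ∑' I, wt K s I) (𝓝[>] 1) (𝓝 (dedekindZeta_residue K)) := by
  have h := tendsto_sub_one_mul_dedekindZeta_nhdsGT K
  have h2 := (Complex.continuous_re.tendsto _).comp h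
  simp only [Complex.ofReal_re] at h2
  refine h2.congr' ?_
  filter_upwards [self_mem_nhdsWithin] with s hs
  have hs' : 1 < s := hs
  simp only [Function.comp_apply]
  rw [dedekindZeta_eq K s hs']
  have : ((s : ℂ) - 1) * ((∑' I, wt K s I : ℝ) : ℂ) = (((s - 1) * ∑' I, wt K s I : ℝ) : ℂ) := by
    push_cast; ring
  rw [this, Complex.ofReal_re]

/-! ### Bounds for the zeta sum on `(1, 2]` -/

theorem wt_anti {s t : ℝ} (hs : 0 < s) (hst : s ≤ t) (I : Ideal (𝓞 K)) :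
    wt K t I ≤ wt K s I := by
  simp only [wt]
  rcases Nat.eq_zero_or_pos (absNorm I) with h0 | hpos
  · rw [h0, Nat.cast_zero, Real.zero_rpow (by linarith : -t ≠ 0),
      Real.zero_rpow (by linarith : -s ≠ 0)]
  · exact Real.rpow_le_rpow_of_exponent_le (by exact_mod_cast hpos) (by linarith)

theorem wt_nonneg (s : ℝ) (I : Ideal (𝓞 K)) : 0 ≤ wt K s I :=
  Real.rpow_nonneg (Nat.cast_nonneg _) _

theorem wt_top (s : ℝ) : wt K s ⊤ = 1 := by
  simp [wt]

theorem one_le_zeta (s : ℝ) (hs : 1 < s) : 1 ≤ ∑' I, wt K s I := by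
  have := (summable_wt K s hs).le_tsum ⊤ (fun I _ => wt_nonneg K s I)
  rwa [wt_top] at this

theorem exists_zeta_bounds :
    ∃ c C : ℝ, 0 < c ∧ ∀ s : ℝ, 1 < s → s ≤ 2 →
      c ≤ (s - 1) * ∑' I, wt K s I ∧ (s - 1) * ∑' I, wt K s I ≤ C := by
  have hρ := dedekindZeta_residue_pos K
  set ρ := dedekindZeta_residue K with hρdef
  have hev := (tendsto_zeta K).eventually
    (Ioo_mem_nhds (half_lt_self hρ) (by linarith : ρ < 2 * ρ))
  obtain ⟨u, hu, hsub⟩ := mem_nhdsGT_iff_exists_Ioo_subset.mp hev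
  have hu1 : 1 < u := hu
  set v : ℝ := (1 + min u 2) / 2 with hv
  have hv1 : 1 < v := by
    have : 1 < min u 2 := lt_min hu1 (by norm_num)
    rw [hv]; linarith
  have hvu : v < u := by
    have h1 : min u 2 ≤ u := min_le_left _ _
    rw [hv]; linarith
  refine ⟨min (ρ / 2) (v - 1), max (2 * ρ) (∑' I, wt K v I), lt_min (by linarith) (by linarith), ?_⟩
  intro s hs1 hs2
  by_cases hsv : s < v
  · have hmem : s ∈ Set.Ioo 1 u := ⟨hs1, hsv.trans hvu⟩
    have h3 : (s - 1) * ∑' I, wt K s I ∈ Set.Ioo (ρ / 2) (2 * ρ) := hsub hmem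
    exact ⟨(min_le_left _ _).trans h3.1.le, h3.2.le.trans (le_max_left _ _)⟩
  · have hvs : v ≤ s := not_lt.mp hsv
    have h1 := one_le_zeta K s hs1
    have h2 : ∑' I, wt K s I ≤ ∑' I, wt K v I :=
      (summable_wt K s hs1).tsum_le_tsum (fun I => wt_anti K (by linarith) hvs I)
        (summable_wt K v hv1)
    constructor
    · calc min (ρ / 2) (v - 1) ≤ v - 1 := min_le_right _ _
        _ ≤ (s - 1) * 1 := by linarith
        _ ≤ (s - 1) * ∑' I, wt K s I := mul_le_mul_of_nonneg_left h1 (by linarith)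
    · calc (s - 1) * ∑' I, wt K s I ≤ 1 * ∑' I, wt K s I :=
            mul_le_mul_of_nonneg_right (by linarith) (by linarith)
        _ ≤ ∑' I, wt K v I := by linarith
        _ ≤ max (2 * ρ) (∑' I, wt K v I) := le_max_right _ _

/-! ### The weight structure -/

theorem prime_absNorm_two_le {Q : Ideal (𝓞 K)} (hQ : Prime Q) : 2 ≤ absNorm Q := by
  have h0 : absNorm Q ≠ 0 := fun h => hQ.ne_zero (absNorm_eq_zero_iff.mp h)
  have h1 : absNorm Q ≠ 1 := fun h => hQ.not_isUnit (by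
    rw [absNorm_eq_one_iff.mp h, ← Ideal.one_eq_top]
    exact isUnit_one)
  omega

theorem wt_prime_le_half (s : ℝ) (hs : 1 ≤ s) {Q : Ideal (𝓞 K)} (hQ : Prime Q) :
    wt K s Q ≤ 1 / 2 := by
  have h2 : (2 : ℝ) ≤ absNorm Q := by exact_mod_cast prime_absNorm_two_le K hQ
  calc wt K s Q ≤ (2 : ℝ) ^ (-s) :=
        Real.rpow_le_rpow_of_nonpos (by norm_num) h2 (by linarith)
    _ ≤ (2 : ℝ) ^ (-1 : ℝ) := Real.rpow_le_rpow_of_exponent_le (by norm_num) (by linarith)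
    _ = 1 / 2 := by rw [Real.rpow_neg_one]; norm_num

theorem weight_wt {A : Type*} [AddCommGroup A] [Fintype A] (s : ℝ) (hs : 1 < s)
    (c : Ideal (𝓞 K) → A)
    (hc : ∀ I J : Ideal (𝓞 K), I ≠ ⊥ → J ≠ ⊥ → c (I * J) = c I + c J) :
    Weight (wt K s) c where
  zero := by simp [wt, Real.zero_rpow (by linarith : -s ≠ 0)]
  one := by simp [wt]
  nonneg := wt_nonneg K s
  mul := fun I J => by
    simp only [wt, map_mul, Nat.cast_mul]
    exact Real.mul_rpow (Nat.cast_nonneg _) (Nat.cast_nonneg _)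
  le_one := fun Q hQ => (wt_prime_le_half K s hs.le hQ).trans (by norm_num)
  summable := summable_wt K s hs
  add := fun I J hI hJ => hc I J hI hJ

/-! ### Primes of non-prime norm contribute `O(1)` -/

theorem prime_norm_data {Q : Ideal (𝓞 K)} (hQ : Prime Q) :
    ∃ ℓ f : ℕ, ℓ = (absNorm Q).minFac ∧ ℓ.Prime ∧ (ℓ : 𝓞 K) ∈ Q ∧ 0 < f ∧ absNorm Q = ℓ ^ f := by
  have : Q.IsMaximal := (Ideal.isPrime_of_prime hQ).isMaximal hQ.ne_zero
  obtain ⟨ℓ, f, hf, hmem, hℓ, hN⟩ := Ideal.exists_prime_and_absNorm_eq_pow Q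
  refine ⟨ℓ, f, ?_, hℓ, hmem, hf, hN⟩
  rw [hN]
  exact (hℓ.pow_minFac hf.ne').symm

theorem card_primes_over_le (ℓ : ℕ) (hℓ : ℓ.Prime) (T : Finset (Ideal (𝓞 K)))
    (hT : ∀ Q ∈ T, Prime Q ∧ (ℓ : 𝓞 K) ∈ Q ∧ ℓ ≤ absNorm Q) :
    T.card ≤ Module.finrank ℚ K := by
  have hdvd : ∏ Q ∈ T, Q ∣ Ideal.span {(ℓ : 𝓞 K)} :=
    Finset.prod_primes_dvd _ (fun Q hQ => (hT Q hQ).1) (fun Q hQ => by
      rw [Ideal.dvd_iff_le, Ideal.span_singleton_le_iff_mem]
      exact (hT Q hQ).2.1)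
  have hle := Ideal.absNorm_dvd_absNorm_of_le (Ideal.le_of_dvd hdvd)
  rw [Ideal.absNorm_span_natCast, RingOfIntegers.rank, map_prod] at hle
  have h1 : ℓ ^ T.card ≤ ∏ Q ∈ T, absNorm Q := by
    rw [← Finset.prod_const]
    exact Finset.prod_le_prod (fun _ _ => Nat.zero_le _) (fun Q hQ => (hT Q hQ).2.2)
  have h2 : ∏ Q ∈ T, absNorm Q ≤ ℓ ^ Module.finrank ℚ K :=
    Nat.le_of_dvd (pow_pos hℓ.pos _) hle
  exact (Nat.pow_le_pow_iff_right hℓ.one_lt).mp (h1.trans h2)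

theorem sum_inv_sq_le (T : Finset ℕ) : ∑ n ∈ T, ((n : ℝ) ^ 2)⁻¹ ≤ 2 := by
  have h := hasSum_zeta_two
  have h1 : ∑ n ∈ T, ((n : ℝ) ^ 2)⁻¹ = ∑ n ∈ T, 1 / (n : ℝ) ^ 2 := by
    simp [one_div]
  rw [h1]
  have h2 := h.summable.sum_le_tsum T (fun n _ => by positivity)
  rw [h.tsum_eq] at h2
  have hpi := Real.pi_lt_d2
  have hpi0 := Real.pi_pos
  nlinarith

theorem sum_nonprime_le (s : ℝ) (hs : 1 ≤ s) (G : Finset (Ideal (𝓞 K)))
    (hG : ∀ Q ∈ G, Prime Q ∧ ¬ (absNorm Q).Prime) :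
    ∑ Q ∈ G, wt K s Q ≤ 2 * (Module.finrank ℚ K : ℝ) := by
  classical
  set mf : Ideal (𝓞 K) → ℕ := fun Q => (absNorm Q).minFac with hmf
  have hterm : ∀ Q ∈ G, wt K s Q ≤ ((mf Q : ℝ) ^ 2)⁻¹ := by
    intro Q hQ
    obtain ⟨ℓ, f, hℓdef, hp, hmem, hf, hN⟩ := prime_norm_data K (hG Q hQ).1
    have hf2 : 2 ≤ f := by
      by_contra hlt
      have hf1 : f = 1 := by omega
      rw [hf1, pow_one] at hN
      exact (hG Q hQ).2 (hN ▸ hp)
    have hge : ℓ ^ 2 ≤ absNorm Q := by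
      calc ℓ ^ 2 ≤ ℓ ^ f := Nat.pow_le_pow_right hp.pos hf2
        _ = absNorm Q := hN.symm
    have hge' : ((ℓ : ℝ)) ^ 2 ≤ (absNorm Q : ℝ) := by exact_mod_cast hge
    have hℓpos : (0 : ℝ) < (ℓ : ℝ) ^ 2 := by
      have : (0 : ℝ) < ℓ := by exact_mod_cast hp.pos
      positivity
    have hn1 : (1 : ℝ) ≤ absNorm Q := by
      have := prime_absNorm_two_le K (hG Q hQ).1
      exact_mod_cast (by omega : 1 ≤ absNorm Q)
    have hmfQ : mf Q = ℓ := hℓdef.symm
    rw [hmfQ]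
    calc wt K s Q ≤ (absNorm Q : ℝ) ^ (-1 : ℝ) :=
          Real.rpow_le_rpow_of_exponent_le hn1 (by linarith)
      _ = ((absNorm Q : ℝ))⁻¹ := Real.rpow_neg_one _
      _ ≤ ((ℓ : ℝ) ^ 2)⁻¹ := inv_anti₀ hℓpos hge'
  have hfib : ∀ ℓ ∈ G.image mf, ∑ Q ∈ G with mf Q = ℓ, ((mf Q : ℝ) ^ 2)⁻¹
      ≤ (Module.finrank ℚ K : ℝ) * ((ℓ : ℝ) ^ 2)⁻¹ := by
    intro ℓ hℓ
    obtain ⟨Q₀, hQ₀, hQ₀ℓ⟩ := Finset.mem_image.mp hℓ
    have hℓprime : ℓ.Prime := by
      obtain ⟨ℓ', f, hℓdef, hp, -, -, -⟩ := prime_norm_data K (hG Q₀ hQ₀).1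
      have : ℓ' = ℓ := hℓdef.trans hQ₀ℓ
      exact this ▸ hp
    have hcard : (G.filter (fun Q => mf Q = ℓ)).card ≤ Module.finrank ℚ K := by
      refine card_primes_over_le K ℓ hℓprime _ (fun Q hQ => ?_)
      have hQ' := Finset.mem_filter.mp hQ
      obtain ⟨ℓ', f, hℓdef, hp, hmem, hf, hN⟩ := prime_norm_data K (hG Q hQ'.1).1
      have hℓ' : ℓ' = ℓ := hℓdef.trans hQ'.2
      refine ⟨(hG Q hQ'.1).1, hℓ' ▸ hmem, ?_⟩
      rw [← hQ'.2]
      exact Nat.minFac_le (by have := prime_absNorm_two_le K (hG Q hQ'.1).1; omega)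
    have h1 : ∑ Q ∈ G with mf Q = ℓ, ((mf Q : ℝ) ^ 2)⁻¹
        = ∑ Q ∈ G with mf Q = ℓ, ((ℓ : ℝ) ^ 2)⁻¹ :=
      Finset.sum_congr rfl (fun Q hQ => by rw [(Finset.mem_filter.mp hQ).2])
    rw [h1, Finset.sum_const, nsmul_eq_mul]
    exact mul_le_mul_of_nonneg_right (by exact_mod_cast hcard) (by positivity)
  calc ∑ Q ∈ G, wt K s Q ≤ ∑ Q ∈ G, ((mf Q : ℝ) ^ 2)⁻¹ := Finset.sum_le_sum hterm
    _ = ∑ ℓ ∈ G.image mf, ∑ Q ∈ G with mf Q = ℓ, ((mf Q : ℝ) ^ 2)⁻¹ :=
        (Finset.sum_fiberwise_of_maps_to (fun Q hQ => Finset.mem_image_of_mem mf hQ) _).symm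
    _ ≤ ∑ ℓ ∈ G.image mf, (Module.finrank ℚ K : ℝ) * ((ℓ : ℝ) ^ 2)⁻¹ := Finset.sum_le_sum hfib
    _ = (Module.finrank ℚ K : ℝ) * ∑ ℓ ∈ G.image mf, ((ℓ : ℝ) ^ 2)⁻¹ := by
        rw [Finset.mul_sum]
    _ ≤ (Module.finrank ℚ K : ℝ) * 2 :=
        mul_le_mul_of_nonneg_left (sum_inv_sq_le _) (Nat.cast_nonneg _)
    _ = 2 * (Module.finrank ℚ K : ℝ) := by ring

/-! ### The density comparison engine -/

section Engine

omit [Field K] [NumberField K] in
lemma Zs_empty' {M : Type*} [CommMonoidWithZero M] {A : Type*} (w : M → ℝ) (c : M → A) (j : A) :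
    Zs w c ∅ j = ∑' a, Set.indicator {a | c a = j} w a := by
  have : {a : M | Cop (∅ : Finset M) a ∧ c a = j} = {a | c a = j} := by
    ext a
    simp [Cop]
  rw [Zs, this]

variable (L : Type*) [Field L] [NumberField L]

/-- **Density comparison engine.**  `c` is additive on nonzero ideals of `𝓞 K` with values in a
finite abelian group with at least two elements, the fibre sums of `N(I)^(-s)` differ by a
bounded amount on `(1, 2]` (this is the partial-zeta difference bound `(W0)`), and every prime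
`Q` of `𝓞 K` of prime norm outside a finite set `E` with `c Q ≠ 0` has at least `m ≥ 3` primes
of `𝓞 L` "above" it (`f P = Q`) of the same norm.  This is impossible. -/
theorem density_comparison
    {A : Type*} [AddCommGroup A] [Fintype A] (hA : 2 ≤ Fintype.card A)
    (c : Ideal (𝓞 K) → A)
    (hc : ∀ I J : Ideal (𝓞 K), I ≠ ⊥ → J ≠ ⊥ → c (I * J) = c I + c J)
    (B : ℝ)
    (hB : ∀ s : ℝ, 1 < s → s ≤ 2 → ∀ j j' : A,
      |(∑' I : Ideal (𝓞 K), Set.indicator {I | c I = j} (fun I => (absNorm I : ℝ) ^ (-s)) I)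
        - ∑' I : Ideal (𝓞 K), Set.indicator {I | c I = j'} (fun I => (absNorm I : ℝ) ^ (-s)) I|
        ≤ B)
    (m : ℕ) (hm : 3 ≤ m)
    (E : Set (Ideal (𝓞 K))) (hE : E.Finite)
    (f : Ideal (𝓞 L) → Ideal (𝓞 K))
    (hsplit : ∀ Q : Ideal (𝓞 K), Q.IsPrime → Q ≠ ⊥ → (absNorm Q).Prime → Q ∉ E → c Q ≠ 0 →
      ∃ W : Finset (Ideal (𝓞 L)), m ≤ W.card ∧
        ∀ P ∈ W, P.IsPrime ∧ P ≠ ⊥ ∧ f P = Q ∧ absNorm P = absNorm Q) :
    False := by
  classical
  obtain ⟨cK, CK, hcK, hKb⟩ := exists_zeta_bounds K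
  obtain ⟨cL, CL, hcL, hLb⟩ := exists_zeta_bounds L
  set d : ℝ := (Module.finrank ℚ K : ℝ) with hd
  set nE : ℝ := (hE.toFinset.card : ℝ) with hnE
  set C2 : ℝ := ∑' I, wt K 2 I with hC2
  have hmpos : (0 : ℝ) < m := by exact_mod_cast (by omega : 0 < m)
  have hm3 : (3 : ℝ) ≤ m := by exact_mod_cast hm
  -- the key inequality at each `s`
  have key : ∀ s : ℝ, 1 < s → s ≤ 2 →
      Real.log (∑' I, wt K s I)
        ≤ 2 * (nE + 2 * d + (1 / m) * Real.log (∑' I, wt L s I))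
          + Real.log (4 * B) + C2 + Real.log (3 / 2) := by
    intro s hs1 hs2
    have hWK : Weight (wt K s) c := weight_wt K s hs1 c hc
    have hWL : Weight (wt L s) (fun _ : Ideal (𝓞 L) => (0 : Unit)) :=
      weight_wt L s hs1 _ (fun _ _ _ _ => rfl)
    obtain ⟨S₁, hS₁, hlog⟩ :=
      exists_log_tsum_le hWK (fun Q hQ => wt_prime_le_half K s hs1.le hQ)
    -- the squares
    have hsq : ∑ Q ∈ S₁, wt K s Q ^ 2 ≤ C2 := by
      have h1 : ∀ Q ∈ S₁, wt K s Q ^ 2 ≤ wt K 2 Q := by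
        intro Q hQ
        have hn1 : (1 : ℝ) ≤ absNorm Q := by
          have := prime_absNorm_two_le K (hS₁ Q hQ)
          exact_mod_cast (by omega : 1 ≤ absNorm Q)
        have h0 : (0 : ℝ) ≤ absNorm Q := by linarith
        simp only [wt]
        rw [← Real.rpow_natCast, ← Real.rpow_mul h0]
        exact Real.rpow_le_rpow_of_exponent_le hn1 (by push_cast; linarith)
      calc ∑ Q ∈ S₁, wt K s Q ^ 2 ≤ ∑ Q ∈ S₁, wt K 2 Q := Finset.sum_le_sum h1
        _ ≤ C2 := (summable_wt K 2 (by norm_num)).sum_le_tsum S₁ (fun I _ => wt_nonneg K 2 I)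
    -- the weak Weber bound
    have hB' : ∀ j j' : A, |Zs (wt K s) c ∅ j - Zs (wt K s) c ∅ j'| ≤ B := by
      intro j j'
      rw [Zs_empty', Zs_empty']
      exact hB s hs1 hs2 j j'
    obtain ⟨G₁, hG₁, hww⟩ := weak_weber hWK hA B hB' (S₁.filter (fun Q => c Q = 0))
      (fun Q hQ => ⟨hS₁ Q (Finset.mem_filter.mp hQ).1, (Finset.mem_filter.mp hQ).2⟩)
    set G := S₁.filter (fun Q => ¬ c Q = 0) ∪ G₁ with hGdef
    have hGprime : ∀ Q ∈ G, Prime Q ∧ c Q ≠ 0 := by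
      intro Q hQ
      rcases Finset.mem_union.mp hQ with h1 | h1
      · exact ⟨hS₁ Q (Finset.mem_filter.mp h1).1, (Finset.mem_filter.mp h1).2⟩
      · exact hG₁ Q h1
    have hS₁G : ∑ Q ∈ S₁, wt K s Q ≤ 2 * ∑ Q ∈ G, wt K s Q + Real.log (4 * B) := by
      have h1 := Finset.sum_filter_add_sum_filter_not S₁ (fun Q => c Q = 0) (wt K s)
      have h2 : ∑ Q ∈ S₁.filter (fun Q => ¬ c Q = 0), wt K s Q ≤ ∑ Q ∈ G, wt K s Q :=
        Finset.sum_le_sum_of_subset_of_nonneg Finset.subset_union_left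
          (fun _ _ _ => hWK.nonneg _)
      have h3 : ∑ Q ∈ G₁, wt K s Q ≤ ∑ Q ∈ G, wt K s Q :=
        Finset.sum_le_sum_of_subset_of_nonneg Finset.subset_union_right
          (fun _ _ _ => hWK.nonneg _)
      linarith
    -- bound the sum over `G`
    have hGsum : ∑ Q ∈ G, wt K s Q
        ≤ nE + 2 * d + (1 / m) * Real.log (∑' I, wt L s I) := by
      have hsplit1 := Finset.sum_filter_add_sum_filter_not G (fun Q => Q ∈ E) (wt K s)
      have hsplit2 := Finset.sum_filter_add_sum_filter_not (G.filter (fun Q => ¬ Q ∈ E))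
        (fun Q => (absNorm Q).Prime) (wt K s)
      have hGE : ∑ Q ∈ G.filter (fun Q => Q ∈ E), wt K s Q ≤ nE := by
        calc ∑ Q ∈ G.filter (fun Q => Q ∈ E), wt K s Q
            ≤ ∑ _Q ∈ G.filter (fun Q => Q ∈ E), (1 : ℝ) :=
              Finset.sum_le_sum (fun Q hQ =>
                hWK.le_one Q (hGprime Q (Finset.mem_filter.mp hQ).1).1)
          _ = ((G.filter (fun Q => Q ∈ E)).card : ℝ) := by simp
          _ ≤ nE := by
              have : (G.filter (fun Q => Q ∈ E)).card ≤ hE.toFinset.card :=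
                Finset.card_le_card (fun Q hQ =>
                  hE.mem_toFinset.mpr (Finset.mem_filter.mp hQ).2)
              rw [hnE]
              exact_mod_cast this
      have hGn : ∑ Q ∈ (G.filter (fun Q => ¬ Q ∈ E)).filter (fun Q => ¬ (absNorm Q).Prime),
          wt K s Q ≤ 2 * d :=
        sum_nonprime_le K s hs1.le _ (fun Q hQ =>
          ⟨(hGprime Q (Finset.mem_filter.mp (Finset.mem_filter.mp hQ).1).1).1,
            (Finset.mem_filter.mp hQ).2⟩)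
      have hGg : (m : ℝ) * ∑ Q ∈ (G.filter (fun Q => ¬ Q ∈ E)).filter
          (fun Q => (absNorm Q).Prime), wt K s Q ≤ Real.log (∑' I, wt L s I) := by
        set Gg := (G.filter (fun Q => ¬ Q ∈ E)).filter (fun Q => (absNorm Q).Prime) with hGg
        have hex : ∀ Q ∈ Gg, ∃ W : Finset (Ideal (𝓞 L)), m ≤ W.card ∧
            ∀ P ∈ W, P.IsPrime ∧ P ≠ ⊥ ∧ f P = Q ∧ absNorm P = absNorm Q := by
          intro Q hQ
          have hQ1 := Finset.mem_filter.mp hQ
          have hQ2 := Finset.mem_filter.mp hQ1.1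
          have hQp := hGprime Q hQ2.1
          exact hsplit Q (Ideal.isPrime_of_prime hQp.1) hQp.1.ne_zero hQ1.2 hQ2.2 hQp.2
        choose! W hW using hex
        have hdisj : (Gg : Set (Ideal (𝓞 K))).PairwiseDisjoint W := by
          intro Q hQ Q' hQ' hne
          rw [Function.onFun, Finset.disjoint_left]
          intro P hP hP'
          exact hne (((hW Q hQ).2 P hP).2.2.1.symm.trans ((hW Q' hQ').2 P hP').2.2.1)
        have hsumW : ∑ P ∈ Gg.biUnion W, wt L s P = ∑ Q ∈ Gg, ∑ P ∈ W Q, wt L s P :=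
          Finset.sum_biUnion hdisj
        have hle : ∀ Q ∈ Gg, (m : ℝ) * wt K s Q ≤ ∑ P ∈ W Q, wt L s P := by
          intro Q hQ
          have h1 : ∀ P ∈ W Q, wt L s P = wt K s Q := fun P hP => by
            simp only [wt]
            rw [((hW Q hQ).2 P hP).2.2.2]
          rw [Finset.sum_congr rfl h1, Finset.sum_const, nsmul_eq_mul]
          exact mul_le_mul_of_nonneg_right (by exact_mod_cast (hW Q hQ).1) (hWK.nonneg Q)
        have hprimeW : ∀ P ∈ Gg.biUnion W, Prime P := by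
          intro P hP
          obtain ⟨Q, hQ, hPQ⟩ := Finset.mem_biUnion.mp hP
          have := (hW Q hQ).2 P hPQ
          exact Ideal.prime_of_isPrime this.2.1 this.1
        calc (m : ℝ) * ∑ Q ∈ Gg, wt K s Q = ∑ Q ∈ Gg, (m : ℝ) * wt K s Q :=
              Finset.mul_sum _ _ _
          _ ≤ ∑ Q ∈ Gg, ∑ P ∈ W Q, wt L s P := Finset.sum_le_sum hle
          _ = ∑ P ∈ Gg.biUnion W, wt L s P := hsumW.symm
          _ ≤ Real.log (∑' I, wt L s I) := sum_le_log_tsum hWL _ hprimeW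
      have hGg' : ∑ Q ∈ (G.filter (fun Q => ¬ Q ∈ E)).filter
          (fun Q => (absNorm Q).Prime), wt K s Q ≤ (1 / m) * Real.log (∑' I, wt L s I) := by
        rw [one_div, inv_mul_eq_div, le_div_iff₀ hmpos]
        linarith
      linarith
    linarith
  -- the contradiction as `s → 1⁺`
  set Const : ℝ := 2 * (nE + 2 * d) + Real.log (4 * B) + C2 + Real.log (3 / 2)
    - Real.log cK + (2 / m) * Real.log CL with hConst
  set T : ℝ := |3 * Const| + 1 with hT
  have hTpos : 1 ≤ T := by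
    have := abs_nonneg (3 * Const)
    linarith
  set s : ℝ := 1 + Real.exp (-T) with hs
  have hs1 : 1 < s := by
    have := Real.exp_pos (-T)
    linarith
  have hs2 : s ≤ 2 := by
    have : Real.exp (-T) ≤ 1 := by
      rw [Real.exp_le_one_iff]
      linarith
    linarith
  have hsub : s - 1 = Real.exp (-T) := by rw [hs]; ring
  have hsub_pos : 0 < s - 1 := by linarith
  have hlogsub : Real.log (s - 1) = -T := by rw [hsub, Real.log_exp]
  have hk := key s hs1 hs2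
  have hK1 := (hKb s hs1 hs2).1
  have hL2 := (hLb s hs1 hs2).2
  have hζK : 0 < ∑' I, wt K s I := lt_of_lt_of_le one_pos (one_le_zeta K s hs1)
  have hζL : 0 < ∑' I, wt L s I := lt_of_lt_of_le one_pos (one_le_zeta L s hs1)
  have hCLpos : 0 < CL := lt_of_lt_of_le (mul_pos hsub_pos hζL) hL2
  -- log ζ_K ≥ log cK + T
  have hlogK : Real.log cK + T ≤ Real.log (∑' I, wt K s I) := by
    have h1 : cK / (s - 1) ≤ ∑' I, wt K s I := by
      rw [div_le_iff₀ hsub_pos]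
      linarith
    have h2 := Real.log_le_log (div_pos hcK hsub_pos) h1
    rw [Real.log_div hcK.ne' hsub_pos.ne', hlogsub] at h2
    linarith
  -- log ζ_L ≤ log CL + T
  have hlogL : Real.log (∑' I, wt L s I) ≤ Real.log CL + T := by
    have h1 : ∑' I, wt L s I ≤ CL / (s - 1) := by
      rw [le_div_iff₀ hsub_pos]
      linarith
    have h2 := Real.log_le_log hζL h1
    rw [Real.log_div hCLpos.ne' hsub_pos.ne', hlogsub] at h2
    linarith
  have h2m : (2 : ℝ) / m ≤ 2 / 3 := by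
    rw [div_le_div_iff₀ hmpos (by norm_num)]
    linarith
  have h2m0 : (0 : ℝ) ≤ 2 / m := by positivity
  have hmul : (1 / (m : ℝ)) * Real.log (∑' I, wt L s I) ≤ (1 / m) * (Real.log CL + T) :=
    mul_le_mul_of_nonneg_left hlogL (by positivity)
  have hfin : T ≤ Const + (2 / m) * T := by
    have e1 : 2 * ((1 / (m : ℝ)) * (Real.log CL + T)) = (2 / m) * Real.log CL + (2 / m) * T := by
      ring
    rw [hConst]
    linarith
  have hfin2 : T ≤ Const + (2 / 3) * T := by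
    have : (2 / (m : ℝ)) * T ≤ (2 / 3) * T := mul_le_mul_of_nonneg_right h2m (by linarith)
    linarith
  have hfin3 : T ≤ 3 * Const := by linarith
  have hfin4 : 3 * Const ≤ |3 * Const| := le_abs_self _
  linarith

end Engine

end NF

end Fermat.Agent.S14.helper1575
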