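import Mathlib

/-!
# A one-prime-at-a-time sieve for weighted sums over a unique factorisation monoid

Abstract engine behind the "weak Weber bound" and the two zeta prime-sum bounds of the
S14 Thaine route.  No Euler products, no complex characters, no bijection between smooth
elements and exponent vectors: only the step "remove one prime".

Setting: `M` a cancellative commutative monoid with zero, unique factorisation and trivial
units (e.g. the ideals of a Dedekind domain), `w : M → ℝ` a summable nonnegative completely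
multiplicative weight with `w 0 = 0`, and `c : M → A` additive on nonzero elements with values
in a finite abelian group.
-/

namespace Fermat.Agent.S14.helper1575

open Finset

section Sieve

variable {M : Type*} [CommMonoidWithZero M] [UniqueFactorizationMonoid M]
  [Subsingleton Mˣ]
variable {A : Type*} [AddCommGroup A] [Fintype A]

/-- `a` is divisible by no element of `S`. -/
def Cop (S : Finset M) (a : M) : Prop := ∀ Q ∈ S, ¬ Q ∣ a

/-- The sieved partial sum: sum of `w a` over the `a` with `c a = j` divisible by no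
element of `S`. -/
noncomputable def Zs (w : M → ℝ) (c : M → A) (S : Finset M) (j : A) : ℝ :=
  ∑' a : M, Set.indicator {a | Cop S a ∧ c a = j} w a

/-- The hypotheses on the weight `w` and the class function `c`. -/
structure Weight (w : M → ℝ) (c : M → A) : Prop where
  zero : w 0 = 0
  one : w 1 = 1
  nonneg : ∀ a, 0 ≤ w a
  mul : ∀ a b, w (a * b) = w a * w b
  le_one : ∀ Q, Prime Q → w Q ≤ 1
  summable : Summable w
  add : ∀ a b, a ≠ 0 → b ≠ 0 → c (a * b) = c a + c b

variable {w : M → ℝ} {c : M → A}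

omit [UniqueFactorizationMonoid M] [Subsingleton Mˣ] [Fintype A] in
lemma Weight.summable_ind (h : Weight w c) (s : Set M) : Summable (s.indicator w) :=
  h.summable.indicator s

omit [UniqueFactorizationMonoid M] [Subsingleton Mˣ] [Fintype A] in
lemma Weight.ind_nonneg (h : Weight w c) (s : Set M) (a : M) : 0 ≤ s.indicator w a :=
  Set.indicator_nonneg (fun a _ => h.nonneg a) a

omit [UniqueFactorizationMonoid M] [Subsingleton Mˣ] [Fintype A] in
lemma Weight.c_one (h : Weight w c) : c 1 = 0 := by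
  have h10 : (1 : M) ≠ 0 := fun e => by
    have := h.one
    rw [e, h.zero] at this
    exact zero_ne_one this
  have := h.add 1 1 h10 h10
  rw [mul_one] at this
  have h2 := congrArg (fun x => x - c 1) this
  simpa using h2.symm

lemma cop_mul_iff {S : Finset M} (hS : ∀ Q' ∈ S, Prime Q') {Q : M} (hQ : Prime Q)
    (hQS : Q ∉ S) (a : M) : Cop S (Q * a) ↔ Cop S a := by
  constructor
  · intro h Q' hQ' hd
    exact h Q' hQ' (dvd_mul_of_dvd_right hd Q)
  · intro h Q' hQ' hd
    rcases (hS Q' hQ').dvd_or_dvd hd with h1 | h1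
    · have : Q' = Q := associated_iff_eq.mp (((hS Q' hQ').dvd_prime_iff_associated hQ).mp h1)
      exact hQS (this ▸ hQ')
    · exact h Q' hQ' h1

omit [UniqueFactorizationMonoid M] [Subsingleton Mˣ] in
lemma cop_insert [DecidableEq M] {S : Finset M} {Q a : M} :
    Cop (insert Q S) a ↔ ¬ Q ∣ a ∧ Cop S a := by
  simp [Cop]

omit [UniqueFactorizationMonoid M] [Subsingleton Mˣ] [Fintype A] in
lemma cop_one {S : Finset M} (hS : ∀ Q' ∈ S, Prime Q') : Cop S (1 : M) := by
  intro Q hQ hd
  exact (hS Q hQ).not_isUnit (isUnit_of_dvd_one hd)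

omit [Fintype A] in
/-- The sieve step: removing one more prime `Q`. -/
theorem Zs_insert [DecidableEq M] (h : Weight w c) {S : Finset M} (hS : ∀ Q' ∈ S, Prime Q')
    {Q : M} (hQ : Prime Q) (hQS : Q ∉ S) (j : A) :
    Zs w c (insert Q S) j = Zs w c S j - w Q * Zs w c S (j - c Q) := by
  have key : ∑' a : M, Set.indicator {a | Cop S a ∧ Q ∣ a ∧ c a = j} w a
      = w Q * Zs w c S (j - c Q) := by
    rw [Zs, ← tsum_mul_left]
    rw [← (mul_right_injective₀ hQ.ne_zero).tsum_eq]
    · refine tsum_congr fun a' => ?_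
      by_cases ha : a' = 0
      · subst ha
        simp [Set.indicator, h.zero]
      · have hc := h.add Q a' hQ.ne_zero ha
        have hcop := cop_mul_iff hS hQ hQS a'
        have hiff : (Cop S (Q * a') ∧ Q ∣ Q * a' ∧ c (Q * a') = j)
            ↔ (Cop S a' ∧ c a' = j - c Q) := by
          rw [hcop, hc]
          constructor
          · rintro ⟨h1, _, h3⟩
            exact ⟨h1, by rw [← h3]; abel⟩
          · rintro ⟨h1, h3⟩
            exact ⟨h1, dvd_mul_right Q a', by rw [h3]; abel⟩
        by_cases hp : Cop S a' ∧ c a' = j - c Q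
        · have hp' := hiff.mpr hp
          rw [Set.indicator_of_mem (show Q * a' ∈ {a | Cop S a ∧ Q ∣ a ∧ c a = j} from hp'),
            Set.indicator_of_mem (show a' ∈ {a | Cop S a ∧ c a = j - c Q} from hp), h.mul]
        · have hp' := fun hh => hp (hiff.mp hh)
          rw [Set.indicator_of_notMem (show Q * a' ∉ {a | Cop S a ∧ Q ∣ a ∧ c a = j} from hp'),
            Set.indicator_of_notMem (show a' ∉ {a | Cop S a ∧ c a = j - c Q} from hp), mul_zero]
    · intro a ha
      rw [Function.mem_support] at ha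
      have hmem : a ∈ {a | Cop S a ∧ Q ∣ a ∧ c a = j} := by
        by_contra hcon
        exact ha (Set.indicator_of_notMem hcon w)
      obtain ⟨b, rfl⟩ := hmem.2.1
      exact ⟨b, rfl⟩
  have hsplit : ∀ a : M, Set.indicator {a | Cop S a ∧ c a = j} w a
      = Set.indicator {a | Cop (insert Q S) a ∧ c a = j} w a
        + Set.indicator {a | Cop S a ∧ Q ∣ a ∧ c a = j} w a := by
    intro a
    by_cases h1 : Cop S a ∧ c a = j
    · by_cases h2 : Q ∣ a
      · rw [Set.indicator_of_mem (show a ∈ {a | Cop S a ∧ c a = j} from h1),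
          Set.indicator_of_notMem (show a ∉ {a | Cop (insert Q S) a ∧ c a = j} from
            fun hh => (cop_insert.mp hh.1).1 h2),
          Set.indicator_of_mem (show a ∈ {a | Cop S a ∧ Q ∣ a ∧ c a = j} from ⟨h1.1, h2, h1.2⟩),
          zero_add]
      · rw [Set.indicator_of_mem (show a ∈ {a | Cop S a ∧ c a = j} from h1),
          Set.indicator_of_mem (show a ∈ {a | Cop (insert Q S) a ∧ c a = j} from
            ⟨cop_insert.mpr ⟨h2, h1.1⟩, h1.2⟩),
          Set.indicator_of_notMem (show a ∉ {a | Cop S a ∧ Q ∣ a ∧ c a = j} from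
            fun hh => h2 hh.2.1),
          add_zero]
    · rw [Set.indicator_of_notMem (show a ∉ {a | Cop S a ∧ c a = j} from h1),
        Set.indicator_of_notMem (show a ∉ {a | Cop (insert Q S) a ∧ c a = j} from
          fun hh => h1 ⟨(cop_insert.mp hh.1).2, hh.2⟩),
        Set.indicator_of_notMem (show a ∉ {a | Cop S a ∧ Q ∣ a ∧ c a = j} from
          fun hh => h1 ⟨hh.1, hh.2.2⟩),
        add_zero]
  have hadd : Zs w c S j = Zs w c (insert Q S) j
      + ∑' a : M, Set.indicator {a | Cop S a ∧ Q ∣ a ∧ c a = j} w a := by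
    rw [Zs, Zs, ← (h.summable_ind _).tsum_add (h.summable_ind _)]
    exact tsum_congr hsplit
  rw [key] at hadd
  linarith

omit [UniqueFactorizationMonoid M] [Subsingleton Mˣ] in
/-- The total sieved sum. -/
theorem sum_Zs_eq (h : Weight w c) (S : Finset M) :
    ∑ j : A, Zs w c S j = ∑' a : M, Set.indicator {a | Cop S a} w a := by
  classical
  simp only [Zs]
  rw [← Summable.tsum_finsetSum (fun j _ => h.summable_ind _)]
  refine tsum_congr fun a => ?_
  by_cases h1 : Cop S a
  · rw [Set.indicator_of_mem (show a ∈ {a | Cop S a} from h1)]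
    rw [Finset.sum_eq_single (c a)]
    · exact Set.indicator_of_mem (show a ∈ {a | Cop S a ∧ c a = c a} from ⟨h1, rfl⟩) w
    · intro j _ hj
      exact Set.indicator_of_notMem (show a ∉ {a | Cop S a ∧ c a = j} from
        fun hh => hj hh.2.symm) w
    · intro hh
      exact absurd (Finset.mem_univ _) hh
  · rw [Set.indicator_of_notMem (show a ∉ {a | Cop S a} from h1)]
    refine Finset.sum_eq_zero fun j _ => ?_
    exact Set.indicator_of_notMem (show a ∉ {a | Cop S a ∧ c a = j} from fun hh => h1 hh.1) w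

theorem sum_Zs_insert [DecidableEq M] (h : Weight w c) {S : Finset M}
    (hS : ∀ Q' ∈ S, Prime Q') {Q : M} (hQ : Prime Q) (hQS : Q ∉ S) :
    ∑ j : A, Zs w c (insert Q S) j = (1 - w Q) * ∑ j : A, Zs w c S j := by
  simp_rw [Zs_insert h hS hQ hQS]
  rw [Finset.sum_sub_distrib, ← Finset.mul_sum]
  have : ∑ j : A, Zs w c S (j - c Q) = ∑ j : A, Zs w c S j :=
    Equiv.sum_comp (Equiv.subRight (c Q)) (fun j => Zs w c S j)
  rw [this]
  ring

/-- The mean of the sieved sums over the classes. -/
noncomputable def mean (w : M → ℝ) (c : M → A) (S : Finset M) : ℝ :=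
  (∑ j : A, Zs w c S j) / (Fintype.card A : ℝ)

/-- The deviation of the sieved sum of class `j` from the mean. -/
noncomputable def dev (w : M → ℝ) (c : M → A) (S : Finset M) (j : A) : ℝ :=
  Zs w c S j - mean w c S

theorem dev_insert [DecidableEq M] (h : Weight w c) {S : Finset M}
    (hS : ∀ Q' ∈ S, Prime Q') {Q : M} (hQ : Prime Q) (hQS : Q ∉ S) (j : A) :
    dev w c (insert Q S) j = dev w c S j - w Q * dev w c S (j - c Q) := by
  simp only [dev, mean]
  rw [Zs_insert h hS hQ hQS, sum_Zs_insert h hS hQ hQS]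
  ring

open Classical in
/-- The multiplier of a prime in the deviation bound. -/
noncomputable def mult (w : M → ℝ) (c : M → A) (Q : M) : ℝ :=
  if c Q = 0 then 1 - w Q else 1 + w Q

omit [UniqueFactorizationMonoid M] [Subsingleton Mˣ] [Fintype A] in
lemma mult_nonneg (h : Weight w c) {Q : M} (hQ : Prime Q) : 0 ≤ mult w c Q := by
  unfold mult
  split_ifs
  · linarith [h.le_one Q hQ]
  · linarith [h.nonneg Q]

theorem abs_dev_le (h : Weight w c) (B : ℝ) (hB : ∀ j, |dev w c ∅ j| ≤ B) :
    ∀ S : Finset M, (∀ Q ∈ S, Prime Q) → ∀ j, |dev w c S j| ≤ (∏ Q ∈ S, mult w c Q) * B := by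
  classical
  intro S
  induction S using Finset.induction_on with
  | empty =>
    intro _ j
    simpa using hB j
  | insert Q S hQS ih =>
    intro hS j
    have hQ : Prime Q := hS Q (Finset.mem_insert_self Q S)
    have hS' : ∀ Q' ∈ S, Prime Q' := fun Q' hQ' => hS Q' (Finset.mem_insert_of_mem hQ')
    have ih' := ih hS'
    rw [dev_insert h hS' hQ hQS, Finset.prod_insert hQS]
    by_cases hc : c Q = 0
    · have hm : mult w c Q = 1 - w Q := by simp [mult, hc]
      rw [hm, hc, sub_zero]
      have h1 : dev w c S j - w Q * dev w c S j = (1 - w Q) * dev w c S j := by ring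
      rw [h1, abs_mul, abs_of_nonneg (by linarith [h.le_one Q hQ] : (0 : ℝ) ≤ 1 - w Q), mul_assoc]
      exact mul_le_mul_of_nonneg_left (ih' j) (by linarith [h.le_one Q hQ])
    · have hm : mult w c Q = 1 + w Q := by simp [mult, hc]
      rw [hm]
      have h1 := ih' j
      have h2 := ih' (j - c Q)
      have h3 : |dev w c S j - w Q * dev w c S (j - c Q)|
          ≤ |dev w c S j| + w Q * |dev w c S (j - c Q)| := by
        have := abs_sub (dev w c S j) (w Q * dev w c S (j - c Q))
        rwa [abs_mul, abs_of_nonneg (h.nonneg Q)] at this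
      have h4 : w Q * |dev w c S (j - c Q)| ≤ w Q * ((∏ Q ∈ S, mult w c Q) * B) :=
        mul_le_mul_of_nonneg_left h2 (h.nonneg Q)
      nlinarith

omit [UniqueFactorizationMonoid M] [Subsingleton Mˣ] [Fintype A] in
theorem one_le_Zs_zero (h : Weight w c) {S : Finset M} (hS : ∀ Q' ∈ S, Prime Q') :
    1 ≤ Zs w c S 0 := by
  have h1 : Set.indicator {a | Cop S a ∧ c a = 0} w 1 = 1 := by
    rw [Set.indicator_of_mem (show (1 : M) ∈ {a | Cop S a ∧ c a = 0} from ⟨cop_one hS, h.c_one⟩),
      h.one]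
  rw [← h1]
  exact (h.summable_ind _).le_tsum 1 (fun a _ => h.ind_nonneg _ a)

omit [Fintype A] in
/-- Once `S` contains a prime factor of each element of a large finite set, the sieved
total is close to `1`. -/
theorem exists_sieve_small (h : Weight w c) {ε : ℝ} (hε : 0 < ε) :
    ∃ S₀ : Finset M, (∀ Q ∈ S₀, Prime Q) ∧ ∀ S : Finset M, S₀ ⊆ S →
      ∑' a : M, Set.indicator {a | Cop S a} w a ≤ 1 + ε := by
  classical
  obtain ⟨J, hJ⟩ := (h.summable.hasSum.eventually
    (lt_mem_nhds (sub_lt_self (∑' a, w a) hε))).exists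
  have hfac : ∀ a : M, a ≠ 0 → ¬ IsUnit a → ∃ q, Prime q ∧ q ∣ a := by
    intro a ha0 hau
    obtain ⟨i, hi, hia⟩ := WfDvdMonoid.exists_irreducible_factor hau ha0
    exact ⟨i, UniqueFactorizationMonoid.irreducible_iff_prime.mp hi, hia⟩
  let q : M → M := fun a => if hh : a ≠ 0 ∧ ¬ IsUnit a then (hfac a hh.1 hh.2).choose else 0
  have hq : ∀ a : M, a ≠ 0 → ¬ IsUnit a → Prime (q a) ∧ q a ∣ a := by
    intro a ha0 hau
    have : q a = (hfac a ha0 hau).choose := by
      simp only [q]
      rw [dif_pos ⟨ha0, hau⟩]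
    rw [this]
    exact (hfac a ha0 hau).choose_spec
  refine ⟨(J.filter (fun a => a ≠ 0 ∧ ¬ IsUnit a)).image q, ?_, ?_⟩
  · intro Q hQ
    obtain ⟨a, ha, rfl⟩ := Finset.mem_image.mp hQ
    have ha' := (Finset.mem_filter.mp ha).2
    exact (hq a ha'.1 ha'.2).1
  · intro S hS
    have hterm : ∀ a : M, Set.indicator {a | Cop S a} w a
        ≤ Set.indicator {(1 : M)} w a + Set.indicator ((J : Set M)ᶜ) w a := by
      intro a
      have hn1 := h.ind_nonneg (c := c) {(1 : M)} a
      have hn2 := h.ind_nonneg (c := c) ((J : Set M)ᶜ) a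
      by_cases haJ : a ∈ J
      · by_cases ha0 : a = 0
        · have : Set.indicator {a | Cop S a} w a ≤ w a :=
            Set.indicator_le_self' (fun _ _ => h.nonneg _) a
          rw [ha0, h.zero] at this
          rw [ha0]
          rw [ha0] at hn1 hn2
          linarith
        · by_cases hau : IsUnit a
          · have ha1 : a = 1 := by
              obtain ⟨u, rfl⟩ := hau
              rw [Subsingleton.elim u 1, Units.val_one]
            have : Set.indicator {a | Cop S a} w a ≤ w a :=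
              Set.indicator_le_self' (fun _ _ => h.nonneg _) a
            rw [ha1] at this ⊢
            rw [ha1] at hn2
            rw [Set.indicator_of_mem (show (1 : M) ∈ ({(1 : M)} : Set M) from rfl)]
            linarith
          · have hqa := hq a ha0 hau
            have hqS : q a ∈ S := hS (Finset.mem_image.mpr
              ⟨a, Finset.mem_filter.mpr ⟨haJ, ha0, hau⟩, rfl⟩)
            rw [Set.indicator_of_notMem (show a ∉ {a | Cop S a} from
              fun hh => hh (q a) hqS hqa.2)]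
            linarith
      · have : Set.indicator {a | Cop S a} w a ≤ w a :=
          Set.indicator_le_self' (fun _ _ => h.nonneg _) a
        rw [Set.indicator_of_mem (show a ∈ ((J : Set M)ᶜ) from haJ)]
        linarith
    have hsum1 : ∑' a : M, Set.indicator {(1 : M)} w a = 1 := by
      rw [tsum_eq_single (1 : M)]
      · rw [Set.indicator_of_mem (show (1 : M) ∈ ({(1 : M)} : Set M) from rfl), h.one]
      · intro b hb
        exact Set.indicator_of_notMem (show b ∉ ({(1 : M)} : Set M) from hb) w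
    have hsum2 : ∑' a : M, Set.indicator ((J : Set M)ᶜ) w a = ∑' a, w a - ∑ a ∈ J, w a := by
      have := h.summable.sum_add_tsum_compl (s := J)
      rw [tsum_subtype ((J : Set M)ᶜ) w] at this
      linarith
    calc ∑' a : M, Set.indicator {a | Cop S a} w a
        ≤ ∑' a : M, (Set.indicator {(1 : M)} w a + Set.indicator ((J : Set M)ᶜ) w a) :=
          (h.summable_ind _).tsum_le_tsum hterm ((h.summable_ind _).add (h.summable_ind _))
      _ = 1 + (∑' a, w a - ∑ a ∈ J, w a) := by
          rw [(h.summable_ind _).tsum_add (h.summable_ind _), hsum1, hsum2]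
      _ ≤ 1 + ε := by linarith

open Classical in
omit [UniqueFactorizationMonoid M] [Subsingleton Mˣ] [Fintype A] in
lemma prod_mult_le_exp (h : Weight w c) (S : Finset M) (hS : ∀ Q ∈ S, Prime Q) :
    ∏ Q ∈ S, mult w c Q
      ≤ Real.exp (∑ Q ∈ S.filter (fun Q => c Q ≠ 0), w Q - ∑ Q ∈ S.filter (fun Q => c Q = 0), w Q) := by
  classical
  have h1 : ∏ Q ∈ S, mult w c Q ≤ ∏ Q ∈ S, Real.exp (if c Q = 0 then - w Q else w Q) := by
    refine Finset.prod_le_prod (fun Q hQ => mult_nonneg h (hS Q hQ)) (fun Q hQ => ?_)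
    unfold mult
    split_ifs
    · have := Real.add_one_le_exp (- w Q)
      linarith
    · have := Real.add_one_le_exp (w Q)
      linarith
  rw [← Real.exp_sum] at h1
  have h2 : ∑ Q ∈ S, (if c Q = 0 then - w Q else w Q)
      = ∑ Q ∈ S.filter (fun Q => c Q ≠ 0), w Q - ∑ Q ∈ S.filter (fun Q => c Q = 0), w Q := by
    rw [Finset.sum_ite, Finset.sum_neg_distrib]
    ring
  rw [h2] at h1
  exact h1

/-- **Weak Weber bound, abstract form.**  If the class sums `Zs w c ∅ j` differ pairwise by
at most `B`, then for every finite set `F` of primes of class `0` there is a finite set `G`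
of primes of nonzero class with `∑_F w ≤ ∑_G w + log (4 B)`. -/
theorem weak_weber (h : Weight w c) (hA : 2 ≤ Fintype.card A) (B : ℝ)
    (hB : ∀ j j' : A, |Zs w c ∅ j - Zs w c ∅ j'| ≤ B)
    (F : Finset M) (hF : ∀ Q ∈ F, Prime Q ∧ c Q = 0) :
    ∃ G : Finset M, (∀ Q ∈ G, Prime Q ∧ c Q ≠ 0) ∧
      ∑ Q ∈ F, w Q ≤ ∑ Q ∈ G, w Q + Real.log (4 * B) := by
  classical
  have hn : (0 : ℝ) < Fintype.card A := by
    have : 0 < Fintype.card A := by omega
    exact_mod_cast this
  have hn2 : (2 : ℝ) ≤ Fintype.card A := by exact_mod_cast hA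
  -- deviation at the empty sieve
  have hdev0 : ∀ j, |dev w c ∅ j| ≤ B := by
    intro j
    have : dev w c ∅ j = (∑ j' : A, (Zs w c ∅ j - Zs w c ∅ j')) / (Fintype.card A : ℝ) := by
      simp only [dev, mean]
      rw [Finset.sum_sub_distrib, Finset.sum_const, Finset.card_univ, nsmul_eq_mul]
      field_simp
    rw [this, abs_div, abs_of_pos hn, div_le_iff₀ hn]
    calc |∑ j' : A, (Zs w c ∅ j - Zs w c ∅ j')| ≤ ∑ j' : A, |Zs w c ∅ j - Zs w c ∅ j'| :=
          Finset.abs_sum_le_sum_abs _ _
      _ ≤ ∑ _j' : A, B := Finset.sum_le_sum (fun j' _ => hB j j')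
      _ = B * Fintype.card A := by
          rw [Finset.sum_const, Finset.card_univ, nsmul_eq_mul]; ring
  obtain ⟨S₀, hS₀, hsmall⟩ := exists_sieve_small h (ε := 1 / 2) (by norm_num)
  set S := F ∪ S₀ with hSdef
  have hS : ∀ Q ∈ S, Prime Q := by
    intro Q hQ
    rcases Finset.mem_union.mp hQ with h1 | h1
    · exact (hF Q h1).1
    · exact hS₀ Q h1
  have hdev := abs_dev_le h B hdev0 S hS 0
  have hone := one_le_Zs_zero h hS
  have hmean : mean w c S ≤ 3 / 4 := by
    have h1 := hsmall S Finset.subset_union_right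
    rw [← sum_Zs_eq h S] at h1
    unfold mean
    rw [div_le_iff₀ hn]
    nlinarith
  have hexp := prod_mult_le_exp h S hS
  set σ := ∑ Q ∈ S.filter (fun Q => c Q ≠ 0), w Q - ∑ Q ∈ S.filter (fun Q => c Q = 0), w Q
    with hσ
  have hprod_nonneg : 0 ≤ ∏ Q ∈ S, mult w c Q :=
    Finset.prod_nonneg (fun Q hQ => mult_nonneg h (hS Q hQ))
  -- 1/4 ≤ exp σ * B
  have hquarter : 1 / 4 ≤ (∏ Q ∈ S, mult w c Q) * B := by
    have h1 : Zs w c S 0 = mean w c S + dev w c S 0 := by simp [dev]
    have h2 := le_abs_self (dev w c S 0)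
    linarith
  have hBpos : 0 < B := by
    by_contra hcon
    have hcon' : B ≤ 0 := not_lt.mp hcon
    have : (∏ Q ∈ S, mult w c Q) * B ≤ 0 := mul_nonpos_of_nonneg_of_nonpos hprod_nonneg hcon'
    linarith
  have hquarter' : 1 / 4 ≤ Real.exp σ * B := by
    calc (1 : ℝ) / 4 ≤ (∏ Q ∈ S, mult w c Q) * B := hquarter
      _ ≤ Real.exp σ * B := mul_le_mul_of_nonneg_right hexp hBpos.le
  have hlog : -σ ≤ Real.log (4 * B) := by
    have h1 : Real.exp (-σ) ≤ 4 * B := by
      rw [Real.exp_neg]
      rw [inv_le_iff_one_le_mul₀ (Real.exp_pos σ)]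
      nlinarith
    have h2 := Real.log_le_log (Real.exp_pos _) h1
    rwa [Real.log_exp] at h2
  refine ⟨S.filter (fun Q => c Q ≠ 0), ?_, ?_⟩
  · intro Q hQ
    have := Finset.mem_filter.mp hQ
    exact ⟨hS Q this.1, this.2⟩
  · have hsub : F ⊆ S.filter (fun Q => c Q = 0) := by
      intro Q hQ
      exact Finset.mem_filter.mpr ⟨Finset.mem_union_left _ hQ, (hF Q hQ).2⟩
    have h1 : ∑ Q ∈ F, w Q ≤ ∑ Q ∈ S.filter (fun Q => c Q = 0), w Q :=
      Finset.sum_le_sum_of_subset_of_nonneg hsub (fun Q _ _ => h.nonneg Q)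
    linarith

/-! ### Scalar consequences: the two prime-sum bounds for the total sum -/

omit [UniqueFactorizationMonoid M] [Subsingleton Mˣ] [Fintype A] in
lemma cop_empty (a : M) : Cop (∅ : Finset M) a := by
  intro Q hQ
  simp at hQ

/-- The sieved total is the full sum times the finite Euler-type product. -/
theorem total_eq (h : Weight w c) :
    ∀ S : Finset M, (∀ Q ∈ S, Prime Q) →
      ∑' a : M, Set.indicator {a | Cop S a} w a = (∏ Q ∈ S, (1 - w Q)) * ∑' a, w a := by
  classical
  intro S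
  induction S using Finset.induction_on with
  | empty =>
    intro _
    rw [Finset.prod_empty, one_mul]
    refine tsum_congr fun a => ?_
    exact Set.indicator_of_mem (show a ∈ {a | Cop (∅ : Finset M) a} from cop_empty a) w
  | insert Q S hQS ih =>
    intro hS
    have hQ : Prime Q := hS Q (Finset.mem_insert_self Q S)
    have hS' : ∀ Q' ∈ S, Prime Q' := fun Q' hQ' => hS Q' (Finset.mem_insert_of_mem hQ')
    rw [← sum_Zs_eq h, sum_Zs_insert h hS' hQ hQS, sum_Zs_eq h, ih hS', Finset.prod_insert hQS]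
    ring

omit [UniqueFactorizationMonoid M] [Subsingleton Mˣ] [Fintype A] in
lemma Weight.one_le_tsum (h : Weight w c) : 1 ≤ ∑' a, w a := by
  have := h.summable.le_tsum 1 (fun a _ => h.nonneg a)
  rwa [h.one] at this

/-- **Upper prime-sum bound**: every finite sum of `w` over primes is at most the logarithm
of the total sum. -/
theorem sum_le_log_tsum (h : Weight w c) (S : Finset M) (hS : ∀ Q ∈ S, Prime Q) :
    ∑ Q ∈ S, w Q ≤ Real.log (∑' a, w a) := by
  have h1 : 1 ≤ ∑' a : M, Set.indicator {a | Cop S a} w a := by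
    have h0 : Set.indicator {a | Cop S a} w 1 = 1 := by
      rw [Set.indicator_of_mem (show (1 : M) ∈ {a | Cop S a} from cop_one hS), h.one]
    rw [← h0]
    exact (h.summable_ind _).le_tsum 1 (fun a _ => h.ind_nonneg _ a)
  rw [total_eq h S hS] at h1
  have hζ : 0 < ∑' a, w a := lt_of_lt_of_le one_pos h.one_le_tsum
  have h2 : ∏ Q ∈ S, (1 - w Q) ≤ Real.exp (- ∑ Q ∈ S, w Q) := by
    rw [← Finset.sum_neg_distrib, Real.exp_sum]
    refine Finset.prod_le_prod (fun Q hQ => by linarith [h.le_one Q (hS Q hQ)]) (fun Q _ => ?_)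
    have := Real.add_one_le_exp (- w Q)
    linarith
  have h3 : 1 ≤ Real.exp (- ∑ Q ∈ S, w Q) * ∑' a, w a :=
    h1.trans (mul_le_mul_of_nonneg_right h2 hζ.le)
  have h4 : Real.exp (∑ Q ∈ S, w Q) ≤ ∑' a, w a := by
    rw [Real.exp_neg] at h3
    have hpos := Real.exp_pos (∑ Q ∈ S, w Q)
    rw [inv_mul_eq_div, le_div_iff₀ hpos] at h3
    linarith
  have h5 := Real.log_le_log (Real.exp_pos _) h4
  rwa [Real.log_exp] at h5

lemma one_sub_ge_exp {x : ℝ} (h0 : 0 ≤ x) (h1 : x ≤ 1 / 2) :
    Real.exp (-(x + x ^ 2)) ≤ 1 - x := by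
  have hq := Real.quadratic_le_exp_of_nonneg (x := x + x ^ 2) (by positivity)
  have hpos := Real.exp_pos (x + x ^ 2)
  rw [Real.exp_neg, inv_le_iff_one_le_mul₀ hpos]
  have h2 : 1 ≤ (1 - x) * (1 + (x + x ^ 2) + (x + x ^ 2) ^ 2 / 2) := by
    have h3 : (1 - x) * (1 + (x + x ^ 2) + (x + x ^ 2) ^ 2 / 2)
        = 1 + x ^ 2 / 2 * (1 - x - x ^ 2 - x ^ 3) := by ring
    rw [h3]
    have h4 : 0 ≤ 1 - x - x ^ 2 - x ^ 3 := by nlinarith [sq_nonneg x, mul_nonneg h0 h0]
    nlinarith [sq_nonneg x]
  calc (1 : ℝ) ≤ (1 - x) * (1 + (x + x ^ 2) + (x + x ^ 2) ^ 2 / 2) := h2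
    _ ≤ (1 - x) * Real.exp (x + x ^ 2) := mul_le_mul_of_nonneg_left hq (by linarith)

/-- **Lower prime-sum bound**: some finite set of primes carries the logarithm of the total
sum, up to the sum of squares and `log (3/2)`. -/
theorem exists_log_tsum_le (h : Weight w c) (hhalf : ∀ Q, Prime Q → w Q ≤ 1 / 2) :
    ∃ S : Finset M, (∀ Q ∈ S, Prime Q) ∧
      Real.log (∑' a, w a) ≤ ∑ Q ∈ S, w Q + ∑ Q ∈ S, w Q ^ 2 + Real.log (3 / 2) := by
  obtain ⟨S, hS, hsmall⟩ := exists_sieve_small h (ε := 1 / 2) (by norm_num)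
  refine ⟨S, hS, ?_⟩
  have h1 := hsmall S (Finset.Subset.refl S)
  rw [total_eq h S hS] at h1
  have hζ : 0 < ∑' a, w a := lt_of_lt_of_le one_pos h.one_le_tsum
  have h2 : Real.exp (-(∑ Q ∈ S, w Q + ∑ Q ∈ S, w Q ^ 2)) ≤ ∏ Q ∈ S, (1 - w Q) := by
    rw [← Finset.sum_add_distrib, ← Finset.sum_neg_distrib, Real.exp_sum]
    refine Finset.prod_le_prod (fun Q _ => (Real.exp_pos _).le) (fun Q hQ => ?_)
    exact one_sub_ge_exp (h.nonneg Q) (hhalf Q (hS Q hQ))
  have h3 : Real.exp (-(∑ Q ∈ S, w Q + ∑ Q ∈ S, w Q ^ 2)) * ∑' a, w a ≤ 1 + 1 / 2 :=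
    (mul_le_mul_of_nonneg_right h2 hζ.le).trans h1
  have h4 : ∑' a, w a ≤ 3 / 2 * Real.exp (∑ Q ∈ S, w Q + ∑ Q ∈ S, w Q ^ 2) := by
    rw [Real.exp_neg] at h3
    have hpos := Real.exp_pos (∑ Q ∈ S, w Q + ∑ Q ∈ S, w Q ^ 2)
    rw [inv_mul_eq_div, div_le_iff₀ hpos] at h3
    linarith
  have h5 := Real.log_le_log hζ h4
  rw [Real.log_mul (by norm_num) (Real.exp_pos _).ne', Real.log_exp] at h5
  linarith

end Sieve

end Fermat.Agent.S14.helper1575
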