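import Mathlib

/-!
# S14 / M7 (crossing ⇒ reciprocity): interface file

Owner: helper2797.  Everything is in "dual" form: instead of divisor groups, subgroups `P + N`
and quotients, we use *characters*, i.e. arbitrary functions `φ` on the prime ideals of `𝓞 F`
with values in `ZMod p`, extended additively to all nonzero ideals (`evalChar`).

* `IsPowRes p P a`      : `a` is a `p`-th power residue modulo `P`.
* `SymEq p ζ P a j`     : `a ^ ((N P - 1)/p) ≡ ζ ^ j (mod P)`; `sym p ζ a P : ZMod p` the exponent.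
* `GoodPrime m P`       : `P` nonzero prime with `m ∉ P` (the bad set is the set of primes
  dividing `m`).
* `IsNRChar p m a φ`    : the character `φ` kills the principal ideals `(y)`, `y` prime to `m`,
  and the good primes at which `a` is a `p`-th power residue ("split primes").
* `Stmt_SecondIneq p`   : any two such characters are proportional (dual form of
  `[Div^B : P^B + N_a^B] ≤ p`).
* `Stmt_ZetaKummer p`   : weak Chebotarev for Kummer extensions (M2).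
* `GaussDatum`, `Stmt_Gauss p` : what M7 needs from M3 about `δ_r = g(χ_r)^p`.
-/

set_option autoImplicit false

namespace Fermat.Agent.S14.helper2797

open NumberField UniqueFactorizationMonoid

section Defs

variable (p : ℕ) {F : Type} [Field F] [NumberField F]

/-- `a` is a `p`-th power residue modulo the ideal `P`. -/
def IsPowRes (P : Ideal (𝓞 F)) (a : 𝓞 F) : Prop := ∃ x : 𝓞 F, x ^ p - a ∈ P

/-- `a ^ ((N P - 1) / p) ≡ ζ ^ j (mod P)`. -/
def SymEq (ζ : 𝓞 F) (P : Ideal (𝓞 F)) (a : 𝓞 F) (j : ZMod p) : Prop :=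
  a ^ ((Ideal.absNorm P - 1) / p) - ζ ^ j.val ∈ P

open Classical in
/-- The `p`-th power residue symbol of `a` at `P` in exponent form (w.r.t. the root of unity `ζ`):
the `j : ZMod p` with `a ^ ((N P - 1)/p) ≡ ζ ^ j (mod P)` (junk value `0` if there is none). -/
noncomputable def sym (ζ : 𝓞 F) (a : 𝓞 F) (P : Ideal (𝓞 F)) : ZMod p :=
  if h : ∃ j : ZMod p, SymEq p ζ P a j then h.choose else 0

/-- Additive extension of a function on prime ideals to all ideals: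
`evalChar p φ I = ∑_P ord_P(I) • φ P`. -/
noncomputable def evalChar (φ : Ideal (𝓞 F) → ZMod p) (I : Ideal (𝓞 F)) : ZMod p :=
  ((normalizedFactors I).map φ).sum

/-- `P` is a nonzero prime ideal not containing `m`. -/
structure GoodPrime (m : 𝓞 F) (P : Ideal (𝓞 F)) : Prop where
  isPrime : P.IsPrime
  ne_bot : P ≠ ⊥
  notMem : m ∉ P

/-- `φ` is a *norm-residue character* for `a` with bad set `{P ∣ m}`: it kills the principal
ideals generated by elements prime to `m` and the good primes where `a` is a `p`-th power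
residue. -/
structure IsNRChar (m a : 𝓞 F) (φ : Ideal (𝓞 F) → ZMod p) : Prop where
  principal : ∀ y : 𝓞 F, y ≠ 0 → (∀ P : Ideal (𝓞 F), P.IsPrime → m ∈ P → y ∉ P) →
    evalChar p φ (Ideal.span {y}) = 0
  split : ∀ P : Ideal (𝓞 F), GoodPrime m P → IsPowRes p P a → φ P = 0

end Defs

/-! ## Inputs -/

/-- **M6, dual form** (second inequality, `[Div^B : P^B + N_a^B] ≤ p`): any two norm-residue
characters for `a` are proportional.  `B` = primes dividing `p * a * t`.  No hypothesis on `a` is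
needed (the bad set contains the primes dividing `p * a`); this follows from
`helper14.Stmt_SI p` by weak approximation. -/
def Stmt_SecondIneq (p : ℕ) : Prop :=
  ∀ (F : Type) [Field F] [NumberField F] (ζ : 𝓞 F), IsPrimitiveRoot ζ p →
    ∀ a t : 𝓞 F, a ≠ 0 → t ≠ 0 →
      ∀ φ φ' : Ideal (𝓞 F) → ZMod p,
        IsNRChar p ((p : 𝓞 F) * a * t) a φ → IsNRChar p ((p : 𝓞 F) * a * t) a φ' →
        ∀ P Q : Ideal (𝓞 F), GoodPrime ((p : 𝓞 F) * a * t) P → GoodPrime ((p : 𝓞 F) * a * t) Q →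
          φ P * φ' Q = φ Q * φ' P

/-- **M5, dual form** (first inequality, `Div^B ≠ P^B + N_a^B`) for one triple `(F, a, t)`:
there is a nonzero norm-residue character. -/
def FirstIneqFor (p : ℕ) {F : Type} [Field F] [NumberField F] (a t : 𝓞 F) : Prop :=
  ∃ φ : Ideal (𝓞 F) → ZMod p, IsNRChar p ((p : 𝓞 F) * a * t) a φ ∧
    ∃ P : Ideal (𝓞 F), GoodPrime ((p : 𝓞 F) * a * t) P ∧ φ P ≠ 0

/-- **M5, dual form**, for all unramified Kummer data. -/
def Stmt_FirstIneq (p : ℕ) : Prop :=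
  ∀ (F : Type) [Field F] [NumberField F] (ζ : 𝓞 F), IsPrimitiveRoot ζ p →
    ∀ a t : 𝓞 F, a ≠ 0 → t ≠ 0 → (∃ 𝔞 : Ideal (𝓞 F), Ideal.span {a} = 𝔞 ^ p) →
      (∀ N : ℕ, ∃ y : 𝓞 F, a - y ^ p ∈ Ideal.span {(p : 𝓞 F)} ^ N) →
      (¬ ∃ x : 𝓞 F, x ^ p = a) → FirstIneqFor p a t

/-- **M2, Kummer form** (weak Chebotarev from the pole of the Dedekind zeta function):
if `a` is not a `p`-th power then there are primes of absolute degree one, prime to any given
`t ≠ 0`, modulo which `a` is not a `p`-th power. -/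
def Stmt_ZetaKummer (p : ℕ) : Prop :=
  ∀ (F : Type) [Field F] [NumberField F] (ζ : 𝓞 F), IsPrimitiveRoot ζ p →
    ∀ a : 𝓞 F, (¬ ∃ x : 𝓞 F, x ^ p = a) → ∀ t : 𝓞 F, t ≠ 0 →
      ∃ Q : Ideal (𝓞 F), Q.IsPrime ∧ t ∉ Q ∧ (Ideal.absNorm Q).Prime ∧ ¬ IsPowRes p Q a

/-- What M7 needs from M3 about `δ = δ_r = g(χ_r)^p ∈ 𝓞 K` and the exponent `c` of `χ_r`
(`χ_r(n) = ζ ^ c(n)`), for a prime `r ≡ 1 mod p`. -/
structure GaussDatum (p : ℕ) {K : Type} [Field K] [NumberField K] (ζ : 𝓞 K) (r : ℕ) (δ : 𝓞 K)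
    (c : ℕ → ZMod p) : Prop where
  /-- `c` is additive on integers prime to `r`. -/
  c_mul : ∀ m n : ℕ, ¬ r ∣ m → ¬ r ∣ n → c (m * n) = c m + c n
  /-- `c n = 0` iff `n` is a `p`-th power mod `r`. -/
  c_pow : ∀ n : ℕ, ¬ r ∣ n → (c n = 0 ↔ ∃ x : ZMod r, x ^ p = (n : ZMod r))
  /-- Frobenius congruence: `sym_P(δ) = - c(N P)` for every prime `P ∤ p r` of every number
  field `F ⊇ K`. -/
  frob : ∀ (F : Type) [Field F] [NumberField F] [Algebra K F] (P : Ideal (𝓞 F)), P.IsPrime →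
    P ≠ ⊥ → (p : 𝓞 F) ∉ P → (r : 𝓞 F) ∉ P →
    SymEq p (algebraMap (𝓞 K) (𝓞 F) ζ) P (algebraMap (𝓞 K) (𝓞 F) δ) (- c (Ideal.absNorm P))
  /-- at the primes over `r`: `1 ≤ ord_R(δ) ≤ p - 1`. -/
  ram : ∀ R : Ideal (𝓞 K), R.IsPrime → (r : 𝓞 K) ∈ R → δ ∈ R ∧ δ ∉ R ^ p
  /-- `δ` is a unit away from `r`. -/
  unit : ∀ Q : Ideal (𝓞 K), Q.IsPrime → (r : 𝓞 K) ∉ Q → δ ∉ Q

/-- **M3** in the form consumed by M7. -/
def Stmt_Gauss (p : ℕ) : Prop :=
  ∀ (K : Type) [Field K] [NumberField K] [IsCyclotomicExtension {p} ℚ K] (ζ : 𝓞 K),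
    IsPrimitiveRoot ζ p → ∀ r : ℕ, r.Prime → r % p = 1 →
      ∃ (δ : 𝓞 K) (c : ℕ → ZMod p), GaussDatum p ζ r δ c

/-! ## Kummer extensions of degree `p` -/

/-- `M/K` has degree `p`, `θ ∈ 𝓞 M` is a `p`-th root of `γ ∈ 𝓞 K`, and `γ` is not a `p`-th power
in `K` (so `M = K(θ)`; with `ζ_p ∈ K` the extension is cyclic of degree `p`). -/
structure IsKummerExt (p : ℕ) (K M : Type) [Field K] [NumberField K] [Field M] [NumberField M]
    [Algebra K M] (γ : 𝓞 K) (θ : 𝓞 M) : Prop where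
  finrank_eq : Module.finrank K M = p
  pow_eq : θ ^ p = algebraMap (𝓞 K) (𝓞 M) γ
  not_pow : ¬ ∃ x : 𝓞 K, x ^ p = γ

/-- **Leaf KS** (Kummer splitting): a good prime at which `γ` is a `p`-th power residue has a
prime of relative degree one above it in `K(γ^(1/p))`. -/
def Stmt_KummerSplit (p : ℕ) : Prop :=
  ∀ (K M : Type) [Field K] [NumberField K] [Field M] [NumberField M] [Algebra K M]
    (ζ : 𝓞 K), IsPrimitiveRoot ζ p → ∀ (γ : 𝓞 K) (θ : 𝓞 M), IsKummerExt p K M γ θ →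
    ∀ P : Ideal (𝓞 K), P.IsPrime → P ≠ ⊥ → (p : 𝓞 K) ∉ P → γ ∉ P → IsPowRes p P γ →
      ∃ W : Ideal (𝓞 M), W.IsPrime ∧ W.comap (algebraMap (𝓞 K) (𝓞 M)) = P ∧
        Ideal.absNorm W = Ideal.absNorm P

/-- **Leaf RN** (ramified norm congruence): if `p ∤ ord_R(γ)` (and `R ∤ p`) then `R` is totally
ramified in `K(γ^(1/p))`, hence every relative norm of an integer is a `p`-th power modulo `R`. -/
def Stmt_RamNorm (p : ℕ) : Prop :=
  ∀ (K M : Type) [Field K] [NumberField K] [Field M] [NumberField M] [Algebra K M]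
    (ζ : 𝓞 K), IsPrimitiveRoot ζ p → ∀ (γ : 𝓞 K) (θ : 𝓞 M), IsKummerExt p K M γ θ →
    ∀ R : Ideal (𝓞 K), R.IsPrime → (p : 𝓞 K) ∉ R →
      (∃ k : ℕ, ¬ p ∣ k ∧ γ ∈ R ^ k ∧ γ ∉ R ^ (k + 1)) →
      ∀ y : 𝓞 M, ∃ b : 𝓞 K, Algebra.intNorm (𝓞 K) (𝓞 M) y - b ^ p ∈ R

/-- **Leaf CN** (cyclotomic norm): if `r ≡ 1 mod p` and `z ∈ 𝓞 K`, `K = ℚ(ζ_p)`, is a `p`-th power
modulo every prime over `r`, then `N_{K/ℚ}(z)` is a `p`-th power modulo `r`
(`r` splits completely in `K`). -/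
def Stmt_CycloNorm (p : ℕ) : Prop :=
  ∀ (K : Type) [Field K] [NumberField K] [IsCyclotomicExtension {p} ℚ K] (r : ℕ), r.Prime →
    r % p = 1 → ∀ z : 𝓞 K,
      (∀ R : Ideal (𝓞 K), R.IsPrime → (r : 𝓞 K) ∈ R → ∃ b : 𝓞 K, z - b ^ p ∈ R) →
      ∃ n : ℤ, (r : ℤ) ∣ Algebra.norm ℤ z - n ^ p

/-- **Leaf KE** (existence of Kummer extensions as number fields in `Type`). -/
def Stmt_KummerExists (p : ℕ) : Prop :=
  ∀ (K : Type) [Field K] [NumberField K] (γ : 𝓞 K), (¬ ∃ x : 𝓞 K, x ^ p = γ) →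
    ∃ (M : Type) (_ : Field M) (_ : NumberField M) (_ : Algebra K M) (θ : 𝓞 M),
      IsKummerExt p K M γ θ

/-- **Leaf AUX** (auxiliary prime for a pair; M2 over `ℚ(ζ_p, (q^A q'^A')^(1/p))` + Kummer
independence): a purely elementary statement about rational primes. -/
def Stmt_AuxPrime (p : ℕ) : Prop :=
  ∀ q q' : ℕ, q.Prime → q'.Prime → q ≠ q' → q ≠ p → q' ≠ p → ∀ A A' : ℕ, ¬ p ∣ A → ¬ p ∣ A' →
    ∀ T : ℕ, T ≠ 0 → ∃ r : ℕ, r.Prime ∧ r % p = 1 ∧ ¬ r ∣ T ∧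
      (∃ x : ZMod r, x ^ p = (q : ZMod r) ^ A * (q' : ZMod r) ^ A') ∧
      ¬ ∃ x : ZMod r, x ^ p = (q : ZMod r)

end Fermat.Agent.S14.helper2797
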