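import Mathlib
import Fermat.Agent.S14.helper2797_CrossingSpec
import Fermat.Agent.S14.helper14_Spec

/-!
# S14 / M7-AUX: auxiliary prime for a pair of rational primes

`helper14.Stmt_WCKummer p → helper2797.Stmt_AuxPrime p` (board row 614, owner helper1587).

Given distinct primes `q, q' ≠ p`, exponents `A, A'` prime to `p` and `T ≠ 0`, weak Chebotarev for
Kummer extensions over `K = ℚ(ζ_p)` (applied to `as = {q^A q'^A'}`, `b = q`) gives a prime `v` of
`𝓞 K` of prime norm `r` with `r ≡ 1 mod p`, `r ∤ T`, `q^A q'^A'` a `p`-th power mod `r` and `q` not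
a `p`-th power mod `r`.
-/

set_option autoImplicit false
set_option linter.style.haveILetI false

namespace Fermat.Agent.S14.helper1587

open NumberField IsDedekindDomain Polynomial

/-- A rational number which is a `p`-th power in a field of degree `< p` over `ℚ` is a `p`-th
power in `ℚ`. -/
theorem rat_pow_of_finrank_lt {p : ℕ} (hp : p.Prime) {K : Type*} [Field K] [Algebra ℚ K]
    [FiniteDimensional ℚ K] (hK : Module.finrank ℚ K < p) (n : ℚ) (y : K)
    (hy : y ^ p = algebraMap ℚ K n) : ∃ m : ℚ, m ^ p = n := by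
  by_contra hcon
  have hcon : ∀ m : ℚ, m ^ p ≠ n := fun m hm => hcon ⟨m, hm⟩
  have hirr : Irreducible (X ^ p - C n : ℚ[X]) := X_pow_sub_C_irreducible_of_prime hp hcon
  have hroot : aeval y (X ^ p - C n : ℚ[X]) = 0 := by simp [hy]
  have hmonic : (X ^ p - C n : ℚ[X]).Monic := monic_X_pow_sub_C n hp.ne_zero
  have hmin : X ^ p - C n = minpoly ℚ y := minpoly.eq_of_irreducible_of_monic hirr hroot hmonic
  have hdeg : (minpoly ℚ y).natDegree = p := by rw [← hmin, natDegree_X_pow_sub_C]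
  have hle : (minpoly ℚ y).natDegree ≤ Module.finrank ℚ K := minpoly.natDegree_le y
  omega

/-- Valuation argument: `q` is not `(q^A q'^A')^e` times a rational `p`-th power. -/
theorem no_rat_relation {p q q' : ℕ} (hp : p.Prime) (hq : q.Prime) (hq' : q'.Prime)
    (hqq' : q ≠ q') {A A' : ℕ} (hA' : ¬ p ∣ A') (e : ℕ) (m : ℚ)
    (h : (q : ℚ) = ((q : ℚ) ^ A * (q' : ℚ) ^ A') ^ e * m ^ p) : False := by
  have := Fact.mk hq
  have := Fact.mk hq'
  have hq0 : (q : ℚ) ≠ 0 := by exact_mod_cast hq.ne_zero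
  have hq'0 : (q' : ℚ) ≠ 0 := by exact_mod_cast hq'.ne_zero
  have hm : m ≠ 0 := by
    rintro rfl
    rw [zero_pow hp.ne_zero, mul_zero] at h
    exact hq0 h
  have hqA : (q : ℚ) ^ A ≠ 0 := pow_ne_zero _ hq0
  have hq'A : (q' : ℚ) ^ A' ≠ 0 := pow_ne_zero _ hq'0
  have hprod : ((q : ℚ) ^ A * (q' : ℚ) ^ A') ≠ 0 := mul_ne_zero hqA hq'A
  have hprode : ((q : ℚ) ^ A * (q' : ℚ) ^ A') ^ e ≠ 0 := pow_ne_zero _ hprod
  have hmp : m ^ p ≠ 0 := pow_ne_zero _ hm
  have h1 := congrArg (padicValRat q) h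
  have h2 := congrArg (padicValRat q') h
  have e11 : padicValRat q (q : ℚ) = 1 := padicValRat.self hq.one_lt
  have e22 : padicValRat q' (q' : ℚ) = 1 := padicValRat.self hq'.one_lt
  have e12 : padicValRat q (q' : ℚ) = 0 := by
    rw [padicValRat.of_nat, padicValNat_primes hqq']; rfl
  have e21 : padicValRat q' (q : ℚ) = 0 := by
    rw [padicValRat.of_nat, padicValNat_primes hqq'.symm]; rfl
  rw [padicValRat.mul hprode hmp, padicValRat.pow, padicValRat.mul hqA hq'A,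
    padicValRat.pow, padicValRat.pow, padicValRat.pow] at h1 h2
  rw [e11, e12] at h1
  rw [e21, e22] at h2
  have hpe : p ∣ e := by
    have : (p : ℤ) ∣ (e : ℤ) * A' := ⟨-padicValRat q' m, by linear_combination -h2⟩
    have : p ∣ e * A' := by exact_mod_cast this
    exact (hp.dvd_mul.mp this).resolve_right hA'
  obtain ⟨c, rfl⟩ := hpe
  have : (p : ℤ) ∣ 1 := ⟨c * A + padicValRat q m, by push_cast at h1; linear_combination h1⟩
  have h3 : p ∣ 1 := by exact_mod_cast this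
  exact hp.one_lt.ne' (Nat.dvd_one.mp h3)

/-- In a finite cyclic group, `x ^ (|G| / d) = 1` with `d ∣ |G|` implies that `x` is a `d`-th
power. -/
theorem exists_pow_eq_of_pow_div_eq_one {G : Type*} [Group G] [Fintype G] [IsCyclic G] {d : ℕ}
    (hd : d ∣ Fintype.card G) (x : G) (hx : x ^ (Fintype.card G / d) = 1) :
    ∃ y : G, y ^ d = x := by
  obtain ⟨g, hg⟩ := IsCyclic.exists_generator (α := G)
  obtain ⟨j, rfl⟩ : ∃ j : ℕ, g ^ j = x := by
    have := hg x
    exact (mem_powers_iff_mem_zpowers.mpr this)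
  have hord : orderOf g = Fintype.card G := by
    rw [orderOf_eq_card_of_forall_mem_zpowers hg, Nat.card_eq_fintype_card]
  have hpos : 0 < Fintype.card G / d := by
    have hc : 0 < Fintype.card G := Fintype.card_pos
    exact Nat.div_pos (Nat.le_of_dvd hc hd) (Nat.pos_of_dvd_of_pos hd hc)
  rw [← pow_mul, ← orderOf_dvd_iff_pow_eq_one, hord] at hx
  have hdj : d ∣ j := by
    have h1 : d * (Fintype.card G / d) ∣ j * (Fintype.card G / d) := by
      rwa [Nat.mul_div_cancel' hd]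
    exact Nat.dvd_of_mul_dvd_mul_right hpos h1
  obtain ⟨t, rfl⟩ := hdj
  exact ⟨g ^ t, by rw [← pow_mul, mul_comm]⟩

/-- `n ^ ((r - 1) / p) = 1` in `ZMod r` with `p ∣ r - 1` implies that `n` is a `p`-th power. -/
theorem zmod_exists_pow_eq {r p : ℕ} (hr : r.Prime) (hpr : p ∣ r - 1) (n : ZMod r)
    (hn : n ^ ((r - 1) / p) = 1) : ∃ x : ZMod r, x ^ p = n := by
  haveI := Fact.mk hr
  have hpos : 0 < (r - 1) / p := by
    have hc : 0 < r - 1 := Nat.sub_pos_of_lt hr.one_lt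
    exact Nat.div_pos (Nat.le_of_dvd hc hpr) (Nat.pos_of_dvd_of_pos hpr hc)
  have hn0 : n ≠ 0 := by
    rintro rfl
    rw [zero_pow hpos.ne'] at hn
    exact zero_ne_one hn
  have hcard : Fintype.card (ZMod r)ˣ = r - 1 := ZMod.card_units r
  obtain ⟨y, hy⟩ := exists_pow_eq_of_pow_div_eq_one (G := (ZMod r)ˣ) (d := p)
    (by rw [hcard]; exact hpr) (Units.mk0 n hn0) (by
      rw [hcard]; ext; simpa using hn)
  exact ⟨(y : ZMod r), by have := congrArg Units.val hy; simpa using this⟩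

section Residue

variable {F : Type} [Field F] [NumberField F] (v : HeightOneSpectrum (𝓞 F))

/-- For `x ∉ v`: `x ^ (N v - 1) ≡ 1 mod v`. -/
theorem pow_absNorm_sub_one_sub_one_mem (x : 𝓞 F) (hx : x ∉ v.asIdeal) :
    x ^ (Ideal.absNorm v.asIdeal - 1) - 1 ∈ v.asIdeal := by
  haveI := v.isMaximal
  letI : Field (𝓞 F ⧸ v.asIdeal) := Ideal.Quotient.field v.asIdeal
  haveI : Finite (𝓞 F ⧸ v.asIdeal) := v.asIdeal.finiteQuotientOfFreeOfNeBot v.ne_bot
  letI : Fintype (𝓞 F ⧸ v.asIdeal) := Fintype.ofFinite _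
  have hcard : Fintype.card (𝓞 F ⧸ v.asIdeal) = Ideal.absNorm v.asIdeal := by
    rw [Ideal.absNorm_apply, Submodule.cardQuot_apply, Nat.card_eq_fintype_card]
  have hx0 : (Ideal.Quotient.mk v.asIdeal x) ≠ 0 := by
    rwa [Ne, Ideal.Quotient.eq_zero_iff_mem]
  have := FiniteField.pow_card_sub_one_eq_one (Ideal.Quotient.mk v.asIdeal x) hx0
  rw [hcard] at this
  rw [← Ideal.Quotient.eq_zero_iff_mem, map_sub, map_pow, this, map_one, sub_self]

/-- Integers modulo `v` when `N v = r` is prime: `(n : 𝓞 F) ∈ v ↔ r ∣ n`. -/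
theorem intCast_mem_iff (hr : (Ideal.absNorm v.asIdeal).Prime) (n : ℤ) :
    (n : 𝓞 F) ∈ v.asIdeal ↔ ((Ideal.absNorm v.asIdeal : ℕ) : ℤ) ∣ n := by
  haveI := v.isMaximal
  haveI := Fact.mk hr
  letI : Field (𝓞 F ⧸ v.asIdeal) := Ideal.Quotient.field v.asIdeal
  haveI : Finite (𝓞 F ⧸ v.asIdeal) := v.asIdeal.finiteQuotientOfFreeOfNeBot v.ne_bot
  letI : Fintype (𝓞 F ⧸ v.asIdeal) := Fintype.ofFinite _
  have hcard : Fintype.card (𝓞 F ⧸ v.asIdeal) = Ideal.absNorm v.asIdeal := by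
    rw [Ideal.absNorm_apply, Submodule.cardQuot_apply, Nat.card_eq_fintype_card]
  haveI : CharP (𝓞 F ⧸ v.asIdeal) (Ideal.absNorm v.asIdeal) := charP_of_card_eq_prime hcard
  rw [← Ideal.Quotient.eq_zero_iff_mem, map_intCast,
    CharP.intCast_eq_zero_iff (𝓞 F ⧸ v.asIdeal) (Ideal.absNorm v.asIdeal)]

/-- `(n : 𝓞 F) ^ M - 1 ∈ v ↔ (n : ZMod r) ^ M = 1`, `r = N v` prime. -/
theorem natCast_pow_sub_one_mem_iff (hr : (Ideal.absNorm v.asIdeal).Prime) (n M : ℕ) :
    (n : 𝓞 F) ^ M - 1 ∈ v.asIdeal ↔ (n : ZMod (Ideal.absNorm v.asIdeal)) ^ M = 1 := by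
  have h := intCast_mem_iff v hr ((n : ℤ) ^ M - 1)
  push_cast at h
  rw [h, ← ZMod.intCast_zmod_eq_zero_iff_dvd]
  push_cast
  rw [sub_eq_zero]

end Residue

section Sym

variable {F : Type} [Field F] [NumberField F] (v : HeightOneSpectrum (𝓞 F))

/-- From `IsSymAt p ζ v a 0` for an integral `a ∉ v`: `a ^ ((N v - 1)/p) ≡ 1 mod v`. -/
theorem pow_sub_one_mem_of_isSymAt {p : ℕ} (hp : p.Prime) (ζ : F)
    (hpr : p ∣ Ideal.absNorm v.asIdeal - 1) (a : 𝓞 F) (ha : a ∉ v.asIdeal)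
    (h : helper14.IsSymAt p ζ v (algebraMap (𝓞 F) F a) 0) :
    a ^ ((Ideal.absNorm v.asIdeal - 1) / p) - 1 ∈ v.asIdeal := by
  haveI := Fact.mk hp
  obtain ⟨y, hy0, hu, hc⟩ := h
  set M := (Ideal.absNorm v.asIdeal - 1) / p with hM
  have hpM : p * M = Ideal.absNorm v.asIdeal - 1 := Nat.mul_div_cancel' hpr
  have hva : v.valuation F (algebraMap (𝓞 F) F a) = 1 := (v.valuation_eq_one_iff_notMem).mpr ha
  have hvy : v.valuation F y = 1 := by
    unfold helper14.UnitAt at hu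
    rw [map_div₀, hva, map_pow, one_div, inv_eq_one] at hu
    exact (pow_eq_one_iff_of_nonneg zero_le hp.ne_zero).mp hu
  obtain ⟨y₁, ⟨y₂, hy₂⟩, hyy⟩ := v.exists_primeCompl_mul_eq_of_integer y hvy.le
  have hy₂' : y₂ ∉ v.asIdeal := hy₂
  have hvy₂ : v.valuation F (algebraMap (𝓞 F) F y₂) = 1 :=
    (v.valuation_eq_one_iff_notMem).mpr hy₂'
  have hvy₁ : v.valuation F (algebraMap (𝓞 F) F y₁) = 1 := by
    rw [← hyy, map_mul, hvy, hvy₂, one_mul]
  have hy₁ : y₁ ∉ v.asIdeal := (v.valuation_eq_one_iff_notMem).mp hvy₁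
  have hw : (a * y₂ ^ p) ^ M - y₁ ^ (p * M) ∈ v.asIdeal := by
    have hc' : v.valuation F ((algebraMap (𝓞 F) F a / y ^ p) ^ M - 1) < 1 := by
      have := hc
      unfold helper14.CongrAt at this
      simpa using this
    have hyM : y ^ (p * M) ≠ 0 := pow_ne_zero _ hy0
    have key : (algebraMap (𝓞 F) F ((a * y₂ ^ p) ^ M - y₁ ^ (p * M)))
        = (algebraMap (𝓞 F) F y₁) ^ (p * M) * ((algebraMap (𝓞 F) F a / y ^ p) ^ M - 1) := by
      have e1 : (algebraMap (𝓞 F) F a / y ^ p) ^ M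
          = (algebraMap (𝓞 F) F a) ^ M / y ^ (p * M) := by rw [div_pow, ← pow_mul]
      rw [map_sub, map_pow, map_mul, map_pow, map_pow, ← hyy, e1]
      simp only [mul_pow, ← pow_mul]
      field_simp
    refine (v.valuation_lt_one_iff_mem (K := F) _).mp ?_
    change v.valuation F (algebraMap (𝓞 F) F ((a * y₂ ^ p) ^ M - y₁ ^ (p * M))) < 1
    rw [key, map_mul, map_pow, hvy₁, one_pow, one_mul]
    exact hc'
  have h1 := pow_absNorm_sub_one_sub_one_mem v y₁ hy₁
  have h2 := pow_absNorm_sub_one_sub_one_mem v y₂ hy₂'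
  rw [← hpM] at h1 h2
  have e : a ^ M - 1 = ((a * y₂ ^ p) ^ M - y₁ ^ (p * M)) - a ^ M * (y₂ ^ (p * M) - 1)
      + (y₁ ^ (p * M) - 1) := by ring
  rw [e]
  exact v.asIdeal.add_mem (v.asIdeal.sub_mem hw (v.asIdeal.mul_mem_left _ h2)) h1

/-- Converse for integral `b ∉ v`: if `b ^ ((N v - 1)/p) ≡ 1 mod v` then `IsSymAt p ζ v b 0`. -/
theorem isSymAt_zero_of_pow_sub_one_mem {p : ℕ} (ζ : F) (b : 𝓞 F)
    (hb : b ∉ v.asIdeal) (h : b ^ ((Ideal.absNorm v.asIdeal - 1) / p) - 1 ∈ v.asIdeal) :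
    helper14.IsSymAt p ζ v (algebraMap (𝓞 F) F b) 0 := by
  refine ⟨1, one_ne_zero, ?_, ?_⟩
  · unfold helper14.UnitAt
    rw [one_pow, div_one]
    exact (v.valuation_eq_one_iff_notMem).mpr hb
  · unfold helper14.CongrAt
    rw [one_pow, div_one, ZMod.val_zero, pow_zero, ← map_pow, ← map_one (algebraMap (𝓞 F) F),
      ← map_sub]
    exact (v.valuation_lt_one_iff_mem _).mpr h

/-- If `ζ` is a primitive `p`-th root of unity and `v ∤ p` then `p ∣ N v - 1`. -/
theorem dvd_absNorm_sub_one {p : ℕ} (hp : p.Prime) (z : 𝓞 F) (hz : IsPrimitiveRoot z p)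
    (hvp : (p : 𝓞 F) ∉ v.asIdeal) : p ∣ Ideal.absNorm v.asIdeal - 1 := by
  haveI := Fact.mk hp
  haveI := v.isMaximal
  have hzv : z ∉ v.asIdeal := by
    intro hmem
    have h1 : z ^ p ∈ v.asIdeal := v.asIdeal.pow_mem_of_mem hmem p hp.pos
    rw [hz.pow_eq_one] at h1
    exact v.isPrime.ne_top ((Ideal.eq_top_iff_one _).mpr h1)
  have h1 := pow_absNorm_sub_one_sub_one_mem v z hzv
  rw [← Ideal.Quotient.eq_zero_iff_mem, map_sub, map_pow, map_one, sub_eq_zero] at h1
  have hzp : (Ideal.Quotient.mk v.asIdeal z) ^ p = 1 := by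
    rw [← map_pow, hz.pow_eq_one, map_one]
  have hz1 : (Ideal.Quotient.mk v.asIdeal z) ≠ 1 := by
    intro h
    apply hvp
    have hsum := hz.geom_sum_eq_zero hp.one_lt
    have := congrArg (Ideal.Quotient.mk v.asIdeal) hsum
    rw [map_sum] at this
    simp only [map_pow, h, one_pow, Finset.sum_const, Finset.card_range, nsmul_eq_mul, mul_one,
      map_zero] at this
    rw [← Ideal.Quotient.eq_zero_iff_mem, map_natCast]
    exact this
  have hord : orderOf (Ideal.Quotient.mk v.asIdeal z) = p := orderOf_eq_prime hzp hz1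
  rw [← hord]
  exact orderOf_dvd_of_pow_eq_one h1

end Sym

set_option backward.isDefEq.respectTransparency false in
/-- **Leaf AUX**: weak Chebotarev for Kummer extensions gives the auxiliary prime for a pair of
rational primes. -/
theorem stmt_AuxPrime (p : ℕ) [Fact p.Prime] (_hp2 : p ≠ 2) (hWC : helper14.Stmt_WCKummer p) :
    helper2797.Stmt_AuxPrime p := by
  have hp : p.Prime := Fact.out
  intro q q' hq hq' hqq' hqp hq'p A A' hA hA' T hT
  haveI : NeZero p := ⟨hp.ne_zero⟩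
  have hζ : IsPrimitiveRoot (IsCyclotomicExtension.zeta p ℚ (CyclotomicField p ℚ)) p :=
    IsCyclotomicExtension.zeta_spec p ℚ (CyclotomicField p ℚ)
  generalize IsCyclotomicExtension.zeta p ℚ (CyclotomicField p ℚ) = ζ at hζ
  haveI : NumberField (CyclotomicField p ℚ) := IsCyclotomicExtension.numberField {p} ℚ _
  have hfin : Module.finrank ℚ (CyclotomicField p ℚ) < p := by
    rw [IsCyclotomicExtension.finrank (CyclotomicField p ℚ)
      (Polynomial.cyclotomic.irreducible_rat hp.pos), Nat.totient_prime hp]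
    exact Nat.sub_lt hp.pos one_pos
  have hq0 : (q : ℚ) ≠ 0 := by exact_mod_cast hq.ne_zero
  have hq'0 : (q' : ℚ) ≠ 0 := by exact_mod_cast hq'.ne_zero
  have hn0 : q ^ A * q' ^ A' ≠ 0 := mul_ne_zero (pow_ne_zero _ hq.ne_zero) (pow_ne_zero _ hq'.ne_zero)
  have hTK : Ideal.span {(T : 𝓞 (CyclotomicField p ℚ))} ≠ 0 := by
    rw [Ne, Ideal.zero_eq_bot, Ideal.span_singleton_eq_bot]
    exact_mod_cast hT
  obtain ⟨v, hvB, hr, hvp, has, hub, hsb⟩ := hWC (CyclotomicField p ℚ) ζ hζ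
    {((q ^ A * q' ^ A' : ℕ) : CyclotomicField p ℚ)} (q : CyclotomicField p ℚ)
    (by
      intro a ha
      rw [Finset.mem_singleton] at ha
      subst ha
      exact_mod_cast hn0)
    (by exact_mod_cast hq.ne_zero)
    (by
      rintro ⟨e, y, hey⟩
      rw [Finset.prod_singleton] at hey
      set E := e ((q ^ A * q' ^ A' : ℕ) : CyclotomicField p ℚ) with hE
      have hy : y ^ p = algebraMap ℚ (CyclotomicField p ℚ)
          ((q : ℚ) / ((q : ℚ) ^ A * (q' : ℚ) ^ A') ^ E) := by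
        have hne : (((q ^ A * q' ^ A' : ℕ) : CyclotomicField p ℚ)) ^ E ≠ 0 :=
          pow_ne_zero _ (by exact_mod_cast hn0)
        have hey' := hey
        push_cast at hey' hne
        rw [map_div₀, map_pow, map_mul, map_pow, map_pow, map_natCast, map_natCast]
        rw [eq_div_iff hne, mul_comm]
        exact hey'.symm
      obtain ⟨m, hm⟩ := rat_pow_of_finrank_lt hp hfin _ y hy
      refine no_rat_relation (A := A) hp hq hq' hqq' hA' E m ?_
      rw [hm, mul_div_cancel₀]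
      exact pow_ne_zero _ (mul_ne_zero (pow_ne_zero _ hq0) (pow_ne_zero _ hq'0)))
    (Ideal.finite_factors hTK).toFinset
  obtain ⟨hun, hsn⟩ := has _ (Finset.mem_singleton_self _)
  set r := Ideal.absNorm v.asIdeal with hrdef
  have hrmem : (r : 𝓞 (CyclotomicField p ℚ)) ∈ v.asIdeal := Ideal.absNorm_mem _
  -- integrality rewriting
  have en : ((q ^ A * q' ^ A' : ℕ) : CyclotomicField p ℚ)
      = algebraMap (𝓞 (CyclotomicField p ℚ)) (CyclotomicField p ℚ)
        ((q ^ A * q' ^ A' : ℕ) : 𝓞 (CyclotomicField p ℚ)) := (map_natCast _ _).symm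
  have eq : (q : CyclotomicField p ℚ)
      = algebraMap (𝓞 (CyclotomicField p ℚ)) (CyclotomicField p ℚ)
        (q : 𝓞 (CyclotomicField p ℚ)) := (map_natCast _ _).symm
  have hnv : ((q ^ A * q' ^ A' : ℕ) : 𝓞 (CyclotomicField p ℚ)) ∉ v.asIdeal := by
    unfold helper14.UnitAt at hun
    rw [en] at hun
    exact (v.valuation_eq_one_iff_notMem).mp hun
  have hqv : (q : 𝓞 (CyclotomicField p ℚ)) ∉ v.asIdeal := by
    unfold helper14.UnitAt at hub
    rw [eq] at hub
    exact (v.valuation_eq_one_iff_notMem).mp hub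
  have hpr : p ∣ r - 1 := dvd_absNorm_sub_one v hp hζ.toInteger hζ.toInteger_isPrimitiveRoot hvp
  have hpM : p * ((r - 1) / p) = r - 1 := Nat.mul_div_cancel' hpr
  haveI := Fact.mk hr
  refine ⟨r, hr, ?_, ?_, ?_, ?_⟩
  · obtain ⟨c, hc⟩ := hpr
    have h1 : r = p * c + 1 := by have := hr.one_lt; omega
    rw [h1, Nat.mul_add_mod]
    exact Nat.mod_eq_of_lt hp.one_lt
  · rintro ⟨c, rfl⟩
    apply hvB
    rw [Set.Finite.mem_toFinset, Set.mem_ofPred_eq, Ideal.dvd_span_singleton]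
    push_cast
    exact v.asIdeal.mul_mem_right _ hrmem
  · rw [en] at hsn
    have h1 := pow_sub_one_mem_of_isSymAt v hp ζ hpr _ hnv hsn
    rw [natCast_pow_sub_one_mem_iff v hr] at h1
    obtain ⟨x, hx⟩ := zmod_exists_pow_eq hr hpr _ h1
    exact ⟨x, by rw [hx]; push_cast; rfl⟩
  · rintro ⟨x, hx⟩
    apply hsb
    rw [eq]
    apply isSymAt_zero_of_pow_sub_one_mem v ζ _ hqv
    rw [natCast_pow_sub_one_mem_iff v hr]
    have hq0r : (q : ZMod r) ≠ 0 := by
      intro h0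
      apply hqv
      rw [ZMod.natCast_eq_zero_iff] at h0
      obtain ⟨c, rfl⟩ := h0
      push_cast
      exact v.asIdeal.mul_mem_right _ hrmem
    have hx0 : x ≠ 0 := by
      rintro rfl
      rw [zero_pow hp.ne_zero] at hx
      exact hq0r hx.symm
    rw [← hx, ← pow_mul, hpM]
    exact ZMod.pow_card_sub_one_eq_one hx0

end Fermat.Agent.S14.helper1587
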