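import Mathlib

set_option autoImplicit false

/-!
# Lipschitz parametrisation of the frontier of `normLeOne K` (helper1599)

The frontier of Mathlib's `NumberField.mixedEmbedding.fundamentalCone.normLeOne K` is covered by
finitely many Lipschitz images of the cube `[0,1]^κ`, where `κ` has `finrank ℚ K - 1` elements.
-/

namespace Fermat.Agent.S14.helper1599

open NumberField NumberField.InfinitePlace NumberField.mixedEmbedding NumberField.Units
  NumberField.mixedEmbedding.fundamentalCone dirichletUnitTheorem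
open scoped NNReal Classical

noncomputable section

variable (K : Type*) [Field K] [NumberField K]

/-- The parameter coordinates: one for each place `≠ w₀` and one angle for each complex place. -/
abbrev Par : Type _ := {w : InfinitePlace K // w ≠ w₀} ⊕ {w : InfinitePlace K // IsComplex w}

theorem expMapBasis_eq_exp_log (z : realSpace K) (w : InfinitePlace K) :
    expMapBasis z w = Real.exp (z w₀) *
      ∏ i : {w : InfinitePlace K // w ≠ w₀},
        Real.exp (Real.log (w (fundSystem K (equivFinRank.symm i))) * z i) := by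
  rw [expMapBasis_apply' z]
  simp only [Pi.smul_apply, smul_eq_mul]
  congr 1
  refine Finset.prod_congr rfl fun i _ => ?_
  rw [Real.rpow_def_of_pos]
  exact w.pos_iff.mpr (Units.coe_ne_zero _)

/-- The real-space valued parametrisation `(u c + u0) • G (v c + v0)`. -/
noncomputable def yMap (u : (Par K → ℝ) →L[ℝ] ℝ) (u0 : ℝ)
    (v : {w : InfinitePlace K // w ≠ w₀} → (Par K → ℝ) →L[ℝ] ℝ)
    (v0 : {w : InfinitePlace K // w ≠ w₀} → ℝ)
    (c : Par K → ℝ) (w : InfinitePlace K) : ℝ :=
  (u c + u0) * ∏ i : {w : InfinitePlace K // w ≠ w₀},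
    Real.exp (Real.log (w (fundSystem K (equivFinRank.symm i))) * (v i c + v0 i))

/-- The mixed-space valued parametrisation: signs at real places, angles at complex places. -/
noncomputable def phiMap (u : (Par K → ℝ) →L[ℝ] ℝ) (u0 : ℝ)
    (v : {w : InfinitePlace K // w ≠ w₀} → (Par K → ℝ) →L[ℝ] ℝ)
    (v0 : {w : InfinitePlace K // w ≠ w₀} → ℝ)
    (σ : {w : InfinitePlace K // IsReal w} → ℝ) (c : Par K → ℝ) : mixedSpace K :=
  (fun w => σ w * yMap K u u0 v v0 c w.1,
   fun w => (yMap K u u0 v v0 c w.1 : ℂ) *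
      Complex.exp (((2 * Real.pi * c (Sum.inr w) : ℝ) : ℂ) * Complex.I))

theorem contDiff_ofReal_comp {X : Type*} [NormedAddCommGroup X] [NormedSpace ℝ X]
    (f : X → ℝ) (hf : ContDiff ℝ 1 f) : ContDiff ℝ 1 (fun c => (f c : ℂ)) :=
  Complex.ofRealCLM.contDiff.comp hf

theorem contDiff_phiMap (u : (Par K → ℝ) →L[ℝ] ℝ) (u0 : ℝ)
    (v : {w : InfinitePlace K // w ≠ w₀} → (Par K → ℝ) →L[ℝ] ℝ)
    (v0 : {w : InfinitePlace K // w ≠ w₀} → ℝ)
    (σ : {w : InfinitePlace K // IsReal w} → ℝ) :
    ContDiff ℝ 1 (phiMap K u u0 v v0 σ) := by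
  unfold phiMap yMap
  refine ContDiff.prodMk (contDiff_pi.mpr fun w => ?_) (contDiff_pi.mpr fun w => ?_)
  · fun_prop
  · exact ContDiff.mul (contDiff_ofReal_comp _ (by fun_prop))
      (Complex.contDiff_exp.comp ((contDiff_ofReal_comp _ (by fun_prop)).mul contDiff_const))

theorem exists_lipschitzOnWith_phiMap (u : (Par K → ℝ) →L[ℝ] ℝ) (u0 : ℝ)
    (v : {w : InfinitePlace K // w ≠ w₀} → (Par K → ℝ) →L[ℝ] ℝ)
    (v0 : {w : InfinitePlace K // w ≠ w₀} → ℝ)
    (σ : {w : InfinitePlace K // IsReal w} → ℝ) :
    ∃ M : ℝ≥0, LipschitzOnWith M (phiMap K u u0 v v0 σ) (Set.Icc 0 1) :=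
  ((contDiff_phiMap K u u0 v v0 σ).locallyLipschitz.locallyLipschitzOn
    (s := Set.Icc 0 1)).exists_lipschitzOnWith_of_compact isCompact_Icc

omit [NumberField K] in
theorem exists_sign_angle (x : mixedSpace K) :
    ∃ (s : {w : InfinitePlace K // IsReal w} → Bool)
      (θ : {w : InfinitePlace K // IsComplex w} → ℝ),
      (∀ w, θ w ∈ Set.Icc (0 : ℝ) 1) ∧
      (∀ w, x.1 w = (if s w then 1 else -1) * normAtPlace w.1 x) ∧
      (∀ w, x.2 w = (normAtPlace w.1 x : ℂ) *
        Complex.exp (((2 * Real.pi * θ w : ℝ) : ℂ) * Complex.I)) := by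
  have hpi : 0 < Real.pi := Real.pi_pos
  refine ⟨fun w => decide (0 ≤ x.1 w),
    fun w => if 0 ≤ Complex.arg (x.2 w) then Complex.arg (x.2 w) / (2 * Real.pi)
      else Complex.arg (x.2 w) / (2 * Real.pi) + 1, fun w => ?_, fun w => ?_, fun w => ?_⟩
  · have h1 := Complex.neg_pi_lt_arg (x.2 w)
    have h2 := Complex.arg_le_pi (x.2 w)
    dsimp only
    split_ifs with h
    · refine ⟨by positivity, ?_⟩
      rw [div_le_one (by positivity)]
      linarith
    · have h := not_le.mp h
      constructor
      · have : -1 ≤ Complex.arg (x.2 w) / (2 * Real.pi) := by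
          rw [le_div_iff₀ (by positivity)]
          linarith
        linarith
      · have : Complex.arg (x.2 w) / (2 * Real.pi) ≤ 0 :=
          div_nonpos_of_nonpos_of_nonneg h.le (by positivity)
        linarith
  · rw [normAtPlace_apply_of_isReal w.2, Real.norm_eq_abs]
    by_cases h : 0 ≤ x.1 w
    · simp [h, abs_of_nonneg h]
    · have h := not_le.mp h
      simp [not_le.mpr h, abs_of_neg h]
  · rw [normAtPlace_apply_of_isComplex w.2]
    have key : Complex.exp (((2 * Real.pi * (if 0 ≤ Complex.arg (x.2 w) then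
        Complex.arg (x.2 w) / (2 * Real.pi)
        else Complex.arg (x.2 w) / (2 * Real.pi) + 1) : ℝ) : ℂ) * Complex.I) =
        Complex.exp (Complex.arg (x.2 w) * Complex.I) := by
      split_ifs with h
      · congr 2
        push_cast
        field_simp
      · have : (((2 * Real.pi * (Complex.arg (x.2 w) / (2 * Real.pi) + 1) : ℝ) : ℂ)) * Complex.I =
            Complex.arg (x.2 w) * Complex.I + 2 * Real.pi * Complex.I := by
          push_cast
          field_simp
        rw [this, Complex.exp_add, Complex.exp_two_pi_mul_I, mul_one]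
    rw [key]
    exact (Complex.norm_mul_exp_arg_mul_I (x.2 w)).symm

/-- Index type of the finite family of parametrisations. -/
abbrev FaceIdx : Type _ :=
  Option (Option ({w : InfinitePlace K // w ≠ w₀} × Bool) ×
    ({w : InfinitePlace K // IsReal w} → Bool))

/-- linear part of the scale -/
def faceU : Option ({w : InfinitePlace K // w ≠ w₀} × Bool) → (Par K → ℝ) →L[ℝ] ℝ
  | none => 0
  | some (i1, _) => ContinuousLinearMap.proj (Sum.inl i1)

/-- constant part of the scale -/
def faceU0 : Option ({w : InfinitePlace K // w ≠ w₀} × Bool) → ℝ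
  | none => 1
  | some _ => 0

/-- linear part of the exponents -/
def faceV : Option ({w : InfinitePlace K // w ≠ w₀} × Bool) →
    {w : InfinitePlace K // w ≠ w₀} → (Par K → ℝ) →L[ℝ] ℝ
  | none, i => ContinuousLinearMap.proj (Sum.inl i)
  | some (i1, _), i => if i = i1 then 0 else ContinuousLinearMap.proj (Sum.inl i)

/-- constant part of the exponents -/
def faceV0 : Option ({w : InfinitePlace K // w ≠ w₀} × Bool) →
    {w : InfinitePlace K // w ≠ w₀} → ℝ
  | none, _ => 0
  | some (i1, ε), i => if i = i1 then (if ε then 1 else 0) else 0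

/-- The finite family of parametrisations of the frontier of `normLeOne K`. -/
def phiFam : FaceIdx K → (Par K → ℝ) → mixedSpace K
  | none => fun _ => 0
  | some (f, s) => phiMap K (faceU K f) (faceU0 K f) (faceV K f) (faceV0 K f)
      (fun w => if s w then 1 else -1)

theorem exists_lipschitzOnWith_phiFam :
    ∃ M : ℝ≥0, ∀ j : FaceIdx K, LipschitzOnWith M (phiFam K j) (Set.Icc 0 1) := by
  have h : ∀ j : FaceIdx K, ∃ M : ℝ≥0, LipschitzOnWith M (phiFam K j) (Set.Icc 0 1) := by
    intro j
    match j with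
    | none => exact ⟨0, (LipschitzWith.const (0 : mixedSpace K)).lipschitzOnWith⟩
    | some (f, s) => exact exists_lipschitzOnWith_phiMap K _ _ _ _ _
  choose Mf hMf using h
  exact ⟨∑ j, Mf j, fun j => (hMf j).weaken (Finset.single_le_sum (fun _ _ => zero_le)
    (Finset.mem_univ j))⟩

/-- Reconstruction of a point of the mixed space from its norms at all places. -/
theorem exists_phiMap_eq (x : mixedSpace K) (f : Option ({w : InfinitePlace K // w ≠ w₀} × Bool))
    (c₁ : {w : InfinitePlace K // w ≠ w₀} → ℝ) (hc₁ : ∀ i, c₁ i ∈ Set.Icc (0 : ℝ) 1)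
    (hy : ∀ (θ : {w : InfinitePlace K // IsComplex w} → ℝ) (w : InfinitePlace K),
      yMap K (faceU K f) (faceU0 K f) (faceV K f) (faceV0 K f) (Sum.elim c₁ θ) w =
        normAtPlace w x) :
    ∃ j : FaceIdx K, x ∈ phiFam K j '' Set.Icc 0 1 := by
  obtain ⟨s, θ, hθ, h1, h2⟩ := exists_sign_angle K x
  refine ⟨some (f, s), Sum.elim c₁ θ, ⟨?_, ?_⟩, ?_⟩
  · rintro (i | w)
    · exact (hc₁ i).1
    · exact (hθ w).1
  · rintro (i | w)
    · exact (hc₁ i).2
    · exact (hθ w).2
  · simp only [phiFam, phiMap]
    refine Prod.ext (funext fun w => ?_) (funext fun w => ?_)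
    · simp only [hy θ w.1]
      exact (h1 w).symm
    · simp only [hy θ w.1, Sum.elim_inr]
      exact (h2 w).symm

/-- **The frontier of `normLeOne K` is covered by finitely many Lipschitz images of a cube.** -/
theorem frontier_normLeOne_subset :
    frontier (normLeOne K) ⊆ ⋃ j : FaceIdx K, phiFam K j '' Set.Icc 0 1 := by
  intro x hx
  rw [Set.mem_iUnion]
  have hcl : normAtAllPlaces x ∈ compactSet K := closure_normLeOne_subset K hx.1
  have hint : normAtAllPlaces x ∉ expMapBasis '' interior (paramSet K) := fun h =>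
    hx.2 (subset_interior_normLeOne K h)
  obtain ⟨s, hs, _, ⟨z, hz, rfl⟩, hy⟩ := hcl
  have hz0 : z w₀ = 0 := by simpa using hz w₀ (Set.mem_univ _)
  have hz1 : ∀ i : {w : InfinitePlace K // w ≠ w₀}, z i ∈ Set.Icc (0 : ℝ) 1 := fun i => by
    simpa [i.2] using hz i (Set.mem_univ _)
  have hyw : ∀ w, normAtPlace w x = s * ∏ i : {w : InfinitePlace K // w ≠ w₀},
        Real.exp (Real.log (w (fundSystem K (equivFinRank.symm i))) * z i) := by
    intro w
    have := congrFun hy w
    simp only [Pi.smul_apply, smul_eq_mul, normAtAllPlaces_apply] at this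
    rw [← this, expMapBasis_eq_exp_log, hz0, Real.exp_zero, one_mul]
  by_cases hs0 : s = 0
  · -- the origin
    refine ⟨none, 0, ⟨le_refl _, fun _ => zero_le_one⟩, ?_⟩
    have : x = 0 := by
      rw [← forall_normAtPlace_eq_zero_iff]
      intro w
      rw [hyw w, hs0, zero_mul]
    rw [this]
    rfl
  by_cases hs1 : s = 1
  · -- the face `norm = 1`
    refine exists_phiMap_eq K x none (fun i => z i) hz1 fun θ w => ?_
    rw [hyw w, hs1]
    simp [yMap, faceU, faceU0, faceV, faceV0]
  by_cases hface : ∃ i : {w : InfinitePlace K // w ≠ w₀}, z i = 0 ∨ z i = 1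
  · obtain ⟨i1, hi1⟩ := hface
    refine exists_phiMap_eq K x (some (i1, decide (z i1 = 1)))
      (fun i => if i = i1 then s else z i) (fun i => ?_) fun θ w => ?_
    · split_ifs
      · exact hs
      · exact hz1 i
    · rw [hyw w]
      simp only [yMap, faceU, faceU0, faceV, faceV0, ContinuousLinearMap.proj_apply,
        Sum.elim_inl, if_true, add_zero]
      congr 1
      refine Finset.prod_congr rfl fun i _ => ?_
      by_cases hi : i = i1
      · subst hi
        rcases hi1 with h | h
        · simp [h]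
        · simp [h]
      · simp [hi]
  · -- interior: contradiction
    exfalso
    have hface : ∀ i : {w : InfinitePlace K // w ≠ w₀}, z i ≠ 0 ∧ z i ≠ 1 := fun i =>
      ⟨fun h => hface ⟨i, Or.inl h⟩, fun h => hface ⟨i, Or.inr h⟩⟩
    have hspos : 0 < s := lt_of_le_of_ne hs.1 (Ne.symm hs0)
    have hslt : s < 1 := lt_of_le_of_ne hs.2 hs1
    apply hint
    refine ⟨fun w => if w = w₀ then Real.log s else z w, ?_, ?_⟩
    · rw [interior_paramSet, Set.mem_univ_pi]
      intro w
      by_cases hw : w = w₀
      · simp only [hw, if_true, Set.mem_Iio]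
        exact Real.log_neg hspos hslt
      · simp only [hw, if_false]
        have h1 := hz1 ⟨w, hw⟩
        have h2 := hface ⟨w, hw⟩
        exact ⟨lt_of_le_of_ne h1.1 (Ne.symm h2.1), lt_of_le_of_ne h1.2 h2.2⟩
    · rw [expMapBasis_apply'', if_pos rfl, Real.exp_log hspos, ← hy]
      congr 2
      ext w
      by_cases hw : w = w₀
      · simp [hw, hz0]
      · simp [hw]

theorem card_par_add_one : Fintype.card (Par K) + 1 = Module.finrank ℚ K := by
  rw [Fintype.card_sum, ← card_add_two_mul_card_eq_rank K]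
  have h1 : Fintype.card {w : InfinitePlace K // w ≠ w₀} + 1 = Fintype.card (InfinitePlace K) := by
    rw [Fintype.card_subtype_compl, Fintype.card_subtype_eq]
    have : 0 < Fintype.card (InfinitePlace K) := Fintype.card_pos
    omega
  have h2 : Fintype.card (InfinitePlace K) = nrRealPlaces K + nrComplexPlaces K :=
    card_eq_nrRealPlaces_add_nrComplexPlaces K
  have h3 : Fintype.card {w : InfinitePlace K // IsComplex w} = nrComplexPlaces K := by
    simp [nrComplexPlaces]
  omega

end

end Fermat.Agent.S14.helper1599
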