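import Fermat.Agent.S14.helper1599_LatticeCount
import Fermat.Agent.S14.helper1599_Frontier

set_option autoImplicit false

/-!
# Counting ideals of bounded norm in an ideal class, with a power-saving error term (helper1599)

`#{I ∈ C : N(I) ≤ x} = κ * x + O(x ^ (1 - 1/n))`, `n = [K : ℚ]`, with the same `κ` for
every ideal class `C`.
-/

namespace Fermat.Agent.S14.helper1599

open NumberField NumberField.InfinitePlace NumberField.mixedEmbedding NumberField.Units
  NumberField.mixedEmbedding.fundamentalCone Ideal Module Submodule Filter Topology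
open scoped NNReal Classical nonZeroDivisors Real Pointwise

noncomputable section

variable (K : Type*) [Field K] [NumberField K]

/-- Copy of a private Mathlib lemma: ideals of norm `≤ s` in the class `C` correspond to
principal ideals divisible by `J` of norm `≤ s * N(J)`, if `J` is in the class `C⁻¹`. -/
theorem card_norm_le_and_mk_eq {C : ClassGroup (𝓞 K)} {J : (Ideal (𝓞 K))⁰}
    (hJ : ClassGroup.mk0 J = C⁻¹) (s : ℝ) :
    Nat.card {I : (Ideal (𝓞 K))⁰ // absNorm (I : Ideal (𝓞 K)) ≤ s ∧ ClassGroup.mk0 I = C}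
      = Nat.card {I : (Ideal (𝓞 K))⁰ // (J : Ideal (𝓞 K)) ∣ I ∧ IsPrincipal (I : Ideal (𝓞 K)) ∧
        absNorm (I : Ideal (𝓞 K)) ≤ s * absNorm (J : Ideal (𝓞 K))} := by
  simp_rw [← nonZeroDivisors_dvd_iff_dvd_coe]
  refine Nat.card_congr ?_
  refine ((Equiv.dvd J).subtypeEquiv fun I ↦ ?_).trans
    (Equiv.subtypeSubtypeEquivSubtypeInter (fun I : (Ideal (𝓞 K))⁰ ↦ J ∣ I) _)
  rw [← ClassGroup.mk0_eq_one_iff (SetLike.coe_mem _)]
  simp_rw [Equiv.dvd_apply, Submonoid.coe_mul, ← Submonoid.mul_def, _root_.map_mul, hJ,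
    inv_mul_eq_one, Nat.cast_mul, mul_comm s, eq_comm, and_comm, and_congr_left_iff]
  exact fun _ ↦
    (mul_le_mul_iff_of_pos_left (Nat.cast_pos.mpr (absNorm_pos_of_nonZeroDivisors J))).symm

theorem mem_smul_normLeOne_iff {t : ℝ} (ht : 0 < t) (x : mixedSpace K) :
    x ∈ t • normLeOne K ↔ x ∈ fundamentalCone K ∧ mixedEmbedding.norm x ≤ t ^ finrank ℚ K := by
  rw [Set.mem_smul_set_iff_inv_smul_mem₀ ht.ne', mem_normLeOne, smul_mem_iff_mem (inv_ne_zero ht.ne'),
    mixedEmbedding.norm_smul, abs_of_pos (inv_pos.mpr ht), inv_pow,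
    inv_mul_le_iff₀ (pow_pos ht _), mul_one]

theorem card_idealSet_norm_le (J : (Ideal (𝓞 K))⁰) {t : ℝ} (ht : 0 < t) :
    Nat.card {a : idealSet K J // mixedEmbedding.norm (a : mixedSpace K) ≤ t ^ finrank ℚ K} =
      ((t • normLeOne K) ∩
        (idealLattice K (FractionalIdeal.mk0 K J) : Set (mixedSpace K))).ncard := by
  rw [← Nat.card_coe_set_eq]
  refine Nat.card_congr ?_
  refine (Equiv.subtypeSubtypeEquivSubtypeInter (fun x : mixedSpace K => x ∈ idealSet K J)
    (fun x => mixedEmbedding.norm x ≤ t ^ finrank ℚ K)).trans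
    (Equiv.setCongr (s := {x | x ∈ idealSet K J ∧ mixedEmbedding.norm x ≤ t ^ finrank ℚ K}) ?_)
  ext x
  simp only [idealSet, Set.mem_inter_iff, Set.mem_ofPred_eq, mem_smul_normLeOne_iff K ht]
  tauto

open MeasureTheory in
/-- Lattice point count in dilates of `normLeOne K` for the lattice of an integral ideal. -/
theorem exists_card_smul_normLeOne_inter_sub_le (J : (Ideal (𝓞 K))⁰) :
    ∃ a C : ℝ, ∀ t : ℝ, 1 ≤ t →
      |(((t • normLeOne K) ∩
          (idealLattice K (FractionalIdeal.mk0 K J) : Set (mixedSpace K))).ncard : ℝ) -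
        a * t ^ finrank ℚ K| ≤ C * t ^ (finrank ℚ K - 1) := by
  obtain ⟨M, hM⟩ := exists_lipschitzOnWith_phiFam K
  let b := fractionalIdealLatticeBasis K (FractionalIdeal.mk0 K J)
  obtain ⟨C, hC⟩ := exists_card_smul_inter_sub_le b (volume : Measure (mixedSpace K))
    (normLeOne K) (isBounded_normLeOne K) (phiFam K) M hM (frontier_normLeOne_subset K)
  refine ⟨volume.real (normLeOne K) / volume.real (ZSpan.fundamentalDomain b), C,
    fun t ht => ?_⟩
  have h := hC t ht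
  have h1 : Fintype.card (Free.ChooseBasisIndex ℤ (FractionalIdeal.mk0 K J : FractionalIdeal (𝓞 K)⁰ K)) =
      finrank ℚ K := by
    rw [← Module.finrank_eq_card_basis b, mixedEmbedding.finrank]
  have h2 : Fintype.card (Par K) = finrank ℚ K - 1 := by
    have := card_par_add_one K
    omega
  rw [h1, h2, span_idealLatticeBasis] at h
  exact h

/-- Per-class ideal count with error term (unspecified leading constant). -/
theorem exists_card_mk_eq_sub_le (C : ClassGroup (𝓞 K)) :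
    ∃ a B : ℝ, ∀ x : ℝ, 1 ≤ x →
      |(Nat.card {I : (Ideal (𝓞 K))⁰ //
          absNorm (I : Ideal (𝓞 K)) ≤ x ∧ ClassGroup.mk0 I = C} : ℝ) - a * x| ≤
        B * x ^ (1 - 1 / (finrank ℚ K : ℝ)) := by
  obtain ⟨J, hJ⟩ := ClassGroup.mk0_surjective C⁻¹
  obtain ⟨a, C1, h⟩ := exists_card_smul_normLeOne_inter_sub_le K J
  have hn : 0 < finrank ℚ K := finrank_pos
  have hnR : (0 : ℝ) < (finrank ℚ K : ℝ) := Nat.cast_pos.mpr hn
  have hNJ : (1 : ℝ) ≤ (absNorm (J : Ideal (𝓞 K)) : ℝ) := by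
    exact_mod_cast Nat.one_le_iff_ne_zero.mpr (absNorm_ne_zero_of_nonZeroDivisors J)
  have hw : (0 : ℝ) < (torsionOrder K : ℝ) := Nat.cast_pos.mpr (torsionOrder_pos K)
  refine ⟨a * absNorm (J : Ideal (𝓞 K)) / torsionOrder K,
    |C1| * (absNorm (J : Ideal (𝓞 K)) : ℝ) ^ (1 - 1 / (finrank ℚ K : ℝ)) / torsionOrder K,
    fun x hx => ?_⟩
  set NJ : ℝ := (absNorm (J : Ideal (𝓞 K)) : ℝ) with hNJdef
  set s : ℝ := x * NJ with hs
  have hs1 : 1 ≤ s := one_le_mul_of_one_le_of_one_le hx hNJ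
  have hs0 : 0 < s := lt_of_lt_of_le one_pos hs1
  set t : ℝ := s ^ (1 / (finrank ℚ K : ℝ)) with ht
  have ht1 : 1 ≤ t := Real.one_le_rpow hs1 (by positivity)
  have ht0 : 0 < t := lt_of_lt_of_le one_pos ht1
  have htn : t ^ finrank ℚ K = s := by
    rw [ht, ← Real.rpow_natCast, ← Real.rpow_mul hs0.le, one_div, inv_mul_cancel₀ hnR.ne',
      Real.rpow_one]
  have htn1 : t ^ (finrank ℚ K - 1) = s ^ (1 - 1 / (finrank ℚ K : ℝ)) := by
    rw [ht, ← Real.rpow_natCast, ← Real.rpow_mul hs0.le, Nat.cast_sub hn, Nat.cast_one]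
    congr 1
    field_simp
  have key : (Nat.card {I : (Ideal (𝓞 K))⁰ //
          absNorm (I : Ideal (𝓞 K)) ≤ x ∧ ClassGroup.mk0 I = C} : ℝ) * torsionOrder K =
      (((t • normLeOne K) ∩
          (idealLattice K (FractionalIdeal.mk0 K J) : Set (mixedSpace K))).ncard : ℝ) := by
    rw [card_norm_le_and_mk_eq K hJ x, ← card_idealSet_norm_le K J ht0, htn, ← Nat.cast_mul,
      card_isPrincipal_dvd_norm_le K J s]
  have hb := h t ht1
  rw [← key, htn, htn1] at hb
  have hsr : s ^ (1 - 1 / (finrank ℚ K : ℝ)) =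
      x ^ (1 - 1 / (finrank ℚ K : ℝ)) * NJ ^ (1 - 1 / (finrank ℚ K : ℝ)) :=
    Real.mul_rpow (zero_le_one.trans hx) (zero_le_one.trans hNJ)
  have hb' : |(Nat.card {I : (Ideal (𝓞 K))⁰ //
          absNorm (I : Ideal (𝓞 K)) ≤ x ∧ ClassGroup.mk0 I = C} : ℝ) * torsionOrder K - a * s| ≤
      |C1| * s ^ (1 - 1 / (finrank ℚ K : ℝ)) :=
    hb.trans (mul_le_mul_of_nonneg_right (le_abs_self C1) (Real.rpow_nonneg hs0.le _))
  have hdiv : (Nat.card {I : (Ideal (𝓞 K))⁰ //
          absNorm (I : Ideal (𝓞 K)) ≤ x ∧ ClassGroup.mk0 I = C} : ℝ) - a * NJ / torsionOrder K * x =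
      ((Nat.card {I : (Ideal (𝓞 K))⁰ //
          absNorm (I : Ideal (𝓞 K)) ≤ x ∧ ClassGroup.mk0 I = C} : ℝ) * torsionOrder K - a * s) /
        torsionOrder K := by
    rw [hs]
    field_simp
  rw [hdiv, abs_div, abs_of_pos hw, div_le_iff₀ hw]
  calc _ ≤ |C1| * s ^ (1 - 1 / (finrank ℚ K : ℝ)) := hb'
    _ = _ := by
      rw [hsr]
      field_simp

/-- The common density of ideals in every ideal class. -/
def kappa : ℝ :=
  (2 ^ nrRealPlaces K * (2 * π) ^ nrComplexPlaces K * regulator K) /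
    (torsionOrder K * Real.sqrt |discr K|)

theorem tendsto_card_div_of_bound {N : ℝ → ℝ} {a B r : ℝ} (hr : r < 1)
    (h : ∀ x : ℝ, 1 ≤ x → |N x - a * x| ≤ B * x ^ r) :
    Tendsto (fun x : ℝ => N x / x) atTop (𝓝 a) := by
  rw [tendsto_iff_norm_sub_tendsto_zero]
  have h0 : Tendsto (fun x : ℝ => |B| * x ^ (-(1 - r))) atTop (𝓝 0) := by
    simpa using (tendsto_rpow_neg_atTop (by linarith : 0 < 1 - r)).const_mul |B|
  refine squeeze_zero' (Eventually.of_forall fun _ => norm_nonneg _) ?_ h0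
  filter_upwards [eventually_ge_atTop 1] with x hx
  have hx0 : 0 < x := lt_of_lt_of_le one_pos hx
  have : N x / x - a = (N x - a * x) / x := by field_simp
  rw [Real.norm_eq_abs, this, abs_div, abs_of_pos hx0, div_le_iff₀ hx0]
  calc |N x - a * x| ≤ B * x ^ r := h x hx
    _ ≤ |B| * x ^ r := mul_le_mul_of_nonneg_right (le_abs_self B) (Real.rpow_nonneg hx0.le _)
    _ = |B| * x ^ (-(1 - r)) * x := by
        rw [mul_assoc, ← Real.rpow_add_one hx0.ne']
        congr 2
        ring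

/-- **Ideal count with power-saving error term**, uniform in the ideal class. -/
theorem exists_card_norm_le_and_mk_eq_sub_le :
    ∃ B : ℝ, ∀ (C : ClassGroup (𝓞 K)) (x : ℝ), 1 ≤ x →
      |(Nat.card {I : (Ideal (𝓞 K))⁰ //
          absNorm (I : Ideal (𝓞 K)) ≤ x ∧ ClassGroup.mk0 I = C} : ℝ) - kappa K * x| ≤
        B * x ^ (1 - 1 / (finrank ℚ K : ℝ)) := by
  have hn : 0 < finrank ℚ K := finrank_pos
  have hnR : (0 : ℝ) < (finrank ℚ K : ℝ) := Nat.cast_pos.mpr hn
  have h := fun C : ClassGroup (𝓞 K) => exists_card_mk_eq_sub_le K C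
  choose a B hB using h
  have ha : ∀ C, a C = kappa K := by
    intro C
    have h1 := tendsto_card_div_of_bound (N := fun x : ℝ => (Nat.card {I : (Ideal (𝓞 K))⁰ //
          absNorm (I : Ideal (𝓞 K)) ≤ x ∧ ClassGroup.mk0 I = C} : ℝ)) (a := a C) (B := B C)
      (r := 1 - 1 / (finrank ℚ K : ℝ)) (by
        have : 0 < 1 / (finrank ℚ K : ℝ) := by positivity
        linarith) (hB C)
    exact tendsto_nhds_unique h1 (NumberField.Ideal.tendsto_norm_le_and_mk_eq_div_atTop K C)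
  refine ⟨∑ C, |B C|, fun C x hx => ?_⟩
  rw [← ha C]
  refine (hB C x hx).trans (mul_le_mul_of_nonneg_right ?_ (Real.rpow_nonneg (zero_le_one.trans hx) _))
  exact (le_abs_self _).trans (Finset.single_le_sum (f := fun C => |B C|) (fun _ _ => abs_nonneg _)
    (Finset.mem_univ C))

end

end Fermat.Agent.S14.helper1599
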