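import Mathlib

set_option autoImplicit false

/-!
# Lattice point count with error term (helper1599)

`E` a finite dimensional real normed space with a basis `b`, `L = span ℤ (range b)`,
`P` the fundamental domain of `b`, `D` a bounded set whose frontier is covered by finitely
many Lipschitz images of cubes `[0,1]^κ`.  Then
`|#(t • D ∩ L) - vol(D)/vol(P) * t ^ n| ≤ C * t ^ #κ` for all `t ≥ 1`.
-/

namespace Fermat.Agent.S14.helper1599

open MeasureTheory Module Submodule Bornology Metric
open scoped NNReal Pointwise ENNReal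

section LatticeCount

variable {E ι : Type*} [NormedAddCommGroup E] [NormedSpace ℝ E] [Fintype ι] (b : Basis ι ℝ E)

/-- The number of lattice points in a ball is bounded independently of the center. -/
theorem ncard_inter_closedBall_le [FiniteDimensional ℝ E] (y : E) (r : ℝ) :
    ((span ℤ (Set.range b) : Set E) ∩ closedBall y r).ncard ≤
      ((span ℤ (Set.range b) : Set E) ∩ closedBall 0 (2 * r)).ncard := by
  classical
  by_cases h : ((span ℤ (Set.range b) : Set E) ∩ closedBall y r).Nonempty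
  · obtain ⟨l0, hl0, hl0'⟩ := h
    have hfin : ((span ℤ (Set.range b) : Set E) ∩ closedBall 0 (2 * r)).Finite := by
      rw [Set.inter_comm]; exact ZSpan.setFinite_inter b isBounded_closedBall
    refine Set.ncard_le_ncard_of_injOn (fun l => l - l0) ?_ ?_ hfin
    · rintro l ⟨hl, hl'⟩
      refine ⟨sub_mem hl hl0, ?_⟩
      rw [mem_closedBall, dist_zero_right]
      calc ‖l - l0‖ = dist l l0 := (dist_eq_norm _ _).symm
        _ ≤ dist l y + dist l0 y := dist_triangle_right _ _ _
        _ ≤ r + r := add_le_add hl' hl0'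
        _ = 2 * r := by ring
    · intro l _ l' _ h
      simpa using h
  · rw [Set.not_nonempty_iff_eq_empty] at h
    simp [h]

theorem finite_inter_closedBall [FiniteDimensional ℝ E] (y : E) (r : ℝ) :
    ((span ℤ (Set.range b) : Set E) ∩ closedBall y r).Finite := by
  rw [Set.inter_comm]; exact ZSpan.setFinite_inter b isBounded_closedBall

/-- Lattice points within distance `R` of the `t`-dilate of a Lipschitz image of a cube. -/
theorem ncard_near_lipschitz_image [FiniteDimensional ℝ E] {κ : Type*} [Fintype κ]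
    (φ : (κ → ℝ) → E) (M : ℝ≥0)
    (hφ : LipschitzOnWith M φ (Set.Icc 0 1)) (R : ℝ) (t : ℝ) (ht : 1 ≤ t) :
    {l : E | l ∈ span ℤ (Set.range b) ∧
        ∃ c ∈ Set.Icc (0 : κ → ℝ) 1, ‖l - t • φ c‖ ≤ R}.ncard ≤
      ((span ℤ (Set.range b) : Set E) ∩ closedBall 0 (2 * (R + M))).ncard *
        (⌈t⌉₊ + 1) ^ Fintype.card κ := by
  classical
  set m : ℕ := ⌈t⌉₊ with hm
  have hm1 : (1 : ℝ) ≤ m := ht.trans (Nat.le_ceil t)
  have hm0 : (0 : ℝ) < m := lt_of_lt_of_le one_pos hm1
  have htm : t ≤ m := Nat.le_ceil t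
  let grid : Finset (κ → ℕ) := Fintype.piFinset (fun _ => Finset.range (m + 1))
  let ctr : (κ → ℕ) → E := fun k => t • φ (fun j => (k j : ℝ) / m)
  have hsub : {l : E | l ∈ span ℤ (Set.range b) ∧
        ∃ c ∈ Set.Icc (0 : κ → ℝ) 1, ‖l - t • φ c‖ ≤ R} ⊆
      ⋃ k ∈ grid, ((span ℤ (Set.range b) : Set E) ∩ closedBall (ctr k) (R + M)) := by
    rintro l ⟨hl, c, hc, hlc⟩
    have hc0 : ∀ j, 0 ≤ c j := fun j => hc.1 j
    have hc1 : ∀ j, c j ≤ 1 := fun j => hc.2 j
    let k : κ → ℕ := fun j => ⌊(m : ℝ) * c j⌋₊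
    have hk : k ∈ grid := by
      simp only [grid, Fintype.mem_piFinset, Finset.mem_range]
      intro j
      refine Nat.lt_succ_of_le (Nat.floor_le_of_le ?_)
      calc (m : ℝ) * c j ≤ m * 1 := mul_le_mul_of_nonneg_left (hc1 j) hm0.le
        _ = m := mul_one _
    let c' : κ → ℝ := fun j => (k j : ℝ) / m
    have hc' : c' ∈ Set.Icc (0 : κ → ℝ) 1 := by
      constructor
      · intro j
        exact div_nonneg (Nat.cast_nonneg _) hm0.le
      · intro j
        simp only [c', Pi.one_apply]
        rw [div_le_one hm0]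
        have := Finset.mem_range.mp (Fintype.mem_piFinset.mp hk j)
        exact_mod_cast Nat.lt_succ_iff.mp this
    have hdist : dist c c' ≤ 1 / m := by
      rw [dist_pi_le_iff (by positivity)]
      intro j
      have h1 : (k j : ℝ) ≤ m * c j := Nat.floor_le (mul_nonneg hm0.le (hc0 j))
      have h2 : (m : ℝ) * c j < k j + 1 := Nat.lt_floor_add_one _
      rw [Real.dist_eq, abs_le]
      simp only [c']
      constructor
      · rw [le_sub_iff_add_le, neg_add_eq_sub, sub_le_iff_le_add]
        calc (k j : ℝ) / m ≤ (m * c j) / m := div_le_div_of_nonneg_right h1 hm0.le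
          _ = c j := by field_simp
          _ ≤ c j + 1 / m := le_add_of_nonneg_right (by positivity)
      · rw [sub_le_iff_le_add, ← add_div, le_div_iff₀ hm0]
        linarith
    have hφd : dist (φ c) (φ c') ≤ M * (1 / m) :=
      (hφ.dist_le_mul c hc c' hc').trans (mul_le_mul_of_nonneg_left hdist M.coe_nonneg)
    refine Set.mem_biUnion hk ⟨hl, ?_⟩
    rw [mem_closedBall, dist_eq_norm]
    have ht0 : 0 ≤ t := zero_le_one.trans ht
    calc ‖l - ctr k‖ = ‖(l - t • φ c) + (t • φ c - t • φ c')‖ := by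
          simp only [ctr, c']; congr 1; abel
      _ ≤ ‖l - t • φ c‖ + ‖t • φ c - t • φ c'‖ := norm_add_le _ _
      _ ≤ R + M := by
          refine add_le_add hlc ?_
          rw [← smul_sub, norm_smul, Real.norm_of_nonneg ht0, ← dist_eq_norm]
          calc t * dist (φ c) (φ c') ≤ m * (M * (1 / m)) :=
                mul_le_mul htm hφd dist_nonneg hm0.le
            _ = M := by field_simp
  have hfin : (⋃ k ∈ grid, ((span ℤ (Set.range b) : Set E) ∩ closedBall (ctr k) (R + M))).Finite :=
    Set.Finite.biUnion grid.finite_toSet fun k _ => finite_inter_closedBall b _ _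
  calc _ ≤ (⋃ k ∈ grid, ((span ℤ (Set.range b) : Set E) ∩ closedBall (ctr k) (R + M))).ncard :=
        Set.ncard_le_ncard hsub hfin
    _ ≤ ∑ k ∈ grid, ((span ℤ (Set.range b) : Set E) ∩ closedBall (ctr k) (R + M)).ncard :=
        Finset.set_ncard_biUnion_le _ _
    _ ≤ ∑ _k ∈ grid, ((span ℤ (Set.range b) : Set E) ∩ closedBall 0 (2 * (R + M))).ncard :=
        Finset.sum_le_sum fun k _ => ncard_inter_closedBall_le b _ _
    _ = ((span ℤ (Set.range b) : Set E) ∩ closedBall 0 (2 * (R + M))).ncard *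
          (⌈t⌉₊ + 1) ^ Fintype.card κ := by
        rw [Finset.sum_const, smul_eq_mul, mul_comm]
        congr 1
        simp [grid, Fintype.card_piFinset, hm]

omit [Fintype ι] in
theorem zero_mem_fundamentalDomain : (0 : E) ∈ ZSpan.fundamentalDomain b := by
  simp [ZSpan.mem_fundamentalDomain]

theorem convex_fundamentalDomain : Convex ℝ (ZSpan.fundamentalDomain b) := by
  have : ZSpan.fundamentalDomain b =
      b.equivFun.toLinearMap ⁻¹' (Set.pi Set.univ fun _ : ι => Set.Ico (0 : ℝ) 1) := by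
    ext x
    simp [ZSpan.mem_fundamentalDomain]
  rw [this]
  exact (convex_pi fun _ _ => convex_Ico 0 1).linear_preimage _

/-- A translate of the fundamental domain that meets `S` without being contained in `S`
meets the frontier of `S`. -/
theorem exists_mem_frontier_of_cell (S : Set E) (l : E)
    (h1 : ∃ p ∈ ZSpan.fundamentalDomain b, l + p ∈ S)
    (h2 : ∃ p ∈ ZSpan.fundamentalDomain b, l + p ∉ S) :
    ∃ p ∈ ZSpan.fundamentalDomain b, l + p ∈ frontier S := by
  let T : Set E := (fun p => l + p) '' ZSpan.fundamentalDomain b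
  have hT : IsPreconnected T := by
    have : Convex ℝ T := by
      have := (convex_fundamentalDomain b).translate l
      simpa [T, Set.image_add_left] using this
    exact this.isPreconnected
  have : PreconnectedSpace T := isPreconnected_iff_preconnectedSpace.mp hT
  let S' : Set T := Subtype.val ⁻¹' S
  have hne : S'.Nonempty := by
    obtain ⟨p, hp, hpS⟩ := h1
    exact ⟨⟨l + p, Set.mem_image_of_mem _ hp⟩, hpS⟩
  have hne' : S' ≠ Set.univ := by
    obtain ⟨p, hp, hpS⟩ := h2
    intro h
    have : (⟨l + p, Set.mem_image_of_mem _ hp⟩ : T) ∈ S' := by rw [h]; trivial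
    exact hpS this
  obtain ⟨x, hx⟩ := nonempty_frontier_iff.mpr ⟨hne, hne'⟩
  have hx' : (x : E) ∈ frontier S := continuous_subtype_val.frontier_preimage_subset S hx
  obtain ⟨p, hp, hpx⟩ := x.2
  have hpx' : l + p = (x : E) := hpx
  exact ⟨p, hp, by rw [hpx']; exact hx'⟩

variable [MeasurableSpace E] [BorelSpace E] [FiniteDimensional ℝ E]
  (μ : Measure E) [μ.IsAddHaarMeasure]

/-- Sandwich: cells inside `S` ≤ volume of `S` ≤ cells meeting `S`. -/
theorem card_mul_le_measure (S : Set E)
    (A : Finset (span ℤ (Set.range b)))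
    (hA : ∀ g ∈ A, ∀ p ∈ ZSpan.fundamentalDomain b, (g : E) + p ∈ S) :
    (A.card : ℝ≥0∞) * μ (ZSpan.fundamentalDomain b) ≤ μ S := by
  have : MeasurableVAdd (span ℤ (Set.range b)) E :=
    (inferInstance : MeasurableVAdd (span ℤ (Set.range b)).toAddSubgroup E)
  have : VAddInvariantMeasure (span ℤ (Set.range b)) E μ :=
    (inferInstance : VAddInvariantMeasure (span ℤ (Set.range b)).toAddSubgroup E μ)
  rw [(ZSpan.isAddFundamentalDomain b μ).measure_eq_tsum' S]
  calc (A.card : ℝ≥0∞) * μ (ZSpan.fundamentalDomain b)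
      = ∑ g ∈ A, μ (S ∩ (g +ᵥ ZSpan.fundamentalDomain b)) := by
        rw [Finset.sum_congr rfl (g := fun _ => μ (ZSpan.fundamentalDomain b)), Finset.sum_const,
          nsmul_eq_mul]
        intro g hg
        have : S ∩ (g +ᵥ ZSpan.fundamentalDomain b) = g +ᵥ ZSpan.fundamentalDomain b := by
          refine Set.inter_eq_right.mpr ?_
          rintro _ ⟨p, hp, rfl⟩
          exact hA g hg p hp
        rw [this, measure_vadd]
    _ ≤ ∑' g : span ℤ (Set.range b), μ (S ∩ (g +ᵥ ZSpan.fundamentalDomain b)) :=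
        ENNReal.sum_le_tsum A

theorem measure_le_card_mul (S : Set E)
    (B : Finset (span ℤ (Set.range b)))
    (hB : ∀ g : span ℤ (Set.range b), (∃ p ∈ ZSpan.fundamentalDomain b, (g : E) + p ∈ S) → g ∈ B) :
    μ S ≤ (B.card : ℝ≥0∞) * μ (ZSpan.fundamentalDomain b) := by
  have : MeasurableVAdd (span ℤ (Set.range b)) E :=
    (inferInstance : MeasurableVAdd (span ℤ (Set.range b)).toAddSubgroup E)
  have : VAddInvariantMeasure (span ℤ (Set.range b)) E μ :=
    (inferInstance : VAddInvariantMeasure (span ℤ (Set.range b)).toAddSubgroup E μ)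
  rw [(ZSpan.isAddFundamentalDomain b μ).measure_eq_tsum' S]
  rw [tsum_eq_sum (s := B)]
  · calc ∑ g ∈ B, μ (S ∩ (g +ᵥ ZSpan.fundamentalDomain b))
        ≤ ∑ _g ∈ B, μ (ZSpan.fundamentalDomain b) := by
          refine Finset.sum_le_sum fun g _ => ?_
          calc μ (S ∩ (g +ᵥ ZSpan.fundamentalDomain b))
              ≤ μ (g +ᵥ ZSpan.fundamentalDomain b) := measure_mono Set.inter_subset_right
            _ = μ (ZSpan.fundamentalDomain b) := measure_vadd _ _ _
      _ = (B.card : ℝ≥0∞) * μ (ZSpan.fundamentalDomain b) := by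
          rw [Finset.sum_const, nsmul_eq_mul]
  · intro g hg
    have : S ∩ (g +ᵥ ZSpan.fundamentalDomain b) = ∅ := by
      rw [Set.eq_empty_iff_forall_notMem]
      rintro x ⟨hxS, p, hp, rfl⟩
      exact hg (hB g ⟨p, hp, hxS⟩)
    rw [this, measure_empty]

/-- **Lattice point count with error term.**  If the frontier of the bounded set `D` is covered
by finitely many Lipschitz images of the cube `[0,1]^κ`, then the number of points of the lattice
`span ℤ (range b)` in `t • D` is `vol(D)/vol(P) * t ^ n + O(t ^ #κ)` for `t ≥ 1`. -/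
theorem exists_card_smul_inter_sub_le {κ β : Type*} [Fintype κ] [Fintype β]
    (D : Set E) (hD : IsBounded D)
    (φ : β → (κ → ℝ) → E) (M : ℝ≥0) (hφ : ∀ j, LipschitzOnWith M (φ j) (Set.Icc 0 1))
    (hfr : frontier D ⊆ ⋃ j, φ j '' Set.Icc 0 1) :
    ∃ C : ℝ, ∀ t : ℝ, 1 ≤ t →
      |(((t • D) ∩ (span ℤ (Set.range b) : Set E)).ncard : ℝ) -
        μ.real D / μ.real (ZSpan.fundamentalDomain b) * t ^ Fintype.card ι| ≤
          C * t ^ Fintype.card κ := by
  classical
  set P := ZSpan.fundamentalDomain b with hP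
  obtain ⟨δ, hδ⟩ := isBounded_iff_forall_norm_le.mp (ZSpan.fundamentalDomain_isBounded b)
  set N : ℕ := ((span ℤ (Set.range b) : Set E) ∩ closedBall 0 (2 * (δ + M))).ncard with hN
  refine ⟨Fintype.card β * N * 3 ^ Fintype.card κ, fun t ht => ?_⟩
  have ht0 : 0 < t := lt_of_lt_of_le one_pos ht
  set S : Set E := t • D with hS
  have hSb : IsBounded S := hD.smul₀ t
  -- the three sets of lattice points
  let Aset : Set (span ℤ (Set.range b)) := {g | ∀ p ∈ P, (g : E) + p ∈ S}
  let Cset : Set (span ℤ (Set.range b)) := {g | (g : E) ∈ S}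
  let Bset : Set (span ℤ (Set.range b)) := {g | ∃ p ∈ P, (g : E) + p ∈ S}
  have hAC : Aset ⊆ Cset := fun g hg => by
    have := hg 0 (zero_mem_fundamentalDomain b)
    simpa [Cset] using this
  have hCB : Cset ⊆ Bset := fun g hg => ⟨0, zero_mem_fundamentalDomain b, by simpa [Cset] using hg⟩
  have hBfin : Bset.Finite := by
    have hb : IsBounded (S + (-P)) := hSb.add (ZSpan.fundamentalDomain_isBounded b).neg
    have := (ZSpan.setFinite_inter b hb).preimage (f := (Subtype.val : span ℤ (Set.range b) → E))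
      Subtype.val_injective.injOn
    refine this.subset ?_
    rintro g ⟨p, hp, hgp⟩
    refine ⟨?_, g.2⟩
    exact ⟨(g : E) + p, hgp, -p, Set.neg_mem_neg.mpr hp, by simp⟩
  have hCfin : Cset.Finite := hBfin.subset hCB
  have hAfin : Aset.Finite := hCfin.subset hAC
  -- the count
  have hcnt : (S ∩ (span ℤ (Set.range b) : Set E)).ncard = Cset.ncard := by
    rw [← Set.ncard_image_of_injective Cset Subtype.val_injective]
    congr 1
    ext x
    constructor
    · rintro ⟨hxS, hxL⟩
      exact ⟨⟨x, hxL⟩, hxS, rfl⟩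
    · rintro ⟨g, hg, rfl⟩
      exact ⟨hg, g.2⟩
  have hAC' : Aset.ncard ≤ Cset.ncard := Set.ncard_le_ncard hAC hCfin
  have hCB' : Cset.ncard ≤ Bset.ncard := Set.ncard_le_ncard hCB hBfin
  -- measure sandwich
  have hμP0 : μ P ≠ 0 := ZSpan.measure_fundamentalDomain_ne_zero b
  have hμPtop : μ P ≠ ⊤ := (ZSpan.fundamentalDomain_isBounded b).measure_lt_top.ne
  have hμS : μ S = ENNReal.ofReal (t ^ Fintype.card ι) * μ D := by
    rw [hS, Measure.addHaar_smul_of_nonneg μ ht0.le, Module.finrank_eq_card_basis b]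
  have hμDtop : μ D ≠ ⊤ := hD.measure_lt_top.ne
  have hPpos : 0 < μ.real P := ENNReal.toReal_pos hμP0 hμPtop
  have hSreal : μ.real S = t ^ Fintype.card ι * μ.real D := by
    simp only [Measure.real, hμS, ENNReal.toReal_mul]
    rw [ENNReal.toReal_ofReal (by positivity)]
  have hSreal' : μ.real D / μ.real P * t ^ Fintype.card ι = μ.real S / μ.real P := by
    rw [hSreal]; ring
  have hμStop : μ S ≠ ⊤ := hSb.measure_lt_top.ne
  have h1 : (Aset.ncard : ℝ) ≤ μ.real S / μ.real P := by
    have := card_mul_le_measure b μ S hAfin.toFinset (fun g hg p hp =>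
      (hAfin.mem_toFinset.mp hg) p hp)
    rw [← Set.ncard_eq_toFinset_card Aset hAfin] at this
    have h' := ENNReal.toReal_mono hμStop this
    rw [ENNReal.toReal_mul, ENNReal.toReal_natCast] at h'
    rw [le_div_iff₀ hPpos]
    exact h'
  have h2 : μ.real S / μ.real P ≤ (Bset.ncard : ℝ) := by
    have := measure_le_card_mul b μ S hBfin.toFinset (fun g hg => hBfin.mem_toFinset.mpr hg)
    rw [← Set.ncard_eq_toFinset_card Bset hBfin] at this
    have h' := ENNReal.toReal_mono (ENNReal.mul_ne_top (ENNReal.natCast_ne_top _) hμPtop) this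
    rw [ENNReal.toReal_mul, ENNReal.toReal_natCast] at h'
    rw [div_le_iff₀ hPpos]
    exact h'
  -- boundary cells
  have hfrS : frontier S = (fun x => t • x) '' frontier D := by
    have := (Homeomorph.smulOfNeZero t ht0.ne').image_frontier D
    rw [hS, ← Set.image_smul]
    exact this.symm
  have hbd : (Bset \ Aset).ncard ≤
      Fintype.card β * (N * (⌈t⌉₊ + 1) ^ Fintype.card κ) := by
    have hsub : (Subtype.val '' (Bset \ Aset) : Set E) ⊆
        ⋃ j : β, {l : E | l ∈ span ℤ (Set.range b) ∧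
          ∃ c ∈ Set.Icc (0 : κ → ℝ) 1, ‖l - t • φ j c‖ ≤ δ} := by
      rintro _ ⟨g, ⟨hgB, hgA⟩, rfl⟩
      have hgA' : ∃ p ∈ P, (g : E) + p ∉ S := by
        simpa [Aset] using hgA
      obtain ⟨p, hp, hpfr⟩ := exists_mem_frontier_of_cell b S (g : E) hgB hgA'
      rw [hfrS] at hpfr
      obtain ⟨y, hy, hyp⟩ := hpfr
      obtain ⟨j, hj⟩ := Set.mem_iUnion.mp (hfr hy)
      obtain ⟨c, hc, rfl⟩ := hj
      refine Set.mem_iUnion.mpr ⟨j, g.2, c, hc, ?_⟩
      have : (g : E) - t • φ j c = -p := by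
        have h : t • φ j c = (g : E) + p := hyp
        rw [h]; abel
      rw [this, norm_neg]
      exact hδ p hp
    have hfin : ∀ j : β, {l : E | l ∈ span ℤ (Set.range b) ∧
          ∃ c ∈ Set.Icc (0 : κ → ℝ) 1, ‖l - t • φ j c‖ ≤ δ}.Finite := by
      intro j
      have hb : IsBounded ((t • φ j '' Set.Icc (0 : κ → ℝ) 1) + closedBall (0 : E) δ) := by
        refine IsBounded.add (IsBounded.smul₀ ?_ t) isBounded_closedBall
        exact (isCompact_Icc.image_of_continuousOn (hφ j).continuousOn).isBounded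
      refine (ZSpan.setFinite_inter b hb).subset ?_
      rintro l ⟨hl, c, hc, hlc⟩
      refine ⟨⟨t • φ j c, Set.smul_mem_smul_set (Set.mem_image_of_mem _ hc), l - t • φ j c, ?_, ?_⟩, hl⟩
      · simpa [mem_closedBall, dist_zero_right] using hlc
      · simp
    calc (Bset \ Aset).ncard = (Subtype.val '' (Bset \ Aset) : Set E).ncard :=
          (Set.ncard_image_of_injective _ Subtype.val_injective).symm
      _ ≤ (⋃ j : β, {l : E | l ∈ span ℤ (Set.range b) ∧
            ∃ c ∈ Set.Icc (0 : κ → ℝ) 1, ‖l - t • φ j c‖ ≤ δ}).ncard :=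
          Set.ncard_le_ncard hsub (Set.finite_iUnion hfin)
      _ ≤ ∑ j : β, {l : E | l ∈ span ℤ (Set.range b) ∧
            ∃ c ∈ Set.Icc (0 : κ → ℝ) 1, ‖l - t • φ j c‖ ≤ δ}.ncard := by
          have := Finset.set_ncard_biUnion_le (Finset.univ : Finset β) (fun j => {l : E | l ∈ span ℤ (Set.range b) ∧
            ∃ c ∈ Set.Icc (0 : κ → ℝ) 1, ‖l - t • φ j c‖ ≤ δ})
          simpa using this
      _ ≤ ∑ _j : β, N * (⌈t⌉₊ + 1) ^ Fintype.card κ :=
          Finset.sum_le_sum fun j _ => ncard_near_lipschitz_image b (φ j) M (hφ j) δ t ht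
      _ = Fintype.card β * (N * (⌈t⌉₊ + 1) ^ Fintype.card κ) := by
          rw [Finset.sum_const, Finset.card_univ, smul_eq_mul]
  have hBA : Bset.ncard = Aset.ncard + (Bset \ Aset).ncard := by
    rw [add_comm]
    exact (Set.ncard_sdiff_add_ncard_of_subset (hAC.trans hCB) hBfin).symm
  -- conclusion
  have hceil : ((⌈t⌉₊ : ℝ) + 1) ≤ 3 * t := by
    have := Nat.ceil_lt_add_one ht0.le
    linarith
  have hbdR : ((Bset \ Aset).ncard : ℝ) ≤ Fintype.card β * N * 3 ^ Fintype.card κ * t ^ Fintype.card κ := by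
    calc ((Bset \ Aset).ncard : ℝ) ≤ ((Fintype.card β * (N * (⌈t⌉₊ + 1) ^ Fintype.card κ) : ℕ) : ℝ) := by
          exact_mod_cast hbd
      _ = Fintype.card β * (N * ((⌈t⌉₊ : ℝ) + 1) ^ Fintype.card κ) := by push_cast; ring
      _ ≤ Fintype.card β * (N * (3 * t) ^ Fintype.card κ) := by
          gcongr
      _ = Fintype.card β * N * 3 ^ Fintype.card κ * t ^ Fintype.card κ := by
          rw [mul_pow]; ring
  rw [hcnt, hSreal']
  have hA' : (Aset.ncard : ℝ) ≤ Cset.ncard := by exact_mod_cast hAC'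
  have hB' : (Cset.ncard : ℝ) ≤ Bset.ncard := by exact_mod_cast hCB'
  have hBA' : (Bset.ncard : ℝ) = Aset.ncard + (Bset \ Aset).ncard := by exact_mod_cast hBA
  rw [abs_le]
  constructor <;> linarith

end LatticeCount

end Fermat.Agent.S14.helper1599
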