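import Fermat.Agent.S14.helper1599_IdealCount

set_option autoImplicit false

/-!
# Partial zeta functions of two ideal classes differ by a bounded function on `(1, 2]` (helper1599)

Abel summation on top of the ideal count with power-saving error term
(`exists_card_norm_le_and_mk_eq_sub_le`).
-/

namespace Fermat.Agent.S14.helper1599

open Filter Topology
open scoped ENNReal NNReal

noncomputable section

/-- `dterm s k = k ^ (-s) - (k + 1) ^ (-s)`. -/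
def dterm (s : ℝ) (k : ℕ) : ℝ := (k : ℝ) ^ (-s) - ((k : ℝ) + 1) ^ (-s)

theorem dterm_nonneg {s : ℝ} (hs : 0 ≤ s) {k : ℕ} (hk : 1 ≤ k) : 0 ≤ dterm s k := by
  unfold dterm
  rw [sub_nonneg]
  have hk' : (0 : ℝ) < k := by exact_mod_cast hk
  exact Real.rpow_le_rpow_of_nonpos hk' (by linarith) (by linarith)

theorem dterm_le {s : ℝ} (hs : 1 ≤ s) {k : ℕ} (hk : 1 ≤ k) :
    dterm s k ≤ s * (k : ℝ) ^ (-s - 1) := by
  have hk' : (0 : ℝ) < k := by exact_mod_cast hk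
  have hk1 : (0 : ℝ) < (k : ℝ) + 1 := by linarith
  set y : ℝ := (k : ℝ) / ((k : ℝ) + 1) with hy
  have hy0 : 0 < y := div_pos hk' hk1
  have hbern : 1 + s * (y - 1) ≤ y ^ s := by
    have := one_add_mul_self_le_rpow_one_add (s := y - 1) (by linarith) hs
    simpa using this
  have h1 : ((k : ℝ) + 1) ^ (-s) = (k : ℝ) ^ (-s) * y ^ s := by
    rw [hy, Real.div_rpow hk'.le hk1.le, Real.rpow_neg hk'.le, Real.rpow_neg hk1.le]
    have : (k : ℝ) ^ s ≠ 0 := (Real.rpow_pos_of_pos hk' s).ne'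
    field_simp
  have h2 : 1 - y = 1 / ((k : ℝ) + 1) := by
    rw [hy]; field_simp; ring
  have hpos : 0 ≤ (k : ℝ) ^ (-s) := Real.rpow_nonneg hk'.le _
  unfold dterm
  rw [h1, Real.rpow_sub_one hk'.ne']
  calc (k : ℝ) ^ (-s) - (k : ℝ) ^ (-s) * y ^ s = (k : ℝ) ^ (-s) * (1 - y ^ s) := by ring
    _ ≤ (k : ℝ) ^ (-s) * (s * (1 - y)) := by
        refine mul_le_mul_of_nonneg_left ?_ hpos
        linarith
    _ = (k : ℝ) ^ (-s) * (s * (1 / ((k : ℝ) + 1))) := by rw [h2]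
    _ ≤ (k : ℝ) ^ (-s) * (s * (1 / (k : ℝ))) := by
        refine mul_le_mul_of_nonneg_left ?_ hpos
        refine mul_le_mul_of_nonneg_left ?_ (by linarith)
        exact one_div_le_one_div_of_le hk' (by linarith)
    _ = s * ((k : ℝ) ^ (-s) / k) := by ring

theorem sum_range_dterm_ite (s : ℝ) {m : ℕ} (hm : 1 ≤ m) (N : ℕ) :
    ∑ j ∈ Finset.range N, (if m ≤ j + 1 then dterm s (j + 1) else 0) =
      if m ≤ N then (m : ℝ) ^ (-s) - ((N : ℝ) + 1) ^ (-s) else 0 := by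
  induction N with
  | zero =>
    have : ¬ m ≤ 0 := by omega
    simp [this]
  | succ N ih =>
    rw [Finset.sum_range_succ, ih]
    by_cases h1 : m ≤ N
    · have h2 : m ≤ N + 1 := Nat.le_succ_of_le h1
      rw [if_pos h1, if_pos h2, if_pos h2]
      simp only [dterm]
      push_cast
      ring
    · by_cases h2 : m ≤ N + 1
      · have hmN : m = N + 1 := by omega
        rw [if_neg h1, if_pos h2, if_pos h2, hmN]
        simp only [dterm]
        push_cast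
        ring
      · rw [if_neg h1, if_neg h2, if_neg h2, add_zero]

theorem hasSum_dterm_ite {s : ℝ} (hs : 0 < s) {m : ℕ} (hm : 1 ≤ m) :
    HasSum (fun j : ℕ => if m ≤ j + 1 then dterm s (j + 1) else 0) ((m : ℝ) ^ (-s)) := by
  rw [hasSum_iff_tendsto_nat_of_nonneg]
  · have h0 : Tendsto (fun N : ℕ => ((N : ℝ) + 1) ^ (-s)) atTop (𝓝 0) :=
      (tendsto_rpow_neg_atTop hs).comp
        (tendsto_atTop_add_const_right _ _ tendsto_natCast_atTop_atTop)
    have h1 : Tendsto (fun N : ℕ => (m : ℝ) ^ (-s) - ((N : ℝ) + 1) ^ (-s)) atTop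
        (𝓝 ((m : ℝ) ^ (-s))) := by
      simpa using tendsto_const_nhds.sub h0
    refine h1.congr' ?_
    filter_upwards [eventually_ge_atTop m] with N hN
    rw [sum_range_dterm_ite s hm, if_pos hN]
  · intro j
    split_ifs
    · exact dterm_nonneg hs.le (by omega)
    · exact le_rfl

/-- Abel summation in `ℝ≥0∞`. -/
theorem tsum_ofReal_rpow_eq {X : Type*} (ν : X → ℕ) (hν : ∀ x, 1 ≤ ν x)
    (hfin : ∀ m, {x | ν x ≤ m}.Finite) {s : ℝ} (hs : 0 < s) :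
    ∑' x, ENNReal.ofReal ((ν x : ℝ) ^ (-s)) =
      ∑' k : ℕ, ({x | ν x ≤ k + 1}.ncard : ℝ≥0∞) * ENNReal.ofReal (dterm s (k + 1)) := by
  have h1 : ∀ x, ENNReal.ofReal ((ν x : ℝ) ^ (-s)) =
      ∑' k : ℕ, (if ν x ≤ k + 1 then ENNReal.ofReal (dterm s (k + 1)) else 0) := by
    intro x
    have hs' := hasSum_dterm_ite hs (hν x)
    rw [← hs'.tsum_eq, ENNReal.ofReal_tsum_of_nonneg _ hs'.summable]
    · refine tsum_congr fun k => ?_
      split_ifs <;> simp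
    · intro j
      split_ifs
      · exact dterm_nonneg hs.le (by omega)
      · exact le_rfl
  simp_rw [h1]
  rw [ENNReal.tsum_comm]
  refine tsum_congr fun k => ?_
  rw [tsum_eq_sum (s := (hfin (k + 1)).toFinset)]
  · rw [Finset.sum_congr rfl (g := fun _ => ENNReal.ofReal (dterm s (k + 1))), Finset.sum_const,
      nsmul_eq_mul, Set.ncard_eq_toFinset_card _ (hfin (k + 1))]
    intro x hx
    have hx' : ν x ≤ k + 1 := (hfin (k + 1)).mem_toFinset.mp hx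
    rw [if_pos hx']
  · intro x hx
    have hx' : ¬ ν x ≤ k + 1 := fun h => hx ((hfin (k + 1)).mem_toFinset.mpr h)
    rw [if_neg hx']

/-- Abel summation, real form. -/
theorem summable_rpow_and_tsum_eq {X : Type*} (ν : X → ℕ) (hν : ∀ x, 1 ≤ ν x)
    (hfin : ∀ m, {x | ν x ≤ m}.Finite) {s : ℝ} (hs : 0 < s)
    (hsum : Summable (fun k : ℕ => ({x | ν x ≤ k + 1}.ncard : ℝ) * dterm s (k + 1))) :
    Summable (fun x => (ν x : ℝ) ^ (-s)) ∧
      ∑' x, (ν x : ℝ) ^ (-s) = ∑' k : ℕ, ({x | ν x ≤ k + 1}.ncard : ℝ) * dterm s (k + 1) := by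
  have hnn : ∀ k : ℕ, 0 ≤ ({x | ν x ≤ k + 1}.ncard : ℝ) * dterm s (k + 1) := fun k =>
    mul_nonneg (Nat.cast_nonneg _) (dterm_nonneg hs.le (by omega))
  have hE : ∑' x, ENNReal.ofReal ((ν x : ℝ) ^ (-s)) =
      ENNReal.ofReal (∑' k : ℕ, ({x | ν x ≤ k + 1}.ncard : ℝ) * dterm s (k + 1)) := by
    rw [tsum_ofReal_rpow_eq ν hν hfin hs, ENNReal.ofReal_tsum_of_nonneg hnn hsum]
    refine tsum_congr fun k => ?_
    rw [ENNReal.ofReal_mul (Nat.cast_nonneg _), ENNReal.ofReal_natCast]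
  have hne : ∑' x, ENNReal.ofReal ((ν x : ℝ) ^ (-s)) ≠ ⊤ := by
    rw [hE]; exact ENNReal.ofReal_ne_top
  have hnn' : ∀ x, 0 ≤ (ν x : ℝ) ^ (-s) := fun x => Real.rpow_nonneg (Nat.cast_nonneg _) _
  have hS : Summable (fun x => (ν x : ℝ) ^ (-s)) := by
    have := ENNReal.summable_toReal hne
    simpa only [ENNReal.toReal_ofReal (hnn' _)] using this
  refine ⟨hS, ?_⟩
  have h := congrArg ENNReal.toReal hE
  rw [ENNReal.tsum_toReal_eq (fun _ => ENNReal.ofReal_ne_top),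
    ENNReal.toReal_ofReal (tsum_nonneg hnn)] at h
  simpa only [ENNReal.toReal_ofReal (hnn' _)] using h

section NumberField

open NumberField Ideal Module
open scoped nonZeroDivisors

variable (K : Type*) [Field K] [NumberField K]

theorem finite_classNorm_le (C : ClassGroup (𝓞 K)) (m : ℕ) :
    {I : {I : (Ideal (𝓞 K))⁰ // ClassGroup.mk0 I = C} |
      absNorm (I.1 : Ideal (𝓞 K)) ≤ m}.Finite :=
  (Ideal.finite_setOfPred_absNorm_le₀ (S := 𝓞 K) m).preimage Subtype.val_injective.injOn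

theorem ncard_classNorm_le (C : ClassGroup (𝓞 K)) (m : ℕ) :
    {I : {I : (Ideal (𝓞 K))⁰ // ClassGroup.mk0 I = C} |
      absNorm (I.1 : Ideal (𝓞 K)) ≤ m}.ncard =
    Nat.card {I : (Ideal (𝓞 K))⁰ //
      absNorm (I : Ideal (𝓞 K)) ≤ ((m : ℕ) : ℝ) ∧ ClassGroup.mk0 I = C} := by
  rw [← Nat.card_coe_set_eq]
  refine Nat.card_congr ?_
  exact (Equiv.subtypeSubtypeEquivSubtypeInter (fun I : (Ideal (𝓞 K))⁰ => ClassGroup.mk0 I = C)
    (fun I => absNorm (I : Ideal (𝓞 K)) ≤ m)).trans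
    (Equiv.subtypeEquivRight fun I => by simp [and_comm])

/-- The Abel-summed coefficients of the partial zeta function of the class `C`. -/
def gterm (C : ClassGroup (𝓞 K)) (s : ℝ) (k : ℕ) : ℝ :=
  ({I : {I : (Ideal (𝓞 K))⁰ // ClassGroup.mk0 I = C} |
      absNorm (I.1 : Ideal (𝓞 K)) ≤ k + 1}.ncard : ℝ) * dterm s (k + 1)

theorem summable_succ_rpow {p : ℝ} (hp : p < -1) :
    Summable (fun k : ℕ => ((k : ℝ) + 1) ^ p) := by
  have := (summable_nat_add_iff 1).mpr (Real.summable_nat_rpow.mpr hp)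
  simpa using this

/-- Everything about the partial zeta functions that follows from the count with error term
`|N_C(x) - κ x| ≤ B₀ x ^ r`, `r < 1`. -/
theorem partialZeta_of_count {κ B₀ r : ℝ} (hr : r < 1)
    (h : ∀ (C : ClassGroup (𝓞 K)) (x : ℝ), 1 ≤ x →
      |(Nat.card {I : (Ideal (𝓞 K))⁰ //
          absNorm (I : Ideal (𝓞 K)) ≤ x ∧ ClassGroup.mk0 I = C} : ℝ) - κ * x| ≤ B₀ * x ^ r) :
    (∀ (C : ClassGroup (𝓞 K)) (s : ℝ), 1 < s →
      Summable (fun I : {I : (Ideal (𝓞 K))⁰ // ClassGroup.mk0 I = C} =>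
        (absNorm (I.1 : Ideal (𝓞 K)) : ℝ) ^ (-s))) ∧
    ∃ B : ℝ, ∀ s : ℝ, 1 < s → s ≤ 2 → ∀ C C' : ClassGroup (𝓞 K),
      |∑' I : {I : (Ideal (𝓞 K))⁰ // ClassGroup.mk0 I = C},
          (absNorm (I.1 : Ideal (𝓞 K)) : ℝ) ^ (-s) -
        ∑' I : {I : (Ideal (𝓞 K))⁰ // ClassGroup.mk0 I = C'},
          (absNorm (I.1 : Ideal (𝓞 K)) : ℝ) ^ (-s)| ≤ B := by
  have hB₀ : 0 ≤ B₀ := by
    have := h 1 1 le_rfl
    simp only [Real.one_rpow, mul_one] at this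
    exact (abs_nonneg _).trans this
  -- the count at integer points
  have hcnt : ∀ (C : ClassGroup (𝓞 K)) (k : ℕ),
      |({I : {I : (Ideal (𝓞 K))⁰ // ClassGroup.mk0 I = C} |
        absNorm (I.1 : Ideal (𝓞 K)) ≤ k + 1}.ncard : ℝ) - κ * ((k : ℝ) + 1)| ≤
      B₀ * ((k : ℝ) + 1) ^ r := by
    intro C k
    have := h C ((k + 1 : ℕ) : ℝ) (by exact_mod_cast Nat.succ_le_succ (Nat.zero_le k))
    rw [← ncard_classNorm_le K C (k + 1)] at this
    simpa using this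
  have hk1 : ∀ k : ℕ, (1 : ℝ) ≤ (k : ℝ) + 1 := fun k => by
    have : (0 : ℝ) ≤ k := Nat.cast_nonneg k
    linarith
  have hk0 : ∀ k : ℕ, (0 : ℝ) < (k : ℝ) + 1 := fun k => lt_of_lt_of_le one_pos (hk1 k)
  have hdle : ∀ (s : ℝ), 1 ≤ s → ∀ k : ℕ, dterm s (k + 1) ≤ s * ((k : ℝ) + 1) ^ (-s - 1) := by
    intro s hs k
    have := dterm_le hs (k := k + 1) (by omega)
    simpa using this
  have hd0 : ∀ (s : ℝ), 1 ≤ s → ∀ k : ℕ, 0 ≤ dterm s (k + 1) := fun s hs k =>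
    dterm_nonneg (by linarith) (by omega)
  -- summability of the Abel-summed series
  have hgsum : ∀ (C : ClassGroup (𝓞 K)) (s : ℝ), 1 < s → Summable (gterm K C s) := by
    intro C s hs
    refine Summable.of_nonneg_of_le (fun k => mul_nonneg (Nat.cast_nonneg _) (hd0 s hs.le k))
      (fun k => ?_) ((summable_succ_rpow (p := -s) (by linarith)).mul_left ((|κ| + B₀) * s))
    have h1 := (abs_le.mp (hcnt C k)).2
    have h2 : ((k : ℝ) + 1) ^ r ≤ (k : ℝ) + 1 := by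
      calc ((k : ℝ) + 1) ^ r ≤ ((k : ℝ) + 1) ^ (1 : ℝ) :=
            Real.rpow_le_rpow_of_exponent_le (hk1 k) hr.le
        _ = (k : ℝ) + 1 := Real.rpow_one _
    have h3 : ({I : {I : (Ideal (𝓞 K))⁰ // ClassGroup.mk0 I = C} |
        absNorm (I.1 : Ideal (𝓞 K)) ≤ k + 1}.ncard : ℝ) ≤ (|κ| + B₀) * ((k : ℝ) + 1) := by
      have : κ * ((k : ℝ) + 1) ≤ |κ| * ((k : ℝ) + 1) :=
        mul_le_mul_of_nonneg_right (le_abs_self κ) (hk0 k).le
      have : B₀ * ((k : ℝ) + 1) ^ r ≤ B₀ * ((k : ℝ) + 1) := mul_le_mul_of_nonneg_left h2 hB₀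
      linarith
    have h4 : ((k : ℝ) + 1) * ((k : ℝ) + 1) ^ (-s - 1) = ((k : ℝ) + 1) ^ (-s) := by
      rw [Real.rpow_sub_one (hk0 k).ne']
      field_simp
    calc gterm K C s k ≤ ((|κ| + B₀) * ((k : ℝ) + 1)) * (s * ((k : ℝ) + 1) ^ (-s - 1)) :=
          mul_le_mul h3 (hdle s hs.le k) (hd0 s hs.le k)
            (mul_nonneg (add_nonneg (abs_nonneg _) hB₀) (hk0 k).le)
      _ = (|κ| + B₀) * s * (((k : ℝ) + 1) * ((k : ℝ) + 1) ^ (-s - 1)) := by ring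
      _ = (|κ| + B₀) * s * ((k : ℝ) + 1) ^ (-s) := by rw [h4]
  have habel : ∀ (C : ClassGroup (𝓞 K)) (s : ℝ), 1 < s →
      Summable (fun I : {I : (Ideal (𝓞 K))⁰ // ClassGroup.mk0 I = C} =>
        (absNorm (I.1 : Ideal (𝓞 K)) : ℝ) ^ (-s)) ∧
      ∑' I : {I : (Ideal (𝓞 K))⁰ // ClassGroup.mk0 I = C},
        (absNorm (I.1 : Ideal (𝓞 K)) : ℝ) ^ (-s) = ∑' k, gterm K C s k := by
    intro C s hs
    exact summable_rpow_and_tsum_eq
      (fun I : {I : (Ideal (𝓞 K))⁰ // ClassGroup.mk0 I = C} => absNorm (I.1 : Ideal (𝓞 K)))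
      (fun I => Nat.one_le_iff_ne_zero.mpr (absNorm_ne_zero_of_nonZeroDivisors I.1))
      (finite_classNorm_le K C) (by linarith) (hgsum C s hs)
  refine ⟨fun C s hs => (habel C s hs).1, ?_⟩
  have hsumh : Summable (fun k : ℕ => 4 * B₀ * ((k : ℝ) + 1) ^ (r - 2)) :=
    (summable_succ_rpow (p := r - 2) (by linarith)).mul_left _
  refine ⟨∑' k : ℕ, 4 * B₀ * ((k : ℝ) + 1) ^ (r - 2), fun s hs hs2 C C' => ?_⟩
  rw [(habel C s hs).2, (habel C' s hs).2, ← (hgsum C s hs).tsum_sub (hgsum C' s hs)]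
  have hpt : ∀ k : ℕ, |gterm K C s k - gterm K C' s k| ≤ 4 * B₀ * ((k : ℝ) + 1) ^ (r - 2) := by
    intro k
    have h1 := hcnt C k
    have h2 := hcnt C' k
    have h3 : |({I : {I : (Ideal (𝓞 K))⁰ // ClassGroup.mk0 I = C} |
          absNorm (I.1 : Ideal (𝓞 K)) ≤ k + 1}.ncard : ℝ) -
        ({I : {I : (Ideal (𝓞 K))⁰ // ClassGroup.mk0 I = C'} |
          absNorm (I.1 : Ideal (𝓞 K)) ≤ k + 1}.ncard : ℝ)| ≤ 2 * B₀ * ((k : ℝ) + 1) ^ r := by
      rw [abs_le] at h1 h2 ⊢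
      constructor <;> linarith [h1.1, h1.2, h2.1, h2.2]
    have h4 : ((k : ℝ) + 1) ^ r * ((k : ℝ) + 1) ^ (-s - 1) ≤ ((k : ℝ) + 1) ^ (r - 2) := by
      rw [← Real.rpow_add (hk0 k)]
      exact Real.rpow_le_rpow_of_exponent_le (hk1 k) (by linarith)
    have hrp : 0 ≤ ((k : ℝ) + 1) ^ r := Real.rpow_nonneg (hk0 k).le _
    have hrp' : 0 ≤ ((k : ℝ) + 1) ^ (-s - 1) := Real.rpow_nonneg (hk0 k).le _
    simp only [gterm]
    rw [← sub_mul, abs_mul, abs_of_nonneg (hd0 s hs.le k)]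
    calc _ ≤ (2 * B₀ * ((k : ℝ) + 1) ^ r) * (s * ((k : ℝ) + 1) ^ (-s - 1)) :=
          mul_le_mul h3 (hdle s hs.le k) (hd0 s hs.le k) (by positivity)
      _ = 2 * B₀ * s * (((k : ℝ) + 1) ^ r * ((k : ℝ) + 1) ^ (-s - 1)) := by ring
      _ ≤ 2 * B₀ * 2 * ((k : ℝ) + 1) ^ (r - 2) := by
          have : 2 * B₀ * s ≤ 2 * B₀ * 2 := mul_le_mul_of_nonneg_left hs2 (by positivity)
          exact mul_le_mul this h4 (by positivity) (by positivity)
      _ = 4 * B₀ * ((k : ℝ) + 1) ^ (r - 2) := by ring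
  have hsumd : Summable (fun k => gterm K C s k - gterm K C' s k) :=
    (hgsum C s hs).sub (hgsum C' s hs)
  rw [abs_le]
  constructor
  · rw [← tsum_neg]
    exact hsumh.neg.tsum_le_tsum (fun k => (abs_le.mp (hpt k)).1) hsumd
  · exact hsumd.tsum_le_tsum (fun k => (abs_le.mp (hpt k)).2) hsumh

/-- **Partial zeta functions are summable for `s > 1`.** -/
theorem summable_partialZeta (C : ClassGroup (𝓞 K)) {s : ℝ} (hs : 1 < s) :
    Summable (fun I : {I : (Ideal (𝓞 K))⁰ // ClassGroup.mk0 I = C} =>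
      (absNorm (I.1 : Ideal (𝓞 K)) : ℝ) ^ (-s)) := by
  obtain ⟨B₀, h⟩ := exists_card_norm_le_and_mk_eq_sub_le K
  have hn : (0 : ℝ) < (finrank ℚ K : ℝ) := Nat.cast_pos.mpr finrank_pos
  have hn1 : (1 : ℝ) ≤ (finrank ℚ K : ℝ) := by exact_mod_cast (finrank_pos : 0 < finrank ℚ K)
  have h1 : 1 / (finrank ℚ K : ℝ) ≤ 1 := by rw [div_le_one hn]; exact hn1
  have h2 : 0 < 1 / (finrank ℚ K : ℝ) := by positivity
  exact (partialZeta_of_count K (by linarith) h).1 C s hs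

/-- **The partial zeta functions of two ideal classes differ by a bounded function on `(1, 2]`.** -/
theorem exists_bound_partialZeta_sub :
    ∃ B : ℝ, ∀ s : ℝ, 1 < s → s ≤ 2 → ∀ C C' : ClassGroup (𝓞 K),
      |∑' I : {I : (Ideal (𝓞 K))⁰ // ClassGroup.mk0 I = C},
          (absNorm (I.1 : Ideal (𝓞 K)) : ℝ) ^ (-s) -
        ∑' I : {I : (Ideal (𝓞 K))⁰ // ClassGroup.mk0 I = C'},
          (absNorm (I.1 : Ideal (𝓞 K)) : ℝ) ^ (-s)| ≤ B := by
  obtain ⟨B₀, h⟩ := exists_card_norm_le_and_mk_eq_sub_le K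
  have hn : (0 : ℝ) < (finrank ℚ K : ℝ) := Nat.cast_pos.mpr finrank_pos
  have hn1 : (1 : ℝ) ≤ (finrank ℚ K : ℝ) := by exact_mod_cast (finrank_pos : 0 < finrank ℚ K)
  have h1 : 1 / (finrank ℚ K : ℝ) ≤ 1 := by rw [div_le_one hn]; exact hn1
  have h2 : 0 < 1 / (finrank ℚ K : ℝ) := by positivity
  exact (partialZeta_of_count K (by linarith) h).2

end NumberField

end

end Fermat.Agent.S14.helper1599
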