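/-
S14 / M7 leaf CN (helper15): cyclotomic norm congruence.

If `r ≡ 1 mod p` and `z ∈ 𝓞 K`, `K = ℚ(ζ_p)`, is a `p`-th power modulo every prime over `r`,
then `N_{K/ℚ}(z)` is a `p`-th power modulo `r`.
-/
import Mathlib
import Fermat.Agent.S14.helper2797_CrossingSpec

set_option autoImplicit false

namespace Fermat.Agent.S14.helper15

open NumberField Ideal

/-- If `B ⧸ W` has prime cardinality, every element of `B` is congruent mod `W` to a rational
integer. -/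
theorem exists_int_sub_mem_of_natCard_quot {B : Type*} [CommRing B] (W : Ideal B) {q : ℕ}
    (hq : q.Prime) (hW : Nat.card (B ⧸ W) = q) (x : B) : ∃ n : ℤ, x - (n : B) ∈ W := by
  have : Fact q.Prime := ⟨hq⟩
  have : Finite (B ⧸ W) := Nat.finite_of_card_ne_zero (by rw [hW]; exact hq.ne_zero)
  have : Nontrivial (B ⧸ W) := by
    rw [← Finite.one_lt_card_iff_nontrivial, hW]; exact hq.one_lt
  have h1 : (Ideal.Quotient.mk W x) ∈ AddSubgroup.zmultiples (1 : B ⧸ W) :=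
    mem_zmultiples_of_prime_card hW one_ne_zero
  obtain ⟨n, hn⟩ := AddSubgroup.mem_zmultiples_iff.mp h1
  refine ⟨n, ?_⟩
  rw [← Ideal.Quotient.eq, ← hn]
  simp

theorem stmt_CycloNorm (p : ℕ) [Fact p.Prime] : helper2797.Stmt_CycloNorm p := by
  intro K _ _ _ r hr hrp z hz
  have hp : p.Prime := Fact.out
  have : Fact r.Prime := ⟨hr⟩
  have : NeZero p := ⟨hp.ne_zero⟩
  have : IsGalois ℚ K := IsCyclotomicExtension.isGalois {p} ℚ K
  -- a prime `R₀` over `r`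
  obtain ⟨⟨R₀, hR₀p, hR₀o⟩⟩ := (Ideal.span {(r : ℤ)}).nonempty_primesOver (S := 𝓞 K)
  have hrp' : ¬ r ∣ p := by
    intro h
    rcases (Nat.dvd_prime hp).mp h with h1 | h1
    · exact hr.one_lt.ne' h1
    · rw [h1, Nat.mod_self] at hrp; exact zero_ne_one hrp
  have hdeg : R₀.inertiaDeg ℤ = 1 := by
    rw [IsCyclotomicExtension.Rat.inertiaDeg_eq_of_not_dvd r K R₀ hrp']
    have : (r : ZMod p) = 1 := by
      have h := (ZMod.natCast_eq_natCast_iff' r 1 p).mpr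
        (by rw [hrp, Nat.one_mod_eq_one.mpr hp.ne_one])
      simpa using h
    rw [this, orderOf_one]
  have hcard : Nat.card (𝓞 K ⧸ R₀) = r := by
    have h := Ideal.pow_inertiaDeg r R₀
    rw [hdeg, pow_one] at h
    rw [← Submodule.cardQuot_apply, ← Ideal.absNorm_apply]
    exact h.symm
  have hunder : Ideal.span {(r : ℤ)} = R₀.under ℤ := Ideal.over_def R₀ (Ideal.span {(r : ℤ)})
  have hrR₀ : (r : 𝓞 K) ∈ R₀ := by
    have h1 : (r : ℤ) ∈ R₀.under ℤ := by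
      rw [← hunder]; exact Ideal.mem_span_singleton_self _
    have h2 : algebraMap ℤ (𝓞 K) (r : ℤ) ∈ R₀ := h1
    simpa using h2
  -- the Galois conjugates of `R₀`
  have key : ∀ σ : K ≃ₐ[ℚ] K, ∃ b : 𝓞 K, σ • z - (σ • b) ^ p ∈ R₀ := by
    intro σ
    have hprime : (R₀.comap (MulSemiringAction.toRingHom (K ≃ₐ[ℚ] K) (𝓞 K) σ)).IsPrime :=
      Ideal.comap_isPrime _ _
    have hmem : (r : 𝓞 K) ∈ R₀.comap (MulSemiringAction.toRingHom (K ≃ₐ[ℚ] K) (𝓞 K) σ) := by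
      rw [Ideal.mem_comap, map_natCast]; exact hrR₀
    obtain ⟨b, hb⟩ := hz _ hprime hmem
    refine ⟨b, ?_⟩
    have h3 : (MulSemiringAction.toRingHom (K ≃ₐ[ℚ] K) (𝓞 K) σ) (z - b ^ p) ∈ R₀ := hb
    rw [map_sub, map_pow] at h3
    exact h3
  choose b hb using key
  obtain ⟨n, hn⟩ := exists_int_sub_mem_of_natCard_quot R₀ hr hcard (∏ σ : K ≃ₐ[ℚ] K, σ • b σ)
  refine ⟨n, ?_⟩
  -- the norm as a product of conjugates
  have hnorm : algebraMap ℤ (𝓞 K) (Algebra.norm ℤ z) = ∏ σ : K ≃ₐ[ℚ] K, σ • z := by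
    apply FaithfulSMul.algebraMap_injective (𝓞 K) K
    rw [map_prod]
    have h1 : algebraMap (𝓞 K) K (algebraMap ℤ (𝓞 K) (Algebra.norm ℤ z)) =
        algebraMap ℚ K (Algebra.norm ℚ (z : K)) := by
      rw [← Algebra.coe_norm_int]
      simp
    rw [h1, Algebra.norm_eq_prod_automorphisms]
    refine Finset.prod_congr rfl fun σ _ => ?_
    rw [algebraMap.smul']
    rfl
  have hquot : Ideal.Quotient.mk R₀ (∏ σ : K ≃ₐ[ℚ] K, σ • z) =
      (Ideal.Quotient.mk R₀ ((n : ℤ) : 𝓞 K)) ^ p := by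
    rw [map_prod]
    have h1 : ∀ σ : K ≃ₐ[ℚ] K, Ideal.Quotient.mk R₀ (σ • z) =
        (Ideal.Quotient.mk R₀ (σ • b σ)) ^ p := by
      intro σ
      rw [← map_pow]
      exact Ideal.Quotient.eq.mpr (hb σ)
    rw [Finset.prod_congr rfl fun σ _ => h1 σ, Finset.prod_pow, ← map_prod]
    congr 1
    exact Ideal.Quotient.eq.mpr hn
  have hmem : algebraMap ℤ (𝓞 K) (Algebra.norm ℤ z - n ^ p) ∈ R₀ := by
    rw [map_sub, map_pow, hnorm, ← Ideal.Quotient.eq, hquot, ← map_pow]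
    simp
  have h4 : Algebra.norm ℤ z - n ^ p ∈ R₀.under ℤ := hmem
  rw [← hunder, Ideal.mem_span_singleton] at h4
  exact h4

end Fermat.Agent.S14.helper15
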