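import Mathlib

/-!
# S14 / M5 (first inequality), abstract counting core  (helper165)

Pure group theory.  `G` plays the role of `Fˣ`, `V` the primes of `F`, `ord v` the
(multiplicatively written) valuation at `v`, `Nm` the norm group `N_{E/F}(Eˣ)`,
`NU` the norms of `S'`-units of `E`, `US` the `S`-units of `F`, `F1` the elements
`≡ 1` modulo every ramified prime, `R ⊆ S` the ramified primes.
-/

namespace Fermat.Agent.S14.helper165

open Multiplicative

/-- Abstract counting core of the first inequality. -/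
theorem firstIneq_core {G V : Type*} [CommGroup G] [DecidableEq V]
    (p : ℕ) [Fact p.Prime]
    (ord : V → G →* Multiplicative ℤ)
    (S R : Finset V) (hRS : R ⊆ S)
    (split : V → Prop) [DecidablePred split] (hRsplit : ∀ v ∈ R, ¬ split v)
    (Nm NU F1 US : Subgroup G)
    (hUS : ∀ x, x ∈ US ↔ ∀ v, v ∉ S → ord v x = 1)
    (hNU : NU ≤ Nm)
    (hA1 : ∀ x ∈ Nm, ∀ v, v ∉ R → ¬ split v → (p : ℤ) ∣ toAdd (ord v x))
    (hA2 : ∀ v, v ∉ S → ∃ τ ∈ Nm, (toAdd (ord v τ) = if split v then 1 else (p : ℤ)) ∧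
        ∀ v', v' ∉ S → v' ≠ v → ord v' τ = 1)
    (hfin : ∀ x : G, {v | ord v x ≠ 1}.Finite)
    (hA3 : NU.relIndex US ≠ 0 ∧
      NU.relIndex US * p ≤ p ^ (S.filter (fun v => ¬ split v)).card)
    (hA4 : (Nm ⊔ F1).index = 0 ∨ p ^ R.card ≤ (Nm ⊔ F1).index)
    (hA5 : ∀ m : V → ℤ, ∃ z ∈ F1, ∀ v ∈ S \ R, toAdd (ord v z) = m v) :
    ∃ x₀ : G, ∀ z ∈ F1, ∃ v, v ∉ R ∧ ¬ split v ∧
      ¬ ((p : ℤ) ∣ toAdd (ord v z) - (if v ∈ S then 0 else toAdd (ord v x₀))) := by
  classical
  have hp : p.Prime := Fact.out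
  by_contra hcon
  push Not at hcon
  -- the index set of inert primes in `S`
  set Ti : Finset V := (S \ R).filter (fun v => ¬ split v) with hTi
  -- the target group
  let castHom : Multiplicative ℤ →* Multiplicative (ZMod p) :=
    AddMonoidHom.toMultiplicative (Int.castAddHom (ZMod p))
  let Φ₁ : G →* (Ti → Multiplicative (ZMod p)) :=
    MonoidHom.pi fun v : Ti => castHom.comp (ord v.1)
  let Φ₂ : G →* G ⧸ (Nm ⊔ F1) := QuotientGroup.mk' (Nm ⊔ F1)
  let Φ : G →* (Ti → Multiplicative (ZMod p)) × (G ⧸ (Nm ⊔ F1)) := Φ₁.prod Φ₂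
  have hcast : ∀ a : Multiplicative ℤ, castHom a = 1 ↔ (p : ℤ) ∣ toAdd a := by
    intro a
    change ofAdd ((toAdd a : ℤ) : ZMod p) = 1 ↔ _
    rw [ofAdd_eq_one, ZMod.intCast_zmod_eq_zero_iff_dvd]
  have hΦ₁_one : ∀ x : G, (∀ v ∈ Ti, (p : ℤ) ∣ toAdd (ord v x)) → Φ₁ x = 1 := by
    intro x hx
    funext v
    change castHom (ord v.1 x) = 1
    exact (hcast _).2 (hx v.1 v.2)
  have hΦ₂_one : ∀ x : G, x ∈ Nm ⊔ F1 → Φ₂ x = 1 := by
    intro x hx
    exact (QuotientGroup.eq_one_iff x).2 hx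
  have hTi_mem : ∀ v ∈ Ti, v ∈ S ∧ v ∉ R ∧ ¬ split v := by
    intro v hv
    rw [hTi, Finset.mem_filter, Finset.mem_sdiff] at hv
    exact ⟨hv.1.1, hv.1.2, hv.2⟩
  -- surjectivity of `Φ` on `US`
  have hsurj : ∀ c, ∃ x ∈ US, Φ x = c := by
    rintro ⟨γ, q⟩
    obtain ⟨x₁, rfl⟩ := QuotientGroup.mk'_surjective (Nm ⊔ F1) q
    let m : V → ℤ := fun v =>
      if h : v ∈ Ti then ((toAdd (γ ⟨v, h⟩) : ZMod p).val : ℤ) - toAdd (ord v x₁) else 0
    obtain ⟨z₁, hz₁F, hz₁⟩ := hA5 m
    set x₀ := x₁ * z₁ with hx₀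
    obtain ⟨z, hzF, hz⟩ := hcon x₀
    set x' := x₀ / z with hx'
    -- primes outside `S` where `x'` is not a unit
    set T' : Finset V := (hfin x').toFinset \ S with hT'
    let τ : V → G := fun v => if h : v ∉ S then (hA2 v h).choose else 1
    have hτNm : ∀ v, τ v ∈ Nm := by
      intro v
      by_cases h : v ∉ S
      · simp only [τ, dif_pos h]
        exact (hA2 v h).choose_spec.1
      · simp only [τ, dif_neg h]
        exact Nm.one_mem
    have hτ1 : ∀ v, v ∉ S → toAdd (ord v (τ v)) = if split v then 1 else (p : ℤ) := by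
      intro v h
      simp only [τ, dif_pos h]
      exact (hA2 v h).choose_spec.2.1
    have hτ2 : ∀ v, v ∉ S → ∀ v', v' ∉ S → v' ≠ v → ord v' (τ v) = 1 := by
      intro v h
      simp only [τ, dif_pos h]
      exact (hA2 v h).choose_spec.2.2
    let k : V → ℤ := fun v => if split v then toAdd (ord v x') else toAdd (ord v x') / p
    set ν : G := ∏ v ∈ T', τ v ^ k v with hν
    have hνNm : ν ∈ Nm := Subgroup.prod_mem _ fun v _ => Nm.zpow_mem (hτNm v) _
    set x := x' / ν with hx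
    have hordx' : ∀ v, toAdd (ord v x') = toAdd (ord v x₀) - toAdd (ord v z) := by
      intro v
      rw [hx', map_div, toAdd_div]
    -- divisibility at non-split primes outside `S`
    have hdvd_out : ∀ v, v ∉ S → ¬ split v → (p : ℤ) ∣ toAdd (ord v x') := by
      intro v hvS hvs
      have h1 := hz v (fun hR => hvS (hRS hR)) hvs
      rw [if_neg hvS] at h1
      rw [hordx']
      have := dvd_neg.2 h1
      rwa [neg_sub] at this
    have hxUS : x ∈ US := by
      rw [hUS]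
      intro v₀ hv₀
      rw [hx, map_div, hν, map_prod, div_eq_one]
      by_cases hmem : v₀ ∈ T'
      · rw [Finset.prod_eq_single_of_mem v₀ hmem]
        · rw [map_zpow]
          apply toAdd.injective
          rw [toAdd_zpow, hτ1 v₀ hv₀]
          simp only [k]
          by_cases hs : split v₀
          · simp [hs]
          · simp only [hs, if_false]
            rw [smul_eq_mul, Int.ediv_mul_cancel (hdvd_out v₀ hv₀ hs)]
        · intro v hv hne
          rw [map_zpow, hτ2 v (by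
            rw [hT', Finset.mem_sdiff] at hv; exact hv.2) v₀ hv₀ (Ne.symm hne), one_zpow]
      · have h1 : ord v₀ x' = 1 := by
          by_contra hne
          exact hmem (by
            rw [hT', Finset.mem_sdiff, Set.Finite.mem_toFinset]
            exact ⟨hne, hv₀⟩)
        rw [h1]
        symm
        apply Finset.prod_eq_one
        intro v hv
        have hvS : v ∉ S := by
          rw [hT', Finset.mem_sdiff] at hv; exact hv.2
        have hne : v₀ ≠ v := fun h => hmem (h ▸ hv)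
        rw [map_zpow, hτ2 v hvS v₀ hv₀ hne, one_zpow]
    refine ⟨x, hxUS, ?_⟩
    -- `Φ x = Φ x₀`
    have hxx₀ : x = x₀ * (z⁻¹ * ν⁻¹) := by
      rw [hx, hx', div_eq_mul_inv, div_eq_mul_inv, mul_assoc]
    have hker : Φ (z⁻¹ * ν⁻¹) = 1 := by
      have h1 : Φ₁ (z⁻¹ * ν⁻¹) = 1 := by
        apply hΦ₁_one
        intro v hv
        obtain ⟨hvS, hvR, hvs⟩ := hTi_mem v hv
        rw [map_mul, map_inv, map_inv, toAdd_mul, toAdd_inv, toAdd_inv]
        have h2 := hz v hvR hvs
        rw [if_pos hvS, sub_zero] at h2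
        exact dvd_add (dvd_neg.2 h2) (dvd_neg.2 (hA1 ν hνNm v hvR hvs))
      have h2 : Φ₂ (z⁻¹ * ν⁻¹) = 1 := by
        apply hΦ₂_one
        exact Subgroup.mul_mem _ (Subgroup.inv_mem _ (Subgroup.mem_sup_right hzF))
          (Subgroup.inv_mem _ (Subgroup.mem_sup_left hνNm))
      exact Prod.ext h1 h2
    rw [hxx₀, map_mul, hker, mul_one]
    -- `Φ x₀ = (γ, x₁)`
    refine Prod.ext ?_ ?_
    · funext v
      obtain ⟨hvS, hvR, hvs⟩ := hTi_mem v.1 v.2
      change castHom (ord v.1 x₀) = γ v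
      have h1 : toAdd (ord v.1 x₀) = ((toAdd (γ v) : ZMod p).val : ℤ) := by
        rw [hx₀, map_mul, toAdd_mul, hz₁ v.1 (by
          rw [Finset.mem_sdiff]; exact ⟨hvS, hvR⟩)]
        simp only [m, dif_pos v.2]
        ring
      change ofAdd ((toAdd (ord v.1 x₀) : ℤ) : ZMod p) = γ v
      rw [h1]
      have : NeZero p := ⟨hp.ne_zero⟩
      simp
    · change Φ₂ x₀ = Φ₂ x₁
      rw [hx₀, map_mul, hΦ₂_one z₁ (Subgroup.mem_sup_right hz₁F), mul_one]
  -- counting
  let ψ : US →* (Ti → Multiplicative (ZMod p)) × (G ⧸ (Nm ⊔ F1)) := Φ.comp US.subtype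
  have hψsurj : Function.Surjective ψ := by
    intro c
    obtain ⟨x, hx, hxc⟩ := hsurj c
    exact ⟨⟨x, hx⟩, hxc⟩
  have hle : NU.subgroupOf US ≤ ψ.ker := by
    intro x hx
    rw [Subgroup.mem_subgroupOf] at hx
    rw [MonoidHom.mem_ker]
    have h1 : Φ₁ (x : G) = 1 := by
      apply hΦ₁_one
      intro v hv
      obtain ⟨hvS, hvR, hvs⟩ := hTi_mem v hv
      exact hA1 _ (hNU hx) v hvR hvs
    have h2 : Φ₂ (x : G) = 1 := hΦ₂_one _ (Subgroup.mem_sup_left (hNU hx))
    exact Prod.ext h1 h2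
  have hdvd : ψ.ker.index ∣ NU.relIndex US := Subgroup.index_dvd_of_le hle
  have hcard : ψ.ker.index =
      Nat.card ((Ti → Multiplicative (ZMod p)) × (G ⧸ (Nm ⊔ F1))) := by
    rw [Subgroup.index_ker, MonoidHom.range_eq_top.2 hψsurj]
    exact Nat.card_congr (Equiv.subtypeUnivEquiv fun _ => trivial)
  have hcard2 : Nat.card ((Ti → Multiplicative (ZMod p)) × (G ⧸ (Nm ⊔ F1))) =
      p ^ Ti.card * (Nm ⊔ F1).index := by
    rw [Nat.card_prod, Nat.card_fun, Subgroup.index]
    congr 1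
    have : NeZero p := ⟨hp.ne_zero⟩
    rw [Nat.card_eq_fintype_card (α := Ti), Fintype.card_coe]
    congr 1
    change Nat.card (ZMod p) = p
    rw [Nat.card_eq_fintype_card, ZMod.card]
  have hne : ψ.ker.index ≠ 0 := fun h => hA3.1 (Nat.eq_zero_of_zero_dvd (h ▸ hdvd))
  have hidx : (Nm ⊔ F1).index ≠ 0 := by
    intro h
    apply hne
    rw [hcard, hcard2, h, mul_zero]
  have hR : p ^ R.card ≤ (Nm ⊔ F1).index := hA4.resolve_left hidx
  have hn : (S.filter (fun v => ¬ split v)).card = Ti.card + R.card := by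
    have : S.filter (fun v => ¬ split v) = Ti ∪ R := by
      ext v
      simp only [Finset.mem_filter, Finset.mem_union, hTi, Finset.mem_sdiff]
      constructor
      · rintro ⟨h1, h2⟩
        by_cases hvR : v ∈ R
        · exact Or.inr hvR
        · exact Or.inl ⟨⟨h1, hvR⟩, h2⟩
      · rintro (⟨⟨h1, _⟩, h2⟩ | h)
        · exact ⟨h1, h2⟩
        · exact ⟨hRS h, hRsplit v h⟩
    rw [this, Finset.card_union_of_disjoint]
    rw [Finset.disjoint_left]
    intro v hv hvR
    exact (hTi_mem v hv).2.1 hvR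
  have h1 : p ^ Ti.card * p ^ R.card ≤ NU.relIndex US := by
    calc p ^ Ti.card * p ^ R.card ≤ p ^ Ti.card * (Nm ⊔ F1).index :=
          Nat.mul_le_mul_left _ hR
      _ = ψ.ker.index := by rw [hcard, hcard2]
      _ ≤ NU.relIndex US := Nat.le_of_dvd (Nat.pos_of_ne_zero hA3.1) hdvd
  have h2 := hA3.2
  rw [hn, pow_add] at h2
  have h3 : p ^ Ti.card * p ^ R.card * p ≤ p ^ Ti.card * p ^ R.card :=
    le_trans (Nat.mul_le_mul_right _ h1) h2
  have hpos : 0 < p ^ Ti.card * p ^ R.card :=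
    Nat.mul_pos (pow_pos hp.pos _) (pow_pos hp.pos _)
  have : p ≤ 1 := by
    by_contra hlt
    push Not at hlt
    have : p ^ Ti.card * p ^ R.card * 1 < p ^ Ti.card * p ^ R.card * p :=
      Nat.mul_lt_mul_of_pos_left hlt hpos
    omega
  exact absurd hp.one_lt (not_lt.2 this)

end Fermat.Agent.S14.helper165
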