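import Mathlib
import Fermat.Agent.S14.helper2613_SUnit
import Fermat.Agent.S14.helper1892_M6Defs

/-!
# S14 / M5 (first inequality): interfaces of the leaves and the assembly  (helper165)

Target: `helper1892.Stmt_M5 F p` (the `Fˣ`-form of the first inequality used by M6 and by the
analytic-free hedge GEN).  Route: S-unit count (abstract core `firstIneq_core`).

* `Stmt_FIExtAt F E p` : the first inequality for a Galois extension `E / F` of degree `p`
  (extension form, no Kummer generator).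
* leaves: `Stmt_NormInert`, `Stmt_NormGen`, `Stmt_SUnitNormIndex`, `Stmt_TameIndex`,
  `Stmt_Approx`, `Stmt_GoodSet` and the dictionary `Stmt_KummerDict`.
* assembly (file `helper165_FirstIneqAsm.lean`): `fiExtAt_of_leaves` and `stmt_M5_of`.
-/

set_option autoImplicit false

open IsDedekindDomain NumberField

namespace Fermat.Agent.S14.helper165

open Fermat.Agent.S14.helper2613 (ordAt ordHom SUnits)
open Fermat.Agent.S14.helper1892 (LocPowN LocPow ClassGen)

noncomputable section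

/-! ## Definitions -/

section Defs

variable (F E : Type) [Field F] [NumberField F] [Field E] [NumberField E] [Algebra F E]

/-- The norm `N_{E/F}` as a group homomorphism on units. -/
def normHom : Eˣ →* Fˣ := Units.map (Algebra.norm F : E →* F)

/-- The prime `v` of `F` splits completely in `E`. -/
def Split (v : HeightOneSpectrum (𝓞 F)) : Prop :=
  (v.asIdeal.primesOver (𝓞 E)).ncard = Module.finrank F E

/-- `S'` is the set of all primes of `E` lying above the primes in `S`. -/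
def IsAbove (S : Finset (HeightOneSpectrum (𝓞 F))) (S' : Finset (HeightOneSpectrum (𝓞 E))) :
    Prop :=
  ∀ w : HeightOneSpectrum (𝓞 E), w ∈ S' ↔ ∃ v ∈ S, v.asIdeal = w.asIdeal.under (𝓞 F)

end Defs

section Adm

variable {F : Type} [Field F] [NumberField F]

theorem lt_one_iff_le_exp_neg_one (a : WithZero (Multiplicative ℤ)) :
    a < 1 ↔ a ≤ WithZero.exp (-((1 : ℕ) : ℤ)) := by
  rcases eq_or_ne a 0 with rfl | ha
  · simp
  · obtain ⟨n, rfl⟩ : ∃ n : ℤ, a = WithZero.exp n := ⟨WithZero.log a, (WithZero.exp_log ha).symm⟩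
    rw [← WithZero.exp_zero, WithZero.exp_lt_exp, WithZero.exp_le_exp]
    push_cast
    omega

/-- `x` is a unit at `v` and a `p`-th power residue modulo `v`. -/
def AdmAt (p : ℕ) (v : HeightOneSpectrum (𝓞 F)) (x : Fˣ) : Prop :=
  v.valuation F (x : F) = 1 ∧ LocPowN p v 1 x

theorem admAt_one (p : ℕ) (v : HeightOneSpectrum (𝓞 F)) : AdmAt p v (1 : Fˣ) :=
  ⟨by simp, 1, by simp⟩

theorem admAt_mul {p : ℕ} {v : HeightOneSpectrum (𝓞 F)} {x x' : Fˣ}
    (hx : AdmAt p v x) (hx' : AdmAt p v x') : AdmAt p v (x * x') := by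
  obtain ⟨hx1, y, hy⟩ := hx
  obtain ⟨hx1', y', hy'⟩ := hx'
  refine ⟨by rw [Units.val_mul, map_mul, hx1, hx1', one_mul], y * y', ?_⟩
  have hy0 : ((y : F)) ^ p ≠ 0 := pow_ne_zero _ y.ne_zero
  have hy0' : ((y' : F)) ^ p ≠ 0 := pow_ne_zero _ y'.ne_zero
  have h1 : v.valuation F ((x' : F) / (y' : F) ^ p) = 1 :=
    helper1892.val_eq_one_of_sub_one_lt v ((lt_one_iff_le_exp_neg_one _).2 hy')
  have key : ((x * x' : Fˣ) : F) / ((y * y' : Fˣ) : F) ^ p - 1
      = ((x : F) / (y : F) ^ p - 1) * ((x' : F) / (y' : F) ^ p) + ((x' : F) / (y' : F) ^ p - 1) := by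
    push_cast
    field_simp
    ring
  rw [key]
  refine Valuation.map_add_le _ ?_ hy'
  rw [map_mul, h1, mul_one]
  exact hy

theorem admAt_inv {p : ℕ} {v : HeightOneSpectrum (𝓞 F)} {x : Fˣ}
    (hx : AdmAt p v x) : AdmAt p v x⁻¹ := by
  obtain ⟨hx1, y, hy⟩ := hx
  refine ⟨by rw [Units.val_inv_eq_inv_val, map_inv₀, hx1, inv_one], y⁻¹, ?_⟩
  have h1 : v.valuation F ((x : F) / (y : F) ^ p) = 1 :=
    helper1892.val_eq_one_of_sub_one_lt v ((lt_one_iff_le_exp_neg_one _).2 hy)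
  have hy0 : ((y : F)) ^ p ≠ 0 := pow_ne_zero _ y.ne_zero
  have hx0 : (x : F) ≠ 0 := x.ne_zero
  have ht0 : (x : F) / (y : F) ^ p ≠ 0 := div_ne_zero hx0 hy0
  have key : ((x⁻¹ : Fˣ) : F) / ((y⁻¹ : Fˣ) : F) ^ p - 1
      = -((x : F) / (y : F) ^ p - 1) * ((x : F) / (y : F) ^ p)⁻¹ := by
    have e1 : ((x⁻¹ : Fˣ) : F) / ((y⁻¹ : Fˣ) : F) ^ p = ((x : F) / (y : F) ^ p)⁻¹ := by
      push_cast
      rw [inv_pow, inv_div, div_inv_eq_mul, mul_comm, div_eq_mul_inv]
    rw [e1, neg_mul, sub_mul, mul_inv_cancel₀ ht0, one_mul, neg_sub]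
  rw [key, map_mul, map_inv₀, h1, inv_one, mul_one, Valuation.map_neg]
  exact hy

/-- The subgroup of `Fˣ` of elements which are units and `p`-th power residues at every prime
of `R` (the group `F^{(R,p)}`). -/
def Adm (p : ℕ) (R : Finset (HeightOneSpectrum (𝓞 F))) : Subgroup Fˣ where
  carrier := {x | ∀ v ∈ R, AdmAt p v x}
  mul_mem' := fun hx hx' v hv => admAt_mul (hx v hv) (hx' v hv)
  one_mem' := fun v _ => admAt_one p v
  inv_mem' := fun hx v hv => admAt_inv (hx v hv)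

theorem mem_Adm {p : ℕ} {R : Finset (HeightOneSpectrum (𝓞 F))} {x : Fˣ} :
    x ∈ Adm p R ↔ ∀ v ∈ R, v.valuation F (x : F) = 1 ∧ LocPowN p v 1 x := Iff.rfl

/-- Elements `≡ 1` modulo every prime of `R` are admissible. -/
theorem mem_Adm_of_sub_one {p : ℕ} {R : Finset (HeightOneSpectrum (𝓞 F))} {z : Fˣ}
    (hz : ∀ v ∈ R, v.valuation F ((z : F) - 1) < 1) : z ∈ Adm p R := by
  intro v hv
  refine ⟨helper1892.val_eq_one_of_sub_one_lt v (hz v hv), 1, ?_⟩
  have : ((z : F)) / ((1 : Fˣ) : F) ^ p - 1 = (z : F) - 1 := by simp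
  rw [this]
  exact (lt_one_iff_le_exp_neg_one _).1 (hz v hv)

end Adm

/-! ## Interfaces -/

section Interfaces

variable (F E : Type) [Field F] [NumberField F] [Field E] [NumberField E] [Algebra F E]

/-- **(A1)** norms have valuation divisible by `p` at the inert primes. -/
def Stmt_NormInert (p : ℕ) : Prop :=
  ∀ (y : Eˣ) (v : HeightOneSpectrum (𝓞 F)), ¬ Split F E v →
    v.asIdeal.ramificationIdxIn (𝓞 E) = 1 → (p : ℤ) ∣ ordAt v (normHom F E y)

open Classical in
/-- **(A2)** if the primes above `S` generate the class group of `E` and `E / F` is unramified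
outside `S`, every prime `v ∉ S` is, up to primes in `S`, the divisor of a norm (`v` split) or
its `p`-th multiple is (`v` inert). -/
def Stmt_NormGen (p : ℕ) : Prop :=
  ∀ (S : Finset (HeightOneSpectrum (𝓞 F))) (S' : Finset (HeightOneSpectrum (𝓞 E))),
    IsAbove F E S S' → ClassGen S' →
    (∀ v, v ∉ S → v.asIdeal.ramificationIdxIn (𝓞 E) = 1) →
    ∀ v, v ∉ S → ∃ τ ∈ (normHom F E).range,
      ordAt v τ = (if Split F E v then 1 else (p : ℤ)) ∧
      ∀ v', v' ∉ S → v' ≠ v → ordAt v' τ = 0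

open Classical in
/-- **(A3)** the S-unit norm index: `[U_{F,S} : N U_{E,S'}] · p ≤ p ^ #{v ∈ S not split}`
(Herbrand quotient of the `S'`-units + Hilbert 90). -/
def Stmt_SUnitNormIndex (p : ℕ) : Prop :=
  ∀ (S : Finset (HeightOneSpectrum (𝓞 F))) (S' : Finset (HeightOneSpectrum (𝓞 E))),
    IsAbove F E S S' → ClassGen S →
    (∀ v, v ∉ S → v.asIdeal.ramificationIdxIn (𝓞 E) = 1) →
    ((SUnits E S').map (normHom F E)).relIndex (SUnits F S) ≠ 0 ∧
    ((SUnits E S').map (normHom F E)).relIndex (SUnits F S) * p ≤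
      p ^ (S.filter (fun v => ¬ Split F E v)).card

/-- **(A4)** tame ramification: `[Fˣ : N(Eˣ) · F^{(R,p)}] ≥ p ^ #R` (or infinite) when all
primes of `R` are ramified and none lies over `p`. -/
def Stmt_TameIndex (p : ℕ) : Prop :=
  ∀ R : Finset (HeightOneSpectrum (𝓞 F)),
    (∀ v ∈ R, v.asIdeal.ramificationIdxIn (𝓞 E) ≠ 1) → (∀ v ∈ R, (p : 𝓞 F) ∉ v.asIdeal) →
    ((normHom F E).range ⊔ Adm p R).index = 0 ∨
      p ^ R.card ≤ ((normHom F E).range ⊔ Adm p R).index

/-- **(A5)** weak approximation: prescribed valuations on `T`, `≡ 1` on `R`. -/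
def Stmt_Approx : Prop :=
  ∀ R T : Finset (HeightOneSpectrum (𝓞 F)), Disjoint R T →
    ∀ m : HeightOneSpectrum (𝓞 F) → ℤ,
      ∃ z : Fˣ, (∀ v ∈ R, v.valuation F ((z : F) - 1) < 1) ∧ ∀ v ∈ T, ordAt v z = m v

/-- **(S)** existence of a good set `S ⊇ S₀`: `S` generates the class group of `F` and the
primes above `S` generate the class group of `E`. -/
def Stmt_GoodSet : Prop :=
  ∀ S₀ : Finset (HeightOneSpectrum (𝓞 F)),
    ∃ (S : Finset (HeightOneSpectrum (𝓞 F))) (S' : Finset (HeightOneSpectrum (𝓞 E))),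
      S₀ ⊆ S ∧ IsAbove F E S S' ∧ ClassGen S ∧ ClassGen S'

/-- **First inequality, extension form**, for a Galois extension `E / F` of prime degree `p`
whose ramified primes (the finite set `R`) do not lie over `p`: there is an inert prime `v₀`
such that every `x ∈ F^{(R,p)}` with `p ∣ ord_v x` at all inert `v ≠ v₀` has `p ∣ ord_{v₀} x`. -/
def Stmt_FIExtAt (p : ℕ) : Prop :=
  ∀ R : Finset (HeightOneSpectrum (𝓞 F)),
    (∀ v, v ∈ R ↔ v.asIdeal.ramificationIdxIn (𝓞 E) ≠ 1) → (∀ v ∈ R, (p : 𝓞 F) ∉ v.asIdeal) →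
    ∃ v₀ : HeightOneSpectrum (𝓞 F), v₀ ∉ R ∧ ¬ Split F E v₀ ∧
      ∀ x : Fˣ, x ∈ Adm p R →
        (∀ v, v ∉ R → ¬ Split F E v → v ≠ v₀ → (p : ℤ) ∣ ordAt v x) → (p : ℤ) ∣ ordAt v₀ x

end Interfaces

/-- **Kummer dictionary**: for `b` not a `p`-th power and a local `p`-th power at the primes
over `p`, there is a Galois extension `E / F` of degree `p` (namely `F(b^(1/p))`) whose
ramified primes are those with `p ∤ ord_v b` and whose split primes, among the others, are
those at which `b` is a local `p`-th power. -/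
def Stmt_KummerDict (F : Type) [Field F] [NumberField F] (p : ℕ) : Prop :=
  ∀ b : Fˣ, (¬ ∃ y : Fˣ, b = y ^ p) →
    (∀ v : HeightOneSpectrum (𝓞 F), (p : 𝓞 F) ∈ v.asIdeal → LocPow p v b) →
    ∃ (E : Type) (_ : Field E) (_ : NumberField E) (_ : Algebra F E) (_ : IsGalois F E),
      Module.finrank F E = p ∧
      ∀ v : HeightOneSpectrum (𝓞 F),
        (¬ (p : ℤ) ∣ ordAt v b → v.asIdeal.ramificationIdxIn (𝓞 E) ≠ 1) ∧
        ((p : ℤ) ∣ ordAt v b →
          v.asIdeal.ramificationIdxIn (𝓞 E) = 1 ∧ (Split F E v ↔ LocPow p v b))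

end

end Fermat.Agent.S14.helper165
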