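/-
S14 shared leaf (helper4373): prime decomposition law in a Galois extension of prime degree,
and in a Kummer extension `E = F(β)`, `β ^ p = b`, `ζ_p ∈ F`.

Everything is stated for an extension of domains `B / A` with a finite group `G` of prime order
`p` acting on `B` with `IsGaloisGroup G A B` (Mathlib's axiomatisation of "`Gal(E/F)` acting on
the ring of integers"), in `Ideal.primesOver` language.
-/
import Mathlib

namespace Fermat.Agent.S14.helper4373

open Ideal
open scoped Pointwise

section Trichotomy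

variable {A B G : Type*} [CommRing A] [IsDomain A] [CommRing B] [IsDomain B] [Algebra A B]
  [Module.Finite A B] [Module.Flat A B]
  [Group G] [Finite G] [MulSemiringAction G B] [IsGaloisGroup G A B]

/-- (K1) **Trichotomy** for a prime `v` in a Galois extension of prime degree `p`:
`v` splits completely, or is totally ramified, or is inert. -/
theorem trichotomy {p : ℕ} (hp : p.Prime) (hG : Nat.card G = p) (v : Ideal A) [v.IsPrime] :
    ((v.primesOver B).ncard = p ∧ v.ramificationIdxIn B = 1 ∧ v.inertiaDegIn B = 1) ∨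
    ((v.primesOver B).ncard = 1 ∧ v.ramificationIdxIn B = p ∧ v.inertiaDegIn B = 1) ∨
    ((v.primesOver B).ncard = 1 ∧ v.ramificationIdxIn B = 1 ∧ v.inertiaDegIn B = p) := by
  have h := ncard_primesOver_mul_ramificationIdxIn_mul_inertiaDegIn v B G
  rw [hG] at h
  have h1 : (v.primesOver B).ncard ∣ p := Dvd.intro _ h
  rcases (Nat.dvd_prime hp).mp h1 with h1 | h1
  · rw [h1, one_mul] at h
    have h2 : v.ramificationIdxIn B ∣ p := Dvd.intro _ h
    rcases (Nat.dvd_prime hp).mp h2 with h2 | h2
    · rw [h2, one_mul] at h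
      exact Or.inr (Or.inr ⟨h1, h2, h⟩)
    · rw [h2] at h
      have h3 : v.inertiaDegIn B = 1 := by
        have := hp.pos
        exact Nat.eq_of_mul_eq_mul_left this (by rw [h, mul_one])
      exact Or.inr (Or.inl ⟨h1, h2, h3⟩)
  · rw [h1] at h
    have h3 : v.ramificationIdxIn B * v.inertiaDegIn B = 1 :=
      Nat.eq_of_mul_eq_mul_left hp.pos (by rw [h, mul_one])
    exact Or.inl ⟨h1, Nat.dvd_one.mp ⟨_, h3.symm⟩, Nat.dvd_one.mp (Dvd.intro_left _ h3)⟩

end Trichotomy

section Kummer

variable {A B G : Type*} [CommRing A] [IsDomain A] [CommRing B] [IsDomain B] [Algebra A B]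
  [Module.Finite A B] [Module.Flat A B] [FaithfulSMul A B]
  [Group G] [Finite G] [MulSemiringAction G B] [IsGaloisGroup G A B]

omit [IsDomain A] [IsDomain B] [Module.Finite A B] [Module.Flat A B] [FaithfulSMul A B]
  [Finite G] in
/-- If there is only one prime over `v`, every element of `G` fixes it. -/
theorem smul_eq_of_ncard_eq_one (v : Ideal A) (h1 : (v.primesOver B).ncard = 1)
    (w : Ideal B) [w.IsPrime] [w.LiesOver v] (σ : G) : σ • w = w := by
  obtain ⟨w0, hw0⟩ := Set.ncard_eq_one.mp h1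
  have h2 : σ • w ∈ v.primesOver B := (σ • primesOver.mk v w).2
  have h3 : w ∈ v.primesOver B := ⟨‹_›, ‹_›⟩
  rw [hw0, Set.mem_singleton_iff] at h2 h3
  rw [h2, h3]

omit [IsDomain A] [Module.Finite A B] [Module.Flat A B] [Finite G] in
/-- Core of the Kummer splitting criterion: if a prime `w` of `B` over `v` is fixed by `σ`,
`σ β = ζ β`, `β ^ p = b` and `b ≡ y ^ p mod v`, then `ζ ≡ 1 mod v` or `b ∈ v`. -/
theorem kummer_fixed_prime_absurd {p : ℕ} (hp : 0 < p) (v : Ideal A)
    {ζ : A} (hζ : IsPrimitiveRoot ζ p)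
    {σ : G} {β : B} (hσ : σ • β = algebraMap A B ζ * β) {b : A} (hβ : β ^ p = algebraMap A B b)
    {y : A} (hy : y ^ p - b ∈ v) (w : Ideal B) [w.IsPrime] [w.LiesOver v] (hw : σ • w = w) :
    ζ - 1 ∈ v ∨ b ∈ v := by
  have hζB : IsPrimitiveRoot (algebraMap A B ζ) p :=
    hζ.map_of_injective (FaithfulSMul.algebraMap_injective A B)
  have hmem : β ^ p - (algebraMap A B y) ^ p ∈ w := by
    have : β ^ p - (algebraMap A B y) ^ p = - algebraMap A B (y ^ p - b) := by
      rw [hβ]; simp
    rw [this, neg_mem_iff]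
    have h2 : y ^ p - b ∈ w.under A := by rw [← over_def w v]; exact hy
    exact h2
  rw [hζB.pow_sub_pow_eq_prod_sub_mul _ _ hp] at hmem
  obtain ⟨μ, hμ, hμw⟩ := (IsPrime.prod_mem_iff (p := w)).mp hmem
  -- apply σ
  have hμ1 : μ ^ p = 1 := by
    have := (Polynomial.mem_nthRootsFinset hp (1 : B)).mp hμ
    exact this
  have : NeZero p := ⟨hp.ne'⟩
  obtain ⟨i, -, hi⟩ := hζB.eq_pow_of_pow_eq_one hμ1
  have hσμ : σ • μ = μ := by
    rw [← hi, ← map_pow, smul_algebraMap]
  have hσy : σ • algebraMap A B y = algebraMap A B y := smul_algebraMap _ _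
  have h3 : σ • (β - μ * algebraMap A B y) ∈ w := by
    rw [← hw]; exact Ideal.smul_mem_pointwise_smul σ _ _ hμw
  rw [smul_sub, smul_mul', hσμ, hσy, hσ] at h3
  have h4 : (algebraMap A B ζ - 1) * β ∈ w := by
    have := w.sub_mem h3 hμw
    have e : algebraMap A B ζ * β - μ * algebraMap A B y - (β - μ * algebraMap A B y)
        = (algebraMap A B ζ - 1) * β := by ring
    rwa [e] at this
  rcases (IsPrime.mem_or_mem ‹w.IsPrime› h4) with h5 | h5
  · left
    have : algebraMap A B (ζ - 1) ∈ w := by simpa using h5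
    have h6 : ζ - 1 ∈ w.under A := this
    rwa [← over_def w v] at h6
  · right
    have : algebraMap A B b ∈ w := by rw [← hβ]; exact w.pow_mem_of_mem h5 p hp
    have h6 : b ∈ w.under A := this
    rwa [← over_def w v] at h6

/-- (K2a) **Kummer splitting criterion**: `ζ ≢ 1 mod v`, `b ∉ v`, `b ≡ y ^ p mod v`
imply that `v` splits completely in `B`. -/
theorem ncard_primesOver_eq_of_pow_sub_mem {p : ℕ} (hp : p.Prime) (hG : Nat.card G = p)
    (v : Ideal A) [v.IsPrime] {ζ : A} (hζ : IsPrimitiveRoot ζ p) (hζv : ζ - 1 ∉ v)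
    {σ : G} {β : B} (hσ : σ • β = algebraMap A B ζ * β) {b : A} (hβ : β ^ p = algebraMap A B b)
    (hb : b ∉ v) {y : A} (hy : y ^ p - b ∈ v) : (v.primesOver B).ncard = p := by
  have key : (v.primesOver B).ncard ≠ 1 := by
    intro h1
    obtain ⟨w, hw⟩ : (v.primesOver B).Nonempty :=
      Set.nonempty_of_ncard_ne_zero (by rw [h1]; exact one_ne_zero)
    have : w.IsPrime := hw.1
    have : w.LiesOver v := hw.2
    rcases kummer_fixed_prime_absurd hp.pos v hζ hσ hβ hy w
      (smul_eq_of_ncard_eq_one v h1 w σ) with h | h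
    · exact hζv h
    · exact hb h
  rcases trichotomy (B := B) (G := G) hp hG v with h | h | h
  · exact h.1
  · exact absurd h.1 key
  · exact absurd h.1 key

omit [IsDomain A] [IsDomain B] [Module.Finite A B] [Module.Flat A B] [FaithfulSMul A B]
  [Group G] [Finite G] [MulSemiringAction G B] [IsGaloisGroup G A B] in
/-- If `w` over `v` has inertia degree one, every element of `B` is congruent mod `w` to an
element of `A`. -/
theorem exists_sub_mem_of_inertiaDeg_eq_one (v : Ideal A) [v.IsMaximal] (w : Ideal B)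
    [w.IsMaximal] [w.LiesOver v] (hf : w.inertiaDeg A = 1) (x : B) :
    ∃ y : A, x - algebraMap A B y ∈ w := by
  rw [inertiaDeg_eq_of_isMaximal v w] at hf
  let : Field (A ⧸ v) := Quotient.field v
  obtain ⟨c, hc⟩ := (finrank_eq_one_iff_of_nonzero' (1 : B ⧸ w) one_ne_zero).mp hf
    (Ideal.Quotient.mk w x)
  obtain ⟨y, rfl⟩ := Ideal.Quotient.mk_surjective c
  refine ⟨y, ?_⟩
  rw [← Ideal.Quotient.eq, ← hc, Algebra.smul_def, mul_one]
  rfl

omit [IsDomain A] [IsDomain B] [Module.Flat A B] in
include G in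
/-- (K2b) If the inertia degree of `v` in `B` is one, then `b = β ^ p` is a `p`-th power
mod `v`. -/
theorem exists_pow_sub_mem_of_inertiaDegIn_eq_one {p : ℕ} (v : Ideal A) [v.IsMaximal]
    (hf : v.inertiaDegIn B = 1) {β : B} {b : A} (hβ : β ^ p = algebraMap A B b) :
    ∃ y : A, y ^ p - b ∈ v := by
  obtain ⟨⟨w, hw1, hw2⟩⟩ := nonempty_primesOver (S := B) v
  have : w.IsMaximal := IsMaximal.of_liesOver_isMaximal w v
  rw [inertiaDegIn_eq_inertiaDeg v w G] at hf
  obtain ⟨y, hy⟩ := exists_sub_mem_of_inertiaDeg_eq_one v w hf β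
  refine ⟨y, ?_⟩
  have h1 : β ^ p - (algebraMap A B y) ^ p ∈ w :=
    w.mem_of_dvd (sub_dvd_pow_sub_pow _ _ p) hy
  have h2 : algebraMap A B (y ^ p - b) ∈ w := by
    have e : algebraMap A B (y ^ p - b) = - (β ^ p - (algebraMap A B y) ^ p) := by
      rw [hβ]; simp
    rw [e]; exact w.neg_mem h1
  have h3 : y ^ p - b ∈ w.under A := h2
  rwa [← over_def w v] at h3

/-- (K2) **Kummer decomposition law, split case**: if `ζ ≢ 1 mod v` and `b ∉ v`, then `v`
splits completely in `B` iff `b` is a `p`-th power mod `v`. -/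
theorem kummer_split_iff {p : ℕ} (hp : p.Prime) (hG : Nat.card G = p)
    (v : Ideal A) [v.IsMaximal] {ζ : A} (hζ : IsPrimitiveRoot ζ p) (hζv : ζ - 1 ∉ v)
    {σ : G} {β : B} (hσ : σ • β = algebraMap A B ζ * β) {b : A} (hβ : β ^ p = algebraMap A B b)
    (hb : b ∉ v) : (v.primesOver B).ncard = p ↔ ∃ y : A, y ^ p - b ∈ v := by
  constructor
  · intro h
    rcases trichotomy (B := B) (G := G) hp hG v with h' | h' | h'
    · exact exists_pow_sub_mem_of_inertiaDegIn_eq_one (G := G) v h'.2.2 hβ
    · exact absurd (h ▸ h'.1) hp.one_lt.ne'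
    · exact absurd (h ▸ h'.1) hp.one_lt.ne'
  · rintro ⟨y, hy⟩
    exact ncard_primesOver_eq_of_pow_sub_mem hp hG v hζ hζv hσ hβ hb hy

/-- (K2) **Kummer decomposition law, inert case**: if `ζ ≢ 1 mod v` and `b ∉ v`, then `v`
is inert in `B` iff `b` is not a `p`-th power mod `v`. -/
theorem kummer_inert_iff {p : ℕ} (hp : p.Prime) (hG : Nat.card G = p)
    (v : Ideal A) [v.IsMaximal] {ζ : A} (hζ : IsPrimitiveRoot ζ p) (hζv : ζ - 1 ∉ v)
    {σ : G} {β : B} (hσ : σ • β = algebraMap A B ζ * β) {b : A} (hβ : β ^ p = algebraMap A B b)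
    (hb : b ∉ v) :
    ((v.primesOver B).ncard = 1 ∧ v.ramificationIdxIn B = 1 ∧ v.inertiaDegIn B = p) ↔
      ¬ ∃ y : A, y ^ p - b ∈ v := by
  constructor
  · rintro ⟨h1, -, -⟩ hy
    have := (kummer_split_iff hp hG v hζ hζv hσ hβ hb).mpr hy
    exact hp.one_lt.ne' (this ▸ h1)
  · intro hy
    rcases trichotomy (B := B) (G := G) hp hG v with h' | h' | h'
    · exact absurd (exists_pow_sub_mem_of_inertiaDegIn_eq_one (G := G) v h'.2.2 hβ) hy
    · exact absurd (exists_pow_sub_mem_of_inertiaDegIn_eq_one (G := G) v h'.2.2 hβ) hy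
    · exact h'

/-- (K2) In the situation of the Kummer decomposition law (`ζ ≢ 1 mod v`, `b ∉ v`) the prime
`v` is unramified in `B`. -/
theorem kummer_unramified {p : ℕ} (hp : p.Prime) (hG : Nat.card G = p)
    (v : Ideal A) [v.IsMaximal] {ζ : A} (hζ : IsPrimitiveRoot ζ p) (hζv : ζ - 1 ∉ v)
    {σ : G} {β : B} (hσ : σ • β = algebraMap A B ζ * β) {b : A} (hβ : β ^ p = algebraMap A B b)
    (hb : b ∉ v) : v.ramificationIdxIn B = 1 := by
  by_cases hy : ∃ y : A, y ^ p - b ∈ v
  · have h1 := (kummer_split_iff hp hG v hζ hζv hσ hβ hb).mpr hy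
    rcases trichotomy (B := B) (G := G) hp hG v with h' | h' | h'
    · exact h'.2.1
    · exact absurd (h1 ▸ h'.1) hp.one_lt.ne'
    · exact h'.2.1
  · exact ((kummer_inert_iff hp hG v hζ hζv hσ hβ hb).mpr hy).2.1

end Kummer

section Dedekind

variable {A B G : Type*} [CommRing A] [IsDedekindDomain A] [CommRing B] [IsDedekindDomain B]
  [Algebra A B] [Module.Finite A B] [Module.IsTorsionFree A B]
  [Group G] [Finite G] [MulSemiringAction G B] [IsGaloisGroup G A B]

open IsDedekindDomain HeightOneSpectrum WithZero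

omit [Finite G] in
theorem intValuation_smul_le (w : HeightOneSpectrum B) (σ : G)
    (hσ : σ • w.asIdeal = w.asIdeal) (x : B) :
    w.intValuation (σ • x) ≤ w.intValuation x := by
  rcases eq_or_ne x 0 with rfl | hx
  · simp
  · rw [intValuation_eq_exp_neg_multiplicity w hx, intValuation_le_pow_iff_mem]
    have h1 : x ∈ w.asIdeal ^ (multiplicity w.asIdeal (span {x})) := by
      rw [← intValuation_le_pow_iff_mem, intValuation_eq_exp_neg_multiplicity w hx]
    have h2 := Ideal.smul_mem_pointwise_smul σ x _ h1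
    rwa [smul_pow', hσ] at h2

omit [Finite G] in
/-- The `w`-adic valuation is invariant under a `σ` fixing `w`. -/
theorem intValuation_smul (w : HeightOneSpectrum B) (σ : G)
    (hσ : σ • w.asIdeal = w.asIdeal) (x : B) :
    w.intValuation (σ • x) = w.intValuation x := by
  apply le_antisymm (intValuation_smul_le w σ hσ x)
  have hσ' : σ⁻¹ • w.asIdeal = w.asIdeal := by rw [inv_smul_eq_iff, hσ]
  simpa using intValuation_smul_le w σ⁻¹ hσ' (σ • x)

omit [Module.Finite A B] in
/-- Valuation bookkeeping for `β ^ p = b`: `e(w|v) * ord_v(b) = p * ord_w(β)`. -/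
theorem ramificationIdx_mul_multiplicity {p : ℕ} (hp : p ≠ 0) (v : Ideal A) [v.IsPrime]
    (hv : v ≠ ⊥) (w : Ideal B) [w.IsPrime] [w.LiesOver v]
    {β : B} {b : A} (hβ : β ^ p = algebraMap A B b) (hb0 : b ≠ 0) :
    w.ramificationIdx A * multiplicity v (span {b}) = p * multiplicity w (span {β}) := by
  have hw0 : w ≠ ⊥ := ne_bot_of_liesOver_of_ne_bot hv w
  let vH : HeightOneSpectrum A := ⟨v, inferInstance, hv⟩
  let wH : HeightOneSpectrum B := ⟨w, inferInstance, hw0⟩
  have : wH.asIdeal.LiesOver vH.asIdeal := ‹w.LiesOver v›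
  have h1 := intValuation_liesOver vH wH b
  have he : vH.asIdeal.ramificationIdx' wH.asIdeal = w.ramificationIdx A :=
    ramificationIdx'_eq_ramificationIdx v w hv
  rw [he] at h1
  have hm := intValuation_eq_exp_neg_multiplicity vH hb0
  have hβ0 : β ≠ 0 := by
    rintro rfl
    rw [zero_pow hp] at hβ
    exact hb0 ((FaithfulSMul.algebraMap_injective A B) (by rw [← hβ, map_zero]))
  have hn := intValuation_eq_exp_neg_multiplicity wH hβ0
  rw [← hβ, map_pow, hn, hm, ← exp_nsmul, ← exp_nsmul, exp_inj] at h1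
  have h5 : ((w.ramificationIdx A : ℤ)) * (-(multiplicity v (span {b}) : ℤ))
      = (p : ℤ) * (-(multiplicity w (span {β}) : ℤ)) := by
    simpa using h1
  have h6 : ((w.ramificationIdx A * multiplicity v (span {b}) : ℕ) : ℤ)
      = ((p * multiplicity w (span {β}) : ℕ) : ℤ) := by
    push_cast; linarith
  exact_mod_cast h6

/-- (K3) **Kummer decomposition law, ramified case**: if `β ^ p = b` and the `v`-adic
valuation `k` of `b` is prime to `p`, then `v` is totally ramified in `B`. -/
theorem kummer_ramified {p : ℕ} (hp : p.Prime) (hG : Nat.card G = p) (v : Ideal A) [v.IsPrime]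
    (hv : v ≠ ⊥) {β : B} {b : A} (hβ : β ^ p = algebraMap A B b) {k : ℕ} (hk : ¬ p ∣ k)
    (hbk : b ∈ v ^ k) (hbk' : b ∉ v ^ (k + 1)) :
    (v.primesOver B).ncard = 1 ∧ v.ramificationIdxIn B = p ∧ v.inertiaDegIn B = 1 := by
  have key : p ∣ v.ramificationIdxIn B := by
    obtain ⟨⟨w, hw1, hw2⟩⟩ := nonempty_primesOver (S := B) v
    have hb0 : b ≠ 0 := by rintro rfl; exact hbk' (zero_mem _)
    have h1 := ramificationIdx_mul_multiplicity hp.ne_zero v hv w hβ hb0
    rw [← ramificationIdxIn_eq_ramificationIdx v w G] at h1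
    let vH : HeightOneSpectrum A := ⟨v, inferInstance, hv⟩
    have hm : vH.intValuation b = exp (-(multiplicity v (span {b}) : ℤ)) :=
      intValuation_eq_exp_neg_multiplicity vH hb0
    have h3 : k ≤ multiplicity v (span {b}) := by
      have := (intValuation_le_pow_iff_mem vH b k).mpr hbk
      rw [hm, exp_le_exp] at this
      omega
    have h4 : ¬ (k + 1 ≤ multiplicity v (span {b})) := fun h =>
      hbk' ((intValuation_le_pow_iff_mem vH b (k + 1)).mp (by
        rw [hm, exp_le_exp]; push_cast; omega))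
    have hmk : multiplicity v (span {b}) = k := by omega
    rw [hmk] at h1
    have h7 : p ∣ v.ramificationIdxIn B * k := Dvd.intro _ h1.symm
    exact (hp.dvd_mul.mp h7).resolve_right hk
  rcases trichotomy (B := B) (G := G) hp hG v with h | h | h
  · rw [h.2.1] at key
    exact absurd (Nat.dvd_one.mp key) hp.one_lt.ne'
  · exact h
  · rw [h.2.1] at key
    exact absurd (Nat.dvd_one.mp key) hp.one_lt.ne'

include G in
/-- (K8) **Unramified ⟹ singular**: if `B / A` is unramified at every prime and `β ^ p = b`,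
then the ideal `(b)` is a `p`-th power. -/
theorem exists_ideal_pow_eq_span {p : ℕ} (hp : p ≠ 0)
    (hunr : ∀ v : Ideal A, v.IsPrime → v ≠ ⊥ → v.ramificationIdxIn B = 1)
    {β : B} {b : A} (hβ : β ^ p = algebraMap A B b) (hb0 : b ≠ 0) :
    ∃ I : Ideal A, span {b} = I ^ p := by
  classical
  have hs : span {b} ≠ ⊥ := by simpa using hb0
  obtain ⟨u, hu⟩ := Multiset.exists_smul_of_dvd_count
    (UniqueFactorizationMonoid.normalizedFactors (span {b})) (k := p) (fun v hvmem => by
      have hvprime : Prime v := UniqueFactorizationMonoid.prime_of_normalized_factor v hvmem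
      have : v.IsPrime := isPrime_of_prime hvprime
      have hv0 : v ≠ ⊥ := hvprime.ne_zero
      obtain ⟨⟨w, hw1, hw2⟩⟩ := nonempty_primesOver (S := B) v
      have h1 := ramificationIdx_mul_multiplicity hp v hv0 w hβ hb0
      rw [← ramificationIdxIn_eq_ramificationIdx v w G, hunr v ‹_› hv0, one_mul] at h1
      have h2 := UniqueFactorizationMonoid.multiplicity_eq_count_normalizedFactors
        hvprime.irreducible hs
      rw [normalize_eq] at h2
      rw [← h2, h1]
      exact Dvd.intro _ rfl)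
  refine ⟨u.prod, ?_⟩
  rw [← Multiset.prod_nsmul, ← hu, Ideal.prod_normalizedFactors_eq_self hs]

/-- (K4) **Splitting over `p`** (completion-free Hensel): if `β ^ p = b`, `y ∉ v` and
`y ^ p ≡ b` modulo `(ζ - 1) ^ p * v`, then `v` splits completely in `B`.
(For `v ∤ p` the hypothesis just says `y ^ p ≡ b mod v`; for `v ∣ p` it says
`y ^ p ≡ b mod v ^ N` with `N = p * ord_v (ζ - 1) + 1`, i.e. `N > p * ord_v p / (p - 1)`.) -/
theorem kummer_split_of_mem_high {p : ℕ} (hp : p.Prime) (hG : Nat.card G = p) (v : Ideal A)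
    [v.IsPrime] (hv : v ≠ ⊥) {ζ : A} (hζ : IsPrimitiveRoot ζ p)
    {σ : G} {β : B} (hσ : σ • β = algebraMap A B ζ * β) {b : A} (hβ : β ^ p = algebraMap A B b)
    {y : A} (hyv : y ∉ v) (hy : y ^ p - b ∈ Ideal.span {(ζ - 1) ^ p} * v) :
    (v.primesOver B).ncard = p := by
  have key : (v.primesOver B).ncard ≠ 1 := by
    intro h1
    obtain ⟨⟨w, hw1, hw2⟩⟩ := nonempty_primesOver (S := B) v
    have hσw := smul_eq_of_ncard_eq_one v h1 w σ
    have hw0 : w ≠ ⊥ := ne_bot_of_liesOver_of_ne_bot hv w
    let wH : HeightOneSpectrum B := ⟨w, hw1, hw0⟩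
    have hinv : ∀ x, wH.intValuation (σ • x) = wH.intValuation x := intValuation_smul wH σ hσw
    have hζB : IsPrimitiveRoot (algebraMap A B ζ) p :=
      hζ.map_of_injective (FaithfulSMul.algebraMap_injective A B)
    have hvζ : wH.intValuation (algebraMap A B ζ) = 1 := by
      have : wH.intValuation (algebraMap A B ζ) ^ p = 1 := by
        rw [← map_pow, hζB.pow_eq_one, map_one]
      exact (pow_eq_one_iff.mp this).resolve_right hp.ne_zero
    have hfac : ∀ i : ℕ, wH.intValuation (β - (algebraMap A B ζ) ^ i * algebraMap A B y)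
        = wH.intValuation (β - algebraMap A B y) := by
      intro i
      induction i with
      | zero => simp
      | succ i ih =>
        rw [← ih, ← hinv (β - (algebraMap A B ζ) ^ (i + 1) * algebraMap A B y)]
        have : σ • (β - (algebraMap A B ζ) ^ (i + 1) * algebraMap A B y)
            = algebraMap A B ζ * (β - (algebraMap A B ζ) ^ i * algebraMap A B y) := by
          rw [smul_sub, smul_mul', hσ, smul_pow', smul_algebraMap, smul_algebraMap]; ring
        rw [this, map_mul, hvζ, one_mul]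
    obtain ⟨z, hz, hzy⟩ := Ideal.mem_span_singleton_mul.mp hy
    have hprod := hζB.pow_sub_pow_eq_prod_sub_mul β (algebraMap A B y) hp.pos
    have hval_prod : wH.intValuation (β ^ p - (algebraMap A B y) ^ p)
        = wH.intValuation (β - algebraMap A B y) ^ p := by
      rw [hprod, map_prod]
      have : ∀ μ ∈ Polynomial.nthRootsFinset p (1 : B),
          wH.intValuation (β - μ * algebraMap A B y) = wH.intValuation (β - algebraMap A B y) := by
        intro μ hμ
        have hμ1 : μ ^ p = 1 := (Polynomial.mem_nthRootsFinset hp.pos (1 : B)).mp hμ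
        have : NeZero p := ⟨hp.ne_zero⟩
        obtain ⟨i, -, hi⟩ := hζB.eq_pow_of_pow_eq_one hμ1
        rw [← hi]; exact hfac i
      rw [Finset.prod_congr rfl this, Finset.prod_const, hζB.card_nthRootsFinset]
    have hlam : wH.intValuation (β ^ p - (algebraMap A B y) ^ p)
        < wH.intValuation (algebraMap A B ζ - 1) ^ p := by
      have e : β ^ p - (algebraMap A B y) ^ p
          = - ((algebraMap A B ζ - 1) ^ p * algebraMap A B z) := by
        rw [hβ, ← map_pow, ← map_sub, ← map_one (algebraMap A B), ← map_sub, ← map_pow, ← map_mul,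
          hzy, ← map_neg]
        congr 1; ring
      rw [e, Valuation.map_neg, map_mul, map_pow]
      have hz' : wH.intValuation (algebraMap A B z) < 1 := by
        rw [intValuation_lt_one_iff_mem]
        have : z ∈ w.under A := by rw [← over_def w v]; exact hz
        exact this
      have hne : wH.intValuation (algebraMap A B ζ - 1) ^ p ≠ 0 :=
        pow_ne_zero _ (intValuation_ne_zero wH _ (sub_ne_zero.mpr (hζB.ne_one hp.one_lt)))
      calc wH.intValuation (algebraMap A B ζ - 1) ^ p * wH.intValuation (algebraMap A B z)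
          < wH.intValuation (algebraMap A B ζ - 1) ^ p * 1 :=
            mul_lt_mul_of_pos_left hz' (zero_lt_iff.mpr hne)
        _ = _ := mul_one _
    have hlt : wH.intValuation (β - algebraMap A B y) < wH.intValuation (algebraMap A B ζ - 1) :=
      lt_of_pow_lt_pow_left₀ p zero_le (hval_prod ▸ hlam)
    have hdiff : (β - algebraMap A B y) - (β - (algebraMap A B ζ) ^ 1 * algebraMap A B y)
        = (algebraMap A B ζ - 1) * algebraMap A B y := by ring
    have h5 : wH.intValuation ((algebraMap A B ζ - 1) * algebraMap A B y)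
        ≤ wH.intValuation (β - algebraMap A B y) := by
      rw [← hdiff]
      refine (Valuation.map_sub _ _ _).trans ?_
      rw [hfac 1, max_self]
    rw [map_mul] at h5
    have h6 : wH.intValuation (algebraMap A B y) < 1 := by
      by_contra h
      rw [not_lt] at h
      have : wH.intValuation (algebraMap A B ζ - 1)
          ≤ wH.intValuation (algebraMap A B ζ - 1) * wH.intValuation (algebraMap A B y) :=
        le_mul_of_one_le_right zero_le h
      exact absurd (this.trans h5) (not_le.mpr hlt)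
    have h7 : algebraMap A B y ∈ w := (intValuation_lt_one_iff_mem wH _).mp h6
    have h8 : y ∈ w.under A := h7
    rw [← over_def w v] at h8
    exact hyv h8
  rcases trichotomy (B := B) (G := G) hp hG v with h | h | h
  · exact h.1
  · exact absurd h.1 key
  · exact absurd h.1 key

/-! ### Trivial inertia / decomposition groups (the shape of `helper1934.TwistedSplitExt`) -/

omit [IsDedekindDomain A] [IsDedekindDomain B] [Module.IsTorsionFree A B] in
/-- (K7) If `v` is totally ramified (one prime `w`, residue degree one), every `σ` acts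
trivially modulo `w`. -/
theorem smul_sub_mem_of_totally_ramified (v : Ideal A) [v.IsMaximal]
    (h1 : (v.primesOver B).ncard = 1) (hf : v.inertiaDegIn B = 1)
    (w : Ideal B) [w.IsPrime] [w.LiesOver v] (σ : G) (x : B) : σ • x - x ∈ w := by
  have : w.IsMaximal := IsMaximal.of_liesOver_isMaximal w v
  have hf' : w.inertiaDeg A = 1 := by rw [← inertiaDegIn_eq_inertiaDeg v w G, hf]
  obtain ⟨y, hy⟩ := exists_sub_mem_of_inertiaDeg_eq_one v w hf' x
  have hσw := smul_eq_of_ncard_eq_one v h1 w σ
  have h2 : σ • (x - algebraMap A B y) ∈ w := by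
    rw [← hσw]; exact Ideal.smul_mem_pointwise_smul σ _ _ hy
  rw [smul_sub, smul_algebraMap] at h2
  have h3 := w.sub_mem h2 hy
  have e : σ • x - algebraMap A B y - (x - algebraMap A B y) = σ • x - x := by ring
  rwa [e] at h3

/-- (K7) **Trivial inertia group ⟹ unramified**: if some prime `w` over `v` has the property
that only `σ = 1` acts trivially modulo `w`, then `v` is unramified in `B`. -/
theorem ramificationIdxIn_eq_one_of_trivial_inertia {p : ℕ} (hp : p.Prime) (hG : Nat.card G = p)
    (v : Ideal A) [v.IsPrime] (hv : v ≠ ⊥) (w : Ideal B) [w.IsPrime] [w.LiesOver v]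
    (hI : ∀ σ : G, (∀ x : B, σ • x - x ∈ w) → σ = 1) : v.ramificationIdxIn B = 1 := by
  have : v.IsMaximal := IsPrime.isMaximal ‹_› hv
  rcases trichotomy (B := B) (G := G) hp hG v with h | h | h
  · exact h.2.1
  · exfalso
    have hall : ∀ σ : G, σ = 1 := fun σ =>
      hI σ (smul_sub_mem_of_totally_ramified v h.1 h.2.2 w σ)
    have hcard : Nat.card G = 1 :=
      Nat.card_eq_one_iff_unique.mpr ⟨⟨fun a b => by rw [hall a, hall b]⟩, ⟨1⟩⟩
    rw [hG] at hcard
    exact hp.one_lt.ne' hcard
  · exact h.2.1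

/-- **Trivial decomposition group ⟹ split**: if some prime `w` over `v` is stabilised only by
`σ = 1`, then `v` splits completely in `B`. -/
theorem ncard_primesOver_eq_of_trivial_decomposition {p : ℕ} (hp : p.Prime)
    (hG : Nat.card G = p) (v : Ideal A) [v.IsPrime] (w : Ideal B) [w.IsPrime] [w.LiesOver v]
    (hD : ∀ σ : G, (∀ x ∈ w, σ • x ∈ w) → σ = 1) : (v.primesOver B).ncard = p := by
  have key : (v.primesOver B).ncard ≠ 1 := by
    intro h1
    have hall : ∀ σ : G, σ = 1 := fun σ => hD σ (fun x hx => by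
      have := Ideal.smul_mem_pointwise_smul σ x w hx
      rwa [smul_eq_of_ncard_eq_one v h1 w σ] at this)
    have hcard : Nat.card G = 1 :=
      Nat.card_eq_one_iff_unique.mpr ⟨⟨fun a b => by rw [hall a, hall b]⟩, ⟨1⟩⟩
    rw [hG] at hcard
    exact hp.one_lt.ne' hcard
  rcases trichotomy (B := B) (G := G) hp hG v with h | h | h
  · exact h.1
  · exact absurd h.1 key
  · exact absurd h.1 key

/-! ### Split ⟹ `p`-th power to all orders (converse of (K4)) -/

omit [Module.Finite A B] in
/-- If `e(w|v) = 1`, then `w ^ n ∩ A = v ^ n`. -/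
theorem algebraMap_mem_pow_iff_of_unramified (v : Ideal A) [v.IsPrime] (hv : v ≠ ⊥)
    (w : Ideal B) [w.IsPrime] [w.LiesOver v] (he : w.ramificationIdx A = 1) (a : A) (n : ℕ) :
    algebraMap A B a ∈ w ^ n ↔ a ∈ v ^ n := by
  have hw0 : w ≠ ⊥ := ne_bot_of_liesOver_of_ne_bot hv w
  let vH : HeightOneSpectrum A := ⟨v, inferInstance, hv⟩
  let wH : HeightOneSpectrum B := ⟨w, inferInstance, hw0⟩
  have : wH.asIdeal.LiesOver vH.asIdeal := ‹w.LiesOver v›
  have h1 := intValuation_liesOver vH wH a
  have he' : vH.asIdeal.ramificationIdx' wH.asIdeal = 1 :=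
    (ramificationIdx'_eq_ramificationIdx v w hv).trans he
  rw [he', pow_one] at h1
  rw [← intValuation_le_pow_iff_mem wH, ← intValuation_le_pow_iff_mem vH, h1]

/-- (K6) **Density**: if `e(w|v) = f(w|v) = 1`, every element of `B` is congruent to an element
of `A` modulo any power of `w`. -/
theorem exists_sub_mem_pow_of_unramified_of_inertiaDeg_eq_one (v : Ideal A) [v.IsPrime]
    (hv : v ≠ ⊥) (w : Ideal B) [w.IsPrime] [w.LiesOver v] (he : w.ramificationIdx A = 1)
    (hf : w.inertiaDeg A = 1) (x : B) (n : ℕ) : ∃ y : A, x - algebraMap A B y ∈ w ^ n := by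
  have : v.IsMaximal := IsPrime.isMaximal ‹_› hv
  have : w.IsMaximal := IsMaximal.of_liesOver_isMaximal w v
  have hw0 : w ≠ ⊥ := ne_bot_of_liesOver_of_ne_bot hv w
  let vH : HeightOneSpectrum A := ⟨v, inferInstance, hv⟩
  obtain ⟨π, hπ⟩ := intValuation_exists_uniformizer vH
  have hπk : ∀ k : ℕ, algebraMap A B (π ^ k) ∈ w ^ k ∧ algebraMap A B (π ^ k) ∉ w ^ (k + 1) := by
    intro k
    rw [algebraMap_mem_pow_iff_of_unramified v hv w he, algebraMap_mem_pow_iff_of_unramified v hv w he,
      ← intValuation_le_pow_iff_mem vH, ← intValuation_le_pow_iff_mem vH, map_pow, hπ,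
      ← exp_nsmul, exp_le_exp, exp_le_exp]
    constructor
    · simp
    · simp
  induction n with
  | zero => exact ⟨0, by simp⟩
  | succ n ih =>
    obtain ⟨y, hy⟩ := ih
    obtain ⟨d, e, he', hde⟩ := Ideal.exists_mul_add_mem_pow_succ hw0 (algebraMap A B (π ^ n))
      (x - algebraMap A B y) (hπk n).1 (hπk n).2 hy
    obtain ⟨d0, hd0⟩ := exists_sub_mem_of_inertiaDeg_eq_one v w hf d
    refine ⟨y + π ^ n * d0, ?_⟩
    have e1 : x - algebraMap A B (y + π ^ n * d0)
        = algebraMap A B (π ^ n) * (d - algebraMap A B d0) + e := by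
      rw [map_add, map_mul, mul_sub, ← sub_sub, ← hde]; ring
    rw [e1]
    refine Ideal.add_mem _ ?_ he'
    rw [pow_succ]
    exact Ideal.mul_mem_mul (hπk n).1 hd0

/-- (K6) **Split ⟹ primary**: if `v` splits completely in `B` and `β ^ p = b`, then `b` is a
`p`-th power modulo every power of `v`. -/
theorem exists_pow_sub_mem_pow_of_split {p : ℕ} (hp : p.Prime) (hG : Nat.card G = p)
    (v : Ideal A) [v.IsPrime] (hv : v ≠ ⊥) (hsplit : (v.primesOver B).ncard = p)
    {β : B} {b : A} (hβ : β ^ p = algebraMap A B b) (n : ℕ) : ∃ y : A, y ^ p - b ∈ v ^ n := by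
  have hef : v.ramificationIdxIn B = 1 ∧ v.inertiaDegIn B = 1 := by
    rcases trichotomy (B := B) (G := G) hp hG v with h | h | h
    · exact h.2
    · exact absurd (hsplit ▸ h.1) hp.one_lt.ne'
    · exact absurd (hsplit ▸ h.1) hp.one_lt.ne'
  obtain ⟨⟨w, hw1, hw2⟩⟩ := nonempty_primesOver (S := B) v
  have he : w.ramificationIdx A = 1 := by
    rw [← ramificationIdxIn_eq_ramificationIdx v w G]; exact hef.1
  have hf : w.inertiaDeg A = 1 := by
    rw [← inertiaDegIn_eq_inertiaDeg v w G]; exact hef.2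
  obtain ⟨y, hy⟩ := exists_sub_mem_pow_of_unramified_of_inertiaDeg_eq_one v hv w he hf β n
  refine ⟨y, ?_⟩
  rw [← algebraMap_mem_pow_iff_of_unramified v hv w he]
  have h1 : β ^ p - (algebraMap A B y) ^ p ∈ w ^ n :=
    (w ^ n).mem_of_dvd (sub_dvd_pow_sub_pow _ _ p) hy
  have e : algebraMap A B (y ^ p - b) = - (β ^ p - (algebraMap A B y) ^ p) := by
    rw [hβ]; simp
  rw [e]
  exact (w ^ n).neg_mem h1

end Dedekind

section DegreeOne

variable {A B : Type*} [CommRing A] [CommRing B] [Algebra A B]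

/-- If `B ⧸ W` has prime cardinality, every element of `B` is congruent mod `W` to a rational
integer. -/
theorem exists_int_sub_mem_of_card_quot_prime (W : Ideal B) {q : ℕ} (hq : q.Prime)
    (hW : Nat.card (B ⧸ W) = q) (x : B) : ∃ n : ℤ, x - (n : B) ∈ W := by
  have : Fact q.Prime := ⟨hq⟩
  have : Finite (B ⧸ W) := Nat.finite_of_card_ne_zero (by rw [hW]; exact hq.ne_zero)
  have : Nontrivial (B ⧸ W) := by
    rw [← Finite.one_lt_card_iff_nontrivial, hW]; exact hq.one_lt
  have h1 : (Ideal.Quotient.mk W x) ∈ AddSubgroup.zmultiples (1 : B ⧸ W) :=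
    mem_zmultiples_of_prime_card hW one_ne_zero
  obtain ⟨n, hn⟩ := AddSubgroup.mem_zmultiples_iff.mp h1
  refine ⟨n, ?_⟩
  rw [← Ideal.Quotient.eq, ← hn]
  simp

/-- (K5) **Degree-one transfer**: if `W` is a prime of `B` of prime absolute norm lying over `v`,
then `x ∈ A` is a `p`-th power mod `v` iff it is a `p`-th power mod `W`. -/
theorem pow_residue_iff_of_card_quot_prime (W : Ideal B) (v : Ideal A) [W.LiesOver v] {q : ℕ}
    (hq : q.Prime) (hW : Nat.card (B ⧸ W) = q) (x : A) (p : ℕ) :
    (∃ y : A, y ^ p - x ∈ v) ↔ (∃ z : B, z ^ p - algebraMap A B x ∈ W) := by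
  constructor
  · rintro ⟨y, hy⟩
    refine ⟨algebraMap A B y, ?_⟩
    have : y ^ p - x ∈ W.under A := by rw [← over_def W v]; exact hy
    simpa using this
  · rintro ⟨z, hz⟩
    obtain ⟨n, hn⟩ := exists_int_sub_mem_of_card_quot_prime W hq hW z
    refine ⟨(n : A), ?_⟩
    have h1 : z ^ p - ((n : B)) ^ p ∈ W := W.mem_of_dvd (sub_dvd_pow_sub_pow _ _ p) hn
    have h2 : algebraMap A B ((n : A) ^ p - x) ∈ W := by
      have e : algebraMap A B ((n : A) ^ p - x)
          = (z ^ p - algebraMap A B x) - (z ^ p - ((n : B)) ^ p) := by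
        simp
      rw [e]; exact W.sub_mem hz h1
    have h3 : (n : A) ^ p - x ∈ W.under A := h2
    rwa [← over_def W v] at h3

/-- (K5) If `W` has prime absolute norm `q` and lies over `v`, then `A ⧸ v` also has `q`
elements (so `v` has degree one and `f(W|v) = 1`). -/
theorem card_quot_under_of_card_quot_prime (W : Ideal B) (v : Ideal A) [W.LiesOver v] {q : ℕ}
    (hq : q.Prime) (hW : Nat.card (B ⧸ W) = q) : Nat.card (A ⧸ v) = q := by
  rw [← hW]
  refine Nat.card_eq_of_bijective (Ideal.quotientMap W (algebraMap A B) (by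
    rw [over_def W v])) ⟨?_, ?_⟩
  · refine Ideal.quotientMap_injective' ?_
    rw [over_def W v]
  · intro z
    obtain ⟨z, rfl⟩ := Ideal.Quotient.mk_surjective z
    obtain ⟨n, hn⟩ := exists_int_sub_mem_of_card_quot_prime W hq hW z
    refine ⟨Ideal.Quotient.mk v (n : A), ?_⟩
    rw [Ideal.quotientMap_mk]
    symm
    rw [Ideal.Quotient.eq]
    simpa using hn

end DegreeOne

/-! ### Number fields: `A = 𝓞 F`, `B = 𝓞 E`, `G = Gal(E/F)` -/

section NumberField

open NumberField

variable (F E : Type*) [Field F] [Field E] [NumberField F] [NumberField E] [Algebra F E]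
  [IsGalois F E]

/-- For a Galois extension `E / F` of number fields, `Gal(E/F)` is a Galois group for
`𝓞 E / 𝓞 F` in the sense of Mathlib's `IsGaloisGroup`; with this instance all results of this
file apply to `A = 𝓞 F`, `B = 𝓞 E`, `G = Gal(E/F)`. -/
theorem isGaloisGroup_ringOfIntegers : IsGaloisGroup Gal(E/F) (𝓞 F) (𝓞 E) :=
  IsGaloisGroup.of_isFractionRing Gal(E/F) (𝓞 F) (𝓞 E) F E

theorem card_gal_eq_finrank : Nat.card Gal(E/F) = Module.finrank F E :=
  IsGalois.card_aut_eq_finrank F E

/-- (K1) for number fields. -/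
theorem nf_trichotomy {p : ℕ} (hp : p.Prime) (hdeg : Module.finrank F E = p)
    (v : Ideal (𝓞 F)) [v.IsPrime] :
    ((v.primesOver (𝓞 E)).ncard = p ∧ v.ramificationIdxIn (𝓞 E) = 1 ∧ v.inertiaDegIn (𝓞 E) = 1) ∨
    ((v.primesOver (𝓞 E)).ncard = 1 ∧ v.ramificationIdxIn (𝓞 E) = p ∧ v.inertiaDegIn (𝓞 E) = 1) ∨
    ((v.primesOver (𝓞 E)).ncard = 1 ∧ v.ramificationIdxIn (𝓞 E) = 1 ∧
      v.inertiaDegIn (𝓞 E) = p) := by
  have := isGaloisGroup_ringOfIntegers F E
  exact trichotomy (G := Gal(E/F)) hp ((card_gal_eq_finrank F E).trans hdeg) v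

end NumberField

end Fermat.Agent.S14.helper4373
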