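import Mathlib
import Fermat.Agent.S14.helper2613_SUnit
import Fermat.Agent.S14.helper1892_M6Defs
import Fermat.Agent.S14.helper4373_KummerDecomp
import Fermat.Agent.S14.helper165_FirstIneqCore
import Fermat.Agent.S14.helper165_FirstIneqSpec

/-!
# S14 / M5 (first inequality): assembly  (helper165)

* `fiExtAt_of_leaves` : the leaves (A1)–(A5), (S) give the extension form `Stmt_FIExtAt`.
* `stmt_M5_of` : Kummer dictionary + extension form give `helper1892.Stmt_M5 F p`.
-/

set_option autoImplicit false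

open IsDedekindDomain NumberField

namespace Fermat.Agent.S14.helper165

open Fermat.Agent.S14.helper2613 (ordAt ordHom SUnits)
open Fermat.Agent.S14.helper1892 (LocPowN LocPow ClassGen)

noncomputable section

section Basic

variable {F : Type} [Field F] [NumberField F]

/-- The valuations of a nonzero element are trivial at almost all primes. -/
theorem finite_ordAt_ne_zero (x : Fˣ) :
    {v : HeightOneSpectrum (𝓞 F) | ordAt v x ≠ 0}.Finite := by
  have h1 := HeightOneSpectrum.Support.finite (𝓞 F) (x : F)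
  have h2 := HeightOneSpectrum.Support.finite (𝓞 F) ((x⁻¹ : Fˣ) : F)
  refine (h1.union h2).subset ?_
  intro v hv
  simp only [Set.mem_ofPred_eq, ne_eq, helper2613.ordAt_eq_zero_iff] at hv
  simp only [Set.mem_union, HeightOneSpectrum.Support, Set.mem_ofPred_eq]
  rcases lt_or_gt_of_ne hv with h | h
  · right
    rw [Units.val_inv_eq_inv_val, map_inv₀]
    exact (one_lt_inv₀ (zero_lt_iff.mpr (helper2613.valuation_unit_ne_zero v x))).mpr h
  · left
    exact h

theorem ordHom_eq_one_iff (v : HeightOneSpectrum (𝓞 F)) (x : Fˣ) :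
    ordHom v x = 1 ↔ ordAt v x = 0 := by
  change Multiplicative.ofAdd (ordAt v x) = 1 ↔ _
  exact ofAdd_eq_one

theorem toAdd_ordHom (v : HeightOneSpectrum (𝓞 F)) (x : Fˣ) :
    Multiplicative.toAdd (ordHom v x) = ordAt v x := rfl

theorem ordAt_pow (v : HeightOneSpectrum (𝓞 F)) (x : Fˣ) (n : ℕ) :
    ordAt v (x ^ n) = n * ordAt v x := by
  induction n with
  | zero => simp [helper2613.ordAt_one]
  | succ k ih => rw [pow_succ, helper2613.ordAt_mul, ih]; push_cast; ring

theorem ordAt_inv (v : HeightOneSpectrum (𝓞 F)) (x : Fˣ) :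
    ordAt v x⁻¹ = - ordAt v x := by
  have h := helper2613.ordAt_mul v x x⁻¹
  rw [mul_inv_cancel, helper2613.ordAt_one] at h
  omega

/-- A `p`-th power residue (up to `p`-th powers) has valuation divisible by `p`. -/
theorem dvd_ordAt_of_locPowN {p : ℕ} {v : HeightOneSpectrum (𝓞 F)} {b : Fˣ}
    (h : LocPowN p v 1 b) : (p : ℤ) ∣ ordAt v b := by
  obtain ⟨y, hy⟩ := h
  have h1 : v.valuation F ((b : F) / (y : F) ^ p) = 1 :=
    helper1892.val_eq_one_of_sub_one_lt v ((lt_one_iff_le_exp_neg_one _).2 hy)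
  have h2 : ordAt v (b * (y ^ p)⁻¹) = 0 := by
    rw [helper2613.ordAt_eq_zero_iff]
    have : ((b * (y ^ p)⁻¹ : Fˣ) : F) = (b : F) / (y : F) ^ p := by
      push_cast
      rw [div_eq_mul_inv]
    rw [this, h1]
  rw [helper2613.ordAt_mul, ordAt_inv, ordAt_pow] at h2
  exact ⟨ordAt v y, by omega⟩

theorem dvd_ordAt_of_locPow {p : ℕ} {v : HeightOneSpectrum (𝓞 F)} {b : Fˣ}
    (h : LocPow p v b) : (p : ℤ) ∣ ordAt v b :=
  dvd_ordAt_of_locPowN (h 1)

end Basic

/-! ## From the conclusion of the core to the `v₀`-form (pure group theory) -/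

theorem exists_v0_of_core {G V : Type*} [CommGroup G] (p : ℕ) [Fact p.Prime]
    (o : V → G → ℤ) (ho_mul : ∀ v x y, o v (x * y) = o v x + o v y)
    (A : Subgroup G) (I : V → Prop) (D : V → ℤ) (hD : {v | D v ≠ 0}.Finite)
    (hcore : ∀ z ∈ A, ∃ v, I v ∧ ¬ ((p : ℤ) ∣ o v z - D v)) :
    ∃ v₀, I v₀ ∧ ∀ x ∈ A, (∀ v, I v → v ≠ v₀ → (p : ℤ) ∣ o v x) → (p : ℤ) ∣ o v₀ x := by
  classical
  by_contra hcon
  push Not at hcon
  have ho_one : ∀ v, o v 1 = 0 := by
    intro v
    have := ho_mul v 1 1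
    rw [mul_one] at this
    omega
  have ho_pow : ∀ v x (k : ℕ), o v (x ^ k) = k * o v x := by
    intro v x k
    induction k with
    | zero => simp [ho_one]
    | succ k ih => rw [pow_succ, ho_mul, ih]; push_cast; ring
  have hdvd : ∀ n : ℤ, (p : ℤ) ∣ n ↔ ((n : ℤ) : ZMod p) = 0 := fun n =>
    (ZMod.intCast_zmod_eq_zero_iff_dvd n p).symm
  have key : ∀ T : Finset V, (∀ v ∈ T, I v) →
      ∃ z ∈ A, (∀ v ∈ T, (p : ℤ) ∣ o v z - D v) ∧ ∀ v, I v → v ∉ T → (p : ℤ) ∣ o v z := by
    intro T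
    induction T using Finset.induction_on with
    | empty =>
      intro _
      exact ⟨1, A.one_mem, by simp, fun v _ _ => by rw [ho_one]; exact dvd_zero _⟩
    | insert a T haT ih =>
      intro hI
      obtain ⟨z, hzA, hz1, hz2⟩ := ih (fun v hv => hI v (Finset.mem_insert_of_mem hv))
      have hIa : I a := hI a (Finset.mem_insert_self a T)
      obtain ⟨x, hxA, hx1, hx2⟩ := hcon a hIa
      have hu : ((o a x : ℤ) : ZMod p) ≠ 0 := fun h => hx2 ((hdvd _).2 h)
      set c : ZMod p := ((D a - o a z : ℤ) : ZMod p) * ((o a x : ℤ) : ZMod p)⁻¹ with hc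
      refine ⟨z * x ^ c.val, A.mul_mem hzA (A.pow_mem hxA _), ?_, ?_⟩
      · intro v hv
        rcases Finset.mem_insert.mp hv with rfl | hvT
        · rw [hdvd, ho_mul, ho_pow]
          push_cast
          rw [ZMod.natCast_zmod_val, hc, mul_assoc, inv_mul_cancel₀ hu]
          push_cast
          ring
        · have hva : v ≠ a := fun h => haT (h ▸ hvT)
          have h1 := hz1 v hvT
          have h2 := hx1 v (hI v hv) hva
          rw [ho_mul, ho_pow]
          have : o v z + (c.val : ℤ) * o v x - D v = (o v z - D v) + (c.val : ℤ) * o v x := by ring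
          rw [this]
          exact dvd_add h1 (Dvd.dvd.mul_left h2 _)
      · intro v hIv hv
        have hva : v ≠ a := fun h => hv (h ▸ Finset.mem_insert_self a T)
        have hvT : v ∉ T := fun h => hv (Finset.mem_insert_of_mem h)
        rw [ho_mul, ho_pow]
        exact dvd_add (hz2 v hIv hvT) (Dvd.dvd.mul_left (hx1 v hIv hva) _)
  obtain ⟨z, hzA, hz1, hz2⟩ := key (hD.toFinset.filter I) (fun v hv => (Finset.mem_filter.mp hv).2)
  obtain ⟨v, hIv, hv⟩ := hcore z hzA
  by_cases hvT : v ∈ hD.toFinset.filter I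
  · exact hv (hz1 v hvT)
  · have hD0 : D v = 0 := by
      by_contra h
      exact hvT (Finset.mem_filter.mpr ⟨hD.mem_toFinset.mpr h, hIv⟩)
    rw [hD0, sub_zero] at hv
    exact hv (hz2 v hIv hvT)

/-! ## Assembly of the extension form -/

section Assembly

variable (F E : Type) [Field F] [NumberField F] [Field E] [NumberField E] [Algebra F E]

/-- Ramified primes do not split. -/
theorem not_split_of_ramified [IsGalois F E] {p : ℕ} (hp : p.Prime)
    (hdeg : Module.finrank F E = p) (v : HeightOneSpectrum (𝓞 F))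
    (hv : v.asIdeal.ramificationIdxIn (𝓞 E) ≠ 1) : ¬ Split F E v := by
  intro hs
  unfold Split at hs
  rw [hdeg] at hs
  rcases helper4373.nf_trichotomy F E hp hdeg v.asIdeal with h | h | h
  · exact hv h.2.1
  · rw [h.1] at hs; exact hp.one_lt.ne hs
  · rw [h.1] at hs; exact hp.one_lt.ne hs

/-- **Assembly**: the leaves give the extension form of the first inequality. -/
theorem fiExtAt_of_leaves [IsGalois F E] (p : ℕ) [Fact p.Prime]
    (hdeg : Module.finrank F E = p)
    (h1 : Stmt_NormInert F E p) (h2 : Stmt_NormGen F E p) (h3 : Stmt_SUnitNormIndex F E p)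
    (h4 : Stmt_TameIndex F E p) (h5 : Stmt_Approx F) (h6 : Stmt_GoodSet F E) :
    Stmt_FIExtAt F E p := by
  classical
  have hp : p.Prime := Fact.out
  intro R hR hRp
  obtain ⟨S, S', hRS, hab, hS, hS'⟩ := h6 R
  have hunr : ∀ v, v ∉ S → v.asIdeal.ramificationIdxIn (𝓞 E) = 1 := by
    intro v hv
    by_contra h
    exact hv (hRS ((hR v).2 h))
  obtain ⟨x₀, hx₀⟩ := firstIneq_core (G := Fˣ) (V := HeightOneSpectrum (𝓞 F)) p
    (fun v => ordHom v) S R hRS (Split F E)
    (fun v hv => not_split_of_ramified F E hp hdeg v ((hR v).1 hv))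
    (normHom F E).range ((SUnits E S').map (normHom F E)) (Adm p R) (SUnits F S)
    (fun x => by
      rw [helper2613.mem_SUnits_iff_ordAt]
      exact forall_congr' fun v => forall_congr' fun _ => (ordHom_eq_one_iff v x).symm)
    (Subgroup.map_le_range _ _)
    (fun x hx v hvR hvs => by
      obtain ⟨y, rfl⟩ := hx
      rw [toAdd_ordHom]
      refine h1 y v hvs ?_
      by_contra h
      exact hvR ((hR v).2 h))
    (fun v hv => by
      obtain ⟨τ, hτ, hτ1, hτ2⟩ := h2 S S' hab hS' hunr v hv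
      exact ⟨τ, hτ, hτ1, fun v' hv' hne => (ordHom_eq_one_iff v' τ).2 (hτ2 v' hv' hne)⟩)
    (fun x => by
      refine (finite_ordAt_ne_zero x).subset ?_
      intro v hv
      simp only [Set.mem_ofPred_eq, ne_eq, ordHom_eq_one_iff] at hv
      exact hv)
    (h3 S S' hab hS hunr)
    (h4 R (fun v hv => (hR v).1 hv) hRp)
    (fun m => by
      obtain ⟨z, hz1, hz2⟩ := h5 R (S \ R) Finset.disjoint_sdiff m
      exact ⟨z, mem_Adm_of_sub_one hz1, fun v hv => by rw [toAdd_ordHom]; exact hz2 v hv⟩)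
  -- pass to the `v₀`-form
  obtain ⟨v₀, hv₀, hv₀'⟩ := exists_v0_of_core (G := Fˣ) (V := HeightOneSpectrum (𝓞 F)) p
    (fun v x => ordAt v x) (fun v x y => helper2613.ordAt_mul v x y) (Adm p R)
    (fun v => v ∉ R ∧ ¬ Split F E v)
    (fun v => if v ∈ S then 0 else ordAt v x₀)
    ((finite_ordAt_ne_zero x₀).subset (fun v hv => by
      simp only [Set.mem_ofPred_eq, ne_eq] at hv ⊢
      intro h
      apply hv
      rw [h]
      simp))
    (fun z hz => by
      obtain ⟨v, hvR, hvs, hv⟩ := hx₀ z hz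
      exact ⟨v, ⟨hvR, hvs⟩, hv⟩)
  exact ⟨v₀, hv₀.1, hv₀.2, fun x hx hx' => hv₀' x hx (fun v hv hne => hx' v hv.1 hv.2 hne)⟩

end Assembly

/-! ## The good set `S` -/

section GoodSet

variable (F E : Type) [Field F] [NumberField F] [Field E] [NumberField E] [Algebra F E]

omit [NumberField F] [NumberField E] in
theorem isAbove_iff (S : Finset (HeightOneSpectrum (𝓞 F)))
    (S' : Finset (HeightOneSpectrum (𝓞 E))) :
    IsAbove F E S S' ↔ ∀ w : HeightOneSpectrum (𝓞 E), w ∈ S' ↔ w.under (𝓞 F) ∈ S := by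
  refine forall_congr' fun w => ?_
  constructor
  · intro h
    rw [h]
    constructor
    · rintro ⟨v, hv, hvw⟩
      have : v = w.under (𝓞 F) := HeightOneSpectrum.ext hvw
      rwa [← this]
    · intro hw
      exact ⟨w.under (𝓞 F), hw, rfl⟩
  · intro h
    rw [h]
    constructor
    · intro hw
      exact ⟨w.under (𝓞 F), hw, rfl⟩
    · rintro ⟨v, hv, hvw⟩
      have : v = w.under (𝓞 F) := HeightOneSpectrum.ext hvw
      rwa [← this]

/-- The primes of `E` above a given prime of `F` are finitely many. -/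
theorem finite_under_eq (v : HeightOneSpectrum (𝓞 F)) :
    {w : HeightOneSpectrum (𝓞 E) | w.under (𝓞 F) = v}.Finite := by
  have hfin : (v.asIdeal.primesOver (𝓞 E)).Finite :=
    IsDedekindDomain.primesOver_finite v.asIdeal (𝓞 E)
  have hinj : Function.Injective
      (fun w : HeightOneSpectrum (𝓞 E) => w.asIdeal) := fun w w' h => HeightOneSpectrum.ext h
  refine (hfin.preimage hinj.injOn).subset ?_
  intro w hw
  simp only [Set.mem_ofPred_eq] at hw
  refine ⟨w.isPrime, ⟨?_⟩⟩
  rw [← hw]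
  rfl

/-- For every finite set `S` of primes of `F` there is the finite set of the primes of `E`
above `S`. -/
theorem exists_isAbove (S : Finset (HeightOneSpectrum (𝓞 F))) :
    ∃ S' : Finset (HeightOneSpectrum (𝓞 E)), IsAbove F E S S' := by
  classical
  have hfin : {w : HeightOneSpectrum (𝓞 E) | w.under (𝓞 F) ∈ S}.Finite := by
    have : {w : HeightOneSpectrum (𝓞 E) | w.under (𝓞 F) ∈ S}
        = ⋃ v ∈ S, {w : HeightOneSpectrum (𝓞 E) | w.under (𝓞 F) = v} := by
      ext w
      simp
    rw [this]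
    exact S.finite_toSet.biUnion (fun v _ => finite_under_eq F E v)
  refine ⟨hfin.toFinset, (isAbove_iff F E S _).2 fun w => ?_⟩
  rw [Set.Finite.mem_toFinset]
  rfl

/-- **(S)** from the class-group generation statements of `F` and `E`. -/
theorem goodSet (hF : helper1892.Stmt_ClassGen F) (hE : helper1892.Stmt_ClassGen E) :
    Stmt_GoodSet F E := by
  classical
  intro S₀
  obtain ⟨SF, hSF, hgF⟩ := hF S₀
  obtain ⟨SE, -, hgE⟩ := hE ∅
  set S : Finset (HeightOneSpectrum (𝓞 F)) := SF ∪ SE.image (fun w => w.under (𝓞 F)) with hS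
  obtain ⟨S', hS'⟩ := exists_isAbove F E S
  refine ⟨S, S', hSF.trans Finset.subset_union_left, hS', hgF.mono Finset.subset_union_left,
    hgE.mono ?_⟩
  intro w hw
  rw [(isAbove_iff F E S S').1 hS' w, hS]
  exact Finset.mem_union_right _ (Finset.mem_image_of_mem _ hw)

end GoodSet

/-! ## From the extension form to `helper1892.Stmt_M5` -/

/-- **Kummer dictionary + extension form ⟹ M5** (the `Fˣ`-form of the first inequality). -/
theorem stmt_M5_of (F : Type) [Field F] [NumberField F] (p : ℕ)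
    (hD : Stmt_KummerDict F p)
    (hFI : ∀ (E : Type) [Field E] [NumberField E] [Algebra F E] [IsGalois F E],
      Module.finrank F E = p → Stmt_FIExtAt F E p) :
    helper1892.Stmt_M5 F p := by
  classical
  intro b hb hloc
  obtain ⟨E, _, _, _, _, hdeg, hdict⟩ := hD b hb hloc
  have hfin : {v : HeightOneSpectrum (𝓞 F) | ¬ (p : ℤ) ∣ ordAt v b}.Finite := by
    refine (finite_ordAt_ne_zero b).subset ?_
    intro v hv
    simp only [Set.mem_ofPred_eq] at hv ⊢
    intro h0
    exact hv (by rw [h0]; exact dvd_zero _)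
  have hR : ∀ v, v ∈ hfin.toFinset ↔ v.asIdeal.ramificationIdxIn (𝓞 E) ≠ 1 := by
    intro v
    rw [Set.Finite.mem_toFinset]
    constructor
    · intro hv
      exact (hdict v).1 hv
    · intro hv hdvd
      exact hv ((hdict v).2 hdvd).1
  have hRp : ∀ v ∈ hfin.toFinset, (p : 𝓞 F) ∉ v.asIdeal := by
    intro v hv hpv
    rw [Set.Finite.mem_toFinset] at hv
    exact hv (dvd_ordAt_of_locPow (hloc v hpv))
  obtain ⟨v₀, hv₀R, hv₀s, hv₀⟩ := hFI E hdeg hfin.toFinset hR hRp
  have hdvd₀ : (p : ℤ) ∣ ordAt v₀ b := by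
    by_contra h
    exact hv₀R (hfin.mem_toFinset.mpr h)
  refine ⟨v₀, hdvd₀, fun hlp => hv₀s (((hdict v₀).2 hdvd₀).2.2 hlp), fun x hx1 hx2 => ?_⟩
  refine hv₀ x (fun v hv => hx1 v (hfin.mem_toFinset.mp hv)) (fun v hvR hvs hne => ?_)
  have hdvd : (p : ℤ) ∣ ordAt v b := by
    by_contra h
    exact hvR (hfin.mem_toFinset.mpr h)
  exact hx2 v hdvd hne (fun hlp => hvs (((hdict v).2 hdvd).2.2 hlp))

end

end Fermat.Agent.S14.helper165
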