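/-
S14 moonshot, module M6, leaf CLASSGEN (board row 511; architect helper1892):
every finite set of places of a number field is contained in a finite set `S` of places
generating the class group (`Stmt_ClassGen F`).
-/
import Mathlib
import Fermat.Agent.S14.helper1892_M6Defs

set_option autoImplicit false

open IsDedekindDomain NumberField WithZero
open scoped nonZeroDivisors

namespace Fermat.Agent.S14.helper175

open Fermat.Agent.S14.helper1892

noncomputable section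

variable {F : Type*} [Field F] [NumberField F]

/-- The valuation of a nonzero integer `x₀` with `(x₀) = v₁ * J`, `v₁ ∤ J`, at `v₁` is `exp (-1)`. -/
theorem intValuation_eq_exp_neg_one (v₁ : HeightOneSpectrum (𝓞 F)) (J : Ideal (𝓞 F))
    (hJ : ¬ v₁.asIdeal ∣ J) (x₀ : 𝓞 F) (hx₀ : x₀ ≠ 0)
    (hx : v₁.asIdeal * J = Ideal.span {x₀}) :
    v₁.intValuation x₀ = WithZero.exp (-1 : ℤ) := by
  have h1 : v₁.intValuation x₀ ≤ WithZero.exp (-((1 : ℕ) : ℤ)) := by
    rw [v₁.intValuation_le_pow_iff_dvd, pow_one, ← hx]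
    exact Dvd.intro _ rfl
  have h2 : ¬ v₁.intValuation x₀ ≤ WithZero.exp (-((2 : ℕ) : ℤ)) := by
    rw [v₁.intValuation_le_pow_iff_dvd, ← hx, pow_two]
    intro hdvd
    exact hJ ((mul_dvd_mul_iff_left v₁.ne_bot).mp hdvd)
  have h0 : v₁.intValuation x₀ ≠ 0 := v₁.intValuation_ne_zero x₀ hx₀
  obtain ⟨k, hk⟩ : ∃ k : ℤ, v₁.intValuation x₀ = WithZero.exp k := by
    refine ⟨WithZero.log (v₁.intValuation x₀), ?_⟩
    rw [WithZero.exp_log h0]
  rw [hk] at h1 h2 ⊢
  rw [WithZero.exp_le_exp] at h1 h2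
  congr 1
  push_cast at h1 h2
  omega

/-- The valuation of `x₀` with `(x₀) = v₁ * J` at a place `v ≠ v₁` not dividing `J` is `1`. -/
theorem intValuation_eq_one_of_not_dvd (v₁ v : HeightOneSpectrum (𝓞 F)) (J : Ideal (𝓞 F))
    (hJ : ¬ v.asIdeal ∣ J) (hne : v ≠ v₁) (x₀ : 𝓞 F)
    (hx : v₁.asIdeal * J = Ideal.span {x₀}) :
    v.intValuation x₀ = 1 := by
  refine le_antisymm (v.intValuation_le_one x₀) (not_lt.mp ?_)
  rw [v.intValuation_lt_one_iff_dvd, ← hx]
  intro hdvd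
  have hprime : Prime v.asIdeal := v.prime
  rcases hprime.dvd_or_dvd hdvd with h | h
  · -- `v ∣ v₁` forces `v = v₁`
    apply hne
    have hle : v₁.asIdeal ≤ v.asIdeal := Ideal.le_of_dvd h
    have hmax : v₁.asIdeal.IsMaximal := v₁.isMaximal
    have hv : v.asIdeal ≠ ⊤ := v.isPrime.ne_top
    exact HeightOneSpectrum.ext (hmax.eq_of_le hv hle).symm
  · exact hJ h

open Classical in
/-- **Leaf CLASSGEN**: every finite set of places is contained in a finite set of places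
generating the class group. -/
theorem classGen : Stmt_ClassGen F := by
  intro S₀
  -- representatives of the ideal classes
  have hrep : ∀ c : ClassGroup (𝓞 F), ∃ J : (Ideal (𝓞 F))⁰, ClassGroup.mk0 J = c :=
    fun c => ClassGroup.mk0_surjective c
  choose J hJ using hrep
  have hJne : ∀ c, (J c : Ideal (𝓞 F)) ≠ 0 := fun c => nonZeroDivisors.coe_ne_zero (J c)
  have hfin : ∀ c, {v : HeightOneSpectrum (𝓞 F) | v.asIdeal ∣ (J c : Ideal (𝓞 F))}.Finite :=
    fun c => Ideal.finite_factors (hJne c)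
  refine ⟨S₀ ∪ Finset.univ.biUnion (fun c => (hfin c).toFinset), Finset.subset_union_left, ?_⟩
  intro v₁ hv₁
  have hv₁' : ∀ c, ¬ v₁.asIdeal ∣ (J c : Ideal (𝓞 F)) := by
    intro c hdvd
    apply hv₁
    refine Finset.mem_union_right _ (Finset.mem_biUnion.mpr ⟨c, Finset.mem_univ c, ?_⟩)
    simpa using hdvd
  -- the class of `v₁⁻¹`
  have hv₁mem : v₁.asIdeal ∈ (Ideal (𝓞 F))⁰ := mem_nonZeroDivisors_of_ne_zero v₁.ne_bot
  set c : ClassGroup (𝓞 F) := (ClassGroup.mk0 ⟨v₁.asIdeal, hv₁mem⟩)⁻¹ with hc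
  have hcl : ClassGroup.mk0 (⟨v₁.asIdeal, hv₁mem⟩ : (Ideal (𝓞 F))⁰) = (ClassGroup.mk0 (J c))⁻¹ := by
    rw [hJ c, hc, inv_inv]
  obtain ⟨x₀, hx₀, hx⟩ := ClassGroup.mk0_eq_mk0_inv_iff.mp hcl
  have hx' : v₁.asIdeal * (J c : Ideal (𝓞 F)) = Ideal.span {x₀} := hx
  have hxF : (algebraMap (𝓞 F) F x₀) ≠ 0 := by
    simpa using hx₀
  refine ⟨Units.mk0 (algebraMap (𝓞 F) F x₀) hxF, ?_, ?_⟩
  · rw [Units.val_mk0, HeightOneSpectrum.valuation_of_algebraMap]
    exact intValuation_eq_exp_neg_one v₁ _ (hv₁' c) x₀ hx₀ hx'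
  · intro v hv hne
    rw [Units.val_mk0, HeightOneSpectrum.valuation_of_algebraMap]
    refine intValuation_eq_one_of_not_dvd v₁ v _ ?_ hne x₀ hx'
    intro hdvd
    apply hv
    refine Finset.mem_union_right _ (Finset.mem_biUnion.mpr ⟨c, Finset.mem_univ c, ?_⟩)
    simpa using hdvd

end

end Fermat.Agent.S14.helper175
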