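/-
S14 moonshot, module M4 (seat helper2501): HERBRAND QUOTIENT for a cyclic group of prime order,
in elementary "index" language (no group cohomology).  Mathlib only.

Main result `herbrand_prime_cyclic`: for a finitely generated abelian group `M` with an
endomorphism `σ`, `σ ^ p = 1` (`p` prime), `D = 1 - σ`, `N = 1 + σ + ... + σ^(p-1)`:
  `[ker D : im N] * p^b = [ker N : im D] * p^a`,
where `a = rank (ker D) = rank M^σ` and `rank M = a + (p-1) * b`; both indices are finite.
-/
import Mathlib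

set_option autoImplicit false

namespace Fermat.Agent.S14.helper2501

open AddSubgroup Polynomial Finset

section general

variable {M : Type*} [AddCommGroup M]

/-- **Restricted-index form of the Herbrand quotient.**  For endomorphisms `f`, `g` with
`f ∘ g = 0 = g ∘ f`:
`[ker f : im g] * [ker g : f (ker g)] = [ker g : im f] * [ker f : g (ker f)]`
(unconditionally, with the convention index `0` = infinite). -/
theorem relIndex_mul_relIndex_restricted (f g : M →+ M) (hfg : ∀ x, f (g x) = 0)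
    (hgf : ∀ x, g (f x) = 0) :
    g.range.relIndex f.ker * (g.ker.map f).relIndex g.ker =
      f.range.relIndex g.ker * (f.ker.map g).relIndex f.ker := by
  have hf : f.range ≤ g.ker := by
    rintro _ ⟨x, rfl⟩; exact hgf x
  have hg : g.range ≤ f.ker := by
    rintro _ ⟨x, rfl⟩; exact hfg x
  have key : ∀ (u v : M →+ M), u.range ≤ v.ker →
      (v.ker.map u).relIndex v.ker = (v.ker ⊔ u.ker).index * u.range.relIndex v.ker := by
    intro u v huv
    rw [← relIndex_mul_relIndex (v.ker.map u) u.range v.ker (map_le_range u _) huv]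
    congr 1
    rw [AddMonoidHom.range_eq_map, relIndex_map_map, top_sup_eq, relIndex_top_right]
  rw [key f g hf, key g f hg, sup_comm g.ker f.ker]
  ring

/-- **Index of a composition.**  For endomorphisms `φ`, `ψ` of an abelian group:
`[L : φψL] * #ker φ * #ker ψ = [L : φL] * [L : ψL] * #ker (φψ)` (unconditionally). -/
theorem index_range_comp (φ ψ : M →+ M) :
    (φ.comp ψ).range.index * Nat.card φ.ker * Nat.card ψ.ker =
      φ.range.index * ψ.range.index * Nat.card (φ.comp ψ).ker := by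
  have h1 : (φ.comp ψ).range.index = (ψ.range ⊔ φ.ker).index * φ.range.index := by
    rw [AddMonoidHom.range_comp, index_map]
  have h2 : ψ.range.index = ψ.range.relIndex φ.ker * (ψ.range ⊔ φ.ker).index := by
    rw [← relIndex_sup_left φ.ker ψ.range, relIndex_mul_index le_sup_left]
  have h3 : Nat.card φ.ker = Nat.card ↥(ψ.range ⊓ φ.ker) * ψ.range.relIndex φ.ker := by
    rw [← inf_relIndex_right ψ.range φ.ker, ← relIndex_bot_left, ← relIndex_bot_left,
      relIndex_mul_relIndex _ _ _ bot_le inf_le_right]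
  have h4 : Nat.card (φ.comp ψ).ker = Nat.card ψ.ker * Nat.card ↥(ψ.range ⊓ φ.ker) := by
    have hle : ψ.ker ≤ (φ.comp ψ).ker := by
      intro x hx
      rw [AddMonoidHom.mem_ker] at hx ⊢
      simp [hx]
    rw [← map_comap_eq, AddMonoidHom.comap_ker, ← relIndex_ker, ← relIndex_bot_left,
      ← relIndex_bot_left, relIndex_mul_relIndex _ _ _ bot_le hle]
  rw [h1, h2, h3, h4]
  ring

/-- "Fredholm": finite kernel and finite cokernel. -/
def Fred (φ : M →+ M) : Prop := φ.range.index ≠ 0 ∧ Nat.card φ.ker ≠ 0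

theorem Fred.comp {φ ψ : M →+ M} (hφ : Fred φ) (hψ : Fred ψ) : Fred (φ.comp ψ) := by
  have hk : Nat.card (φ.comp ψ).ker ≠ 0 := by
    have h4 : Nat.card (φ.comp ψ).ker = Nat.card ψ.ker * Nat.card ↥(ψ.range ⊓ φ.ker) := by
      have hle : ψ.ker ≤ (φ.comp ψ).ker := by
        intro x hx
        rw [AddMonoidHom.mem_ker] at hx ⊢
        simp [hx]
      rw [← map_comap_eq, AddMonoidHom.comap_ker, ← relIndex_ker, ← relIndex_bot_left,
        ← relIndex_bot_left, relIndex_mul_relIndex _ _ _ bot_le hle]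
    rw [h4]
    refine mul_ne_zero hψ.2 ?_
    have hfin : Finite φ.ker := (Nat.card_ne_zero.mp hφ.2).2
    have : Finite ↥(ψ.range ⊓ φ.ker) :=
      Finite.of_injective (AddSubgroup.inclusion (inf_le_right : ψ.range ⊓ φ.ker ≤ φ.ker))
        (AddSubgroup.inclusion_injective _)
    exact Nat.card_pos.ne'
  refine ⟨?_, hk⟩
  have h := index_range_comp φ ψ
  intro h0
  rw [h0, zero_mul, zero_mul] at h
  exact (mul_ne_zero (mul_ne_zero hφ.1 hψ.1) hk) h.symm

theorem Fred.of_comp_left {φ ψ : M →+ M} (h : Fred (φ.comp ψ)) : φ.range.index ≠ 0 := by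
  have hle : (φ.comp ψ).range ≤ φ.range := by
    rintro _ ⟨x, rfl⟩; exact ⟨ψ x, rfl⟩
  intro h0
  exact h.1 (Nat.eq_zero_of_zero_dvd (h0 ▸ index_dvd_of_le hle))

theorem Fred.of_comp_right {φ ψ : M →+ M} (h : Fred (φ.comp ψ)) : Nat.card ψ.ker ≠ 0 := by
  have hle : ψ.ker ≤ (φ.comp ψ).ker := by
    intro x hx
    rw [AddMonoidHom.mem_ker] at hx ⊢
    simp [hx]
  have hfin : Finite (φ.comp ψ).ker := (Nat.card_ne_zero.mp h.2).2
  have : Finite ψ.ker :=
    Finite.of_injective (AddSubgroup.inclusion hle) (AddSubgroup.inclusion_injective _)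
  exact Nat.card_pos.ne'

theorem Fred.of_bijective {φ : M →+ M} (h : Function.Bijective φ) :
    φ.range.index = 1 ∧ Nat.card φ.ker = 1 := by
  constructor
  · rw [AddMonoidHom.range_eq_top.mpr h.2, index_top]
  · rw [(AddMonoidHom.ker_eq_bot_iff φ).mpr h.1]
    simp

/-- Restriction of an endomorphism to a stable subgroup. -/
def restr (S : AddSubgroup M) (u : M →+ M) (hS : ∀ x ∈ S, u x ∈ S) : S →+ S :=
  (u.comp S.subtype).codRestrict S (fun x => hS x x.2)

@[simp] theorem coe_restr (S : AddSubgroup M) (u : M →+ M) (hS : ∀ x ∈ S, u x ∈ S) (x : S) :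
    ((restr S u hS x : S) : M) = u x := rfl

theorem addSubgroupOf_map_eq_range_restr (S : AddSubgroup M) (u : M →+ M)
    (hS : ∀ x ∈ S, u x ∈ S) : (S.map u).addSubgroupOf S = (restr S u hS).range := by
  ext ⟨x, hx⟩
  simp only [mem_addSubgroupOf, AddMonoidHom.mem_range]
  constructor
  · rintro ⟨y, hy, rfl⟩
    exact ⟨⟨y, hy⟩, rfl⟩
  · rintro ⟨⟨y, hy⟩, h⟩
    exact ⟨y, hy, congrArg Subtype.val h⟩

theorem relIndex_map_eq_index_range_restr (S : AddSubgroup M) (u : M →+ M)
    (hS : ∀ x ∈ S, u x ∈ S) : (S.map u).relIndex S = (restr S u hS).range.index := by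
  rw [relIndex, addSubgroupOf_map_eq_range_restr]

theorem card_ker_restr (S : AddSubgroup M) (u : M →+ M) (hS : ∀ x ∈ S, u x ∈ S) :
    Nat.card (restr S u hS).ker = Nat.card ↥(u.ker ⊓ S) := by
  have h1 : ∀ x : (restr S u hS).ker, (x.1.1 : M) ∈ u.ker ⊓ S := by
    intro x
    refine ⟨?_, x.1.2⟩
    have := x.2
    rw [AddMonoidHom.mem_ker] at this
    exact (AddMonoidHom.mem_ker).mpr (congrArg Subtype.val this)
  have h2 : ∀ x : ↥(u.ker ⊓ S), (⟨x.1, x.2.2⟩ : S) ∈ (restr S u hS).ker := by
    intro x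
    have : (x.1 : M) ∈ u.ker := x.2.1
    rw [AddMonoidHom.mem_ker] at this
    exact (AddMonoidHom.mem_ker).mpr (Subtype.ext this)
  exact Nat.card_congr
    { toFun := fun x => ⟨x.1.1, h1 x⟩
      invFun := fun x => ⟨⟨x.1, x.2.2⟩, h2 x⟩
      left_inv := fun x => rfl
      right_inv := fun x => rfl }

theorem finite_addSubgroup [Module.Finite ℤ M] (S : AddSubgroup M) : Module.Finite ℤ S :=
  Module.Finite.equiv (M := S.toIntSubmodule)
    (AddEquiv.toIntLinearEquiv
      { toFun := fun x => ⟨x.1, x.2⟩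
        invFun := fun x => ⟨x.1, x.2⟩
        left_inv := fun _ => rfl
        right_inv := fun _ => rfl
        map_add' := fun _ _ => rfl })

theorem finrank_eq_of_carrier_eq (S : AddSubgroup M) (T : Submodule ℤ M)
    (h : ∀ x, x ∈ S ↔ x ∈ T) : Module.finrank ℤ S = Module.finrank ℤ T :=
  LinearEquiv.finrank_eq
    (AddEquiv.toIntLinearEquiv
      { toFun := fun x => ⟨x.1, (h x.1).1 x.2⟩
        invFun := fun x => ⟨x.1, (h x.1).2 x.2⟩
        left_inv := fun _ => rfl
        right_inv := fun _ => rfl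
        map_add' := fun _ _ => rfl })

end general

section fg

theorem index_range_nsmul_fg (L : Type*) [AddCommGroup L] [Module.Finite ℤ L] (n : ℕ) (hn : n ≠ 0) :
    (nsmulAddMonoidHom (α := L) n).range.index =
      n ^ Module.finrank ℤ L * Nat.card (nsmulAddMonoidHom (α := L) n).ker := by
  classical
  set ν : L →+ L := nsmulAddMonoidHom (α := L) n with hν
  set T : AddSubgroup L := (Submodule.torsion ℤ L).toAddSubgroup with hT
  let F := L ⧸ Submodule.torsion ℤ L
  let π : L →+ F := (Submodule.torsion ℤ L).mkQ.toAddMonoidHom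
  have hπker : π.ker = T := by
    ext x
    rw [AddMonoidHom.mem_ker]
    exact Submodule.Quotient.mk_eq_zero _
  have hπsurj : Function.Surjective π := (Submodule.torsion ℤ L).mkQ_surjective
  have hTfin : Finite T := by
    have : Finite (Submodule.torsion ℤ L) :=
      Module.finite_of_fg_torsion _ Submodule.torsion_isTorsion
    exact this
  -- step a/b: index of `nL ⊔ T`
  have hab : (ν.range ⊔ T).index = n ^ Module.finrank ℤ L := by
    have h1 : (ν.range.map π).index = (ν.range ⊔ T).index := by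
      rw [index_map, hπker, AddMonoidHom.range_eq_top.mpr hπsurj, index_top, mul_one]
    have h2 : ν.range.map π = (nsmulAddMonoidHom (α := F) n).range := by
      rw [AddMonoidHom.map_range]
      have : π.comp ν = (nsmulAddMonoidHom (α := F) n).comp π := by
        ext x; simp [hν]
      rw [this, AddMonoidHom.range_comp, AddMonoidHom.range_eq_top.mpr hπsurj,
        ← AddMonoidHom.range_eq_map]
    rw [← h1, h2, AddSubgroup.index_range_nsmul F n]
    congr 1
    exact finrank_quotient_eq_of_le_torsion le_rfl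
  -- step c
  have hc : ν.range.index = ν.range.relIndex T * (ν.range ⊔ T).index := by
    rw [← relIndex_sup_left T ν.range, relIndex_mul_index le_sup_left]
  -- step d
  have hkerT : ν.ker ≤ T := by
    intro x hx
    rw [AddMonoidHom.mem_ker] at hx
    simp only [hT, Submodule.mem_toAddSubgroup, Submodule.mem_torsion_iff]
    refine ⟨⟨(n : ℤ), by simpa using hn⟩, ?_⟩
    simpa [hν] using hx
  have hinf : ν.range ⊓ T = T.map ν := by
    apply le_antisymm
    · rintro x ⟨⟨y, rfl⟩, hx⟩
      refine ⟨y, ?_, rfl⟩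
      simp only [hT, Submodule.coe_toAddSubgroup, SetLike.mem_coe, Submodule.mem_torsion_iff] at hx ⊢
      obtain ⟨a, ha⟩ := hx
      refine ⟨⟨(a : ℤ) * n, ?_⟩, ?_⟩
      · have := a.2
        simp only [mem_nonZeroDivisors_iff_ne_zero] at this ⊢
        exact mul_ne_zero this (by exact_mod_cast hn)
      · simp only [hν, nsmulAddMonoidHom_apply] at ha
        rw [Submonoid.smul_def] at ha ⊢
        simp only [mul_smul]
        simpa using ha
    · rintro _ ⟨y, hy, rfl⟩
      refine ⟨⟨y, rfl⟩, ?_⟩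
      simp only [hν, nsmulAddMonoidHom_apply]
      exact T.nsmul_mem hy n
  have hd : ν.range.relIndex T = Nat.card ν.ker := by
    rw [← inf_relIndex_right, hinf]
    have e1 : Nat.card ν.ker * Nat.card (T.map ν) = Nat.card T := by
      rw [← relIndex_ker, ← relIndex_bot_left, ← relIndex_bot_left,
        relIndex_mul_relIndex _ _ _ bot_le hkerT]
    have e2 : Nat.card (T.map ν) * (T.map ν).relIndex T = Nat.card T := by
      have hle : T.map ν ≤ T := by rw [← hinf]; exact inf_le_right
      rw [← relIndex_bot_left, ← relIndex_bot_left, relIndex_mul_relIndex _ _ _ bot_le hle]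
    have hpos : Nat.card (T.map ν) ≠ 0 := by
      have : Finite (T.map ν) := by
        have hle : T.map ν ≤ T := by rw [← hinf]; exact inf_le_right
        exact Finite.of_injective (AddSubgroup.inclusion hle) (AddSubgroup.inclusion_injective hle)
      exact Nat.card_pos.ne'
    have : Nat.card (T.map ν) * (T.map ν).relIndex T = Nat.card (T.map ν) * Nat.card ν.ker := by
      rw [e2, ← e1, mul_comm]
    exact Nat.eq_of_mul_eq_mul_left (Nat.pos_of_ne_zero hpos) this
  rw [hc, hd, hab, mul_comm]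


theorem fred_nsmul (L : Type*) [AddCommGroup L] [Module.Finite ℤ L] (n : ℕ) (hn : n ≠ 0) :
    Fred (nsmulAddMonoidHom (α := L) n) ∧
    (nsmulAddMonoidHom (α := L) n).range.index =
      n ^ Module.finrank ℤ L * Nat.card (nsmulAddMonoidHom (α := L) n).ker := by
  have hT : Finite (Submodule.torsion ℤ L) :=
    Module.finite_of_fg_torsion _ Submodule.torsion_isTorsion
  have hmem : ∀ x : (nsmulAddMonoidHom (α := L) n).ker, (x : L) ∈ Submodule.torsion ℤ L := by
    intro x
    have hx := x.2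
    rw [AddMonoidHom.mem_ker] at hx
    rw [Submodule.mem_torsion_iff]
    refine ⟨⟨(n : ℤ), by simpa using hn⟩, ?_⟩
    simpa using hx
  have hfin : Finite (nsmulAddMonoidHom (α := L) n).ker :=
    Finite.of_injective (fun x => (⟨x.1, hmem x⟩ : Submodule.torsion ℤ L))
      (fun a b h => Subtype.ext (by simpa using congrArg Subtype.val h))
  have hk : Nat.card (nsmulAddMonoidHom (α := L) n).ker ≠ 0 := Nat.card_pos.ne'
  have hI := index_range_nsmul_fg L n hn
  exact ⟨⟨by rw [hI]; exact mul_ne_zero (pow_ne_zero _ hn) hk, hk⟩, hI⟩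

end fg

/-- Transfer principle: a polynomial identity over `ℤ` that holds at a primitive `p`-th root of
unity in `ℂ` holds at every element `s` of any ring with `1 + s + ... + s^(p-1) = 0`. -/
theorem aeval_eq_zero_of_geom_sum_eq_zero (p : ℕ) [hp : Fact p.Prime] (P : ℤ[X])
    (hP : ∀ ζ : ℂ, IsPrimitiveRoot ζ p → aeval ζ P = 0)
    {A : Type*} [Ring A] (s : A) (hs : ∑ i ∈ range p, s ^ i = 0) : aeval s P = 0 := by
  have hp0 : p ≠ 0 := hp.out.ne_zero
  have hζ := Complex.isPrimitiveRoot_exp p hp0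
  have hmin : cyclotomic p ℤ = minpoly ℤ (Complex.exp (2 * Real.pi * Complex.I / p)) :=
    cyclotomic_eq_minpoly hζ hp.out.pos
  have hdvd : cyclotomic p ℤ ∣ P := by
    rw [hmin]
    exact minpoly.isIntegrallyClosed_dvd (hζ.isIntegral hp.out.pos) (hP _ hζ)
  obtain ⟨Q, rfl⟩ := hdvd
  rw [map_mul, cyclotomic_prime]
  simp [hs]

/-- the polynomial `u = ∏_{k < p-1} (1 + X + ... + X^k)` -/
noncomputable def uPoly (p : ℕ) : ℤ[X] := ∏ k ∈ range (p - 1), ∑ i ∈ range (k + 1), X ^ i

theorem uPoly_spec (p : ℕ) [hp : Fact p.Prime] (ζ : ℂ) (hζ : IsPrimitiveRoot ζ p) :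
    aeval ζ ((1 - X) ^ (p - 1) * uPoly p - C (p : ℤ)) = 0 := by
  have hp1 : p - 1 + 1 = p := Nat.sub_add_cancel hp.out.one_le
  have hζ' : IsPrimitiveRoot ζ (p - 1 + 1) := by rwa [hp1]
  have h := hζ'.prod_one_sub_pow_eq_order
  simp only [uPoly, map_sub, map_mul, map_pow, map_one, aeval_X, map_prod, map_sum, aeval_C]
  have : (1 - ζ) ^ (p - 1) * ∏ k ∈ range (p - 1), ∑ i ∈ range (k + 1), ζ ^ i =
      ∏ k ∈ range (p - 1), (1 - ζ ^ (k + 1)) := by
    have hc : (1 - ζ) ^ (p - 1) = ∏ _k ∈ range (p - 1), (1 - ζ) := by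
      rw [Finset.prod_const, Finset.card_range]
    rw [hc, ← Finset.prod_mul_distrib]
    refine Finset.prod_congr rfl fun k _ => ?_
    rw [mul_neg_geom_sum]
  rw [this, h]
  have : ((p - 1 : ℕ) : ℂ) + 1 = (p : ℂ) := by
    exact_mod_cast congrArg (Nat.cast : ℕ → ℂ) hp1
  simp [this]

theorem exists_vPoly (p : ℕ) [hp : Fact p.Prime] :
    ∃ v : ℤ[X], ∀ ζ : ℂ, IsPrimitiveRoot ζ p → aeval ζ (uPoly p * v - 1) = 0 := by
  have hp2 : 2 ≤ p := hp.out.two_le
  have key : ∀ k ∈ range (p - 1), ∃ h : ℤ[X], ∀ ζ : ℂ, IsPrimitiveRoot ζ p →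
      aeval ζ ((∑ i ∈ range (k + 1), X ^ i) * h) = 1 := by
    intro k hk
    have hk' : k + 1 < p := by have := mem_range.mp hk; omega
    have hcop : (k + 1).Coprime p :=
      ((Nat.Prime.coprime_iff_not_dvd hp.out).mpr
        (Nat.not_dvd_of_pos_of_lt (Nat.succ_pos k) hk')).symm
    obtain ⟨m, -, hm⟩ := Nat.exists_mul_mod_eq_one_of_coprime hcop (by omega : 1 < p)
    refine ⟨∑ i ∈ range m, (X ^ (k + 1)) ^ i, fun ζ hζ => ?_⟩
    have hζ1 : ζ ≠ 1 := hζ.ne_one (by omega)
    have h1 : (1 - ζ) ≠ 0 := sub_ne_zero.mpr (Ne.symm hζ1)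
    simp only [map_mul, map_sum, map_pow, aeval_X]
    apply mul_left_cancel₀ h1
    rw [← mul_assoc, mul_neg_geom_sum, mul_neg_geom_sum, ← pow_mul, mul_one]
    have : ζ ^ ((k + 1) * m) = ζ := by
      rw [← Nat.mod_add_div ((k + 1) * m) p, hm, pow_add, pow_mul, hζ.pow_eq_one]
      simp
    rw [this]
  choose! h hh using key
  refine ⟨∏ k ∈ range (p - 1), h k, fun ζ hζ => ?_⟩
  simp only [uPoly, map_sub, map_mul, map_one, map_prod]
  rw [← Finset.prod_mul_distrib, sub_eq_zero]
  refine Finset.prod_eq_one fun k hk => ?_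
  have := hh k hk ζ hζ
  simpa only [map_mul] using this

/-- arithmetic: `x^(q) = p^r * y^q` with `q ≠ 0`, `y ≠ 0` forces `x = p^b * y`, `r = q * b`. -/
theorem arith_aux {p : ℕ} (hp : p.Prime) {x y q r : ℕ} (hq : q ≠ 0) (hy : y ≠ 0)
    (h : x ^ q = p ^ r * y ^ q) : ∃ b, r = q * b ∧ x = p ^ b * y := by
  have hdvd : y ∣ x := by
    rw [← Nat.pow_dvd_pow_iff hq, h]
    exact dvd_mul_left _ _
  obtain ⟨t, rfl⟩ := hdvd
  rw [mul_pow, mul_comm (p ^ r)] at h
  have ht : t ^ q = p ^ r := Nat.eq_of_mul_eq_mul_left (pow_pos (Nat.pos_of_ne_zero hy) q) h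
  have htd : t ∣ p ^ r := by
    rw [← ht]; exact dvd_pow_self t hq
  obtain ⟨b, -, rfl⟩ := (Nat.dvd_prime_pow hp).mp htd
  rw [← pow_mul] at ht
  have := Nat.pow_right_injective hp.two_le ht
  exact ⟨b, by rw [← this, mul_comm], mul_comm _ _⟩

theorem index_range_one_sub (L : Type*) [AddCommGroup L] [Module.Finite ℤ L] (p : ℕ)
    [hp : Fact p.Prime] (s : AddMonoid.End L) (hs : ∑ i ∈ range p, s ^ i = 0) :
    ∃ b : ℕ, Module.finrank ℤ L = (p - 1) * b ∧ Nat.card (1 - s : AddMonoid.End L).ker ≠ 0 ∧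
      (1 - s : AddMonoid.End L).range.index = p ^ b * Nat.card (1 - s : AddMonoid.End L).ker := by
  classical
  have hp0 : p ≠ 0 := hp.out.ne_zero
  have hp1 : p - 1 ≠ 0 := by have := hp.out.two_le; omega
  set δ : AddMonoid.End L := 1 - s with hδ
  set U : AddMonoid.End L := aeval s (uPoly p) with hU
  obtain ⟨v, hv⟩ := exists_vPoly p
  set V : AddMonoid.End L := aeval s v with hV
  -- the identities in `End L`
  have E1 : δ ^ (p - 1) * U = (p : AddMonoid.End L) := by
    have := aeval_eq_zero_of_geom_sum_eq_zero p _ (uPoly_spec p) s hs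
    simp only [map_sub, map_mul, map_pow, map_one, aeval_X, aeval_C] at this
    rw [sub_eq_zero] at this
    rw [hδ, hU, this]
    simp
  have E2 : U * V = 1 := by
    have := aeval_eq_zero_of_geom_sum_eq_zero p _ hv s hs
    simp only [map_sub, map_mul, map_one] at this
    rw [sub_eq_zero] at this
    exact this
  have E3 : V * U = 1 := by
    have := aeval_eq_zero_of_geom_sum_eq_zero p (v * uPoly p - 1)
      (fun ζ hζ => by rw [mul_comm]; exact hv ζ hζ) s hs
    simp only [map_sub, map_mul, map_one] at this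
    rw [sub_eq_zero] at this
    exact this
  have hUbij : Function.Bijective U := by
    refine ⟨Function.LeftInverse.injective (g := V) fun x => ?_,
      Function.RightInverse.surjective (g := V) fun x => ?_⟩
    · exact congrArg (fun f : AddMonoid.End L => f x) E3
    · exact congrArg (fun f : AddMonoid.End L => f x) E2
  have hVbij : Function.Bijective V := by
    refine ⟨Function.LeftInverse.injective (g := U) fun x => ?_,
      Function.RightInverse.surjective (g := U) fun x => ?_⟩
    · exact congrArg (fun f : AddMonoid.End L => f x) E2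
    · exact congrArg (fun f : AddMonoid.End L => f x) E3
  set ν : L →+ L := nsmulAddMonoidHom (α := L) p with hν
  have hνp : (p : AddMonoid.End L) = ν := by
    ext x; simp [hν]; rfl
  obtain ⟨hνF, hνI⟩ := fred_nsmul L p hp0
  rw [← hν] at hνF hνI
  -- `δ^(p-1) = ν ∘ V`
  have E4 : δ ^ (p - 1) = ν.comp V := by
    have : δ ^ (p - 1) = (δ ^ (p - 1) * U) * V := by rw [mul_assoc, E2, mul_one]
    rw [this, E1, hνp]; rfl
  have hVF : Fred (V : L →+ L) := by
    have := Fred.of_bijective hVbij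
    exact ⟨by rw [this.1]; exact one_ne_zero, by rw [this.2]; exact one_ne_zero⟩
  have hF : Fred (δ ^ (p - 1) : AddMonoid.End L) := by
    rw [E4]; exact hνF.comp hVF
  -- all powers up to `p - 1` are Fredholm
  have hFn : ∀ n ≤ p - 1, Fred (δ ^ n : AddMonoid.End L) := by
    intro n hn
    have e1 : δ ^ (p - 1) = δ ^ n * δ ^ (p - 1 - n) := by rw [← pow_add]; congr 1; omega
    have e2 : δ ^ (p - 1) = δ ^ (p - 1 - n) * δ ^ n := by rw [← pow_add]; congr 1; omega
    refine ⟨?_, ?_⟩
    · have hF' := hF; rw [e1] at hF'; exact Fred.of_comp_left (φ := (δ ^ n : AddMonoid.End L)) hF'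
    · have hF' := hF; rw [e2] at hF'; exact Fred.of_comp_right (ψ := (δ ^ n : AddMonoid.End L)) hF'
  set x := (δ : L →+ L).range.index with hx
  set y := Nat.card (δ : L →+ L).ker with hy
  have hδF : Fred (δ : L →+ L) := by
    have := hFn 1 (by omega)
    rwa [pow_one] at this
  have hy0 : y ≠ 0 := hδF.2
  -- induction
  have hind : ∀ n ≤ p - 1, (δ ^ n : AddMonoid.End L).range.index * y ^ n =
      x ^ n * Nat.card (δ ^ n : AddMonoid.End L).ker := by
    intro n
    induction n with
    | zero =>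
      intro _
      have := Fred.of_bijective (φ := (1 : AddMonoid.End L)) Function.bijective_id
      simp only [pow_zero, mul_one, one_mul]
      rw [this.1, this.2]
    | succ n ih =>
      intro hn
      have ih' := ih (by omega)
      have hc := index_range_comp (δ : L →+ L) (δ ^ n : AddMonoid.End L)
      have e : (δ ^ (n + 1) : AddMonoid.End L) = (δ : L →+ L).comp (δ ^ n : AddMonoid.End L) := by
        rw [pow_succ']; rfl
      rw [← e, ← hx, ← hy] at hc
      have hkn : Nat.card (δ ^ n : AddMonoid.End L).ker ≠ 0 := (hFn n (by omega)).2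
      apply Nat.eq_of_mul_eq_mul_right (Nat.pos_of_ne_zero hkn)
      calc (δ ^ (n + 1) : AddMonoid.End L).range.index * y ^ (n + 1) *
            Nat.card (δ ^ n : AddMonoid.End L).ker
          = ((δ ^ (n + 1) : AddMonoid.End L).range.index * y *
              Nat.card (δ ^ n : AddMonoid.End L).ker) * y ^ n := by ring
        _ = (x * (δ ^ n : AddMonoid.End L).range.index *
              Nat.card (δ ^ (n + 1) : AddMonoid.End L).ker) * y ^ n := by rw [hc]
        _ = x * ((δ ^ n : AddMonoid.End L).range.index * y ^ n) *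
              Nat.card (δ ^ (n + 1) : AddMonoid.End L).ker := by ring
        _ = x ^ (n + 1) * Nat.card (δ ^ (n + 1) : AddMonoid.End L).ker *
              Nat.card (δ ^ n : AddMonoid.End L).ker := by rw [ih']; ring
  have h1 := hind (p - 1) le_rfl
  -- relation with ν
  have hc := index_range_comp ν (V : L →+ L)
  rw [← E4, (Fred.of_bijective hVbij).1, (Fred.of_bijective hVbij).2, mul_one, mul_one] at hc
  -- hc : I(δ^(p-1)) * k(ν) = I(ν) * k(δ^(p-1))
  have hkν : Nat.card ν.ker ≠ 0 := hνF.2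
  have hkδ : Nat.card (δ ^ (p - 1) : AddMonoid.End L).ker ≠ 0 := hF.2
  have h2 : (δ ^ (p - 1) : AddMonoid.End L).range.index =
      p ^ Module.finrank ℤ L * Nat.card (δ ^ (p - 1) : AddMonoid.End L).ker := by
    apply Nat.eq_of_mul_eq_mul_right (Nat.pos_of_ne_zero hkν)
    rw [hc, hνI]; ring
  have h3 : x ^ (p - 1) = p ^ Module.finrank ℤ L * y ^ (p - 1) := by
    apply Nat.eq_of_mul_eq_mul_right (Nat.pos_of_ne_zero hkδ)
    rw [← h1, h2]; ring
  obtain ⟨b, hb1, hb2⟩ := arith_aux hp.out hp1 hy0 h3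
  exact ⟨b, hb1, hy0, hb2⟩


theorem end_sum_apply {M : Type*} [AddCommGroup M] (f : ℕ → AddMonoid.End M) (t : Finset ℕ)
    (x : M) : (∑ i ∈ t, f i) x = ∑ i ∈ t, f i x := by
  classical
  induction t using Finset.induction_on with
  | empty => simp
  | insert a t ha ih => rw [Finset.sum_insert ha, Finset.sum_insert ha, ← ih]; rfl

theorem end_pow_apply_of_fixed {M : Type*} [AddCommGroup M] (σ : AddMonoid.End M) (x : M)
    (hx : σ x = x) (i : ℕ) : (σ ^ i) x = x := by
  induction i with
  | zero => simp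
  | succ i ih =>
    rw [pow_succ]
    show (σ ^ i) (σ x) = x
    rw [hx, ih]

theorem end_geom_sum_apply_of_fixed {M : Type*} [AddCommGroup M] (σ : AddMonoid.End M) (x : M)
    (hx : (1 - σ : AddMonoid.End M) x = 0) (p : ℕ) :
    (∑ i ∈ range p, σ ^ i : AddMonoid.End M) x = p • x := by
  have hσx : σ x = x := by
    have : x - σ x = 0 := hx
    exact (sub_eq_zero.mp this).symm
  rw [end_sum_apply]
  simp [end_pow_apply_of_fixed σ x hσx]


section main

variable (M : Type*) [AddCommGroup M] [Module.Finite ℤ M]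

/-- rank additivity: `rank M = rank (ker D) + rank (ker N)`. -/
theorem finrank_ker_add_finrank_ker (p : ℕ) [hp : Fact p.Prime] (σ : AddMonoid.End M)
    (hσ : σ ^ p = 1) :
    Module.finrank ℤ M = Module.finrank ℤ (1 - σ : AddMonoid.End M).ker +
      Module.finrank ℤ (∑ i ∈ range p, σ ^ i : AddMonoid.End M).ker := by
  set D : AddMonoid.End M := 1 - σ with hD
  set N : AddMonoid.End M := ∑ i ∈ range p, σ ^ i with hN
  have hp0 : p ≠ 0 := hp.out.ne_zero
  have hDN : D * N = 0 := by
    rw [hD, hN, mul_neg_geom_sum, hσ, sub_self]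
  let Nℓ : M →ₗ[ℤ] M := (N : M →+ M).toIntLinearMap
  let Dℓ : M →ₗ[ℤ] M := (D : M →+ M).toIntLinearMap
  have hNσ : ∀ x : M, D x = 0 → N x = p • x := fun x hx =>
    end_geom_sum_apply_of_fixed σ x hx p
  -- rank-nullity for `N`
  have h1 : Module.finrank ℤ (LinearMap.range Nℓ) + Module.finrank ℤ (LinearMap.ker Nℓ) =
      Module.finrank ℤ M := by
    rw [← (LinearMap.ker Nℓ).finrank_quotient_add_finrank, Nℓ.quotKerEquivRange.finrank_eq]
  -- `range N` and `ker D` have the same rank
  have hle : LinearMap.range Nℓ ≤ LinearMap.ker Dℓ := by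
    rintro _ ⟨x, rfl⟩
    rw [LinearMap.mem_ker]
    exact congrArg (fun f : AddMonoid.End M => f x) hDN
  have h2 : Module.finrank ℤ (LinearMap.range Nℓ) = Module.finrank ℤ (LinearMap.ker Dℓ) := by
    apply le_antisymm (Submodule.finrank_mono hle)
    let g : LinearMap.ker Dℓ →ₗ[ℤ] M := Nℓ.domRestrict (LinearMap.ker Dℓ)
    have hg : LinearMap.range g ≤ LinearMap.range Nℓ := by
      rintro _ ⟨x, rfl⟩; exact ⟨x.1, rfl⟩
    have h3 := (LinearMap.ker g).finrank_quotient_add_finrank
    rw [g.quotKerEquivRange.finrank_eq] at h3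
    have h4 : Module.finrank ℤ (LinearMap.ker g) = 0 := by
      rw [Module.finrank_eq_zero_iff_isTorsion]
      rintro ⟨⟨x, hxD⟩, hx⟩
      refine ⟨⟨(p : ℤ), by simpa using hp0⟩, ?_⟩
      rw [LinearMap.mem_ker] at hx hxD
      have hx' : N x = 0 := hx
      rw [hNσ x hxD] at hx'
      apply Subtype.ext
      apply Subtype.ext
      simpa using hx'
    rw [h4, add_zero] at h3
    rw [← h3]
    exact Submodule.finrank_mono hg
  have e1 : Module.finrank ℤ (D : M →+ M).ker = Module.finrank ℤ (LinearMap.ker Dℓ) :=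
    finrank_eq_of_carrier_eq _ _ (fun x => Iff.rfl)
  have e2 : Module.finrank ℤ (N : M →+ M).ker = Module.finrank ℤ (LinearMap.ker Nℓ) :=
    finrank_eq_of_carrier_eq _ _ (fun x => Iff.rfl)
  rw [e1, e2, ← h2, h1]

/-- **Herbrand quotient of a cyclic group of prime order** (index form).
`M` a finitely generated abelian group, `σ ^ p = 1`, `D = 1 - σ`, `N = ∑_{i<p} σ^i`.  Then with
`a = rank (ker D)` and `rank M = a + (p - 1) * b`:
`[ker D : im N] * p ^ b = [ker N : im D] * p ^ a`, and both indices are finite (nonzero). -/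
theorem herbrand_prime_cyclic (p : ℕ) [hp : Fact p.Prime] (σ : AddMonoid.End M)
    (hσ : σ ^ p = 1) :
    ∃ b : ℕ,
      Module.finrank ℤ M = Module.finrank ℤ (1 - σ : AddMonoid.End M).ker + (p - 1) * b ∧
      (∑ i ∈ range p, σ ^ i : AddMonoid.End M).range.relIndex (1 - σ : AddMonoid.End M).ker ≠ 0 ∧
      (1 - σ : AddMonoid.End M).range.relIndex (∑ i ∈ range p, σ ^ i : AddMonoid.End M).ker ≠ 0 ∧
      (∑ i ∈ range p, σ ^ i : AddMonoid.End M).range.relIndex (1 - σ : AddMonoid.End M).ker * p ^ b =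
        (1 - σ : AddMonoid.End M).range.relIndex (∑ i ∈ range p, σ ^ i : AddMonoid.End M).ker *
          p ^ Module.finrank ℤ (1 - σ : AddMonoid.End M).ker := by
  classical
  set D : AddMonoid.End M := 1 - σ with hD
  set N : AddMonoid.End M := ∑ i ∈ range p, σ ^ i with hN
  have hp0 : p ≠ 0 := hp.out.ne_zero
  have hDN : D * N = 0 := by
    rw [hD, hN, mul_neg_geom_sum, hσ, sub_self]
  have hND : N * D = 0 := by
    rw [hD, hN, geom_sum_mul_neg, hσ, sub_self]
  have hDN' : ∀ x, D (N x) = 0 := fun x => congrArg (fun f : AddMonoid.End M => f x) hDN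
  have hND' : ∀ x, N (D x) = 0 := fun x => congrArg (fun f : AddMonoid.End M => f x) hND
  set K : AddSubgroup M := (D : M →+ M).ker with hK
  set Lk : AddSubgroup M := (N : M →+ M).ker with hLk
  have : Module.Finite ℤ K := finite_addSubgroup K
  have : Module.Finite ℤ Lk := finite_addSubgroup Lk
  have hσN : σ * N = N := by
    have : (1 - σ) * N = 0 := hDN
    rw [sub_mul, one_mul, sub_eq_zero] at this
    exact this.symm
  have hNσc : N * σ = N := by
    have : N * (1 - σ) = 0 := hND
    rw [mul_sub, mul_one, sub_eq_zero] at this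
    exact this.symm
  have hNK : ∀ x : M, x ∈ K → N x = p • x := fun x hx =>
    end_geom_sum_apply_of_fixed σ x hx p
  -- (S1)
  have h1 := relIndex_mul_relIndex_restricted (D : M →+ M) (N : M →+ M) hDN' hND'
  -- (S2)
  have hKstab : ∀ x ∈ K, (nsmulAddMonoidHom (α := M) p) x ∈ K := fun x hx => K.nsmul_mem hx p
  have hmapN : K.map (N : M →+ M) = K.map (nsmulAddMonoidHom (α := M) p) := by
    ext y
    simp only [AddSubgroup.mem_map]
    constructor
    · rintro ⟨x, hx, rfl⟩; exact ⟨x, hx, (hNK x hx).symm⟩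
    · rintro ⟨x, hx, rfl⟩; exact ⟨x, hx, hNK x hx⟩
  have hrestrK : restr K (nsmulAddMonoidHom (α := M) p) hKstab = nsmulAddMonoidHom (α := K) p := by
    ext x; rfl
  obtain ⟨hKF, hKI⟩ := fred_nsmul K p hp0
  have h2 : (K.map (N : M →+ M)).relIndex K =
      p ^ Module.finrank ℤ K * Nat.card (nsmulAddMonoidHom (α := K) p).ker := by
    rw [hmapN, relIndex_map_eq_index_range_restr K _ hKstab, hrestrK, hKI]
  -- (S3)
  have hLstabσ : ∀ x ∈ Lk, (σ : M →+ M) x ∈ Lk := by
    intro x hx
    have hx0 : N x = 0 := hx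
    show N (σ x) = 0
    have : N (σ x) = (N * σ) x := rfl
    rw [this, hNσc, hx0]
  have hLstabD : ∀ x ∈ Lk, (D : M →+ M) x ∈ Lk := fun x _ => hND' x
  set s : AddMonoid.End Lk := restr Lk (σ : M →+ M) hLstabσ with hs
  have hspow : ∀ (i : ℕ) (x : Lk), (((s ^ i) x : Lk) : M) = (σ ^ i) (x : M) := by
    intro i
    induction i with
    | zero => intro x; simp
    | succ i ih =>
      intro x
      rw [pow_succ, pow_succ]
      show (((s ^ i) (s x) : Lk) : M) = (σ ^ i) (σ (x : M))
      rw [ih]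
      rfl
  have hsum : ∑ i ∈ range p, s ^ i = 0 := by
    ext x
    rw [end_sum_apply]
    show Lk.subtype (∑ i ∈ range p, (s ^ i) x) = 0
    rw [map_sum]
    have : ∑ i ∈ range p, Lk.subtype ((s ^ i) x) = N (x : M) := by
      rw [hN, end_sum_apply]
      exact Finset.sum_congr rfl fun i _ => hspow i x
    rw [this]
    exact x.2
  obtain ⟨b, hb1, hb2, hb3⟩ := index_range_one_sub Lk p s hsum
  have hrestrD : restr Lk (D : M →+ M) hLstabD = (1 - s : AddMonoid.End Lk) := by
    ext x
    rfl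
  have h3 : (Lk.map (D : M →+ M)).relIndex Lk =
      p ^ b * Nat.card (1 - s : AddMonoid.End Lk).ker := by
    rw [relIndex_map_eq_index_range_restr Lk _ hLstabD, hrestrD, hb3]
  -- the two kernels have the same cardinality
  have hinf : (nsmulAddMonoidHom (α := M) p).ker ⊓ K = (D : M →+ M).ker ⊓ Lk := by
    ext x
    simp only [AddSubgroup.mem_inf, AddMonoidHom.mem_ker]
    constructor
    · rintro ⟨hx1, hx2⟩
      have hx2' : D x = 0 := hx2
      refine ⟨hx2', ?_⟩
      show N x = 0
      rw [hNK x hx2]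
      simpa using hx1
    · rintro ⟨hx1, hx2⟩
      have hxK : x ∈ K := hx1
      have hx2' : N x = 0 := hx2
      refine ⟨?_, hxK⟩
      rw [hNK x hxK] at hx2'
      simpa using hx2'
  have hcard : Nat.card (1 - s : AddMonoid.End Lk).ker =
      Nat.card (nsmulAddMonoidHom (α := K) p).ker := by
    have e1 : Nat.card (1 - s : AddMonoid.End Lk).ker = Nat.card ↥((D : M →+ M).ker ⊓ Lk) :=
      (congrArg (fun f : Lk →+ Lk => Nat.card f.ker) hrestrD).symm.trans
        (card_ker_restr Lk (D : M →+ M) hLstabD)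
    have e2 : Nat.card (nsmulAddMonoidHom (α := K) p).ker =
        Nat.card ↥((nsmulAddMonoidHom (α := M) p).ker ⊓ K) :=
      (congrArg (fun f : K →+ K => Nat.card f.ker) hrestrK).symm.trans
        (card_ker_restr K (nsmulAddMonoidHom (α := M) p) hKstab)
    rw [e1, e2, hinf]
  set c := Nat.card (nsmulAddMonoidHom (α := K) p).ker with hc
  have hc0 : c ≠ 0 := hKF.2
  rw [hcard] at h3 hb2
  rw [h2, h3] at h1
  -- ranks
  have hrank := finrank_ker_add_finrank_ker M p σ hσ
  rw [← hD, ← hN] at hrank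
  refine ⟨b, ?_, ?_, ?_, ?_⟩
  · rw [hrank, hb1]
  · -- `[ker D : im N] ≠ 0`
    have hle : K.map (N : M →+ M) ≤ (N : M →+ M).range := map_le_range _ _
    have hdvd := relIndex_dvd_of_le_left K hle
    intro h0
    rw [h0, h2] at hdvd
    exact (mul_ne_zero (pow_ne_zero _ hp0) hc0) (Nat.eq_zero_of_zero_dvd hdvd)
  · have hle : Lk.map (D : M →+ M) ≤ (D : M →+ M).range := map_le_range _ _
    have hdvd := relIndex_dvd_of_le_left Lk hle
    intro h0
    rw [h0, h3] at hdvd
    exact (mul_ne_zero (pow_ne_zero _ hp0) hc0) (Nat.eq_zero_of_zero_dvd hdvd)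
  · apply Nat.eq_of_mul_eq_mul_right (Nat.pos_of_ne_zero hc0)
    calc (N : M →+ M).range.relIndex K * p ^ b * c
        = (N : M →+ M).range.relIndex K * (p ^ b * c) := by ring
      _ = (D : M →+ M).range.relIndex Lk * (p ^ Module.finrank ℤ K * c) := h1
      _ = (D : M →+ M).range.relIndex Lk * p ^ Module.finrank ℤ K * c := by ring

/-- **Herbrand quotient, consumer form** (pointwise hypotheses; any sign convention for `D`).
`M` finitely generated abelian group, `σ : M →+ M` with `σ^[p] x = x`, `D x = σ x - x`,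
`N x = ∑_{i<p} σ^[i] x`.  Then with `a = rank (ker D) = rank M^σ` and `rank M = a + (p-1) * b`:
`[ker D : im N] * p ^ b = [ker N : im D] * p ^ a`, both indices nonzero. -/
theorem herbrand_prime_cyclic' (p : ℕ) [hp : Fact p.Prime] (σ D N : M →+ M)
    (hσ : ∀ x, σ^[p] x = x) (hD : ∀ x, D x = σ x - x)
    (hN : ∀ x, N x = ∑ i ∈ range p, σ^[i] x) :
    ∃ b : ℕ,
      Module.finrank ℤ M = Module.finrank ℤ D.ker + (p - 1) * b ∧
      N.range.relIndex D.ker ≠ 0 ∧ D.range.relIndex N.ker ≠ 0 ∧
      N.range.relIndex D.ker * p ^ b = D.range.relIndex N.ker * p ^ Module.finrank ℤ D.ker := by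
  obtain ⟨τ, hτ⟩ : ∃ τ : AddMonoid.End M, ∀ x, τ x = σ x := ⟨σ, fun _ => rfl⟩
  have hpow : ∀ (i : ℕ) (x : M), (τ ^ i) x = σ^[i] x := by
    intro i x
    induction i generalizing x with
    | zero => simp
    | succ i ih =>
      rw [pow_succ, Function.iterate_succ_apply]
      show (τ ^ i) (τ x) = _
      rw [hτ]
      exact ih (σ x)
  have hσ' : τ ^ p = 1 := by
    ext x; rw [hpow, hσ]; rfl
  have h := herbrand_prime_cyclic M p τ hσ'
  obtain ⟨D₀, hD₀⟩ : ∃ D₀ : M →+ M, D₀ = (1 - τ : AddMonoid.End M) := ⟨_, rfl⟩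
  obtain ⟨N₀, hN₀⟩ : ∃ N₀ : M →+ M, N₀ = (∑ i ∈ range p, τ ^ i : AddMonoid.End M) := ⟨_, rfl⟩
  rw [← hD₀, ← hN₀] at h
  have hD₀x : ∀ x, D₀ x = x - σ x := by
    intro x
    have : D₀ x = x - τ x := by rw [hD₀]; rfl
    rw [this, hτ]
  have hNN : N₀ = N := by
    ext x
    have : N₀ x = ∑ i ∈ range p, (τ ^ i) x := by rw [hN₀]; exact end_sum_apply _ _ _
    rw [this, hN]
    exact Finset.sum_congr rfl fun i _ => hpow i x
  have hker : D₀.ker = D.ker := by
    ext x
    rw [AddMonoidHom.mem_ker, AddMonoidHom.mem_ker, hD, hD₀x, sub_eq_zero, sub_eq_zero, eq_comm]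
  have hrange : D₀.range = D.range := by
    ext y
    simp only [AddMonoidHom.mem_range]
    constructor
    · rintro ⟨x, rfl⟩
      refine ⟨-x, ?_⟩
      rw [hD, map_neg, hD₀x]; abel
    · rintro ⟨x, rfl⟩
      refine ⟨-x, ?_⟩
      rw [hD, hD₀x, map_neg]; abel
  rw [hNN, hker, hrange] at h
  exact h

end main

end Fermat.Agent.S14.helper2501
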