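/-
S14 moonshot, leaf (seat helper2613): index of the `n`-th powers in a finitely generated abelian
group:  `[M : nM] = n ^ rank M * #M[n]`.  Mathlib only.
-/
import Mathlib

set_option autoImplicit false

open Module

namespace Fermat.Agent.S14.helper2613

/-- In a finitely generated abelian group `M`, the index of `n • M` is `n ^ rank M` times the
number of `n`-torsion elements (`n ≠ 0`). -/
theorem index_range_nsmul_eq (M : Type*) [AddCommGroup M] [Module.Finite ℤ M] {n : ℕ}
    (hn : n ≠ 0) :
    (nsmulAddMonoidHom (α := M) n).range.index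
      = n ^ finrank ℤ M * Nat.card (nsmulAddMonoidHom (α := M) n).ker := by
  classical
  set T : Submodule ℤ M := Submodule.torsion ℤ M with hT
  set Ta : AddSubgroup M := T.toAddSubgroup with hTa
  set f : M →+ M := nsmulAddMonoidHom (α := M) n with hf
  set R : AddSubgroup M := f.range with hR
  let π : M →+ (M ⧸ T) := (T.mkQ).toAddMonoidHom
  have hπ_surj : Function.Surjective π := T.mkQ_surjective
  have hπ_ker : π.ker = Ta := by
    ext x
    simp [π, Ta]
  have hrank : finrank ℤ (M ⧸ T) = finrank ℤ M :=
    finrank_quotient_eq_of_le_torsion le_rfl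
  -- Step A: the index of `R ⊔ T` is the index of `n (M/T)`.
  have hA : (R ⊔ Ta).index = n ^ finrank ℤ M := by
    have h1 := AddSubgroup.index_map R π
    rw [hπ_ker, AddMonoidHom.range_eq_top.mpr hπ_surj, AddSubgroup.index_top, mul_one] at h1
    rw [← h1]
    have h2 : R.map π = (nsmulAddMonoidHom (α := M ⧸ T) n).range := by
      have hcomm : π.comp f = (nsmulAddMonoidHom (α := M ⧸ T) n).comp π := by
        ext x
        simp [f, π]
      rw [hR, AddMonoidHom.map_range, hcomm, AddMonoidHom.range_comp,
        AddMonoidHom.range_eq_top.mpr hπ_surj, ← AddMonoidHom.range_eq_map]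
    rw [h2, AddSubgroup.index_range_nsmul (M ⧸ T) n, hrank]
  have hB : R.relIndex (R ⊔ Ta) * (R ⊔ Ta).index = R.index :=
    AddSubgroup.relIndex_mul_index le_sup_left
  have hC : R.relIndex (R ⊔ Ta) = R.relIndex Ta := AddSubgroup.relIndex_sup_left Ta R
  -- Step D: the relative index of `R` in `T` is the number of `n`-torsion points.
  have hTfin : Finite Ta := by
    have : Finite T := Module.finite_of_fg_torsion T (Submodule.torsion_isTorsion)
    exact this
  have hD1 : R.addSubgroupOf Ta = (nsmulAddMonoidHom (α := Ta) n).range := by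
    ext ⟨t, ht⟩
    rw [AddSubgroup.mem_addSubgroupOf]
    constructor
    · rintro ⟨a, ha⟩
      have ha' : n • a = t := ha
      have haT : a ∈ Ta := by
        have ht' : t ∈ Submodule.torsion ℤ M := ht
        rw [Submodule.mem_torsion_iff] at ht'
        obtain ⟨m, hm⟩ := ht'
        show a ∈ Submodule.torsion ℤ M
        rw [Submodule.mem_torsion_iff]
        refine ⟨m * ⟨(n : ℤ), mem_nonZeroDivisors_of_ne_zero (by exact_mod_cast hn)⟩, ?_⟩
        rw [Submonoid.mk_smul] at hm ⊢
        rw [← ha'] at hm
        simp only [Submonoid.coe_mul]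
        rw [mul_smul]
        simpa using hm
      refine ⟨⟨a, haT⟩, ?_⟩
      apply Subtype.ext
      simpa using ha'
    · rintro ⟨⟨a, haT⟩, ha⟩
      refine ⟨a, ?_⟩
      have := congrArg Subtype.val ha
      simpa [hf] using this
  have hD2 : (nsmulAddMonoidHom (α := Ta) n).range.index
      = Nat.card (nsmulAddMonoidHom (α := Ta) n).ker := AddSubgroup.index_range
  have hD3 : Nat.card (nsmulAddMonoidHom (α := Ta) n).ker = Nat.card f.ker := by
    refine Nat.card_congr
      { toFun := fun x => ⟨(x.1 : M), by
          have h : n • (x.1 : Ta) = 0 := AddMonoidHom.mem_ker.mp x.2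
          have h' : n • ((x.1 : Ta) : M) = 0 := by
            rw [← AddSubgroup.coe_nsmul, h]
            rfl
          exact AddMonoidHom.mem_ker.mpr h'⟩
        invFun := fun x => ⟨⟨x.1, by
          have h : n • (x.1 : M) = 0 := AddMonoidHom.mem_ker.mp x.2
          show x.1 ∈ Submodule.torsion ℤ M
          rw [Submodule.mem_torsion_iff]
          refine ⟨⟨(n : ℤ), mem_nonZeroDivisors_of_ne_zero (by exact_mod_cast hn)⟩, ?_⟩
          rw [Submonoid.mk_smul, natCast_zsmul]
          exact h⟩, by
          have h : n • (x.1 : M) = 0 := AddMonoidHom.mem_ker.mp x.2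
          refine AddMonoidHom.mem_ker.mpr ?_
          apply Subtype.ext
          show n • (x.1 : M) = 0
          exact h⟩
        left_inv := fun x => by
          apply Subtype.ext
          apply Subtype.ext
          rfl
        right_inv := fun x => by
          apply Subtype.ext
          rfl }
  have hD : R.relIndex Ta = Nat.card f.ker := by
    rw [AddSubgroup.relIndex, hD1, hD2, hD3]
  rw [← hB, hC, hD, hA, mul_comm]

/-- Multiplicative version: in a finitely generated commutative group `G`, the index of the
subgroup of `n`-th powers is `n ^ rank G` times the number of solutions of `x ^ n = 1`. -/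
theorem index_range_pow_eq (G : Type*) [CommGroup G] [Module.Finite ℤ (Additive G)] {n : ℕ}
    (hn : n ≠ 0) :
    (powMonoidHom (α := G) n).range.index
      = n ^ finrank ℤ (Additive G) * Nat.card (powMonoidHom (α := G) n).ker := by
  have h := index_range_nsmul_eq (Additive G) hn
  have h1 : (nsmulAddMonoidHom (α := Additive G) n).range
      = Subgroup.toAddSubgroup (powMonoidHom (α := G) n).range := by
    ext x
    constructor
    · rintro ⟨y, rfl⟩
      exact ⟨Additive.toMul y, rfl⟩
    · rintro ⟨y, hy⟩
      exact ⟨Additive.ofMul y, hy⟩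
  have h2 : Nat.card (nsmulAddMonoidHom (α := Additive G) n).ker
      = Nat.card (powMonoidHom (α := G) n).ker := by
    refine Nat.card_congr
      { toFun := fun x => ⟨Additive.toMul x.1, x.2⟩
        invFun := fun x => ⟨Additive.ofMul x.1, x.2⟩
        left_inv := fun x => rfl
        right_inv := fun x => rfl }
  rw [h1, Subgroup.index_toAddSubgroup, h2] at h
  exact h

end Fermat.Agent.S14.helper2613
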