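/-
S14 moonshot, leaf SUNIT, counting form (seat helper2613):
`[U_S : U_S ^ n] = n ^ (rank K + #S + 1)` when `K` contains a primitive `n`-th root of unity.
-/
import Fermat.Agent.S14.helper2613_SUnit
import Fermat.Agent.S14.helper2613_IndexPow

set_option autoImplicit false

open IsDedekindDomain NumberField Module

namespace Fermat.Agent.S14.helper2613

variable {K : Type*} [Field K] [NumberField K]

theorem ordAt_pow (v : HeightOneSpectrum (𝓞 K)) (x : Kˣ) (n : ℕ) :
    ordAt v (x ^ n) = n * ordAt v x := by
  induction n with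
  | zero => simp [ordAt_one]
  | succ k ih =>
    rw [pow_succ, ordAt_mul, ih]
    push_cast
    ring

/-- Every root of unity of `K` is an `S`-unit. -/
theorem mem_SUnits_of_pow_eq_one (S : Finset (HeightOneSpectrum (𝓞 K))) {x : Kˣ} {n : ℕ}
    (hn : n ≠ 0) (hx : x ^ n = 1) : x ∈ SUnits K S := by
  rw [mem_SUnits_iff_ordAt]
  intro v _
  have h := ordAt_pow v x n
  rw [hx, ordAt_one] at h
  have hn' : (n : ℤ) ≠ 0 := by exact_mod_cast hn
  rcases mul_eq_zero.mp h.symm with h0 | h0
  · exact absurd h0 hn'
  · exact h0

/-- The `n`-torsion of the `S`-units is the group of `n`-th roots of unity of `K`. -/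
theorem card_ker_pow_SUnits (S : Finset (HeightOneSpectrum (𝓞 K))) {n : ℕ} (hn : n ≠ 0) :
    Nat.card (powMonoidHom (α := SUnits K S) n).ker = Nat.card (rootsOfUnity n K) := by
  refine Nat.card_congr
    { toFun := fun x => ⟨((x.1 : SUnits K S) : Kˣ), by
        have h := x.2
        rw [MonoidHom.mem_ker] at h
        rw [mem_rootsOfUnity]
        have := congrArg Subtype.val h
        simpa using this⟩
      invFun := fun y => ⟨⟨y.1, mem_SUnits_of_pow_eq_one S hn ((mem_rootsOfUnity _ _).mp y.2)⟩, by
        rw [MonoidHom.mem_ker]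
        apply Subtype.ext
        simpa using (mem_rootsOfUnity _ _).mp y.2⟩
      left_inv := fun x => rfl
      right_inv := fun y => rfl }

/-- **Counting form of the `S`-unit theorem**: if `K` contains a primitive `n`-th root of unity,
the `n`-th powers have index `n ^ (rank K + #S + 1)` in the group of `S`-units
(`rank K + 1` is the number of infinite places of `K`). -/
theorem index_pow_SUnits (S : Finset (HeightOneSpectrum (𝓞 K))) {n : ℕ} (hn : n ≠ 0) {ζ : K}
    (hζ : IsPrimitiveRoot ζ n) :
    (powMonoidHom (α := SUnits K S) n).range.index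
      = n ^ (NumberField.Units.rank K + S.card + 1) := by
  have : NeZero n := ⟨hn⟩
  rw [index_range_pow_eq (SUnits K S) hn, finrank_SUnits, card_ker_pow_SUnits S hn,
    hζ.card_rootsOfUnity, pow_succ]

/-- The same statement for the quotient group. -/
theorem card_quotient_pow_SUnits (S : Finset (HeightOneSpectrum (𝓞 K))) {n : ℕ} (hn : n ≠ 0)
    {ζ : K} (hζ : IsPrimitiveRoot ζ n) :
    Nat.card (SUnits K S ⧸ (powMonoidHom (α := SUnits K S) n).range)
      = n ^ (NumberField.Units.rank K + S.card + 1) := by
  rw [← Subgroup.index_eq_card, index_pow_SUnits S hn hζ]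

end Fermat.Agent.S14.helper2613
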