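/-
S14 moonshot, module M5 (first inequality), leaf SUNITIDX (board row 648, seat helper3036).
Part 1: the Galois group of a Galois extension `E / F` of number fields acting on the finite
places of `E`, on valuations and on `S'`-units.
-/
import Mathlib
import Fermat.Agent.S14.helper165_FirstIneqSpec
import Fermat.Agent.S14.helper4373_KummerDecomp

set_option autoImplicit false
set_option linter.unusedSectionVars false

open IsDedekindDomain NumberField WithZero
open scoped Pointwise

namespace Fermat.Agent.S14.helper3036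

open Fermat.Agent.S14.helper2613 (ordAt SUnits mem_SUnits mem_SUnits_iff_ordAt)
open Fermat.Agent.S14.helper165 (normHom Split IsAbove)

noncomputable section

variable {F E : Type} [Field F] [NumberField F] [Field E] [NumberField E] [Algebra F E]

/-! ## Translates of a prime -/

/-- The translate `σ • w` of a finite place `w` of `E` by an automorphism `σ` of `E / F`. -/
def galPrime (σ : E ≃ₐ[F] E) (w : HeightOneSpectrum (𝓞 E)) : HeightOneSpectrum (𝓞 E) where
  asIdeal := σ • w.asIdeal
  isPrime := inferInstance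
  ne_bot := by
    intro h
    apply w.ne_bot
    have h2 : σ⁻¹ • (σ • w.asIdeal) = σ⁻¹ • (⊥ : Ideal (𝓞 E)) := by rw [h]
    rw [inv_smul_smul] at h2
    rw [h2]
    simp

@[simp] theorem galPrime_asIdeal (σ : E ≃ₐ[F] E) (w : HeightOneSpectrum (𝓞 E)) :
    (galPrime σ w).asIdeal = σ • w.asIdeal := rfl

theorem galPrime_one (w : HeightOneSpectrum (𝓞 E)) : galPrime (1 : E ≃ₐ[F] E) w = w := by
  apply HeightOneSpectrum.ext
  simp

theorem galPrime_mul (σ τ : E ≃ₐ[F] E) (w : HeightOneSpectrum (𝓞 E)) :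
    galPrime (σ * τ) w = galPrime σ (galPrime τ w) := by
  apply HeightOneSpectrum.ext
  simp [mul_smul]

theorem galPrime_inv_galPrime (σ : E ≃ₐ[F] E) (w : HeightOneSpectrum (𝓞 E)) :
    galPrime σ⁻¹ (galPrime σ w) = w := by
  rw [← galPrime_mul, inv_mul_cancel, galPrime_one]

theorem galPrime_galPrime_inv (σ : E ≃ₐ[F] E) (w : HeightOneSpectrum (𝓞 E)) :
    galPrime σ (galPrime σ⁻¹ w) = w := by
  rw [← galPrime_mul, mul_inv_cancel, galPrime_one]

theorem intValuation_galPrime_le (σ : E ≃ₐ[F] E) (w : HeightOneSpectrum (𝓞 E)) (x : 𝓞 E) :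
    (galPrime σ w).intValuation (σ • x) ≤ w.intValuation x := by
  rcases eq_or_ne x 0 with rfl | hx
  · simp
  · rw [HeightOneSpectrum.intValuation_eq_exp_neg_multiplicity w hx,
      HeightOneSpectrum.intValuation_le_pow_iff_mem]
    have h1 : x ∈ w.asIdeal ^ (multiplicity w.asIdeal (Ideal.span {x})) := by
      rw [← HeightOneSpectrum.intValuation_le_pow_iff_mem,
        HeightOneSpectrum.intValuation_eq_exp_neg_multiplicity w hx]
    have h2 := Ideal.smul_mem_pointwise_smul σ x _ h1
    rwa [smul_pow'] at h2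

theorem intValuation_galPrime (σ : E ≃ₐ[F] E) (w : HeightOneSpectrum (𝓞 E)) (x : 𝓞 E) :
    (galPrime σ w).intValuation (σ • x) = w.intValuation x := by
  apply le_antisymm (intValuation_galPrime_le σ w x)
  have h := intValuation_galPrime_le σ⁻¹ (galPrime σ w) (σ • x)
  rwa [galPrime_inv_galPrime, inv_smul_smul] at h

/-- `ord_{σ w} (σ x) = ord_w x`. -/
theorem valuation_galPrime (σ : E ≃ₐ[F] E) (w : HeightOneSpectrum (𝓞 E)) (x : E) :
    (galPrime σ w).valuation E (σ x) = w.valuation E x := by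
  obtain ⟨a, b, hb, rfl⟩ := IsFractionRing.div_surjective (A := 𝓞 E) x
  have ha' : σ (algebraMap (𝓞 E) E a) = algebraMap (𝓞 E) E (σ • a) := rfl
  have hb' : σ (algebraMap (𝓞 E) E b) = algebraMap (𝓞 E) E (σ • b) := rfl
  rw [map_div₀, ha', hb', map_div₀, map_div₀, HeightOneSpectrum.valuation_of_algebraMap,
    HeightOneSpectrum.valuation_of_algebraMap, HeightOneSpectrum.valuation_of_algebraMap,
    HeightOneSpectrum.valuation_of_algebraMap, intValuation_galPrime, intValuation_galPrime]

theorem valuation_apply_eq (σ : E ≃ₐ[F] E) (w : HeightOneSpectrum (𝓞 E)) (x : E) :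
    w.valuation E (σ x) = (galPrime σ⁻¹ w).valuation E x := by
  conv_lhs => rw [← galPrime_galPrime_inv σ w]
  exact valuation_galPrime σ _ x

/-- `σ w` and `w` lie over the same prime of `F`. -/
theorem galPrime_under (σ : E ≃ₐ[F] E) (w : HeightOneSpectrum (𝓞 E)) :
    (galPrime σ w).asIdeal.under (𝓞 F) = w.asIdeal.under (𝓞 F) := by
  ext a
  simp only [galPrime_asIdeal, Ideal.mem_comap]
  have h : σ • (algebraMap (𝓞 F) (𝓞 E) a) = algebraMap (𝓞 F) (𝓞 E) a := by
    apply RingOfIntegers.ext
    show σ (algebraMap (𝓞 E) E (algebraMap (𝓞 F) (𝓞 E) a)) = _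
    rw [← IsScalarTower.algebraMap_apply, IsScalarTower.algebraMap_apply (𝓞 F) F E]
    exact σ.commutes _
  rw [← h, Ideal.smul_mem_pointwise_smul_iff, h]

theorem galPrime_mem_iff {S : Finset (HeightOneSpectrum (𝓞 F))}
    {S' : Finset (HeightOneSpectrum (𝓞 E))} (hS : IsAbove F E S S') (σ : E ≃ₐ[F] E)
    (w : HeightOneSpectrum (𝓞 E)) : galPrime σ w ∈ S' ↔ w ∈ S' := by
  rw [hS, hS, galPrime_under]

/-- The `S'`-units are stable under the Galois group when `S'` is the set of all primes
above `S`. -/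
theorem map_mem_SUnits {S : Finset (HeightOneSpectrum (𝓞 F))}
    {S' : Finset (HeightOneSpectrum (𝓞 E))} (hS : IsAbove F E S S') (σ : E ≃ₐ[F] E)
    {x : Eˣ} (hx : x ∈ SUnits E S') : Units.map (σ : E →* E) x ∈ SUnits E S' := by
  rw [mem_SUnits] at hx ⊢
  intro w hw
  have h1 : w.valuation E (σ (x : E)) = (galPrime σ⁻¹ w).valuation E (x : E) :=
    valuation_apply_eq σ w _
  have h2 : galPrime σ⁻¹ w ∉ S' := fun h => hw ((galPrime_mem_iff hS σ⁻¹ w).mp h)
  simpa [h1] using hx _ h2

end

end Fermat.Agent.S14.helper3036
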