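import Mathlib
import Fermat.Agent.S14.helper3036_M5GalVal
import Fermat.Agent.S14.helper2501_Herbrand
import Fermat.Agent.S14.helper1080_TotComplex
import Fermat.Agent.S14.helper2613_SUnitCount

set_option autoImplicit false
set_option linter.unusedSectionVars false
set_option linter.style.haveILetI false

open IsDedekindDomain NumberField WithZero
open scoped Pointwise

namespace Fermat.Agent.S14.helper3036

open Fermat.Agent.S14.helper2613 (ordAt SUnits mem_SUnits mem_SUnits_iff_ordAt)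
open Fermat.Agent.S14.helper165 (normHom Split IsAbove)
open Fermat.Agent.S14.helper1892 (ClassGen)

noncomputable section

variable {F E : Type} [Field F] [NumberField F] [Field E] [NumberField E] [Algebra F E]

/-- The ramification index of `w` over `F`. -/
def ramIdx (F : Type) {E : Type} [Field F] [NumberField F] [Field E] [NumberField E]
    [Algebra F E] (w : HeightOneSpectrum (𝓞 E)) : ℕ :=
  (w.under (𝓞 F)).asIdeal.ramificationIdx' w.asIdeal

theorem ramIdx_ne_zero (w : HeightOneSpectrum (𝓞 E)) : ramIdx F w ≠ 0 := by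
  haveI : w.asIdeal.LiesOver (w.under (𝓞 F)).asIdeal := Ideal.over_under _
  exact Ideal.IsDedekindDomain.ramificationIdx'_ne_zero_of_liesOver w.asIdeal
    (w.under (𝓞 F)).ne_bot

theorem valuation_algebraMap (w : HeightOneSpectrum (𝓞 E)) (c : F) :
    w.valuation E (algebraMap F E c) = (w.under (𝓞 F)).valuation F c ^ ramIdx F w := by
  haveI : w.asIdeal.LiesOver (w.under (𝓞 F)).asIdeal := Ideal.over_under _
  exact (HeightOneSpectrum.valuation_liesOver E (w.under (𝓞 F)) w c).symm

theorem ordAt_algebraMap (w : HeightOneSpectrum (𝓞 E)) (c : Fˣ) :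
    ordAt w (Units.map (algebraMap F E : F →* E) c) = ramIdx F w * ordAt (w.under (𝓞 F)) c := by
  unfold ordAt
  rw [Units.coe_map, MonoidHom.coe_coe, valuation_algebraMap, WithZero.log_pow]
  simp

theorem ramIdx_eq_one [IsGalois F E] (w : HeightOneSpectrum (𝓞 E))
    (h : (w.under (𝓞 F)).asIdeal.ramificationIdxIn (𝓞 E) = 1) : ramIdx F w = 1 := by
  have := helper4373.isGaloisGroup_ringOfIntegers F E
  have : w.asIdeal.LiesOver (w.under (𝓞 F)).asIdeal := Ideal.over_under _
  unfold ramIdx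
  rw [Ideal.ramificationIdx'_eq_ramificationIdx _ _ (w.under (𝓞 F)).ne_bot,
    ← Ideal.ramificationIdxIn_eq_ramificationIdx (w.under (𝓞 F)).asIdeal w.asIdeal Gal(E/F), h]

/-- Every prime of `F` has a prime of `E` above it. -/
theorem exists_under_eq (v : HeightOneSpectrum (𝓞 F)) :
    ∃ w : HeightOneSpectrum (𝓞 E), w.under (𝓞 F) = v := by
  obtain ⟨P, hP, hPv⟩ := Ideal.exists_ideal_over_prime_of_isIntegral_of_isDomain (S := 𝓞 E)
    v.asIdeal (by simp)
  refine ⟨⟨P, hP, ?_⟩, HeightOneSpectrum.ext hPv⟩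
  rintro rfl
  apply v.ne_bot
  rw [← hPv]
  exact Ideal.comap_bot_of_injective _ (FaithfulSMul.algebraMap_injective (𝓞 F) (𝓞 E))

/-! ## Generators of the Galois group -/

theorem apply_eq_of_gen [IsGalois F E] {σ : E ≃ₐ[F] E}
    (hσ : ∀ τ : E ≃ₐ[F] E, τ ∈ Subgroup.zpowers σ) {x : E} (hx : σ x = x) (τ : E ≃ₐ[F] E) :
    τ x = x := by
  have h1 : Subgroup.zpowers σ ≤ MulAction.stabilizer (E ≃ₐ[F] E) x := by
    rw [Subgroup.zpowers_le]
    exact hx
  exact h1 (hσ τ)

theorem exists_algebraMap_eq_of_fixed [IsGalois F E] {σ : E ≃ₐ[F] E}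
    (hσ : ∀ τ : E ≃ₐ[F] E, τ ∈ Subgroup.zpowers σ) {x : E} (hx : σ x = x) :
    ∃ c : F, algebraMap F E c = x :=
  (IsGalois.mem_range_algebraMap_iff_fixed x).mpr (apply_eq_of_gen hσ hx)

theorem orderOf_gen [IsGalois F E] {σ : E ≃ₐ[F] E}
    (hσ : ∀ τ : E ≃ₐ[F] E, τ ∈ Subgroup.zpowers σ) : orderOf σ = Module.finrank F E := by
  rw [orderOf_eq_card_of_forall_mem_zpowers hσ, IsGalois.card_aut_eq_finrank]

/-- `N_{E/F} y = ∏_{i < [E:F]} σ^i y` for a generator `σ` of the Galois group. -/
theorem algebraMap_norm_eq_prod_pow [IsGalois F E] {σ : E ≃ₐ[F] E}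
    (hσ : ∀ τ : E ≃ₐ[F] E, τ ∈ Subgroup.zpowers σ) (y : E) :
    algebraMap F E (Algebra.norm F y) = ∏ i ∈ Finset.range (Module.finrank F E), (σ ^ i) y := by
  classical
  rw [Algebra.norm_eq_prod_automorphisms, ← orderOf_gen hσ]
  have himg : (Finset.univ : Finset (E ≃ₐ[F] E)) =
      (Finset.range (orderOf σ)).image (fun i => σ ^ i) := by
    ext τ
    simp only [Finset.mem_univ, Finset.mem_image, Finset.mem_range, true_iff]
    have h1 : τ ∈ Subgroup.zpowers σ := hσ τ
    rw [← mem_powers_iff_mem_zpowers] at h1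
    obtain ⟨k, hk⟩ := h1
    refine ⟨k % orderOf σ, Nat.mod_lt _ (orderOf_pos σ), ?_⟩
    rw [pow_mod_orderOf]
    exact hk
  rw [himg, Finset.prod_image]
  intro i hi j hj hij
  exact pow_injOn_Iio_orderOf (by simpa using hi) (by simpa using hj) hij


/-! ## The additive group of `S'`-units as a Galois module -/

section Herbrand

variable {S : Finset (HeightOneSpectrum (𝓞 F))} {S' : Finset (HeightOneSpectrum (𝓞 E))}

/-- `σ` acting on the `S'`-units. -/
def sigmaU (hS : IsAbove F E S S') (σ : E ≃ₐ[F] E) : SUnits E S' →* SUnits E S' :=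
  ((Units.map (σ : E →* E)).comp (SUnits E S').subtype).codRestrict (SUnits E S')
    (fun x => map_mem_SUnits hS σ x.2)

/-- `σ` acting on the additive group of `S'`-units. -/
def sigmaM (hS : IsAbove F E S S') (σ : E ≃ₐ[F] E) :
    Additive (SUnits E S') →+ Additive (SUnits E S') :=
  MonoidHom.toAdditive (sigmaU hS σ)

/-- The underlying element of `E` of an element of the additive group of `S'`-units. -/
def valE (m : Additive (SUnits E S')) : E := (((Additive.toMul m : SUnits E S') : Eˣ) : E)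

theorem valE_injective : Function.Injective (valE (S' := S')) := by
  intro m m' h
  apply Additive.toMul.injective
  apply Subtype.ext
  apply Units.ext
  exact h

theorem valE_zero : valE (0 : Additive (SUnits E S')) = 1 := rfl

theorem valE_add (m m' : Additive (SUnits E S')) : valE (m + m') = valE m * valE m' := rfl

theorem valE_ne_zero (m : Additive (SUnits E S')) : valE m ≠ 0 :=
  ((Additive.toMul m : SUnits E S') : Eˣ).ne_zero

theorem valE_neg (m : Additive (SUnits E S')) : valE (-m) = (valE m)⁻¹ := by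
  have h : valE (-m) * valE m = 1 := by rw [← valE_add, neg_add_cancel, valE_zero]
  exact eq_inv_of_mul_eq_one_left h

theorem valE_sub (m m' : Additive (SUnits E S')) : valE (m - m') = valE m / valE m' := by
  rw [sub_eq_add_neg, valE_add, valE_neg, div_eq_mul_inv]

theorem valE_sum {ι : Type*} (s : Finset ι) (f : ι → Additive (SUnits E S')) :
    valE (∑ i ∈ s, f i) = ∏ i ∈ s, valE (f i) := by
  classical
  induction s using Finset.induction_on with
  | empty => simp [valE_zero]
  | insert a s ha ih => rw [Finset.sum_insert ha, Finset.prod_insert ha, valE_add, ih]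

theorem valE_sigmaM (hS : IsAbove F E S S') (σ : E ≃ₐ[F] E) (m : Additive (SUnits E S')) :
    valE (sigmaM hS σ m) = σ (valE m) := rfl

theorem sigmaM_iterate (hS : IsAbove F E S S') (σ : E ≃ₐ[F] E) (i : ℕ)
    (m : Additive (SUnits E S')) : (sigmaM hS σ)^[i] m = sigmaM hS (σ ^ i) m := by
  apply valE_injective
  induction i with
  | zero => rfl
  | succ n ih =>
    rw [Function.iterate_succ_apply', valE_sigmaM, ih, valE_sigmaM, valE_sigmaM, pow_succ',
      AlgEquiv.mul_apply]

/-- `D = σ - 1` on the additive group of `S'`-units. -/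
def DM (hS : IsAbove F E S S') (σ : E ≃ₐ[F] E) :
    Additive (SUnits E S') →+ Additive (SUnits E S') :=
  sigmaM hS σ - AddMonoidHom.id _

/-- `N = 1 + σ + ... + σ^(p-1)` on the additive group of `S'`-units. -/
def NM (hS : IsAbove F E S S') (σ : E ≃ₐ[F] E) (p : ℕ) :
    Additive (SUnits E S') →+ Additive (SUnits E S') :=
  ∑ i ∈ Finset.range p, sigmaM hS (σ ^ i)

theorem valE_DM (hS : IsAbove F E S S') (σ : E ≃ₐ[F] E) (m : Additive (SUnits E S')) :
    valE (DM hS σ m) = σ (valE m) / valE m := by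
  rw [DM, AddMonoidHom.sub_apply, valE_sub, valE_sigmaM, AddMonoidHom.id_apply]

theorem valE_NM (hS : IsAbove F E S S') (σ : E ≃ₐ[F] E) (p : ℕ) (m : Additive (SUnits E S')) :
    valE (NM hS σ p m) = ∏ i ∈ Finset.range p, (σ ^ i) (valE m) := by
  rw [NM, AddMonoidHom.finsetSum_apply, valE_sum]
  rfl

/-- The Herbrand quotient identity (M4) for the `S'`-units. -/
theorem herbrand_SUnits {p : ℕ} (hp : p.Prime) (hS : IsAbove F E S S') (σ : E ≃ₐ[F] E)
    (hσp : σ ^ p = 1) :
    ∃ b : ℕ,
      Module.finrank ℤ (Additive (SUnits E S')) =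
        Module.finrank ℤ (DM hS σ).ker + (p - 1) * b ∧
      (NM hS σ p).range.relIndex (DM hS σ).ker ≠ 0 ∧
      (DM hS σ).range.relIndex (NM hS σ p).ker ≠ 0 ∧
      (NM hS σ p).range.relIndex (DM hS σ).ker * p ^ b =
        (DM hS σ).range.relIndex (NM hS σ p).ker * p ^ Module.finrank ℤ (DM hS σ).ker := by
  haveI : Fact p.Prime := ⟨hp⟩
  refine helper2501.herbrand_prime_cyclic' (Additive (SUnits E S')) p (sigmaM hS σ) (DM hS σ)
    (NM hS σ p) ?_ ?_ ?_
  · intro m
    rw [sigmaM_iterate, hσp]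
    apply valE_injective
    rfl
  · intro m
    rfl
  · intro m
    rw [NM, AddMonoidHom.finsetSum_apply]
    exact Finset.sum_congr rfl fun i _ => (sigmaM_iterate hS σ i m).symm


/-! ## Fixed points: the `S`-units of `F` -/

theorem under_mem_iff (hS : IsAbove F E S S') (w : HeightOneSpectrum (𝓞 E)) :
    w ∈ S' ↔ w.under (𝓞 F) ∈ S := by
  rw [hS]
  constructor
  · rintro ⟨v, hv, hvw⟩
    have : v = w.under (𝓞 F) := HeightOneSpectrum.ext hvw
    rwa [← this]
  · intro h
    exact ⟨_, h, rfl⟩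

theorem map_mem_SUnits_iff (hS : IsAbove F E S S') (c : Fˣ) :
    Units.map (algebraMap F E : F →* E) c ∈ SUnits E S' ↔ c ∈ SUnits F S := by
  rw [mem_SUnits_iff_ordAt, mem_SUnits_iff_ordAt]
  constructor
  · intro h v hv
    obtain ⟨w, rfl⟩ := exists_under_eq (E := E) v
    have hw : w ∉ S' := fun hw => hv ((under_mem_iff hS w).mp hw)
    have h1 := h w hw
    rw [ordAt_algebraMap] at h1
    rcases mul_eq_zero.mp h1 with h2 | h2
    · exact absurd (by exact_mod_cast h2) (ramIdx_ne_zero w)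
    · exact h2
  · intro h w hw
    have hv : w.under (𝓞 F) ∉ S := fun hv => hw ((under_mem_iff hS w).mpr hv)
    rw [ordAt_algebraMap, h _ hv, mul_zero]

/-- The inclusion of the `S`-units of `F` into the `S'`-units of `E`. -/
def iotaU (hS : IsAbove F E S S') : SUnits F S →* SUnits E S' :=
  ((Units.map (algebraMap F E : F →* E)).comp (SUnits F S).subtype).codRestrict (SUnits E S')
    (fun c => (map_mem_SUnits_iff hS c.1).mpr c.2)

/-- The inclusion of the `S`-units of `F` into the `S'`-units of `E`, additively. -/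
def iotaM (hS : IsAbove F E S S') : Additive (SUnits F S) →+ Additive (SUnits E S') :=
  MonoidHom.toAdditive (iotaU hS)

theorem valE_iotaM (hS : IsAbove F E S S') (c : Additive (SUnits F S)) :
    valE (iotaM hS c) = algebraMap F E (((Additive.toMul c : SUnits F S) : Fˣ) : F) := rfl

theorem iotaM_injective (hS : IsAbove F E S S') : Function.Injective (iotaM hS) := by
  intro c c' h
  have h1 := congrArg valE h
  rw [valE_iotaM, valE_iotaM] at h1
  have h2 := (algebraMap F E).injective h1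
  apply Additive.toMul.injective
  apply Subtype.ext
  apply Units.ext
  exact h2

theorem mem_ker_DM (hS : IsAbove F E S S') (σ : E ≃ₐ[F] E) (m : Additive (SUnits E S')) :
    m ∈ (DM hS σ).ker ↔ σ (valE m) = valE m := by
  rw [AddMonoidHom.mem_ker]
  constructor
  · intro h
    have := congrArg valE h
    rw [valE_DM, valE_zero, div_eq_one_iff_eq (valE_ne_zero m)] at this
    exact this
  · intro h
    apply valE_injective
    rw [valE_DM, valE_zero, h, div_self (valE_ne_zero m)]

theorem ker_DM_eq_range [IsGalois F E] (hS : IsAbove F E S S') {σ : E ≃ₐ[F] E}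
    (hσ : ∀ τ : E ≃ₐ[F] E, τ ∈ Subgroup.zpowers σ) : (DM hS σ).ker = (iotaM hS).range := by
  ext m
  rw [mem_ker_DM, AddMonoidHom.mem_range]
  constructor
  · intro h
    obtain ⟨c, hc⟩ := exists_algebraMap_eq_of_fixed hσ h
    have hc0 : c ≠ 0 := by
      rintro rfl
      rw [map_zero] at hc
      exact valE_ne_zero m hc.symm
    have hmem : Units.mk0 c hc0 ∈ SUnits F S := by
      rw [← map_mem_SUnits_iff hS]
      have : Units.map (algebraMap F E : F →* E) (Units.mk0 c hc0)
          = ((Additive.toMul m : SUnits E S') : Eˣ) := Units.ext hc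
      rw [this]
      exact (Additive.toMul m : SUnits E S').2
    refine ⟨Additive.ofMul ⟨Units.mk0 c hc0, hmem⟩, ?_⟩
    apply valE_injective
    rw [valE_iotaM]
    exact hc
  · rintro ⟨c, rfl⟩
    rw [valE_iotaM]
    exact σ.commutes _

theorem finrank_ker_DM [IsGalois F E] (hS : IsAbove F E S S') {σ : E ≃ₐ[F] E}
    (hσ : ∀ τ : E ≃ₐ[F] E, τ ∈ Subgroup.zpowers σ) :
    Module.finrank ℤ (DM hS σ).ker = NumberField.Units.rank F + S.card := by
  rw [ker_DM_eq_range hS hσ, ← helper2613.finrank_SUnits S]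
  exact ((AddMonoidHom.ofInjective (iotaM_injective hS)).toIntLinearEquiv).finrank_eq.symm

theorem relIndex_NM_DM [IsGalois F E] (hS : IsAbove F E S S') {σ : E ≃ₐ[F] E}
    (hσ : ∀ τ : E ≃ₐ[F] E, τ ∈ Subgroup.zpowers σ) :
    (NM hS σ (Module.finrank F E)).range.relIndex (DM hS σ).ker =
      ((SUnits E S').map (normHom F E)).relIndex (SUnits F S) := by
  rw [ker_DM_eq_range hS hσ, AddMonoidHom.range_eq_map (iotaM hS), ← AddSubgroup.relIndex_comap,
    AddSubgroup.relIndex_top_right, Subgroup.relIndex, ← Subgroup.index_toAddSubgroup]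
  congr 1
  ext c
  rw [AddSubgroup.mem_comap, AddMonoidHom.mem_range]
  constructor
  · rintro ⟨m, hm⟩
    show ((Additive.toMul c : SUnits F S) : Fˣ) ∈ (SUnits E S').map (normHom F E)
    refine ⟨((Additive.toMul m : SUnits E S') : Eˣ), (Additive.toMul m : SUnits E S').2, ?_⟩
    apply Units.ext
    apply (algebraMap F E).injective
    show algebraMap F E (Algebra.norm F (valE m)) = valE (iotaM hS c)
    rw [algebraMap_norm_eq_prod_pow hσ, ← valE_NM hS, hm]
  · intro hc
    obtain ⟨y, hy, hyc⟩ : ((Additive.toMul c : SUnits F S) : Fˣ) ∈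
      (SUnits E S').map (normHom F E) := hc
    refine ⟨Additive.ofMul ⟨y, hy⟩, ?_⟩
    apply valE_injective
    rw [valE_NM, valE_iotaM, ← hyc, ← algebraMap_norm_eq_prod_pow hσ]
    rfl

theorem relIndex_DM_NM [IsGalois F E] (hS : IsAbove F E S S') {σ : E ≃ₐ[F] E}
    (hσ : ∀ τ : E ≃ₐ[F] E, τ ∈ Subgroup.zpowers σ)
    (H1 : ∀ x : Eˣ, x ∈ SUnits E S' → normHom F E x = 1 →
      ∃ y : Eˣ, y ∈ SUnits E S' ∧ σ (y : E) / (y : E) = (x : E)) :
    (DM hS σ).range.relIndex (NM hS σ (Module.finrank F E)).ker = 1 := by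
  rw [AddSubgroup.relIndex_eq_one]
  intro m hm
  rw [AddMonoidHom.mem_ker] at hm
  have h1 : normHom F E ((Additive.toMul m : SUnits E S') : Eˣ) = 1 := by
    apply Units.ext
    apply (algebraMap F E).injective
    show algebraMap F E (Algebra.norm F (valE m)) = algebraMap F E 1
    rw [algebraMap_norm_eq_prod_pow hσ, ← valE_NM hS, hm, valE_zero, map_one]
  obtain ⟨y, hy, hyx⟩ := H1 _ (Additive.toMul m : SUnits E S').2 h1
  refine ⟨Additive.ofMul ⟨y, hy⟩, ?_⟩
  apply valE_injective
  rw [valE_DM]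
  exact hyx

end Herbrand


/-! ## Counting primes above `S` -/

section Count

variable {S : Finset (HeightOneSpectrum (𝓞 F))} {S' : Finset (HeightOneSpectrum (𝓞 E))}

theorem card_filter_under_eq (hS : IsAbove F E S S') {v : HeightOneSpectrum (𝓞 F)} (hv : v ∈ S)
    [DecidableEq (HeightOneSpectrum (𝓞 F))] :
    (S'.filter (fun w => w.under (𝓞 F) = v)).card = (v.asIdeal.primesOver (𝓞 E)).ncard := by
  have hset : v.asIdeal.primesOver (𝓞 E) =
      (fun w : HeightOneSpectrum (𝓞 E) => w.asIdeal) ''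
        (↑(S'.filter (fun w => w.under (𝓞 F) = v)) : Set (HeightOneSpectrum (𝓞 E))) := by
    ext P
    constructor
    · rintro ⟨hP, hPv⟩
      have hP0 : P ≠ ⊥ := by
        rintro rfl
        apply v.ne_bot
        rw [hPv.over]
        exact Ideal.comap_bot_of_injective _ (FaithfulSMul.algebraMap_injective (𝓞 F) (𝓞 E))
      have hw : (⟨P, hP, hP0⟩ : HeightOneSpectrum (𝓞 E)).under (𝓞 F) = v :=
        HeightOneSpectrum.ext hPv.over.symm
      refine ⟨⟨P, hP, hP0⟩, ?_, rfl⟩
      simp only [Finset.coe_filter, Set.mem_ofPred_eq]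
      refine ⟨?_, hw⟩
      rw [under_mem_iff hS, hw]
      exact hv
    · rintro ⟨w, hw, rfl⟩
      simp only [Finset.coe_filter, Set.mem_ofPred_eq] at hw
      refine ⟨w.isPrime, ⟨?_⟩⟩
      rw [← hw.2]
      rfl
  rw [hset, Set.ncard_image_of_injective _ (fun w w' h => HeightOneSpectrum.ext h),
    Set.ncard_coe_finset]

theorem ncard_primesOver_of_not_split [IsGalois F E] {p : ℕ} (hp : p.Prime)
    (hdeg : Module.finrank F E = p) (v : HeightOneSpectrum (𝓞 F)) (hv : ¬ Split F E v) :
    (v.asIdeal.primesOver (𝓞 E)).ncard = 1 := by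
  rcases helper4373.nf_trichotomy F E hp hdeg v.asIdeal with h | h | h
  · exact absurd (h.1.trans hdeg.symm) hv
  · exact h.1
  · exact h.1

theorem card_above [IsGalois F E] {p : ℕ} (hp : p.Prime) (hdeg : Module.finrank F E = p)
    (hS : IsAbove F E S S') (d1 : DecidablePred (Split F E))
    (d2 : DecidablePred fun v => ¬ Split F E v) :
    S'.card = p * (@Finset.filter _ (Split F E) d1 S).card +
      (@Finset.filter _ (fun v => ¬ Split F E v) d2 S).card := by
  classical
  have hd : d2 = fun v => instDecidableNot := Subsingleton.elim _ _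
  subst hd
  rw [Finset.card_eq_sum_card_fiberwise (f := fun w => w.under (𝓞 F)) (t := S)
    (fun w hw => (under_mem_iff hS w).mp hw)]
  have h1 : ∀ v ∈ S, (S'.filter (fun w => w.under (𝓞 F) = v)).card =
      if Split F E v then p else 1 := by
    intro v hv
    rw [card_filter_under_eq hS hv]
    split_ifs with h
    · exact h.trans hdeg
    · exact ncard_primesOver_of_not_split hp hdeg v h
  rw [Finset.sum_congr rfl h1, Finset.sum_ite, Finset.sum_const, Finset.sum_const, smul_eq_mul,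
    smul_eq_mul, mul_one, mul_comm]

theorem card_eq_split_add [DecidablePred (Split F E)] (S : Finset (HeightOneSpectrum (𝓞 F)))
    (d2 : DecidablePred fun v => ¬ Split F E v) :
    S.card = (S.filter (Split F E)).card +
      (@Finset.filter _ (fun v => ¬ Split F E v) d2 S).card := by
  have hd : d2 = fun v => instDecidableNot := Subsingleton.elim _ _
  subst hd
  exact (Finset.card_filter_add_card_filter_not (Split F E)).symm

end Count

/-! ## Ranks -/

theorem rank_relation {p : ℕ} (hp : p.Prime) (hp2 : p ≠ 2)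
    (hζ : ∃ ζ : F, IsPrimitiveRoot ζ p) (hdeg : Module.finrank F E = p) :
    NumberField.Units.rank E + 1 = p * (NumberField.Units.rank F + 1) := by
  obtain ⟨ζ, hζ⟩ := hζ
  have h2 : 2 < p := lt_of_le_of_ne hp.two_le (Ne.symm hp2)
  have hF := helper1080.finrank_eq_two_mul_rank_add_one h2 hζ
  have hE := helper1080.finrank_eq_two_mul_rank_add_one h2
    (hζ.map_of_injective (algebraMap F E).injective)
  have hmul := Module.finrank_mul_finrank ℚ F E
  rw [hdeg, hF, hE] at hmul
  have h3 : 2 * (NumberField.Units.rank E + 1) = 2 * (p * (NumberField.Units.rank F + 1)) := by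
    rw [← hmul]
    ring
  exact Nat.eq_of_mul_eq_mul_left two_pos h3

/-! ## Vanishing of `H¹` of the `S'`-units (Hilbert 90 + class group generation) -/

section H1

variable {S : Finset (HeightOneSpectrum (𝓞 F))} {S' : Finset (HeightOneSpectrum (𝓞 E))}

theorem finite_valuation_ne_one (y : Eˣ) :
    {w : HeightOneSpectrum (𝓞 E) | w.valuation E (y : E) ≠ 1}.Finite := by
  refine ((HeightOneSpectrum.Support.finite (𝓞 E) (y : E)).union
    (HeightOneSpectrum.Support.finite (𝓞 E) ((y⁻¹ : Eˣ) : E))).subset ?_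
  intro w hw
  rcases lt_or_gt_of_ne hw with h | h
  · right
    show 1 < w.valuation E ((y⁻¹ : Eˣ) : E)
    rw [Units.val_inv_eq_inv_val, map_inv₀]
    exact (one_lt_inv₀ (zero_lt_iff.mpr (helper2613.valuation_unit_ne_zero w y))).mpr h
  · left
    exact h

theorem exists_galPrime_eq [IsGalois F E] {w w' : HeightOneSpectrum (𝓞 E)}
    (h : w.under (𝓞 F) = w'.under (𝓞 F)) : ∃ τ : E ≃ₐ[F] E, galPrime τ w = w' := by
  have := helper4373.isGaloisGroup_ringOfIntegers F E
  have h1 : w.asIdeal.LiesOver (w.under (𝓞 F)).asIdeal := Ideal.over_under _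
  have h2 : w'.asIdeal.LiesOver (w.under (𝓞 F)).asIdeal := by
    rw [h]
    exact Ideal.over_under _
  obtain ⟨τ, hτ⟩ := Ideal.exists_smul_eq_of_isGaloisGroup (w.under (𝓞 F)).asIdeal w.asIdeal
    w'.asIdeal (E ≃ₐ[F] E)
  exact ⟨τ, HeightOneSpectrum.ext hτ⟩

theorem valuation_galPrime_eq_of_gen [IsGalois F E] (hS : IsAbove F E S S') {σ : E ≃ₐ[F] E}
    (hσ : ∀ τ : E ≃ₐ[F] E, τ ∈ Subgroup.zpowers σ) {y : E}
    (hy : ∀ w, w ∉ S' → w.valuation E (σ y) = w.valuation E y) (τ : E ≃ₐ[F] E)
    (w : HeightOneSpectrum (𝓞 E)) (hw : w ∉ S') :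
    (galPrime τ w).valuation E y = w.valuation E y := by
  have h1 : ∀ w, w ∉ S' → (galPrime σ w).valuation E y = w.valuation E y := by
    intro w hw
    have hw' : galPrime σ w ∉ S' := fun h => hw ((galPrime_mem_iff hS σ w).mp h)
    rw [← hy _ hw', valuation_galPrime]
  have h2 : ∀ (k : ℕ) w, w ∉ S' → (galPrime (σ ^ k) w).valuation E y = w.valuation E y := by
    intro k
    induction k with
    | zero =>
      intro w _
      rw [pow_zero, galPrime_one]
    | succ k ih =>
      intro w hw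
      have hw' : galPrime (σ ^ k) w ∉ S' := fun h => hw ((galPrime_mem_iff hS _ w).mp h)
      rw [pow_succ', galPrime_mul, h1 _ hw', ih w hw]
  have h3 : τ ∈ Subgroup.zpowers σ := hσ τ
  rw [← mem_powers_iff_mem_zpowers] at h3
  obtain ⟨k, rfl⟩ := h3
  exact h2 k w hw

/-- **`H¹(Gal(E/F), U_{E,S'}) = 1`**: an `S'`-unit of norm `1` is `σ y / y` for an `S'`-unit `y`,
when `S` generates the class group of `F` and `E / F` is unramified outside `S`. -/
theorem h1_vanishing [IsGalois F E] (hS : IsAbove F E S S') (hcl : ClassGen S)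
    (hunr : ∀ v, v ∉ S → v.asIdeal.ramificationIdxIn (𝓞 E) = 1)
    {σ : E ≃ₐ[F] E} (hσ : ∀ τ : E ≃ₐ[F] E, τ ∈ Subgroup.zpowers σ)
    (x : Eˣ) (hx : x ∈ SUnits E S') (hN : normHom F E x = 1) :
    ∃ y : Eˣ, y ∈ SUnits E S' ∧ σ (y : E) / (y : E) = (x : E) := by
  classical
  haveI : IsCyclic (E ≃ₐ[F] E) := ⟨⟨σ, fun τ => Subgroup.mem_zpowers_iff.mp (hσ τ)⟩⟩
  have hnorm : Algebra.norm F (x : E) = 1 := congrArg Units.val hN
  obtain ⟨y₀, hy₀⟩ := groupCohomology.exists_div_of_norm_eq_one hσ hnorm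
  obtain ⟨y₁, hy₁⟩ : ∃ y₁ : Eˣ, y₁ = y₀⁻¹ := ⟨_, rfl⟩
  have hy₁x : σ (y₁ : E) = (x : E) * (y₁ : E) := by
    have h0 : (y₀ : E) ≠ 0 := y₀.ne_zero
    have h0' : σ (y₀ : E) ≠ 0 := (map_ne_zero σ).mpr h0
    rw [hy₁, Units.val_inv_eq_inv_val, map_inv₀, ← hy₀]
    field_simp
  have hinv : ∀ w, w ∉ S' → w.valuation E (σ (y₁ : E)) = w.valuation E (y₁ : E) := by
    intro w hw
    rw [hy₁x, map_mul, mem_SUnits.mp hx w hw, one_mul]
  have hconst := valuation_galPrime_eq_of_gen hS hσ hinv
  -- a prime above each prime of `F`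
  choose wof hwof using exists_under_eq (F := F) (E := E)
  -- `ord_w y₁` only depends on the prime below `w`, outside `S'`
  have hK : ∀ w, w ∉ S' →
      w.valuation E (y₁ : E) = (wof (w.under (𝓞 F))).valuation E (y₁ : E) := by
    intro w hw
    obtain ⟨τ, hτ⟩ := exists_galPrime_eq (F := F) (hwof (w.under (𝓞 F))).symm
    rw [← hτ, hconst τ w hw]
  -- uniformizers from class group generation
  choose π hπ1 hπ2 using hcl
  obtain ⟨π', hπ'⟩ : ∃ π' : HeightOneSpectrum (𝓞 F) → Fˣ, ∀ v (h : v ∉ S), π' v = π v h :=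
    ⟨fun v => if h : v ∉ S then π v h else 1, fun v h => dif_pos h⟩
  set n : HeightOneSpectrum (𝓞 F) → ℤ := fun v => ordAt (wof v) y₁ with hn
  set Tfin : Finset (HeightOneSpectrum (𝓞 F)) :=
    (((finite_valuation_ne_one y₁).toFinset).image (fun w => w.under (𝓞 F))).filter
      (fun v => v ∉ S) with hT
  have hTS : ∀ v ∈ Tfin, v ∉ S := fun v hv => (Finset.mem_filter.mp hv).2
  have hnT : ∀ v, v ∉ S → v ∉ Tfin → n v = 0 := by
    intro v hvS hvT
    by_contra hne
    apply hvT
    rw [hT, Finset.mem_filter]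
    refine ⟨Finset.mem_image.mpr ⟨wof v, ?_, hwof v⟩, hvS⟩
    rw [Set.Finite.mem_toFinset]
    intro h1
    exact hne ((helper2613.ordAt_eq_zero_iff _ _).mpr h1)
  obtain ⟨c, hc⟩ : ∃ c : Fˣ, c = ∏ v ∈ Tfin, π' v ^ (-n v) := ⟨_, rfl⟩
  have hcval : ∀ v', v' ∉ S → v'.valuation F (c : F) = WithZero.exp (n v') := by
    intro v' hv'S
    rw [hc, Units.coe_prod, map_prod]
    have hterm : ∀ v ∈ Tfin, v ≠ v' →
        v'.valuation F ((π' v ^ (-n v) : Fˣ) : F) = 1 := by
      intro v hv hne
      have hvS := hTS v hv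
      rw [Units.val_zpow_eq_zpow_val, map_zpow₀, hπ' v hvS,
        hπ2 v hvS v' hv'S (Ne.symm hne), one_zpow]
    by_cases hv'T : v' ∈ Tfin
    · rw [Finset.prod_eq_single v' (fun v hv hne => hterm v hv hne)
        (fun h => absurd hv'T h)]
      rw [Units.val_zpow_eq_zpow_val, map_zpow₀, hπ' v' hv'S, hπ1 v' hv'S,
        ← WithZero.exp_zsmul]
      simp
    · rw [Finset.prod_eq_one (fun v hv => hterm v hv (fun h => hv'T (h ▸ hv))),
        hnT v' hv'S hv'T, WithZero.exp_zero]
  refine ⟨y₁ * (Units.map (algebraMap F E : F →* E) c)⁻¹, ?_, ?_⟩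
  · rw [mem_SUnits]
    intro w hw
    have hv'S : w.under (𝓞 F) ∉ S := fun h => hw ((under_mem_iff hS w).mpr h)
    have e1 : w.valuation E (algebraMap F E (c : F)) = WithZero.exp (n (w.under (𝓞 F))) := by
      rw [valuation_algebraMap, ramIdx_eq_one w (hunr _ hv'S), pow_one, hcval _ hv'S]
    have e2 : w.valuation E (y₁ : E) = WithZero.exp (n (w.under (𝓞 F))) := by
      rw [hK w hw, hn]
      exact (WithZero.exp_log (helper2613.valuation_unit_ne_zero _ _)).symm
    rw [Units.val_mul, Units.val_inv_eq_inv_val, Units.coe_map, MonoidHom.coe_coe, map_mul,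
      map_inv₀, e1, e2]
    exact mul_inv_cancel₀ WithZero.exp_ne_zero
  · have hc0 : algebraMap F E (c : F) ≠ 0 := (map_ne_zero _).mpr c.ne_zero
    have hy0 : (y₁ : E) ≠ 0 := y₁.ne_zero
    rw [Units.val_mul, Units.val_inv_eq_inv_val, Units.coe_map, MonoidHom.coe_coe, map_mul,
      map_inv₀, AlgEquiv.commutes, hy₁x]
    field_simp

end H1

/-! ## The `S`-unit norm index, assuming the vanishing of `H¹` -/

theorem sUnitNormIndex_of_H1 [IsGalois F E] {p : ℕ} (hp : p.Prime) (hp2 : p ≠ 2)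
    (hζ : ∃ ζ : F, IsPrimitiveRoot ζ p) (hdeg : Module.finrank F E = p)
    {S : Finset (HeightOneSpectrum (𝓞 F))} {S' : Finset (HeightOneSpectrum (𝓞 E))}
    (hS : IsAbove F E S S') {σ : E ≃ₐ[F] E} (hσ : ∀ τ : E ≃ₐ[F] E, τ ∈ Subgroup.zpowers σ)
    (H1 : ∀ x : Eˣ, x ∈ SUnits E S' → normHom F E x = 1 →
      ∃ y : Eˣ, y ∈ SUnits E S' ∧ σ (y : E) / (y : E) = (x : E))
    (d2 : DecidablePred fun v => ¬ Split F E v) :
    ((SUnits E S').map (normHom F E)).relIndex (SUnits F S) ≠ 0 ∧
    ((SUnits E S').map (normHom F E)).relIndex (SUnits F S) * p =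
      p ^ (@Finset.filter _ (fun v => ¬ Split F E v) d2 S).card := by
  classical
  have hσp : σ ^ p = 1 := by
    rw [← hdeg, ← orderOf_gen hσ]
    exact pow_orderOf_eq_one σ
  obtain ⟨b, hrank, h0, -, heq⟩ := herbrand_SUnits hp hS σ hσp
  have hA := finrank_ker_DM hS hσ
  have hB := relIndex_NM_DM hS hσ
  have hC := relIndex_DM_NM hS hσ H1
  rw [hdeg] at hB hC
  rw [hB] at h0 heq
  rw [hC, hA, one_mul] at heq
  rw [hA, helper2613.finrank_SUnits (K := E) S'] at hrank
  have hcard := card_above hp hdeg hS (fun v => Classical.propDecidable _) d2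
  have hcardS := card_eq_split_add (F := F) (E := E) S d2
  have hrk := rank_relation hp hp2 hζ hdeg
  set s := (S.filter (Split F E)).card with hs
  set t := (@Finset.filter _ (fun v => ¬ Split F E v) d2 S).card with ht
  set rF := NumberField.Units.rank F with hrF
  set rE := NumberField.Units.rank E with hrE
  set h := ((SUnits E S').map (normHom F E)).relIndex (SUnits F S) with hh
  refine ⟨h0, ?_⟩
  obtain ⟨q, rfl⟩ : ∃ q, p = q + 1 := ⟨p - 1, (Nat.succ_pred_eq_of_pos hp.pos).symm⟩
  have hq : 0 < q := by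
    have := hp.two_le
    omega
  -- `b = rF + 1 + s`
  have hb : b = rF + 1 + s := by
    have e1 : q * b = q * (rF + 1 + s) := by
      have e2 : rE + 1 + S'.card = rF + S.card + (q + 1 - 1) * b + 1 := by omega
      rw [hrk, hcard, hcardS] at e2
      simp only [Nat.add_sub_cancel] at e2
      nlinarith [e2]
    exact Nat.eq_of_mul_eq_mul_left hq e1
  rw [hb, hcardS] at heq
  -- `h * p ^ (rF + 1 + s) = p ^ (rF + (s + t))`
  have e3 : h * (q + 1) * (q + 1) ^ (rF + s) = (q + 1) ^ t * (q + 1) ^ (rF + s) := by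
    rw [← pow_add, mul_assoc, ← pow_succ']
    rw [show rF + s + 1 = rF + 1 + s by ring, show t + (rF + s) = rF + (s + t) by ring]
    exact heq
  exact Nat.eq_of_mul_eq_mul_right (pow_pos (Nat.succ_pos q) _) e3


/-- **Board row 648, S14-M5-SUNITIDX** (verbatim `helper165.Stmt_SUnitNormIndex`): the `S`-unit
norm index `[U_{F,S} : N U_{E,S'}] · p ≤ p ^ #{v ∈ S not split}` (in fact with equality). -/
theorem sUnitNormIndex (F E : Type) [Field F] [NumberField F] [Field E] [NumberField E]
    [Algebra F E] [IsGalois F E] (p : ℕ) (hp : p.Prime) (hp2 : p ≠ 2)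
    (hζ : ∃ ζ : F, IsPrimitiveRoot ζ p) (hdeg : Module.finrank F E = p) :
    Fermat.Agent.S14.helper165.Stmt_SUnitNormIndex F E p := by
  intro S S' hS hcl hunr
  have hcard : Nat.card (E ≃ₐ[F] E) = p := (IsGalois.card_aut_eq_finrank F E).trans hdeg
  haveI : Fact p.Prime := ⟨hp⟩
  haveI : IsCyclic (E ≃ₐ[F] E) := isCyclic_of_prime_card hcard
  obtain ⟨σ, hσ⟩ := IsCyclic.exists_generator (α := E ≃ₐ[F] E)
  have H1 : ∀ x : Eˣ, x ∈ SUnits E S' → normHom F E x = 1 →
      ∃ y : Eˣ, y ∈ SUnits E S' ∧ σ (y : E) / (y : E) = (x : E) :=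
    fun x hx hN => h1_vanishing hS hcl hunr hσ x hx hN
  exact ⟨(sUnitNormIndex_of_H1 hp hp2 hζ hdeg hS hσ H1 (fun v => Classical.propDecidable _)).1,
    (sUnitNormIndex_of_H1 hp hp2 hζ hdeg hS hσ H1 _).2.le⟩

end

end Fermat.Agent.S14.helper3036
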