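/-
S14 moonshot, module M5 (first inequality), leaf APPROX (seat helper5304, board #650):
weak approximation in a number field, in the valuation language of `helper165_FirstIneqSpec`.

Main result: `approx (F) : helper165.Stmt_Approx F`, i.e. for disjoint finite sets `R`, `T` of
finite places and any `m : places → ℤ` there is `z : Fˣ` with `z ≡ 1` at every place of `R`
and `ordAt v z = m v` at every place of `T`.

Proof: `z = y₁ / y₂` with `y₁, y₂ ∈ 𝓞 F` from the Chinese remainder theorem.
-/
import Mathlib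
import Fermat.Agent.S14.helper165_FirstIneqSpec

set_option autoImplicit false

open IsDedekindDomain NumberField

namespace Fermat.Agent.S14.helper5304

open Fermat.Agent.S14.helper2613 (ordAt)

section Approx

variable {F : Type*} [Field F] [NumberField F]

/-- Chinese remainder theorem in valuation form: an integer `y` with `y ≡ 1` modulo every
prime of `R` and with prescribed (non-negative) order `k v` at every prime `v` of `T`. -/
theorem exists_integer_approx (R T : Finset (HeightOneSpectrum (𝓞 F))) (hRT : Disjoint R T)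
    (k : HeightOneSpectrum (𝓞 F) → ℕ) :
    ∃ y : 𝓞 F, (∀ v ∈ R, y - 1 ∈ v.asIdeal) ∧
      ∀ v ∈ T, v.intValuation y = WithZero.exp (-(k v : ℤ)) := by
  classical
  choose π hπ using fun v : HeightOneSpectrum (𝓞 F) => v.intValuation_exists_uniformizer
  obtain ⟨y, hy⟩ := IsDedekindDomain.exists_forall_sub_mem_ideal (s := R ∪ T)
    (fun v : HeightOneSpectrum (𝓞 F) => v.asIdeal) (fun v => if v ∈ T then k v + 1 else 1)
    (fun v _ => v.prime) (fun v _ w _ hvw h => hvw (HeightOneSpectrum.ext h))
    (fun v => if (v : HeightOneSpectrum (𝓞 F)) ∈ T then π v ^ k v else 1)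
  refine ⟨y, fun v hv => ?_, fun v hv => ?_⟩
  · have hvT : v ∉ T := Finset.disjoint_left.mp hRT hv
    have h := hy v (Finset.mem_union_left _ hv)
    simpa [hvT] using h
  · have h := hy v (Finset.mem_union_right _ hv)
    simp only [hv, if_true] at h
    rw [← HeightOneSpectrum.intValuation_le_pow_iff_mem] at h
    have h1 : v.intValuation (π v ^ k v) = WithZero.exp (-(k v : ℤ)) := by
      rw [map_pow, hπ, ← WithZero.exp_nsmul]
      simp
    have h2 : v.intValuation (y - π v ^ k v) < v.intValuation (π v ^ k v) := by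
      rw [h1]
      refine lt_of_le_of_lt h ?_
      rw [WithZero.exp_lt_exp]
      push_cast
      omega
    rw [Valuation.map_eq_of_sub_lt _ h2, h1]

/-- The integers produced by `exists_integer_approx` are non-zero as soon as `R ∪ T` is
non-empty. -/
theorem ne_zero_of_integer_approx {R T : Finset (HeightOneSpectrum (𝓞 F))}
    (hne : ∃ v, v ∈ R ∨ v ∈ T) {k : HeightOneSpectrum (𝓞 F) → ℕ} {y : 𝓞 F}
    (hR : ∀ v ∈ R, y - 1 ∈ v.asIdeal)
    (hT : ∀ v ∈ T, v.intValuation y = WithZero.exp (-(k v : ℤ))) : y ≠ 0 := by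
  rintro rfl
  obtain ⟨v, hv | hv⟩ := hne
  · have h := hR v hv
    rw [zero_sub, neg_mem_iff] at h
    exact v.isPrime.ne_top ((Ideal.eq_top_iff_one _).mpr h)
  · have h := hT v hv
    rw [map_zero] at h
    exact WithZero.exp_ne_zero h.symm

end Approx

/-- **Leaf M5-APPROX** (weak approximation): prescribed orders on `T`, `≡ 1` on `R`. -/
theorem approx (F : Type) [Field F] [NumberField F] :
    Fermat.Agent.S14.helper165.Stmt_Approx F := by
  intro R T hRT m
  by_cases hne : ∃ v, v ∈ R ∨ v ∈ T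
  swap
  · refine ⟨1, fun v hv => ?_, fun v hv => ?_⟩
    · exact absurd ⟨v, Or.inl hv⟩ hne
    · exact absurd ⟨v, Or.inr hv⟩ hne
  obtain ⟨y₁, h1R, h1T⟩ := exists_integer_approx R T hRT (fun v => (-(m v)).toNat)
  obtain ⟨y₂, h2R, h2T⟩ := exists_integer_approx R T hRT (fun v => (m v).toNat)
  have hy₁ : y₁ ≠ 0 := ne_zero_of_integer_approx hne h1R h1T
  have hy₂ : y₂ ≠ 0 := ne_zero_of_integer_approx hne h2R h2T
  have hinj : Function.Injective (algebraMap (𝓞 F) F) := RingOfIntegers.coe_injective
  have hy₁' : algebraMap (𝓞 F) F y₁ ≠ 0 := (map_ne_zero_iff _ hinj).mpr hy₁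
  have hy₂' : algebraMap (𝓞 F) F y₂ ≠ 0 := (map_ne_zero_iff _ hinj).mpr hy₂
  refine ⟨Units.mk0 (algebraMap (𝓞 F) F y₁ / algebraMap (𝓞 F) F y₂) (div_ne_zero hy₁' hy₂'),
    fun v hv => ?_, fun v hv => ?_⟩
  · -- `z - 1 = (y₁ - y₂) / y₂`, with `y₁ - y₂ ∈ v` and `y₂ ∉ v`
    have h12 : y₁ - y₂ ∈ v.asIdeal := by
      have := v.asIdeal.sub_mem (h1R v hv) (h2R v hv)
      simpa using this
    have h2 : y₂ ∉ v.asIdeal := by
      intro h
      have h' := v.asIdeal.sub_mem h (h2R v hv)
      rw [sub_sub_cancel] at h'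
      exact v.isPrime.ne_top ((Ideal.eq_top_iff_one _).mpr h')
    have key : ((Units.mk0 (algebraMap (𝓞 F) F y₁ / algebraMap (𝓞 F) F y₂)
        (div_ne_zero hy₁' hy₂') : Fˣ) : F) - 1
        = algebraMap (𝓞 F) F (y₁ - y₂) / algebraMap (𝓞 F) F y₂ := by
      rw [Units.val_mk0, map_sub, sub_div, div_self hy₂']
    rw [key, map_div₀, (v.valuation_eq_one_iff_notMem).mpr h2, div_one]
    exact (HeightOneSpectrum.valuation_lt_one_iff_mem v _).mpr h12
  · have e1 : v.valuation F (algebraMap (𝓞 F) F y₁) = WithZero.exp (-(((-(m v)).toNat : ℕ) : ℤ)) := by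
      rw [HeightOneSpectrum.valuation_of_algebraMap]
      exact h1T v hv
    have e2 : v.valuation F (algebraMap (𝓞 F) F y₂) = WithZero.exp (-((((m v)).toNat : ℕ) : ℤ)) := by
      rw [HeightOneSpectrum.valuation_of_algebraMap]
      exact h2T v hv
    unfold ordAt
    rw [Units.val_mk0, map_div₀, e1, e2, ← WithZero.exp_sub, WithZero.log_exp]
    omega
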