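/-
S14 / M5 leaf DICT (seat helper6582): the Kummer dictionary `helper165.Stmt_KummerDict F p`.

For `b ∈ Fˣ` not a `p`-th power and a local `p`-th power at the primes over `p`, the field
`E = F(b^(1/p))` is Galois of degree `p` over `F`, ramified exactly at the primes `v` with
`p ∤ ord_v b`, and among the other primes the split ones are those at which `b` is a local
`p`-th power.  Built on the decomposition laws (K2)/(K3)/(K4)/(K6) of `helper4373_KummerDecomp`.
-/
import Mathlib
import Fermat.Agent.S14.helper165_FirstIneqSpec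
import Fermat.Agent.S14.helper4373_KummerDecomp

set_option autoImplicit false

open IsDedekindDomain NumberField WithZero

namespace Fermat.Agent.S14.helper6582

open Fermat.Agent.S14.helper2613 (ordAt)
open Fermat.Agent.S14.helper1892 (LocPowN LocPow)

noncomputable section

/-! ## Valuation lemmas in the base field -/

section Base

variable {F : Type*} [Field F] [NumberField F]

/-- Discreteness of `ℤᵐ⁰`: `a < exp (n + 1)` implies `a ≤ exp n`. -/
theorem le_exp_of_lt_exp_add_one {a : ℤᵐ⁰} {n : ℤ} (h : a < exp (n + 1)) : a ≤ exp n := by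
  rcases eq_or_ne a 0 with rfl | ha
  · simp
  · obtain ⟨m, rfl⟩ : ∃ m : ℤ, a = exp m := ⟨log a, (exp_log ha).symm⟩
    rw [exp_lt_exp] at h
    rw [exp_le_exp]
    omega

/-- Every `b ∈ Fˣ` becomes integral after multiplication by a `p`-th power. -/
theorem exists_integer_mul_pow {p : ℕ} (hp : 0 < p) (b : Fˣ) :
    ∃ (c : Fˣ) (b₁ : 𝓞 F), algebraMap (𝓞 F) F b₁ = (b : F) * (c : F) ^ p := by
  obtain ⟨n, d, hd, hnd⟩ := IsFractionRing.div_surjective (𝓞 F) (b : F)
  have hd0 : (algebraMap (𝓞 F) F d) ≠ 0 := by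
    have : d ≠ 0 := nonZeroDivisors.ne_zero hd
    simpa using this
  refine ⟨Units.mk0 _ hd0, n * d ^ (p - 1), ?_⟩
  obtain ⟨q, rfl⟩ : ∃ q, p = q + 1 := ⟨p - 1, by omega⟩
  rw [← hnd]
  simp only [Units.val_mk0, map_mul, map_pow, Nat.add_sub_cancel]
  field_simp
  ring

/-- If `p ∣ ord_v b`, then `b` becomes an integer which is a unit at `v` after multiplication
by a `p`-th power. -/
theorem exists_integer_unit_mul_pow {p : ℕ} (hp : 0 < p) (v : HeightOneSpectrum (𝓞 F)) (b : Fˣ)
    (hb : (p : ℤ) ∣ ordAt v b) :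
    ∃ (c : Fˣ) (b₂ : 𝓞 F),
      algebraMap (𝓞 F) F b₂ = (b : F) * (c : F) ^ p ∧ b₂ ∉ v.asIdeal := by
  obtain ⟨j, hj⟩ := hb
  obtain ⟨π, hπ⟩ := v.valuation_exists_uniformizer F
  have hπ0 : π ≠ 0 := by
    rintro rfl
    rw [map_zero] at hπ
    exact exp_ne_zero hπ.symm
  have hvb : v.valuation F (b : F) = exp ((p : ℤ) * j) := by
    rw [← hj]
    exact (exp_log (helper2613.valuation_unit_ne_zero v b)).symm
  set x : F := (b : F) * (π ^ j) ^ p with hx
  have hvx : v.valuation F x = 1 := by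
    rw [hx, map_mul, map_pow, map_zpow₀, hπ, hvb, ← exp_zsmul, ← exp_nsmul, ← exp_add,
      ← exp_zero]
    congr 1
    simp only [smul_eq_mul, nsmul_eq_mul]
    ring
  obtain ⟨n, ⟨d, hd⟩, hnd⟩ := v.exists_primeCompl_mul_eq_of_integer x hvx.le
  have hdv : v.intValuation d = 1 := (v.intValuation_eq_one_iff_mem_primeCompl d).mpr hd
  have hd0 : (algebraMap (𝓞 F) F d) ≠ 0 := by
    have : d ≠ 0 := by
      rintro rfl
      simp at hdv
    simpa using this
  have hc0 : π ^ j * (algebraMap (𝓞 F) F d) ≠ 0 := mul_ne_zero (zpow_ne_zero _ hπ0) hd0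
  obtain ⟨q, rfl⟩ : ∃ q, p = q + 1 := ⟨p - 1, by omega⟩
  have hval : (algebraMap (𝓞 F) F (n * d ^ q)) = (b : F) * (π ^ j * (algebraMap (𝓞 F) F d)) ^ (q + 1) := by
    rw [map_mul, map_pow, ← hnd, hx]
    ring
  refine ⟨Units.mk0 _ hc0, n * d ^ q, hval, ?_⟩
  rw [← v.intValuation_lt_one_iff_mem, not_lt, ← v.valuation_of_algebraMap (K := F)]
  have : v.valuation F (algebraMap (𝓞 F) F (n * d ^ q)) = 1 := by
    rw [map_mul, map_pow, ← hnd, map_mul, map_mul, hvx, map_pow, v.valuation_of_algebraMap, hdv]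
    simp
  exact this.ge

/-- If `x = a` with `a` an integer of `F` is a local `p`-th power at `v`, then `a` is a `p`-th
power of an integer modulo every power of `v`. -/
theorem exists_pow_sub_mem_pow_of_locPow {p : ℕ} (hp : 0 < p) (v : HeightOneSpectrum (𝓞 F))
    (x : Fˣ) (a : 𝓞 F) (ha : algebraMap (𝓞 F) F a = (x : F)) (h : LocPow p v x) (M : ℕ) :
    ∃ y : 𝓞 F, y ^ p - a ∈ v.asIdeal ^ M := by
  obtain ⟨y', hy'⟩ := h (M + 1)
  have hlt : v.valuation F ((x : F) / (y' : F) ^ p - 1) < 1 :=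
    lt_of_le_of_lt hy' (helper1892.exp_neg_succ_lt_one M)
  have h1 : v.valuation F ((x : F) / (y' : F) ^ p) = 1 :=
    helper1892.val_eq_one_of_sub_one_lt v hlt
  have hy'0 : (y' : F) ^ p ≠ 0 := pow_ne_zero _ y'.ne_zero
  have hxa : v.valuation F (x : F) ≤ 1 := by
    rw [← ha]
    exact v.valuation_le_one a
  have hyp : v.valuation F ((y' : F) ^ p) ≤ 1 := by
    have h2 : v.valuation F (x : F)
        = v.valuation F ((x : F) / (y' : F) ^ p) * v.valuation F ((y' : F) ^ p) := by
      rw [← map_mul, div_mul_cancel₀ _ hy'0]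
    rw [h1, one_mul] at h2
    rw [← h2]
    exact hxa
  have hy'1 : v.valuation F (y' : F) ≤ 1 := by
    rw [map_pow] at hyp
    exact (pow_le_one_iff hp.ne').mp hyp
  obtain ⟨y, hy⟩ := v.exists_valuation_sub_lt_of_integer hy'1
    (Units.mk0 (exp (-(M : ℤ) + 1)) exp_ne_zero)
  have hy2 : v.valuation F (algebraMap (𝓞 F) F y - (y' : F)) ≤ exp (-(M : ℤ)) :=
    le_exp_of_lt_exp_add_one (by simpa using hy)
  refine ⟨y, ?_⟩
  suffices hgoal : v.valuation F (algebraMap (𝓞 F) F (y ^ p - a)) ≤ exp (-(M : ℤ)) by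
    rw [← v.intValuation_le_pow_iff_mem, ← v.valuation_of_algebraMap (K := F)]
    exact hgoal
  have e : algebraMap (𝓞 F) F (y ^ p - a)
      = (∑ i ∈ Finset.range p, (algebraMap (𝓞 F) F y) ^ i * (y' : F) ^ (p - 1 - i))
          * (algebraMap (𝓞 F) F y - (y' : F))
        + (-((y' : F) ^ p)) * ((x : F) / (y' : F) ^ p - 1) := by
    rw [(Commute.all _ _).geom_sum₂_mul, map_sub, map_pow, ha]
    field_simp
    ring
  rw [e]
  refine Valuation.map_add_le _ ?_ ?_
  · rw [map_mul]
    refine le_trans (mul_le_of_le_one_left' ?_) hy2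
    refine Valuation.map_sum_le _ (fun i _ => ?_)
    rw [map_mul, map_pow, map_pow]
    exact mul_le_one' (pow_le_one' (v.valuation_le_one y) _) (pow_le_one' hy'1 _)
  · rw [map_mul, Valuation.map_neg]
    exact le_trans (mul_le_of_le_one_left' hyp)
      (hy'.trans (by rw [exp_le_exp]; push_cast; omega))

/-- Conversely, an integer `a` which is a unit at `v` and a `p`-th power of an integer modulo
every power of `v` is a local `p`-th power at `v`. -/
theorem locPow_of_forall_exists_pow_sub_mem {p : ℕ} (hp : 0 < p) (v : HeightOneSpectrum (𝓞 F))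
    (x : Fˣ) (a : 𝓞 F) (ha : algebraMap (𝓞 F) F a = (x : F)) (hav : a ∉ v.asIdeal)
    (h : ∀ n : ℕ, ∃ y : 𝓞 F, y ^ p - a ∈ v.asIdeal ^ n) : LocPow p v x := by
  intro N
  obtain ⟨y, hy⟩ := h (N + 1)
  have hyv : y ^ p ∉ v.asIdeal := by
    intro hmem
    apply hav
    have h1 : y ^ p - a ∈ v.asIdeal := Ideal.pow_le_self (by omega) hy
    have := v.asIdeal.sub_mem hmem h1
    simpa using this
  have hyval : v.valuation F (algebraMap (𝓞 F) F (y ^ p)) = 1 := by
    rw [v.valuation_of_algebraMap]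
    by_contra hne
    exact hyv ((v.intValuation_lt_one_iff_mem _).mp (lt_of_le_of_ne (v.intValuation_le_one _) hne))
  have hy0 : algebraMap (𝓞 F) F y ≠ 0 := by
    intro h0
    rw [map_pow, h0, zero_pow hp.ne', map_zero] at hyval
    exact zero_ne_one hyval
  refine ⟨Units.mk0 _ hy0, ?_⟩
  have e : (x : F) / (algebraMap (𝓞 F) F y) ^ p - 1
      = -(algebraMap (𝓞 F) F (y ^ p - a)) / (algebraMap (𝓞 F) F (y ^ p)) := by
    rw [← ha, map_sub, map_pow]
    field_simp
    ring
  rw [Units.val_mk0, e, map_div₀, Valuation.map_neg, hyval, div_one, v.valuation_of_algebraMap]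
  exact ((v.intValuation_le_pow_iff_mem _ _).mpr hy).trans
    (by rw [exp_le_exp]; push_cast; omega)

/-- A prime not containing `p` does not contain `ζ - 1` for a primitive `p`-th root of unity. -/
theorem zeta_sub_one_not_mem {R : Type*} [CommRing R] [IsDomain R] {p : ℕ} (hp : p.Prime)
    (I : Ideal R) {ζ : R} (hζ : IsPrimitiveRoot ζ p) (hI : (p : R) ∉ I) : ζ - 1 ∉ I := by
  intro h
  apply hI
  have e : (p : R) = - ∑ i ∈ Finset.range p, (ζ ^ i - 1) := by
    rw [Finset.sum_sub_distrib, hζ.geom_sum_eq_zero hp.one_lt]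
    simp
  rw [e]
  refine I.neg_mem (I.sum_mem (fun i _ => I.mem_of_dvd ?_ h))
  simpa using sub_dvd_pow_sub_pow ζ 1 i

/-- **CRT at the primes over `p`**: if `a` is a `p`-th power of an integer modulo every power of
every prime over `p`, then `a` is a `p`-th power modulo `(ζ - 1) ^ p * v` for `v` over `p`. -/
theorem exists_pow_sub_mem_span_mul {p : ℕ} (hp : p.Prime) {ζ : 𝓞 F} (hζ : IsPrimitiveRoot ζ p)
    (a : 𝓞 F)
    (hloc : ∀ w : HeightOneSpectrum (𝓞 F), (p : 𝓞 F) ∈ w.asIdeal →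
      ∀ M : ℕ, ∃ y : 𝓞 F, y ^ p - a ∈ w.asIdeal ^ M)
    (v : HeightOneSpectrum (𝓞 F)) (hv : (p : 𝓞 F) ∈ v.asIdeal) :
    ∃ y : 𝓞 F, y ^ p - a ∈ Ideal.span {(ζ - 1) ^ p} * v.asIdeal := by
  classical
  have hp0 : Ideal.span {(p : 𝓞 F)} ≠ 0 := by
    have : (p : 𝓞 F) ≠ 0 := Nat.cast_ne_zero.mpr hp.ne_zero
    simpa using this
  set s : Finset (HeightOneSpectrum (𝓞 F)) := (Ideal.finite_factors hp0).toFinset with hs
  have hmem : ∀ w : HeightOneSpectrum (𝓞 F), w ∈ s ↔ (p : 𝓞 F) ∈ w.asIdeal := by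
    intro w
    rw [hs, Set.Finite.mem_toFinset]
    show w.asIdeal ∣ Ideal.span {(p : 𝓞 F)} ↔ _
    rw [Ideal.dvd_iff_le, Ideal.span_singleton_le_iff_mem]
  have hζ1 : ζ - 1 ≠ 0 := sub_ne_zero.mpr (hζ.ne_one hp.one_lt)
  let M : HeightOneSpectrum (𝓞 F) → ℕ :=
    fun w => p * multiplicity w.asIdeal (Ideal.span {ζ - 1}) + 1
  have hM : ∀ w : HeightOneSpectrum (𝓞 F),
      exp (-(M w : ℤ)) < w.intValuation ((ζ - 1) ^ p) := by
    intro w
    rw [map_pow, w.intValuation_eq_exp_neg_multiplicity hζ1, ← exp_nsmul, exp_lt_exp]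
    simp only [M, nsmul_eq_mul]
    push_cast
    linarith
  have hex : ∀ w : HeightOneSpectrum (𝓞 F), ∃ y : 𝓞 F, w ∈ s → y ^ p - a ∈ w.asIdeal ^ M w := by
    intro w
    by_cases hw : w ∈ s
    · obtain ⟨y, hy⟩ := hloc w ((hmem w).1 hw) (M w)
      exact ⟨y, fun _ => hy⟩
    · exact ⟨0, fun h => absurd h hw⟩
  choose yw hyw using hex
  obtain ⟨y, hy⟩ := IsDedekindDomain.exists_forall_sub_mem_ideal (s := s) (fun w => w.asIdeal) M
    (fun w _ => w.prime) (fun w _ w' _ hne h => hne (HeightOneSpectrum.ext h)) (fun w => yw w.1)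
  refine ⟨y, ?_⟩
  have hyM : ∀ w ∈ s, y ^ p - a ∈ w.asIdeal ^ M w := by
    intro w hw
    have h1 : y ^ p - (yw w) ^ p ∈ w.asIdeal ^ M w :=
      Ideal.mem_of_dvd _ (sub_dvd_pow_sub_pow _ _ p) (hy w hw)
    have h2 := hyw w hw
    have := Ideal.add_mem _ h1 h2
    simpa using this
  have key : ∀ w : HeightOneSpectrum (𝓞 F),
      w.intValuation (y ^ p - a) ≤ w.intValuation ((ζ - 1) ^ p) := by
    intro w
    by_cases hw : w ∈ s
    · exact ((w.intValuation_le_pow_iff_mem _ _).mpr (hyM w hw)).trans (hM w).le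
    · have h0 : ζ - 1 ∉ w.asIdeal :=
        zeta_sub_one_not_mem hp w.asIdeal hζ (fun h => hw ((hmem w).2 h))
      have h1 : w.intValuation (ζ - 1) = 1 := by
        by_contra hne
        exact h0 ((w.intValuation_lt_one_iff_mem _).mp
          (lt_of_le_of_ne (w.intValuation_le_one _) hne))
      rw [map_pow, h1, one_pow]
      exact w.intValuation_le_one _
  have hζp0 : algebraMap (𝓞 F) F ((ζ - 1) ^ p) ≠ 0 :=
    (map_ne_zero_iff _ (FaithfulSMul.algebraMap_injective (𝓞 F) F)).mpr (pow_ne_zero _ hζ1)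
  have hdiv : ∀ w : HeightOneSpectrum (𝓞 F),
      w.valuation F ((algebraMap (𝓞 F) F (y ^ p - a)) / (algebraMap (𝓞 F) F ((ζ - 1) ^ p))) ≤ 1 := by
    intro w
    rw [map_div₀, w.valuation_of_algebraMap, w.valuation_of_algebraMap]
    exact div_le_one_of_le₀ (key w) zero_le
  obtain ⟨t, ht⟩ := HeightOneSpectrum.mem_integers_of_valuation_le_one F _ hdiv
  have hta : y ^ p - a = (ζ - 1) ^ p * t := by
    apply FaithfulSMul.algebraMap_injective (𝓞 F) F
    rw [map_mul, ht]
    field_simp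
  have htv : t ∈ v.asIdeal := by
    rw [← v.intValuation_lt_one_iff_mem]
    by_contra hne
    have h1 : v.intValuation t = 1 := le_antisymm (v.intValuation_le_one t) (not_lt.mp hne)
    have h2 : v.intValuation (y ^ p - a) = v.intValuation ((ζ - 1) ^ p) := by
      rw [hta, map_mul, h1, mul_one]
    have h3 := ((v.intValuation_le_pow_iff_mem _ _).mpr
      (hyM v ((hmem v).2 hv))).trans_lt (hM v)
    rw [h2] at h3
    exact lt_irrefl _ h3
  rw [hta]
  exact Ideal.mul_mem_mul (Ideal.mem_span_singleton_self _) htv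

end Base

/-! ## The dictionary for a Kummer extension `E = F(β)`, `β ^ p = b` -/

section Ext

open Fermat.Agent.S14.helper165 (Split)

variable (F E : Type) [Field F] [NumberField F] [Field E] [NumberField E] [Algebra F E]
  [IsGalois F E]

omit [NumberField F] [NumberField E] [IsGalois F E] in
theorem algebraMap_integers_coe (x : 𝓞 F) :
    algebraMap (𝓞 E) E (algebraMap (𝓞 F) (𝓞 E) x) = algebraMap F E (algebraMap (𝓞 F) F x) := by
  rw [← IsScalarTower.algebraMap_apply, ← IsScalarTower.algebraMap_apply]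

omit [NumberField F] [NumberField E] [IsGalois F E] in
/-- Integral Kummer data: after replacing `b` by the integer `b' = b * c ^ p`, the element
`c * β` is an integer of `E` with `p`-th power `b'`, on which `σ` acts through `ζ`. -/
theorem exists_integral_kummer {p : ℕ} (hp : 0 < p) {ζ : F} (hζ : IsPrimitiveRoot ζ p) (b : Fˣ)
    (β : E) (hβ : β ^ p = algebraMap F E (b : F)) (σ : Gal(E/F))
    (hσ : σ β = algebraMap F E ζ * β) (c : Fˣ) (b' : 𝓞 F)
    (hb' : algebraMap (𝓞 F) F b' = (b : F) * (c : F) ^ p) :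
    ∃ (ζ' : 𝓞 F) (β' : 𝓞 E), IsPrimitiveRoot ζ' p ∧
      β' ^ p = algebraMap (𝓞 F) (𝓞 E) b' ∧ σ • β' = algebraMap (𝓞 F) (𝓞 E) ζ' * β' := by
  have hζint : IsIntegral ℤ ζ := hζ.isIntegral hp
  have hβ'pow : (algebraMap F E (c : F) * β) ^ p = algebraMap F E (algebraMap (𝓞 F) F b') := by
    rw [mul_pow, hβ, hb', map_mul, map_pow]
    ring
  have hint : IsIntegral ℤ (algebraMap F E (c : F) * β) := by
    refine IsIntegral.of_pow hp ?_
    rw [hβ'pow]
    exact (RingOfIntegers.isIntegral_coe b').algebraMap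
  obtain ⟨ζ', hζ'F⟩ := (IsIntegralClosure.isIntegral_iff (A := 𝓞 F)).mp hζint
  obtain ⟨β', hβ'E⟩ := (IsIntegralClosure.isIntegral_iff (A := 𝓞 E)).mp hint
  have hζ' : IsPrimitiveRoot ζ' p :=
    IsPrimitiveRoot.of_map_of_injective (f := algebraMap (𝓞 F) F) (by rw [hζ'F]; exact hζ)
      (FaithfulSMul.algebraMap_injective _ _)
  refine ⟨ζ', β', hζ', ?_, ?_⟩
  · apply FaithfulSMul.algebraMap_injective (𝓞 E) E
    rw [map_pow, hβ'E, algebraMap_integers_coe, hβ'pow]
  · apply FaithfulSMul.algebraMap_injective (𝓞 E) E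
    show σ (algebraMap (𝓞 E) E β') = algebraMap (𝓞 E) E (algebraMap (𝓞 F) (𝓞 E) ζ' * β')
    rw [map_mul, algebraMap_integers_coe, hβ'E, hζ'F, map_mul, AlgEquiv.commutes, hσ]
    ring

/-- **Kummer dictionary for a given Kummer extension**: `E / F` Galois of degree `p`,
`E ∋ β` with `β ^ p = b`, `σ β = ζ β`, and `b` a local `p`-th power at the primes over `p`. -/
theorem dict_of_kummer {p : ℕ} (hp : p.Prime) (hdeg : Module.finrank F E = p) {ζ : F}
    (hζ : IsPrimitiveRoot ζ p) (b : Fˣ) (β : E) (hβ : β ^ p = algebraMap F E (b : F))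
    (σ : Gal(E/F)) (hσ : σ β = algebraMap F E ζ * β)
    (hloc : ∀ v : HeightOneSpectrum (𝓞 F), (p : 𝓞 F) ∈ v.asIdeal → LocPow p v b)
    (v : HeightOneSpectrum (𝓞 F)) :
    (¬ (p : ℤ) ∣ ordAt v b → v.asIdeal.ramificationIdxIn (𝓞 E) ≠ 1) ∧
    ((p : ℤ) ∣ ordAt v b →
      v.asIdeal.ramificationIdxIn (𝓞 E) = 1 ∧ (Split F E v ↔ LocPow p v b)) := by
  have hGal := helper4373.isGaloisGroup_ringOfIntegers F E
  have hG : Nat.card Gal(E/F) = p := (helper4373.card_gal_eq_finrank F E).trans hdeg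
  constructor
  · intro hnd
    obtain ⟨c, b₁, hb₁⟩ := exists_integer_mul_pow hp.pos b
    obtain ⟨ζ', β', hζ', hβ', hσ'⟩ :=
      exists_integral_kummer F E hp.pos hζ b β hβ σ hσ c b₁ hb₁
    have hb₁0 : b₁ ≠ 0 := by
      rintro rfl
      rw [map_zero] at hb₁
      exact (mul_ne_zero b.ne_zero (pow_ne_zero _ c.ne_zero)) hb₁.symm
    set k := multiplicity v.asIdeal (Ideal.span {b₁}) with hk
    have hval : v.intValuation b₁ = exp (-(k : ℤ)) :=
      v.intValuation_eq_exp_neg_multiplicity hb₁0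
    have hkp : ¬ p ∣ k := by
      intro hdvd
      apply hnd
      have h1 : v.valuation F (b : F) * v.valuation F (c : F) ^ p = exp (-(k : ℤ)) := by
        rw [← hval, ← v.valuation_of_algebraMap (K := F), ← map_pow, ← map_mul]
        exact congrArg _ hb₁.symm
      have h2 : ordAt v b + p * ordAt v c = -k := by
        unfold ordAt
        have := congrArg log h1
        rw [log_mul (helper2613.valuation_unit_ne_zero v b)
          (pow_ne_zero _ (helper2613.valuation_unit_ne_zero v c)), log_pow, log_exp] at this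
        simpa using this
      obtain ⟨m, hm⟩ := hdvd
      refine ⟨-(m : ℤ) - ordAt v c, ?_⟩
      rw [hm] at h2
      push_cast at h2
      linarith
    have hbk : b₁ ∈ v.asIdeal ^ k := (v.intValuation_le_pow_iff_mem _ _).mp hval.le
    have hbk' : b₁ ∉ v.asIdeal ^ (k + 1) := by
      intro h
      have := (v.intValuation_le_pow_iff_mem _ _).mpr h
      rw [hval, exp_le_exp] at this
      push_cast at this
      omega
    have := helper4373.kummer_ramified (G := Gal(E/F)) hp hG v.asIdeal v.ne_bot hβ' hkp hbk hbk'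
    rw [this.2.1]
    exact hp.one_lt.ne'
  · intro hd
    obtain ⟨c, b₂, hb₂, hb₂v⟩ := exists_integer_unit_mul_pow hp.pos v b hd
    obtain ⟨ζ', β', hζ', hβ', hσ'⟩ :=
      exists_integral_kummer F E hp.pos hζ b β hβ σ hσ c b₂ hb₂
    have hb₂u : algebraMap (𝓞 F) F b₂ = ((b * c ^ p : Fˣ) : F) := by
      rw [hb₂]
      simp
    have hLoc_iff : ∀ w : HeightOneSpectrum (𝓞 F), LocPow p w b ↔ LocPow p w (b * c ^ p) := by
      intro w
      constructor
      · intro h
        exact helper1892.locPow_mul h (helper1892.locPow_pow p w c)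
      · intro h
        have := helper1892.locPow_mul h (helper1892.locPow_inv (helper1892.locPow_pow p w c))
        simpa using this
    have hsplit_def : Split F E v ↔ (v.asIdeal.primesOver (𝓞 E)).ncard = p := by
      unfold helper165.Split
      rw [hdeg]
    by_cases hpv : (p : 𝓞 F) ∈ v.asIdeal
    · have hL : LocPow p v b := hloc v hpv
      obtain ⟨y, hy⟩ := exists_pow_sub_mem_span_mul hp hζ' b₂
        (fun w hw M => exists_pow_sub_mem_pow_of_locPow hp.pos w (b * c ^ p) b₂ hb₂u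
          ((hLoc_iff w).1 (hloc w hw)) M) v hpv
      have hyv : y ∉ v.asIdeal := by
        intro hmem
        apply hb₂v
        have h1 : y ^ p - b₂ ∈ v.asIdeal :=
          (Ideal.mul_le_left : v.asIdeal * Ideal.span {(ζ' - 1) ^ p} ≤ v.asIdeal)
            (by rw [mul_comm]; exact hy)
        have := v.asIdeal.sub_mem (v.asIdeal.pow_mem_of_mem hmem p hp.pos) h1
        simpa using this
      have hs : (v.asIdeal.primesOver (𝓞 E)).ncard = p :=
        helper4373.kummer_split_of_mem_high (G := Gal(E/F)) hp hG v.asIdeal v.ne_bot hζ' hσ' hβ'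
          hyv hy
      have he : v.asIdeal.ramificationIdxIn (𝓞 E) = 1 := by
        rcases helper4373.nf_trichotomy F E hp hdeg v.asIdeal with h | h | h
        · exact h.2.1
        · exact absurd (hs.symm.trans h.1) hp.one_lt.ne'
        · exact h.2.1
      exact ⟨he, hsplit_def.trans ⟨fun _ => hL, fun _ => hs⟩⟩
    · have hζv : ζ' - 1 ∉ v.asIdeal := zeta_sub_one_not_mem hp v.asIdeal hζ' hpv
      have : v.asIdeal.IsMaximal := v.isMaximal
      refine ⟨helper4373.kummer_unramified (G := Gal(E/F)) hp hG v.asIdeal hζ' hζv hσ' hβ' hb₂v,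
        ?_⟩
      rw [hsplit_def, hLoc_iff v]
      constructor
      · intro hs
        exact locPow_of_forall_exists_pow_sub_mem hp.pos v (b * c ^ p) b₂ hb₂u hb₂v
          (fun n => helper4373.exists_pow_sub_mem_pow_of_split (G := Gal(E/F)) hp hG v.asIdeal
            v.ne_bot hs hβ' n)
      · intro hL
        obtain ⟨y, hy⟩ := exists_pow_sub_mem_pow_of_locPow hp.pos v (b * c ^ p) b₂ hb₂u hL 1
        rw [pow_one] at hy
        exact (helper4373.kummer_split_iff (G := Gal(E/F)) hp hG v.asIdeal hζ' hζv hσ' hβ'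
          hb₂v).mpr ⟨y, hy⟩

end Ext

/-! ## The Kummer extension `F(b^(1/p))` and the dictionary -/

section Main

open Polynomial

/-- **Kummer dictionary** (`helper165.Stmt_KummerDict`): for `b` not a `p`-th power and a local
`p`-th power at the primes over `p`, the field `E = F(b^(1/p))` is Galois of degree `p` over
`F`, its ramified primes are those with `p ∤ ord_v b`, and among the others the split primes
are those at which `b` is a local `p`-th power. -/
theorem kummerDict (F : Type) [Field F] [NumberField F] (p : ℕ) (hp : p.Prime)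
    (hζ : ∃ ζ : F, IsPrimitiveRoot ζ p) : Fermat.Agent.S14.helper165.Stmt_KummerDict F p := by
  obtain ⟨ζ, hζ⟩ := hζ
  intro b hb hloc
  have hirr : Irreducible (X ^ p - C (b : F)) :=
    X_pow_sub_C_irreducible_of_prime hp (fun y hy => hb
      ⟨Units.mk0 y (by
        rintro rfl
        rw [zero_pow hp.ne_zero] at hy
        exact b.ne_zero hy.symm), Units.ext hy.symm⟩)
  have : Fact (Irreducible (X ^ p - C (b : F))) := ⟨hirr⟩
  have : NeZero p := ⟨hp.ne_zero⟩
  have hprim : (primitiveRoots p F).Nonempty := ⟨ζ, (mem_primitiveRoots hp.pos).2 hζ⟩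
  have := isSplittingField_AdjoinRoot_X_pow_sub_C hprim hirr
  have hGal : IsGalois F (AdjoinRoot (X ^ p - C (b : F))) :=
    isGalois_of_isSplittingField_X_pow_sub_C hprim hirr _
  have hdeg : Module.finrank F (AdjoinRoot (X ^ p - C (b : F))) = p :=
    finrank_of_isSplittingField_X_pow_sub_C hprim hirr _
  have : FiniteDimensional F (AdjoinRoot (X ^ p - C (b : F))) :=
    Module.finite_of_finrank_pos (by rw [hdeg]; exact hp.pos)
  have hNF : NumberField (AdjoinRoot (X ^ p - C (b : F))) := NumberField.of_module_finite F _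
  have hroot : (AdjoinRoot.root (X ^ p - C (b : F))) ^ p
      = algebraMap F (AdjoinRoot (X ^ p - C (b : F))) (b : F) := by
    have h := AdjoinRoot.eval₂_root (X ^ p - C (b : F))
    rw [eval₂_sub, eval₂_pow, eval₂_X, eval₂_C, sub_eq_zero] at h
    exact h
  have hσ : (autAdjoinRootXPowSubC p (b : F) (rootsOfUnity.mkOfPowEq ζ hζ.pow_eq_one))
      (AdjoinRoot.root (X ^ p - C (b : F)))
      = algebraMap F (AdjoinRoot (X ^ p - C (b : F))) ζ * AdjoinRoot.root (X ^ p - C (b : F)) := by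
    rw [autAdjoinRootXPowSubC_root, Algebra.smul_def]
    rfl
  exact ⟨AdjoinRoot (X ^ p - C (b : F)), inferInstance, hNF, inferInstance, hGal, hdeg,
    dict_of_kummer F (AdjoinRoot (X ^ p - C (b : F))) hp hdeg hζ b _ hroot _ hσ hloc⟩

end Main

end

end Fermat.Agent.S14.helper6582
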