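/-
S14 moonshot, module M5 (first inequality), leaf TAME (backup of board row 649; board row 654).
Author: helper7133.

`Stmt_TameIndex F E p` of `helper165_FirstIneqSpec`: for a Galois extension `E / F` of number
fields of prime degree `p` with `ζ_p ∈ F`, and a finite set `R` of primes of `F` which ramify in
`E` and do not lie over `p`:  `[Fˣ : N(Eˣ) · F^{(R,p)}] ≥ p ^ #R` (or the index is infinite).

* (T) tame norm residue: a norm which is a unit at a totally ramified `v` is a `p`-th power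
  residue at `v` (`admAt_norm_of_totally_ramified`);
* (C) count: CRT + existence of non-`p`-th-power residues give `p ^ #R` elements of `Fˣ` which
  are pairwise incongruent modulo `N(Eˣ) · F^{(R,p)}`.
-/
import Mathlib
import Fermat.Agent.S14.helper165_FirstIneqSpec
import Fermat.Agent.S14.helper4373_KummerDecomp

set_option autoImplicit false

open IsDedekindDomain NumberField
open scoped Pointwise

namespace Fermat.Agent.S14.helper7133

open Fermat.Agent.S14.helper165 (normHom Split AdmAt Adm mem_Adm Stmt_TameIndex)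
open Fermat.Agent.S14.helper1892 (LocPowN)

/-! ## Generalities on valuations -/

section Val

variable {K Γ : Type*} [Field K] [LinearOrderedCommGroupWithZero Γ] (v : Valuation K Γ)

theorem val_le_one_of_sub_lt {x c : K} (hc : v c ≤ 1) (h : v (x - c) < 1) : v x ≤ 1 := by
  have e : x = (x - c) + c := by ring
  rw [e]
  exact Valuation.map_add_le v h.le hc

/-- Congruences modulo the maximal ideal of a valuation multiply: if every `f i ≡ c`, then
`∏ f i ≡ c ^ #s`. -/
theorem val_prod_sub_pow_lt_one {ι : Type*} (s : Finset ι) (f : ι → K) (c : K) (hc : v c ≤ 1)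
    (h : ∀ i ∈ s, v (f i - c) < 1) : v (∏ i ∈ s, f i - c ^ s.card) < 1 := by
  classical
  induction s using Finset.induction_on with
  | empty => simp
  | insert a s ha ih =>
    have ih' := ih (fun i hi => h i (Finset.mem_insert_of_mem hi))
    have hprod : v (∏ i ∈ s, f i) ≤ 1 :=
      val_le_one_of_sub_lt v (by rw [map_pow]; exact pow_le_one' hc _) ih'
    have ha' := h a (Finset.mem_insert_self a s)
    rw [Finset.prod_insert ha, Finset.card_insert_of_notMem ha, pow_succ']
    have e : f a * ∏ i ∈ s, f i - c * c ^ s.card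
        = (f a - c) * ∏ i ∈ s, f i + c * (∏ i ∈ s, f i - c ^ s.card) := by ring
    rw [e]
    refine Valuation.map_add_lt v ?_ ?_
    · rw [map_mul]
      calc v (f a - c) * v (∏ i ∈ s, f i) ≤ v (f a - c) * 1 := by gcongr
        _ = v (f a - c) := mul_one _
        _ < 1 := ha'
    · rw [map_mul]
      calc v c * v (∏ i ∈ s, f i - c ^ s.card) ≤ 1 * v (∏ i ∈ s, f i - c ^ s.card) := by gcongr
        _ = v (∏ i ∈ s, f i - c ^ s.card) := one_mul _
        _ < 1 := ih'

end Val

/-! ## (T) Tame norm residue -/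

section Tame

variable (F E : Type) [Field F] [NumberField F] [Field E] [NumberField E] [Algebra F E]
  [IsGalois F E]

omit [NumberField F] [IsGalois F E] in
/-- The `w`-adic valuation of `E` is invariant under the elements of `Gal(E/F)` fixing `w`. -/
theorem valuation_galois_eq (w : HeightOneSpectrum (𝓞 E)) (σ : Gal(E/F))
    (hσ : σ • w.asIdeal = w.asIdeal) (y : E) : w.valuation E (σ y) = w.valuation E y := by
  obtain ⟨n, d, hd, rfl⟩ := IsFractionRing.div_surjective (A := 𝓞 E) y
  have e1 : σ (algebraMap (𝓞 E) E n) = algebraMap (𝓞 E) E (σ • n) := rfl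
  have e2 : σ (algebraMap (𝓞 E) E d) = algebraMap (𝓞 E) E (σ • d) := rfl
  rw [map_div₀, e1, e2, map_div₀, map_div₀, HeightOneSpectrum.valuation_of_algebraMap,
    HeightOneSpectrum.valuation_of_algebraMap, HeightOneSpectrum.valuation_of_algebraMap,
    HeightOneSpectrum.valuation_of_algebraMap,
    helper4373.intValuation_smul w σ hσ n, helper4373.intValuation_smul w σ hσ d]

/-- **(T) tame norm residue**: if `v` is totally ramified in `E` (one prime above it, residue
degree one) and the norm `N y` is a unit at `v`, then `N y` is a `p`-th power residue at `v`. -/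
theorem admAt_norm_of_totally_ramified {p : ℕ} (hp : p.Prime) (hdeg : Module.finrank F E = p)
    (v : HeightOneSpectrum (𝓞 F)) (h1 : (v.asIdeal.primesOver (𝓞 E)).ncard = 1)
    (hf : v.asIdeal.inertiaDegIn (𝓞 E) = 1) (y : Eˣ)
    (hy : v.valuation F ((normHom F E y : Fˣ) : F) = 1) : AdmAt p v (normHom F E y) := by
  classical
  have hGal := helper4373.isGaloisGroup_ringOfIntegers F E
  have hcard : Nat.card Gal(E/F) = p := (helper4373.card_gal_eq_finrank F E).trans hdeg
  have hvmax : v.asIdeal.IsMaximal := v.isMaximal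
  -- the prime `w` over `v`
  obtain ⟨⟨w0, hw0p, hw0l⟩⟩ := Ideal.nonempty_primesOver (S := 𝓞 E) v.asIdeal
  have hw0ne : w0 ≠ ⊥ := Ideal.ne_bot_of_liesOver_of_ne_bot v.ne_bot w0
  let w : HeightOneSpectrum (𝓞 E) := ⟨w0, hw0p, hw0ne⟩
  have hwl : w.asIdeal.LiesOver v.asIdeal := hw0l
  have hw0max : w0.IsMaximal := Ideal.IsMaximal.of_liesOver_isMaximal w0 v.asIdeal
  have hσw : ∀ σ : Gal(E/F), σ • w.asIdeal = w.asIdeal := fun σ =>
    helper4373.smul_eq_of_ncard_eq_one v.asIdeal h1 w0 σ
  -- the norm as a product of conjugates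
  set x : F := ((normHom F E y : Fˣ) : F) with hx
  have hN : algebraMap F E x = ∏ σ : Gal(E/F), σ (y : E) :=
    Algebra.norm_eq_prod_automorphisms F (y : E)
  set e := v.asIdeal.ramificationIdx' w.asIdeal with he
  have he0 : e ≠ 0 := Ideal.IsDedekindDomain.ramificationIdx'_ne_zero_of_liesOver w.asIdeal v.ne_bot
  have hlies : ∀ t : F, v.valuation F t ^ e = w.valuation E (algebraMap F E t) := fun t =>
    HeightOneSpectrum.valuation_liesOver E v w t
  -- `y` is a unit at `w`
  have hwy : w.valuation E (y : E) = 1 := by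
    have h2 : w.valuation E (algebraMap F E x) = (w.valuation E (y : E)) ^ p := by
      rw [hN, map_prod,
        Finset.prod_congr rfl (fun σ _ => valuation_galois_eq F E w σ (hσw σ) (y : E)),
        Finset.prod_const, Finset.card_univ, ← Nat.card_eq_fintype_card, hcard]
    rw [← hlies, hy, one_pow] at h2
    exact (pow_eq_one_iff_of_nonneg zero_le hp.ne_zero).mp h2.symm
  -- integral approximation of `y`, then approximation by an element of `𝓞 F`
  obtain ⟨a, ha⟩ := w.exists_valuation_sub_lt_of_integer (K := E) (x := (y : E)) hwy.le 1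
  have hfw : w0.inertiaDeg (𝓞 F) = 1 := by
    rw [← Ideal.inertiaDegIn_eq_inertiaDeg v.asIdeal w0 Gal(E/F), hf]
  obtain ⟨c0, hc0⟩ := helper4373.exists_sub_mem_of_inertiaDeg_eq_one v.asIdeal w0 hfw a
  set c : F := algebraMap (𝓞 F) F c0 with hc
  have hcE : algebraMap F E c = algebraMap (𝓞 E) E (algebraMap (𝓞 F) (𝓞 E) c0) := by
    rw [hc, ← IsScalarTower.algebraMap_apply, ← IsScalarTower.algebraMap_apply]
  have hyc : w.valuation E ((y : E) - algebraMap F E c) < 1 := by
    have e1 : (y : E) - algebraMap F E c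
        = -(algebraMap (𝓞 E) E a - (y : E))
          + algebraMap (𝓞 E) E (a - algebraMap (𝓞 F) (𝓞 E) c0) := by
      rw [hcE, map_sub]; ring
    rw [e1]
    refine Valuation.map_add_lt _ ?_ ?_
    · rw [Valuation.map_neg]; simpa using ha
    · exact (w.valuation_lt_one_iff_mem (K := E) _).mpr hc0
  have hcle : w.valuation E (algebraMap F E c) ≤ 1 := by
    rw [hcE]; exact w.valuation_le_one _
  have hσyc : ∀ σ : Gal(E/F), w.valuation E (σ (y : E) - algebraMap F E c) < 1 := by
    intro σ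
    have e1 : σ (y : E) - algebraMap F E c = σ ((y : E) - algebraMap F E c) := by
      rw [map_sub, AlgEquiv.commutes]
    rw [e1, valuation_galois_eq F E w σ (hσw σ)]
    exact hyc
  have hprod : w.valuation E (algebraMap F E (x - c ^ p)) < 1 := by
    have h3 := val_prod_sub_pow_lt_one (w.valuation E) Finset.univ
      (fun σ : Gal(E/F) => σ (y : E)) (algebraMap F E c) hcle (fun σ _ => hσyc σ)
    rw [Finset.card_univ, ← Nat.card_eq_fintype_card, hcard, ← hN] at h3
    rwa [map_sub, map_pow]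
  have hxc : v.valuation F (x - c ^ p) < 1 := by
    rw [← hlies] at hprod
    exact (pow_lt_one_iff he0).mp hprod
  have hvc : v.valuation F c = 1 := by
    have h3 : v.valuation F (c ^ p) = 1 := by
      have e1 : c ^ p = x + -(x - c ^ p) := by ring
      rw [e1, ← hy]
      exact Valuation.map_add_eq_of_lt_left _ (by rw [Valuation.map_neg, hy]; exact hxc)
    rw [map_pow] at h3
    exact (pow_eq_one_iff_of_nonneg zero_le hp.ne_zero).mp h3
  have hc0' : c ≠ 0 := by
    intro h
    rw [h, map_zero] at hvc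
    exact zero_ne_one hvc
  refine ⟨hy, Units.mk0 c hc0', ?_⟩
  rw [Units.val_mk0, ← helper165.lt_one_iff_le_exp_neg_one]
  have e2 : x / c ^ p - 1 = (x - c ^ p) / c ^ p := by field_simp
  rw [e2, map_div₀, map_pow, hvc, one_pow, div_one]
  exact hxc

end Tame

/-! ## (C) Non-residues and the count -/

section Count

variable {F : Type} [Field F] [NumberField F]

theorem mem_Adm_singleton {p : ℕ} {v : HeightOneSpectrum (𝓞 F)} {x : Fˣ} :
    x ∈ Adm p ({v} : Finset (HeightOneSpectrum (𝓞 F))) ↔ AdmAt p v x := by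
  constructor
  · intro h
    exact h v (Finset.mem_singleton_self v)
  · intro h u hu
    rw [Finset.mem_singleton] at hu
    subst hu
    exact h

/-- If `ζ_p ∈ F` and `v` does not lie over `p`, there is a non-`p`-th-power residue modulo `v`. -/
theorem exists_nonresidue {p : ℕ} (hp : p.Prime) (hζ : ∃ ζ : F, IsPrimitiveRoot ζ p)
    (v : HeightOneSpectrum (𝓞 F)) (hpv : (p : 𝓞 F) ∉ v.asIdeal) :
    ∃ g : 𝓞 F, ∀ c : 𝓞 F, c ^ p - g ∉ v.asIdeal := by
  obtain ⟨ζ, hζ⟩ := hζ
  have : NeZero p := ⟨hp.ne_zero⟩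
  have hζ'prim : IsPrimitiveRoot hζ.toInteger p := hζ.toInteger_isPrimitiveRoot
  set ζ' : 𝓞 F := hζ.toInteger with hζ'
  have hfin : Finite (𝓞 F ⧸ v.asIdeal) := Ideal.finiteQuotientOfFreeOfNeBot v.asIdeal v.ne_bot
  -- the `p`-th power map of the residue field is not injective, hence not surjective
  have hninj : ¬ Function.Injective (fun x : 𝓞 F ⧸ v.asIdeal => x ^ p) := by
    intro hinj
    have h1 : Ideal.Quotient.mk v.asIdeal ζ' = 1 := by
      apply hinj
      simp only
      rw [← map_pow, hζ'prim.pow_eq_one, map_one, one_pow]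
    have h2 := hζ'prim.geom_sum_eq_zero hp.one_lt
    have h3 : Ideal.Quotient.mk v.asIdeal (∑ i ∈ Finset.range p, ζ' ^ i)
        = ((p : ℕ) : 𝓞 F ⧸ v.asIdeal) := by
      rw [map_sum]
      simp [map_pow, h1]
    rw [h2, map_zero] at h3
    apply hpv
    rw [← Ideal.Quotient.eq_zero_iff_mem, map_natCast]
    exact h3.symm
  have hnsurj : ¬ Function.Surjective (fun x : 𝓞 F ⧸ v.asIdeal => x ^ p) :=
    fun h => hninj (Finite.injective_iff_surjective.mpr h)
  simp only [Function.Surjective, not_forall, not_exists] at hnsurj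
  obtain ⟨gbar, hg⟩ := hnsurj
  obtain ⟨g, rfl⟩ := Ideal.Quotient.mk_surjective gbar
  refine ⟨g, fun c hc => hg (Ideal.Quotient.mk v.asIdeal c) ?_⟩
  rw [← map_pow]
  exact Ideal.Quotient.eq.mpr hc

/-- A non-`p`-th-power residue modulo `v` is not a `p`-th power residue in the sense of
`LocPowN p v 1`. -/
theorem not_locPowN_of_nonresidue {p : ℕ} (hp : p.Prime) (v : HeightOneSpectrum (𝓞 F)) (g : 𝓞 F)
    (hg : ∀ c : 𝓞 F, c ^ p - g ∉ v.asIdeal) (γ : Fˣ) (hγ : (γ : F) = algebraMap (𝓞 F) F g) :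
    ¬ LocPowN p v 1 γ := by
  rintro ⟨y, hy⟩
  rw [← helper165.lt_one_iff_le_exp_neg_one] at hy
  have hgv : v.valuation F (γ : F) = 1 := by
    rw [hγ, HeightOneSpectrum.valuation_eq_one_iff_notMem]
    intro h
    apply hg 0
    simpa [hp.ne_zero] using h
  have h1 : v.valuation F ((γ : F) / (y : F) ^ p) = 1 :=
    helper1892.val_eq_one_of_sub_one_lt v hy
  have hyv : v.valuation F (y : F) = 1 := by
    rw [map_div₀, hgv, map_pow, one_div, inv_eq_one] at h1
    exact (pow_eq_one_iff_of_nonneg zero_le hp.ne_zero).mp h1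
  obtain ⟨b, hb⟩ := v.exists_valuation_sub_lt_of_integer (K := F) (x := (y : F)) hyv.le 1
  have hb' : v.valuation F (algebraMap (𝓞 F) F b - (y : F)) < 1 := by simpa using hb
  have hbp : v.valuation F ((algebraMap (𝓞 F) F b) ^ p - (y : F) ^ p) < 1 := by
    have h2 := val_prod_sub_pow_lt_one (v.valuation F) (Finset.range p)
      (fun _ => algebraMap (𝓞 F) F b) (y : F) hyv.le (fun _ _ => hb')
    simpa using h2
  have hgy : v.valuation F ((γ : F) - (y : F) ^ p) < 1 := by
    have hyp : (y : F) ^ p ≠ 0 := pow_ne_zero _ y.ne_zero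
    have e : (γ : F) - (y : F) ^ p = ((γ : F) / (y : F) ^ p - 1) * (y : F) ^ p := by
      field_simp
    rw [e, map_mul, map_pow, hyv, one_pow, mul_one]
    exact hy
  have hfin : v.valuation F (algebraMap (𝓞 F) F (b ^ p - g)) < 1 := by
    have e : algebraMap (𝓞 F) F (b ^ p - g)
        = ((algebraMap (𝓞 F) F b) ^ p - (y : F) ^ p) + -((γ : F) - (y : F) ^ p) := by
      rw [map_sub, map_pow, hγ]; ring
    rw [e]
    exact Valuation.map_add_lt _ hbp (by rw [Valuation.map_neg]; exact hgy)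
  exact hg b ((v.valuation_lt_one_iff_mem (K := F) _).mp hfin)

/-- CRT: for every `v ∈ R` an element `γ v ∈ Fˣ` which is a unit and a non-`p`-th-power residue
at `v`, and `≡ 1` modulo the other primes of `R`. -/
theorem exists_crt_nonresidues {p : ℕ} (hp : p.Prime) (hζ : ∃ ζ : F, IsPrimitiveRoot ζ p)
    (R : Finset (HeightOneSpectrum (𝓞 F))) (hR : ∀ v ∈ R, (p : 𝓞 F) ∉ v.asIdeal) :
    ∃ γ : HeightOneSpectrum (𝓞 F) → Fˣ, ∀ v ∈ R,
      v.valuation F (γ v : F) = 1 ∧ ¬ LocPowN p v 1 (γ v) ∧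
      ∀ v' ∈ R, v' ≠ v → v'.valuation F ((γ v : F) - 1) < 1 := by
  classical
  have key : ∀ v : HeightOneSpectrum (𝓞 F), ∃ γ : Fˣ, v ∈ R →
      (v.valuation F (γ : F) = 1 ∧ ¬ LocPowN p v 1 γ ∧
        ∀ v' ∈ R, v' ≠ v → v'.valuation F ((γ : F) - 1) < 1) := by
    intro v
    by_cases hv : v ∈ R
    swap
    · exact ⟨1, fun h => absurd h hv⟩
    obtain ⟨g0, hg0⟩ := exists_nonresidue hp hζ v (hR v hv)
    obtain ⟨g, hg⟩ := IsDedekindDomain.exists_forall_sub_mem_ideal (s := R)
      (fun v' : HeightOneSpectrum (𝓞 F) => v'.asIdeal) (fun _ => 1) (fun v' _ => v'.prime)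
      (fun v' _ v'' _ hne h => hne (HeightOneSpectrum.ext h))
      (fun v' : R => if (v' : HeightOneSpectrum (𝓞 F)) = v then g0 else 1)
    have hgv : g - g0 ∈ v.asIdeal := by simpa using hg v hv
    have hgres : ∀ c : 𝓞 F, c ^ p - g ∉ v.asIdeal := by
      intro c hc
      apply hg0 c
      have e : c ^ p - g0 = (c ^ p - g) + (g - g0) := by ring
      rw [e]
      exact v.asIdeal.add_mem hc hgv
    have hgnot : g ∉ v.asIdeal := by
      intro h
      apply hgres 0
      simpa [hp.ne_zero] using h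
    have hg_ne : algebraMap (𝓞 F) F g ≠ 0 := by
      intro h
      have h0 : g = 0 := by
        apply FaithfulSMul.algebraMap_injective (𝓞 F) F
        simpa using h
      apply hgnot
      rw [h0]
      exact Submodule.zero_mem _
    refine ⟨Units.mk0 _ hg_ne, fun _ => ⟨?_, ?_, ?_⟩⟩
    · rw [Units.val_mk0, HeightOneSpectrum.valuation_eq_one_iff_notMem]
      exact hgnot
    · exact not_locPowN_of_nonresidue hp v g hgres _ rfl
    · intro v' hv' hne
      have h1 : g - 1 ∈ v'.asIdeal := by simpa [hne] using hg v' hv'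
      rw [Units.val_mk0]
      have e : algebraMap (𝓞 F) F g - 1 = algebraMap (𝓞 F) F (g - 1) := by simp
      rw [e]
      exact (v'.valuation_lt_one_iff_mem (K := F) _).mpr h1
  choose γ hγ using key
  exact ⟨γ, hγ⟩

/-- If `g` is a unit at `v` which is not a `p`-th power residue, then `g ^ k` is a `p`-th power
residue only if `p ∣ k`. -/
theorem dvd_of_zpow_mem_Adm {p : ℕ} (hp : p.Prime) (v : HeightOneSpectrum (𝓞 F)) (g : Fˣ)
    (hg1 : v.valuation F (g : F) = 1) (hg : ¬ LocPowN p v 1 g) (k : ℤ)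
    (hk : g ^ k ∈ Adm p ({v} : Finset (HeightOneSpectrum (𝓞 F)))) : (p : ℤ) ∣ k := by
  by_contra hndvd
  have hcop : IsCoprime k (p : ℤ) := by
    rw [isCoprime_comm]
    exact (Nat.prime_iff_prime_int.mp hp).coprime_iff_not_dvd.mpr hndvd
  obtain ⟨s, t, hst⟩ := hcop
  apply hg
  have h1 : g = (g ^ k) ^ s * (g ^ t) ^ p := by
    rw [← zpow_mul, ← zpow_natCast (g ^ t) p, ← zpow_mul, ← zpow_add, mul_comm k s, hst, zpow_one]
  have h2 : (g ^ t) ^ p ∈ Adm p ({v} : Finset (HeightOneSpectrum (𝓞 F))) := by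
    rw [mem_Adm_singleton]
    refine ⟨?_, g ^ t, ?_⟩
    · simp [hg1]
    · have hne : ((g ^ t : Fˣ) : F) ^ p ≠ 0 := pow_ne_zero _ (Units.ne_zero _)
      rw [Units.val_pow_eq_pow_val, div_self hne, sub_self, map_zero]
      exact zero_le
  have h3 : g ∈ Adm p ({v} : Finset (HeightOneSpectrum (𝓞 F))) := by
    rw [h1]
    exact Subgroup.mul_mem _ (Subgroup.zpow_mem _ hk s) h2
  exact (mem_Adm_singleton.mp h3).2

end Count

/-! ## The leaf -/

theorem comm_group_aux {G : Type*} [CommGroup G] (X Y ra rb : G) :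
    Y * X⁻¹ = (X * ra)⁻¹ * (Y * rb) * (ra * rb⁻¹) := by
  rw [mul_inv_rev, eq_comm]
  calc ra⁻¹ * X⁻¹ * (Y * rb) * (ra * rb⁻¹) = (ra⁻¹ * ra) * (rb * rb⁻¹) * (Y * X⁻¹) := by ac_rfl
    _ = Y * X⁻¹ := by simp

/-- **Leaf TAME of M5** (`helper165.Stmt_TameIndex`). -/
theorem tameIndex (F E : Type) [Field F] [NumberField F] [Field E] [NumberField E] [Algebra F E]
    [IsGalois F E] (p : ℕ) (hp : p.Prime) (hζ : ∃ ζ : F, IsPrimitiveRoot ζ p)
    (hdeg : Module.finrank F E = p) : Stmt_TameIndex F E p := by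
  classical
  intro R hRram hRp
  set H := (normHom F E).range ⊔ Adm p R with hH
  by_cases hidx : H.index = 0
  · exact Or.inl hidx
  right
  -- the primes of `R` are totally ramified
  have htot : ∀ v ∈ R, (v.asIdeal.primesOver (𝓞 E)).ncard = 1 ∧
      v.asIdeal.inertiaDegIn (𝓞 E) = 1 := by
    intro v hv
    rcases helper4373.nf_trichotomy F E hp hdeg v.asIdeal with h | h | h
    · exact absurd h.2.1 (hRram v hv)
    · exact ⟨h.1, h.2.2⟩
    · exact absurd h.2.1 (hRram v hv)
  obtain ⟨γ, hγ⟩ := exists_crt_nonresidues hp hζ R hRp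
  let Gf : (R → Fin p) → Fˣ := fun a => ∏ v : R, γ v ^ ((a v : ℕ) : ℤ)
  have hinj : Function.Injective (fun a : R → Fin p => (QuotientGroup.mk (Gf a) : Fˣ ⧸ H)) := by
    intro a b hab
    have hmem : (Gf a)⁻¹ * Gf b ∈ H := QuotientGroup.eq.mp hab
    obtain ⟨n, hn, z, hz, hnz⟩ := Subgroup.mem_sup.mp hmem
    obtain ⟨y, rfl⟩ := hn
    funext v0
    obtain ⟨v, hv⟩ := v0
    have hγmem : ∀ v' : R, (v' : HeightOneSpectrum (𝓞 F)) ≠ v →
        γ v' ∈ Adm p ({v} : Finset (HeightOneSpectrum (𝓞 F))) := by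
      intro v' hne
      apply helper165.mem_Adm_of_sub_one
      intro u hu
      rw [Finset.mem_singleton] at hu
      subst hu
      exact (hγ v' v'.2).2.2 u hv (Ne.symm hne)
    have hzv : z ∈ Adm p ({v} : Finset (HeightOneSpectrum (𝓞 F))) := by
      rw [mem_Adm_singleton]
      exact hz v hv
    have hdec : ∀ a : R → Fin p, ∃ r ∈ Adm p ({v} : Finset (HeightOneSpectrum (𝓞 F))),
        Gf a = γ v ^ ((a ⟨v, hv⟩ : ℕ) : ℤ) * r := by
      intro a
      refine ⟨∏ v' ∈ Finset.univ.erase (⟨v, hv⟩ : R), γ v' ^ ((a v' : ℕ) : ℤ), ?_, ?_⟩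
      · apply Subgroup.prod_mem
        intro v' hv'
        apply Subgroup.zpow_mem
        apply hγmem
        intro h
        exact (Finset.ne_of_mem_erase hv') (Subtype.ext h)
      · exact (Finset.mul_prod_erase Finset.univ (fun v' : R => γ v' ^ ((a v' : ℕ) : ℤ))
          (Finset.mem_univ _)).symm
    obtain ⟨ra, hra, hGa⟩ := hdec a
    obtain ⟨rb, hrb, hGb⟩ := hdec b
    have hUnit : ∀ x ∈ Adm p ({v} : Finset (HeightOneSpectrum (𝓞 F))),
        v.valuation F ((x : Fˣ) : F) = 1 := fun x hx => (mem_Adm_singleton.mp hx).1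
    have hγv1 := (hγ v hv).1
    have hNy : v.valuation F ((normHom F E y : Fˣ) : F) = 1 := by
      have e : normHom F E y = (Gf a)⁻¹ * Gf b * z⁻¹ := by
        rw [← hnz, mul_inv_cancel_right]
      rw [e, hGa, hGb]
      simp [map_mul, map_inv₀, hγv1, hUnit ra hra, hUnit rb hrb, hUnit z hzv]
    have hNyA : normHom F E y ∈ Adm p ({v} : Finset (HeightOneSpectrum (𝓞 F))) := by
      rw [mem_Adm_singleton]
      exact admAt_norm_of_totally_ramified F E hp hdeg v (htot v hv).1 (htot v hv).2 y hNy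
    have hpow : γ v ^ (((b ⟨v, hv⟩ : ℕ) : ℤ) - ((a ⟨v, hv⟩ : ℕ) : ℤ))
        ∈ Adm p ({v} : Finset (HeightOneSpectrum (𝓞 F))) := by
      have e : γ v ^ (((b ⟨v, hv⟩ : ℕ) : ℤ) - ((a ⟨v, hv⟩ : ℕ) : ℤ))
          = (normHom F E y * z) * (ra * rb⁻¹) := by
        rw [hnz, hGa, hGb, zpow_sub]
        exact comm_group_aux _ _ ra rb
      rw [e]
      exact Subgroup.mul_mem _ (Subgroup.mul_mem _ hNyA hzv)
        (Subgroup.mul_mem _ hra (Subgroup.inv_mem _ hrb))
    have hdvd := dvd_of_zpow_mem_Adm hp v (γ v) hγv1 (hγ v hv).2.1 _ hpow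
    apply Fin.ext
    have ha := (a ⟨v, hv⟩).isLt
    have hb := (b ⟨v, hv⟩).isLt
    have h1 : ((a ⟨v, hv⟩ : ℕ) : ℤ) ≡ ((b ⟨v, hv⟩ : ℕ) : ℤ) [ZMOD (p : ℤ)] :=
      (Int.modEq_iff_dvd).mpr hdvd
    unfold Int.ModEq at h1
    rw [Int.emod_eq_of_lt (by positivity) (by exact_mod_cast ha),
      Int.emod_eq_of_lt (by positivity) (by exact_mod_cast hb)] at h1
    exact_mod_cast h1
  have : Finite (Fˣ ⧸ H) := by
    apply Nat.finite_of_card_ne_zero
    rwa [← Subgroup.index_eq_card]
  have hle := Nat.card_le_card_of_injective _ hinj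
  rw [Nat.card_fun, Nat.card_fin, Nat.card_eq_finsetCard, ← Subgroup.index_eq_card] at hle
  exact hle

end Fermat.Agent.S14.helper7133
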