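/-
S14 / M5 leaf NORMVAL (board #647, seat helper8091): valuations of norms in a Galois extension
`E / F` of number fields of prime degree `p`.

* `normInert` : `helper165.Stmt_NormInert F E p`
* `normGen`   : `helper165.Stmt_NormGen F E p`

Main tool: `valuation_norm_pow`, the formula
`v(N_{E/F} y) ^ e(v) = ∏_{σ ∈ Gal(E/F)} (σ⁻¹ w)(y)` for any prime `w` of `E` over `v`.
-/
import Mathlib
import Fermat.Agent.S14.helper165_FirstIneqSpec
import Fermat.Agent.S14.helper4373_KummerDecomp

set_option autoImplicit false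
set_option linter.unusedSectionVars false

open IsDedekindDomain NumberField
open scoped Pointwise

namespace Fermat.Agent.S14.helper8091

open Fermat.Agent.S14.helper2613 (ordAt)
open Fermat.Agent.S14.helper1892 (ClassGen)
open Fermat.Agent.S14.helper165 (normHom Split IsAbove Stmt_NormInert Stmt_NormGen)

noncomputable section

/-! ## Translating a height-one prime by an automorphism -/

section Dedekind

variable {B G : Type*} [CommRing B] [IsDedekindDomain B] [Group G] [MulSemiringAction G B]

open HeightOneSpectrum WithZero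

/-- The translate `σ • w` of a height-one prime by a ring automorphism. -/
def smulPrime (σ : G) (w : HeightOneSpectrum B) : HeightOneSpectrum B where
  asIdeal := σ • w.asIdeal
  isPrime := Ideal.IsPrime.smul σ
  ne_bot := fun h => w.ne_bot (by
    have h2 := congrArg (fun I : Ideal B => σ⁻¹ • I) h
    simpa using h2)

@[simp] theorem smulPrime_asIdeal (σ : G) (w : HeightOneSpectrum B) :
    (smulPrime σ w).asIdeal = σ • w.asIdeal := rfl

theorem smulPrime_smulPrime_inv (σ : G) (w : HeightOneSpectrum B) :
    smulPrime σ (smulPrime σ⁻¹ w) = w := by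
  apply HeightOneSpectrum.ext
  simp

theorem smulPrime_inv_smulPrime (σ : G) (w : HeightOneSpectrum B) :
    smulPrime σ⁻¹ (smulPrime σ w) = w := by
  apply HeightOneSpectrum.ext
  simp

theorem intValuation_smulPrime_le (w : HeightOneSpectrum B) (σ : G) (x : B) :
    (smulPrime σ w).intValuation (σ • x) ≤ w.intValuation x := by
  rcases eq_or_ne x 0 with rfl | hx
  · simp
  · rw [intValuation_eq_exp_neg_multiplicity w hx, intValuation_le_pow_iff_mem]
    have h1 : x ∈ w.asIdeal ^ (multiplicity w.asIdeal (Ideal.span {x})) := by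
      rw [← intValuation_le_pow_iff_mem, intValuation_eq_exp_neg_multiplicity w hx]
    have h2 := Ideal.smul_mem_pointwise_smul σ x _ h1
    rwa [smul_pow'] at h2

/-- The `σ • w`-adic valuation of `σ • x` is the `w`-adic valuation of `x`. -/
theorem intValuation_smulPrime (w : HeightOneSpectrum B) (σ : G) (x : B) :
    (smulPrime σ w).intValuation (σ • x) = w.intValuation x := by
  apply le_antisymm (intValuation_smulPrime_le w σ x)
  have h := intValuation_smulPrime_le (smulPrime σ w) σ⁻¹ (σ • x)
  rw [smulPrime_inv_smulPrime, inv_smul_smul] at h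
  exact h

end Dedekind

/-! ## Number fields -/

section NF

variable (F E : Type) [Field F] [NumberField F] [Field E] [NumberField E] [Algebra F E]
  [IsGalois F E]

/-- The `σ • w`-adic valuation of `σ y` is the `w`-adic valuation of `y`. -/
theorem valuation_smulPrime (w : HeightOneSpectrum (𝓞 E)) (σ : Gal(E/F)) (y : E) :
    (smulPrime σ w).valuation E (σ y) = w.valuation E y := by
  obtain ⟨a, b, hb, rfl⟩ := IsFractionRing.div_surjective (A := 𝓞 E) y
  have h1 : ∀ a : 𝓞 E, σ (algebraMap (𝓞 E) E a) = algebraMap (𝓞 E) E (σ • a) := fun a => rfl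
  rw [map_div₀, h1, h1, map_div₀, map_div₀, HeightOneSpectrum.valuation_of_algebraMap,
    HeightOneSpectrum.valuation_of_algebraMap, HeightOneSpectrum.valuation_of_algebraMap,
    HeightOneSpectrum.valuation_of_algebraMap, intValuation_smulPrime, intValuation_smulPrime]

/-- **Valuation of a norm**: for a prime `w` of `E` over `v`,
`v(N y) ^ e = ∏_σ (σ⁻¹ w)(y)`. -/
theorem valuation_norm_pow (v : HeightOneSpectrum (𝓞 F)) (w : HeightOneSpectrum (𝓞 E))
    [w.asIdeal.LiesOver v.asIdeal] (y : E) :
    v.valuation F (Algebra.norm F y) ^ v.asIdeal.ramificationIdxIn (𝓞 E)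
      = ∏ σ : Gal(E/F), (smulPrime σ⁻¹ w).valuation E y := by
  have := helper4373.isGaloisGroup_ringOfIntegers F E
  rw [Ideal.ramificationIdxIn_eq_ramificationIdx v.asIdeal w.asIdeal Gal(E/F),
    ← Ideal.ramificationIdx'_eq_ramificationIdx v.asIdeal w.asIdeal v.ne_bot,
    HeightOneSpectrum.valuation_liesOver E v w, Algebra.norm_eq_prod_automorphisms, map_prod]
  refine Finset.prod_congr rfl fun σ _ => ?_
  have h := valuation_smulPrime F E (smulPrime σ⁻¹ w) σ y
  rw [smulPrime_smulPrime_inv] at h
  exact h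

/-- A prime of `E` over a prime `v' ∉ S` is not in `S'`. -/
theorem not_mem_above {S : Finset (HeightOneSpectrum (𝓞 F))}
    {S' : Finset (HeightOneSpectrum (𝓞 E))} (hAb : IsAbove F E S S')
    (v' : HeightOneSpectrum (𝓞 F)) (w' : HeightOneSpectrum (𝓞 E)) (hv' : v' ∉ S)
    [hl : w'.asIdeal.LiesOver v'.asIdeal] : w' ∉ S' := by
  intro hw'
  obtain ⟨v0, hv0, h0⟩ := (hAb w').mp hw'
  have h1 : v0 = v' :=
    HeightOneSpectrum.ext (h0.trans (Ideal.over_def w'.asIdeal v'.asIdeal).symm)
  exact hv' (h1 ▸ hv0)

/-- Existence of a height-one prime of `E` over a height-one prime of `F`. -/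
theorem exists_prime_over (v : HeightOneSpectrum (𝓞 F)) :
    ∃ w : HeightOneSpectrum (𝓞 E), w.asIdeal.LiesOver v.asIdeal := by
  obtain ⟨⟨P, hPp, hPl⟩⟩ : Nonempty (v.asIdeal.primesOver (𝓞 E)) := inferInstance
  exact ⟨⟨P, hPp, Ideal.ne_bot_of_liesOver_of_ne_bot v.ne_bot P⟩, hPl⟩

instance smulPrime_liesOver (v : HeightOneSpectrum (𝓞 F)) (w : HeightOneSpectrum (𝓞 E))
    [w.asIdeal.LiesOver v.asIdeal] (σ : Gal(E/F)) :
    (smulPrime σ w).asIdeal.LiesOver v.asIdeal :=
  inferInstanceAs ((σ • w.asIdeal).LiesOver v.asIdeal)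

/-- **(A1)** norms have valuation divisible by `p` at the inert primes. -/
theorem normInert (p : ℕ) (hp : p.Prime) (hdeg : Module.finrank F E = p) :
    Stmt_NormInert F E p := by
  intro y v hns he
  have hG := helper4373.isGaloisGroup_ringOfIntegers F E
  have hcard : (v.asIdeal.primesOver (𝓞 E)).ncard = 1 := by
    rcases helper4373.nf_trichotomy F E hp hdeg v.asIdeal with h | h | h
    · exact absurd (h.1.trans hdeg.symm) hns
    · exact absurd (he.symm.trans h.2.1) hp.one_lt.ne
    · exact h.1
  obtain ⟨w, hwl⟩ := exists_prime_over F E v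
  have key := valuation_norm_pow F E v w (y : E)
  rw [he, pow_one] at key
  have hfix : ∀ σ : Gal(E/F), smulPrime σ⁻¹ w = w := by
    intro σ
    apply HeightOneSpectrum.ext
    exact helper4373.smul_eq_of_ncard_eq_one v.asIdeal hcard w.asIdeal σ⁻¹
  simp only [hfix, Finset.prod_const, Finset.card_univ] at key
  have hc : Fintype.card Gal(E/F) = p := by
    rw [← Nat.card_eq_fintype_card, helper4373.card_gal_eq_finrank, hdeg]
  change (p : ℤ) ∣ WithZero.log (v.valuation F (Algebra.norm F (y : E)))
  rw [key, hc, WithZero.log_pow, nsmul_eq_mul]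
  exact dvd_mul_right _ _

/-- If `v` splits completely, the stabiliser of a prime `w` over `v` is trivial. -/
theorem eq_one_of_smulPrime_eq_of_split
    (v : HeightOneSpectrum (𝓞 F)) (hs : Split F E v) (w : HeightOneSpectrum (𝓞 E))
    [hwl : w.asIdeal.LiesOver v.asIdeal] (σ : Gal(E/F)) (h : smulPrime σ w = w) : σ = 1 := by
  have hG := helper4373.isGaloisGroup_ringOfIntegers F E
  have hfin : Finite (v.asIdeal.primesOver (𝓞 E)) := inferInstance
  let f : Gal(E/F) → v.asIdeal.primesOver (𝓞 E) := fun τ =>
    ⟨τ • w.asIdeal, inferInstance, inferInstance⟩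
  have hsurj : Function.Surjective f := by
    rintro ⟨Q, hQp, hQl⟩
    obtain ⟨τ, hτ⟩ := Ideal.exists_smul_eq_of_isGaloisGroup v.asIdeal w.asIdeal Q Gal(E/F)
    exact ⟨τ, Subtype.ext hτ⟩
  have hle : Nat.card Gal(E/F) ≤ Nat.card (v.asIdeal.primesOver (𝓞 E)) := by
    rw [Nat.card_coe_set_eq, hs, helper4373.card_gal_eq_finrank]
  have hinj : Function.Injective f := (hsurj.bijective_of_nat_card_le hle).injective
  apply hinj
  apply Subtype.ext
  have h2 := congrArg HeightOneSpectrum.asIdeal h
  simpa [f] using h2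

open Classical in
/-- **(A2)** every prime `v ∉ S` is, up to primes in `S`, the divisor of a norm (`v` split) or
its `p`-th multiple is (`v` inert). -/
theorem normGen (p : ℕ) (hp : p.Prime) (hdeg : Module.finrank F E = p) :
    Stmt_NormGen F E p := by
  intro S S' hAb hGen hunr v hv
  have hG := helper4373.isGaloisGroup_ringOfIntegers F E
  obtain ⟨w, hwl⟩ := exists_prime_over F E v
  obtain ⟨t, ht, ht'⟩ := hGen w (not_mem_above F E hAb v w hv)
  have hc : Fintype.card Gal(E/F) = p := by
    rw [← Nat.card_eq_fintype_card, helper4373.card_gal_eq_finrank, hdeg]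
  refine ⟨normHom F E t⁻¹, ⟨t⁻¹, rfl⟩, ?_, ?_⟩
  · have key := valuation_norm_pow F E v w ((t⁻¹ : Eˣ) : E)
    rw [hunr v hv, pow_one] at key
    have hfac : ∀ σ : Gal(E/F), (smulPrime σ⁻¹ w).valuation E ((t⁻¹ : Eˣ) : E)
        = if smulPrime σ⁻¹ w = w then WithZero.exp (1 : ℤ) else 1 := by
      intro σ
      split_ifs with h
      · rw [h, Units.val_inv_eq_inv_val, map_inv₀, ht, WithZero.exp_neg, inv_inv]
      · rw [Units.val_inv_eq_inv_val, map_inv₀,
          ht' _ (not_mem_above F E hAb v (smulPrime σ⁻¹ w) hv) h, inv_one]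
    change WithZero.log (v.valuation F (Algebra.norm F ((t⁻¹ : Eˣ) : E))) = _
    rw [key]
    by_cases hs : Split F E v
    · rw [if_pos hs]
      have h1 : ∀ σ : Gal(E/F), (smulPrime σ⁻¹ w).valuation E ((t⁻¹ : Eˣ) : E)
          = if σ = 1 then WithZero.exp (1 : ℤ) else 1 := by
        intro σ
        rw [hfac σ]
        by_cases hσ : σ = 1
        · subst hσ
          have : smulPrime (1 : Gal(E/F))⁻¹ w = w := by
            apply HeightOneSpectrum.ext
            simp
          rw [if_pos this, if_pos rfl]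
        · rw [if_neg hσ, if_neg]
          intro h
          apply hσ
          have := eq_one_of_smulPrime_eq_of_split F E v hs w σ⁻¹ h
          simpa using this
      simp only [h1, Finset.prod_ite_eq', Finset.mem_univ, if_true, WithZero.log_exp]
    · rw [if_neg hs]
      have hcard : (v.asIdeal.primesOver (𝓞 E)).ncard = 1 := by
        rcases helper4373.nf_trichotomy F E hp hdeg v.asIdeal with h | h | h
        · exact absurd (h.1.trans hdeg.symm) hs
        · exact absurd ((hunr v hv).symm.trans h.2.1) hp.one_lt.ne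
        · exact h.1
      have hfix : ∀ σ : Gal(E/F), smulPrime σ⁻¹ w = w := by
        intro σ
        apply HeightOneSpectrum.ext
        exact helper4373.smul_eq_of_ncard_eq_one v.asIdeal hcard w.asIdeal σ⁻¹
      have hfac' : ∀ σ : Gal(E/F), (smulPrime σ⁻¹ w).valuation E ((t⁻¹ : Eˣ) : E)
          = WithZero.exp (1 : ℤ) := fun σ => by rw [hfac σ, if_pos (hfix σ)]
      simp only [hfac', Finset.prod_const, Finset.card_univ, hc]
      rw [WithZero.log_pow, WithZero.log_exp, nsmul_eq_mul, mul_one]
  · intro v' hv' hne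
    obtain ⟨w', hwl'⟩ := exists_prime_over F E v'
    have key := valuation_norm_pow F E v' w' ((t⁻¹ : Eˣ) : E)
    rw [hunr v' hv', pow_one] at key
    have hfac : ∀ σ : Gal(E/F), (smulPrime σ⁻¹ w').valuation E ((t⁻¹ : Eˣ) : E) = 1 := by
      intro σ
      have hne' : smulPrime σ⁻¹ w' ≠ w := by
        intro h
        apply hne
        have hl : (smulPrime σ⁻¹ w').asIdeal.LiesOver v'.asIdeal := inferInstance
        rw [h] at hl
        exact HeightOneSpectrum.ext
          ((Ideal.over_def w.asIdeal v'.asIdeal).trans (Ideal.over_def w.asIdeal v.asIdeal).symm)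
      rw [Units.val_inv_eq_inv_val, map_inv₀,
        ht' _ (not_mem_above F E hAb v' (smulPrime σ⁻¹ w') hv') hne', inv_one]
    change WithZero.log (v'.valuation F (Algebra.norm F ((t⁻¹ : Eˣ) : E))) = 0
    rw [key]
    simp only [hfac, Finset.prod_const_one, WithZero.log_one]

end NF

end

end Fermat.Agent.S14.helper8091
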