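import Mathlib
import Fermat.Agent.S14.helper2613_SUnit
import Fermat.Agent.S14.helper1892_M6Defs
import Fermat.Agent.S14.helper175_ClassGen
import Fermat.Agent.S14.helper5304_M5Approx
import Fermat.Agent.S14.helper8091_M5NormVal
import Fermat.Agent.S14.helper7133_M5Tame
import Fermat.Agent.S14.helper6582_M5KummerDict
import Fermat.Agent.S14.helper3036_M5SUnitIdx
import Fermat.Agent.S14.helper165_FirstIneqSpec
import Fermat.Agent.S14.helper165_FirstIneqAsm

/-!
# S14 / M5 (first inequality): final wiring  (helper165)

`stmt_M5` : `helper1892.Stmt_M5 F p` for every number field `F` containing a primitive `p`-th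
root of unity, `p` an odd prime -- unconditional.  All leaves are plugged in:
`helper8091.normInert/normGen`, `helper5304.approx`, `helper175.classGen`,
`helper7133.tameIndex`, `helper6582.kummerDict`, `helper3036.sUnitNormIndex`.

The conditional forms `stmt_M5_of_three`, `stmt_M5_of_two` are kept for consumers that
want to plug their own leaves.
-/

set_option autoImplicit false

open IsDedekindDomain NumberField

namespace Fermat.Agent.S14.helper165

/-- The extension form of the first inequality from the two counting leaves. -/
theorem fiExtAt_of_two (F E : Type) [Field F] [NumberField F] [Field E] [NumberField E]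
    [Algebra F E] [IsGalois F E] (p : ℕ) (hp : p.Prime) (hdeg : Module.finrank F E = p)
    (hS : Stmt_SUnitNormIndex F E p) (hT : Stmt_TameIndex F E p) : Stmt_FIExtAt F E p := by
  have := Fact.mk hp
  exact fiExtAt_of_leaves F E p hdeg (helper8091.normInert F E p hp hdeg)
    (helper8091.normGen F E p hp hdeg) hS hT (helper5304.approx F)
    (goodSet F E helper175.classGen helper175.classGen)

/-- **M5** (`helper1892.Stmt_M5 F p`) from the three remaining leaves. -/
theorem stmt_M5_of_three (F : Type) [Field F] [NumberField F] (p : ℕ) (hp : p.Prime)
    (hD : Stmt_KummerDict F p)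
    (hS : ∀ (E : Type) [Field E] [NumberField E] [Algebra F E] [IsGalois F E],
      Module.finrank F E = p → Stmt_SUnitNormIndex F E p)
    (hT : ∀ (E : Type) [Field E] [NumberField E] [Algebra F E] [IsGalois F E],
      Module.finrank F E = p → Stmt_TameIndex F E p) :
    helper1892.Stmt_M5 F p :=
  stmt_M5_of F p hD (fun E _ _ _ _ hdeg => fiExtAt_of_two F E p hp hdeg (hS E hdeg) (hT E hdeg))

/-- **M5** from the Kummer dictionary and the S-unit norm index (tame index plugged in). -/
theorem stmt_M5_of_two (F : Type) [Field F] [NumberField F] (p : ℕ) (hp : p.Prime)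
    (hζ : ∃ ζ : F, IsPrimitiveRoot ζ p) (hD : Stmt_KummerDict F p)
    (hS : ∀ (E : Type) [Field E] [NumberField E] [Algebra F E] [IsGalois F E],
      Module.finrank F E = p → Stmt_SUnitNormIndex F E p) :
    helper1892.Stmt_M5 F p :=
  stmt_M5_of_three F p hp hD hS
    (fun E _ _ _ _ hdeg => helper7133.tameIndex F E p hp hζ hdeg)

/-- **M5, unconditional** (the first inequality of class field theory for Kummer extensions of
prime degree, in the shape `helper1892.Stmt_M5`): for a number field `F` containing a primitive
`p`-th root of unity (`p` an odd prime), every `b ∈ Fˣ` which is not a `p`-th power but is a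
local `p`-th power at all primes above `p` has a prime `v` (`v ∤ p`, `p ∣ ord_v b`) at which
it is not a local `p`-th power, with the extra separation property of `Stmt_M5`. -/
theorem stmt_M5 (F : Type) [Field F] [NumberField F] (p : ℕ) (hp : p.Prime) (hp2 : p ≠ 2)
    (hζ : ∃ ζ : F, IsPrimitiveRoot ζ p) : helper1892.Stmt_M5 F p :=
  stmt_M5_of_two F p hp hζ (helper6582.kummerDict F p hp hζ)
    (fun E _ _ _ _ hdeg => helper3036.sUnitNormIndex F E p hp hp2 hζ hdeg)

end Fermat.Agent.S14.helper165
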