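/-
S14 moonshot, module M6 = SECOND INEQUALITY (Tate's counting proof, completion-free).
Architect/prover: helper1892.  This file: the CORE of M6, hypothesis-passing:

  Stmt_M5 → Stmt_SelectOne → Stmt_LocalCyclic → Stmt_LocIndex → Stmt_SUnitCount →
  Stmt_TotComplex → Stmt_ClassGen → Stmt_TateCount F p.
-/
import Mathlib
import Fermat.Agent.S14.helper1892_M6Defs

set_option autoImplicit false

open IsDedekindDomain NumberField WithZero

namespace Fermat.Agent.S14.helper1892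

open Fermat.Agent.S14.helper2613 (ordAt SUnits mem_SUnits mem_SUnits_iff_ordAt ordAt_mul
  ordAt_one ordAt_eq_zero_iff valuation_unit_ne_zero)

noncomputable section

/-! ## A covering bound for the relative index -/

theorem relIndex_le_of_cover {G : Type*} [Group G] (H K : Subgroup G) {ι : Type*} [Finite ι]
    (g : ι → G) (h : ∀ x ∈ K, ∃ i, (g i)⁻¹ * x ∈ H) :
    H.relIndex K ≠ 0 ∧ H.relIndex K ≤ Nat.card ι := by
  classical
  have key : ∀ q : K ⧸ H.subgroupOf K, ∃ i, (g i)⁻¹ * ((Quotient.out q : K) : G) ∈ H :=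
    fun q => h _ (Quotient.out q).2
  choose f hf using key
  have hinj : Function.Injective f := by
    intro q q' hqq
    have h1 := hf q
    have h2 := hf q'
    rw [hqq] at h1
    have h3 : ((Quotient.out q : K) : G)⁻¹ * ((Quotient.out q' : K) : G) ∈ H := by
      have := H.mul_mem (H.inv_mem h1) h2
      simpa [mul_assoc] using this
    have h4 : (QuotientGroup.mk (Quotient.out q) : K ⧸ H.subgroupOf K)
        = QuotientGroup.mk (Quotient.out q') := by
      rw [QuotientGroup.eq]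
      simpa [Subgroup.mem_subgroupOf] using h3
    simpa using h4
  have : Finite (K ⧸ H.subgroupOf K) := Finite.of_injective f hinj
  constructor
  · rw [Subgroup.relIndex, Subgroup.index]
    exact Nat.card_pos.ne'
  · rw [Subgroup.relIndex, Subgroup.index]
    exact Nat.card_le_card_of_injective f hinj

variable {F : Type*} [Field F] [NumberField F]

/-! ## `p`-th power residues -/

theorem locPowN_one (p : ℕ) (v : HeightOneSpectrum (𝓞 F)) (N : ℕ) : LocPowN p v N (1 : Fˣ) :=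
  locPow_one p v N

theorem locPowN_pow (p : ℕ) (v : HeightOneSpectrum (𝓞 F)) (N : ℕ) (y : Fˣ) :
    LocPowN p v N (y ^ p) :=
  locPow_pow p v y N

theorem locPowN_mul {p : ℕ} {v : HeightOneSpectrum (𝓞 F)} {N : ℕ} {x x' : Fˣ}
    (hx : LocPowN p v (N + 1) x) (hx' : LocPowN p v (N + 1) x') :
    LocPowN p v (N + 1) (x * x') := by
  obtain ⟨y, hy⟩ := hx
  obtain ⟨y', hy'⟩ := hx'
  refine ⟨y * y', ?_⟩
  have h1 : v.valuation F ((x' : F) / (y' : F) ^ p) = 1 :=
    val_eq_one_of_sub_one_lt v (lt_of_le_of_lt hy' (exp_neg_succ_lt_one N))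
  have key : ((x * x' : Fˣ) : F) / ((y * y' : Fˣ) : F) ^ p - 1
      = ((x : F) / (y : F) ^ p - 1) * ((x' : F) / (y' : F) ^ p) + ((x' : F) / (y' : F) ^ p - 1) := by
    have hy0 : ((y : F)) ^ p ≠ 0 := pow_ne_zero _ y.ne_zero
    have hy0' : ((y' : F)) ^ p ≠ 0 := pow_ne_zero _ y'.ne_zero
    push_cast
    field_simp
    ring
  rw [key]
  refine Valuation.map_add_le _ ?_ hy'
  rw [map_mul, h1, mul_one]
  exact hy

theorem locPowN_inv {p : ℕ} {v : HeightOneSpectrum (𝓞 F)} {N : ℕ} {x : Fˣ}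
    (hx : LocPowN p v (N + 1) x) : LocPowN p v (N + 1) x⁻¹ := by
  obtain ⟨y, hy⟩ := hx
  refine ⟨y⁻¹, ?_⟩
  have h1 : v.valuation F ((x : F) / (y : F) ^ p) = 1 :=
    val_eq_one_of_sub_one_lt v (lt_of_le_of_lt hy (exp_neg_succ_lt_one N))
  have hy0 : ((y : F)) ^ p ≠ 0 := pow_ne_zero _ y.ne_zero
  have hx0 : (x : F) ≠ 0 := x.ne_zero
  have ht0 : (x : F) / (y : F) ^ p ≠ 0 := div_ne_zero hx0 hy0
  have key : ((x⁻¹ : Fˣ) : F) / ((y⁻¹ : Fˣ) : F) ^ p - 1
      = -((x : F) / (y : F) ^ p - 1) * ((x : F) / (y : F) ^ p)⁻¹ := by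
    have e1 : ((x⁻¹ : Fˣ) : F) / ((y⁻¹ : Fˣ) : F) ^ p = ((x : F) / (y : F) ^ p)⁻¹ := by
      push_cast
      rw [inv_pow, inv_div, div_inv_eq_mul, mul_comm, div_eq_mul_inv]
    rw [e1, neg_mul, sub_mul, mul_inv_cancel₀ ht0, one_mul, neg_sub]
  rw [key, map_mul, map_inv₀, h1, inv_one, mul_one, Valuation.map_neg]
  exact hy

/-- The subgroup of `Fˣ` of `p`-th power residues at `v`: `x ∈ (Fˣ)^p · (1 + 𝔪_v)`. -/
def presSubgroup (p : ℕ) (v : HeightOneSpectrum (𝓞 F)) : Subgroup Fˣ where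
  carrier := {x | LocPowN p v 1 x}
  mul_mem' := fun hx hx' => locPowN_mul (N := 0) hx hx'
  one_mem' := locPowN_one p v 1
  inv_mem' := fun hx => locPowN_inv (N := 0) hx

@[simp] theorem mem_presSubgroup {p : ℕ} {v : HeightOneSpectrum (𝓞 F)} {x : Fˣ} :
    x ∈ presSubgroup p v ↔ LocPowN p v 1 x := Iff.rfl

theorem pow_mem_presSubgroup (p : ℕ) (v : HeightOneSpectrum (𝓞 F)) (y : Fˣ) :
    y ^ p ∈ presSubgroup p v := locPowN_pow p v 1 y

theorem locPowSubgroup_le_presSubgroup (p : ℕ) (v : HeightOneSpectrum (𝓞 F)) :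
    locPowSubgroup p v ≤ presSubgroup p v := fun _ hx => hx 1

/-! ## Valuations, orders and `S`-units -/

theorem ordAt_pow (v : HeightOneSpectrum (𝓞 F)) (y : Fˣ) (n : ℕ) :
    ordAt v (y ^ n) = n * ordAt v y := by
  induction n with
  | zero => simp [ordAt_one]
  | succ n ih => rw [pow_succ, ordAt_mul, ih]; push_cast; ring

theorem ordAt_inv (v : HeightOneSpectrum (𝓞 F)) (y : Fˣ) : ordAt v y⁻¹ = - ordAt v y := by
  have h := ordAt_mul v y y⁻¹
  rw [mul_inv_cancel, ordAt_one] at h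
  omega

theorem ordAt_eq_of_val_div_eq_one (v : HeightOneSpectrum (𝓞 F)) (x z : Fˣ)
    (h : v.valuation F ((x : F) / (z : F)) = 1) : ordAt v x = ordAt v z := by
  have h1 : ordAt v (x * z⁻¹) = 0 := by
    rw [ordAt_eq_zero_iff]
    simpa [div_eq_mul_inv] using h
  rw [ordAt_mul, ordAt_inv] at h1
  omega

theorem dvd_ordAt_of_locPowN {p : ℕ} {v : HeightOneSpectrum (𝓞 F)} {x : Fˣ}
    (hx : LocPowN p v 1 x) : (p : ℤ) ∣ ordAt v x := by
  obtain ⟨y, hy⟩ := hx
  have h1 : v.valuation F ((x : F) / ((y ^ p : Fˣ) : F)) = 1 := by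
    have := val_eq_one_of_sub_one_lt v (lt_of_le_of_lt hy (exp_neg_succ_lt_one 0))
    simpa using this
  rw [ordAt_eq_of_val_div_eq_one v x (y ^ p) h1, ordAt_pow]
  exact dvd_mul_right _ _

theorem mem_SUnits_of_pow {S : Finset (HeightOneSpectrum (𝓞 F))} {p : ℕ} (hp : p ≠ 0) {y : Fˣ}
    (h : y ^ p ∈ SUnits F S) : y ∈ SUnits F S := by
  rw [mem_SUnits_iff_ordAt] at h ⊢
  intro v hv
  have := h v hv
  rw [ordAt_pow] at this
  rcases mul_eq_zero.mp this with h0 | h0
  · exact absurd (by exact_mod_cast h0) hp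
  · exact h0

theorem val_eq_one_of_mem_SUnits {S : Finset (HeightOneSpectrum (𝓞 F))} {t : Fˣ}
    (ht : t ∈ SUnits F S) {w : HeightOneSpectrum (𝓞 F)} (hw : w ∉ S) :
    w.valuation F (t : F) = 1 := mem_SUnits.mp ht w hw

theorem SUnits_mono {S S' : Finset (HeightOneSpectrum (𝓞 F))} (h : S ⊆ S') :
    SUnits F S ≤ SUnits F S' := by
  intro x hx
  rw [mem_SUnits] at hx ⊢
  exact fun v hv => hx v (fun hv' => hv (h hv'))

/-! ## The auxiliary set `T` with a dual basis -/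

/-- Invariant of the construction of the auxiliary set `T`: places outside `S`, not over `p`,
at which `a` is a local `p`-th power, together with a "dual basis" `t w ∈ U_S` (`w ∈ T`):
`t w` is not a `p`-th power residue at `w` but is one at every other place of `T`. -/
structure TInv (p : ℕ) (a : Fˣ) (S T : Finset (HeightOneSpectrum (𝓞 F)))
    (t : HeightOneSpectrum (𝓞 F) → Fˣ) : Prop where
  disj : ∀ w ∈ T, w ∉ S
  tame : ∀ w ∈ T, (p : 𝓞 F) ∉ w.asIdeal
  split : ∀ w ∈ T, LocPow p w a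
  unit : ∀ w ∈ T, t w ∈ SUnits F S
  nres : ∀ w ∈ T, t w ∉ presSubgroup p w
  res : ∀ w ∈ T, ∀ w' ∈ T, w' ≠ w → t w ∈ presSubgroup p w'

theorem TInv.adjust {p : ℕ} {a : Fˣ} {S T : Finset (HeightOneSpectrum (𝓞 F))}
    {t : HeightOneSpectrum (𝓞 F) → Fˣ} (hCyc : Stmt_LocalCyclic F p) (h : TInv p a S T t)
    {R : Finset (HeightOneSpectrum (𝓞 F))} (hR : R ⊆ T) (x : Fˣ)
    (hx : ∀ w ∈ R, w.valuation F (x : F) = 1) :
    ∃ k : HeightOneSpectrum (𝓞 F) → ℕ,
      ∀ w ∈ R, x * ∏ w' ∈ R, t w' ^ k w' ∈ presSubgroup p w := by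
  classical
  have key : ∀ w : HeightOneSpectrum (𝓞 F), ∃ k : ℕ, w ∈ R → x * t w ^ k ∈ presSubgroup p w := by
    intro w
    by_cases hw : w ∈ R
    · obtain ⟨k, hk⟩ := hCyc w (h.tame w (hR hw)) (t w) x
        (val_eq_one_of_mem_SUnits (h.unit w (hR hw)) (h.disj w (hR hw))) (hx w hw)
        (h.nres w (hR hw))
      exact ⟨k, fun _ => hk⟩
    · exact ⟨0, fun h' => absurd h' hw⟩
  choose k hk using key
  refine ⟨k, fun w hw => ?_⟩
  rw [← Finset.mul_prod_erase R _ hw, ← mul_assoc]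
  refine (presSubgroup p w).mul_mem (hk w hw) (Subgroup.prod_mem _ ?_)
  intro w' hw'
  rw [Finset.mem_erase] at hw'
  exact (presSubgroup p w).pow_mem (h.res w' (hR hw'.2) w (hR hw) (Ne.symm hw'.1)) _

theorem TInv.exists_unit {p : ℕ} (hp : p.Prime) {a : Fˣ}
    {S T : Finset (HeightOneSpectrum (𝓞 F))} {t : HeightOneSpectrum (𝓞 F) → Fˣ}
    (hCyc : Stmt_LocalCyclic F p) (hSU : Stmt_SUnitCount F p) (haS : a ∈ SUnits F S)
    (h : TInv p a S T t) (hcard : T.card < NumberField.Units.rank F + S.card) :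
    ∃ u ∈ SUnits F S, (∀ w ∈ T, u ∈ presSubgroup p w) ∧
      ∀ (k : ℕ) (y : Fˣ), u ≠ a ^ k * y ^ p := by
  classical
  by_contra hcon
  push Not at hcon
  let g : Fin p × (T → Fin p) → Fˣ := fun i =>
    a ^ (i.1 : ℕ) * (∏ w ∈ T.attach, t w ^ ((i.2 w : Fin p) : ℕ))⁻¹
  have hcov : ∀ x ∈ SUnits F S, ∃ i, (g i)⁻¹ * x ∈ (SUnits F S).map (powMonoidHom p) := by
    intro x hx
    obtain ⟨k, hk⟩ := h.adjust hCyc (Finset.Subset.refl T) x
      (fun w hw => val_eq_one_of_mem_SUnits hx (h.disj w hw))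
    have hx' : x * ∏ w' ∈ T, t w' ^ k w' ∈ SUnits F S :=
      (SUnits F S).mul_mem hx
        (Subgroup.prod_mem _ fun w hw => (SUnits F S).pow_mem (h.unit w hw) _)
    obtain ⟨k₀, y, hy⟩ := hcon _ hx' hk
    refine ⟨(⟨k₀ % p, Nat.mod_lt _ hp.pos⟩, fun w => ⟨k w % p, Nat.mod_lt _ hp.pos⟩), ?_⟩
    set Q : Fˣ := ∏ w ∈ T, t w ^ (k w / p) with hQ
    set P'' : Fˣ := ∏ w ∈ T, t w ^ (k w % p) with hP''
    have hP : ∏ w ∈ T, t w ^ k w = P'' * Q ^ p := by
      rw [hP'', hQ, ← Finset.prod_pow, ← Finset.prod_mul_distrib]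
      refine Finset.prod_congr rfl fun w _ => ?_
      rw [← pow_mul, ← pow_add, Nat.mod_add_div' ]
    have ha0 : a ^ k₀ = a ^ (k₀ % p) * (a ^ (k₀ / p)) ^ p := by
      rw [← pow_mul, ← pow_add, Nat.mod_add_div']
    have hg : g (⟨k₀ % p, Nat.mod_lt _ hp.pos⟩, fun w => ⟨k w % p, Nat.mod_lt _ hp.pos⟩)
        = a ^ (k₀ % p) * P''⁻¹ := by
      simp only [g]
      rw [hP'', ← Finset.prod_attach T (fun w => t w ^ (k w % p))]
    have hz : (a ^ (k₀ % p) * P''⁻¹)⁻¹ * x = (a ^ (k₀ / p) * y * Q⁻¹) ^ p := by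
      rw [inv_mul_eq_iff_eq_mul]
      have hx2 : x = a ^ k₀ * y ^ p * (P'' * Q ^ p)⁻¹ := by
        rw [← hP]
        exact eq_mul_inv_of_mul_eq hy
      rw [hx2, ha0]
      simp only [mul_pow, inv_pow, mul_inv]
      simp only [mul_comm, mul_left_comm, mul_assoc]
    rw [hg, hz]
    have hzU : a ^ (k₀ / p) * y * Q⁻¹ ∈ SUnits F S := by
      apply mem_SUnits_of_pow hp.ne_zero
      rw [← hz]
      refine (SUnits F S).mul_mem ((SUnits F S).inv_mem ?_) hx
      refine (SUnits F S).mul_mem ?_ ((SUnits F S).inv_mem ?_)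
      · exact (SUnits F S).pow_mem haS _
      · exact Subgroup.prod_mem _ fun w hw => (SUnits F S).pow_mem (h.unit w hw) _
    exact ⟨_, hzU, rfl⟩
  have hle := (relIndex_le_of_cover _ (SUnits F S) g hcov).2
  rw [hSU S] at hle
  have hc : Nat.card (Fin p × (T → Fin p)) = p ^ (T.card + 1) := by
    rw [Nat.card_prod, Nat.card_fun]
    simp [pow_succ, mul_comm]
  rw [hc] at hle
  have := (Nat.pow_le_pow_iff_right hp.one_lt).mp hle
  omega

open Classical in
theorem TInv.step {p : ℕ} (hp : p.Prime) {a : Fˣ}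
    {S T : Finset (HeightOneSpectrum (𝓞 F))} {t : HeightOneSpectrum (𝓞 F) → Fˣ}
    (hSel : Stmt_SelectOne F p) (hCyc : Stmt_LocalCyclic F p) (hSU : Stmt_SUnitCount F p)
    (ha : ¬ ∃ y : Fˣ, a = y ^ p) (haS : a ∈ SUnits F S)
    (h : TInv p a S T t) (hcard : T.card < NumberField.Units.rank F + S.card) :
    ∃ (w : HeightOneSpectrum (𝓞 F)) (t' : HeightOneSpectrum (𝓞 F) → Fˣ),
      w ∉ T ∧ TInv p a S (insert w T) t' := by
  classical
  obtain ⟨u, huS, hures, hu⟩ := h.exists_unit hp hCyc hSU haS hcard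
  obtain ⟨w, hwST, hwp, -, hwu, hwa, hwnres⟩ := hSel a u ha hu (S ∪ T)
  have hwS : w ∉ S := fun hw => hwST (Finset.mem_union_left _ hw)
  have hwT : w ∉ T := fun hw => hwST (Finset.mem_union_right _ hw)
  -- correct the old dual basis at the new place `w`
  have key : ∀ w' : HeightOneSpectrum (𝓞 F), ∃ k : ℕ, w' ∈ T → t w' * u ^ k ∈ presSubgroup p w := by
    intro w'
    by_cases hw' : w' ∈ T
    · obtain ⟨k, hk⟩ := hCyc w hwp u (t w') hwu
        (val_eq_one_of_mem_SUnits (h.unit w' hw') hwS) hwnres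
      exact ⟨k, fun _ => hk⟩
    · exact ⟨0, fun h' => absurd h' hw'⟩
  choose k hk using key
  refine ⟨w, fun w' => if w' = w then u else t w' * u ^ k w', hwT, ?_⟩
  refine ⟨?_, ?_, ?_, ?_, ?_, ?_⟩
  · intro w' hw'
    rcases Finset.mem_insert.mp hw' with rfl | hw'
    · exact hwS
    · exact h.disj w' hw'
  · intro w' hw'
    rcases Finset.mem_insert.mp hw' with rfl | hw'
    · exact hwp
    · exact h.tame w' hw'
  · intro w' hw'
    rcases Finset.mem_insert.mp hw' with rfl | hw'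
    · exact hwa
    · exact h.split w' hw'
  · intro w' hw'
    rcases Finset.mem_insert.mp hw' with rfl | hw'
    · simpa using huS
    · have hne : w' ≠ w := fun e => hwT (e ▸ hw')
      simp only [hne, if_false]
      exact (SUnits F S).mul_mem (h.unit w' hw') ((SUnits F S).pow_mem huS _)
  · intro w' hw'
    rcases Finset.mem_insert.mp hw' with rfl | hw'
    · simpa using hwnres
    · have hne : w' ≠ w := fun e => hwT (e ▸ hw')
      simp only [hne, if_false]
      intro hmem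
      apply h.nres w' hw'
      have h1 := (presSubgroup p w').mul_mem hmem
        ((presSubgroup p w').inv_mem ((presSubgroup p w').pow_mem (hures w' hw') (k w')))
      simpa using h1
  · intro w₁ hw₁ w₂ hw₂ hne₂
    by_cases e₁ : w₁ = w
    · -- `t' w₁ = u`
      simp only [e₁, if_true]
      have hw₂T : w₂ ∈ T := by
        rcases Finset.mem_insert.mp hw₂ with e | hw₂
        · exact absurd (e.trans e₁.symm) hne₂
        · exact hw₂
      exact hures w₂ hw₂T
    · have hw₁T : w₁ ∈ T := by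
        rcases Finset.mem_insert.mp hw₁ with e | hw₁
        · exact absurd e e₁
        · exact hw₁
      simp only [e₁, if_false]
      by_cases e₂ : w₂ = w
      · rw [e₂]
        exact hk w₁ hw₁T
      · have hw₂T : w₂ ∈ T := by
          rcases Finset.mem_insert.mp hw₂ with e | hw₂
          · exact absurd e e₂
          · exact hw₂
        exact (presSubgroup p w₂).mul_mem (h.res w₁ hw₁T w₂ hw₂T hne₂)
          ((presSubgroup p w₂).pow_mem (hures w₂ hw₂T) _)

theorem exists_TInv {p : ℕ} (hp : p.Prime) {a : Fˣ} {S : Finset (HeightOneSpectrum (𝓞 F))}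
    (hSel : Stmt_SelectOne F p) (hCyc : Stmt_LocalCyclic F p) (hSU : Stmt_SUnitCount F p)
    (ha : ¬ ∃ y : Fˣ, a = y ^ p) (haS : a ∈ SUnits F S) :
    ∃ (T : Finset (HeightOneSpectrum (𝓞 F))) (t : HeightOneSpectrum (𝓞 F) → Fˣ),
      TInv p a S T t ∧ T.card = NumberField.Units.rank F + S.card := by
  classical
  have main : ∀ n : ℕ, n ≤ NumberField.Units.rank F + S.card →
      ∃ (T : Finset (HeightOneSpectrum (𝓞 F))) (t : HeightOneSpectrum (𝓞 F) → Fˣ),
        TInv p a S T t ∧ T.card = n := by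
    intro n
    induction n with
    | zero =>
      intro _
      exact ⟨∅, fun _ => 1, ⟨by simp, by simp, by simp, by simp, by simp, by simp⟩, rfl⟩
    | succ n ih =>
      intro hn
      obtain ⟨T, t, hT, hc⟩ := ih (by omega)
      obtain ⟨w, t', hw, hT'⟩ := hT.step hp hSel hCyc hSU ha haS (by omega)
      exact ⟨insert w T, t', hT', by rw [Finset.card_insert_of_notMem hw, hc]⟩
  exact main _ le_rfl

/-! ## Claim A: an `(S ∪ T)`-unit which is a local `p`-th power on `S` is a `p`-th power -/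

open Classical in
theorem claimA {p : ℕ} (hp : p.Prime) {a : Fˣ} {S T : Finset (HeightOneSpectrum (𝓞 F))}
    {t : HeightOneSpectrum (𝓞 F) → Fˣ}
    (hM5 : Stmt_M5 F p) (hCyc : Stmt_LocalCyclic F p)
    (hSp : ∀ v : HeightOneSpectrum (𝓞 F), (p : 𝓞 F) ∈ v.asIdeal → v ∈ S) (hCG : ClassGen S)
    (hT : TInv p a S T t) (b : Fˣ) (hbU : b ∈ SUnits F (S ∪ T)) (hbL : b ∈ locPowS p S) :
    ∃ y : Fˣ, b = y ^ p := by
  classical
  by_contra hb
  have hbS : ∀ v ∈ S, LocPow p v b := mem_locPowS.mp hbL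
  obtain ⟨v₀, hv₀ord, hv₀np, hX⟩ := hM5 b hb (fun v hv => hbS v (hSp v hv))
  have hv₀S : v₀ ∉ S := fun hv => hv₀np (hbS v₀ hv)
  obtain ⟨x, hxv₀, hx⟩ := hCG v₀ hv₀S
  -- the ramified places of `b` lie in `T`
  set R : Finset (HeightOneSpectrum (𝓞 F)) := T.filter (fun v => ¬ (p : ℤ) ∣ ordAt v b) with hR
  have hRT : R ⊆ T := Finset.filter_subset _ _
  have hmemR : ∀ v : HeightOneSpectrum (𝓞 F), ¬ (p : ℤ) ∣ ordAt v b → v ∈ R := by
    intro v hv
    have hvST : v ∈ S ∪ T := by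
      by_contra hvST
      exact hv ((mem_SUnits_iff_ordAt.mp hbU v hvST) ▸ dvd_zero _)
    rcases Finset.mem_union.mp hvST with hvS | hvT
    · exact absurd (dvd_ordAt_of_locPowN (hbS v hvS 1)) hv
    · exact Finset.mem_filter.mpr ⟨hvT, hv⟩
  have hRne : ∀ w ∈ R, w ≠ v₀ := by
    intro w hw e
    exact (Finset.mem_filter.mp hw).2 (e ▸ hv₀ord)
  obtain ⟨k, hk⟩ := hT.adjust hCyc hRT x
    (fun w hw => hx w (hT.disj w (hRT hw)) (hRne w hw))
  have hPS : ∏ w' ∈ R, t w' ^ k w' ∈ SUnits F S :=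
    Subgroup.prod_mem _ fun w hw => (SUnits F S).pow_mem (hT.unit w (hRT hw)) _
  have hPval : ∀ v : HeightOneSpectrum (𝓞 F), v ∉ S →
      v.valuation F (((∏ w' ∈ R, t w' ^ k w' : Fˣ)) : F) = 1 :=
    fun v hv => val_eq_one_of_mem_SUnits hPS hv
  have hdiv : (p : ℤ) ∣ ordAt v₀ (x * ∏ w' ∈ R, t w' ^ k w') := by
    apply hX
    · intro v hv
      have hvR := hmemR v hv
      have hvS : v ∉ S := hT.disj v (hRT hvR)
      refine ⟨?_, hk v hvR⟩
      rw [Units.val_mul, map_mul, hPval v hvS, mul_one]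
      exact hx v hvS (hRne v hvR)
    · intro v _ hne hnl
      have hvS : v ∉ S := fun hv => hnl (hbS v hv)
      have h1 : v.valuation F (((x * ∏ w' ∈ R, t w' ^ k w' : Fˣ)) : F) = 1 := by
        rw [Units.val_mul, map_mul, hPval v hvS, mul_one]
        exact hx v hvS hne
      rw [(ordAt_eq_zero_iff v _).mpr h1]
      exact dvd_zero _
  have h0 : ordAt v₀ (x * ∏ w' ∈ R, t w' ^ k w') = -1 := by
    rw [ordAt_mul, (ordAt_eq_zero_iff v₀ _).mpr (hPval v₀ hv₀S), add_zero]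
    unfold ordAt
    rw [hxv₀, WithZero.log_exp]
  rw [h0] at hdiv
  have h1 : (p : ℤ) ∣ 1 := (dvd_neg).mp hdiv
  have h2 : (p : ℤ) = 1 := Int.eq_one_of_dvd_one (by positivity) h1
  have h3 : p = 1 := by exact_mod_cast h2
  exact hp.one_lt.ne' h3

/-! ## Tate's count -/

theorem finite_setOf_natCast_mem (p : ℕ) (hp : p ≠ 0) :
    {v : HeightOneSpectrum (𝓞 F) | (p : 𝓞 F) ∈ v.asIdeal}.Finite := by
  have hne : Ideal.span {(p : 𝓞 F)} ≠ 0 := by
    rw [Ne, Ideal.zero_eq_bot, Ideal.span_singleton_eq_bot]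
    exact_mod_cast hp
  refine (Ideal.finite_factors hne).subset ?_
  intro v hv
  simp only [Set.mem_ofPred_eq] at hv ⊢
  rw [Ideal.dvd_span_singleton]
  exact hv

theorem finite_setOf_valuation_ne_one (a : Fˣ) :
    {v : HeightOneSpectrum (𝓞 F) | v.valuation F (a : F) ≠ 1}.Finite := by
  refine ((HeightOneSpectrum.Support.finite (𝓞 F) (a : F)).union
    (HeightOneSpectrum.Support.finite (𝓞 F) ((a⁻¹ : Fˣ) : F))).subset ?_
  intro v hv
  simp only [Set.mem_ofPred_eq] at hv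
  rcases lt_or_gt_of_ne hv with h | h
  · right
    show 1 < v.valuation F ((a⁻¹ : Fˣ) : F)
    rw [Units.val_inv_eq_inv_val, map_inv₀]
    exact (one_lt_inv₀ (zero_lt_iff.mpr (valuation_unit_ne_zero v a))).mpr h
  · left
    exact h

open Classical in
/-- **M6 core (Tate's count)**, hypothesis-passing. -/
theorem tateCount {p : ℕ} (hp : p.Prime)
    (hM5 : Stmt_M5 F p) (hSel : Stmt_SelectOne F p) (hCyc : Stmt_LocalCyclic F p)
    (hLI : Stmt_LocIndex F p) (hSU : Stmt_SUnitCount F p) (hTC : Stmt_TotComplex F)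
    (hCG : Stmt_ClassGen F) : Stmt_TateCount F p := by
  intro a ha S₀
  have hfin_p := finite_setOf_natCast_mem (F := F) p hp.ne_zero
  have hfin_a := finite_setOf_valuation_ne_one a
  obtain ⟨S, hS₀, hSCG⟩ := hCG (S₀ ∪ hfin_p.toFinset ∪ hfin_a.toFinset)
  have hSp : ∀ v : HeightOneSpectrum (𝓞 F), (p : 𝓞 F) ∈ v.asIdeal → v ∈ S := by
    intro v hv
    apply hS₀
    simp [hv]
  have haS : a ∈ SUnits F S := by
    rw [mem_SUnits]
    intro v hv
    by_contra h
    apply hv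
    apply hS₀
    simp [h]
  obtain ⟨T, t, hT, hTcard⟩ := exists_TInv hp hSel hCyc hSU ha haS
  have hdisj : Disjoint S T := Finset.disjoint_left.mpr fun v hvS hvT => hT.disj v hvT hvS
  refine ⟨S, T, ?_, hdisj, hSp, hSCG, haS, hT.split, ?_⟩
  · intro v hv
    apply hS₀
    simp [hv]
  · -- the count
    have hUpU : (SUnits F (S ∪ T)).map (powMonoidHom p) ≤ SUnits F (S ∪ T) := by
      rintro _ ⟨y, hy, rfl⟩
      exact (SUnits F (S ∪ T)).pow_mem hy p
    have hLU : locPowS p S ⊓ SUnits F (S ∪ T) ≤ (SUnits F (S ∪ T)).map (powMonoidHom p) := by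
      intro b hb
      obtain ⟨y, rfl⟩ := claimA hp hM5 hCyc hSp hSCG hT b hb.2 hb.1
      exact ⟨y, mem_SUnits_of_pow hp.ne_zero hb.2, rfl⟩
    have hcardST : (S ∪ T).card = S.card + T.card := Finset.card_union_of_disjoint hdisj
    have h3 := hSU (S ∪ T)
    obtain ⟨hL0, hLle⟩ := hLI S hSp
    have e1 : (locPowS p S).relIndex (locPowS p S ⊔ SUnits F (S ∪ T))
        * (locPowS p S ⊔ SUnits F (S ∪ T)).index = (locPowS p S).index :=
      Subgroup.relIndex_mul_index le_sup_left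
    have e2 : (locPowS p S).relIndex (locPowS p S ⊔ SUnits F (S ∪ T))
        = (locPowS p S).relIndex (SUnits F (S ∪ T)) := Subgroup.relIndex_sup_left _ _
    have e3 : (locPowS p S ⊓ SUnits F (S ∪ T)).relIndex (SUnits F (S ∪ T))
        = (locPowS p S).relIndex (SUnits F (S ∪ T)) := Subgroup.inf_relIndex_right _ _
    have e4 := Subgroup.relIndex_mul_relIndex _ _ _ hLU hUpU
    rw [e2, ← e3, ← e4, h3, hcardST, hTcard] at e1
    rw [hTC] at hLle
    set c := (locPowS p S ⊓ SUnits F (S ∪ T)).relIndex ((SUnits F (S ∪ T)).map (powMonoidHom p))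
    set I := (locPowS p S ⊔ SUnits F (S ∪ T)).index
    set m := NumberField.Units.rank F + (S.card + (NumberField.Units.rank F + S.card)) + 1
    have hpm : 0 < p ^ m := pow_pos hp.pos _
    have hI0 : I ≠ 0 := by
      intro h0
      rw [h0, mul_zero] at e1
      exact hL0 e1.symm
    have hc0 : c ≠ 0 := by
      intro h0
      rw [h0, zero_mul, zero_mul] at e1
      exact hL0 e1.symm
    refine ⟨hI0, ?_⟩
    have hexp : 2 * S.card + 2 * (NumberField.Units.rank F + 1) = m + 1 := by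
      simp only [m]
      ring
    rw [hexp, ← e1, pow_succ] at hLle
    have h5 : p ^ m * I ≤ p ^ m * p := by
      calc p ^ m * I ≤ c * p ^ m * I := by
            have : 1 ≤ c := Nat.one_le_iff_ne_zero.mpr hc0
            nlinarith [Nat.zero_le (p ^ m * I)]
        _ ≤ p ^ m * p := hLle
    exact Nat.le_of_mul_le_mul_left h5 hpm

end

end Fermat.Agent.S14.helper1892
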