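/-
S14 moonshot, module M6 (Tate's counting proof), GENERAL COUNT (helper1892).

The count of `helper1892_M6Core.tateCount` for an auxiliary set `T` of ARBITRARY size with a dual
basis (`TInv`; take `a := 1` if no Kummer generator is around, see `TInv.of_dual`):

  `[Fˣ : locPowS p S ⊔ U_{S ∪ T}] * p ^ #T ≤ p ^ (rank + #S + 1)`.

In particular `#T = rank + #S + 1` gives `locPowS p S ⊔ U_{S ∪ T} = ⊤` (the "GEN" statement used by
the analytic-free proof of `Stmt_NoChar`), and `#T = rank + #S` gives index `≤ p` (M6).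
-/
import Mathlib
import Fermat.Agent.S14.helper1892_M6Core

set_option autoImplicit false

open IsDedekindDomain NumberField WithZero

namespace Fermat.Agent.S14.helper1892

open Fermat.Agent.S14.helper2613 (ordAt SUnits mem_SUnits mem_SUnits_iff_ordAt)

noncomputable section

variable {F : Type*} [Field F] [NumberField F]

/-- A dual system without a Kummer generator is a `TInv` for `a = 1`. -/
theorem TInv.of_dual {p : ℕ} {S T : Finset (HeightOneSpectrum (𝓞 F))}
    {t : HeightOneSpectrum (𝓞 F) → Fˣ}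
    (disj : ∀ w ∈ T, w ∉ S) (tame : ∀ w ∈ T, (p : 𝓞 F) ∉ w.asIdeal)
    (unit : ∀ w ∈ T, t w ∈ SUnits F S) (nres : ∀ w ∈ T, ¬ LocPowN p w 1 (t w))
    (res : ∀ w ∈ T, ∀ w' ∈ T, w' ≠ w → LocPowN p w' 1 (t w)) :
    TInv p (1 : Fˣ) S T t :=
  ⟨disj, tame, fun w _ => locPow_one p w, unit, nres, res⟩

open Classical in
/-- **General Tate count.** -/
theorem index_mul_pow_card_le {p : ℕ} (hp : p.Prime)
    (hM5 : Stmt_M5 F p) (hCyc : Stmt_LocalCyclic F p)
    (hLI : Stmt_LocIndex F p) (hSU : Stmt_SUnitCount F p) (hTC : Stmt_TotComplex F)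
    {a : Fˣ} {S T : Finset (HeightOneSpectrum (𝓞 F))} {t : HeightOneSpectrum (𝓞 F) → Fˣ}
    (hSp : ∀ v : HeightOneSpectrum (𝓞 F), (p : 𝓞 F) ∈ v.asIdeal → v ∈ S) (hSCG : ClassGen S)
    (hT : TInv p a S T t) :
    (locPowS p S ⊔ SUnits F (S ∪ T)).index ≠ 0 ∧
      (locPowS p S ⊔ SUnits F (S ∪ T)).index * p ^ T.card
        ≤ p ^ (NumberField.Units.rank F + S.card + 1) := by
  have hdisj : Disjoint S T := Finset.disjoint_left.mpr fun v hvS hvT => hT.disj v hvT hvS
  have hUpU : (SUnits F (S ∪ T)).map (powMonoidHom p) ≤ SUnits F (S ∪ T) := by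
    rintro _ ⟨y, hy, rfl⟩
    exact (SUnits F (S ∪ T)).pow_mem hy p
  have hLU : locPowS p S ⊓ SUnits F (S ∪ T) ≤ (SUnits F (S ∪ T)).map (powMonoidHom p) := by
    intro b hb
    obtain ⟨y, rfl⟩ := claimA hp hM5 hCyc hSp hSCG hT b hb.2 hb.1
    exact ⟨y, mem_SUnits_of_pow hp.ne_zero hb.2, rfl⟩
  have hcardST : (S ∪ T).card = S.card + T.card := Finset.card_union_of_disjoint hdisj
  have h3 := hSU (S ∪ T)
  obtain ⟨hL0, hLle⟩ := hLI S hSp
  have e1 : (locPowS p S).relIndex (locPowS p S ⊔ SUnits F (S ∪ T))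
      * (locPowS p S ⊔ SUnits F (S ∪ T)).index = (locPowS p S).index :=
    Subgroup.relIndex_mul_index le_sup_left
  have e2 : (locPowS p S).relIndex (locPowS p S ⊔ SUnits F (S ∪ T))
      = (locPowS p S).relIndex (SUnits F (S ∪ T)) := Subgroup.relIndex_sup_left _ _
  have e3 : (locPowS p S ⊓ SUnits F (S ∪ T)).relIndex (SUnits F (S ∪ T))
      = (locPowS p S).relIndex (SUnits F (S ∪ T)) := Subgroup.inf_relIndex_right _ _
  have e4 := Subgroup.relIndex_mul_relIndex _ _ _ hLU hUpU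
  rw [e2, ← e3, ← e4, h3, hcardST] at e1
  rw [hTC] at hLle
  set c := (locPowS p S ⊓ SUnits F (S ∪ T)).relIndex ((SUnits F (S ∪ T)).map (powMonoidHom p))
  set I := (locPowS p S ⊔ SUnits F (S ∪ T)).index
  set m := NumberField.Units.rank F + S.card + 1
  have hpm : 0 < p ^ m := pow_pos hp.pos _
  have hI0 : I ≠ 0 := by
    intro h0
    rw [h0, mul_zero] at e1
    exact hL0 e1.symm
  have hc0 : c ≠ 0 := by
    intro h0
    rw [h0, zero_mul, zero_mul] at e1
    exact hL0 e1.symm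
  refine ⟨hI0, ?_⟩
  have hexp1 : NumberField.Units.rank F + (S.card + T.card) + 1 = m + T.card := by
    simp only [m]
    ring
  have hexp2 : 2 * S.card + 2 * (NumberField.Units.rank F + 1) = m + m := by
    simp only [m]
    ring
  rw [hexp2, ← e1, hexp1] at hLle
  have hLle' : c * (p ^ m * p ^ T.card) * I ≤ p ^ m * p ^ m := by
    rw [← pow_add p m T.card, ← pow_add p m m]
    exact hLle
  have h5 : p ^ m * (I * p ^ T.card) ≤ p ^ m * p ^ m := by
    calc p ^ m * (I * p ^ T.card) ≤ c * (p ^ m * p ^ T.card) * I := by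
          have : 1 ≤ c := Nat.one_le_iff_ne_zero.mpr hc0
          nlinarith [Nat.zero_le (p ^ m * p ^ T.card * I)]
      _ ≤ p ^ m * p ^ m := hLle'
  exact Nat.le_of_mul_le_mul_left h5 hpm

open Classical in
/-- **GEN**: if `#T = rank + #S + 1` then `Fˣ = locPowS p S · U_{S ∪ T}`. -/
theorem sup_eq_top_of_card {p : ℕ} (hp : p.Prime)
    (hM5 : Stmt_M5 F p) (hCyc : Stmt_LocalCyclic F p)
    (hLI : Stmt_LocIndex F p) (hSU : Stmt_SUnitCount F p) (hTC : Stmt_TotComplex F)
    {a : Fˣ} {S T : Finset (HeightOneSpectrum (𝓞 F))} {t : HeightOneSpectrum (𝓞 F) → Fˣ}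
    (hSp : ∀ v : HeightOneSpectrum (𝓞 F), (p : 𝓞 F) ∈ v.asIdeal → v ∈ S) (hSCG : ClassGen S)
    (hT : TInv p a S T t) (hcard : T.card = NumberField.Units.rank F + S.card + 1) :
    locPowS p S ⊔ SUnits F (S ∪ T) = ⊤ := by
  obtain ⟨h0, hle⟩ := index_mul_pow_card_le hp hM5 hCyc hLI hSU hTC hSp hSCG hT
  rw [hcard] at hle
  have hpm : 0 < p ^ (NumberField.Units.rank F + S.card + 1) := pow_pos hp.pos _
  have h1 : (locPowS p S ⊔ SUnits F (S ∪ T)).index ≤ 1 := by
    have : (locPowS p S ⊔ SUnits F (S ∪ T)).index * p ^ (NumberField.Units.rank F + S.card + 1)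
        ≤ 1 * p ^ (NumberField.Units.rank F + S.card + 1) := by simpa using hle
    exact Nat.le_of_mul_le_mul_right this hpm
  have h2 : (locPowS p S ⊔ SUnits F (S ∪ T)).index = 1 := by omega
  exact Subgroup.index_eq_one.mp h2

open Classical in
/-- **GEN, element form**: every `x : Fˣ` is `g * u` with `g` a local `p`-th power at all of `S`
and `u` an `(S ∪ T)`-unit. -/
theorem exists_mul_of_card {p : ℕ} (hp : p.Prime)
    (hM5 : Stmt_M5 F p) (hCyc : Stmt_LocalCyclic F p)
    (hLI : Stmt_LocIndex F p) (hSU : Stmt_SUnitCount F p) (hTC : Stmt_TotComplex F)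
    {a : Fˣ} {S T : Finset (HeightOneSpectrum (𝓞 F))} {t : HeightOneSpectrum (𝓞 F) → Fˣ}
    (hSp : ∀ v : HeightOneSpectrum (𝓞 F), (p : 𝓞 F) ∈ v.asIdeal → v ∈ S) (hSCG : ClassGen S)
    (hT : TInv p a S T t) (hcard : T.card = NumberField.Units.rank F + S.card + 1) (x : Fˣ) :
    ∃ g u : Fˣ, (∀ v ∈ S, LocPow p v g) ∧ u ∈ SUnits F (S ∪ T) ∧ x = g * u := by
  have htop := sup_eq_top_of_card hp hM5 hCyc hLI hSU hTC hSp hSCG hT hcard
  have hx : x ∈ locPowS p S ⊔ SUnits F (S ∪ T) := htop ▸ Subgroup.mem_top x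
  obtain ⟨g, hg, u, hu, rfl⟩ := Subgroup.mem_sup.mp hx
  exact ⟨g, u, mem_locPowS.mp hg, hu, rfl⟩

/-! ## Building blocks for constructing `T` by hand (used by the GEN hedge) -/

open Classical in
/-- **Insertion step**: a dual system `T` can be enlarged by a tame place `w ∉ S ∪ T` as soon as
some `S`-unit `u` is a `p`-th power residue at all of `T` but not at `w`. -/
theorem TInv.insert {p : ℕ} {a : Fˣ}
    {S T : Finset (HeightOneSpectrum (𝓞 F))} {t : HeightOneSpectrum (𝓞 F) → Fˣ}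
    (hCyc : Stmt_LocalCyclic F p) (h : TInv p a S T t)
    {w : HeightOneSpectrum (𝓞 F)} (hwS : w ∉ S) (hwT : w ∉ T) (hwp : (p : 𝓞 F) ∉ w.asIdeal)
    (hwa : LocPow p w a) {u : Fˣ} (huS : u ∈ SUnits F S)
    (hures : ∀ w' ∈ T, LocPowN p w' 1 u) (hwnres : ¬ LocPowN p w 1 u) :
    ∃ t' : HeightOneSpectrum (𝓞 F) → Fˣ, TInv p a S (insert w T) t' ∧ t' w = u := by
  have hwu : w.valuation F (u : F) = 1 := val_eq_one_of_mem_SUnits huS hwS
  have key : ∀ w' : HeightOneSpectrum (𝓞 F), ∃ k : ℕ, w' ∈ T → t w' * u ^ k ∈ presSubgroup p w := by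
    intro w'
    by_cases hw' : w' ∈ T
    · obtain ⟨k, hk⟩ := hCyc w hwp u (t w') hwu
        (val_eq_one_of_mem_SUnits (h.unit w' hw') hwS) hwnres
      exact ⟨k, fun _ => hk⟩
    · exact ⟨0, fun h' => absurd h' hw'⟩
  choose k hk using key
  refine ⟨fun w' => if w' = w then u else t w' * u ^ k w', ?_, by simp⟩
  refine ⟨?_, ?_, ?_, ?_, ?_, ?_⟩
  · intro w' hw'
    rcases Finset.mem_insert.mp hw' with rfl | hw'
    · exact hwS
    · exact h.disj w' hw'
  · intro w' hw'
    rcases Finset.mem_insert.mp hw' with rfl | hw'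
    · exact hwp
    · exact h.tame w' hw'
  · intro w' hw'
    rcases Finset.mem_insert.mp hw' with rfl | hw'
    · exact hwa
    · exact h.split w' hw'
  · intro w' hw'
    rcases Finset.mem_insert.mp hw' with rfl | hw'
    · simpa using huS
    · have hne : w' ≠ w := fun e => hwT (e ▸ hw')
      simp only [hne, if_false]
      exact (SUnits F S).mul_mem (h.unit w' hw') ((SUnits F S).pow_mem huS _)
  · intro w' hw'
    rcases Finset.mem_insert.mp hw' with rfl | hw'
    · simpa using hwnres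
    · have hne : w' ≠ w := fun e => hwT (e ▸ hw')
      simp only [hne, if_false]
      intro hmem
      apply h.nres w' hw'
      have h1 := (presSubgroup p w').mul_mem hmem
        ((presSubgroup p w').inv_mem ((presSubgroup p w').pow_mem (hures w' hw') (k w')))
      simpa using h1
  · intro w₁ hw₁ w₂ hw₂ hne₂
    by_cases e₁ : w₁ = w
    · simp only [e₁, if_true]
      have hw₂T : w₂ ∈ T := by
        rcases Finset.mem_insert.mp hw₂ with e | hw₂
        · exact absurd (e.trans e₁.symm) hne₂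
        · exact hw₂
      exact hures w₂ hw₂T
    · have hw₁T : w₁ ∈ T := by
        rcases Finset.mem_insert.mp hw₁ with e | hw₁
        · exact absurd e e₁
        · exact hw₁
      simp only [e₁, if_false]
      by_cases e₂ : w₂ = w
      · rw [e₂]
        exact hk w₁ hw₁T
      · have hw₂T : w₂ ∈ T := by
          rcases Finset.mem_insert.mp hw₂ with e | hw₂
          · exact absurd e e₂
          · exact hw₂
        exact (presSubgroup p w₂).mul_mem (h.res w₁ hw₁T w₂ hw₂T hne₂)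
          ((presSubgroup p w₂).pow_mem (hures w₂ hw₂T) _)

/-- **Pigeonhole**: while `#T < rank + #S + 1` there is an `S`-unit which is a `p`-th power residue
at all of `T` but not a `p`-th power. -/
theorem TInv.exists_nonpow {p : ℕ} (hp : p.Prime) {a : Fˣ}
    {S T : Finset (HeightOneSpectrum (𝓞 F))} {t : HeightOneSpectrum (𝓞 F) → Fˣ}
    (hCyc : Stmt_LocalCyclic F p) (hSU : Stmt_SUnitCount F p)
    (h : TInv p a S T t) (hcard : T.card < NumberField.Units.rank F + S.card + 1) :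
    ∃ u ∈ SUnits F S, (∀ w ∈ T, LocPowN p w 1 u) ∧ ¬ ∃ y : Fˣ, u = y ^ p := by
  classical
  by_contra hcon
  push Not at hcon
  let g : (T → Fin p) → Fˣ := fun i => (∏ w ∈ T.attach, t w ^ ((i w : Fin p) : ℕ))⁻¹
  have hcov : ∀ x ∈ SUnits F S, ∃ i, (g i)⁻¹ * x ∈ (SUnits F S).map (powMonoidHom p) := by
    intro x hx
    obtain ⟨k, hk⟩ := h.adjust hCyc (Finset.Subset.refl T) x
      (fun w hw => val_eq_one_of_mem_SUnits hx (h.disj w hw))
    have hx' : x * ∏ w' ∈ T, t w' ^ k w' ∈ SUnits F S :=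
      (SUnits F S).mul_mem hx
        (Subgroup.prod_mem _ fun w hw => (SUnits F S).pow_mem (h.unit w hw) _)
    obtain ⟨y, hy⟩ := hcon _ hx' hk
    refine ⟨fun w => ⟨k w % p, Nat.mod_lt _ hp.pos⟩, ?_⟩
    set Q : Fˣ := ∏ w ∈ T, t w ^ (k w / p) with hQ
    set P'' : Fˣ := ∏ w ∈ T, t w ^ (k w % p) with hP''
    have hP : ∏ w ∈ T, t w ^ k w = P'' * Q ^ p := by
      rw [hP'', hQ, ← Finset.prod_pow, ← Finset.prod_mul_distrib]
      refine Finset.prod_congr rfl fun w _ => ?_
      rw [← pow_mul, ← pow_add, Nat.mod_add_div']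
    have hg : g (fun w => ⟨k w % p, Nat.mod_lt _ hp.pos⟩) = P''⁻¹ := by
      simp only [g]
      rw [hP'', ← Finset.prod_attach T (fun w => t w ^ (k w % p))]
    have hz : (P''⁻¹)⁻¹ * x = (y * Q⁻¹) ^ p := by
      rw [inv_mul_eq_iff_eq_mul]
      have hx2 : x = y ^ p * (P'' * Q ^ p)⁻¹ := by
        rw [← hP]
        exact eq_mul_inv_of_mul_eq hy
      rw [hx2]
      simp only [mul_pow, inv_pow, mul_inv]
      simp only [mul_comm, mul_left_comm, mul_assoc]
    rw [hg, hz]
    have hzU : y * Q⁻¹ ∈ SUnits F S := by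
      apply mem_SUnits_of_pow hp.ne_zero
      rw [← hz]
      refine (SUnits F S).mul_mem ((SUnits F S).inv_mem ((SUnits F S).inv_mem ?_)) hx
      exact Subgroup.prod_mem _ fun w hw => (SUnits F S).pow_mem (h.unit w hw) _
    exact ⟨_, hzU, rfl⟩
  have hle := (relIndex_le_of_cover _ (SUnits F S) g hcov).2
  rw [hSU S] at hle
  have hc : Nat.card (T → Fin p) = p ^ T.card := by
    rw [Nat.card_fun]
    simp
  rw [hc] at hle
  have := (Nat.pow_le_pow_iff_right hp.one_lt).mp hle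
  omega

end

end Fermat.Agent.S14.helper1892
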