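/-
S14 moonshot, GEN hedge (analytic-free proof of `Stmt_NoChar`), construction of the auxiliary set
`T` (helper1892).  Hypothesis-passing; consumes only SINGLE-generator Kummer selection
(`Stmt_SelectOneDeg`, `Stmt_NonResDeg`: the landed SELECTONE proofs with the extra conclusion
"`absNorm w` is prime"), NOT the multi-generator `Stmt_WCKummer`.

Main result `gen_decomp`: for a non-`p`-th-power `S`-unit `e` there is a finite set `T` of places
of degree one, outside `S`, not over `p`, at each of which `e` is NOT a `p`-th power residue, such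
that every `x : Fˣ` is `g * u` with `g` a local `p`-th power at all of `S` and `u` an
`(S ∪ T)`-unit.
-/
import Mathlib
import Fermat.Agent.S14.helper1892_M6Gen

set_option autoImplicit false

open IsDedekindDomain NumberField WithZero

namespace Fermat.Agent.S14.helper1892

open Fermat.Agent.S14.helper2613 (ordAt SUnits mem_SUnits mem_SUnits_iff_ordAt)

noncomputable section

variable {F : Type*} [Field F] [NumberField F]

variable (F) in
/-- `Stmt_SelectOne` with the extra conclusion that the selected place has degree one. -/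
def Stmt_SelectOneDeg (p : ℕ) : Prop :=
  ∀ a u : Fˣ, (¬ ∃ y : Fˣ, a = y ^ p) → (∀ (k : ℕ) (y : Fˣ), u ≠ a ^ k * y ^ p) →
    ∀ S : Finset (HeightOneSpectrum (𝓞 F)),
      ∃ w : HeightOneSpectrum (𝓞 F), w ∉ S ∧ (p : 𝓞 F) ∉ w.asIdeal ∧
        (Ideal.absNorm w.asIdeal).Prime ∧
        w.valuation F (a : F) = 1 ∧ w.valuation F (u : F) = 1 ∧
        LocPow p w a ∧ ¬ LocPowN p w 1 u

variable (F) in
/-- Zeta lemma in Kummer form for units of `F`: a non-`p`-th-power is a non-residue at some place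
of degree one outside any finite set. -/
def Stmt_NonResDeg (p : ℕ) : Prop :=
  ∀ u : Fˣ, (¬ ∃ y : Fˣ, u = y ^ p) →
    ∀ S : Finset (HeightOneSpectrum (𝓞 F)),
      ∃ w : HeightOneSpectrum (𝓞 F), w ∉ S ∧ (p : 𝓞 F) ∉ w.asIdeal ∧
        (Ideal.absNorm w.asIdeal).Prime ∧ w.valuation F (u : F) = 1 ∧ ¬ LocPowN p w 1 u

/-- If `x ^ n` is a `p`-th power residue at `w` and `p ∤ n`, then so is `x`. -/
theorem mem_presSubgroup_of_pow {p : ℕ} (hp : p.Prime) {w : HeightOneSpectrum (𝓞 F)} {x : Fˣ}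
    {n : ℕ} (hn : ¬ p ∣ n) (hx : x ^ n ∈ presSubgroup p w) : x ∈ presSubgroup p w := by
  have hcop : Nat.Coprime n p := (Nat.Prime.coprime_iff_not_dvd hp).mpr hn |>.symm
  -- Bezout: n * a + p * b = 1 in ℤ
  have hb : (n : ℤ) * Int.gcdA n p + (p : ℤ) * Int.gcdB n p = 1 := by
    have := Int.gcd_eq_gcd_ab (n : ℤ) (p : ℤ)
    rw [Int.gcd_natCast_natCast, hcop.gcd_eq_one] at this
    exact_mod_cast this.symm
  have hx1 : x = (x ^ n) ^ (Int.gcdA n p) * (x ^ (Int.gcdB n p)) ^ p := by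
    rw [← zpow_natCast x n, ← zpow_mul, ← zpow_natCast (x ^ Int.gcdB n p) p, ← zpow_mul,
      ← zpow_add, mul_comm (Int.gcdB n p) (p : ℤ), hb, zpow_one]
  rw [hx1]
  exact (presSubgroup p w).mul_mem ((presSubgroup p w).zpow_mem hx _)
    (pow_mem_presSubgroup p w _)

omit [NumberField F] in
/-- If `x ^ n` is a `p`-th power and `p ∤ n`, then so is `x`. -/
theorem exists_eq_pow_of_pow {p : ℕ} (hp : p.Prime) {x z : Fˣ} {n : ℕ} (hn : ¬ p ∣ n)
    (hx : x ^ n = z ^ p) : ∃ y : Fˣ, x = y ^ p := by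
  have hcop : Nat.Coprime n p := (Nat.Prime.coprime_iff_not_dvd hp).mpr hn |>.symm
  have hb : (n : ℤ) * Int.gcdA n p + (p : ℤ) * Int.gcdB n p = 1 := by
    have := Int.gcd_eq_gcd_ab (n : ℤ) (p : ℤ)
    rw [Int.gcd_natCast_natCast, hcop.gcd_eq_one] at this
    exact_mod_cast this.symm
  refine ⟨z ^ (Int.gcdA n p) * x ^ (Int.gcdB n p), ?_⟩
  rw [mul_pow, ← zpow_natCast (z ^ Int.gcdA n p) p, ← zpow_mul, mul_comm (Int.gcdA n p) (p : ℤ),
    zpow_mul, zpow_natCast z p, ← hx, ← zpow_natCast (x ^ Int.gcdB n p) p, ← zpow_mul,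
    ← zpow_natCast x n, ← zpow_mul, ← zpow_add, mul_comm (Int.gcdB n p) (p : ℤ), hb, zpow_one]

/-! ## Construction of `T` with `e` a non-residue at every place of `T` -/

/-- Key algebra: if `e = (e * x^(p-1))^k * y^p`, `e` is a non-residue at `w₁`, `x` a residue at
`w₁`, then `e` or `x` is a `p`-th power. -/
theorem not_eq_pow_mul_of_nonres {p : ℕ} (hp : p.Prime) {w₁ : HeightOneSpectrum (𝓞 F)}
    {e x : Fˣ} (hew₁ : e ∉ presSubgroup p w₁) (hxw₁ : x ∈ presSubgroup p w₁)
    (he : ¬ ∃ y : Fˣ, e = y ^ p) (hx : ¬ ∃ y : Fˣ, x = y ^ p) (k : ℕ) (y : Fˣ) :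
    e ≠ (e * x ^ (p - 1)) ^ k * y ^ p := by
  intro hk
  rcases Nat.eq_zero_or_pos k with rfl | hkpos
  · exact he ⟨y, by simpa using hk⟩
  · have hk' : e ^ k = e ^ (k - 1) * e := by rw [← pow_succ, Nat.sub_add_cancel hkpos]
    have hk2 : e = e * (e ^ (k - 1) * x ^ ((p - 1) * k) * y ^ p) := by
      calc e = (e * x ^ (p - 1)) ^ k * y ^ p := hk
        _ = e ^ (k - 1) * e * x ^ ((p - 1) * k) * y ^ p := by rw [mul_pow, hk', ← pow_mul]
        _ = e * (e ^ (k - 1) * x ^ ((p - 1) * k) * y ^ p) := by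
          simp only [mul_comm, mul_left_comm, mul_assoc]
    have E1 : e ^ (k - 1) * x ^ ((p - 1) * k) * y ^ p = 1 := by
      have h : e * (e ^ (k - 1) * x ^ ((p - 1) * k) * y ^ p) = e * 1 := by
        rw [mul_one]
        exact hk2.symm
      exact mul_left_cancel h
    have h1 : e ^ (k - 1) ∈ presSubgroup p w₁ := by
      have h2 : e ^ (k - 1) = (x ^ ((p - 1) * k) * y ^ p)⁻¹ := by
        apply eq_inv_of_mul_eq_one_left
        rw [← mul_assoc]
        exact E1
      rw [h2]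
      exact (presSubgroup p w₁).inv_mem ((presSubgroup p w₁).mul_mem
        ((presSubgroup p w₁).pow_mem hxw₁ _) (pow_mem_presSubgroup p w₁ y))
    have hdvd : p ∣ k - 1 := by
      by_contra hnd
      exact hew₁ (mem_presSubgroup_of_pow hp hnd h1)
    obtain ⟨j, hj⟩ := hdvd
    have hxpow : x ^ ((p - 1) * k) = ((e ^ j * y)⁻¹) ^ p := by
      rw [inv_pow]
      apply eq_inv_of_mul_eq_one_left
      rw [mul_pow, ← pow_mul, mul_comm j p, ← hj]
      calc x ^ ((p - 1) * k) * (e ^ (k - 1) * y ^ p)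
          = e ^ (k - 1) * x ^ ((p - 1) * k) * y ^ p := by
            simp only [mul_comm, mul_left_comm, mul_assoc]
        _ = 1 := E1
    have hnd2 : ¬ p ∣ (p - 1) * k := by
      intro h
      rcases (Nat.Prime.dvd_mul hp).mp h with h | h
      · exact Nat.not_dvd_of_pos_of_lt (Nat.sub_pos_of_lt hp.one_lt)
          (Nat.sub_lt hp.pos one_pos) h
      · have hk3 : k = p * j + 1 := by omega
        rw [hk3] at h
        have : p ∣ 1 := (Nat.dvd_add_right (dvd_mul_right p j)).mp h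
        exact hp.one_lt.ne' (Nat.dvd_one.mp this)
    exact hx (exists_eq_pow_of_pow hp hnd2 hxpow)

open Classical in
/-- **Construction of `T` for GEN**: dual systems of every size `n ≤ rank + #S + 1`, consisting of
places of degree one at which the given non-`p`-th-power `S`-unit `e` is a non-residue. -/
theorem exists_TInv_nonres {p : ℕ} (hp : p.Prime)
    (hSelD : Stmt_SelectOneDeg F p) (hNR : Stmt_NonResDeg F p)
    (hCyc : Stmt_LocalCyclic F p) (hSU : Stmt_SUnitCount F p)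
    {S : Finset (HeightOneSpectrum (𝓞 F))} {e : Fˣ} (heS : e ∈ SUnits F S)
    (he : ¬ ∃ y : Fˣ, e = y ^ p) :
    ∀ n : ℕ, n ≤ NumberField.Units.rank F + S.card + 1 →
      ∃ (T : Finset (HeightOneSpectrum (𝓞 F))) (t : HeightOneSpectrum (𝓞 F) → Fˣ),
        TInv p (1 : Fˣ) S T t ∧ T.card = n ∧
        ∀ w ∈ T, (Ideal.absNorm w.asIdeal).Prime ∧ ¬ LocPowN p w 1 e := by
  intro n
  induction n with
  | zero =>
    intro _
    exact ⟨∅, fun _ => 1, ⟨by simp, by simp, by simp, by simp, by simp, by simp⟩, rfl, by simp⟩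
  | succ n ih =>
    intro hn
    obtain ⟨T, t, hT, hc, hTe⟩ := ih (by omega)
    have key : ∃ (w : HeightOneSpectrum (𝓞 F)) (u : Fˣ), w ∉ S ∧ w ∉ T ∧
        (p : 𝓞 F) ∉ w.asIdeal ∧ (Ideal.absNorm w.asIdeal).Prime ∧ ¬ LocPowN p w 1 e ∧
        u ∈ SUnits F S ∧ (∀ w' ∈ T, LocPowN p w' 1 u) ∧ ¬ LocPowN p w 1 u := by
      rcases Finset.eq_empty_or_nonempty T with hTe0 | ⟨w₁, hw₁⟩
      · subst hTe0
        obtain ⟨w, hwS, hwp, hwd, -, hwn⟩ := hNR e he S
        exact ⟨w, e, hwS, by simp, hwp, hwd, hwn, heS, by simp, hwn⟩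
      · obtain ⟨x, hxS, hxres, hxnp⟩ := hT.exists_nonpow hp hCyc hSU (by omega)
        have hew₁ : e ∉ presSubgroup p w₁ := (hTe w₁ hw₁).2
        have hxw₁ : x ∈ presSubgroup p w₁ := hxres w₁ hw₁
        have ha : ¬ ∃ y : Fˣ, e * x ^ (p - 1) = y ^ p := by
          rintro ⟨y, hy⟩
          apply hew₁
          have h2 : e = y ^ p * (x ^ (p - 1))⁻¹ := eq_mul_inv_of_mul_eq hy
          rw [h2]
          exact (presSubgroup p w₁).mul_mem (pow_mem_presSubgroup p w₁ y)
            ((presSubgroup p w₁).inv_mem ((presSubgroup p w₁).pow_mem hxw₁ _))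
        have hu : ∀ (k : ℕ) (y : Fˣ), e ≠ (e * x ^ (p - 1)) ^ k * y ^ p :=
          not_eq_pow_mul_of_nonres hp hew₁ hxw₁ he hxnp
        obtain ⟨w, hwST, hwp, hwd, -, -, hwla, hwn⟩ := hSelD (e * x ^ (p - 1)) e ha hu (S ∪ T)
        have hwS : w ∉ S := fun hw => hwST (Finset.mem_union_left _ hw)
        have hwT : w ∉ T := fun hw => hwST (Finset.mem_union_right _ hw)
        have hxn : ¬ LocPowN p w 1 x := by
          intro hx
          apply hwn
          have h2 : e = (e * x ^ (p - 1)) * (x ^ (p - 1))⁻¹ := by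
            rw [mul_inv_cancel_right]
          have h3 : (e * x ^ (p - 1)) * (x ^ (p - 1))⁻¹ ∈ presSubgroup p w :=
            (presSubgroup p w).mul_mem (hwla 1)
              ((presSubgroup p w).inv_mem ((presSubgroup p w).pow_mem hx _))
          rw [← h2] at h3
          exact h3
        exact ⟨w, x, hwS, hwT, hwp, hwd, hwn, hxS, hxres, hxn⟩
    obtain ⟨w, u, hwS, hwT, hwp, hwd, hwne, huS, hures, hun⟩ := key
    obtain ⟨t', hT', -⟩ := hT.insert hCyc hwS hwT hwp (locPow_one p w) huS hures hun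
    refine ⟨insert w T, t', hT', by rw [Finset.card_insert_of_notMem hwT, hc], ?_⟩
    intro w' hw'
    rcases Finset.mem_insert.mp hw' with rfl | hw'
    · exact ⟨hwd, hwne⟩
    · exact hTe w' hw'

open Classical in
/-- **GEN decomposition.**  For a non-`p`-th-power `S`-unit `e` (`S ⊇` places over `p`, generating
the class group) there is a finite set `T` of places of degree one, outside `S`, not over `p`, at
each of which `e` is not a `p`-th power residue, such that every `x : Fˣ` is `g * u` with `g` a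
local `p`-th power at all of `S` and `u` an `(S ∪ T)`-unit. -/
theorem gen_decomp {p : ℕ} (hp : p.Prime)
    (hM5 : Stmt_M5 F p) (hCyc : Stmt_LocalCyclic F p)
    (hLI : Stmt_LocIndex F p) (hSU : Stmt_SUnitCount F p) (hTC : Stmt_TotComplex F)
    (hSelD : Stmt_SelectOneDeg F p) (hNR : Stmt_NonResDeg F p)
    {S : Finset (HeightOneSpectrum (𝓞 F))}
    (hSp : ∀ v : HeightOneSpectrum (𝓞 F), (p : 𝓞 F) ∈ v.asIdeal → v ∈ S) (hSCG : ClassGen S)
    {e : Fˣ} (heS : e ∈ SUnits F S) (he : ¬ ∃ y : Fˣ, e = y ^ p) :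
    ∃ T : Finset (HeightOneSpectrum (𝓞 F)),
      (∀ w ∈ T, w ∉ S ∧ (p : 𝓞 F) ∉ w.asIdeal ∧ (Ideal.absNorm w.asIdeal).Prime ∧
        ¬ LocPowN p w 1 e) ∧
      ∀ x : Fˣ, ∃ g u : Fˣ, (∀ v ∈ S, LocPow p v g) ∧ u ∈ SUnits F (S ∪ T) ∧ x = g * u := by
  obtain ⟨T, t, hT, hc, hTe⟩ := exists_TInv_nonres hp hSelD hNR hCyc hSU heS he _ le_rfl
  exact ⟨T, fun w hw => ⟨hT.disj w hw, hT.tame w hw, (hTe w hw).1, (hTe w hw).2⟩,
    fun x => exists_mul_of_card hp hM5 hCyc hLI hSU hTC hSp hSCG hT hc x⟩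

end

end Fermat.Agent.S14.helper1892
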