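/-
S14 moonshot, leaf M6-APPROXN (board row 677, seat helper1913): weak approximation with
precision `N` at finitely many places of a number field, with prescribed orders at a disjoint
finite set of places.  Mathlib + helper2613_SUnit (for `ordAt`) only.
-/
import Mathlib
import Fermat.Agent.S14.helper2613_SUnit

set_option autoImplicit false

open IsDedekindDomain NumberField WithZero

namespace Fermat.Agent.S14.helper1913

variable {F : Type*} [Field F] [NumberField F]

/-- CRT core: a nonzero integer `c` with `c ≡ 1 mod v^(N+1)` on `R` and `v`-adic valuation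
exactly `exp (-k v)` on `T`. -/
theorem exists_int_approx (R T : Finset (HeightOneSpectrum (𝓞 F))) (hRT : Disjoint R T) (N : ℕ)
    (k : HeightOneSpectrum (𝓞 F) → ℕ) :
    ∃ c : 𝓞 F, c ≠ 0 ∧ (∀ v ∈ R, c - 1 ∈ v.asIdeal ^ (N + 1)) ∧
      (∀ v ∈ T, v.intValuation c = exp (-(k v : ℤ))) := by
  classical
  choose π hπ using fun v : HeightOneSpectrum (𝓞 F) => v.intValuation_exists_uniformizer
  obtain ⟨c, hc⟩ := IsDedekindDomain.exists_forall_sub_mem_ideal (s := R ∪ T)
    (fun v : HeightOneSpectrum (𝓞 F) => v.asIdeal)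
    (fun v => if v ∈ R then N + 1 else k v + 1)
    (fun v _ => v.prime)
    (fun v _ w _ hvw h => hvw (HeightOneSpectrum.ext h))
    (fun v => if (v : HeightOneSpectrum (𝓞 F)) ∈ R then 1 else π v ^ k v)
  have hR : ∀ v ∈ R, c - 1 ∈ v.asIdeal ^ (N + 1) := by
    intro v hv
    have := hc v (Finset.mem_union_left T hv)
    simpa [hv] using this
  have hT : ∀ v ∈ T, v.intValuation c = exp (-(k v : ℤ)) := by
    intro v hv
    have hvR : v ∉ R := fun h => (Finset.disjoint_left.mp hRT h) hv
    have h1 := hc v (Finset.mem_union_right R hv)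
    simp only [hvR, if_false] at h1
    have h2 : v.intValuation (c - π v ^ k v) ≤ exp (-((k v + 1 : ℕ) : ℤ)) :=
      (v.intValuation_le_pow_iff_mem _ _).mpr h1
    have h3 : v.intValuation (π v ^ k v) = exp (-(k v : ℤ)) := by
      rw [map_pow, hπ v, ← exp_nsmul]
      simp
    have h4 : v.intValuation (c - π v ^ k v) < v.intValuation (π v ^ k v) := by
      rw [h3]
      refine lt_of_le_of_lt h2 ?_
      rw [exp_lt_exp]
      push_cast
      omega
    have h5 : c = (c - π v ^ k v) + π v ^ k v := by ring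
    rw [h5, Valuation.map_add_eq_of_lt_right _ h4, h3]
  by_cases hne : (R ∪ T).Nonempty
  · refine ⟨c, ?_, hR, hT⟩
    obtain ⟨v, hv⟩ := hne
    rcases Finset.mem_union.mp hv with hv | hv
    · rintro rfl
      have h1 := hR v hv
      have h2 : (0 : 𝓞 F) - 1 ∈ v.asIdeal := Ideal.pow_le_self (by omega) h1
      have h3 : (1 : 𝓞 F) ∈ v.asIdeal := by
        have := v.asIdeal.neg_mem h2
        simpa using this
      exact v.isPrime.ne_top ((Ideal.eq_top_iff_one _).mpr h3)
    · rintro rfl
      have h1 := hT v hv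
      rw [map_zero] at h1
      exact exp_ne_zero h1.symm
  · rw [Finset.not_nonempty_iff_eq_empty, Finset.union_eq_empty] at hne
    refine ⟨1, one_ne_zero, ?_, ?_⟩
    · intro v hv
      rw [hne.1] at hv
      exact absurd hv (Finset.notMem_empty v)
    · intro v hv
      rw [hne.2] at hv
      exact absurd hv (Finset.notMem_empty v)

/-- **Weak approximation with precision `N`** (S14-M6-APPROXN). -/
theorem approxN {F : Type*} [Field F] [NumberField F] :
    ∀ R T : Finset (HeightOneSpectrum (𝓞 F)), Disjoint R T →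
      ∀ (N : ℕ) (m : HeightOneSpectrum (𝓞 F) → ℤ),
        ∃ z : Fˣ, (∀ v ∈ R, v.valuation F ((z : F) - 1) ≤ WithZero.exp (-(N : ℤ))) ∧
          ∀ v ∈ T, helper2613.ordAt v z = m v := by
  intro R T hRT N m
  obtain ⟨c, hc0, hcR, hcT⟩ := exists_int_approx R T hRT N (fun v => (-m v).toNat)
  obtain ⟨d, hd0, hdR, hdT⟩ := exists_int_approx R T hRT N (fun v => (m v).toNat)
  have hc0' : (algebraMap (𝓞 F) F c) ≠ 0 := by
    simpa using hc0
  have hd0' : (algebraMap (𝓞 F) F d) ≠ 0 := by
    simpa using hd0
  refine ⟨Units.mk0 (algebraMap (𝓞 F) F c / algebraMap (𝓞 F) F d) (div_ne_zero hc0' hd0'), ?_, ?_⟩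
  · intro v hv
    rw [Units.val_mk0]
    have h1 : v.intValuation (c - 1) ≤ exp (-((N + 1 : ℕ) : ℤ)) :=
      (v.intValuation_le_pow_iff_mem _ _).mpr (hcR v hv)
    have h2 : v.intValuation (d - 1) ≤ exp (-((N + 1 : ℕ) : ℤ)) :=
      (v.intValuation_le_pow_iff_mem _ _).mpr (hdR v hv)
    have h3 : v.intValuation (d - 1) < v.intValuation 1 := by
      rw [map_one]
      refine lt_of_le_of_lt h2 ?_
      rw [← exp_zero, exp_lt_exp]
      push_cast
      omega
    have h4 : v.intValuation d = 1 := by
      have h5 : d = (d - 1) + 1 := by ring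
      rw [h5, Valuation.map_add_eq_of_lt_right _ h3, map_one]
    have h6 : algebraMap (𝓞 F) F c / algebraMap (𝓞 F) F d - 1 =
        algebraMap (𝓞 F) F ((c - 1) - (d - 1)) / algebraMap (𝓞 F) F d := by
      rw [map_sub, map_sub, map_sub, map_one]
      field_simp
      ring
    rw [h6, map_div₀, HeightOneSpectrum.valuation_of_algebraMap,
      HeightOneSpectrum.valuation_of_algebraMap, h4, div_one]
    refine le_trans (Valuation.map_sub_le _ h1 h2) ?_
    rw [exp_le_exp]
    push_cast
    omega
  · intro v hv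
    unfold helper2613.ordAt
    rw [Units.val_mk0, map_div₀, HeightOneSpectrum.valuation_of_algebraMap,
      HeightOneSpectrum.valuation_of_algebraMap, hcT v hv, hdT v hv, ← exp_sub, log_exp]
    have := Int.toNat_sub_toNat_neg (m v)
    omega

end Fermat.Agent.S14.helper1913
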