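import Mathlib
import Fermat.Agent.S14.helper1934_ThaineSpec2

/-!
# S14, "Thaine route": glue (helper1934)

* `stmt_core_of_noClass` : `Stmt_NoClass p → Stmt_Units p → Stmt_Local p → Stmt_E2 p → Stmt_Core p`
  for `p ≥ 5`;
* `stmt_noChar_of_density` : the density comparison,
  `Stmt_WeberWeakFin p → Stmt_PrimeZetaFin → Stmt_NonDegOneFin → Stmt_KummerDensityFin p →
   Stmt_ThaineChar p → Stmt_Local p → Stmt_E2 p → Stmt_NoChar p`.
-/

set_option autoImplicit false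

namespace Fermat.Agent.S14.helper1934

open NumberField IsDedekindDomain

open scoped nonZeroDivisors

/-- In a Dedekind domain, `n`-th roots of ideals are unique. -/
theorem ideal_eq_of_pow_eq_pow {R : Type*} [CommRing R] [IsDedekindDomain R] {I J : Ideal R}
    {n : ℕ} (hn : n ≠ 0) (h : I ^ n = J ^ n) : I = J := by
  have h1 : I ∣ J := (UniqueFactorizationMonoid.pow_dvd_pow_iff_dvd hn).mp (by rw [h])
  have h2 : J ∣ I := (UniqueFactorizationMonoid.pow_dvd_pow_iff_dvd hn).mp (by rw [h])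
  exact dvd_antisymm h1 h2

section CoreGlue

variable {K : Type} [Field K] [NumberField K]

omit [NumberField K] in
/-- The image of a principal ideal under a ring automorphism. -/
theorem map_span_singleton_ringEquiv (g : 𝓞 K ≃+* 𝓞 K) (x : 𝓞 K) :
    (Ideal.span {x}).map (g : 𝓞 K →+* 𝓞 K) = Ideal.span {g x} := by
  rw [Ideal.map_span, Set.image_singleton]
  rfl

/-- Class-group version of the eigen property: if `(α) = I^p` and `g α · c^p = α^m · d^p`, then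
`[g I] = [I]^m`. -/
theorem mulEquiv_mk0_eq_pow_of_eigen {p : ℕ} (hp : p ≠ 0) (g : 𝓞 K ≃+* 𝓞 K) {α : 𝓞 K}
    (I : (Ideal (𝓞 K))⁰) (hI : Ideal.span {α} = (I : Ideal (𝓞 K)) ^ p) {m : ℕ} {c d : 𝓞 K}
    (hc : c ≠ 0) (hd : d ≠ 0) (h : g α * c ^ p = α ^ m * d ^ p) :
    ClassGroup.mulEquiv g (ClassGroup.mk0 I) = ClassGroup.mk0 I ^ m := by
  rw [ClassGroup.mulEquiv_mk0, ← map_pow, ClassGroup.mk0_eq_mk0_iff]
  refine ⟨c, d, hc, hd, ?_⟩
  apply ideal_eq_of_pow_eq_pow hp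
  rw [mul_pow, mul_pow, Ideal.coe_mapNonZero, ← Ideal.map_pow, ← hI, map_span_singleton_ringEquiv,
    Ideal.span_singleton_pow, Ideal.span_singleton_pow, Ideal.span_singleton_mul_span_singleton,
    SubmonoidClass.coe_pow, ← pow_mul, mul_comm m p, pow_mul, ← hI, Ideal.span_singleton_pow,
    Ideal.span_singleton_mul_span_singleton, mul_comm (c ^ p), h, mul_comm]

/-- If `α = γ^p u` with `u` a unit and `α` is an `ω²`-element, then `u` is an `ω²`-unit. -/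
theorem isOmegaTwoUnit_of_isOmegaTwoElt {p : ℕ} (hp : p ≠ 0) {ζ α γ : 𝓞 K} (u : (𝓞 K)ˣ)
    (hα0 : α ≠ 0) (hα : γ ^ p * (u : 𝓞 K) = α) (hω : IsOmegaTwoElt p ζ α) :
    IsOmegaTwoUnit p ζ u := by
  intro g a hg
  obtain ⟨c, d, hc, hd, h⟩ := hω g a hg
  have hγ0 : γ ≠ 0 := by
    rintro rfl
    rw [zero_pow hp, zero_mul] at hα
    exact hα0 hα.symm
  have hgγ0 : g γ ≠ 0 := by
    rw [Ne, map_eq_zero_iff g g.injective]
    exact hγ0
  -- `g u * A^p = u^(a²) * B^p`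
  have hA0 : g γ * c ≠ 0 := mul_ne_zero hgγ0 hc
  have key : g (u : 𝓞 K) * (g γ * c) ^ p = (u : 𝓞 K) ^ (a ^ 2) * (γ ^ (a ^ 2) * d) ^ p := by
    have h1 : g α = g γ ^ p * g (u : 𝓞 K) := by rw [← hα, map_mul, map_pow]
    rw [h1, ← hα] at h
    calc g (u : 𝓞 K) * (g γ * c) ^ p = g γ ^ p * g (u : 𝓞 K) * c ^ p := by ring
      _ = (γ ^ p * (u : 𝓞 K)) ^ (a ^ 2) * d ^ p := h
      _ = (u : 𝓞 K) ^ (a ^ 2) * (γ ^ (a ^ 2) * d) ^ p := by ring
  have hgu : IsUnit (g (u : 𝓞 K)) := u.isUnit.map g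
  have hdvd : (g γ * c) ^ p ∣ (γ ^ (a ^ 2) * d) ^ p := by
    have hu2 : IsUnit ((u : 𝓞 K) ^ (a ^ 2)) := u.isUnit.pow _
    have : (g γ * c) ^ p ∣ (u : 𝓞 K) ^ (a ^ 2) * (γ ^ (a ^ 2) * d) ^ p :=
      ⟨g (u : 𝓞 K), by rw [← key, mul_comm]⟩
    exact (hu2.dvd_mul_left).mp this
  obtain ⟨w, hw⟩ := (IsIntegrallyClosed.pow_dvd_pow_iff hp).mp hdvd
  have key2 : g (u : 𝓞 K) = (u : 𝓞 K) ^ (a ^ 2) * w ^ p := by
    have hAp : (g γ * c) ^ p ≠ 0 := pow_ne_zero _ hA0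
    apply mul_right_cancel₀ hAp
    rw [key, hw]
    ring
  have hwu : IsUnit w := by
    have : IsUnit ((u : 𝓞 K) ^ (a ^ 2) * w ^ p) := key2 ▸ hgu
    have h2 : IsUnit (w ^ p) := isUnit_of_mul_isUnit_right this
    exact (isUnit_pow_iff hp).mp h2
  exact ⟨hwu.unit, by rw [key2, IsUnit.unit_spec]⟩

/-- **Final glue of the Thaine route** (`p ≥ 5`): the Kummer core follows from the class part, the
unit part and the local computation. -/
theorem stmt_core_of_noClass (p : ℕ) [Fact p.Prime] (h5 : 5 ≤ p)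
    (HC : Stmt_NoClass p) (HU : Stmt_Units p) (HL : Stmt_Local p) (HE : Stmt_E2 p) :
    Stmt_Core p := by
  intro K _ _ _ ζ hζ α hα0 hI hαπ hx hω
  obtain ⟨I, hI⟩ := hI
  obtain ⟨x, hx⟩ := hx
  have hp : p.Prime := Fact.out
  have hp0 : p ≠ 0 := hp.ne_zero
  have hI0 : I ≠ ⊥ := by
    rintro rfl
    rw [Ideal.bot_pow hp0, Ideal.span_singleton_eq_bot] at hI
    exact hα0 hI
  have hImem : I ∈ (Ideal (𝓞 K))⁰ := mem_nonZeroDivisors_iff_ne_zero.mpr hI0
  have hcp : ClassGroup.mk0 (⟨I, hImem⟩ : (Ideal (𝓞 K))⁰) ^ p = 1 := by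
    rw [← map_pow]
    have : ((⟨I, hImem⟩ : (Ideal (𝓞 K))⁰) ^ p) =
        ⟨Ideal.span {α}, hI ▸ pow_mem hImem p⟩ := by
      apply Subtype.ext
      rw [SubmonoidClass.coe_pow]
      exact hI.symm
    rw [this, ClassGroup.mk0_eq_one_iff]
    exact ⟨⟨α, rfl⟩⟩
  have hceig : ∀ (g : 𝓞 K ≃+* 𝓞 K) (a : ℕ), g ζ = ζ ^ a →
      ClassGroup.mulEquiv g (ClassGroup.mk0 (⟨I, hImem⟩ : (Ideal (𝓞 K))⁰)) =
        ClassGroup.mk0 (⟨I, hImem⟩ : (Ideal (𝓞 K))⁰) ^ (a ^ 2) := by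
    intro g a hg
    obtain ⟨c, d, hc, hd, h⟩ := hω g a hg
    exact mulEquiv_mk0_eq_pow_of_eigen hp0 g ⟨I, hImem⟩ hI hc hd h
  have hc1 := HC K ζ hζ h5 _ hcp hceig
  rw [ClassGroup.mk0_eq_one_iff] at hc1
  obtain ⟨γ, hγ⟩ := hc1.principal
  have hγ' : I = Ideal.span {γ} := hγ
  -- `α = γ^p u`
  have hassoc : Associated (γ ^ p) α := by
    rw [← Ideal.span_singleton_eq_span_singleton, hI, ← Ideal.span_singleton_pow, hγ']
  obtain ⟨u, hu⟩ := hassoc
  have huω : IsOmegaTwoUnit p ζ u := isOmegaTwoUnit_of_isOmegaTwoElt hp0 u hα0 hu hω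
  -- `1 ∉ (1 - ζ)`
  have h1π : (1 : 𝓞 K) ∉ Ideal.span {1 - ζ} := by
    intro h1
    apply hαπ
    rw [(Ideal.eq_top_iff_one _).mpr h1]
    exact Submodule.mem_top
  -- the unit `E2`
  obtain ⟨e, he, heω⟩ := HE K ζ hζ h5
  have he' : ∀ (k : ℕ) (v : (𝓞 K)ˣ), (e : 𝓞 K) ≠ ζ ^ k * (v : 𝓞 K) ^ p := by
    intro k v hek
    have hmem : ζ ^ ((p - 1) * k) * E2 p ζ ^ 1 * (1 : 𝓞 K) ^ p - (v : 𝓞 K) ^ p ∈
        Ideal.span {(1 - ζ) ^ 3} := by
      have h0 : ζ ^ ((p - 1) * k) * E2 p ζ ^ 1 * (1 : 𝓞 K) ^ p - (v : 𝓞 K) ^ p = 0 := by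
        rw [← he, hek, pow_one, one_pow, mul_one, ← mul_assoc, ← pow_add]
        have hexp : (p - 1) * k + k = p * k := by
          have : p - 1 + 1 = p := Nat.sub_add_cancel hp.one_le
          calc (p - 1) * k + k = (p - 1 + 1) * k := by ring
            _ = p * k := by rw [this]
        rw [hexp, pow_mul, hζ.pow_eq_one, one_pow, one_mul, sub_self]
      rw [h0]
      exact Submodule.zero_mem _
    have := (HL K ζ hζ h5 ((p - 1) * k) 1 1 (v : 𝓞 K) h1π hmem).2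
    exact hp.one_lt.ne' (Nat.dvd_one.mp this)
  obtain ⟨k, j, v, hkjv⟩ := HU K ζ hζ h5 u e huω heω he'
  -- `α = ζ^k E2^j (v γ)^p`
  have hα' : α = ζ ^ k * E2 p ζ ^ j * ((v : 𝓞 K) * γ) ^ p := by
    rw [← hu, hkjv, he]
    ring
  have hvγ : (v : 𝓞 K) * γ ∉ Ideal.span {1 - ζ} := by
    intro hmem
    apply hαπ
    rw [hα']
    exact Ideal.mul_mem_left _ _ (Ideal.pow_mem_of_mem _ hmem p hp.pos)
  have hmem2 : ζ ^ k * E2 p ζ ^ j * ((v : 𝓞 K) * γ) ^ p - x ^ p ∈ Ideal.span {(1 - ζ) ^ 3} := by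
    rw [← hα']
    exact hx
  obtain ⟨⟨k', rfl⟩, ⟨j', rfl⟩⟩ := HL K ζ hζ h5 k j ((v : 𝓞 K) * γ) x hvγ hmem2
  refine ⟨ζ ^ k' * E2 p ζ ^ j' * ((v : 𝓞 K) * γ), ?_⟩
  rw [hα']
  ring

end CoreGlue

section Density

variable {K : Type} [Field K] [NumberField K]

/-- `1 - ζ` is not a unit: `1 ∉ (1 - ζ)`. -/
theorem one_notMem_span_one_sub_zeta {p : ℕ} [Fact p.Prime] [IsCyclotomicExtension {p} ℚ K]
    {ζ : 𝓞 K} (hζ : IsPrimitiveRoot ζ p) : (1 : 𝓞 K) ∉ Ideal.span {1 - ζ} := by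
  have hζ' : IsPrimitiveRoot (ζ : K) p :=
    hζ.map_of_injective (f := algebraMap (𝓞 K) K) RingOfIntegers.coe_injective
  have hprime := hζ'.zeta_sub_one_prime'
  have hint : hζ'.toInteger = ζ := by
    apply RingOfIntegers.ext
    rfl
  rw [hint] at hprime
  intro h
  rw [Ideal.mem_span_singleton] at h
  have hu : IsUnit (ζ - 1) := by
    have : IsUnit (1 - ζ) := isUnit_of_dvd_one h
    have h2 : ζ - 1 = -(1 - ζ) := by ring
    rw [h2]
    exact this.neg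
  exact hprime.not_isUnit hu

/-- Each term of the prime zeta sum is nonnegative. -/
theorem pzTerm_nonneg (v : HeightOneSpectrum (𝓞 K)) (s : ℝ) :
    0 ≤ (Ideal.absNorm v.asIdeal : ℝ) ^ (-s) :=
  Real.rpow_nonneg (Nat.cast_nonneg _) _

/-- Each term of the prime zeta sum is at most one for `s ≥ 0`. -/
theorem pzTerm_le_one (v : HeightOneSpectrum (𝓞 K)) {s : ℝ} (hs : 0 ≤ s) :
    (Ideal.absNorm v.asIdeal : ℝ) ^ (-s) ≤ 1 := by
  apply Real.rpow_le_one_of_one_le_of_nonpos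
  · have : Ideal.absNorm v.asIdeal ≠ 0 := by
      rw [Ne, Ideal.absNorm_eq_zero_iff]
      exact v.ne_bot
    exact_mod_cast Nat.one_le_iff_ne_zero.mpr this
  · linarith

/-- The primes containing a given nonzero element form a finite set. -/
theorem finite_setOf_mem_asIdeal {x : 𝓞 K} (hx : x ≠ 0) :
    {v : HeightOneSpectrum (𝓞 K) | x ∈ v.asIdeal}.Finite := by
  have h := Ideal.finite_factors (I := Ideal.span {x})
    (by rwa [Ne, Ideal.zero_eq_bot, Ideal.span_singleton_eq_bot])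
  refine h.subset ?_
  intro v hv
  show v.asIdeal ∣ Ideal.span {x}
  rw [Ideal.dvd_span_singleton]
  exact hv

/-- **Density comparison.**  The analytic bounds (finite forms) together with Thaine's relation
and the local computation exclude nontrivial `ω²`-characters of the class group. -/
theorem stmt_noChar_of_density (p : ℕ) [Fact p.Prime]
    (HW : Stmt_WeberWeakFin p) (HZ : Stmt_PrimeZetaFin) (HN : Stmt_NonDegOneFin)
    (HK : Stmt_KummerDensityFin p) (HT : Stmt_ThaineChar p) (HL : Stmt_Local p)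
    (HE : Stmt_E2 p) : Stmt_NoChar p := by
  intro K _ _ _ ζ hζ h5 χ hχ
  by_contra hne
  have hp : p.Prime := Fact.out
  obtain ⟨BW, hBW⟩ := HW K χ hne
  obtain ⟨BZ, hBZ⟩ := HZ K
  obtain ⟨BN, hBN⟩ := HN K
  obtain ⟨e, he, -⟩ := HE K ζ hζ h5
  have h1π := one_notMem_span_one_sub_zeta hζ
  have hnotpow : ¬ ∃ y : 𝓞 K, (e : 𝓞 K) = y ^ p := by
    rintro ⟨y, hy⟩
    have hmem : ζ ^ 0 * E2 p ζ ^ 1 * (1 : 𝓞 K) ^ p - y ^ p ∈ Ideal.span {(1 - ζ) ^ 3} := by
      have h0 : ζ ^ 0 * E2 p ζ ^ 1 * (1 : 𝓞 K) ^ p - y ^ p = 0 := by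
        rw [← he, hy]; ring
      rw [h0]
      exact Submodule.zero_mem _
    have := (HL K ζ hζ h5 0 1 1 y h1π hmem).2
    exact hp.one_lt.ne' (Nat.dvd_one.mp this)
  obtain ⟨BK, hBK⟩ := HK K ζ hζ e hnotpow
  -- the primes above `p`
  have hpK : (p : 𝓞 K) ≠ 0 := by
    exact_mod_cast hp.ne_zero
  have hfin := finite_setOf_mem_asIdeal hpK
  set P : Finset (HeightOneSpectrum (𝓞 K)) := hfin.toFinset with hP
  have hpR : (0 : ℝ) < p := by exact_mod_cast hp.pos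
  -- bound for finite sums over primes outside the kernel
  have key : ∀ s : ℝ, 1 < s → s < 2 → ∀ G : Finset (HeightOneSpectrum (𝓞 K)),
      (∀ v ∈ G, χ (primeClass v) ≠ 1) →
      (p : ℝ) * ∑ v ∈ G, (Ideal.absNorm v.asIdeal : ℝ) ^ (-s) ≤
        Real.log (1 / (s - 1)) + BK + p * (BN + P.card) := by
    intro s hs1 hs2 G hG
    classical
    have hsplit1 := Finset.sum_filter_add_sum_filter_not G
      (fun v => (Ideal.absNorm v.asIdeal).Prime) (fun v => (Ideal.absNorm v.asIdeal : ℝ) ^ (-s))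
    have hsplit2 := Finset.sum_filter_add_sum_filter_not
      (G.filter (fun v => (Ideal.absNorm v.asIdeal).Prime))
      (fun v => (p : 𝓞 K) ∉ v.asIdeal) (fun v => (Ideal.absNorm v.asIdeal : ℝ) ^ (-s))
    have hb1 : (p : ℝ) * ∑ v ∈ (G.filter (fun v => (Ideal.absNorm v.asIdeal).Prime)).filter
        (fun v => (p : 𝓞 K) ∉ v.asIdeal), (Ideal.absNorm v.asIdeal : ℝ) ^ (-s) ≤
        Real.log (1 / (s - 1)) + BK := by
      apply hBK s hs1 hs2
      intro v hv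
      rw [Finset.mem_filter, Finset.mem_filter] at hv
      obtain ⟨⟨hvG, hvprime⟩, hvp⟩ := hv
      refine ⟨hvp, ?_⟩
      rw [he]
      exact HT K ζ hζ h5 χ hχ v hvprime hvp (hG v hvG)
    have hb2 : ∑ v ∈ G.filter (fun v => ¬ (Ideal.absNorm v.asIdeal).Prime),
        (Ideal.absNorm v.asIdeal : ℝ) ^ (-s) ≤ BN := by
      apply hBN s hs1 hs2
      intro v hv
      rw [Finset.mem_filter] at hv
      exact hv.2
    have hb3 : ∑ v ∈ (G.filter (fun v => (Ideal.absNorm v.asIdeal).Prime)).filter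
        (fun v => ¬ (p : 𝓞 K) ∉ v.asIdeal), (Ideal.absNorm v.asIdeal : ℝ) ^ (-s) ≤ P.card := by
      have hsub : (G.filter (fun v => (Ideal.absNorm v.asIdeal).Prime)).filter
          (fun v => ¬ (p : 𝓞 K) ∉ v.asIdeal) ⊆ P := by
        intro v hv
        rw [Finset.mem_filter] at hv
        rw [hP, Set.Finite.mem_toFinset]
        exact not_not.mp hv.2
      calc ∑ v ∈ (G.filter (fun v => (Ideal.absNorm v.asIdeal).Prime)).filter
            (fun v => ¬ (p : 𝓞 K) ∉ v.asIdeal), (Ideal.absNorm v.asIdeal : ℝ) ^ (-s)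
          ≤ ∑ v ∈ P, (Ideal.absNorm v.asIdeal : ℝ) ^ (-s) :=
            Finset.sum_le_sum_of_subset_of_nonneg hsub (fun v _ _ => pzTerm_nonneg v s)
        _ ≤ ∑ _v ∈ P, (1 : ℝ) := Finset.sum_le_sum (fun v _ => pzTerm_le_one v (by linarith))
        _ = P.card := by simp
    rw [← hsplit1, ← hsplit2]
    have e1 := mul_le_mul_of_nonneg_left hb2 hpR.le
    have e2 := mul_le_mul_of_nonneg_left hb3 hpR.le
    linarith
  -- the constant
  set D : ℝ := BZ + BW + 2 * (BN + P.card) with hD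
  set M : ℝ := |2 * BK| + p * |D| + 1 with hM
  have hMpos : 0 < M := by positivity
  set s : ℝ := 1 + Real.exp (-M) with hs
  have hs1 : 1 < s := by
    have := Real.exp_pos (-M)
    linarith
  have hs2 : s < 2 := by
    have : Real.exp (-M) < 1 := by
      rw [← Real.exp_zero]
      exact Real.exp_lt_exp.mpr (by linarith)
    linarith
  have hlog : Real.log (1 / (s - 1)) = M := by
    have : s - 1 = Real.exp (-M) := by rw [hs]; ring
    rw [this, one_div, ← Real.exp_neg, neg_neg, Real.log_exp]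
  obtain ⟨F, hF⟩ := hBZ s hs1 hs2
  classical
  have hsplit := Finset.sum_filter_add_sum_filter_not F
    (fun v => χ (primeClass v) = 1) (fun v => (Ideal.absNorm v.asIdeal : ℝ) ^ (-s))
  obtain ⟨G, hG, hFG⟩ := hBW s hs1 hs2 (F.filter (fun v => χ (primeClass v) = 1))
    (fun v hv => (Finset.mem_filter.mp hv).2)
  have k1 := key s hs1 hs2 G hG
  have k2 := key s hs1 hs2 (F.filter (fun v => ¬ χ (primeClass v) = 1))
    (fun v hv => (Finset.mem_filter.mp hv).2)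
  rw [hlog] at hF k1 k2
  -- `p * (M - BZ) ≤ 2 (M + BK + p (BN + |P|)) + p BW`
  have h5R : (5 : ℝ) ≤ p := by exact_mod_cast h5
  have main : (p : ℝ) * (M - BZ) ≤ 2 * (M + BK + p * (BN + P.card)) + p * BW := by
    have e1 : (p : ℝ) * (M - BZ) ≤ p * ∑ v ∈ F, (Ideal.absNorm v.asIdeal : ℝ) ^ (-s) :=
      mul_le_mul_of_nonneg_left hF hpR.le
    have e2 := mul_le_mul_of_nonneg_left hFG hpR.le
    rw [← hsplit, mul_add] at e1
    rw [mul_add] at e2
    linarith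
  have hD1 : D ≤ |D| := le_abs_self D
  have hB1 : 2 * BK ≤ |2 * BK| := le_abs_self _
  have hD0 : 0 ≤ |D| := abs_nonneg D
  have hB0 : 0 ≤ |2 * BK| := abs_nonneg _
  -- `(p - 2) M ≤ 2 BK + p D`
  have main2 : ((p : ℝ) - 2) * M ≤ 2 * BK + p * D := by
    rw [hD]; linarith
  have h3 : 3 * M ≤ ((p : ℝ) - 2) * M := by
    apply mul_le_mul_of_nonneg_right _ hMpos.le
    linarith
  have h4 : (p : ℝ) * D ≤ p * |D| := mul_le_mul_of_nonneg_left hD1 hpR.le
  have h6 : 0 ≤ (p : ℝ) * |D| := mul_nonneg hpR.le hD0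
  rw [hM] at h3 main2
  linarith

end Density

end Fermat.Agent.S14.helper1934
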