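import Mathlib
import Fermat.Agent.S14.helper1934_ThaineGlue
import Fermat.Agent.S14.helper662_Reduction
import Fermat.Agent.S14.helper5605_CoreThree
import Fermat.Agent.S14.helper1122_NoClass
import Fermat.Agent.S14.helper1378_StmtUnits
import Fermat.Agent.S14.helper4440_LocalSpec
import Fermat.Agent.S14.helper854_StmtE2
import Fermat.Agent.S14.helper2850_PrimeSums
import Fermat.Agent.S14.helper702_KummerDensity
import Fermat.Agent.S14.helper1331_WeberLite
import Fermat.Agent.Lib.helper1121_ZetaIdealSum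

/-!
# S14, "Thaine route": the chain (helper1934)

Adapters between the landed leaves and the glue, and the theorem `extVanishingCts_of_open`
which reduces S14 to the three items that are still open:

* `HTR : Stmt_Core p → helper662.Core p` (transport),
* `HW0 : Stmt_PartialZetaDiff` (bounded differences of partial zeta functions),
* `HT  : 5 ≤ p → Stmt_ThaineChar p` (Thaine's relation, character form).
-/

set_option autoImplicit false

namespace Fermat.Agent.S14.helper1934

open NumberField IsDedekindDomain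

open scoped nonZeroDivisors

/-! ## From `tsum` forms to finite-sum forms -/

section Adapters

variable {K : Type} [Field K] [NumberField K]

/-- A finite sum over primes of a set is bounded by the `tsum` over the set. -/
theorem sum_le_primeIdealZetaSum {s : ℝ}
    (hsum : Summable fun v : HeightOneSpectrum (𝓞 K) => (Ideal.absNorm v.asIdeal : ℝ) ^ (-s))
    (S : Set (HeightOneSpectrum (𝓞 K))) (F : Finset (HeightOneSpectrum (𝓞 K)))
    (hF : ∀ v ∈ F, v ∈ S) :
    ∑ v ∈ F, (Ideal.absNorm v.asIdeal : ℝ) ^ (-s) ≤ Set.primeIdealZetaSum S s := by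
  classical
  rw [Set.primeIdealZetaSum_def]
  have h0 : ∑' 𝔭 : S, (Ideal.absNorm 𝔭.1.asIdeal : ℝ) ^ (-s) =
      ∑' v : HeightOneSpectrum (𝓞 K),
        S.indicator (fun v => (Ideal.absNorm v.asIdeal : ℝ) ^ (-s)) v :=
    tsum_subtype S (fun v : HeightOneSpectrum (𝓞 K) => (Ideal.absNorm v.asIdeal : ℝ) ^ (-s))
  rw [h0]
  have h1 : ∑ v ∈ F, (Ideal.absNorm v.asIdeal : ℝ) ^ (-s) =
      ∑ v ∈ F, S.indicator (fun v => (Ideal.absNorm v.asIdeal : ℝ) ^ (-s)) v :=
    Finset.sum_congr rfl (fun v hv => (Set.indicator_of_mem (hF v hv)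
      (fun v : HeightOneSpectrum (𝓞 K) => (Ideal.absNorm v.asIdeal : ℝ) ^ (-s))).symm)
  rw [h1]
  exact (hsum.indicator S).sum_le_tsum F
    (fun v _ => Set.indicator_nonneg (fun v _ => pzTerm_nonneg v s) v)

end Adapters

/-- `Stmt_PrimeZeta` (tsum form) implies the finite form. -/
theorem stmt_PrimeZetaFin_of (H : Stmt_PrimeZeta) : Stmt_PrimeZetaFin := by
  intro K _ _
  obtain ⟨hsum, B, hB⟩ := H K
  refine ⟨B + 1, fun s hs1 hs2 => ?_⟩
  by_contra hcon
  push Not at hcon
  have h1 : ∑' v : HeightOneSpectrum (𝓞 K), (Ideal.absNorm v.asIdeal : ℝ) ^ (-s) ≤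
      Real.log (1 / (s - 1)) - (B + 1) :=
    (hsum s hs1).tsum_le_of_sum_le (fun F => (hcon F).le)
  have h2 := hB s hs1 hs2
  linarith

/-- `Stmt_NonDegOne` (tsum form) implies the finite form. -/
theorem stmt_NonDegOneFin_of (HZ : Stmt_PrimeZeta) (H : Stmt_NonDegOne) : Stmt_NonDegOneFin := by
  intro K _ _
  obtain ⟨hsum, -⟩ := HZ K
  obtain ⟨B, hB⟩ := H K
  refine ⟨B, fun s hs1 hs2 F hF => ?_⟩
  exact (sum_le_primeIdealZetaSum (hsum s hs1) _ F hF).trans (hB s hs1 hs2)

/-- `Stmt_KummerDensity` (tsum form) implies the finite form. -/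
theorem stmt_KummerDensityFin_of (p : ℕ) [Fact p.Prime] (HZ : Stmt_PrimeZeta)
    (H : Stmt_KummerDensity p) : Stmt_KummerDensityFin p := by
  intro K _ _ ζ hζ e he
  obtain ⟨hsum, -⟩ := HZ K
  obtain ⟨B, hB⟩ := H K ζ hζ e he
  refine ⟨B, fun s hs1 hs2 F hF => ?_⟩
  have hpR : (0 : ℝ) ≤ p := Nat.cast_nonneg p
  exact (mul_le_mul_of_nonneg_left (sum_le_primeIdealZetaSum (hsum s hs1) _ F hF) hpR).trans
    (hB s hs1 hs2)

/-! ## The Weber bound in its `2`-form -/

/-- **Weber bound, `2`-form, finite sums**: the primes in the kernel of a nontrivial character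
of the class group carry at most half of the logarithmic mass. -/
def Stmt_WeberTwoFin (p : ℕ) [Fact p.Prime] : Prop :=
  ∀ (K : Type) [Field K] [NumberField K] (χ : ClassGroup (𝓞 K) →* Multiplicative (ZMod p)),
    χ ≠ 1 →
    ∃ B : ℝ, ∀ s : ℝ, 1 < s → s < 2 →
      ∀ T : Finset (HeightOneSpectrum (𝓞 K)), (∀ v ∈ T, χ (primeClass v) = 1) →
        2 * ∑ v ∈ T, (Ideal.absNorm v.asIdeal : ℝ) ^ (-s) ≤ Real.log (1 / (s - 1)) + B

/-- The `2`-form of the Weber bound together with (Z-lower) gives the weak Weber bound. -/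
theorem stmt_WeberWeakFin_of_two (p : ℕ) [Fact p.Prime] (H2 : Stmt_WeberTwoFin p)
    (HZ : Stmt_PrimeZetaFin) : Stmt_WeberWeakFin p := by
  intro K _ _ χ hχ
  obtain ⟨B2, hB2⟩ := H2 K χ hχ
  obtain ⟨BZ, hBZ⟩ := HZ K
  refine ⟨B2 + BZ, fun s hs1 hs2 F hF => ?_⟩
  classical
  obtain ⟨F0, hF0⟩ := hBZ s hs1 hs2
  refine ⟨F0.filter (fun v => ¬ χ (primeClass v) = 1), fun v hv => (Finset.mem_filter.mp hv).2, ?_⟩
  have hsplit := Finset.sum_filter_add_sum_filter_not F0
    (fun v => χ (primeClass v) = 1) (fun v => (Ideal.absNorm v.asIdeal : ℝ) ^ (-s))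
  have h1 := hB2 s hs1 hs2 F hF
  have h2 := hB2 s hs1 hs2 (F0.filter (fun v => χ (primeClass v) = 1))
    (fun v hv => (Finset.mem_filter.mp hv).2)
  linarith

/-- The `2`-form of the Weber bound from bounded differences of partial zeta functions
(`helper1331.weber_two_of_class_bound`). -/
theorem stmt_WeberTwoFin_of (p : ℕ) [Fact p.Prime] (HW0 : Stmt_PartialZetaDiff) :
    Stmt_WeberTwoFin p := by
  intro K _ _ χ hχ
  have hp : p.Prime := Fact.out
  have : NeZero p := ⟨hp.ne_zero⟩
  have hcard : (Nat.card (Multiplicative (ZMod p))).Prime := by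
    rw [Nat.card_eq_fintype_card, Fintype.card_multiplicative, ZMod.card]
    exact hp
  have hsurj : Function.Surjective χ := by
    apply helper1331.surjective_of_prime_card χ hcard
    by_contra hcon
    push Not at hcon
    exact hχ (MonoidHom.ext hcon)
  have hc₀ : (Multiplicative.ofAdd (1 : ZMod p)) ≠ 1 := by
    intro h
    have h1 : (1 : ZMod p) = 0 := by
      have := congrArg Multiplicative.toAdd h
      simp at this
    have : Fact (1 < p) := ⟨hp.one_lt⟩
    exact one_ne_zero h1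
  have hsum : ∀ s : ℝ, 1 < s → Summable (helper1331.nrm (K := K) s) :=
    fun s hs => Fermat.Agent.Lib.helper1121.summable_ideal_rpow K hs
  have hW0 : ∀ C C' : ClassGroup (𝓞 K), ∃ B : ℝ, ∀ s ∈ Set.Ioc (1 : ℝ) 2,
      |helper1331.classZ C s - helper1331.classZ C' s| ≤ B := by
    intro C C'
    obtain ⟨M, hM⟩ := HW0 K C C'
    refine ⟨max M |helper1331.classZ C 2 - helper1331.classZ C' 2|, fun s hs => ?_⟩
    rcases hs.2.lt_or_eq with h | h
    · rw [helper1331.classZ_eq_tsum_subtype, helper1331.classZ_eq_tsum_subtype]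
      exact (hM s hs.1 h).trans (le_max_left _ _)
    · subst h
      exact le_max_right _ _
  have hZup : ∃ B : ℝ, ∀ s ∈ Set.Ioc (1 : ℝ) 2, ∀ T : Finset (HeightOneSpectrum (𝓞 K)),
      ∑ v ∈ T, helper1331.nrm s (helper1331.primeIdeal v) ≤ Real.log (1 / (s - 1)) + B := by
    obtain ⟨B, hB⟩ := helper2850.primeSumUpper K
    have hs2 := helper2850.summable_primes K (s := 2) (by norm_num)
    refine ⟨max B (∑' v : HeightOneSpectrum (𝓞 K), (Ideal.absNorm v.asIdeal : ℝ) ^ (-(2 : ℝ))),
      fun s hs T => ?_⟩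
    rcases hs.2.lt_or_eq with h | h
    · have := hB s hs.1 h T
      have hmax := le_max_left B
        (∑' v : HeightOneSpectrum (𝓞 K), (Ideal.absNorm v.asIdeal : ℝ) ^ (-(2 : ℝ)))
      calc ∑ v ∈ T, helper1331.nrm s (helper1331.primeIdeal v)
          = ∑ v ∈ T, (Ideal.absNorm v.asIdeal : ℝ) ^ (-s) := rfl
        _ ≤ Real.log (1 / (s - 1)) + B := this
        _ ≤ _ := by linarith
    · subst h
      have hlog : Real.log (1 / ((2 : ℝ) - 1)) = 0 := by norm_num
      rw [hlog, zero_add]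
      have h1 : ∑ v ∈ T, helper1331.nrm 2 (helper1331.primeIdeal v) ≤
          ∑' v : HeightOneSpectrum (𝓞 K), (Ideal.absNorm v.asIdeal : ℝ) ^ (-(2 : ℝ)) :=
        hs2.sum_le_tsum T (fun v _ => pzTerm_nonneg v 2)
      exact h1.trans (le_max_right _ _)
  obtain ⟨B, hB⟩ := helper1331.weber_two_of_class_bound χ hsurj _ hc₀ hsum hW0 hZup
  exact ⟨B, fun s hs1 hs2 T hT => hB s ⟨hs1, hs2.le⟩ T hT⟩

/-! ## The chain -/

/-- `Stmt_NoChar p` from the two open analytic/arithmetic items. -/
theorem stmt_NoChar_of_open (p : ℕ) [Fact p.Prime] (HW0 : Stmt_PartialZetaDiff)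
    (HT : Stmt_ThaineChar p) : Stmt_NoChar p :=
  have HZfin : Stmt_PrimeZetaFin := stmt_PrimeZetaFin_of helper2850.stmt_PrimeZeta
  stmt_noChar_of_density p
    (stmt_WeberWeakFin_of_two p (stmt_WeberTwoFin_of p HW0) HZfin)
    HZfin
    (stmt_NonDegOneFin_of helper2850.stmt_PrimeZeta helper2850.stmt_NonDegOne)
    (stmt_KummerDensityFin_of p helper2850.stmt_PrimeZeta
      (helper702.stmt_KummerDensity p (fun L _ _ => helper2850.primeSumUpper L)))
    HT (helper4440.stmt_Local p) (helper854.stmt_E2 p)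

/-- The Kummer core for every prime `p ≥ 3` from the open items. -/
theorem stmt_Core_of_open (p : ℕ) [Fact p.Prime] (h3 : 3 ≤ p) (HW0 : Stmt_PartialZetaDiff)
    (HT : 5 ≤ p → Stmt_ThaineChar p) : Stmt_Core p := by
  have hp : p.Prime := Fact.out
  rcases Nat.lt_or_ge p 5 with h | h5
  · have h34 : p = 3 ∨ p = 4 := by omega
    rcases h34 with rfl | rfl
    · exact helper5605.stmt_Core_three
    · exact absurd hp (by decide)
  · exact stmt_core_of_noClass p h5
      (helper1122.stmt_NoClass_of_NoChar p (stmt_NoChar_of_open p HW0 (HT h5)))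
      (helper1378.stmt_Units p) (helper4440.stmt_Local p) (helper854.stmt_E2 p)

/-- **S14 from the open items of the Thaine route.** -/
theorem extVanishingCts_of_open (p : ℕ) [Fact p.Prime] (h3 : 3 ≤ p)
    (HTR : Stmt_Core p → helper662.Core p) (HW0 : Stmt_PartialZetaDiff)
    (HT : 5 ≤ p → Stmt_ThaineChar p) : ExtCitation.ExtVanishingCts p :=
  helper662.extVanishingCts_of_core h3 (HTR (stmt_Core_of_open p h3 HW0 HT))

end Fermat.Agent.S14.helper1934
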