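import Mathlib
import Fermat.Agent.S14.helper1934_ThaineChain
import Fermat.Agent.S14.helper134_Thaine
import Fermat.Agent.S14.helper1759_ThaineChar
import Fermat.Agent.S14.helper4885_Kummer
import Fermat.Agent.S14.helper207_PackageR

/-!
# S14, "Thaine route": the chain, part 2 (helper1934)

With Thaine's relation (`helper134.thaineCore`, `helper1759.thaineChar_of_core`) and the packages
K (`helper4885.stmt_Kummer`) and R (`helper207.stmt_Reduction`) landed, S14 is reduced to the
single analytic statement `Stmt_PartialZetaDiff` (bounded differences of the partial zeta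
functions of two ideal classes on `(1,2)`).
-/

set_option autoImplicit false

namespace Fermat.Agent.S14.helper1934

/-- Thaine's relation in character form (all inputs landed). -/
theorem stmt_ThaineChar (p : ℕ) [Fact p.Prime] : Stmt_ThaineChar p :=
  helper1759.thaineChar_of_core p (helper134.thaineCore p)

/-- The Kummer core from the partial-zeta difference bound. -/
theorem stmt_Core_of_W0 (p : ℕ) [Fact p.Prime] (h3 : 3 ≤ p) (HW0 : Stmt_PartialZetaDiff) :
    Stmt_Core p :=
  stmt_Core_of_open p h3 HW0 (fun _ => stmt_ThaineChar p)

/-- **S14 from the partial-zeta difference bound.** -/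
theorem extVanishingCts_of_W0 (p : ℕ) [Fact p.Prime] (h3 : 3 ≤ p) (HW0 : Stmt_PartialZetaDiff) :
    ExtCitation.ExtVanishingCts p :=
  helper207.stmt_Reduction p h3 (helper4885.stmt_Kummer p h3 (stmt_Core_of_W0 p h3 HW0))

end Fermat.Agent.S14.helper1934
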