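import Fermat.Agent.S14.helper207_PackageR
import Fermat.Agent.S14.helper4885_Kummer
import Fermat.Agent.S14.helper1934_ThaineChain

/-!
# S14, Thaine route: closing the reduction link with packages K and R (helper207)

`Stmt_Core p → ExtVanishingCts p` from `helper4885.stmt_Kummer` (package K) and
`helper207.stmt_Reduction` (package R), and the resulting chain with only the two remaining
inputs `Stmt_PartialZetaDiff` and `Stmt_ThaineChar`.
-/

set_option autoImplicit false

namespace Fermat.Agent.S14.helper207

/-- The Kummer core implies the frozen statement (packages K + R of `helper1934_ThaineSpec`). -/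
theorem extVanishingCts_of_core (p : ℕ) [Fact p.Prime] (h3 : 3 ≤ p)
    (hC : Fermat.Agent.S14.helper1934.Stmt_Core p) : ExtCitation.ExtVanishingCts p :=
  stmt_Reduction p h3 (Fermat.Agent.S14.helper4885.stmt_Kummer p h3 hC)

/-- S14 from the two remaining inputs of the Thaine route. -/
theorem extVanishingCts_of_pzd_thaine (p : ℕ) [Fact p.Prime] (h3 : 3 ≤ p)
    (HW0 : Fermat.Agent.S14.helper1934.Stmt_PartialZetaDiff)
    (HT : 5 ≤ p → Fermat.Agent.S14.helper1934.Stmt_ThaineChar p) :
    ExtCitation.ExtVanishingCts p :=
  extVanishingCts_of_core p h3 (Fermat.Agent.S14.helper1934.stmt_Core_of_open p h3 HW0 HT)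

end Fermat.Agent.S14.helper207
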