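import Mathlib

set_option autoImplicit false

/-!
# Jacobi sums modulo a degree-one prime (Stickelberger for `J(ψ,ψ)`), helper2126

Spec-independent core of module M8 of the S14 moonshot.
-/

namespace Fermat.Agent.S14.helper2126

open Finset

section FiniteFieldSum

variable {F : Type*} [Field F] [Fintype F]

/-- `∑ x, x ^ i` over a finite field, for `0 < i`. -/
theorem sum_pow_eq_ite (i : ℕ) (hi : 0 < i) :
    ∑ x : F, x ^ i = if Fintype.card F - 1 ∣ i then (-1 : F) else 0 := by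
  classical
  let φ : Fˣ ↪ F := ⟨fun x ↦ x, Units.val_injective⟩
  have : univ.map φ = univ \ {0} := by
    ext x
    simpa only [mem_map, mem_univ, Function.Embedding.coeFn_mk, true_and, mem_sdiff,
      mem_singleton, φ] using! isUnit_iff_ne_zero
  calc
    ∑ x : F, x ^ i = ∑ x ∈ univ \ {(0 : F)}, x ^ i := by
      rw [← sum_sdiff ({0} : Finset F).subset_univ, sum_singleton, zero_pow hi.ne', add_zero]
    _ = ∑ x : Fˣ, (x ^ i : F) := by simp [φ, ← this, univ.sum_map φ]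
    _ = _ := FiniteField.sum_pow_units F i

/-- The basic power-sum evaluation behind Stickelberger's congruence for `J(ψ,ψ)`. -/
theorem sum_pow_mul_one_sub_pow (a : ℕ) (ha : 0 < a) (ha' : a < Fintype.card F - 1) :
    ∑ x : F, x ^ a * (1 - x) ^ a =
      if Fintype.card F - 1 ≤ 2 * a then
        -((-1 : F) ^ (Fintype.card F - 1 - a) * (a.choose (Fintype.card F - 1 - a) : F))
      else 0 := by
  classical
  set N := Fintype.card F - 1 with hN
  have hexp : ∀ x : F, x ^ a * (1 - x) ^ a =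
      ∑ j ∈ range (a + 1), ((-1 : F) ^ j * (a.choose j : F)) * x ^ (a + j) := by
    intro x
    have h1 : (1 - x) ^ a = ∑ j ∈ range (a + 1), (-x) ^ j * 1 ^ (a - j) * (a.choose j : F) := by
      rw [sub_eq_neg_add, add_pow]
    rw [h1, mul_sum]
    refine sum_congr rfl fun j _ => ?_
    rw [one_pow, mul_one, neg_pow, pow_add]
    ring
  simp_rw [hexp]
  rw [sum_comm]
  simp_rw [← mul_sum]
  have hsum : ∀ j ∈ range (a + 1), ((-1 : F) ^ j * (a.choose j : F)) * ∑ x : F, x ^ (a + j) =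
      if j = N - a then -((-1 : F) ^ (N - a) * (a.choose (N - a) : F)) else 0 := by
    intro j hj
    rw [mem_range] at hj
    rw [sum_pow_eq_ite (a + j) (by omega)]
    have hdvd : N ∣ a + j ↔ a + j = N := by
      constructor
      · intro h
        obtain ⟨c, hc⟩ := h
        have hc1 : c = 1 := by
          rcases c with _ | _ | c
          · omega
          · rfl
          · exfalso
            have : N * (c + 1 + 1) ≥ N * 2 := Nat.mul_le_mul_left N (by omega)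
            omega
        rw [hc, hc1, mul_one]
      · intro h; rw [h]
    by_cases h : a + j = N
    · have hj' : j = N - a := by omega
      rw [if_pos (hdvd.mpr h), if_pos hj', hj']
      ring
    · have hj' : j ≠ N - a := by omega
      rw [if_neg (fun h' => h (hdvd.mp h')), if_neg hj', mul_zero]
  rw [sum_congr rfl hsum, sum_ite_eq' (range (a + 1)) (N - a)]
  by_cases h : N ≤ 2 * a
  · rw [if_pos h, if_pos (by rw [mem_range]; omega)]
  · rw [if_neg h, if_neg (by rw [mem_range]; omega)]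

end FiniteFieldSum

section ZModSum

variable {q : ℕ} [Fact q.Prime]

/-- For `0 < a < q - 1`, the sum `∑ x, x^a (1-x)^a` over `ZMod q` vanishes iff `2a < q - 1`. -/
theorem zmod_sum_pow_mul_one_sub_pow_eq_zero_iff (a : ℕ) (ha : 0 < a) (ha' : a < q - 1) :
    ∑ x : ZMod q, x ^ a * (1 - x) ^ a = 0 ↔ 2 * a < q - 1 := by
  have hq : q.Prime := Fact.out
  have hcard : Fintype.card (ZMod q) = q := ZMod.card q
  rw [sum_pow_mul_one_sub_pow a ha (by rw [hcard]; exact ha'), hcard]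
  constructor
  · intro h
    by_contra hlt
    rw [if_pos (by omega)] at h
    rw [neg_eq_zero] at h
    rcases mul_eq_zero.mp h with h1 | h2
    · exact absurd h1 (pow_ne_zero _ (neg_ne_zero.mpr one_ne_zero))
    · rw [ZMod.natCast_eq_zero_iff] at h2
      have hk : q - 1 - a ≤ a := by omega
      have hfac := Nat.choose_mul_factorial_mul_factorial hk
      have hdvd : q ∣ a.factorial := by
        rw [← hfac]
        exact Dvd.dvd.mul_right (Dvd.dvd.mul_right h2 _) _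
      have := (Nat.Prime.dvd_factorial hq).mp hdvd
      omega
  · intro h
    rw [if_neg (by omega)]

end ZModSum

section Character

variable {q : ℕ} [Fact q.Prime] {R : Type*} [CommRing R]

/-- Reduction of `J(ψ^t, ψ^t)` along `φ`, when `φ ∘ ψ` is the `m`-th power map. -/
theorem map_jacobiSum_pow (φ : R →+* ZMod q) (ψ : MulChar (ZMod q) R) (m : ℕ)
    (hψ : ∀ x, φ (ψ x) = x ^ m) (t : ℕ) (ht : t ≠ 0) :
    φ (jacobiSum (ψ ^ t) (ψ ^ t)) = ∑ x : ZMod q, x ^ (m * t) * (1 - x) ^ (m * t) := by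
  rw [jacobiSum, map_sum]
  refine sum_congr rfl fun x _ => ?_
  rw [map_mul, MulChar.pow_apply' ψ ht, MulChar.pow_apply' ψ ht, map_pow, map_pow, hψ, hψ,
    ← pow_mul, ← pow_mul]

/-- **Stickelberger congruence for `J(ψ^t,ψ^t)` at a degree one prime.**
If `φ ∘ ψ = (· ^ m)` with `q - 1 = m * p`, then for `0 < t < p`:
`J(ψ^t, ψ^t)` lies in the kernel of `φ` iff `2t < p`. -/
theorem map_jacobiSum_pow_eq_zero_iff (φ : R →+* ZMod q) (ψ : MulChar (ZMod q) R) (m p : ℕ)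
    (hq : q - 1 = m * p) (hψ : ∀ x, φ (ψ x) = x ^ m) (t : ℕ) (ht : 0 < t) (htp : t < p) :
    φ (jacobiSum (ψ ^ t) (ψ ^ t)) = 0 ↔ 2 * t < p := by
  have hq' : q.Prime := Fact.out
  have hm : 0 < m := by
    rcases Nat.eq_zero_or_pos m with h | h
    · rw [h, zero_mul] at hq
      have := hq'.two_le
      omega
    · exact h
  rw [map_jacobiSum_pow φ ψ m hψ t ht.ne',
    zmod_sum_pow_mul_one_sub_pow_eq_zero_iff (m * t) (Nat.mul_pos hm ht)
      (by rw [hq]; exact Nat.mul_lt_mul_of_pos_left htp hm), hq]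
  constructor
  · intro h
    have : m * (2 * t) < m * p := by rw [← mul_assoc, mul_comm m 2, mul_assoc]; exact h
    exact Nat.lt_of_mul_lt_mul_left this
  · intro h
    calc 2 * (m * t) = m * (2 * t) := by ring
      _ < m * p := Nat.mul_lt_mul_of_pos_left h hm

/-- Existence of the `p`-th power residue character with values in `R`, given a reduction map
`φ : R → ZMod q` under which `ζ` stays a primitive `p`-th root of unity. -/
theorem exists_mulChar_lift (φ : R →+* ZMod q) (p m : ℕ) (hq : q - 1 = m * p) (ζ : R)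
    (hζ : ζ ^ p = 1) (hφζ : IsPrimitiveRoot (φ ζ) p) :
    ∃ ψ : MulChar (ZMod q) R, (∀ x, φ (ψ x) = x ^ m) ∧ ψ ^ p = 1 ∧
      ∀ u : (ZMod q)ˣ, ∃ k : ℕ, ψ u = ζ ^ k := by
  classical
  have hq' : q.Prime := Fact.out
  have hm : m ≠ 0 := by
    rintro rfl
    rw [zero_mul] at hq
    have := hq'.two_le
    omega
  have hp : p ≠ 0 := by
    rintro rfl
    rw [mul_zero] at hq
    have := hq'.two_le
    omega
  obtain ⟨g, hg⟩ := IsCyclic.exists_generator (α := (ZMod q)ˣ)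
  have hξ : ((g : ZMod q) ^ m) ^ p = 1 := by
    rw [← pow_mul, ← hq]
    exact ZMod.pow_card_sub_one_eq_one g.ne_zero
  have : NeZero p := ⟨hp⟩
  obtain ⟨k, -, hk⟩ := hφζ.eq_pow_of_pow_eq_one hξ
  let ζu : Rˣ := Units.ofPowEqOne ζ p hζ hp
  have hζu : (ζu : R) = ζ := Units.val_ofPowEqOne ζ p hζ hp
  have hζup : ζu ^ p = 1 := Units.ext (by rw [Units.val_pow_eq_pow_val, hζu, hζ, Units.val_one])
  have hcard : Fintype.card (ZMod q)ˣ = q - 1 := ZMod.card_units q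
  have hμ : ζu ^ k ∈ rootsOfUnity (Fintype.card (ZMod q)ˣ) R := by
    rw [mem_rootsOfUnity, hcard, hq, ← pow_mul, mul_comm m p, ← mul_assoc, mul_comm k p, mul_assoc,
      pow_mul, hζup, one_pow]
  let ψ : MulChar (ZMod q) R := MulChar.ofRootOfUnity hμ hg
  have hψg : ψ g = (ζu ^ k : Rˣ) := MulChar.ofRootOfUnity_spec hμ hg
  have hunit : ∀ u : (ZMod q)ˣ, ∃ n : ℕ, u = g ^ n := by
    intro u
    have := hg u
    rw [← mem_powers_iff_mem_zpowers] at this
    obtain ⟨n, hn⟩ := this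
    exact ⟨n, hn.symm⟩
  have hψu : ∀ n : ℕ, ψ ((g ^ n : (ZMod q)ˣ) : ZMod q) = ζ ^ (k * n) := by
    intro n
    rw [Units.val_pow_eq_pow_val, map_pow, hψg, Units.val_pow_eq_pow_val, hζu, ← pow_mul]
  refine ⟨ψ, ?_, ?_, ?_⟩
  · intro x
    by_cases hx : IsUnit x
    · obtain ⟨u, rfl⟩ := hx
      obtain ⟨n, rfl⟩ := hunit u
      rw [hψu, map_pow, pow_mul, hk, Units.val_pow_eq_pow_val, ← pow_mul, ← pow_mul, mul_comm]
    · rw [MulChar.map_nonunit ψ hx, map_zero]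
      have hx0 : x = 0 := by
        by_contra h
        exact hx (isUnit_iff_ne_zero.mpr h)
      rw [hx0, zero_pow hm]
  · apply MulChar.ext
    intro u
    obtain ⟨n, rfl⟩ := hunit u
    rw [MulChar.pow_apply_coe, hψu, MulChar.one_apply_coe, ← pow_mul, mul_comm, pow_mul, hζ,
      one_pow]
  · intro u
    obtain ⟨n, rfl⟩ := hunit u
    exact ⟨k * n, hψu n⟩

/-- The lifted character is nontrivial (when `1 < p`). -/
theorem mulChar_ne_one (φ : R →+* ZMod q) (ψ : MulChar (ZMod q) R) (m p : ℕ)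
    (hq : q - 1 = m * p) (hp : 1 < p) (hψ : ∀ x, φ (ψ x) = x ^ m) : ψ ≠ 1 := by
  classical
  have hq' : q.Prime := Fact.out
  rintro rfl
  have hm : 0 < m := by
    rcases Nat.eq_zero_or_pos m with h | h
    · rw [h, zero_mul] at hq
      have := hq'.two_le
      omega
    · exact h
  have hall : ∀ x : (ZMod q)ˣ, x ^ m = 1 := by
    intro x
    have h1 := hψ x
    rw [MulChar.one_apply_coe, map_one] at h1
    exact Units.ext (by rw [Units.val_pow_eq_pow_val, ← h1, Units.val_one])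
  have hdvd := (FiniteField.forall_pow_eq_one_iff (ZMod q) m).mp hall
  rw [ZMod.card q, hq] at hdvd
  have hle := Nat.le_of_dvd hm hdvd
  have : m * p ≥ m * 2 := Nat.mul_le_mul_left m hp
  omega

/-- Conjugating a character with values in powers of `ζ` by a ring endomorphism sending
`ζ` to `ζ ^ c`. -/
theorem ringHomComp_eq_pow (ψ : MulChar (ZMod q) R) (ζ : R)
    (hψ : ∀ u : (ZMod q)ˣ, ∃ k : ℕ, ψ u = ζ ^ k) (f : R →+* R) (c : ℕ) (hf : f ζ = ζ ^ c) :
    ψ.ringHomComp f = ψ ^ c := by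
  apply MulChar.ext
  intro u
  obtain ⟨k, hk⟩ := hψ u
  rw [MulChar.ringHomComp_apply, MulChar.pow_apply_coe, hk, map_pow, hf, ← pow_mul, ← pow_mul,
    mul_comm]

theorem map_jacobiSum_eq (ψ : MulChar (ZMod q) R) (ζ : R)
    (hψ : ∀ u : (ZMod q)ˣ, ∃ k : ℕ, ψ u = ζ ^ k) (f : R →+* R) (c : ℕ) (hf : f ζ = ζ ^ c) :
    f (jacobiSum ψ ψ) = jacobiSum (ψ ^ c) (ψ ^ c) := by
  rw [← jacobiSum_ringHomComp, ringHomComp_eq_pow ψ ζ hψ f c hf]

/-- `J(ψ,ψ) * J(ψ^(p-1),ψ^(p-1)) = q` for a character of odd prime order `p` with values in a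
domain of characteristic zero. -/
theorem jacobiSum_mul_jacobiSum_pow_pred [IsDomain R] [CharZero R] (ψ : MulChar (ZMod q) R)
    (p : ℕ) (hp : p.Prime) (hp2 : p ≠ 2) (hψp : ψ ^ p = 1) (hψ1 : ψ ≠ 1) :
    jacobiSum ψ ψ * jacobiSum (ψ ^ (p - 1)) (ψ ^ (p - 1)) = (q : R) := by
  have hq' : q.Prime := Fact.out
  let F' := FractionRing R
  let f : R →+* F' := algebraMap R F'
  have hinj : Function.Injective f := IsFractionRing.injective R F'
  let χ : MulChar (ZMod q) F' := ψ.ringHomComp f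
  have hχ1 : χ ≠ 1 := (MulChar.ringHomComp_ne_one_iff hinj).mpr hψ1
  have hχp : χ ^ p = 1 := by
    show (ψ.ringHomComp f) ^ p = 1
    rw [MulChar.ringHomComp_pow, hψp, MulChar.ringHomComp_one]
  have hχ2 : χ * χ ≠ 1 := by
    intro h
    apply hχ1
    have h2 : χ ^ 2 = 1 := by rw [pow_two, h]
    have hodd : p % 2 = 1 := by
      rcases hp.eq_two_or_odd with h | h
      · exact absurd h hp2
      · exact h
    have : χ ^ p = χ := by
      conv_lhs => rw [← Nat.div_add_mod p 2, hodd, pow_add, pow_mul, h2, one_pow, one_mul, pow_one]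
    rw [← this, hχp]
  have hchar : ringChar F' ≠ ringChar (ZMod q) := by
    rw [ZMod.ringChar_zmod_n, ringChar.eq_zero]
    exact hq'.ne_zero.symm
  have hmain := jacobiSum_mul_jacobiSum_inv hchar hχ1 hχ1 hχ2
  have hinv : χ⁻¹ = (ψ ^ (p - 1)).ringHomComp f := by
    rw [← MulChar.ringHomComp_pow]
    show χ⁻¹ = χ ^ (p - 1)
    symm
    apply eq_inv_of_mul_eq_one_left
    rw [← pow_succ, Nat.sub_add_cancel hp.one_le, hχp]
  rw [hinv, jacobiSum_ringHomComp, jacobiSum_ringHomComp, ZMod.card q, ← map_mul] at hmain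
  apply hinj
  rw [hmain, map_natCast]

end Character

section NumberFieldPart

open NumberField

variable {L : Type*} [Field L] [NumberField L]

theorem absNorm_comap_ringEquiv (e : 𝓞 L ≃+* 𝓞 L) (I : Ideal (𝓞 L)) :
    Ideal.absNorm (I.comap (e : 𝓞 L →+* 𝓞 L)) = Ideal.absNorm I := by
  rw [Ideal.absNorm_apply, Ideal.absNorm_apply, Submodule.cardQuot_apply,
    Submodule.cardQuot_apply]
  exact Nat.card_congr (Ideal.quotientEquiv (I.comap (e : 𝓞 L →+* 𝓞 L)) I e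
    (Ideal.map_comap_of_surjective _ e.surjective I).symm).toEquiv

/-- A prime ideal of prime norm `q` is the kernel of a ring hom to `ZMod q`. -/
theorem exists_reduction (𝔮 : Ideal (𝓞 L)) (hq : (Ideal.absNorm 𝔮).Prime) :
    ∃ φ : 𝓞 L →+* ZMod (Ideal.absNorm 𝔮), ∀ x, φ x = 0 ↔ x ∈ 𝔮 := by
  classical
  have hbot : 𝔮 ≠ ⊥ := by
    rintro rfl
    rw [Ideal.absNorm_bot] at hq
    exact Nat.not_prime_zero hq
  have hfin : Finite (𝓞 L ⧸ 𝔮) := Ideal.finiteQuotientOfFreeOfNeBot 𝔮 hbot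
  let _ : Fintype (𝓞 L ⧸ 𝔮) := Fintype.ofFinite _
  have hcard : Fintype.card (𝓞 L ⧸ 𝔮) = Ideal.absNorm 𝔮 := by
    rw [Ideal.absNorm_apply, Submodule.cardQuot_apply, Nat.card_eq_fintype_card]
  let e : ZMod (Ideal.absNorm 𝔮) ≃+* 𝓞 L ⧸ 𝔮 := ZMod.ringEquivOfPrime _ hq hcard
  refine ⟨(e.symm : 𝓞 L ⧸ 𝔮 →+* ZMod (Ideal.absNorm 𝔮)).comp (Ideal.Quotient.mk 𝔮), fun x => ?_⟩
  rw [RingHom.comp_apply, RingHom.coe_coe, map_eq_zero_iff _ e.symm.injective,
    Ideal.Quotient.eq_zero_iff_mem]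

/-- The Jacobi sum data attached to a prime `𝔮` of prime norm `q ≠ p` of `ℚ(ζ_p)`:
elements `J, J'` with `J * J' = q` and explicit membership of their conjugates in `𝔮`;
moreover the conjugates of `𝔮` under endomorphisms `ζ ↦ ζ ^ c`, `0 < c < p`, are distinct. -/
theorem exists_jacobi_data {p : ℕ} [hp : Fact p.Prime] [IsCyclotomicExtension {p} ℚ L]
    (hp2 : p ≠ 2) {ζ : L} (hζ : IsPrimitiveRoot ζ p)
    (𝔮 : Ideal (𝓞 L)) (hq : (Ideal.absNorm 𝔮).Prime) (hqp : Ideal.absNorm 𝔮 ≠ p) :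
    ∃ J J' : 𝓞 L, J * J' = ((Ideal.absNorm 𝔮 : ℕ) : 𝓞 L) ∧
      (∀ (f : 𝓞 L →+* 𝓞 L) (c : ℕ), 0 < c → c < p → f hζ.toInteger = hζ.toInteger ^ c →
        ((f J ∈ 𝔮 ↔ 2 * c < p) ∧ (f J' ∈ 𝔮 ↔ p < 2 * c))) ∧
      (∀ (f g : 𝓞 L →+* 𝓞 L) (c d : ℕ), c < p → d < p → f hζ.toInteger = hζ.toInteger ^ c →
        g hζ.toInteger = hζ.toInteger ^ d → 𝔮.comap f = 𝔮.comap g → c = d) := by
  classical
  have hpp : p.Prime := hp.out
  have : NeZero p := ⟨hpp.ne_zero⟩
  have : Fact (Ideal.absNorm 𝔮).Prime := ⟨hq⟩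
  obtain ⟨φ, hφ⟩ := exists_reduction 𝔮 hq
  have hζ' : IsPrimitiveRoot hζ.toInteger p := hζ.toInteger_isPrimitiveRoot
  have hmk : IsPrimitiveRoot (Ideal.Quotient.mk 𝔮 hζ.toInteger) p :=
    hζ'.idealQuotient_mk hq.ne_one ((Nat.coprime_primes hq hpp).mpr hqp)
  have hφζ1 : φ hζ.toInteger ≠ 1 := by
    intro h
    have h0 : φ (hζ.toInteger - 1) = 0 := by rw [map_sub, h, map_one, sub_self]
    rw [hφ] at h0
    have : Ideal.Quotient.mk 𝔮 hζ.toInteger = 1 := by
      rw [← sub_eq_zero, ← map_one (Ideal.Quotient.mk 𝔮), ← map_sub,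
        Ideal.Quotient.eq_zero_iff_mem]
      exact h0
    exact hmk.ne_one hpp.one_lt this
  have hφζ : IsPrimitiveRoot (φ hζ.toInteger) p := by
    rw [IsPrimitiveRoot.iff_orderOf]
    exact orderOf_eq_prime (by rw [← map_pow, hζ'.pow_eq_one, map_one]) hφζ1
  have hdvd : p ∣ Ideal.absNorm 𝔮 - 1 := by
    apply hφζ.dvd_of_pow_eq_one
    exact ZMod.pow_card_sub_one_eq_one (hφζ.ne_zero hpp.ne_zero)
  obtain ⟨m, hm⟩ := hdvd
  have hqm : Ideal.absNorm 𝔮 - 1 = m * p := by rw [hm, mul_comm]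
  obtain ⟨ψ, hψφ, hψp, hψζ⟩ := exists_mulChar_lift φ p m hqm hζ.toInteger hζ'.pow_eq_one hφζ
  have hψ1 : ψ ≠ 1 := mulChar_ne_one φ ψ m p hqm hpp.one_lt hψφ
  refine ⟨jacobiSum ψ ψ, jacobiSum (ψ ^ (p - 1)) (ψ ^ (p - 1)),
    jacobiSum_mul_jacobiSum_pow_pred ψ p hpp hp2 hψp hψ1, ?_, ?_⟩
  · intro f c hc hcp hf
    constructor
    · rw [← hφ, map_jacobiSum_eq ψ hζ.toInteger hψζ f c hf]
      exact map_jacobiSum_pow_eq_zero_iff φ ψ m p hqm hψφ c hc hcp
    · rw [← hφ]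
      have hψ' : ∀ u : (ZMod (Ideal.absNorm 𝔮))ˣ, ∃ k : ℕ,
          (ψ ^ (p - 1)) u = hζ.toInteger ^ k := by
        intro u
        obtain ⟨k, hk⟩ := hψζ u
        exact ⟨k * (p - 1), by rw [MulChar.pow_apply_coe, hk, ← pow_mul]⟩
      rw [map_jacobiSum_eq (ψ ^ (p - 1)) hζ.toInteger hψ' f c hf]
      have hpow : (ψ ^ (p - 1)) ^ c = ψ ^ (p - c) := by
        rw [← pow_mul]
        have : (p - 1) * c = p * (c - 1) + (p - c) := by
          have h1 := hpp.one_le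
          have h3 := hcp.le
          zify [h1, hc, h3]
          ring
        rw [this, pow_add, pow_mul, hψp, one_pow, one_mul]
      rw [hpow, map_jacobiSum_pow_eq_zero_iff φ ψ m p hqm hψφ (p - c) (by omega) (by omega)]
      omega
  · intro f g c d hc hd hf hg hfg
    -- the element `ζ - n` with `n ≡ φ(ζ)^c` lies in `comap f 𝔮`
    let n : ℕ := (φ hζ.toInteger ^ c).val
    have hn : ((n : ℕ) : ZMod (Ideal.absNorm 𝔮)) = φ hζ.toInteger ^ c := ZMod.natCast_zmod_val _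
    have hx : hζ.toInteger - (n : 𝓞 L) ∈ 𝔮.comap f := by
      rw [Ideal.mem_comap, ← hφ, map_sub, map_natCast, map_sub, hf, map_pow, map_natCast, hn,
        sub_self]
    rw [hfg, Ideal.mem_comap, ← hφ, map_sub, map_natCast, map_sub, hg, map_pow, map_natCast, hn,
      sub_eq_zero] at hx
    exact (hφζ.pow_inj hd hc hx).symm

theorem absNorm_comap_of_bijective (f : 𝓞 L →+* 𝓞 L) (hf : Function.Bijective f)
    (I : Ideal (𝓞 L)) : Ideal.absNorm (I.comap f) = Ideal.absNorm I :=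
  absNorm_comap_ringEquiv (RingEquiv.ofBijective f hf) I

/-- Automorphisms of the ring of integers of `ℚ(ζ_p)` raising `ζ` to any power prime to `p`. -/
theorem exists_ringHom_pow {p : ℕ} [hp : Fact p.Prime] [IsCyclotomicExtension {p} ℚ L]
    {ζ : L} (hζ : IsPrimitiveRoot ζ p) (c : ℕ) (hc : 0 < c) (hcp : c < p) :
    ∃ g : 𝓞 L →+* 𝓞 L, Function.Bijective g ∧ g hζ.toInteger = hζ.toInteger ^ c := by
  have hpp : p.Prime := hp.out
  have : NeZero p := ⟨hpp.ne_zero⟩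
  have hcop : c.Coprime p :=
    (Nat.coprime_comm.mp ((Nat.Prime.coprime_iff_not_dvd hpp).mpr
      (fun h => absurd (Nat.le_of_dvd hc h) (not_le.mpr hcp))))
  let σ : Gal(L/ℚ) := (IsCyclotomicExtension.Rat.galEquivZMod p L).symm (ZMod.unitOfCoprime c hcop)
  have hσ : σ ζ = ζ ^ c := by
    have h1 := IsCyclotomicExtension.Rat.galEquivZMod_apply_of_pow_eq p L σ hζ.pow_eq_one
    rw [h1]
    congr 1
    simp only [σ, MulEquiv.apply_symm_apply, ZMod.coe_unitOfCoprime]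
    exact ZMod.val_cast_of_lt hcp
  refine ⟨((galRestrict ℤ ℚ L (𝓞 L) σ : 𝓞 L ≃ₐ[ℤ] 𝓞 L) : 𝓞 L →+* 𝓞 L),
    (galRestrict ℤ ℚ L (𝓞 L) σ).bijective, ?_⟩
  apply FaithfulSMul.algebraMap_injective (𝓞 L) L
  rw [map_pow]
  exact (algebraMap_galRestrict_apply ℤ σ hζ.toInteger).trans hσ

/-- **Stickelberger for `J(ψ,ψ)` at a prime of prime norm `q ≠ p` of `ℚ(ζ_p)`, `p` odd.**
There is `J ∈ 𝓞 L` (a Jacobi sum) such that for any family `F c` of automorphisms with
`F c ζ = ζ ^ c` (`1 ≤ c < p/2`), `(J) = ∏_{1 ≤ c ≤ (p-1)/2} (F c)⁻¹(𝔮)`. -/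
theorem exists_span_eq_prod_comap {p : ℕ} [hp : Fact p.Prime] [IsCyclotomicExtension {p} ℚ L]
    (hp2 : p ≠ 2) {ζ : L} (hζ : IsPrimitiveRoot ζ p)
    (𝔮 : Ideal (𝓞 L)) [h𝔮 : 𝔮.IsPrime] (hq : (Ideal.absNorm 𝔮).Prime)
    (hqp : Ideal.absNorm 𝔮 ≠ p) :
    ∃ J : 𝓞 L, ∀ (F : ℕ → (𝓞 L →+* 𝓞 L)),
      (∀ c, 1 ≤ c → 2 * c < p →
        Function.Bijective (F c) ∧ F c hζ.toInteger = hζ.toInteger ^ c) →
      Ideal.span {J} = ∏ c ∈ Finset.Icc 1 ((p - 1) / 2), 𝔮.comap (F c) := by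
  classical
  have hpp : p.Prime := hp.out
  obtain ⟨J, J', hJJ', hmem, hsep⟩ := exists_jacobi_data hp2 hζ 𝔮 hq hqp
  refine ⟨J, fun F hF => ?_⟩
  have hex : ∀ c, 0 < c → c < p → ∃ g : 𝓞 L →+* 𝓞 L, Function.Bijective g ∧
      g hζ.toInteger = hζ.toInteger ^ c := fun c hc hcp => exists_ringHom_pow hζ c hc hcp
  choose! G hG using hex
  let H : ℕ → (𝓞 L →+* 𝓞 L) := fun c => if 2 * c < p then F c else G c
  have hH : ∀ c, 0 < c → c < p →
      Function.Bijective (H c) ∧ H c hζ.toInteger = hζ.toInteger ^ c := by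
    intro c hc hcp
    by_cases h : 2 * c < p
    · simp only [H, if_pos h]; exact hF c hc h
    · simp only [H, if_neg h]; exact hG c hc hcp
  let I : ℕ → Ideal (𝓞 L) := fun c => 𝔮.comap (H c)
  have hIprime : ∀ c, (I c).IsPrime := fun c => Ideal.comap_isPrime (H c) 𝔮
  have hInorm : ∀ c, 0 < c → c < p → Ideal.absNorm (I c) = Ideal.absNorm 𝔮 := fun c hc hcp =>
    absNorm_comap_of_bijective (H c) (hH c hc hcp).1 𝔮
  have hIbot : ∀ c, 0 < c → c < p → I c ≠ ⊥ := by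
    intro c hc hcp h
    have := hInorm c hc hcp
    rw [h, Ideal.absNorm_bot] at this
    exact hq.ne_zero this.symm
  have hImax : ∀ c, 0 < c → c < p → (I c).IsMaximal := fun c hc hcp =>
    (hIprime c).isMaximal (hIbot c hc hcp)
  have hIne : ∀ c d, 0 < c → c < p → 0 < d → d < p → c ≠ d → I c ≠ I d := by
    intro c d hc hcp hd hdp hcd h
    exact hcd (hsep (H c) (H d) c d hcp hdp (hH c hc hcp).2 (hH d hd hdp).2 h)
  have hcop : ∀ c d, 0 < c → c < p → 0 < d → d < p → c ≠ d → IsCoprime (I c) (I d) := by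
    intro c d hc hcp hd hdp hcd
    exact Ideal.isCoprime_iff_sup_eq.mpr
      ((hImax c hc hcp).coprime_of_ne (hImax d hd hdp) (hIne c d hc hcp hd hdp hcd))
  have hJmem : ∀ c, 0 < c → c < p → (J ∈ I c ↔ 2 * c < p) := fun c hc hcp =>
    (hmem (H c) c hc hcp (hH c hc hcp).2).1
  have hJ'mem : ∀ c, 0 < c → c < p → (J' ∈ I c ↔ p < 2 * c) := fun c hc hcp =>
    (hmem (H c) c hc hcp (hH c hc hcp).2).2
  have hodd : p % 2 = 1 := (hpp.eq_two_or_odd).resolve_left hp2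
  have hS1mem : ∀ c ∈ Finset.Icc 1 ((p - 1) / 2), 0 < c ∧ c < p ∧ 2 * c < p := by
    intro c hc
    rw [Finset.mem_Icc] at hc
    omega
  have hS2mem : ∀ c ∈ Finset.Icc ((p - 1) / 2 + 1) (p - 1), 0 < c ∧ c < p ∧ p < 2 * c := by
    intro c hc
    rw [Finset.mem_Icc] at hc
    omega
  have hP1 : (∏ c ∈ Finset.Icc 1 ((p - 1) / 2), I c) ∣ Ideal.span {J} := by
    apply Finset.prod_dvd_of_coprime
    · intro c hc d hd hcd
      obtain ⟨h1, h2, -⟩ := hS1mem c hc
      obtain ⟨h3, h4, -⟩ := hS1mem d hd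
      exact hcop c d h1 h2 h3 h4 hcd
    · intro c hc
      obtain ⟨h1, h2, h3⟩ := hS1mem c hc
      exact Ideal.dvd_span_singleton.mpr ((hJmem c h1 h2).mpr h3)
  have hP2 : (∏ c ∈ Finset.Icc ((p - 1) / 2 + 1) (p - 1), I c) ∣ Ideal.span {J'} := by
    apply Finset.prod_dvd_of_coprime
    · intro c hc d hd hcd
      obtain ⟨h1, h2, -⟩ := hS2mem c hc
      obtain ⟨h3, h4, -⟩ := hS2mem d hd
      exact hcop c d h1 h2 h3 h4 hcd
    · intro c hc
      obtain ⟨h1, h2, h3⟩ := hS2mem c hc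
      exact Ideal.dvd_span_singleton.mpr ((hJ'mem c h1 h2).mpr h3)
  obtain ⟨A, hA⟩ := hP1
  obtain ⟨B, hB⟩ := hP2
  have hN1 : Ideal.absNorm (∏ c ∈ Finset.Icc 1 ((p - 1) / 2), I c) =
      Ideal.absNorm 𝔮 ^ ((p - 1) / 2) := by
    rw [map_prod, Finset.prod_congr rfl
      (fun c hc => hInorm c (hS1mem c hc).1 (hS1mem c hc).2.1), Finset.prod_const, Nat.card_Icc]
    congr 1
  have hN2 : Ideal.absNorm (∏ c ∈ Finset.Icc ((p - 1) / 2 + 1) (p - 1), I c) =
      Ideal.absNorm 𝔮 ^ ((p - 1) / 2) := by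
    rw [map_prod, Finset.prod_congr rfl
      (fun c hc => hInorm c (hS2mem c hc).1 (hS2mem c hc).2.1), Finset.prod_const, Nat.card_Icc]
    congr 1
    omega
  have hNq : Ideal.absNorm (Ideal.span {J}) * Ideal.absNorm (Ideal.span {J'}) =
      Ideal.absNorm 𝔮 ^ (p - 1) := by
    rw [← map_mul, Ideal.span_singleton_mul_span_singleton, hJJ', Ideal.absNorm_span_natCast,
      RingOfIntegers.rank,
      IsCyclotomicExtension.finrank L (Polynomial.cyclotomic.irreducible_rat hpp.pos),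
      Nat.totient_prime hpp]
  rw [hA, hB, map_mul, map_mul, hN1, hN2] at hNq
  have hAB : Ideal.absNorm A * Ideal.absNorm B = 1 := by
    have hq0 : 0 < Ideal.absNorm 𝔮 ^ ((p - 1) / 2) := pow_pos hq.pos _
    have hpow : Ideal.absNorm 𝔮 ^ (p - 1) =
        Ideal.absNorm 𝔮 ^ ((p - 1) / 2) * Ideal.absNorm 𝔮 ^ ((p - 1) / 2) := by
      rw [← pow_add]
      congr 1
      omega
    rw [hpow] at hNq
    have : (Ideal.absNorm 𝔮 ^ ((p - 1) / 2) * Ideal.absNorm 𝔮 ^ ((p - 1) / 2)) *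
        (Ideal.absNorm A * Ideal.absNorm B) =
        (Ideal.absNorm 𝔮 ^ ((p - 1) / 2) * Ideal.absNorm 𝔮 ^ ((p - 1) / 2)) * 1 := by
      rw [mul_one]
      calc (Ideal.absNorm 𝔮 ^ ((p - 1) / 2) * Ideal.absNorm 𝔮 ^ ((p - 1) / 2)) *
          (Ideal.absNorm A * Ideal.absNorm B)
          = Ideal.absNorm 𝔮 ^ ((p - 1) / 2) * Ideal.absNorm A *
            (Ideal.absNorm 𝔮 ^ ((p - 1) / 2) * Ideal.absNorm B) := by ring
        _ = _ := hNq
    exact Nat.eq_of_mul_eq_mul_left (Nat.mul_pos hq0 hq0) this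
  have hA1 : Ideal.absNorm A = 1 := Nat.eq_one_of_mul_eq_one_right hAB
  have hAtop : A = ⊤ := Ideal.absNorm_eq_one_iff.mp hA1
  rw [hA, hAtop, Ideal.mul_top]
  apply Finset.prod_congr rfl
  intro c hc
  obtain ⟨h1, h2, h3⟩ := hS1mem c hc
  show 𝔮.comap (H c) = 𝔮.comap (F c)
  simp only [H, if_pos h3]

end NumberFieldPart

end Fermat.Agent.S14.helper2126
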