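import Fermat.Agent.S14.helper854_Spec
import Fermat.Agent.S14.helper2126_JacobiStick

set_option autoImplicit false

/-!
# Work package B of `helper854_Spec` (Stickelberger for primes of degree one), helper2126

`stmt_Stickelberger : p.Prime → p ≠ 2 → helper854.Stmt_Stickelberger p`, no further hypotheses.
-/

namespace Fermat.Agent.S14.helper2126

open NumberField

/-- Work package B of the S14 spec of helper854, for every odd prime `p`. -/
theorem stmt_Stickelberger (p : ℕ) (hp : p.Prime) (hp2 : p ≠ 2) :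
    Fermat.Agent.S14.helper854.Stmt_Stickelberger p := by
  intro L _ _ _ ζ hζ s hs 𝔮 h𝔮 hq hqp
  have : Fact p.Prime := ⟨hp⟩
  have : NeZero p := ⟨hp.ne_zero⟩
  obtain ⟨J, hJ⟩ := exists_span_eq_prod_comap hp2 hζ 𝔮 hq hqp
  have key := hJ (fun c => ((galRestrict ℤ ℚ L (𝓞 L) (s c) : 𝓞 L ≃ₐ[ℤ] 𝓞 L) : 𝓞 L →+* 𝓞 L)) ?_
  · rw [← key]
    exact ⟨⟨J, rfl⟩⟩
  · intro c hc hcp
    refine ⟨(galRestrict ℤ ℚ L (𝓞 L) (s c)).bijective, ?_⟩
    apply FaithfulSMul.algebraMap_injective (𝓞 L) L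
    rw [map_pow]
    exact (algebraMap_galRestrict_apply ℤ (s c) hζ.toInteger).trans (hs c hc hcp)

end Fermat.Agent.S14.helper2126
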