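import Mathlib
import Fermat.Prelude.Def_ExtCitation_AdmissibleExtension_v2
import Fermat.Prelude.Def_ExtCitation_KummerBridge

/-!
# S14, module M1b (helper2197): from the group form to a Kummer generator inside `ℚ̄`

`Stmt_NoExt p` (group form, no fields): there is no open normal subgroup `N` of `G_ℚ` of index `p`
in `ker χ` (`χ` the mod `p` cyclotomic character) with the twisted conjugation rule and the
inertia / decomposition conditions.

`Core p` (element form inside `ℚ̄`): there are no `ζ, α, θ : ℚ̄` with `ζ` a primitive `p`-th root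
of unity, `α ∈ ℚ(ζ)`, `θ ^ p = α`, `θ ∉ ℚ(ζ)`, `θ` fixed by all inertia groups away from `p` and by
the decomposition groups over `p` intersected with `G_{ℚ(ζ)}`, and `σ θ = c * θ ^ (a ^ 2)` with
`c ∈ ℚ(ζ)` whenever `σ ζ = ζ ^ a`.

Main result: `stmt_noExt_of_core : Core p → Stmt_NoExt p` (Lagrange resolvent).
-/

set_option autoImplicit false

namespace Fermat.Agent.S14.helper2197

open ExtCitation

local notation "Qb" => AlgebraicClosure ℚ
local notation "GQ" => (AlgebraicClosure ℚ ≃ₐ[ℚ] AlgebraicClosure ℚ)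

theorem isAlgebraic_Qb : Algebra.IsAlgebraic ℚ (AlgebraicClosure ℚ) :=
  AlgebraicClosure.isAlgebraic ℚ

theorem isAlgClosure_Qb : IsAlgClosure ℚ (AlgebraicClosure ℚ) :=
  ⟨inferInstance, isAlgebraic_Qb⟩

theorem isGalois_Qb : IsGalois ℚ (AlgebraicClosure ℚ) :=
  haveI := isAlgClosure_Qb
  inferInstance

attribute [local instance] isAlgebraic_Qb isAlgClosure_Qb isGalois_Qb

variable (p : ℕ) [Fact p.Prime]

/-- The group-theoretic datum extracted from a non-split admissible extension. -/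
structure NoExtDatum (N : Subgroup GQ) : Prop where
  normal : N.Normal
  isOpen : IsOpen (N : Set GQ)
  le_ker : N ≤ (cycloChar p).ker
  index : (N.subgroupOf (cycloChar p).ker).index = p
  conj : ∀ (s t : GQ), t ∈ (cycloChar p).ker → ∀ a : ℕ, (a * cycloExp p s) % p = 1 →
    s * t * s⁻¹ * (t ^ a)⁻¹ ∈ N
  inertia : ∀ ℓ : ℕ, ℓ.Prime → ℓ ≠ p → ∀ A : ValuationSubring Qb, A.LiesOverPrime ℓ →
    A.inertiaSubgroupIn ℚ ≤ N
  decomp : ∀ A : ValuationSubring Qb, A.LiesOverPrime p →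
    A.decompositionSubgroup ℚ ⊓ (cycloChar p).ker ≤ N

/-- Group form of the arithmetic core of S14. -/
def Stmt_NoExt : Prop := ¬ ∃ N : Subgroup GQ, NoExtDatum p N

/-- The Kummer datum inside `ℚ̄`. -/
structure KummerDatum (ζ α θ : Qb) : Prop where
  prim : IsPrimitiveRoot ζ p
  mem : α ∈ IntermediateField.adjoin ℚ {ζ}
  ne_zero : α ≠ 0
  pow_eq : θ ^ p = α
  not_mem : θ ∉ IntermediateField.adjoin ℚ {ζ}
  inertia : ∀ ℓ : ℕ, ℓ.Prime → ℓ ≠ p → ∀ A : ValuationSubring Qb, A.LiesOverPrime ℓ →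
    ∀ σ ∈ A.inertiaSubgroupIn ℚ, σ θ = θ
  decomp : ∀ A : ValuationSubring Qb, A.LiesOverPrime p →
    ∀ σ ∈ A.decompositionSubgroup ℚ, σ ζ = ζ → σ θ = θ
  equivariant : ∀ (σ : GQ) (a : ℕ), σ ζ = ζ ^ a →
    ∃ c ∈ IntermediateField.adjoin ℚ {ζ}, c ≠ 0 ∧ σ θ = c * θ ^ (a ^ 2)

/-- Element form (inside `ℚ̄`) of the arithmetic core of S14. -/
def Core : Prop := ¬ ∃ ζ α θ : Qb, KummerDatum p ζ α θ


/-! ### The cyclotomic character and `ℚ(ζ)` -/

theorem apply_zeta (σ : GQ) {ζ : Qb} (hζ : IsPrimitiveRoot ζ p) : σ ζ = ζ ^ cycloExp p σ := by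
  have : NeZero p := ⟨(Fact.out : p.Prime).ne_zero⟩
  have hu : IsUnit ζ := hζ.isUnit (Fact.out : p.Prime).ne_zero
  obtain ⟨u, rfl⟩ := hu
  have hmem : u ∈ rootsOfUnity p Qb := by
    rw [mem_rootsOfUnity]
    ext
    simpa using hζ.pow_eq_one
  have := modularCyclotomicCharacter.spec Qb (card_rootsOfUnity_eq_self p) (σ : Qb ≃+* Qb) hmem
  simpa [cycloExp] using this

theorem mem_ker_iff (σ : GQ) {ζ : Qb} (hζ : IsPrimitiveRoot ζ p) :
    σ ∈ (cycloChar p).ker ↔ σ ζ = ζ := by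
  have hp := (Fact.out : p.Prime)
  have : Fact (1 < p) := ⟨hp.one_lt⟩
  have : NeZero p := ⟨hp.ne_zero⟩
  rw [MonoidHom.mem_ker, apply_zeta p σ hζ]
  constructor
  · intro h
    have h1 : cycloExp p σ = 1 := by
      rw [← val_cycloChar, h]
      simp [ZMod.val_one]
    rw [h1, pow_one]
  · intro h
    have h1 : cycloExp p σ = 1 := by
      have hlt : cycloExp p σ < p := by
        rw [← val_cycloChar]
        exact ZMod.val_lt _
      exact hζ.pow_inj hlt hp.one_lt (by rw [h, pow_one])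
    apply Units.ext
    apply ZMod.val_injective
    rw [val_cycloChar, h1]
    simp [ZMod.val_one]

theorem mem_fixingSubgroup_adjoin_iff (σ : GQ) (ζ : Qb) :
    σ ∈ (IntermediateField.adjoin ℚ {ζ}).fixingSubgroup ↔ σ ζ = ζ := by
  rw [IntermediateField.mem_fixingSubgroup_iff]
  constructor
  · intro h
    exact h ζ (IntermediateField.subset_adjoin ℚ {ζ} (Set.mem_singleton ζ))
  · intro h x hx
    have hle : IntermediateField.adjoin ℚ {ζ} ≤
        IntermediateField.fixedField (Subgroup.zpowers σ) := by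
      rw [IntermediateField.adjoin_le_iff]
      intro y hy
      rw [Set.mem_singleton_iff] at hy
      subst hy
      rw [SetLike.mem_coe, IntermediateField.mem_fixedField_iff]
      intro f hf
      have hstab : σ ∈ MulAction.stabilizer GQ y := by
        rw [MulAction.mem_stabilizer_iff]
        exact h
      have := (Subgroup.zpowers_le.mpr hstab) hf
      rw [MulAction.mem_stabilizer_iff] at this
      exact this
    have := hle hx
    rw [IntermediateField.mem_fixedField_iff] at this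
    exact this σ (Subgroup.mem_zpowers σ)

/-- Elements of `ℚ̄` fixed by the kernel of the cyclotomic character lie in `ℚ(ζ)`. -/
theorem mem_adjoin_of_fixed {ζ : Qb} (hζ : IsPrimitiveRoot ζ p) (x : Qb)
    (h : ∀ σ ∈ (cycloChar p).ker, σ x = x) : x ∈ IntermediateField.adjoin ℚ {ζ} := by
  rw [← InfiniteGalois.fixedField_fixingSubgroup (IntermediateField.adjoin ℚ {ζ}),
    IntermediateField.mem_fixedField_iff]
  intro f hf
  apply h
  rw [mem_ker_iff p f hζ]
  exact (mem_fixingSubgroup_adjoin_iff f ζ).mp hf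

/-- Elements of `ℚ(ζ)` are fixed by the kernel of the cyclotomic character. -/
theorem apply_eq_of_mem_adjoin {ζ : Qb} (hζ : IsPrimitiveRoot ζ p) {x : Qb}
    (hx : x ∈ IntermediateField.adjoin ℚ {ζ}) {σ : GQ} (hσ : σ ∈ (cycloChar p).ker) : σ x = x := by
  have h1 : σ ∈ (IntermediateField.adjoin ℚ {ζ}).fixingSubgroup :=
    (mem_fixingSubgroup_adjoin_iff σ ζ).mpr ((mem_ker_iff p σ hζ).mp hσ)
  exact (IntermediateField.mem_fixingSubgroup_iff _ _).mp h1 x hx

/-- An open subgroup is the full fixing subgroup of its fixed field. -/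
theorem exists_not_fixed (N : Subgroup GQ) (hN : IsOpen (N : Set GQ)) (t : GQ) (ht : t ∉ N) :
    ∃ x : Qb, (∀ h ∈ N, h x = x) ∧ t x ≠ x := by
  by_contra hcon
  push Not at hcon
  apply ht
  have hcl : IsClosed (N : Set GQ) := Subgroup.isClosed_of_isOpen N hN
  have h0 := InfiniteGalois.fixingSubgroup_fixedField (⟨N, hcl⟩ : ClosedSubgroup GQ)
  have h1 : t ∈ (IntermediateField.fixedField N).fixingSubgroup := by
    rw [IntermediateField.mem_fixingSubgroup_iff]
    intro x hx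
    rw [IntermediateField.mem_fixedField_iff] at hx
    exact hcon x hx
  have h2 : (IntermediateField.fixedField N).fixingSubgroup = N := h0
  rw [h2] at h1
  exact h1

/-! ### Lagrange resolvents -/

/-- The Lagrange resolvent `∑_{j<n} η^j t^j(x)`. -/
noncomputable def lagrangeRes (η : Qb) (t : GQ) (x : Qb) (n : ℕ) : Qb :=
  ∑ j ∈ Finset.range n, η ^ j * (t ^ j) x

theorem apply_lagrangeRes_mul (η : Qb) (t : GQ) (x : Qb) (n : ℕ) (htη : t η = η)
    (hη : η ^ n = 1) (hx : (t ^ n) x = x) :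
    t (lagrangeRes η t x n) * η = lagrangeRes η t x n := by
  unfold lagrangeRes
  rw [map_sum, Finset.sum_mul]
  have h1 : ∀ j ∈ Finset.range n, t (η ^ j * (t ^ j) x) * η = η ^ (j + 1) * (t ^ (j + 1)) x := by
    intro j _
    rw [map_mul, map_pow, htη, pow_succ' t j, AlgEquiv.mul_apply]
    ring
  rw [Finset.sum_congr rfl h1]
  have h2 := Finset.sum_range_succ' (fun j => η ^ j * (t ^ j) x) n
  have h3 := Finset.sum_range_succ (fun j => η ^ j * (t ^ j) x) n
  simp only [pow_zero, one_mul, AlgEquiv.one_apply] at h2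
  rw [hη, hx, one_mul] at h3
  have h4 : ∑ j ∈ Finset.range n, η ^ (j + 1) * (t ^ (j + 1)) x + x =
      ∑ j ∈ Finset.range n, η ^ j * (t ^ j) x + x := by
    rw [← h2, h3]
  exact add_right_cancel h4

theorem apply_lagrangeRes_of_fixed (η : Qb) (t : GQ) (x : Qb) (n : ℕ) (h : GQ) (hη : h η = η)
    (hx : ∀ j, h ((t ^ j) x) = (t ^ j) x) :
    h (lagrangeRes η t x n) = lagrangeRes η t x n := by
  unfold lagrangeRes
  rw [map_sum]
  refine Finset.sum_congr rfl fun j _ => ?_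
  rw [map_mul, map_pow, hη, hx]

theorem sum_lagrangeRes {ζ : Qb} (hζ : IsPrimitiveRoot ζ p) (t : GQ)
    (x : Qb) : ∑ i ∈ Finset.range p, lagrangeRes (ζ ^ i) t x p = p * x := by
  have hp := (Fact.out : p.Prime)
  unfold lagrangeRes
  rw [Finset.sum_comm]
  have h1 : ∀ j ∈ Finset.range p, ∑ i ∈ Finset.range p, (ζ ^ i) ^ j * (t ^ j) x =
      if j = 0 then (p : Qb) * x else 0 := by
    intro j hj
    rw [Finset.mem_range] at hj
    rw [← Finset.sum_mul]
    split_ifs with h0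
    · subst h0
      simp
    · have hcop : Nat.Coprime j p := (Nat.coprime_of_lt_prime h0 hj hp).symm
      have hprim : IsPrimitiveRoot (ζ ^ j) p := hζ.pow_of_coprime j hcop
      have h2 : ∑ i ∈ Finset.range p, (ζ ^ i) ^ j = 0 := by
        have := hprim.geom_sum_eq_zero hp.one_lt
        rw [← this]
        refine Finset.sum_congr rfl fun i _ => ?_
        rw [← pow_mul, ← pow_mul, mul_comm]
      rw [h2, zero_mul]
  rw [Finset.sum_congr rfl h1]
  simp [hp.pos]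


/-- Some resolvent with a nontrivial root of unity is nonzero. -/
theorem exists_lagrangeRes_ne_zero {ζ : Qb} (hζ : IsPrimitiveRoot ζ p) (t : GQ)
    (x : Qb) (hx : (t ^ p) x = x) (htx : t x ≠ x) :
    ∃ i : ℕ, 0 < i ∧ i < p ∧ lagrangeRes (ζ ^ i) t x p ≠ 0 := by
  have hp := (Fact.out : p.Prime)
  by_contra hcon
  push Not at hcon
  apply htx
  have hsum := sum_lagrangeRes p hζ t x
  have h1 : ∑ i ∈ Finset.range p, lagrangeRes (ζ ^ i) t x p = lagrangeRes (ζ ^ 0) t x p := by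
    apply Finset.sum_eq_single_of_mem 0 (Finset.mem_range.mpr hp.pos)
    intro i hi hi0
    exact hcon i (Nat.pos_of_ne_zero hi0) (Finset.mem_range.mp hi)
  rw [h1, pow_zero] at hsum
  have h2 := apply_lagrangeRes_mul 1 t x p (map_one t) (one_pow p) hx
  rw [mul_one, hsum, map_mul, map_natCast] at h2
  have hp0 : (p : Qb) ≠ 0 := Nat.cast_ne_zero.mpr hp.ne_zero
  exact mul_left_cancel₀ hp0 h2

theorem pow_apply_eigen (t : GQ) {ζ θ : Qb} (htζ : t ζ = ζ) (n : ℕ) (h : t θ = ζ ^ n * θ)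
    (a : ℕ) : (t ^ a) θ = (ζ ^ n) ^ a * θ := by
  induction a with
  | zero => simp
  | succ a ih =>
    rw [pow_succ' t a, AlgEquiv.mul_apply, ih, map_mul, map_pow, map_pow, htζ, h]
    ring

/-! ### Main theorem of M1b -/

/-- **M1b**: a group datum produces a Kummer datum inside `ℚ̄`. -/
theorem exists_kummerDatum {N : Subgroup GQ} (hN : NoExtDatum p N) :
    ∃ ζ α θ : Qb, KummerDatum p ζ α θ := by
  have hp := (Fact.out : p.Prime)
  have : NeZero p := ⟨hp.ne_zero⟩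
  have : NeZero (p : Qb) := ⟨Nat.cast_ne_zero.mpr hp.ne_zero⟩
  obtain ⟨ζ, hζ⟩ := HasEnoughRootsOfUnity.exists_primitiveRoot Qb p
  have hnorm : N.Normal := hN.normal
  -- the quotient `ker χ / N` has order `p`
  have hcard : Nat.card (↥(cycloChar p).ker ⧸ N.subgroupOf (cycloChar p).ker) = p := by
    rw [← Subgroup.index_eq_card]
    exact hN.index
  obtain ⟨t₁, ht₁K, ht₁N⟩ : ∃ t ∈ (cycloChar p).ker, t ∉ N := by
    by_contra hcon
    push Not at hcon
    have htop : N.subgroupOf (cycloChar p).ker = ⊤ := by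
      rw [Subgroup.subgroupOf_eq_top]
      exact hcon
    have := hN.index
    rw [htop, Subgroup.index_top] at this
    exact hp.one_lt.ne this
  have ht₁ne : ((⟨t₁, ht₁K⟩ : (cycloChar p).ker) :
      ↥(cycloChar p).ker ⧸ N.subgroupOf (cycloChar p).ker) ≠ 1 := by
    rw [Ne, QuotientGroup.eq_one_iff, Subgroup.mem_subgroupOf]
    exact ht₁N
  have hpow : ∀ t, t ∈ (cycloChar p).ker → ∃ n : ℕ, t * (t₁ ^ n)⁻¹ ∈ N := by
    intro t ht
    obtain ⟨n, hn⟩ := mem_powers_of_prime_card hcard ht₁ne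
      (g' := ((⟨t, ht⟩ : (cycloChar p).ker) :
        ↥(cycloChar p).ker ⧸ N.subgroupOf (cycloChar p).ker))
    refine ⟨n, ?_⟩
    have h2 : ((⟨t, ht⟩ : (cycloChar p).ker) * (⟨t₁, ht₁K⟩ ^ n)⁻¹ : (cycloChar p).ker) ∈
        N.subgroupOf (cycloChar p).ker := by
      rw [← QuotientGroup.eq_one_iff, QuotientGroup.mk_mul, QuotientGroup.mk_inv,
        QuotientGroup.mk_pow]
      have hn' : ((⟨t₁, ht₁K⟩ : (cycloChar p).ker) :
          ↥(cycloChar p).ker ⧸ N.subgroupOf (cycloChar p).ker) ^ n =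
          ((⟨t, ht⟩ : (cycloChar p).ker) :
            ↥(cycloChar p).ker ⧸ N.subgroupOf (cycloChar p).ker) := hn
      rw [hn', mul_inv_cancel]
    simpa [Subgroup.mem_subgroupOf] using h2
  have ht₁p : t₁ ^ p ∈ N := by
    have h1 : ((⟨t₁, ht₁K⟩ : (cycloChar p).ker) :
        ↥(cycloChar p).ker ⧸ N.subgroupOf (cycloChar p).ker) ^ p = 1 := by
      have h0 := pow_card_eq_one' (G := ↥(cycloChar p).ker ⧸ N.subgroupOf (cycloChar p).ker)
        (x := ((⟨t₁, ht₁K⟩ : (cycloChar p).ker) :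
          ↥(cycloChar p).ker ⧸ N.subgroupOf (cycloChar p).ker))
      rwa [hcard] at h0
    rw [← QuotientGroup.mk_pow, QuotientGroup.eq_one_iff, Subgroup.mem_subgroupOf] at h1
    simpa using h1
  have ht₁ζ : t₁ ζ = ζ := (mem_ker_iff p t₁ hζ).mp ht₁K
  obtain ⟨x, hxN, hxt⟩ := exists_not_fixed N hN.isOpen t₁ ht₁N
  have hxp : (t₁ ^ p) x = x := hxN _ ht₁p
  obtain ⟨i, hi0, hip, hR⟩ := exists_lagrangeRes_ne_zero p hζ t₁ x hxp hxt
  have hη : IsPrimitiveRoot (ζ ^ i) p :=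
    hζ.pow_of_coprime i (Nat.coprime_of_lt_prime hi0.ne' hip hp).symm
  have ht₁η : t₁ (ζ ^ i) = ζ ^ i := by rw [map_pow, ht₁ζ]
  have hη0 : ζ ^ i ≠ 0 := hη.ne_zero hp.ne_zero
  set θ : Qb := lagrangeRes (ζ ^ i) t₁ x p with hθdef
  set ζ' : Qb := (ζ ^ i)⁻¹ with hζ'def
  have hζ' : IsPrimitiveRoot ζ' p := hη.inv
  have hζ'0 : ζ' ≠ 0 := hζ'.ne_zero hp.ne_zero
  have hζ'ne1 : ζ' ≠ 1 := hζ'.ne_one hp.one_lt
  have ht₁θ : t₁ θ = ζ' * θ := by
    have h1 : t₁ θ * ζ ^ i = θ := apply_lagrangeRes_mul (ζ ^ i) t₁ x p ht₁η hη.pow_eq_one hxp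
    rw [hζ'def, eq_inv_mul_iff_mul_eq₀ hη0, mul_comm]
    exact h1
  -- `N` fixes `θ`
  have hNθ : ∀ h ∈ N, h θ = θ := by
    intro h hh
    apply apply_lagrangeRes_of_fixed
    · have hK : h ∈ (cycloChar p).ker := hN.le_ker hh
      rw [map_pow, (mem_ker_iff p h hζ).mp hK]
    · intro j
      have hconj : (t₁ ^ j)⁻¹ * h * (t₁ ^ j) ∈ N := by
        have := hnorm.conj_mem h hh ((t₁ ^ j)⁻¹)
        simpa using this
      have h3 : h * t₁ ^ j = t₁ ^ j * ((t₁ ^ j)⁻¹ * h * (t₁ ^ j)) := by group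
      have h4 : (h * t₁ ^ j) x = (t₁ ^ j * ((t₁ ^ j)⁻¹ * h * (t₁ ^ j))) x := by rw [← h3]
      rw [AlgEquiv.mul_apply, AlgEquiv.mul_apply, hxN _ hconj] at h4
      exact h4
  have hKζ' : ∀ t ∈ (cycloChar p).ker, t ζ' = ζ' := fun t ht => (mem_ker_iff p t hζ').mp ht
  -- every element of `ker χ` multiplies `θ` by a power of `ζ'`
  have hKθ : ∀ t ∈ (cycloChar p).ker, ∃ n : ℕ, t θ = ζ' ^ n * θ := by
    intro t ht
    obtain ⟨n, hn⟩ := hpow t ht
    refine ⟨n, ?_⟩
    have h3 : t = t * (t₁ ^ n)⁻¹ * t₁ ^ n := by group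
    have h4 : t θ = (t * (t₁ ^ n)⁻¹ * t₁ ^ n) θ := by rw [← h3]
    have h5 := pow_apply_eigen t₁ (hKζ' t₁ ht₁K) 1 (by rw [pow_one]; exact ht₁θ) n
    rw [pow_one] at h5
    rw [h4, AlgEquiv.mul_apply, h5, map_mul, map_pow, hKζ' _ (hN.le_ker hn), hNθ _ hn]
  have hθ0 : θ ≠ 0 := hR
  refine ⟨ζ', θ ^ p, θ, ?_⟩
  refine
    { prim := hζ'
      mem := ?_
      ne_zero := pow_ne_zero p hθ0
      pow_eq := rfl
      not_mem := ?_
      inertia := ?_
      decomp := ?_
      equivariant := ?_ }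
  · apply mem_adjoin_of_fixed p hζ'
    intro σ hσ
    obtain ⟨n, hn⟩ := hKθ σ hσ
    rw [map_pow, hn, mul_pow, ← pow_mul, mul_comm n p, pow_mul, hζ'.pow_eq_one, one_pow, one_mul]
  · intro hmem
    have h1 := apply_eq_of_mem_adjoin p hζ' hmem ht₁K
    rw [ht₁θ] at h1
    have h2 : (ζ' - 1) * θ = 0 := by rw [sub_mul, h1, one_mul, sub_self]
    rcases mul_eq_zero.mp h2 with h | h
    · exact hζ'ne1 (sub_eq_zero.mp h)
    · exact hθ0 h
  · intro ℓ hℓ hℓp A hA σ hσ
    exact hNθ σ (hN.inertia ℓ hℓ hℓp A hA hσ)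
  · intro A hA σ hσ hσζ
    exact hNθ σ (hN.decomp A hA ⟨hσ, (mem_ker_iff p σ hζ').mpr hσζ⟩)
  · intro σ a hσa
    -- `a * cycloExp σ⁻¹ ≡ 1`
    have hmod : (a * cycloExp p σ⁻¹) % p = 1 := by
      have h1 : ζ' ^ a = ζ' ^ cycloExp p σ := by rw [← hσa, apply_zeta p σ hζ']
      have hlt : cycloExp p σ < p := by
        rw [← val_cycloChar]
        exact ZMod.val_lt _
      have h2 : a % p = cycloExp p σ := by
        apply hζ'.pow_inj (Nat.mod_lt _ hp.pos) hlt
        rw [← pow_eq_pow_mod a hζ'.pow_eq_one, h1]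
      have h3 : (a : ZMod p) = (cycloChar p σ : ZMod p) := by
        rw [coe_cycloChar, ← h2, ZMod.natCast_mod]
      have h4 : ((a * cycloExp p σ⁻¹ : ℕ) : ZMod p) = ((1 : ℕ) : ZMod p) := by
        rw [Nat.cast_mul, h3, ← coe_cycloChar, ← Units.val_mul, ← map_mul, mul_inv_cancel,
          map_one, Units.val_one, Nat.cast_one]
      have h5 := (ZMod.natCast_eq_natCast_iff' _ _ _).mp h4
      rwa [Nat.one_mod_eq_one.mpr hp.ne_one] at h5
    have hσθ0 : σ θ ≠ 0 := by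
      intro h
      exact hθ0 ((map_eq_zero σ).mp h)
    refine ⟨σ θ / θ ^ (a ^ 2), ?_, div_ne_zero hσθ0 (pow_ne_zero _ hθ0), ?_⟩
    · apply mem_adjoin_of_fixed p hζ'
      intro t ht
      obtain ⟨n, hn⟩ := hKθ t ht
      -- `t' = σ⁻¹ t σ = h' t^a`
      have hconj : σ⁻¹ * t * σ⁻¹⁻¹ * (t ^ a)⁻¹ ∈ N := hN.conj σ⁻¹ t ht a hmod
      have h3 : t * σ = σ * ((σ⁻¹ * t * σ⁻¹⁻¹ * (t ^ a)⁻¹) * t ^ a) := by group
      have h4 : (t * σ) θ = (σ * ((σ⁻¹ * t * σ⁻¹⁻¹ * (t ^ a)⁻¹) * t ^ a)) θ := by rw [← h3]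
      have h5 := pow_apply_eigen t (hKζ' t ht) n hn a
      rw [AlgEquiv.mul_apply, AlgEquiv.mul_apply, AlgEquiv.mul_apply, h5, map_mul, map_pow,
        map_pow, hKζ' _ (hN.le_ker hconj), hNθ _ hconj, map_mul, map_pow, map_pow, hσa] at h4
      rw [map_div₀, map_pow, h4, hn]
      field_simp
      ring
    · field_simp

/-- **M1b**: the element form of the core implies the group form. -/
theorem stmt_noExt_of_core (hcore : Core p) : Stmt_NoExt p := by
  rintro ⟨N, hN⟩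
  exact hcore (exists_kummerDatum p hN)

end Fermat.Agent.S14.helper2197
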