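/-
S14 moonshot, module M3 (GAUSS), ring-level core.  Author seat: helper2253.

For a prime `r`, a multiplicative character `χ` of `ZMod r` with values in a commutative
ring `B` and a primitive additive character `ψ`, the Gauss sum `g = gaussSum χ ψ` satisfies
the Frobenius congruence `g ^ q ≡ χ⁻¹(q) * g (mod ℓ)` for every prime `ℓ ≠ r` and `q = ℓ ^ f`
with `χ ^ q = χ`.  Consequently `δ := g ^ p` (for `χ ^ p = 1`) satisfies
`δ ^ ((q - 1) / p) ≡ χ⁻¹(q) (mod ℓ)`: the `p`-th power residue symbol of `δ` at any prime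
above `ℓ` is given by the character `χ` evaluated at the norm.
-/
import Mathlib

set_option autoImplicit false

namespace Fermat.Agent.S14.helper2253

open Finset

section FrobeniusCongruence

variable {B : Type*} [CommRing B]

/-- Freshman's dream for finite sums, modulo a prime `ℓ`, in an arbitrary commutative ring. -/
lemma sum_pow_prime_pow_sub_mem {ℓ : ℕ} (hℓ : ℓ.Prime) (f : ℕ) {ι : Type*} (s : Finset ι)
    (x : ι → B) :
    (∑ i ∈ s, x i) ^ (ℓ ^ f) - ∑ i ∈ s, x i ^ (ℓ ^ f) ∈ Ideal.span {(ℓ : B)} := by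
  by_cases hu : IsUnit (ℓ : B)
  · rw [Ideal.span_singleton_eq_top.mpr hu]; trivial
  · have : Fact ℓ.Prime := ⟨hℓ⟩
    have : CharP (B ⧸ Ideal.span {(ℓ : B)}) ℓ :=
      CharP.quotient B ℓ (show (ℓ : B) ∈ nonunits B from hu)
    rw [← Ideal.Quotient.eq, map_pow, map_sum, sum_pow_char_pow]
    simp

variable {r : ℕ} [Fact r.Prime]

/-- **Frobenius congruence for Gauss sums**: `g(χ)^q ≡ χ⁻¹(q) g(χ)` modulo `ℓ`, for `q = ℓ^f`
with `χ^q = χ` and `ℓ ≠ r`. -/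
theorem gaussSum_pow_prime_pow_sub_mem (χ : MulChar (ZMod r) B) (ψ : AddChar (ZMod r) B)
    {ℓ : ℕ} (hℓ : ℓ.Prime) (hℓr : ℓ ≠ r) (f : ℕ) (hχ : χ ^ (ℓ ^ f) = χ) :
    gaussSum χ ψ ^ (ℓ ^ f) - χ⁻¹ ((ℓ ^ f : ℕ) : ZMod r) * gaussSum χ ψ
      ∈ Ideal.span {(ℓ : B)} := by
  have hr : r.Prime := Fact.out
  have hcop : Nat.Coprime (ℓ ^ f) r :=
    Nat.Coprime.pow_left f ((Nat.coprime_primes hℓ hr).mpr hℓr)
  set u : (ZMod r)ˣ := ZMod.unitOfCoprime (ℓ ^ f) hcop with hu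
  have hucoe : ((u : (ZMod r)ˣ) : ZMod r) = ((ℓ ^ f : ℕ) : ZMod r) := ZMod.coe_unitOfCoprime _ hcop
  have key : ∑ a : ZMod r, (χ a * ψ a) ^ (ℓ ^ f)
      = χ⁻¹ ((ℓ ^ f : ℕ) : ZMod r) * gaussSum χ ψ := by
    rw [← hucoe, ← gaussSum_mulShift_eq χ ψ u]
    unfold gaussSum
    refine Finset.sum_congr rfl fun a _ => ?_
    rw [mul_pow, ← MulChar.pow_apply' χ (pow_pos hℓ.pos f).ne', hχ, AddChar.mulShift_apply,
      hucoe, ← AddChar.map_nsmul_eq_pow, nsmul_eq_mul]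
  have := sum_pow_prime_pow_sub_mem (B := B) hℓ f Finset.univ (fun a : ZMod r => χ a * ψ a)
  rw [key] at this
  exact this

end FrobeniusCongruence

section Delta

variable {B : Type*} [CommRing B] [IsDomain B] {r : ℕ} [Fact r.Prime]

/-- `g(χ) * g(χ⁻¹, ψ⁻¹) = r`. -/
lemma gaussSum_mul_gaussSum_inv_eq {χ : MulChar (ZMod r) B} (hχ1 : χ ≠ 1)
    {ψ : AddChar (ZMod r) B} (hψ : ψ.IsPrimitive) :
    gaussSum χ ψ * gaussSum χ⁻¹ ψ⁻¹ = (r : B) := by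
  simpa [ZMod.card] using gaussSum_mul_gaussSum_eq_card hχ1 hψ

/-- `g(χ)^(q-1) ≡ χ⁻¹(q)` modulo `ℓ`, for `q = ℓ^f`, `χ^q = χ ≠ 1`, `ℓ ≠ r`. -/
theorem gaussSum_pow_sub_one_sub_mem {χ : MulChar (ZMod r) B} (hχ1 : χ ≠ 1)
    {ψ : AddChar (ZMod r) B} (hψ : ψ.IsPrimitive) {ℓ : ℕ} (hℓ : ℓ.Prime) (hℓr : ℓ ≠ r) (f : ℕ)
    (hχ : χ ^ (ℓ ^ f) = χ) :
    gaussSum χ ψ ^ (ℓ ^ f - 1) - χ⁻¹ ((ℓ ^ f : ℕ) : ZMod r) ∈ Ideal.span {(ℓ : B)} := by
  have hr : r.Prime := Fact.out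
  have h1 := gaussSum_pow_prime_pow_sub_mem χ ψ hℓ hℓr f hχ
  have hcard := gaussSum_mul_gaussSum_inv_eq hχ1 hψ
  have h2 : (r : B) * (gaussSum χ ψ ^ (ℓ ^ f - 1) - χ⁻¹ ((ℓ ^ f : ℕ) : ZMod r))
      ∈ Ideal.span {(ℓ : B)} := by
    have h3 := Ideal.mul_mem_right (gaussSum χ⁻¹ ψ⁻¹) _ h1
    have hpow : gaussSum χ ψ ^ (ℓ ^ f) = gaussSum χ ψ ^ (ℓ ^ f - 1) * gaussSum χ ψ := by
      rw [← pow_succ, Nat.sub_add_cancel (Nat.one_le_pow _ _ hℓ.pos)]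
    have e : (gaussSum χ ψ ^ (ℓ ^ f) - χ⁻¹ ((ℓ ^ f : ℕ) : ZMod r) * gaussSum χ ψ)
        * gaussSum χ⁻¹ ψ⁻¹
        = (r : B) * (gaussSum χ ψ ^ (ℓ ^ f - 1) - χ⁻¹ ((ℓ ^ f : ℕ) : ZMod r)) := by
      rw [← hcard, hpow]
      ring
    rw [e] at h3
    exact h3
  have hcop : IsCoprime (ℓ : ℤ) (r : ℤ) :=
    Nat.isCoprime_iff_coprime.mpr ((Nat.coprime_primes hℓ hr).mpr hℓr)
  obtain ⟨a, b, hab⟩ := hcop
  have hab' : (a : B) * (ℓ : B) + (b : B) * (r : B) = 1 := by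
    have := congrArg (Int.cast : ℤ → B) hab
    push_cast at this
    exact this
  set x := gaussSum χ ψ ^ (ℓ ^ f - 1) - χ⁻¹ ((ℓ ^ f : ℕ) : ZMod r) with hx
  have hxe : x = (a : B) * x * (ℓ : B) + (b : B) * ((r : B) * x) := by
    calc x = ((a : B) * (ℓ : B) + (b : B) * (r : B)) * x := by rw [hab', one_mul]
      _ = _ := by ring
  rw [hxe]
  exact Ideal.add_mem _ (Ideal.mul_mem_left _ _ (Ideal.mem_span_singleton_self _))
    (Ideal.mul_mem_left _ _ h2)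

/-- The element `δ(χ) = χ(-1) * r * ∏_{1 ≤ i < p-1} J(χ, χ^i)`, which equals `g(χ)^p` when `χ`
has order `p` (`gaussSum_pow_eq_delta`). It lies in the subring generated by the values
of `χ`. -/
noncomputable def delta (χ : MulChar (ZMod r) B) (p : ℕ) : B :=
  χ (-1) * (r : B) * ∏ i ∈ Ico 1 (p - 1), jacobiSum χ (χ ^ i)

/-- `g(χ)^p = δ(χ)` for `χ` of order `p ≥ 2` and any primitive additive character. -/
theorem gaussSum_pow_eq_delta {χ : MulChar (ZMod r) B} {p : ℕ} (hp : 2 ≤ p)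
    (hχ : orderOf χ = p) {ψ : AddChar (ZMod r) B} (hψ : ψ.IsPrimitive) :
    gaussSum χ ψ ^ p = delta χ p := by
  have := gaussSum_pow_eq_prod_jacobiSum (χ := χ) (ψ := ψ) (hχ ▸ hp) hψ
  rw [hχ, ZMod.card] at this
  exact this

/-- **Power residue symbol of `δ(χ)`**: `δ(χ)^((q-1)/p) ≡ χ⁻¹(q)` modulo `ℓ`, for a prime
`ℓ ≠ r` and `q = ℓ^f ≡ 1 (mod p)`, where `χ` has prime order `p`. -/
theorem delta_pow_sub_mem {χ : MulChar (ZMod r) B} {p : ℕ} (hp : 2 ≤ p)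
    (hχ : orderOf χ = p) (hprim : ∃ ψ : AddChar (ZMod r) B, ψ.IsPrimitive)
    {ℓ : ℕ} (hℓ : ℓ.Prime) (hℓr : ℓ ≠ r) (f : ℕ) (hq : p ∣ ℓ ^ f - 1) :
    delta χ p ^ ((ℓ ^ f - 1) / p) - χ⁻¹ ((ℓ ^ f : ℕ) : ZMod r) ∈ Ideal.span {(ℓ : B)} := by
  obtain ⟨ψ, hψ⟩ := hprim
  have hχ1 : χ ≠ 1 := by
    rintro rfl
    rw [orderOf_one] at hχ
    omega
  have hχq : χ ^ (ℓ ^ f) = χ := by
    have hq' : ℓ ^ f = (ℓ ^ f - 1) + 1 := (Nat.sub_add_cancel (Nat.one_le_pow _ _ hℓ.pos)).symm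
    obtain ⟨k, hk⟩ := hq
    rw [hq', pow_succ, hk, pow_mul, ← hχ, pow_orderOf_eq_one, one_pow, one_mul]
  rw [← gaussSum_pow_eq_delta hp hχ hψ, ← pow_mul, Nat.mul_div_cancel' hq]
  exact gaussSum_pow_sub_one_sub_mem hχ1 hψ hℓ hℓr f hχq

/-- `δ(χ) * δ(χ⁻¹) = r^p`: in particular `δ(χ)` is a unit away from `r`. -/
theorem delta_mul_delta_inv {χ : MulChar (ZMod r) B} {p : ℕ} (hp : 2 ≤ p)
    (hχ : orderOf χ = p) (hprim : ∃ ψ : AddChar (ZMod r) B, ψ.IsPrimitive) :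
    delta χ p * delta χ⁻¹ p = (r : B) ^ p := by
  obtain ⟨ψ, hψ⟩ := hprim
  have hχ1 : χ ≠ 1 := by
    rintro rfl
    rw [orderOf_one] at hχ
    omega
  have hψ1 : ψ ≠ 1 := by
    rintro rfl
    have := hψ (a := 1) one_ne_zero
    exact this (by ext x; simp)
  have hψ' : (ψ⁻¹).IsPrimitive := AddChar.IsPrimitive.of_ne_one (by
    intro h
    apply hψ1
    rw [← inv_inv ψ, h, inv_one])
  rw [← gaussSum_pow_eq_delta hp hχ hψ,
    ← gaussSum_pow_eq_delta hp (by rw [orderOf_inv, hχ] : orderOf χ⁻¹ = p) hψ', ← mul_pow,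
    gaussSum_mul_gaussSum_inv_eq hχ1 hψ]

/-- `δ(χ)` lies in `ℤ[μ]` for a primitive `p`-th root of unity `μ` (when `χ^p = 1`). -/
theorem delta_mem_adjoin {χ : MulChar (ZMod r) B} {p : ℕ} [NeZero p] (hχ : χ ^ p = 1)
    {μ : B} (hμ : IsPrimitiveRoot μ p) :
    delta χ p ∈ Algebra.adjoin ℤ {μ} := by
  unfold delta
  refine Subalgebra.mul_mem _ (Subalgebra.mul_mem _
    (MulChar.apply_mem_algebraAdjoin_of_pow_eq_one hχ hμ _) (Subalgebra.natCast_mem _ r)) ?_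
  refine Subalgebra.prod_mem _ fun i _ => ?_
  exact jacobiSum_mem_algebraAdjoin_of_pow_eq_one hχ
    (by rw [← pow_mul, mul_comm, pow_mul, hχ, one_pow]) hμ

omit [IsDomain B] in
/-- Functoriality of `δ` under ring homomorphisms. -/
theorem delta_ringHomComp {B' : Type*} [CommRing B'] (χ : MulChar (ZMod r) B) (p : ℕ)
    (φ : B →+* B') :
    φ (delta χ p) = χ.ringHomComp φ (-1) * (r : B')
      * ∏ i ∈ Ico 1 (p - 1), jacobiSum (χ.ringHomComp φ) (χ.ringHomComp φ ^ i) := by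
  unfold delta
  rw [map_mul, map_mul, map_natCast, map_prod]
  congr 1
  refine Finset.prod_congr rfl fun i _ => ?_
  rw [MulChar.ringHomComp_pow, jacobiSum_ringHomComp]

end Delta

end Fermat.Agent.S14.helper2253
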