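/-
S14 moonshot, module M3 (GAUSS), part (3c): valuations of `δ(χ) = g(χ)^p` at the primes
above `r` and away from `r`.  Author seat: helper2253.

`δ(χ) = χ(-1) * r * ∏ J(χ, χ^i)` is divisible by `r`, and `δ(χ) * δ(χ⁻¹) = r^p` (proved here
WITHOUT assuming that the value ring contains an `r`-th root of unity).  Hence, in a Dedekind
domain and at a prime `v` with `ord_v(r) = 1`, we get `1 ≤ ord_v(δ(χ)) ≤ p - 1`, while
`ord_v(δ(χ)) = 0` at every prime not containing `r`.  For the `p`-th cyclotomic field the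
hypothesis `ord_v(r) = 1` holds at every prime above `r ≠ p`.
-/
import Fermat.Agent.S14.helper2253_Gauss

set_option autoImplicit false

namespace Fermat.Agent.S14.helper2253

open Finset IsDedekindDomain NumberField

section RingLevel

variable {A : Type*} [CommRing A] {r : ℕ} [Fact r.Prime]

/-- `r` divides `δ(χ)` (explicit factor). -/
theorem natCast_dvd_delta (χ : MulChar (ZMod r) A) (p : ℕ) : (r : A) ∣ delta χ p :=
  ⟨χ (-1) * ∏ i ∈ Ico 1 (p - 1), jacobiSum χ (χ ^ i), by unfold delta; ring⟩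

/-- `δ(χ)` lies in every ideal containing `r`. -/
theorem delta_mem_of_natCast_mem (χ : MulChar (ZMod r) A) (p : ℕ) {v : Ideal A}
    (h : (r : A) ∈ v) : delta χ p ∈ v := by
  obtain ⟨c, hc⟩ := natCast_dvd_delta χ p
  rw [hc]
  exact Ideal.mul_mem_right _ _ h

/-- `δ` commutes with ring homomorphisms. -/
theorem map_delta {A' : Type*} [CommRing A'] (χ : MulChar (ZMod r) A) (p : ℕ) (φ : A →+* A') :
    φ (delta χ p) = delta (χ.ringHomComp φ) p :=
  delta_ringHomComp χ p φ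

variable [IsDomain A]

/-- `δ(χ) * δ(χ⁻¹) = r^p`, for `χ` of order `p ≥ 2` with values in any domain in which `r ≠ 0`
(no root of unity of order `r` is needed in `A`). -/
theorem delta_mul_delta_inv' {χ : MulChar (ZMod r) A} {p : ℕ} (hp : 2 ≤ p)
    (hχ : orderOf χ = p) (hr : (r : A) ≠ 0) :
    delta χ p * delta χ⁻¹ p = (r : A) ^ p := by
  let L := AlgebraicClosure (FractionRing A)
  let φ : A →+* L := (algebraMap (FractionRing A) L).comp (algebraMap A (FractionRing A))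
  have hφ : Function.Injective φ :=
    (algebraMap (FractionRing A) L).injective.comp (IsFractionRing.injective A (FractionRing A))
  have hrL : ((r : ℕ) : L) ≠ 0 := by
    have : φ (r : A) ≠ 0 := fun h => hr (hφ (by rw [h, map_zero]))
    simpa using this
  have : NeZero ((r : ℕ) : L) := ⟨hrL⟩
  obtain ⟨ζ, hζ⟩ := HasEnoughRootsOfUnity.exists_primitiveRoot L r
  have hψ := AddChar.zmodChar_primitive_of_primitive_root r hζ
  have hχ' : orderOf (χ.ringHomComp φ) = p := by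
    rw [← hχ]
    exact orderOf_injective (MulChar.ringHomCompHom φ) (MulChar.injective_ringHomComp hφ) χ
  have key := delta_mul_delta_inv hp hχ' ⟨_, hψ⟩
  apply hφ
  rw [map_mul, map_delta, map_delta, ← MulChar.ringHomComp_inv, key, map_pow, map_natCast]

/-- `δ(χ) ∉ v` for a prime `v` not containing `r`. -/
theorem delta_notMem_of_natCast_notMem {χ : MulChar (ZMod r) A} {p : ℕ} (hp : 2 ≤ p)
    (hχ : orderOf χ = p) (v : Ideal A) [v.IsPrime] (h : (r : A) ∉ v) : delta χ p ∉ v := by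
  have hr : (r : A) ≠ 0 := fun h0 => h (h0 ▸ v.zero_mem)
  intro hmem
  have : (r : A) ^ p ∈ v := by
    rw [← delta_mul_delta_inv' hp hχ hr]
    exact Ideal.mul_mem_right _ _ hmem
  exact h (Ideal.IsPrime.mem_of_pow_mem inferInstance _ this)

end RingLevel

section Dedekind

variable {A : Type*} [CommRing A] [IsDedekindDomain A] {r : ℕ} [Fact r.Prime]

open WithZero in
/-- At a prime `v` with `ord_v(r) = 1` (i.e. `r ∈ v`, `r ∉ v^2`): `δ(χ) ∉ v^p`. -/
theorem delta_notMem_pow {χ : MulChar (ZMod r) A} {p : ℕ} (hp : 2 ≤ p) (hχ : orderOf χ = p)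
    (hr : (r : A) ≠ 0) (v : HeightOneSpectrum A) (h1 : (r : A) ∈ v.asIdeal)
    (h2 : (r : A) ∉ v.asIdeal ^ 2) : delta χ p ∉ v.asIdeal ^ p := by
  intro hmem
  have hδ : v.intValuation (delta χ p) ≤ exp (-(p : ℤ)) :=
    (v.intValuation_le_pow_iff_mem _ _).mpr hmem
  have hδ' : v.intValuation (delta χ⁻¹ p) ≤ exp (-((1 : ℕ) : ℤ)) :=
    (v.intValuation_le_pow_iff_mem _ _).mpr (by
      rw [pow_one]; exact delta_mem_of_natCast_mem _ _ h1)
  have hr2 : ¬ v.intValuation (r : A) ≤ exp (-((2 : ℕ) : ℤ)) := fun h =>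
    h2 ((v.intValuation_le_pow_iff_mem _ _).mp h)
  have hmul : v.intValuation (delta χ p) * v.intValuation (delta χ⁻¹ p)
      = v.intValuation (r : A) ^ p := by
    rw [← map_mul, delta_mul_delta_inv' hp hχ hr, map_pow]
  rw [v.intValuation_if_neg hr] at hr2 hmul
  set n : ℕ := (Associates.mk v.asIdeal).count (Associates.mk (Ideal.span {(r : A)})).factors
    with hn
  have hle : (exp (-(n : ℤ)) : ℤᵐ⁰) ^ p ≤ exp (-(p : ℤ)) * exp (-((1 : ℕ) : ℤ)) := by
    rw [← hmul]
    exact mul_le_mul' hδ hδ'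
  rw [← exp_nsmul, ← exp_add, exp_le_exp] at hle
  rw [exp_le_exp] at hr2
  have hn2 : n < 2 := by
    by_contra hcon
    exact hr2 (by push_cast; omega)
  have hp0 : (0 : ℤ) < p := by exact_mod_cast (by omega : 0 < p)
  simp only [nsmul_eq_mul, Nat.cast_one] at hle
  have hn1 : (n : ℤ) ≤ 1 := by exact_mod_cast (by omega : n ≤ 1)
  nlinarith

open WithZero in
/-- Valuation form: at a prime `v` with `ord_v(r) = 1`, `ord_v(δ(χ)) ∈ {1, …, p - 1}`. -/
theorem exists_intValuation_delta {χ : MulChar (ZMod r) A} {p : ℕ} (hp : 2 ≤ p)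
    (hχ : orderOf χ = p) (hr : (r : A) ≠ 0) (v : HeightOneSpectrum A)
    (h1 : (r : A) ∈ v.asIdeal) (h2 : (r : A) ∉ v.asIdeal ^ 2) :
    ∃ k : ℕ, 1 ≤ k ∧ k < p ∧ v.intValuation (delta χ p) = exp (-(k : ℤ)) := by
  have hδ0 : delta χ p ≠ 0 := by
    intro h0
    have := delta_mul_delta_inv' hp hχ hr
    rw [h0, zero_mul] at this
    exact hr (pow_eq_zero_iff (by omega : p ≠ 0) |>.mp this.symm)
  refine ⟨_, ?_, ?_, v.intValuation_if_neg hδ0⟩
  · have hmem : delta χ p ∈ v.asIdeal ^ 1 := by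
      rw [pow_one]; exact delta_mem_of_natCast_mem _ _ h1
    have := (v.intValuation_le_pow_iff_mem _ _).mpr hmem
    rw [v.intValuation_if_neg hδ0, exp_le_exp] at this
    omega
  · by_contra hcon
    apply delta_notMem_pow hp hχ hr v h1 h2
    rw [← v.intValuation_le_pow_iff_mem, v.intValuation_if_neg hδ0, exp_le_exp]
    omega

/-- Valuation form: `ord_v(δ(χ)) = 0` at every prime not containing `r`. -/
theorem intValuation_delta_eq_one {χ : MulChar (ZMod r) A} {p : ℕ} (hp : 2 ≤ p)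
    (hχ : orderOf χ = p) (v : HeightOneSpectrum A) (h : (r : A) ∉ v.asIdeal) :
    v.intValuation (delta χ p) = 1 := by
  rw [v.intValuation_eq_one_iff_mem_primeCompl]
  exact delta_notMem_of_natCast_notMem hp hχ v.asIdeal h

end Dedekind

section Cyclotomic

variable {p : ℕ} [NeZero p] (K : Type*) [Field K] [NumberField K]
  [IsCyclotomicExtension {p} ℚ K] {r : ℕ} [Fact r.Prime]

/-- In the `p`-th cyclotomic field, a prime `r ∤ p` is unramified: `ord_v(r) = 1` at every
prime `v` containing `r`. -/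
theorem natCast_notMem_sq_of_mem (hrp : ¬ r ∣ p) (v : HeightOneSpectrum (𝓞 K))
    (h1 : (r : 𝓞 K) ∈ v.asIdeal) : (r : 𝓞 K) ∉ v.asIdeal ^ 2 := by
  have hr : r.Prime := Fact.out
  have hr0 : (r : 𝓞 K) ≠ 0 := by exact_mod_cast hr.ne_zero
  have : v.asIdeal.IsPrime := v.isPrime
  have hlo : v.asIdeal.LiesOver (Ideal.span {(r : ℤ)}) := by
    constructor
    have hmax : (Ideal.span {(r : ℤ)}).IsMaximal :=
      Ideal.IsPrime.isMaximal ((Ideal.span_singleton_prime (by exact_mod_cast hr.ne_zero)).mpr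
        (Nat.prime_iff_prime_int.mp hr)) (by simpa using hr.ne_zero)
    refine hmax.eq_of_le (Ideal.comap_ne_top _ v.isPrime.ne_top) ?_
    rw [Ideal.span_singleton_le_iff_mem, Ideal.mem_comap]
    simpa using h1
  have he := IsCyclotomicExtension.Rat.ramificationIdx_eq_of_not_dvd (m := p) r K v.asIdeal hrp
  have hmap : Ideal.map (algebraMap ℤ (𝓞 K)) (Ideal.span {(r : ℤ)}) = Ideal.span {(r : 𝓞 K)} := by
    rw [Ideal.map_span, Set.image_singleton]; simp
  have hne : Ideal.map (algebraMap ℤ (𝓞 K)) (Ideal.span {(r : ℤ)}) ≠ ⊥ := by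
    rw [hmap]; simpa using hr0
  rw [Ideal.IsDedekindDomain.ramificationIdx_eq_multiplicity (Ideal.span {(r : ℤ)}) v.asIdeal hne,
    hmap] at he
  intro h2
  have hdvd : v.asIdeal ^ 2 ∣ Ideal.span {(r : 𝓞 K)} := by
    rw [Ideal.dvd_span_singleton]; exact h2
  have hfin : FiniteMultiplicity v.asIdeal (Ideal.span {(r : 𝓞 K)}) :=
    FiniteMultiplicity.of_not_isUnit (by rw [Ideal.isUnit_iff]; exact v.isPrime.ne_top)
      (by simpa using hr0)
  have := hfin.le_multiplicity_of_pow_dvd hdvd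
  omega


/-- In the `p`-th cyclotomic field: `1 ≤ ord_v(δ(χ)) ≤ p - 1` at every prime `v` above `r`
(`r ∤ p`), for `χ` of order `p` on `ZMod r`.  Hence `K(δ(χ)^(1/p))/K` (and every
`K((a * δ(χ)^c)^(1/p))/K` with `p ∣ ord_v(a)`, `p ∤ c`) is totally ramified at `v`. -/
theorem exists_intValuation_delta_of_mem (hp : 2 ≤ p) {χ : MulChar (ZMod r) (𝓞 K)}
    (hχ : orderOf χ = p) (hrp : ¬ r ∣ p) (v : HeightOneSpectrum (𝓞 K))
    (h1 : (r : 𝓞 K) ∈ v.asIdeal) :
    ∃ k : ℕ, 1 ≤ k ∧ k < p ∧ v.intValuation (delta χ p) = WithZero.exp (-(k : ℤ)) := by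
  have hr : r.Prime := Fact.out
  exact exists_intValuation_delta hp hχ (by exact_mod_cast hr.ne_zero) v h1
    (natCast_notMem_sq_of_mem K hrp v h1)

/-- Same statement for the valuation on `K`. -/
theorem exists_valuation_delta_of_mem (hp : 2 ≤ p) {χ : MulChar (ZMod r) (𝓞 K)}
    (hχ : orderOf χ = p) (hrp : ¬ r ∣ p) (v : HeightOneSpectrum (𝓞 K))
    (h1 : (r : 𝓞 K) ∈ v.asIdeal) :
    ∃ k : ℕ, 1 ≤ k ∧ k < p ∧
      v.valuation K (algebraMap (𝓞 K) K (delta χ p)) = WithZero.exp (-(k : ℤ)) := by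
  obtain ⟨k, h1k, hkp, hk⟩ := exists_intValuation_delta_of_mem K hp hχ hrp v h1
  exact ⟨k, h1k, hkp, by rw [HeightOneSpectrum.valuation_of_algebraMap, hk]⟩

/-- `ord_v(δ(χ)) = 0` at every prime `v` of `K` not above `r` (any number field `K`). -/
theorem valuation_delta_eq_one_of_notMem {K : Type*} [Field K] [NumberField K] {p : ℕ}
    (hp : 2 ≤ p) {χ : MulChar (ZMod r) (𝓞 K)} (hχ : orderOf χ = p)
    (v : HeightOneSpectrum (𝓞 K)) (h : (r : 𝓞 K) ∉ v.asIdeal) :
    v.valuation K (algebraMap (𝓞 K) K (delta χ p)) = 1 := by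
  rw [HeightOneSpectrum.valuation_of_algebraMap]
  exact intValuation_delta_eq_one hp hχ v h


/-- Ideal form (consumer shape (G-ram) of M7): in the `p`-th cyclotomic field, every prime `R`
containing `r` (`r ∤ p`) has `δ(χ) ∈ R` and `δ(χ) ∉ R ^ p`. -/
theorem delta_mem_and_notMem_pow_of_mem (hp : 2 ≤ p) {χ : MulChar (ZMod r) (𝓞 K)}
    (hχ : orderOf χ = p) (hrp : ¬ r ∣ p) (R : Ideal (𝓞 K)) [hR : R.IsPrime]
    (h : (r : 𝓞 K) ∈ R) : delta χ p ∈ R ∧ delta χ p ∉ R ^ p := by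
  have hr : r.Prime := Fact.out
  have hr0 : (r : 𝓞 K) ≠ 0 := by exact_mod_cast hr.ne_zero
  have hR0 : R ≠ ⊥ := fun h0 => hr0 (by simpa [h0] using h)
  let v : HeightOneSpectrum (𝓞 K) := ⟨R, hR, hR0⟩
  exact ⟨delta_mem_of_natCast_mem χ p h,
    delta_notMem_pow hp hχ hr0 v h (natCast_notMem_sq_of_mem K hrp v h)⟩

end Cyclotomic

end Fermat.Agent.S14.helper2253
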