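/-
S14 moonshot, module M5 (first inequality), leaf TAME (board row 649; seat helper2400):
`helper165.Stmt_TameIndex F E p` — for a Galois extension `E / F` of prime degree `p`
(`ζ_p ∈ F`) and a finite set `R` of ramified primes not over `p`,
`[Fˣ : N(Eˣ) · F^{(R,p)}] ≥ p ^ #R` (or the index is infinite).

Route: (T) tame norm residue — a norm which is a unit at a ramified prime `v` is a `p`-th power
residue at `v`; (C) CRT count — `p ^ #R` pairwise incongruent products of non-residues.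
-/
import Mathlib
import Fermat.Agent.S14.helper165_FirstIneqSpec
import Fermat.Agent.S14.helper4373_KummerDecomp

set_option autoImplicit false

open IsDedekindDomain NumberField
open scoped Pointwise

namespace Fermat.Agent.S14.helper2400

open Fermat.Agent.S14.helper1892 (LocPowN)
open Fermat.Agent.S14.helper165

noncomputable section

/-! ## Generic valuation lemmas -/

section Val

variable {K : Type*} [Field K] {Γ : Type*} [LinearOrderedCommGroupWithZero Γ]
  (val : Valuation K Γ)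

theorem val_pow_sub_pow_lt {x x' : K} (hx : val x ≤ 1) (hx' : val x' ≤ 1)
    (h : val (x - x') < 1) (n : ℕ) : val (x ^ n - x' ^ n) < 1 := by
  induction n with
  | zero => simp
  | succ n ih =>
    have e : x ^ (n + 1) - x' ^ (n + 1) = x * (x ^ n - x' ^ n) + (x - x') * x' ^ n := by ring
    rw [e]
    refine Valuation.map_add_lt _ ?_ ?_
    · rw [map_mul]
      exact lt_of_le_of_lt (mul_le_of_le_one_left' hx) ih
    · rw [map_mul, map_pow]
      exact lt_of_le_of_lt (mul_le_of_le_one_right' (pow_le_one' hx' _)) h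

theorem val_prod_sub_pow_lt {ι : Type*} (s : Finset ι) (f : ι → K) (c : K) (hc : val c ≤ 1)
    (h : ∀ i ∈ s, val (f i - c) < 1) : val (∏ i ∈ s, f i - c ^ s.card) < 1 := by
  classical
  induction s using Finset.induction_on with
  | empty => simp
  | insert a s ha ih =>
    rw [Finset.prod_insert ha, Finset.card_insert_of_notMem ha]
    have hfa : val (f a) ≤ 1 := by
      have e : f a = (f a - c) + c := by ring
      rw [e]
      exact (Valuation.map_add _ _ _).trans (max_le (h a (Finset.mem_insert_self a s)).le hc)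
    have e : f a * ∏ i ∈ s, f i - c ^ (s.card + 1)
        = f a * (∏ i ∈ s, f i - c ^ s.card) + (f a - c) * c ^ s.card := by ring
    rw [e]
    refine Valuation.map_add_lt _ ?_ ?_
    · rw [map_mul]
      exact lt_of_le_of_lt (mul_le_of_le_one_left' hfa)
        (ih (fun i hi => h i (Finset.mem_insert_of_mem hi)))
    · rw [map_mul, map_pow]
      exact lt_of_le_of_lt (mul_le_of_le_one_right' (pow_le_one' hc _))
        (h a (Finset.mem_insert_self a s))

end Val

/-! ## Local lemmas at one prime of a number field -/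

section Local

variable {F : Type} [Field F] [NumberField F] (v : HeightOneSpectrum (𝓞 F))

/-- A `v`-integral element of `F` is congruent modulo `v` to an algebraic integer. -/
theorem exists_int_sub_lt {x : F} (hx : v.valuation F x ≤ 1) :
    ∃ a : 𝓞 F, v.valuation F (x - (a : F)) < 1 := by
  obtain ⟨a, ha⟩ := v.exists_valuation_sub_lt_of_integer (K := F) hx 1
  refine ⟨a, ?_⟩
  rw [Valuation.map_sub_swap]
  simpa using ha


/-- A `p`-th power residue which is an algebraic integer is a `p`-th power modulo `v`. -/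
theorem exists_pow_sub_mem_of_admAt {p : ℕ} (hp : p ≠ 0) (g : 𝓞 F) (gu : Fˣ)
    (hgu : (gu : F) = (g : F)) (h : AdmAt p v gu) : ∃ c : 𝓞 F, g - c ^ p ∈ v.asIdeal := by
  obtain ⟨h1, y, hy⟩ := h
  have hlt : v.valuation F ((gu : F) / (y : F) ^ p - 1) < 1 := (lt_one_iff_le_exp_neg_one _).2 hy
  have h2 : v.valuation F ((gu : F) / (y : F) ^ p) = 1 :=
    helper1892.val_eq_one_of_sub_one_lt v hlt
  have hyp : v.valuation F ((y : F) ^ p) = 1 := by
    rw [map_div₀, h1, one_div, inv_eq_one] at h2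
    exact h2
  have hy1 : v.valuation F (y : F) = 1 := by
    rw [map_pow] at hyp
    exact (pow_eq_one_iff.1 hyp).resolve_right hp
  obtain ⟨c, hc⟩ := exists_int_sub_lt v (x := (y : F)) hy1.le
  refine ⟨c, ?_⟩
  rw [← v.valuation_lt_one_iff_mem (K := F)]
  have hy0 : (y : F) ^ p ≠ 0 := pow_ne_zero _ y.ne_zero
  have e : algebraMap (𝓞 F) F (g - c ^ p)
      = ((gu : F) / (y : F) ^ p - 1) * (y : F) ^ p + ((y : F) ^ p - (c : F) ^ p) := by
    rw [map_sub, map_pow, hgu]
    field_simp
    ring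
  show v.valuation F (algebraMap (𝓞 F) F (g - c ^ p)) < 1
  rw [e]
  refine Valuation.map_add_lt _ ?_ ?_
  · rw [map_mul, hyp, mul_one]
    exact hlt
  · exact val_pow_sub_pow_lt _ hy1.le (v.valuation_le_one c) hc p

/-- If `ζ_p ∈ F` and `v ∤ p`, some algebraic integer is not a `p`-th power modulo `v`. -/
theorem exists_nonpow {p : ℕ} (hp : p.Prime) {ζ : F} (hζ : IsPrimitiveRoot ζ p)
    (hpv : (p : 𝓞 F) ∉ v.asIdeal) :
    ∃ g : 𝓞 F, g ∉ v.asIdeal ∧ ∀ c : 𝓞 F, g - c ^ p ∉ v.asIdeal := by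
  have : NeZero p := ⟨hp.ne_zero⟩
  have hζ' : IsPrimitiveRoot hζ.toInteger p := hζ.toInteger_isPrimitiveRoot
  have : Finite (𝓞 F ⧸ v.asIdeal) := Ideal.finiteQuotientOfFreeOfNeBot v.asIdeal v.ne_bot
  have hζ1 : Ideal.Quotient.mk v.asIdeal hζ.toInteger ≠ 1 := by
    intro h
    have hsum := hζ'.geom_sum_eq_zero hp.one_lt
    have h3 := congrArg (Ideal.Quotient.mk v.asIdeal) hsum
    rw [map_sum] at h3
    simp only [map_pow, h, one_pow, Finset.sum_const, Finset.card_range, nsmul_eq_mul, mul_one,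
      map_zero] at h3
    apply hpv
    rw [← Ideal.Quotient.eq_zero_iff_mem, map_natCast]
    exact h3
  have hnotsurj : ¬ Function.Surjective (fun x : 𝓞 F ⧸ v.asIdeal => x ^ p) := by
    intro hs
    have hinj := Finite.injective_iff_surjective.mpr hs
    apply hζ1
    apply hinj
    show (Ideal.Quotient.mk v.asIdeal hζ.toInteger) ^ p = 1 ^ p
    rw [← map_pow, hζ'.pow_eq_one, map_one, one_pow]
  simp only [Function.Surjective, not_forall, not_exists] at hnotsurj
  obtain ⟨gb, hgb⟩ := hnotsurj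
  obtain ⟨g, rfl⟩ := Ideal.Quotient.mk_surjective gb
  refine ⟨g, ?_, ?_⟩
  · intro hg
    apply hgb 0
    rw [zero_pow hp.ne_zero]
    exact (Ideal.Quotient.eq_zero_iff_mem.mpr hg).symm
  · intro c hc
    apply hgb (Ideal.Quotient.mk v.asIdeal c)
    rw [← map_pow]
    exact (Ideal.Quotient.eq.mpr hc).symm

/-- The subgroup of `Fˣ` of `v`-units which are `p`-th power residues modulo `v`. -/
def admAtSubgroup (p : ℕ) (v : HeightOneSpectrum (𝓞 F)) : Subgroup Fˣ where
  carrier := {x | AdmAt p v x}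
  mul_mem' := fun hx hx' => admAt_mul hx hx'
  one_mem' := admAt_one p v
  inv_mem' := fun hx => admAt_inv hx

theorem mem_admAtSubgroup {p : ℕ} {x : Fˣ} : x ∈ admAtSubgroup p v ↔ AdmAt p v x := Iff.rfl

theorem pow_mem_admAtSubgroup (p : ℕ) {z : Fˣ} (hz : v.valuation F (z : F) = 1) :
    z ^ p ∈ admAtSubgroup p v := by
  refine ⟨by rw [Units.val_pow_eq_pow_val, map_pow, hz, one_pow], z, ?_⟩
  have hz0 : (z : F) ^ p ≠ 0 := pow_ne_zero _ z.ne_zero
  rw [Units.val_pow_eq_pow_val, div_self hz0, sub_self, map_zero]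
  exact zero_le

theorem mem_admAtSubgroup_of_sub_one {p : ℕ} {z : Fˣ} (hz : v.valuation F ((z : F) - 1) < 1) :
    z ∈ admAtSubgroup p v := by
  refine ⟨helper1892.val_eq_one_of_sub_one_lt v hz, 1, ?_⟩
  have : ((z : F)) / ((1 : Fˣ) : F) ^ p - 1 = (z : F) - 1 := by simp
  rw [this]
  exact (lt_one_iff_le_exp_neg_one _).1 hz

/-- If `g` is a non-`p`-th-power modulo `v`, then `g ^ k` is a `p`-th power residue only when
`p ∣ k`. -/
theorem dvd_of_zpow_mem_admAtSubgroup {p : ℕ} (hp : p.Prime) (g : 𝓞 F) (gu : Fˣ)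
    (hgu : (gu : F) = (g : F)) (hg : g ∉ v.asIdeal) (hnp : ∀ c : 𝓞 F, g - c ^ p ∉ v.asIdeal)
    (k : ℤ) (hk : gu ^ k ∈ admAtSubgroup p v) : (p : ℤ) ∣ k := by
  by_contra hndvd
  have hcop : IsCoprime (p : ℤ) k :=
    (Nat.prime_iff_prime_int.mp hp).irreducible.coprime_iff_not_dvd.mpr hndvd
  obtain ⟨a, b, hab⟩ := hcop
  have hgv : v.valuation F (gu : F) = 1 := by
    rw [hgu]
    exact (v.valuation_eq_one_iff_notMem (K := F)).mpr hg
  have hgav : v.valuation F ((gu ^ a : Fˣ) : F) = 1 := by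
    rw [Units.val_zpow_eq_zpow_val, map_zpow₀, hgv, one_zpow]
  have h1 : gu = (gu ^ a) ^ p * (gu ^ k) ^ b := by
    rw [← zpow_natCast (gu ^ a) p, ← zpow_mul, ← zpow_mul, ← zpow_add]
    have e : a * (p : ℤ) + k * b = 1 := by rw [mul_comm k b]; exact hab
    rw [e, zpow_one]
  have h2 : gu ∈ admAtSubgroup p v := by
    rw [h1]
    exact Subgroup.mul_mem _ (pow_mem_admAtSubgroup v p hgav) (Subgroup.zpow_mem _ hk b)
  obtain ⟨c, hc⟩ := exists_pow_sub_mem_of_admAt v hp.ne_zero g gu hgu h2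
  exact hnp c hc

/-- CRT: an integer congruent to `g₀` modulo `v` and to `1` modulo the other primes of `R`. -/
theorem exists_crt (R : Finset (HeightOneSpectrum (𝓞 F))) (hv : v ∈ R) (g₀ : 𝓞 F) :
    ∃ g : 𝓞 F, g - g₀ ∈ v.asIdeal ∧ ∀ u ∈ R, u ≠ v → g - 1 ∈ u.asIdeal := by
  classical
  obtain ⟨y, hy⟩ := IsDedekindDomain.exists_forall_sub_mem_ideal (s := R)
    (fun u : HeightOneSpectrum (𝓞 F) => u.asIdeal) (fun _ => 1)
    (fun u _ => u.prime) (fun u _ u' _ h heq => h (HeightOneSpectrum.ext heq))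
    (fun u => if (u : HeightOneSpectrum (𝓞 F)) = v then g₀ else 1)
  refine ⟨y, ?_, ?_⟩
  · have := hy v hv
    simpa using this
  · intro u hu huv
    have := hy u hu
    simpa [huv] using this

end Local

/-! ## (T) Tame norm residue -/

section Tame

variable {F E : Type} [Field F] [NumberField F] [Field E] [NumberField E] [Algebra F E]
  [IsGalois F E]

/-- **Tame norm residue**: if `E / F` is Galois of prime degree `p` and `v` is ramified in `E`,
a norm from `E` which is a unit at `v` is a `p`-th power residue modulo `v`. -/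
theorem admAt_norm_of_ramified {p : ℕ} (hp : p.Prime) (hdeg : Module.finrank F E = p)
    (v : HeightOneSpectrum (𝓞 F)) (hram : v.asIdeal.ramificationIdxIn (𝓞 E) ≠ 1)
    (y : Eˣ) (hy : v.valuation F ((normHom F E y : Fˣ) : F) = 1) :
    AdmAt p v (normHom F E y) := by
  have hGG := helper4373.isGaloisGroup_ringOfIntegers F E
  rcases helper4373.nf_trichotomy F E hp hdeg v.asIdeal with h | h | h
  · exact absurd h.2.1 hram
  swap
  · exact absurd h.2.1 hram
  obtain ⟨h1, -, hf⟩ := h
  obtain ⟨⟨w₀, hw₀p, hw₀l⟩⟩ := Ideal.nonempty_primesOver (S := 𝓞 E) v.asIdeal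
  have hw₀ne : w₀ ≠ ⊥ := Ideal.ne_bot_of_liesOver_of_ne_bot v.ne_bot w₀
  let w : HeightOneSpectrum (𝓞 E) := ⟨w₀, hw₀p, hw₀ne⟩
  have : w.asIdeal.LiesOver v.asIdeal := hw₀l
  have hσw : ∀ σ : Gal(E/F), σ • w₀ = w₀ := fun σ =>
    helper4373.smul_eq_of_ncard_eq_one v.asIdeal h1 w₀ σ
  -- the `w`-adic valuation is Galois invariant
  have hinv : ∀ (σ : Gal(E/F)) (x : E), w.valuation E (σ x) = w.valuation E x := by
    intro σ x
    have key : ∀ b : 𝓞 E, w.valuation E (σ (algebraMap (𝓞 E) E b))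
        = w.valuation E (algebraMap (𝓞 E) E b) := by
      intro b
      have e : σ (algebraMap (𝓞 E) E b) = algebraMap (𝓞 E) E (σ • b) := by
        rw [algebraMap.smul']
        rfl
      rw [e, HeightOneSpectrum.valuation_of_algebraMap, HeightOneSpectrum.valuation_of_algebraMap]
      exact helper4373.intValuation_smul w σ (hσw σ) b
    obtain ⟨a, s, -, rfl⟩ := IsFractionRing.div_surjective (A := 𝓞 E) x
    rw [map_div₀, map_div₀, map_div₀, key, key]
  have hnorm : algebraMap F E (Algebra.norm F (y : E)) = ∏ σ : Gal(E/F), σ (y : E) :=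
    Algebra.norm_eq_prod_automorphisms F (y : E)
  have hvw : ∀ x : F, w.valuation E (algebraMap F E x)
      = v.valuation F x ^ (v.asIdeal.ramificationIdx' w.asIdeal) := fun x =>
    (HeightOneSpectrum.valuation_liesOver E v w x).symm
  have hcard : Fintype.card Gal(E/F) = p := by
    rw [← Nat.card_eq_fintype_card, helper4373.card_gal_eq_finrank, hdeg]
  have hNy : ((normHom F E y : Fˣ) : F) = Algebra.norm F (y : E) := rfl
  rw [hNy] at hy
  -- `y` is a unit at `w`
  have hwy : w.valuation E (y : E) = 1 := by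
    have h2 : w.valuation E (algebraMap F E (Algebra.norm F (y : E))) = 1 := by
      rw [hvw, hy, one_pow]
    rw [hnorm, map_prod] at h2
    simp only [hinv] at h2
    rw [Finset.prod_const, Finset.card_univ, hcard] at h2
    exact (pow_eq_one_iff.1 h2).resolve_right hp.ne_zero
  -- approximate `y` by an element of `𝓞 F` modulo `w`
  obtain ⟨r, hr⟩ := exists_int_sub_lt w (x := (y : E)) hwy.le
  have hvmax : v.asIdeal.IsMaximal := v.isMaximal
  have hw₀max : w₀.IsMaximal := Ideal.IsMaximal.of_liesOver_isMaximal w₀ v.asIdeal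
  have hf' : w₀.inertiaDeg (𝓞 F) = 1 := by
    rw [← Ideal.inertiaDegIn_eq_inertiaDeg v.asIdeal w₀ Gal(E/F), hf]
  obtain ⟨c, hc⟩ := helper4373.exists_sub_mem_of_inertiaDeg_eq_one v.asIdeal w₀ hf' r
  have hyc : w.valuation E ((y : E) - algebraMap F E (c : F)) < 1 := by
    have e : (y : E) - algebraMap F E (c : F)
        = ((y : E) - (r : E)) + algebraMap (𝓞 E) E (r - algebraMap (𝓞 F) (𝓞 E) c) := by
      rw [map_sub, ← IsScalarTower.algebraMap_apply (𝓞 F) (𝓞 E) E,
        IsScalarTower.algebraMap_apply (𝓞 F) F E]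
      ring
    rw [e]
    refine Valuation.map_add_lt _ hr ?_
    exact (w.valuation_lt_one_iff_mem (K := E) _).mpr hc
  have hσyc : ∀ σ : Gal(E/F), w.valuation E (σ (y : E) - algebraMap F E (c : F)) < 1 := by
    intro σ
    have e : σ (y : E) - algebraMap F E (c : F) = σ ((y : E) - algebraMap F E (c : F)) := by
      rw [map_sub, AlgEquiv.commutes]
    rw [e, hinv]
    exact hyc
  have hcle : w.valuation E (algebraMap F E (c : F)) ≤ 1 := by
    rw [hvw]
    exact pow_le_one' (v.valuation_le_one c) _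
  have hprod := val_prod_sub_pow_lt (w.valuation E) (Finset.univ : Finset Gal(E/F))
    (fun σ => σ (y : E)) (algebraMap F E (c : F)) hcle (fun σ _ => hσyc σ)
  rw [Finset.card_univ, hcard, ← hnorm, ← map_pow, ← map_sub, hvw] at hprod
  have hNc : v.valuation F (Algebra.norm F (y : E) - (c : F) ^ p) < 1 := by
    by_contra hcon
    rw [not_lt] at hcon
    exact absurd hprod (not_lt.mpr (one_le_pow_of_one_le' hcon _))
  -- `c` is a unit at `v`
  have hc1 : v.valuation F (c : F) = 1 := by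
    by_contra hcon
    have hlt : v.valuation F (c : F) < 1 := lt_of_le_of_ne (v.valuation_le_one c) hcon
    have h3 : v.valuation F (Algebra.norm F (y : E)) < 1 := by
      have e : Algebra.norm F (y : E)
          = (Algebra.norm F (y : E) - (c : F) ^ p) + (c : F) ^ p := by ring
      rw [e]
      refine Valuation.map_add_lt _ hNc ?_
      rw [map_pow]
      exact pow_lt_one' hlt hp.ne_zero
    exact absurd hy h3.ne
  have hc0 : (c : F) ≠ 0 := by
    intro h0
    rw [h0, map_zero] at hc1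
    exact zero_ne_one hc1
  refine ⟨by rw [hNy]; exact hy, Units.mk0 (c : F) hc0, ?_⟩
  rw [← lt_one_iff_le_exp_neg_one, hNy, Units.val_mk0]
  have hcp0 : (c : F) ^ p ≠ 0 := pow_ne_zero _ hc0
  have e : Algebra.norm F (y : E) / (c : F) ^ p - 1
      = (Algebra.norm F (y : E) - (c : F) ^ p) / (c : F) ^ p := by
    field_simp
  rw [e, map_div₀, map_pow, hc1, one_pow, div_one]
  exact hNc

end Tame

/-! ## (C) The count and the leaf -/

section Main

theorem comm_aux {G : Type*} [CommGroup G] (A B G1 G2 : G) :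
    G2 * G1⁻¹ = (A⁻¹ * B) * (A * G1⁻¹) * (B * G2⁻¹)⁻¹ := by
  rw [mul_inv_rev, inv_inv]
  have e : A⁻¹ * B * (A * G1⁻¹) * (G2 * B⁻¹) = (A⁻¹ * A) * (B * B⁻¹) * (G2 * G1⁻¹) := by
    ac_rfl
  rw [e, inv_mul_cancel, mul_inv_cancel, one_mul, one_mul]

/-- **Leaf S14-M5-TAME** (board row 649): `helper165.Stmt_TameIndex F E p`. -/
theorem tameIndex (F E : Type) [Field F] [NumberField F] [Field E] [NumberField E] [Algebra F E]
    [IsGalois F E] (p : ℕ) (hp : p.Prime) (hζ : ∃ ζ : F, IsPrimitiveRoot ζ p)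
    (hdeg : Module.finrank F E = p) : Fermat.Agent.S14.helper165.Stmt_TameIndex F E p := by
  classical
  obtain ⟨ζ, hζ⟩ := hζ
  intro R hram hpR
  -- for every `v ∈ R` a unit of `F`, non-residue at `v`, `≡ 1` at the other primes of `R`
  have hex : ∀ v : R, ∃ gu : Fˣ, ∃ g : 𝓞 F, (gu : F) = (g : F) ∧
      g ∉ (v : HeightOneSpectrum (𝓞 F)).asIdeal ∧
      (∀ c : 𝓞 F, g - c ^ p ∉ (v : HeightOneSpectrum (𝓞 F)).asIdeal) ∧
      ∀ u ∈ R, u ≠ (v : HeightOneSpectrum (𝓞 F)) → g - 1 ∈ u.asIdeal := by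
    rintro ⟨v, hv⟩
    obtain ⟨g₀, hg₀, hnp₀⟩ := exists_nonpow v hp hζ (hpR v hv)
    obtain ⟨g, hgg₀, hg1⟩ := exists_crt v R hv g₀
    have hg : g ∉ v.asIdeal := by
      intro hg
      apply hg₀
      have := v.asIdeal.sub_mem hg hgg₀
      simpa using this
    have hnp : ∀ c : 𝓞 F, g - c ^ p ∉ v.asIdeal := by
      intro c hc
      apply hnp₀ c
      have := v.asIdeal.sub_mem hc hgg₀
      have e : g - c ^ p - (g - g₀) = g₀ - c ^ p := by ring
      rwa [e] at this
    have hg0 : (g : F) ≠ 0 := by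
      intro h0
      apply hg
      have : g = 0 := by exact_mod_cast h0
      rw [this]
      exact v.asIdeal.zero_mem
    exact ⟨Units.mk0 (g : F) hg0, g, rfl, hg, hnp, hg1⟩
  choose gu g hgu hg hnp hg1 using hex
  set H : Subgroup Fˣ := (normHom F E).range ⊔ Adm p R with hH
  by_cases hfin : H.index = 0
  · exact Or.inl hfin
  right
  have hFI : H.FiniteIndex := ⟨hfin⟩
  have hfinq : Finite (Fˣ ⧸ H) := Subgroup.finite_quotient_of_finiteIndex
  -- the products
  let X : (R → Fin p) → Fˣ := fun a => ∏ u : R, gu u ^ (a u : ℕ)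
  -- `gu u` is admissible at the other primes
  have hadm : ∀ (v u : R), u ≠ v →
      gu u ∈ admAtSubgroup p (v : HeightOneSpectrum (𝓞 F)) := by
    intro v u huv
    apply mem_admAtSubgroup_of_sub_one
    have hmem : g u - 1 ∈ (v : HeightOneSpectrum (𝓞 F)).asIdeal :=
      hg1 u v v.2 (fun h => huv (Subtype.ext h).symm)
    have e : (gu u : F) - 1 = algebraMap (𝓞 F) F (g u - 1) := by
      rw [map_sub, map_one, hgu u]
    rw [e]
    exact ((v : HeightOneSpectrum (𝓞 F)).valuation_lt_one_iff_mem (K := F) _).mpr hmem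
  -- `X a` is `gu v ^ a v` times an admissible element
  have hX : ∀ (v : R) (a : R → Fin p),
      X a * (gu v ^ (a v : ℕ))⁻¹ ∈ admAtSubgroup p (v : HeightOneSpectrum (𝓞 F)) := by
    intro v a
    have e : X a = gu v ^ (a v : ℕ) * ∏ u ∈ Finset.univ.erase v, gu u ^ (a u : ℕ) :=
      (Finset.mul_prod_erase Finset.univ (fun u : R => gu u ^ (a u : ℕ))
        (Finset.mem_univ v)).symm
    have e2 : X a * (gu v ^ (a v : ℕ))⁻¹ = ∏ u ∈ Finset.univ.erase v, gu u ^ (a u : ℕ) := by
      rw [e, mul_comm, inv_mul_cancel_left]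
    rw [e2]
    refine Subgroup.prod_mem _ (fun u hu => Subgroup.pow_mem _ ?_ _)
    exact hadm v u (Finset.ne_of_mem_erase hu)
  -- every `X a` is a unit at every prime of `R`
  have hXval : ∀ (v : R) (a : R → Fin p),
      (v : HeightOneSpectrum (𝓞 F)).valuation F ((X a : Fˣ) : F) = 1 := by
    intro v a
    have h1 : (v : HeightOneSpectrum (𝓞 F)).valuation F ((gu v : Fˣ) : F) = 1 := by
      rw [hgu v]
      exact ((v : HeightOneSpectrum (𝓞 F)).valuation_eq_one_iff_notMem (K := F)).mpr (hg v)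
    have h2 : (v : HeightOneSpectrum (𝓞 F)).valuation F
        (((X a * (gu v ^ (a v : ℕ))⁻¹ : Fˣ)) : F) = 1 := (hX v a).1
    rw [Units.val_mul, map_mul, Units.val_inv_eq_inv_val, map_inv₀, Units.val_pow_eq_pow_val,
      map_pow, h1, one_pow, inv_one, mul_one] at h2
    exact h2
  -- injectivity
  have hinj : Function.Injective (fun a : R → Fin p => (QuotientGroup.mk (X a) : Fˣ ⧸ H)) := by
    intro a a' haa'
    have hmem : (X a)⁻¹ * X a' ∈ H := QuotientGroup.eq.mp haa'
    rw [hH, Subgroup.mem_sup] at hmem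
    obtain ⟨n, ⟨y, rfl⟩, z, hz, hnz⟩ := hmem
    funext v
    have hvR : (v : HeightOneSpectrum (𝓞 F)) ∈ R := v.2
    -- the norm is a unit at `v`
    have hzv := (hz (v : HeightOneSpectrum (𝓞 F)) hvR).1
    have hnv : (v : HeightOneSpectrum (𝓞 F)).valuation F ((normHom F E y : Fˣ) : F) = 1 := by
      have h3 := congrArg (fun t : Fˣ => (v : HeightOneSpectrum (𝓞 F)).valuation F (t : F)) hnz
      simp only [Units.val_mul, map_mul, Units.val_inv_eq_inv_val, map_inv₀, hzv, hXval v a,
        hXval v a', inv_one, mul_one] at h3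
      exact h3
    have hnadm : normHom F E y ∈ admAtSubgroup p (v : HeightOneSpectrum (𝓞 F)) :=
      admAt_norm_of_ramified hp hdeg _ (hram _ hvR) y hnv
    have hzadm : z ∈ admAtSubgroup p (v : HeightOneSpectrum (𝓞 F)) := hz _ hvR
    have hq : (X a)⁻¹ * X a' ∈ admAtSubgroup p (v : HeightOneSpectrum (𝓞 F)) := by
      rw [← hnz]
      exact Subgroup.mul_mem _ hnadm hzadm
    -- isolate the `v`-component
    have hk : gu v ^ (((a' v : ℕ) : ℤ) - ((a v : ℕ) : ℤ)) ∈
        admAtSubgroup p (v : HeightOneSpectrum (𝓞 F)) := by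
      have e : gu v ^ (((a' v : ℕ) : ℤ) - ((a v : ℕ) : ℤ))
          = ((X a)⁻¹ * X a') * (X a * (gu v ^ (a v : ℕ))⁻¹) * (X a' * (gu v ^ (a' v : ℕ))⁻¹)⁻¹ := by
        rw [zpow_sub, zpow_natCast, zpow_natCast]
        exact comm_aux _ _ _ _
      rw [e]
      exact Subgroup.mul_mem _ (Subgroup.mul_mem _ hq (hX v a)) (Subgroup.inv_mem _ (hX v a'))
    have hdvd := dvd_of_zpow_mem_admAtSubgroup (v : HeightOneSpectrum (𝓞 F)) hp (g v) (gu v)
      (hgu v) (hg v) (hnp v) _ hk
    have h0 : ((a' v : ℕ) : ℤ) - ((a v : ℕ) : ℤ) = 0 := by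
      apply Int.eq_zero_of_abs_lt_dvd hdvd
      have h1 := (a v).2
      have h2 := (a' v).2
      rw [abs_lt]
      constructor <;> omega
    apply Fin.ext
    omega
  calc p ^ R.card = Nat.card (R → Fin p) := by
        rw [Nat.card_eq_fintype_card, Fintype.card_fun, Fintype.card_fin, Fintype.card_coe]
    _ ≤ Nat.card (Fˣ ⧸ H) := Nat.card_le_card_of_injective _ hinj
    _ = H.index := rfl

end Main

end

end Fermat.Agent.S14.helper2400
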