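import Mathlib

/-!
# The Thaine relation in `ℚ(ζ_p)` (module (T) of the S14 Thaine route, finding #1247)

`K` a number field with `IsCyclotomicExtension {p} ℚ K`, `ζ : 𝓞 K` a primitive `p`-th root of
unity, `q` a prime with `q % p = 1`, `g : ℕ` a primitive root modulo `q`.

Main result `thaine_core`: there is `b : 𝓞 K`, `b ≠ 0`, such that
* for every nonzero prime `𝔯` of `𝓞 K` not containing `q`, `q - 1` divides the multiplicity of
  `𝔯` in `(b)`;
* for every prime `𝔯` of `𝓞 K` containing `q`, with `t` the multiplicity of `𝔯` in `(b)`,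
  `g ^ t ≡ ζ - 1` modulo `𝔯`.

Proof: `M = K(ζ_q)`; `δ = ζ - ζ_q` has relative norm `Φ_q(ζ) = 1`; Hilbert 90 gives `β` with
`τ β = τ δ * β` for the generator `τ : ζ_q ↦ ζ_q ^ g` of `Gal(M/K)`; `b` is the norm of `β`.
`M/K` is unramified outside `q` and totally ramified above `q`, and the congruence is read off
from the action of `τ` on the uniformizer `ζ_q - 1`.
-/

namespace Fermat.Agent.S14.helper246

open NumberField Polynomial

section cyclo

variable {p q : ℕ} [hp : Fact p.Prime] [hq : Fact q.Prime]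
variable (K : Type) [Field K] [NumberField K] [IsCyclotomicExtension {p} ℚ K]
variable (M : Type) [Field M] [NumberField M] [Algebra K M] [IsCyclotomicExtension {q} K M]

include K in
/-- `M = K(ζ_q)` is the `pq`-th cyclotomic field. -/
theorem isCyclotomicExtension_mul (hpq : p ≠ q) : IsCyclotomicExtension {p * q} ℚ M := by
  have h1 : IsCyclotomicExtension ({p} ∪ {q}) ℚ M :=
    IsCyclotomicExtension.trans {p} {q} ℚ K M (algebraMap K M).injective
  rw [IsCyclotomicExtension.iff_adjoin_eq_top] at h1 ⊢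
  obtain ⟨h1a, h1b⟩ := h1
  refine ⟨?_, ?_⟩
  · intro n hn hn0
    obtain rfl : n = p * q := hn
    obtain ⟨x, hx⟩ := h1a p (Or.inl rfl) hp.out.ne_zero
    obtain ⟨y, hy⟩ := h1a q (Or.inr rfl) hq.out.ne_zero
    refine ⟨x * y, ?_⟩
    have hcop : (orderOf x).Coprime (orderOf y) := by
      rw [← hx.eq_orderOf, ← hy.eq_orderOf]
      exact (Nat.coprime_primes hp.out hq.out).mpr hpq
    have := (Commute.all x y).orderOf_mul_eq_mul_orderOf_of_coprime hcop
    rw [← hx.eq_orderOf, ← hy.eq_orderOf] at this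
    rw [← this]
    exact IsPrimitiveRoot.orderOf (x * y)
  · rw [eq_top_iff, ← h1b]
    apply Algebra.adjoin_mono
    rintro b ⟨n, hn, hn0, hb⟩
    refine ⟨p * q, rfl, mul_ne_zero hp.out.ne_zero hq.out.ne_zero, ?_⟩
    rcases hn with rfl | rfl
    · rw [pow_mul, hb, one_pow]
    · rw [mul_comm, pow_mul, hb, one_pow]

include K in
theorem finrank_eq (hpq : p ≠ q) : Module.finrank K M = q - 1 := by
  have := isCyclotomicExtension_mul (p := p) (q := q) K M hpq
  have : NeZero (p * q) := ⟨mul_ne_zero hp.out.ne_zero hq.out.ne_zero⟩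
  have h1 : Module.finrank ℚ M = (p * q).totient := IsCyclotomicExtension.Rat.finrank (p * q) M
  have h2 : Module.finrank ℚ K = p.totient := IsCyclotomicExtension.Rat.finrank p K
  have h3 := Module.finrank_mul_finrank ℚ K M
  rw [h1, h2, Nat.totient_mul ((Nat.coprime_primes hp.out hq.out).mpr hpq),
    Nat.totient_prime hp.out, Nat.totient_prime hq.out] at h3
  exact Nat.eq_of_mul_eq_mul_left (Nat.sub_pos_of_lt hp.out.one_lt) h3

include M in
theorem irreducible_cyclotomic (hpq : p ≠ q) : Irreducible (cyclotomic q K) := by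
  have hfr := finrank_eq (p := p) (q := q) K M hpq
  have hζ := IsCyclotomicExtension.zeta_spec q K M
  have hdeg : (minpoly K (IsCyclotomicExtension.zeta q K M)).natDegree = q - 1 := by
    rw [← hfr, ← hζ.powerBasis_dim K, PowerBasis.finrank]
  have hint : IsIntegral K (IsCyclotomicExtension.zeta q K M) :=
    Algebra.IsIntegral.isIntegral _
  have hdvd : minpoly K (IsCyclotomicExtension.zeta q K M) ∣ cyclotomic q K := by
    apply minpoly.dvd
    have := IsCyclotomicExtension.aeval_zeta q K M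
    simpa using this
  have heq : cyclotomic q K = minpoly K (IsCyclotomicExtension.zeta q K M) := by
    refine Polynomial.eq_of_monic_of_dvd_of_natDegree_le (minpoly.monic hint)
      (cyclotomic.monic q K) hdvd ?_
    rw [hdeg, natDegree_cyclotomic, Nat.totient_prime hq.out]
  rw [heq]
  exact minpoly.irreducible hint

variable {M} in
include p in
theorem exists_generator (hpq : p ≠ q) {g : ℕ} (hg : orderOf (g : ZMod q) = q - 1) {ζq : M}
    (hζq : IsPrimitiveRoot ζq q) :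
    ∃ τ : Gal(M/K), (∀ x, x ∈ Subgroup.zpowers τ) ∧ τ ζq = ζq ^ g := by
  have : NeZero q := ⟨hq.out.ne_zero⟩
  have hfin : FiniteDimensional K M := IsCyclotomicExtension.finiteDimensional {q} K M
  have hgal : IsGalois K M := IsCyclotomicExtension.isGalois {q} K M
  have hcard : Nat.card Gal(M/K) = q - 1 := by
    rw [IsGalois.card_aut_eq_finrank, finrank_eq (p := p) K M hpq]
  have hinj : Function.Injective (hζq.autToPow K) := hζq.autToPow_injective K
  have hcard' : Nat.card (ZMod q)ˣ = q - 1 := by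
    rw [Nat.card_eq_fintype_card, ZMod.card_units_eq_totient, Nat.totient_prime hq.out]
  have hbij : Function.Bijective (hζq.autToPow K) :=
    (Nat.bijective_iff_injective_and_card _).mpr ⟨hinj, by rw [hcard, hcard']⟩
  have hq1 : 0 < q - 1 := Nat.sub_pos_of_lt hq.out.one_lt
  have hgu : IsUnit (g : ZMod q) := by
    refine IsUnit.of_pow_eq_one (n := q - 1) ?_ hq1.ne'
    rw [← hg]; exact pow_orderOf_eq_one _
  obtain ⟨u, hu⟩ := hgu
  obtain ⟨τ, hτ⟩ := hbij.2 u
  refine ⟨τ, ?_, ?_⟩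
  · have hord : orderOf τ = q - 1 := by
      rw [← orderOf_injective _ hinj τ, hτ, ← hg, ← hu, orderOf_units]
    have : Subgroup.zpowers τ = ⊤ := by
      apply Subgroup.eq_top_of_card_eq
      rw [Nat.card_zpowers, hord, hcard]
    intro x; rw [this]; trivial
  · have := hζq.autToPow_spec K τ
    rw [← this, hτ, hu, ZMod.val_natCast]
    exact (pow_eq_pow_mod g hζq.pow_eq_one).symm

omit [NumberField M] in
variable {M} in
theorem norm_sub_primitiveRoot (hirr : Irreducible (cyclotomic q K)) (a : K) {ζq : M}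
    (hζq : IsPrimitiveRoot ζq q) :
    Algebra.norm K (algebraMap K M a - ζq) = eval a (cyclotomic q K) := by
  have : NeZero q := ⟨hq.out.ne_zero⟩
  have := IsCyclotomicExtension.neZero' q K M
  let E := AlgebraicClosure M
  obtain ⟨z, hz⟩ := IsAlgClosed.exists_root _ (degree_cyclotomic_pos q E (NeZero.pos _)).ne.symm
  apply (algebraMap K E).injective
  let := IsCyclotomicExtension.finiteDimensional {q} K M
  let := IsCyclotomicExtension.isGalois {q} K M
  rw [Algebra.norm_eq_prod_embeddings]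
  have Hprod : (Finset.univ.prod fun σ : M →ₐ[K] E => σ (algebraMap K M a - ζq)) =
      eval (algebraMap K E a) (cyclotomic' q E) := by
    rw [cyclotomic', eval_prod, ← @Finset.prod_attach E E, ← Finset.univ_eq_attach]
    refine Fintype.prod_equiv (hζq.embeddingsEquivPrimitiveRoots E hirr) _ _ fun σ => ?_
    simp
  have : NeZero (q : E) := NeZero.of_faithfulSMul K _ q
  rw [Hprod, cyclotomic', ← cyclotomic_eq_prod_X_sub_primitiveRoots (isRoot_cyclotomic_iff.1 hz),
    ← map_cyclotomic q (algebraMap K E), eval_map_algebraMap, aeval_algebraMap_apply]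
  simp

end cyclo

section ram

variable {p q : ℕ} [hp : Fact p.Prime] [hq : Fact q.Prime]
variable (K : Type) [Field K] [NumberField K] [IsCyclotomicExtension {p} ℚ K]
variable (M : Type) [Field M] [NumberField M] [Algebra K M] [IsCyclotomicExtension {q} K M]

omit [NumberField M] in
variable {M} in
theorem liesOver_of_mem (ℓ : ℕ) [hℓ : Fact ℓ.Prime] (R : Ideal (𝓞 M)) [R.IsPrime]
    (h : (ℓ : 𝓞 M) ∈ R) : R.LiesOver (Ideal.span {(ℓ : ℤ)}) := by
  rw [Ideal.liesOver_iff]
  refine (Int.ideal_span_isMaximal_of_prime ℓ).eq_of_le ?_ ?_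
  · exact Ideal.IsPrime.ne_top (Ideal.IsPrime.under ℤ R)
  · rw [Ideal.span_singleton_le_iff_mem, Ideal.under_def, Ideal.mem_comap]
    simpa using h

variable {M} in
theorem ramificationIdx_of_mem (hpq : p ≠ q) (R : Ideal (𝓞 M)) [R.IsPrime]
    (hqR : (q : 𝓞 M) ∈ R) : R.ramificationIdx (𝓞 K) = q - 1 := by
  have hcyc := isCyclotomicExtension_mul (p := p) (q := q) K M hpq
  have hRq : R.LiesOver (Ideal.span {(q : ℤ)}) := liesOver_of_mem q R hqR
  have h𝔯q : (R.under (𝓞 K)).LiesOver (Ideal.span {(q : ℤ)}) :=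
    Ideal.LiesOver.tower_bot R (R.under (𝓞 K)) _
  have hqp : ¬ q ∣ p := fun h => hpq ((Nat.prime_dvd_prime_iff_eq hq.out hp.out).mp h).symm
  have h1 : R.ramificationIdx ℤ = q - 1 := by
    have := IsCyclotomicExtension.Rat.ramificationIdx_eq (p * q) M R (p := q) (k := 0) (m := p)
      (by ring) hqp
    simpa using this
  have : NeZero p := ⟨hp.out.ne_zero⟩
  have h2 : (R.under (𝓞 K)).ramificationIdx ℤ = 1 :=
    IsCyclotomicExtension.Rat.ramificationIdx_eq_of_not_dvd q K (R.under (𝓞 K)) (m := p) hqp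
  have h3 := Ideal.ramificationIdx_tower (R := ℤ) (R.under (𝓞 K)) R
  rw [h1, h2, one_mul] at h3
  exact h3.symm

variable {M} in
theorem ramificationIdx_of_not_mem (hpq : p ≠ q) (R : Ideal (𝓞 M)) [R.IsPrime] (hR : R ≠ ⊥)
    (hqR : (q : 𝓞 M) ∉ R) : R.ramificationIdx (𝓞 K) = 1 := by
  have hcyc := isCyclotomicExtension_mul (p := p) (q := q) K M hpq
  have : NeZero R := ⟨hR⟩
  have hℓ : Fact (Ideal.absNorm (Ideal.under ℤ R)).Prime := ⟨Nat.absNorm_under_prime R⟩
  set ℓ := Ideal.absNorm (Ideal.under ℤ R) with hℓdef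
  have hRℓ : R.LiesOver (Ideal.span {(ℓ : ℤ)}) := Int.liesOver_span_absNorm R
  have h𝔯ℓ : (R.under (𝓞 K)).LiesOver (Ideal.span {(ℓ : ℤ)}) :=
    Ideal.LiesOver.tower_bot R (R.under (𝓞 K)) _
  have hℓq : ℓ ≠ q := by
    rintro h
    apply hqR
    have : ((q : ℤ) : 𝓞 M) ∈ R := by
      rw [Int.cast_mem_ideal_iff, ← hℓdef, h]
    simpa using this
  have h3 := Ideal.ramificationIdx_tower (R := ℤ) (R.under (𝓞 K)) R
  by_cases hℓp : ℓ = p
  · have hpq' : ¬ ℓ ∣ q := fun h => hℓq ((Nat.prime_dvd_prime_iff_eq hℓ.out hq.out).mp h)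
    have h1 : R.ramificationIdx ℤ = ℓ - 1 := by
      have := IsCyclotomicExtension.Rat.ramificationIdx_eq (p * q) M R (p := ℓ) (k := 0) (m := q)
        (by rw [hℓp]; ring) hpq'
      simpa using this
    have hK' : IsCyclotomicExtension {ℓ} ℚ K := by rw [hℓp]; infer_instance
    have h2 : (R.under (𝓞 K)).ramificationIdx ℤ = ℓ - 1 :=
      IsCyclotomicExtension.Rat.ramificationIdx_eq_of_prime ℓ K (R.under (𝓞 K))
    rw [h1, h2] at h3
    have hpos : 0 < ℓ - 1 := Nat.sub_pos_of_lt hℓ.out.one_lt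
    exact (Nat.eq_of_mul_eq_mul_left hpos (by rw [mul_one]; exact h3)).symm
  · have hndvd : ¬ ℓ ∣ p * q := by
      intro h
      rcases (Nat.Prime.dvd_mul hℓ.out).mp h with h | h
      · exact hℓp ((Nat.prime_dvd_prime_iff_eq hℓ.out hp.out).mp h)
      · exact hℓq ((Nat.prime_dvd_prime_iff_eq hℓ.out hq.out).mp h)
    have : NeZero (p * q) := ⟨mul_ne_zero hp.out.ne_zero hq.out.ne_zero⟩
    have h1 : R.ramificationIdx ℤ = 1 :=
      IsCyclotomicExtension.Rat.ramificationIdx_eq_of_not_dvd ℓ M R (m := p * q) hndvd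
    rw [h1] at h3
    exact Nat.eq_one_of_mul_eq_one_left h3.symm

end ram

section tame

variable {B : Type*} [CommRing B] [IsDedekindDomain B]

theorem pow_notMem_pow_succ (R : Ideal B) [R.IsPrime] (hR : R ≠ ⊥) {lam : B} (hlam : lam ∈ R)
    (hlam2 : lam ∉ R ^ 2) (t : ℕ) : lam ^ t ∉ R ^ (t + 1) := by
  have hprime : Prime R := Ideal.prime_of_isPrime hR inferInstance
  have h1 : emultiplicity R (Ideal.span {lam}) = 1 := by
    rw [show (1 : ℕ∞) = ((1 : ℕ) : ℕ∞) from rfl, emultiplicity_eq_coe]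
    refine ⟨?_, ?_⟩
    · rw [pow_one, Ideal.dvd_iff_le, Ideal.span_singleton_le_iff_mem]; exact hlam
    · rw [Ideal.dvd_iff_le, Ideal.span_singleton_le_iff_mem]; exact hlam2
  have h2 : emultiplicity R (Ideal.span {lam ^ t}) = t := by
    rw [← Ideal.span_singleton_pow, emultiplicity_pow hprime, h1, mul_one]
  intro h
  have h3 : R ^ (t + 1) ∣ Ideal.span {lam ^ t} := by
    rw [Ideal.dvd_iff_le, Ideal.span_singleton_le_iff_mem]; exact h
  have h4 := le_emultiplicity_of_pow_dvd h3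
  rw [h2] at h4
  have : (t + 1 : ℕ) ≤ t := by exact_mod_cast h4
  omega

theorem tame_congr (R : Ideal B) [R.IsPrime] (hR : R ≠ ⊥) (f : B →+* B)
    (hf : ∀ x, f x - x ∈ R) {lam γ g β ε : B} (hlam : lam ∈ R) (hlam2 : lam ∉ R ^ 2)
    (hflam : f lam = lam * γ) (hγ : γ - g ∈ R) (hfβ : f β = ε * β) {t : ℕ}
    (hβt : β ∈ R ^ t) (hβt' : β ∉ R ^ (t + 1)) : g ^ t - ε ∈ R := by
  have ha : lam ^ t ∈ R ^ t := Ideal.pow_mem_pow hlam t
  have ha' : lam ^ t ∉ R ^ (t + 1) := pow_notMem_pow_succ R hR hlam hlam2 t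
  obtain ⟨d, e, he, hde⟩ := Ideal.exists_mul_add_mem_pow_succ hR (lam ^ t) β ha ha' hβt
  have hd : d ∉ R := by
    intro hd
    apply hβt'
    rw [← hde]
    refine Ideal.add_mem _ ?_ he
    rw [pow_succ]
    exact Ideal.mul_mem_mul ha hd
  have hmap : Ideal.map f R ≤ R := by
    rw [Ideal.map_le_iff_le_comap]
    intro x hx
    rw [Ideal.mem_comap]
    have := Ideal.add_mem _ (hf x) hx
    simpa using this
  have hfe : f e ∈ R ^ (t + 1) := by
    have h1 : f e ∈ Ideal.map f (R ^ (t + 1)) := Ideal.mem_map_of_mem f he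
    rw [Ideal.map_pow] at h1
    exact Ideal.pow_right_mono hmap (t + 1) h1
  have hεe : ε * e ∈ R ^ (t + 1) := Ideal.mul_mem_left _ _ he
  have key : lam ^ t * (γ ^ t * f d) + f e - (lam ^ t * (ε * d) + ε * e) ∈ R ^ (t + 1) := by
    have h0 : lam ^ t * (γ ^ t * f d) + f e - (lam ^ t * (ε * d) + ε * e) = 0 := by
      have h1 : f β = lam ^ t * (γ ^ t * f d) + f e := by
        rw [← hde, map_add, map_mul, map_pow, hflam]; ring
      have h2 : ε * β = lam ^ t * (ε * d) + ε * e := by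
        rw [← hde]; ring
      rw [← h1, ← h2, hfβ, sub_self]
    rw [h0]; exact Ideal.zero_mem _
  have h5 : γ ^ t * f d - ε * d ∈ R :=
    Ideal.mul_add_mem_pow_succ_unique hR (lam ^ t) _ _ (f e) (ε * e) ha' hfe hεe key
  have h6 : γ ^ t - g ^ t ∈ R := Ideal.mem_of_dvd _ (sub_dvd_pow_sub_pow γ g t) hγ
  have h7 : (g ^ t - ε) * d ∈ R := by
    have : (g ^ t - ε) * d = (γ ^ t * f d - ε * d) - γ ^ t * (f d - d) - (γ ^ t - g ^ t) * d := by
      ring
    rw [this]
    exact Ideal.sub_mem _ (Ideal.sub_mem _ h5 (Ideal.mul_mem_left _ _ (hf d)))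
      (Ideal.mul_mem_right _ _ h6)
  exact (Ideal.IsPrime.mem_or_mem inferInstance h7).resolve_right hd

end tame

section prelim

theorem associated_sub_one_pow_natCast {A : Type*} [CommRing A] [IsDomain A] {q : ℕ}
    [hq : Fact q.Prime] {ζ : A} (hζ : IsPrimitiveRoot ζ q) :
    Associated ((ζ - 1) ^ (q - 1)) (q : A) := by
  have : NeZero q := ⟨hq.out.ne_zero⟩
  rw [← eval_one_cyclotomic_prime (R := A) (p := q),
    cyclotomic_eq_prod_X_sub_primitiveRoots hζ, eval_prod]
  simp only [eval_sub, eval_X, eval_C]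
  rw [← Nat.totient_prime hq.out, ← hζ.card_primitiveRoots, ← Finset.prod_const]
  refine Associated.prod _ _ _ fun η hη ↦ ?_
  have hη' := isPrimitiveRoot_of_mem_primitiveRoots hη
  obtain ⟨j, hj, rfl⟩ := hζ.eq_pow_of_pow_eq_one hη'.pow_eq_one
  have hjcop : j.Coprime q := (hζ.pow_iff_coprime hq.out.pos j).mp hη'
  simpa using (hζ.associated_sub_one_pow_sub_one_of_coprime hjcop).neg_right

end prelim

section ram2

variable {p q : ℕ} [hp : Fact p.Prime] [hq : Fact q.Prime]
variable (K : Type) [Field K] [NumberField K] [IsCyclotomicExtension {p} ℚ K]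
variable (M : Type) [Field M] [NumberField M] [Algebra K M] [IsCyclotomicExtension {q} K M]

include K in
variable {M} in
theorem ramificationIdx_int_of_mem (hpq : p ≠ q) (R : Ideal (𝓞 M)) [R.IsPrime]
    (hqR : (q : 𝓞 M) ∈ R) : R.ramificationIdx ℤ = q - 1 := by
  have hcyc := isCyclotomicExtension_mul (p := p) (q := q) K M hpq
  have hRq : R.LiesOver (Ideal.span {(q : ℤ)}) := liesOver_of_mem q R hqR
  have hqp : ¬ q ∣ p := fun h => hpq ((Nat.prime_dvd_prime_iff_eq hq.out hp.out).mp h).symm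
  have := IsCyclotomicExtension.Rat.ramificationIdx_eq (p * q) M R (p := q) (k := 0) (m := p)
    (by ring) hqp
  simpa using this

include K in
variable {M} in
theorem multiplicity_natCast (hpq : p ≠ q) (R : Ideal (𝓞 M)) [R.IsPrime]
    (hqR : (q : 𝓞 M) ∈ R) : multiplicity R (Ideal.span {(q : 𝓞 M)}) = q - 1 := by
  have hRq : R.LiesOver (Ideal.span {(q : ℤ)}) := liesOver_of_mem q R hqR
  have hmap : (Ideal.span {(q : ℤ)}).map (algebraMap ℤ (𝓞 M)) = Ideal.span {(q : 𝓞 M)} := by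
    rw [Ideal.map_span, Set.image_singleton]; simp
  have hne : (Ideal.span {(q : ℤ)}).map (algebraMap ℤ (𝓞 M)) ≠ ⊥ := by
    rw [hmap, Ne, Ideal.span_singleton_eq_bot]
    exact_mod_cast hq.out.ne_zero
  have h := Ideal.IsDedekindDomain.ramificationIdx_eq_multiplicity (Ideal.span {(q : ℤ)}) R hne
  rw [hmap] at h
  rw [← h, ramificationIdx_int_of_mem (p := p) K hpq R hqR]

end ram2

section main

variable {p q : ℕ} [hp : Fact p.Prime] [hq : Fact q.Prime]
variable (K : Type) [Field K] [NumberField K] [IsCyclotomicExtension {p} ℚ K]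
variable (M : Type) [Field M] [NumberField M] [Algebra K M] [IsCyclotomicExtension {q} K M]

variable {M} in
theorem inertia_eq_top (hpq : p ≠ q) [IsGalois K M] (R : Ideal (𝓞 M)) [R.IsPrime]
    (hqR : (q : 𝓞 M) ∈ R) (τ : Gal(M/K)) (x : 𝓞 M) : τ • x - x ∈ R := by
  have hcard : Nat.card Gal(M/K) = q - 1 := by
    rw [IsGalois.card_aut_eq_finrank, finrank_eq (p := p) K M hpq]
  have h1 : Nat.card (R.inertia Gal(M/K)) = (R.under (𝓞 K)).ramificationIdxIn (𝓞 M) :=
    Ideal.card_inertia_eq_ramificationIdxIn (G := Gal(M/K)) (R.under (𝓞 K)) R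
  have h2 : (R.under (𝓞 K)).ramificationIdxIn (𝓞 M) = R.ramificationIdx (𝓞 K) :=
    Ideal.ramificationIdxIn_eq_ramificationIdx (R.under (𝓞 K)) R Gal(M/K)
  have h3 : R.inertia Gal(M/K) = ⊤ := by
    apply Subgroup.eq_top_of_card_eq
    rw [h1, h2, ramificationIdx_of_mem (p := p) K hpq R hqR, hcard]
  have : τ ∈ R.inertia Gal(M/K) := by rw [h3]; trivial
  exact this x

variable {M} in
/-- The congruence at a prime `R` of `M` above `q`. -/
theorem congr_at_prime (hpq : p ≠ q) [IsGalois K M] {g : ℕ} {τ : Gal(M/K)} {ζq : 𝓞 M}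
    (hζq : IsPrimitiveRoot ζq q) (hτζ : τ • ζq = ζq ^ g) (R : Ideal (𝓞 M)) [R.IsPrime]
    (hqR : (q : 𝓞 M) ∈ R) {β ε : 𝓞 M} (hβ0 : β ≠ 0) (hτβ : τ • β = ε * β) :
    (g : 𝓞 M) ^ multiplicity R (Ideal.span {β}) - ε ∈ R := by
  have hq0 : (q : 𝓞 M) ≠ 0 := by exact_mod_cast hq.out.ne_zero
  have hR : R ≠ ⊥ := by
    rintro rfl
    exact hq0 (by simpa using hqR)
  have hprime : Prime R := Ideal.prime_of_isPrime hR inferInstance
  have hassoc := associated_sub_one_pow_natCast hζq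
  have hspan : Ideal.span {(q : 𝓞 M)} = Ideal.span {ζq - 1} ^ (q - 1) := by
    rw [Ideal.span_singleton_pow]
    exact (Ideal.span_singleton_eq_span_singleton.mpr hassoc).symm
  have hlam : ζq - 1 ∈ R := by
    have : (ζq - 1) ^ (q - 1) ∈ R := by
      rw [← Ideal.span_singleton_le_iff_mem, ← Ideal.span_singleton_pow, ← hspan,
        Ideal.span_singleton_le_iff_mem]
      exact hqR
    exact Ideal.IsPrime.mem_of_pow_mem inferInstance _ this
  have hq1 : 0 < q - 1 := Nat.sub_pos_of_lt hq.out.one_lt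
  have hlam2 : ζq - 1 ∉ R ^ 2 := by
    intro h
    have h1 : R ^ 2 ∣ Ideal.span {ζq - 1} := by
      rw [Ideal.dvd_iff_le, Ideal.span_singleton_le_iff_mem]; exact h
    have h2 : R ^ (2 * (q - 1)) ∣ Ideal.span {(q : 𝓞 M)} := by
      rw [hspan, pow_mul]
      exact pow_dvd_pow_of_dvd h1 _
    have hfin : FiniteMultiplicity R (Ideal.span {(q : 𝓞 M)}) :=
      FiniteMultiplicity.of_prime_left hprime (by simpa using hq0)
    have h3 := hfin.le_multiplicity_of_pow_dvd h2
    rw [multiplicity_natCast (p := p) K hpq R hqR] at h3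
    omega
  have hfin : FiniteMultiplicity R (Ideal.span {β}) :=
    FiniteMultiplicity.of_prime_left hprime (by simpa using hβ0)
  have hβt : β ∈ R ^ multiplicity R (Ideal.span {β}) := by
    have := pow_multiplicity_dvd R (Ideal.span {β})
    rwa [Ideal.dvd_iff_le, Ideal.span_singleton_le_iff_mem] at this
  have hβt' : β ∉ R ^ (multiplicity R (Ideal.span {β}) + 1) := by
    intro h
    have h1 : R ^ (multiplicity R (Ideal.span {β}) + 1) ∣ Ideal.span {β} := by
      rw [Ideal.dvd_iff_le, Ideal.span_singleton_le_iff_mem]; exact h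
    exact hfin.not_pow_dvd_of_multiplicity_lt (Nat.lt_succ_self _) h1
  have hflam : MulSemiringAction.toRingHom Gal(M/K) (𝓞 M) τ (ζq - 1) =
      (ζq - 1) * ∑ i ∈ Finset.range g, ζq ^ i := by
    rw [mul_geom_sum, MulSemiringAction.toRingHom_apply, smul_sub, smul_one, hτζ]
  have hγ : (∑ i ∈ Finset.range g, ζq ^ i) - (g : 𝓞 M) ∈ R := by
    have : (∑ i ∈ Finset.range g, ζq ^ i) - (g : 𝓞 M) = ∑ i ∈ Finset.range g, (ζq ^ i - 1) := by
      rw [Finset.sum_sub_distrib]; simp
    rw [this]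
    refine Ideal.sum_mem _ fun i _ => ?_
    have : ζq - 1 ∣ ζq ^ i - 1 := by simpa using sub_dvd_pow_sub_pow ζq 1 i
    exact Ideal.mem_of_dvd _ this hlam
  exact tame_congr R hR (MulSemiringAction.toRingHom Gal(M/K) (𝓞 M) τ)
    (fun x => inertia_eq_top (p := p) K hpq R hqR τ x) hlam hlam2 hflam hγ hτβ hβt hβt'

end main

section final

variable {p q : ℕ} [hp : Fact p.Prime] [hq : Fact q.Prime]
variable {K : Type} [Field K] [NumberField K] [IsCyclotomicExtension {p} ℚ K]

omit [NumberField K] [IsCyclotomicExtension {p} ℚ K] in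
theorem eval_cyclotomic_eq_one (hqp : q % p = 1) {ζ : K} (hζ : IsPrimitiveRoot ζ p) :
    eval ζ (cyclotomic q K) = 1 := by
  have h1 : ζ ≠ 1 := hζ.ne_one hp.out.one_lt
  have h2 : ζ ^ q = ζ := by
    conv_lhs => rw [← Nat.div_add_mod q p, hqp, pow_add, pow_mul, hζ.pow_eq_one, one_pow,
      one_mul, pow_one]
  have h3 := congrArg (eval ζ) (cyclotomic_prime_mul_X_sub_one K q)
  simp only [eval_mul, eval_sub, eval_X, eval_one, eval_pow] at h3
  rw [h2] at h3
  exact mul_right_cancel₀ (sub_ne_zero.mpr h1) (by rw [h3, one_mul])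

omit [IsCyclotomicExtension {p} ℚ K] in
theorem zeta_sub_one_mem {M : Type} [Field M] [NumberField M] {ζq : 𝓞 M}
    (hζq : IsPrimitiveRoot ζq q) (R : Ideal (𝓞 M)) [R.IsPrime] (hqR : (q : 𝓞 M) ∈ R) :
    ζq - 1 ∈ R := by
  have hassoc := associated_sub_one_pow_natCast hζq
  have : (ζq - 1) ^ (q - 1) ∈ R := by
    rw [← Ideal.span_singleton_le_iff_mem, Ideal.span_singleton_eq_span_singleton.mpr hassoc,
      Ideal.span_singleton_le_iff_mem]
    exact hqR
  exact Ideal.IsPrime.mem_of_pow_mem inferInstance _ this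

/-- **Thaine relation**, valuation form. -/
theorem thaine_core (hqp : q % p = 1) {g : ℕ} (hg : orderOf (g : ZMod q) = q - 1) {ζ : 𝓞 K}
    (hζ : IsPrimitiveRoot ζ p) :
    ∃ b : 𝓞 K, b ≠ 0 ∧
      (∀ 𝔯 : Ideal (𝓞 K), 𝔯.IsPrime → 𝔯 ≠ ⊥ → (q : 𝓞 K) ∉ 𝔯 →
        (q - 1) ∣ multiplicity 𝔯 (Ideal.span {b})) ∧
      (∀ 𝔯 : Ideal (𝓞 K), 𝔯.IsPrime → (q : 𝓞 K) ∈ 𝔯 →
        (g : 𝓞 K) ^ multiplicity 𝔯 (Ideal.span {b}) - (ζ - 1) ∈ 𝔯) := by
  classical
  have hpq : p ≠ q := by
    rintro rfl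
    rw [Nat.mod_self] at hqp; exact zero_ne_one hqp
  have : NeZero q := ⟨hq.out.ne_zero⟩
  have hq1 : 0 < q - 1 := Nat.sub_pos_of_lt hq.out.one_lt
  let M := CyclotomicField q K
  have hfin : FiniteDimensional K M := IsCyclotomicExtension.finiteDimensional {q} K M
  have hgal : IsGalois K M := IsCyclotomicExtension.isGalois {q} K M
  have hirr : Irreducible (cyclotomic q K) := irreducible_cyclotomic (p := p) K M hpq
  have hζq := IsCyclotomicExtension.zeta_spec q K M
  obtain ⟨τ, hτgen, hτζ⟩ := exists_generator (p := p) K hpq hg hζq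
  have hcyc : IsCyclic Gal(M/K) := ⟨τ, hτgen⟩
  have hcard : Nat.card Gal(M/K) = q - 1 := by
    rw [IsGalois.card_aut_eq_finrank, finrank_eq (p := p) K M hpq]
  -- integral versions
  have hζqO : IsPrimitiveRoot hζq.toInteger q := hζq.toInteger_isPrimitiveRoot
  have hτζO : τ • hζq.toInteger = hζq.toInteger ^ g := by
    apply RingOfIntegers.ext
    change τ (IsCyclotomicExtension.zeta q K M) = algebraMap (𝓞 M) M (hζq.toInteger ^ g)
    rw [map_pow, hτζ]; rfl
  set ζqO : 𝓞 M := hζq.toInteger with hζqOdef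
  let δ : 𝓞 M := algebraMap (𝓞 K) (𝓞 M) ζ - ζqO
  have hζK : IsPrimitiveRoot (ζ : K) p := hζ.map_of_injective RingOfIntegers.coe_injective
  have hnorm : Algebra.norm K (algebraMap (𝓞 M) M δ) = 1 := by
    have h1 : algebraMap (𝓞 M) M δ = algebraMap K M (ζ : K) - IsCyclotomicExtension.zeta q K M := by
      simp only [δ, map_sub]
      congr 1
    rw [h1, norm_sub_primitiveRoot K hirr (ζ : K) hζq, eval_cyclotomic_eq_one hqp hζK]
  have hτinv : ∀ x, x ∈ Subgroup.zpowers τ⁻¹ := by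
    intro x; rw [Subgroup.zpowers_inv]; exact hτgen x
  obtain ⟨β, hβ0, hβ⟩ := groupCohomology.exists_mul_galRestrict_of_norm_eq_one
    (A := 𝓞 K) (B := 𝓞 M) hτinv hnorm
  have hτβ : τ • β = (τ • δ) * β := by
    have h1 : galRestrict (𝓞 K) K M (𝓞 M) τ⁻¹ β = τ⁻¹ • β := by
      apply RingOfIntegers.ext
      rw [RingOfIntegers.coe_eq_algebraMap, algebraMap_galRestrict_apply]
      rfl
    rw [h1] at hβ
    calc τ • β = τ • (δ * τ⁻¹ • β) := by rw [hβ]
      _ = (τ • δ) * β := by rw [smul_mul', smul_inv_smul]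
  -- all conjugates of `β` are associated to `β`
  have hpow : ∀ k : ℕ, β ∣ τ ^ k • β := by
    intro k
    induction k with
    | zero => simp
    | succ k ih =>
      rw [pow_succ, mul_smul, hτβ, smul_mul']
      exact dvd_mul_of_dvd_right ih _
  have hdvd : ∀ σ : Gal(M/K), β ∣ σ • β := by
    intro σ
    have h1 : σ ∈ Submonoid.powers τ := mem_powers_iff_mem_zpowers.mpr (hτgen σ)
    obtain ⟨k, rfl⟩ := h1
    exact hpow k
  have hspanσ : ∀ σ : Gal(M/K), Ideal.span {σ • β} = Ideal.span {β} := by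
    intro σ
    refine Ideal.span_singleton_eq_span_singleton.mpr (associated_of_dvd_dvd ?_ (hdvd σ))
    obtain ⟨c, hc⟩ := hdvd σ⁻¹
    exact ⟨σ • c, by rw [← smul_mul', ← hc, smul_inv_smul]⟩
  have hb'inv : ∀ σ : Gal(M/K), σ • (∏ ρ : Gal(M/K), ρ • β) = ∏ ρ : Gal(M/K), ρ • β := by
    intro σ
    rw [Finset.smul_prod']
    exact Fintype.prod_equiv (Equiv.mulLeft σ) _ _ (fun ρ => by simp [mul_smul])
  obtain ⟨b, hb⟩ := Algebra.IsInvariant.isInvariant (A := 𝓞 K) (G := Gal(M/K))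
    (∏ ρ : Gal(M/K), ρ • β) hb'inv
  have hb'0 : (∏ ρ : Gal(M/K), ρ • β) ≠ 0 := by
    rw [Finset.prod_ne_zero_iff]
    intro ρ _
    exact (smul_eq_zero_iff_eq ρ).not.mpr hβ0
  have hb0 : b ≠ 0 := by
    rintro rfl
    rw [map_zero] at hb
    exact hb'0 hb.symm
  have hspanb : Ideal.span {algebraMap (𝓞 K) (𝓞 M) b} = Ideal.span {β} ^ (q - 1) := by
    rw [hb, ← Ideal.prod_span_singleton]
    simp only [hspanσ, Finset.prod_const, Finset.card_univ]
    rw [← Nat.card_eq_fintype_card, hcard]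
  have hβspan : Ideal.span {β} ≠ ⊥ := by simpa using hβ0
  have hbspan : Ideal.span {b} ≠ ⊥ := by simpa using hb0
  -- the key multiplicity relation
  have key : ∀ (R : Ideal (𝓞 M)) [R.IsPrime], R ≠ ⊥ →
      R.ramificationIdx (𝓞 K) * multiplicity (R.under (𝓞 K)) (Ideal.span {b}) =
        (q - 1) * multiplicity R (Ideal.span {β}) := by
    intro R _ hR0
    have hr0 : R.under (𝓞 K) ≠ ⊥ := fun h => hR0 (Ideal.eq_bot_of_comap_eq_bot h)
    have hRprime : Prime R := Ideal.prime_of_isPrime hR0 inferInstance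
    have hrprime : Prime (R.under (𝓞 K)) := Ideal.prime_of_isPrime hr0 inferInstance
    have h1 := Ideal.IsDedekindDomain.emultiplicity_map_eq_ramificationIdx'_mul
      (v := R.under (𝓞 K)) (w := R) (I := Ideal.span {b}) hbspan hrprime.irreducible
      hRprime.irreducible hR0
    rw [Ideal.map_span, Set.image_singleton, hspanb, emultiplicity_pow hRprime,
      Ideal.ramificationIdx'_eq_ramificationIdx (R.under (𝓞 K)) R hr0,
      (FiniteMultiplicity.of_prime_left hRprime hβspan).emultiplicity_eq_multiplicity,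
      (FiniteMultiplicity.of_prime_left hrprime hbspan).emultiplicity_eq_multiplicity] at h1
    exact_mod_cast h1.symm
  refine ⟨b, hb0, ?_, ?_⟩
  · intro 𝔯 h𝔯 h𝔯0 hq𝔯
    obtain ⟨⟨R, hRprime, hRover⟩⟩ := 𝔯.nonempty_primesOver (S := 𝓞 M)
    have hR0 : R ≠ ⊥ := Ideal.ne_bot_of_liesOver_of_ne_bot h𝔯0 R
    have h𝔯eq : R.under (𝓞 K) = 𝔯 := (Ideal.over_def R 𝔯).symm
    have hqR : (q : 𝓞 M) ∉ R := by
      intro h
      apply hq𝔯
      rw [← h𝔯eq, Ideal.under_def, Ideal.mem_comap]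
      simpa using h
    have h2 := key R hR0
    rw [ramificationIdx_of_not_mem (p := p) K hpq R hR0 hqR, one_mul, h𝔯eq] at h2
    exact ⟨_, h2⟩
  · intro 𝔯 h𝔯 hq𝔯
    have h𝔯0 : 𝔯 ≠ ⊥ := by
      rintro rfl
      have : (q : 𝓞 K) = 0 := by simpa using hq𝔯
      exact hq.out.ne_zero (by exact_mod_cast this)
    obtain ⟨⟨R, hRprime, hRover⟩⟩ := 𝔯.nonempty_primesOver (S := 𝓞 M)
    have hR0 : R ≠ ⊥ := Ideal.ne_bot_of_liesOver_of_ne_bot h𝔯0 R
    have h𝔯eq : R.under (𝓞 K) = 𝔯 := (Ideal.over_def R 𝔯).symm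
    have hqR : (q : 𝓞 M) ∈ R := by
      have : (q : 𝓞 K) ∈ R.under (𝓞 K) := by rw [h𝔯eq]; exact hq𝔯
      rw [Ideal.under_def, Ideal.mem_comap] at this
      simpa using this
    have h2 := key R hR0
    rw [ramificationIdx_of_mem (p := p) K hpq R hqR, h𝔯eq] at h2
    have ht : multiplicity 𝔯 (Ideal.span {b}) = multiplicity R (Ideal.span {β}) :=
      Nat.eq_of_mul_eq_mul_left hq1 h2
    have hc := congr_at_prime (p := p) K hpq hζqO hτζO R hqR hβ0 hτβ
    have hlam : ζqO - 1 ∈ R := zeta_sub_one_mem hζqO R hqR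
    have hlam' : ζqO ^ g - 1 ∈ R := by
      have : ζqO - 1 ∣ ζqO ^ g - 1 := by simpa using sub_dvd_pow_sub_pow ζqO 1 g
      exact Ideal.mem_of_dvd _ this hlam
    rw [ht, ← h𝔯eq, Ideal.under_def, Ideal.mem_comap]
    have hτδ : τ • δ = algebraMap (𝓞 K) (𝓞 M) ζ - ζqO ^ g := by
      simp only [δ, smul_sub, hτζO, smul_algebraMap]
    have : algebraMap (𝓞 K) (𝓞 M) ((g : 𝓞 K) ^ multiplicity R (Ideal.span {β}) - (ζ - 1)) =
        ((g : 𝓞 M) ^ multiplicity R (Ideal.span {β}) - τ • δ) - (ζqO ^ g - 1) := by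
      rw [hτδ]
      simp only [map_sub, map_pow, map_natCast, map_one]
      ring
    rw [this]
    exact Ideal.sub_mem _ hc hlam'

end final

end Fermat.Agent.S14.helper246
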