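import Mathlib
import Fermat.Agent.S14.helper1934_ThaineSpec

/-!
# S14, Thaine route: the consumer `(T')` of Thaine's relation

`Stmt_ThaineRel p` is a neutral form of Thaine's relation (package T).  This file proves
`helper1934.Stmt_ThaineChar p` from it.
-/

set_option autoImplicit false

namespace Fermat.Agent.S14.helper5852

open NumberField IsDedekindDomain Fermat.Agent.S14.helper1934

open scoped nonZeroDivisors

/-- **Thaine's relation, neutral ideal form.**  For a prime `q ≡ 1 mod p` there are an integer `g`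
and a nonzero `b ∈ 𝓞 K` with `(b) = ∏_{𝔯 ∣ q} 𝔯^(t 𝔯) · J^p` and `g^(t 𝔯) ≡ ζ - 1 mod 𝔯` for every
prime `𝔯` above `q`. -/
def Stmt_ThaineRel (p : ℕ) [Fact p.Prime] : Prop :=
  ∀ (K : Type) [Field K] [NumberField K] [IsCyclotomicExtension {p} ℚ K] (ζ : 𝓞 K),
    IsPrimitiveRoot ζ p → ∀ q : ℕ, q.Prime → p ∣ q - 1 →
    ∃ (g : ℤ) (b : 𝓞 K) (t : Ideal (𝓞 K) → ℕ) (J : Ideal (𝓞 K)) (S : Finset (Ideal (𝓞 K))),
      b ≠ 0 ∧ (∀ 𝔯 : Ideal (𝓞 K), 𝔯 ∈ S ↔ 𝔯.IsPrime ∧ (q : 𝓞 K) ∈ 𝔯) ∧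
      Ideal.span {b} = (∏ 𝔯 ∈ S, 𝔯 ^ t 𝔯) * J ^ p ∧
      ∀ 𝔯 ∈ S, (g : 𝓞 K) ^ t 𝔯 - (ζ - 1) ∈ 𝔯

section Galois

variable (p : ℕ) [Fact p.Prime] (K : Type) [Field K] [NumberField K]
  [IsCyclotomicExtension {p} ℚ K]

/-- The ring automorphism of `𝓞 K` attached to `a : (ZMod p)ˣ`. -/
noncomputable def sig (a : (ZMod p)ˣ) : 𝓞 K ≃+* 𝓞 K :=
  JacobiSumStickelberger.clRingAction p K a

variable {p K}

theorem aut_apply_primitiveRoot (τ : K ≃ₐ[ℚ] K) {μ : K} (hμ : IsPrimitiveRoot μ p) :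
    τ μ = μ ^ ((JacobiSumStickelberger.cycloGalEquiv p K τ : (ZMod p)ˣ) : ZMod p).val := by
  have hz := IsCyclotomicExtension.zeta_spec p ℚ K
  obtain ⟨j, -, rfl⟩ := hz.eq_pow_of_pow_eq_one hμ.pow_eq_one
  have h1 := hz.autToPow_spec ℚ τ
  have h2 : JacobiSumStickelberger.cycloGalEquiv p K τ = hz.autToPow ℚ τ := rfl
  rw [h2, map_pow, ← h1, ← pow_mul, ← pow_mul, mul_comm]

theorem sig_apply_zeta (a : (ZMod p)ˣ) {ζ : 𝓞 K} (hζ : IsPrimitiveRoot ζ p) :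
    sig p K a ζ = ζ ^ (a : ZMod p).val := by
  apply FaithfulSMul.algebraMap_injective (𝓞 K) K
  have hμ : IsPrimitiveRoot (algebraMap (𝓞 K) K ζ) p :=
    hζ.map_of_injective (FaithfulSMul.algebraMap_injective (𝓞 K) K)
  have h := aut_apply_primitiveRoot ((JacobiSumStickelberger.cycloGalEquiv p K).symm a) hμ
  rw [MulEquiv.apply_symm_apply] at h
  rw [map_pow, ← h]
  exact algebraMap_galRestrict_apply ℤ ((JacobiSumStickelberger.cycloGalEquiv p K).symm a) ζ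

end Galois

section Residue

variable {p : ℕ} [Fact p.Prime] {K : Type} [Field K] [NumberField K]

omit [NumberField K] in
theorem natCast_mem_of_sub_one_mem {η : 𝓞 K} (hη : IsPrimitiveRoot η p) {v : Ideal (𝓞 K)}
    (h : η - 1 ∈ v) : (p : 𝓞 K) ∈ v := by
  have hs := hη.geom_sum_eq_zero (Fact.out : p.Prime).one_lt
  have h1 : Ideal.Quotient.mk v η = 1 := by
    rw [← map_one (Ideal.Quotient.mk v)]
    exact Ideal.Quotient.eq.mpr h
  have h2 := congrArg (Ideal.Quotient.mk v) hs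
  rw [map_sum] at h2
  simp only [map_pow, h1, one_pow, Finset.sum_const, Finset.card_range, nsmul_eq_mul, mul_one,
    map_zero] at h2
  rw [← map_natCast (Ideal.Quotient.mk v)] at h2
  exact Ideal.Quotient.eq_zero_iff_mem.mp h2

omit [NumberField K] in
theorem isPrimitiveRoot_mk {ζ : 𝓞 K} (hζ : IsPrimitiveRoot ζ p) {v : Ideal (𝓞 K)}
    (hpv : (p : 𝓞 K) ∉ v) : IsPrimitiveRoot (Ideal.Quotient.mk v ζ) p := by
  have h1 : Ideal.Quotient.mk v ζ ^ p = 1 := by rw [← map_pow, hζ.pow_eq_one, map_one]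
  have h2 : Ideal.Quotient.mk v ζ ≠ 1 := by
    intro h
    apply hpv
    apply natCast_mem_of_sub_one_mem hζ
    rw [← Ideal.Quotient.eq_zero_iff_mem, map_sub, h, map_one, sub_self]
  have h3 : orderOf (Ideal.Quotient.mk v ζ) = p := orderOf_eq_prime h1 h2
  have := IsPrimitiveRoot.orderOf (Ideal.Quotient.mk v ζ)
  rwa [h3] at this

theorem exists_int_sub_mem {v : Ideal (𝓞 K)} (hv : (Ideal.absNorm v).Prime) (x : 𝓞 K) :
    ∃ n : ℤ, x - (n : 𝓞 K) ∈ v := by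
  have : Fact (Ideal.absNorm v).Prime := ⟨hv⟩
  have hcard : Nat.card (𝓞 K ⧸ v) = Ideal.absNorm v := by
    rw [Ideal.absNorm_apply, Submodule.cardQuot_apply]
  have hne : (1 : 𝓞 K ⧸ v) ≠ 0 := by
    intro h
    have h1 : (1 : 𝓞 K) ∈ v := by
      rw [← Ideal.Quotient.eq_zero_iff_mem, map_one]; exact h
    have h2 : v = ⊤ := (Ideal.eq_top_iff_one v).mpr h1
    rw [h2, Ideal.absNorm_top] at hv
    exact Nat.not_prime_one hv
  have hmem := mem_zmultiples_of_prime_card hcard hne (g' := Ideal.Quotient.mk v x)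
  obtain ⟨n, hn⟩ := AddSubgroup.mem_zmultiples_iff.mp hmem
  refine ⟨n, ?_⟩
  rw [← Ideal.Quotient.eq_zero_iff_mem, map_sub, map_intCast, ← hn]
  simp

theorem equiv_sub_mem {v : Ideal (𝓞 K)} (hv : (Ideal.absNorm v).Prime) (ρ : 𝓞 K ≃+* 𝓞 K)
    (hρ : v.map (ρ : 𝓞 K →+* 𝓞 K) = v) (x : 𝓞 K) : ρ x - x ∈ v := by
  obtain ⟨n, hn⟩ := exists_int_sub_mem hv x
  have h1 : ρ (x - n) ∈ v := by
    have := Ideal.mem_map_of_mem (ρ : 𝓞 K →+* 𝓞 K) hn
    rwa [hρ] at this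
  have h2 : ρ x - x = ρ (x - n) - (x - n) := by rw [map_sub, map_intCast]; ring
  rw [h2]
  exact v.sub_mem h1 hn

theorem dvd_absNorm_sub_one {ζ : 𝓞 K} (hζ : IsPrimitiveRoot ζ p) {v : Ideal (𝓞 K)}
    [v.IsMaximal] (hv : (Ideal.absNorm v).Prime) (hpv : (p : 𝓞 K) ∉ v) :
    p ∣ Ideal.absNorm v - 1 := by
  let _ := Ideal.Quotient.field v
  have hcard : Nat.card (𝓞 K ⧸ v) = Ideal.absNorm v := by
    rw [Ideal.absNorm_apply, Submodule.cardQuot_apply]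
  have : Finite (𝓞 K ⧸ v) := Nat.finite_of_card_ne_zero (hcard ▸ hv.ne_zero)
  have hz := isPrimitiveRoot_mk hζ hpv
  obtain ⟨u, hu⟩ := hz.isUnit (Fact.out : p.Prime).ne_zero
  have h1 : orderOf u = p := by rw [← orderOf_units, hu, ← hz.eq_orderOf]
  have h2 := orderOf_dvd_natCard u
  rwa [h1, Nat.card_units, hcard] at h2

end Residue

section Orbit

variable {p : ℕ} [Fact p.Prime] {K : Type} [Field K] [NumberField K]
  [IsCyclotomicExtension {p} ℚ K]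

theorem sig_injective_on_prime {ζ : 𝓞 K} (hζ : IsPrimitiveRoot ζ p) {v : Ideal (𝓞 K)}
    (hv : (Ideal.absNorm v).Prime) (hpv : (p : 𝓞 K) ∉ v) {a b : (ZMod p)ˣ}
    (h : v.map (sig p K a : 𝓞 K →+* 𝓞 K) = v.map (sig p K b : 𝓞 K →+* 𝓞 K)) : a = b := by
  set ρ : 𝓞 K ≃+* 𝓞 K := (sig p K a).trans (sig p K b).symm with hρdef
  have hρ : v.map (ρ : 𝓞 K →+* 𝓞 K) = v := by
    have : (ρ : 𝓞 K →+* 𝓞 K) =
        ((sig p K b).symm : 𝓞 K →+* 𝓞 K).comp (sig p K a : 𝓞 K →+* 𝓞 K) := rfl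
    rw [this, ← Ideal.map_map, h, Ideal.map_of_equiv]
  have h1 := equiv_sub_mem hv ρ hρ (ζ ^ (b : ZMod p).val)
  have h2 : ρ (ζ ^ (b : ZMod p).val) = ζ ^ (a : ZMod p).val := by
    show (sig p K b).symm (sig p K a (ζ ^ (b : ZMod p).val)) = _
    rw [RingEquiv.symm_apply_eq, map_pow, map_pow, sig_apply_zeta a hζ, sig_apply_zeta b hζ,
      ← pow_mul, ← pow_mul, mul_comm]
  rw [h2] at h1
  have h3 : Ideal.Quotient.mk v ζ ^ (a : ZMod p).val = Ideal.Quotient.mk v ζ ^ (b : ZMod p).val := by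
    rw [← map_pow, ← map_pow]; exact Ideal.Quotient.eq.mpr h1
  have h4 := (isPrimitiveRoot_mk hζ hpv).pow_inj (ZMod.val_lt _) (ZMod.val_lt _) h3
  exact Units.ext (ZMod.val_injective p h4)

theorem exists_sig_map_eq {v 𝔯 : Ideal (𝓞 K)} [v.IsPrime] [𝔯.IsPrime] {q : ℕ} (hq : q.Prime)
    (hv : (q : 𝓞 K) ∈ v) (h𝔯 : (q : 𝓞 K) ∈ 𝔯) :
    ∃ a : (ZMod p)ˣ, 𝔯 = v.map (sig p K a : 𝓞 K →+* 𝓞 K) := by
  have hq' : Prime (q : ℤ) := Nat.prime_iff_prime_int.mp hq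
  have h1 : v ∈ (Ideal.span {(q : ℤ)}).primesOver (𝓞 K) :=
    ⟨inferInstance, (Ideal.liesOver_span_iff Ideal.IsPrime.ne_top' hq').mpr (by simpa using hv)⟩
  have h2 : 𝔯 ∈ (Ideal.span {(q : ℤ)}).primesOver (𝓞 K) :=
    ⟨inferInstance, (Ideal.liesOver_span_iff Ideal.IsPrime.ne_top' hq').mpr (by simpa using h𝔯)⟩
  have : IsGalois ℚ K := IsCyclotomicExtension.isGalois {p} ℚ K
  obtain ⟨σ, hσ⟩ := Ideal.exists_comap_galRestrict_eq ℤ ℚ K (𝓞 K) h1 h2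
  refine ⟨JacobiSumStickelberger.cycloGalEquiv p K σ⁻¹, ?_⟩
  rw [← hσ]
  ext x
  rw [Ideal.mem_comap]
  change _ ↔ x ∈ Ideal.map (sig p K (JacobiSumStickelberger.cycloGalEquiv p K σ⁻¹)) v
  rw [← Ideal.symm_apply_mem_of_equiv_iff]
  have : (sig p K (JacobiSumStickelberger.cycloGalEquiv p K σ⁻¹)).symm x =
      galRestrict ℤ ℚ K (𝓞 K) σ x := by
    rw [RingEquiv.symm_apply_eq]
    show x = galRestrict ℤ ℚ K (𝓞 K)
      ((JacobiSumStickelberger.cycloGalEquiv p K).symm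
        (JacobiSumStickelberger.cycloGalEquiv p K σ⁻¹)) (galRestrict ℤ ℚ K (𝓞 K) σ x)
    rw [MulEquiv.symm_apply_apply, map_inv]
    exact ((galRestrict ℤ ℚ K (𝓞 K) σ).symm_apply_apply x).symm
  rw [this]

end Orbit

section ClassChar

variable {p : ℕ} [Fact p.Prime] {K : Type} [Field K] [NumberField K]

/-- A nonzero ideal as an element of `(Ideal (𝓞 K))⁰` (junk value `1` at `⊥`). -/
noncomputable def nz (I : Ideal (𝓞 K)) : (Ideal (𝓞 K))⁰ :=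
  if h : I ≠ ⊥ then ⟨I, mem_nonZeroDivisors_iff_ne_zero.mpr h⟩ else 1

omit [NumberField K] in
theorem coe_nz {I : Ideal (𝓞 K)} (h : I ≠ ⊥) : (nz I : Ideal (𝓞 K)) = I := by
  simp [nz, h]

omit [Field K] [NumberField K] in
theorem zmod_pow_self_eq_one (x : Multiplicative (ZMod p)) : x ^ p = 1 := by
  have h : (p : ℕ) • Multiplicative.toAdd x = 0 := by
    rw [nsmul_eq_mul, CharP.cast_eq_zero, zero_mul]
  exact congrArg Multiplicative.ofAdd h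

omit [Field K] [NumberField K] in
theorem dvd_of_zmod_pow_eq_one {x : Multiplicative (ZMod p)} (hx : x ≠ 1) {N : ℕ}
    (h : x ^ N = 1) : p ∣ N := by
  have h1 : orderOf x = p := orderOf_eq_prime (zmod_pow_self_eq_one x) hx
  rw [← h1]
  exact orderOf_dvd_of_pow_eq_one h

/-- Applying a class-group character to a factorisation `(b) = ∏ 𝔯^(t 𝔯) · J^p`. -/
theorem prod_char_eq_one (χ : ClassGroup (𝓞 K) →* Multiplicative (ZMod p)) {b : 𝓞 K}
    (hb : b ≠ 0) {S : Finset (Ideal (𝓞 K))} (hS : ∀ 𝔯 ∈ S, 𝔯 ≠ ⊥) {t : Ideal (𝓞 K) → ℕ}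
    {J : Ideal (𝓞 K)} (hfac : Ideal.span {b} = (∏ 𝔯 ∈ S, 𝔯 ^ t 𝔯) * J ^ p) :
    ∏ 𝔯 ∈ S, χ (ClassGroup.mk0 (nz 𝔯)) ^ t 𝔯 = 1 := by
  have hp : p ≠ 0 := (Fact.out : p.Prime).ne_zero
  have hbI : Ideal.span {b} ≠ ⊥ := by rwa [Ne, Ideal.span_singleton_eq_bot]
  have hJ : J ≠ ⊥ := by
    rintro rfl
    apply hbI
    rw [hfac, ← Ideal.zero_eq_bot, zero_pow hp, mul_zero]
  have key : nz (Ideal.span {b}) = (∏ 𝔯 ∈ S, nz 𝔯 ^ t 𝔯) * nz J ^ p := by
    apply Subtype.ext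
    rw [coe_nz hbI, Submonoid.coe_mul, Submonoid.coe_finsetProd, SubmonoidClass.coe_pow,
      coe_nz hJ, hfac]
    congr 1
    exact Finset.prod_congr rfl fun 𝔯 h𝔯 => by rw [SubmonoidClass.coe_pow, coe_nz (hS 𝔯 h𝔯)]
  have h1 : ClassGroup.mk0 (nz (Ideal.span {b})) = 1 := by
    rw [ClassGroup.mk0_eq_one_iff, coe_nz hbI]
    exact ⟨⟨b, rfl⟩⟩
  have h2 := congrArg (fun I => χ (ClassGroup.mk0 I)) key
  simp only [h1, map_one, map_mul, map_prod, map_pow] at h2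
  rw [zmod_pow_self_eq_one, mul_one] at h2
  exact h2.symm

end ClassChar

section Combinatorics

variable {p : ℕ} [Fact p.Prime]

theorem prod_units_eq_prod_Ico {M : Type*} [CommMonoid M] (G : ℕ → M) :
    ∏ u : (ZMod p)ˣ, G (u : ZMod p).val = ∏ a ∈ Finset.Ico 1 p, G a := by
  have hp : p.Prime := Fact.out
  refine Finset.prod_bij (fun u _ => (u : ZMod p).val) ?_ ?_ ?_ ?_
  · intro u _
    rw [Finset.mem_Ico]
    exact ⟨Nat.one_le_iff_ne_zero.mpr ((ZMod.val_ne_zero _).mpr u.ne_zero), ZMod.val_lt _⟩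
  · intro u _ w _ h
    exact Units.ext (ZMod.val_injective p h)
  · intro a ha
    rw [Finset.mem_Ico] at ha
    have hcop : a.Coprime p :=
      Nat.Coprime.symm ((Nat.Prime.coprime_iff_not_dvd hp).mpr
        (Nat.not_dvd_of_pos_of_lt (by omega) ha.2))
    refine ⟨ZMod.unitOfCoprime a hcop, Finset.mem_univ _, ?_⟩
    rw [ZMod.coe_unitOfCoprime, ZMod.val_natCast, Nat.mod_eq_of_lt ha.2]
  · intro u _
    rfl

theorem six_mul_sum_sq (n : ℕ) :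
    6 * ∑ a ∈ Finset.range (n + 1), a ^ 2 = n * (n + 1) * (2 * n + 1) := by
  induction n with
  | zero => simp
  | succ k ih =>
    rw [Finset.sum_range_succ, mul_add, ih]
    ring

theorem dvd_sum_sq (h5 : 5 ≤ p) : p ∣ ∑ a ∈ Finset.Ico 1 p, a ^ 2 := by
  have hp : p.Prime := Fact.out
  have h1 : ∑ a ∈ Finset.Ico 1 p, a ^ 2 = ∑ a ∈ Finset.range p, a ^ 2 := by
    rw [Finset.range_eq_Ico, Finset.sum_eq_sum_Ico_succ_bot hp.pos]
    simp
  obtain ⟨n, rfl⟩ : ∃ n, p = n + 1 := ⟨p - 1, by omega⟩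
  have h2 := six_mul_sum_sq n
  have h3 : (n + 1) ∣ 6 * ∑ a ∈ Finset.range (n + 1), a ^ 2 := by
    rw [h2]
    exact ⟨n * (2 * n + 1), by ring⟩
  rw [h1]
  refine (Nat.Coprime.dvd_mul_left ?_).mp h3
  rw [Nat.Prime.coprime_iff_not_dvd hp]
  intro h6
  have := Nat.le_of_dvd (by norm_num) h6
  have h7 : n + 1 = 5 ∨ n + 1 = 6 := by omega
  rcases h7 with h7 | h7
  · rw [h7] at h6; omega
  · rw [h7] at hp; exact absurd hp (by decide)

end Combinatorics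

section E2

variable {p : ℕ} [Fact p.Prime] {K : Type} [Field K] [NumberField K]

omit [NumberField K] in
/-- The product identity behind `(T')`: `∏_a (ζ^(1/a) - 1)^(a²) = E2 · ((ζ - 1)^M)^p`. -/
theorem prod_eq_E2_mul (h5 : 5 ≤ p) (ζ : 𝓞 K) :
    ∃ M : ℕ, ∏ a ∈ Finset.Ico 1 p, (ζ ^ ((a : ZMod p)⁻¹).val - 1) ^ (a ^ 2) =
      E2 p ζ * ((ζ - 1) ^ M) ^ p := by
  obtain ⟨M, hM⟩ := dvd_sum_sq (p := p) h5
  refine ⟨M, ?_⟩
  have h1 : ∀ b : ℕ, ζ ^ b - 1 = cyc ζ b * (ζ - 1) := fun b => by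
    rw [cyc, geom_sum_mul]
  simp_rw [h1, mul_pow]
  rw [Finset.prod_mul_distrib, Finset.prod_pow_eq_pow_sum, hM, pow_mul', E2]

end E2

section Main

variable {p : ℕ} [Fact p.Prime] {K : Type} [Field K] [NumberField K]
  [IsCyclotomicExtension {p} ℚ K]

theorem sig_symm_apply_zeta (a : (ZMod p)ˣ) {ζ : 𝓞 K} (hζ : IsPrimitiveRoot ζ p) :
    (sig p K a).symm ζ = ζ ^ ((a⁻¹ : (ZMod p)ˣ) : ZMod p).val := by
  rw [RingEquiv.symm_apply_eq, map_pow, sig_apply_zeta a hζ, ← pow_mul]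
  have h : (a : ZMod p).val * ((a⁻¹ : (ZMod p)ˣ) : ZMod p).val ≡ 1 [MOD p] := by
    rw [← ZMod.natCast_eq_natCast_iff, Nat.cast_mul, ZMod.natCast_zmod_val,
      ZMod.natCast_zmod_val, Nat.cast_one, ← Units.val_mul, mul_inv_cancel, Units.val_one]
  have h' : ((a : ZMod p).val * ((a⁻¹ : (ZMod p)ˣ) : ZMod p).val) % p = 1 :=
    Eq.trans h (Nat.mod_eq_of_lt (Fact.out : p.Prime).one_lt)
  have key : ∀ n : ℕ, n % p = 1 → ζ ^ n = ζ := by
    intro n hn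
    rw [← Nat.mod_add_div n p, hn, pow_add, pow_mul, hζ.pow_eq_one, one_pow, mul_one, pow_one]
  exact (key _ h').symm

/-- **The consumer `(T')`**: Thaine's relation implies `Stmt_ThaineChar`. -/
theorem stmt_ThaineChar_of_rel (p : ℕ) [Fact p.Prime] (hT : Stmt_ThaineRel p) :
    Stmt_ThaineChar p := by
  intro K _ _ _ ζ hζ h5 χ hχ v hvq hpv hχv
  have hvp : v.asIdeal.IsPrime := v.isPrime
  have hvm : v.asIdeal.IsMaximal := v.isMaximal
  have hqv : ((Ideal.absNorm v.asIdeal : ℕ) : 𝓞 K) ∈ v.asIdeal := Ideal.absNorm_mem _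
  have hpq := dvd_absNorm_sub_one hζ hvq hpv
  obtain ⟨g, b, t, J, S, hb, hS, hfac, hcong⟩ := hT K ζ hζ _ hvq hpq
  -- the primes above `q` are the conjugates of `v`
  let 𝔯 : (ZMod p)ˣ → Ideal (𝓞 K) := fun a => v.asIdeal.map (sig p K a : 𝓞 K →+* 𝓞 K)
  have hinj : Function.Injective 𝔯 := fun a b h =>
    sig_injective_on_prime (p := p) (K := K) hζ hvq hpv h
  have hSimg : S = Finset.univ.image 𝔯 := by
    ext I
    rw [hS, Finset.mem_image]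
    constructor
    · rintro ⟨hI, hqI⟩
      obtain ⟨a, ha⟩ := exists_sig_map_eq (p := p) hvq hqv hqI
      exact ⟨a, Finset.mem_univ _, ha.symm⟩
    · rintro ⟨a, -, rfl⟩
      refine ⟨Ideal.map_isPrime_of_equiv (sig p K a), ?_⟩
      have := Ideal.mem_map_of_mem (sig p K a : 𝓞 K →+* 𝓞 K) hqv
      rwa [map_natCast] at this
  have hSne : ∀ I ∈ S, I ≠ ⊥ := by
    intro I hI hbot
    have h1 := ((hS I).mp hI).2
    rw [hbot, Ideal.mem_bot, Nat.cast_eq_zero] at h1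
    exact hvq.ne_zero h1
  -- the class group relation
  have hrel := prod_char_eq_one χ hb hSne hfac
  rw [hSimg, Finset.prod_image (fun a _ b _ h => hinj h)] at hrel
  have hcl : ∀ a : (ZMod p)ˣ,
      χ (ClassGroup.mk0 (nz (𝔯 a))) = χ (primeClass v) ^ ((a : ZMod p).val ^ 2) := by
    intro a
    rw [← hχ (sig p K a) _ (sig_apply_zeta a hζ) (primeClass v), primeClass,
      ClassGroup.mulEquiv_mk0]
    congr 2
    apply Subtype.ext
    rw [coe_nz (hSne _ (by rw [hSimg]; exact Finset.mem_image_of_mem _ (Finset.mem_univ a))),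
      Ideal.coe_mapNonZero]
  simp_rw [hcl, ← pow_mul] at hrel
  rw [Finset.prod_pow_eq_pow_sum] at hrel
  obtain ⟨m, hm⟩ := dvd_of_zmod_pow_eq_one hχv hrel
  -- the congruences, in the residue field
  let _ := Ideal.Quotient.field v.asIdeal
  let φ := Ideal.Quotient.mk v.asIdeal
  have hc : ∀ a : (ZMod p)ˣ,
      φ (g : 𝓞 K) ^ t (𝔯 a) = φ ζ ^ ((a⁻¹ : (ZMod p)ˣ) : ZMod p).val - 1 := by
    intro a
    have h1 := hcong (𝔯 a) (by rw [hSimg]; exact Finset.mem_image_of_mem _ (Finset.mem_univ a))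
    have h2 : (sig p K a).symm ((g : 𝓞 K) ^ t (𝔯 a) - (ζ - 1)) ∈ v.asIdeal :=
      Ideal.symm_apply_mem_of_equiv_iff.mpr h1
    rw [map_sub, map_sub, map_pow, map_intCast, map_one, sig_symm_apply_zeta a hζ] at h2
    have h3 : φ ((g : 𝓞 K) ^ t (𝔯 a)) =
        φ (ζ ^ ((a⁻¹ : (ZMod p)ˣ) : ZMod p).val - 1) := Ideal.Quotient.eq.mpr h2
    rw [map_pow, map_sub, map_pow, map_one] at h3
    exact h3
  have hprod : ∏ a : (ZMod p)ˣ,
      (φ ζ ^ ((a⁻¹ : (ZMod p)ˣ) : ZMod p).val - 1) ^ ((a : ZMod p).val ^ 2) =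
        (φ (g : 𝓞 K) ^ m) ^ p := by
    simp_rw [← hc, ← pow_mul]
    rw [Finset.prod_pow_eq_pow_sum, mul_comm m p, ← hm]
    congr 1
    exact Finset.sum_congr rfl fun a _ => mul_comm _ _
  have hre : ∏ a : (ZMod p)ˣ,
      (φ ζ ^ ((a⁻¹ : (ZMod p)ˣ) : ZMod p).val - 1) ^ ((a : ZMod p).val ^ 2) =
        ∏ a ∈ Finset.Ico 1 p, (φ ζ ^ ((a : ZMod p)⁻¹).val - 1) ^ (a ^ 2) := by
    rw [← prod_units_eq_prod_Ico (fun a => (φ ζ ^ ((a : ZMod p)⁻¹).val - 1) ^ (a ^ 2))]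
    refine Finset.prod_congr rfl fun a _ => ?_
    rw [ZMod.natCast_zmod_val, Units.val_inv_eq_inv_val]
  obtain ⟨M, hM⟩ := prod_eq_E2_mul (p := p) h5 ζ
  have hM' := congrArg φ hM
  simp only [map_prod, map_mul, map_pow, map_sub, map_one] at hM'
  have hne : φ ζ - 1 ≠ 0 := by
    intro h
    apply hpv
    apply natCast_mem_of_sub_one_mem hζ
    rw [← Ideal.Quotient.eq_zero_iff_mem, map_sub, map_one]
    exact h
  obtain ⟨y, hy⟩ := Ideal.Quotient.mk_surjective (φ (g : 𝓞 K) ^ m / (φ ζ - 1) ^ M)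
  refine ⟨y, ?_⟩
  rw [← Ideal.Quotient.eq_zero_iff_mem, map_sub, map_pow, hy, sub_eq_zero, div_pow,
    eq_div_iff (pow_ne_zero _ (pow_ne_zero _ hne)), ← hprod, hre]
  exact hM'.symm

end Main

end Fermat.Agent.S14.helper5852
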