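import Fermat.Agent.S14.helper246_Thaine
import Fermat.Agent.S14.helper5852_ThaineChar

/-!
# Thaine relation: ideal form and the Spec statement `Stmt_ThaineChar`

From `helper246.thaine_core` we derive the neutral ideal form `helper5852.Stmt_ThaineRel p`
(`(b) = ∏_{𝔯 ∣ q} 𝔯 ^ t 𝔯 * J ^ p`, `g ^ t 𝔯 ≡ ζ - 1 mod 𝔯`) and hence, through
`helper5852.stmt_ThaineChar_of_rel`, the Spec statement `helper1934.Stmt_ThaineChar p` with no
hypotheses.
-/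

namespace Fermat.Agent.S14.helper246

open NumberField UniqueFactorizationMonoid

/-- **Thaine relation, ideal form**: `helper5852.Stmt_ThaineRel p` holds for every prime `p`. -/
theorem stmt_ThaineRel (p : ℕ) [hp : Fact p.Prime] : helper5852.Stmt_ThaineRel p := by
  classical
  intro K _ _ _ ζ hζ q hq hpq
  have : Fact q.Prime := ⟨hq⟩
  have hqp : q % p = 1 := by
    obtain ⟨k, hk⟩ := hpq
    have h2 := hq.two_le
    have hq' : q = p * k + 1 := by omega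
    rw [hq', Nat.mul_add_mod, Nat.mod_eq_of_lt hp.out.one_lt]
  -- a primitive root modulo `q`
  obtain ⟨u, hu⟩ := IsCyclic.exists_generator (α := (ZMod q)ˣ)
  have hg : orderOf (((u : ZMod q).val : ℕ) : ZMod q) = q - 1 := by
    rw [ZMod.natCast_zmod_val, orderOf_units, orderOf_eq_card_of_forall_mem_zpowers hu,
      Nat.card_eq_fintype_card, ZMod.card_units_eq_totient, Nat.totient_prime hq]
  obtain ⟨b, hb0, h1, h2⟩ := thaine_core hqp hg hζ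
  have hq0 : (q : 𝓞 K) ≠ 0 := by exact_mod_cast hq.ne_zero
  have hqspan : Ideal.span {(q : 𝓞 K)} ≠ ⊥ := by simpa using hq0
  have hbspan : Ideal.span {b} ≠ ⊥ := by simpa using hb0
  let S : Finset (Ideal (𝓞 K)) := (normalizedFactors (Ideal.span {(q : 𝓞 K)})).toFinset
  have hS : ∀ 𝔯 : Ideal (𝓞 K), 𝔯 ∈ S ↔ 𝔯.IsPrime ∧ (q : 𝓞 K) ∈ 𝔯 := by
    intro 𝔯
    rw [Multiset.mem_toFinset, Ideal.mem_normalizedFactors_iff hqspan,
      Ideal.span_singleton_le_iff_mem]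
  let F : Finset (Ideal (𝓞 K)) := (normalizedFactors (Ideal.span {b})).toFinset
  let t : Ideal (𝓞 K) → ℕ := fun 𝔯 => multiplicity 𝔯 (Ideal.span {b})
  have hFmem : ∀ 𝔯 : Ideal (𝓞 K), 𝔯 ∈ F ↔ 𝔯.IsPrime ∧ Ideal.span {b} ≤ 𝔯 := by
    intro 𝔯
    rw [Multiset.mem_toFinset, Ideal.mem_normalizedFactors_iff hbspan]
  have hFne : ∀ 𝔯 ∈ F, 𝔯 ≠ ⊥ := by
    intro 𝔯 h𝔯
    rintro rfl
    exact hbspan (le_bot_iff.mp ((hFmem _).mp h𝔯).2)
  have hcount : ∀ 𝔯 ∈ F, (normalizedFactors (Ideal.span {b})).count 𝔯 = t 𝔯 := by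
    intro 𝔯 h𝔯
    have hprime : Prime 𝔯 := Ideal.prime_of_isPrime (hFne 𝔯 h𝔯) ((hFmem _).mp h𝔯).1
    have h := emultiplicity_eq_count_normalizedFactors hprime.irreducible hbspan
    rw [normalize_eq] at h
    exact (multiplicity_eq_of_emultiplicity_eq_some h).symm
  have hfac : Ideal.span {b} = ∏ 𝔯 ∈ F, 𝔯 ^ t 𝔯 := by
    conv_lhs => rw [← Ideal.prod_normalizedFactors_eq_self hbspan, Finset.prod_multiset_count]
    exact Finset.prod_congr rfl (fun 𝔯 h𝔯 => by rw [hcount 𝔯 h𝔯])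
  let J : Ideal (𝓞 K) := ∏ 𝔯 ∈ F \ S, 𝔯 ^ (t 𝔯 / p)
  refine ⟨((u : ZMod q).val : ℤ), b, t, J, S, hb0, hS, ?_, ?_⟩
  · rw [hfac, ← Finset.prod_inter_mul_prod_sdiff F S]
    congr 1
    · refine Finset.prod_subset Finset.inter_subset_right ?_
      intro 𝔯 h𝔯S h𝔯F
      have h𝔯F' : 𝔯 ∉ F := fun h => h𝔯F (Finset.mem_inter.mpr ⟨h, h𝔯S⟩)
      have hprime := ((hS 𝔯).mp h𝔯S).1
      have hnd : ¬ 𝔯 ∣ Ideal.span {b} := by
        intro hd
        exact h𝔯F' ((hFmem 𝔯).mpr ⟨hprime, Ideal.le_of_dvd hd⟩)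
      have : t 𝔯 = 0 := multiplicity_eq_zero.mpr hnd
      rw [this, pow_zero]
    · rw [← Finset.prod_pow]
      refine Finset.prod_congr rfl ?_
      intro 𝔯 h𝔯
      obtain ⟨h𝔯F, h𝔯S⟩ := Finset.mem_sdiff.mp h𝔯
      have hprime := ((hFmem 𝔯).mp h𝔯F).1
      have hq𝔯 : (q : 𝓞 K) ∉ 𝔯 := fun h => h𝔯S ((hS 𝔯).mpr ⟨hprime, h⟩)
      have hdvd : p ∣ t 𝔯 := dvd_trans hpq (h1 𝔯 hprime (hFne 𝔯 h𝔯F) hq𝔯)
      rw [← pow_mul, Nat.div_mul_cancel hdvd]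
  · intro 𝔯 h𝔯
    obtain ⟨hprime, hq𝔯⟩ := (hS 𝔯).mp h𝔯
    have := h2 𝔯 hprime hq𝔯
    simpa using this

/-- **Package T of the Thaine route**: the Spec statement, without hypotheses. -/
theorem stmt_ThaineChar (p : ℕ) [Fact p.Prime] : helper1934.Stmt_ThaineChar p :=
  helper5852.stmt_ThaineChar_of_rel p (stmt_ThaineRel p)

end Fermat.Agent.S14.helper246
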