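import Mathlib

/-!
# S14, Thaine route, item (C): the class part

Author: helper2515.  Mathlib-only, spec-independent.

* `eigen_eq_zero` : abstract finite-abelian-group lemma.
-/

set_option autoImplicit false

namespace Fermat.Agent.S14.helper2515

open Finset

section Abstract

variable {C G : Type*} [AddCommGroup C] [Group G]

/-- `n • x` for a `p`-torsion element `x` only depends on `n` modulo `p`. -/
lemma nsmul_eq_of_natCast_eq {p : ℕ} {x : C} (hpx : p • x = 0) {m n : ℕ}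
    (h : (m : ZMod p) = (n : ZMod p)) : m • x = n • x := by
  have h' : (m : ℤ) ≡ (n : ℤ) [ZMOD (p : ℤ)] := by
    have := (ZMod.natCast_eq_natCast_iff m n p).1 h
    exact Int.natCast_modEq_iff.2 this
  obtain ⟨c, hc⟩ := h'.symm.dvd
  have h1 : ((m : ℤ) • x) = ((n : ℤ) • x) + c • ((p : ℤ) • x) := by
    rw [smul_smul, ← add_smul]
    congr 1
    linarith [hc, mul_comm (p : ℤ) c]
  rw [natCast_zsmul, natCast_zsmul, natCast_zsmul, hpx, smul_zero, add_zero] at h1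
  exact h1

/-- If `p` kills `C ⧸ N`, elements outside `N` are detected by additive maps to `ZMod p`. -/
lemma mem_of_forall_hom_eq_zero (p : ℕ) [Fact p.Prime] (N : AddSubgroup C)
    (hkill : ∀ q : C ⧸ N, p • q = 0) (z : C) (h : ∀ φ : C →+ ZMod p, φ z = 0) : z ∈ N := by
  obtain ⟨inst⟩ : Nonempty (Module (ZMod p) (C ⧸ N)) := ⟨AddCommGroup.zmodModule hkill⟩
  have h1 : Module.Free (ZMod p) (C ⧸ N) := Module.Free.of_divisionRing _ _
  have hproj : Module.Projective (ZMod p) (C ⧸ N) := Module.Projective.of_free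
  have hz : (QuotientAddGroup.mk z : C ⧸ N) = 0 := by
    by_contra hne
    obtain ⟨f, hf⟩ := Module.Projective.exists_dual_ne_zero (V := C ⧸ N) (ZMod p) hne
    exact hf (h (f.toAddMonoidHom.comp (QuotientAddGroup.mk' N)))
  exact (QuotientAddGroup.eq_zero_iff _).1 hz

/-- Elements outside `p • C` are detected by additive maps to `ZMod p`. -/
lemma exists_nsmul_eq_of_forall_hom_eq_zero (p : ℕ) [Fact p.Prime] (z : C)
    (h : ∀ φ : C →+ ZMod p, φ z = 0) : ∃ y : C, z = p • y := by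
  have hkill : ∀ q : C ⧸ (nsmulAddMonoidHom (α := C) p).range, p • q = 0 := by
    intro q
    induction q using QuotientAddGroup.induction_on with
    | H c =>
      rw [← QuotientAddGroup.mk_nsmul]
      exact (QuotientAddGroup.eq_zero_iff _).2 ⟨c, rfl⟩
  obtain ⟨y, hy⟩ := mem_of_forall_hom_eq_zero p _ hkill z h
  exact ⟨y, hy.symm⟩

/-- **Abstract class-part lemma.**  Let a finite group `G` of order prime to `p` act (through
`ρ`) on a finite abelian group `C`, and let `ω : G →* ZMod p` be a character.  If every additive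
`χ : C →+ ZMod p` with `χ (ρ g x) = ω g * χ x` vanishes, then every `p`-torsion `ω`-eigenvector
`x` of `C` vanishes. -/
theorem eigen_eq_zero [Finite C] [Fintype G] (p : ℕ) [Fact p.Prime]
    (hG : (Fintype.card G).Coprime p)
    (ρ : G → C →+ C) (hρ : ∀ g h x, ρ (g * h) x = ρ g (ρ h x))
    (ω : G →* ZMod p)
    (hχ : ∀ χ : C →+ ZMod p, (∀ g x, χ (ρ g x) = ω g * χ x) → χ = 0)
    (x : C) (hpx : p • x = 0) (hx : ∀ g, ρ g x = (ω g).val • x) : x = 0 := by
  classical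
  have hp : p.Prime := Fact.out
  have : NeZero p := ⟨hp.ne_zero⟩
  -- the operator `T = ∑ ω(g)⁻¹ g`
  let T : C →+ C := ∑ g : G, (ω g⁻¹).val • ρ g
  have hT : ∀ y, T y = ∑ g : G, (ω g⁻¹).val • ρ g y := by
    intro y
    simp [T]
  -- Step A: every functional composed with `T` is an eigen-character, hence zero
  have hA : ∀ (φ : C →+ ZMod p) (y : C), φ (T y) = 0 := by
    intro φ y
    have key : φ.comp T = 0 := by
      apply hχ
      intro h y
      simp only [AddMonoidHom.comp_apply, hT, map_sum, map_nsmul, nsmul_eq_mul, ZMod.natCast_val,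
        ZMod.cast_id', id_eq]
      rw [Finset.mul_sum]
      rw [← Equiv.sum_comp (Equiv.mulRight h⁻¹)]
      refine Finset.sum_congr rfl fun g _ => ?_
      simp only [Equiv.coe_mulRight, mul_inv_rev, inv_inv, map_mul]
      rw [← hρ, inv_mul_cancel_right]
      ring
    have := DFunLike.congr_fun key y
    simpa using this
  -- Step B
  have hB : ∀ y, ∃ z, T y = p • z := fun y =>
    exists_nsmul_eq_of_forall_hom_eq_zero p (T y) fun φ => hA φ y
  -- Step C
  have hC : T x = (Fintype.card G) • x := by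
    rw [hT]
    have : ∀ g : G, (ω g⁻¹).val • ρ g x = x := by
      intro g
      rw [hx, smul_smul]
      have h1 : (((ω g⁻¹).val * (ω g).val : ℕ) : ZMod p) = ((1 : ℕ) : ZMod p) := by
        push_cast
        simp only [ZMod.natCast_val, ZMod.cast_id', id_eq]
        rw [← map_mul, inv_mul_cancel, map_one]
      rw [nsmul_eq_of_natCast_eq hpx h1, one_smul]
    rw [Finset.sum_congr rfl fun g _ => this g]
    simp
  -- Step D
  obtain ⟨m, hm⟩ : ∃ m : ℕ, ((m * Fintype.card G : ℕ) : ZMod p) = ((1 : ℕ) : ZMod p) := by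
    refine ⟨((Fintype.card G : ZMod p)⁻¹).val, ?_⟩
    push_cast
    rw [ZMod.natCast_val, ZMod.cast_id', id_eq]
    have hne : (Fintype.card G : ZMod p) ≠ 0 := by
      intro h0
      rw [ZMod.natCast_eq_zero_iff] at h0
      have := Nat.Coprime.eq_one_of_dvd hG.symm h0
      exact hp.one_lt.ne' this
    exact inv_mul_cancel₀ hne
  have hD : x = m • T x := by
    rw [hC, smul_smul, nsmul_eq_of_natCast_eq hpx hm, one_smul]
  -- Step E
  have hE : ∀ k : ℕ, ∃ y, x = p ^ k • y := by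
    intro k
    induction k with
    | zero => exact ⟨x, by simp⟩
    | succ k ih =>
      obtain ⟨y, hy⟩ := ih
      obtain ⟨z, hz⟩ := hB y
      refine ⟨m • z, ?_⟩
      conv_lhs => rw [hD, hy, map_nsmul, hz]
      rw [smul_smul, smul_smul, smul_smul]
      congr 1
      ring
  -- Step F
  have hcard : Nat.card C ≠ 0 := Nat.card_pos.ne'
  obtain ⟨k, m', hm', hkm⟩ := Nat.exists_eq_pow_mul_and_not_dvd hcard p hp.ne_one
  obtain ⟨y, hy⟩ := hE k
  have h1 : m' • x = 0 := by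
    rw [hy, smul_smul, mul_comm, ← hkm]
    exact card_nsmul_eq_zero'
  have h2 : addOrderOf x ∣ m' := addOrderOf_dvd_of_nsmul_eq_zero h1
  have h3 : addOrderOf x ∣ p := addOrderOf_dvd_of_nsmul_eq_zero hpx
  have h4 : addOrderOf x = 1 := by
    rcases (Nat.dvd_prime hp).1 h3 with h | h
    · exact h
    · exact absurd (h ▸ h2) hm'
  exact AddMonoid.addOrderOf_eq_one_iff.1 h4

end Abstract

open NumberField nonZeroDivisors

section General

variable {R S : Type*} (K L : Type*) [CommRing R] [IsDomain R] [CommRing S] [IsDomain S]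
  [CommRing K] [CommRing L] [Algebra R K] [Algebra S L] [IsFractionRing R K] [IsFractionRing S L]

set_option backward.isDefEq.respectTransparency.types false in
lemma mem_ringEquivOfRingEquiv (f : R ≃+* S) (J : FractionalIdeal R⁰ K) (x : L) :
    x ∈ FractionalIdeal.ringEquivOfRingEquiv K L f J ↔
      ∃ y ∈ J, IsFractionRing.ringEquivOfRingEquiv f y = x := by
  rw [← FractionalIdeal.mem_coe, ← FractionalIdeal.val_eq_coe,
    FractionalIdeal.ringEquivOfRingEquiv_apply_val]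
  simp only [Submodule.mem_map, FractionalIdeal.val_eq_coe, FractionalIdeal.mem_coe]
  rfl

/-- The map on fractional ideals induced by a ring isomorphism sends (the coercion of) an integral
ideal to (the coercion of) its image. -/
lemma ringEquivOfRingEquiv_coeIdeal (f : R ≃+* S) (I : Ideal R) :
    FractionalIdeal.ringEquivOfRingEquiv K L f (I : FractionalIdeal R⁰ K) =
      ((I.map f : Ideal S) : FractionalIdeal S⁰ L) := by
  ext x
  rw [mem_ringEquivOfRingEquiv]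
  simp only [FractionalIdeal.mem_coeIdeal]
  constructor
  · rintro ⟨y, ⟨r, hr, rfl⟩, rfl⟩
    refine ⟨f r, Ideal.mem_map_of_mem _ hr, ?_⟩
    rw [IsFractionRing.ringEquivOfRingEquiv_algebraMap]
  · rintro ⟨s, hs, rfl⟩
    obtain ⟨r, hr, rfl⟩ := (Ideal.mem_map_of_equiv f s).1 hs
    exact ⟨algebraMap R K r, ⟨r, hr, rfl⟩, IsFractionRing.ringEquivOfRingEquiv_algebraMap f r⟩

end General

section NumberField

variable {K : Type*} [Field K] [NumberField K]

/-- The ring automorphism of `𝓞 K` induced by `σ`. -/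
noncomputable def sigO (σ : K ≃ₐ[ℚ] K) : 𝓞 K ≃+* 𝓞 K :=
  RingOfIntegers.mapRingEquiv σ.toRingEquiv

lemma sigO_apply (σ : K ≃ₐ[ℚ] K) (x : 𝓞 K) : ((sigO σ x : 𝓞 K) : K) = σ x := rfl

/-- The image of a nonzero ideal of `𝓞 K` under `σ`. -/
noncomputable def galIdeal (σ : K ≃ₐ[ℚ] K) (I : (Ideal (𝓞 K))⁰) : (Ideal (𝓞 K))⁰ :=
  ⟨I.1.map (sigO σ), by
    rw [mem_nonZeroDivisors_iff_ne_zero, Ideal.zero_eq_bot, ne_eq,
      Ideal.map_eq_bot_iff_of_injective (sigO σ).injective, ← Ideal.zero_eq_bot]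
    exact mem_nonZeroDivisors_iff_ne_zero.1 I.2⟩

lemma coe_galIdeal (σ : K ≃ₐ[ℚ] K) (I : (Ideal (𝓞 K))⁰) :
    (galIdeal σ I : Ideal (𝓞 K)) = I.1.map (sigO σ) := rfl

lemma galIdeal_mul (σ τ : K ≃ₐ[ℚ] K) (I : (Ideal (𝓞 K))⁰) :
    galIdeal (σ * τ) I = galIdeal σ (galIdeal τ I) := by
  apply Subtype.ext
  rw [coe_galIdeal, coe_galIdeal, coe_galIdeal]
  ext x
  simp only [Ideal.mem_map_of_equiv]
  constructor
  · rintro ⟨y, hy, rfl⟩
    exact ⟨sigO τ y, ⟨y, hy, rfl⟩, rfl⟩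
  · rintro ⟨z, ⟨y, hy, rfl⟩, rfl⟩
    exact ⟨y, hy, rfl⟩

/-- The action of `σ` on the class group of `𝓞 K`. -/
noncomputable def galCl (σ : K ≃ₐ[ℚ] K) : ClassGroup (𝓞 K) ≃* ClassGroup (𝓞 K) :=
  ClassGroup.mulEquiv (sigO σ)

set_option backward.isDefEq.respectTransparency.types false in
/-- The action on the class group is the action on ideals. -/
theorem galCl_mk0 (σ : K ≃ₐ[ℚ] K) (I : (Ideal (𝓞 K))⁰) :
    galCl σ (ClassGroup.mk0 I) = ClassGroup.mk0 (galIdeal σ I) := by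
  unfold galCl
  rw [ClassGroup.mulEquiv_apply, ClassGroup.equiv_mk0, MulEquiv.symm_apply_eq,
    ClassGroup.equiv_mk0]
  rw [QuotientGroup.congr_mk']
  congr 1
  ext1
  simp only [Units.coe_mapEquiv, FractionalIdeal.coe_mk0]
  exact ringEquivOfRingEquiv_coeIdeal _ _ (sigO σ) I.1

theorem galCl_mul (σ τ : K ≃ₐ[ℚ] K) (c : ClassGroup (𝓞 K)) :
    galCl (σ * τ) c = galCl σ (galCl τ c) := by
  obtain ⟨I, rfl⟩ := ClassGroup.mk0_surjective c
  rw [galCl_mk0, galCl_mk0, galCl_mk0, galIdeal_mul]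

variable {p : ℕ} [Fact p.Prime] {ζ : K}

/-- The square of the mod `p` cyclotomic character, as a monoid hom to `ZMod p`. -/
noncomputable def omegaSq (hζ : IsPrimitiveRoot ζ p) : (K ≃ₐ[ℚ] K) →* ZMod p :=
  haveI : NeZero p := ⟨(Fact.out : p.Prime).ne_zero⟩
  (Units.coeHom (ZMod p)).comp ((powMonoidHom 2).comp (hζ.autToPow ℚ))

lemma omegaSq_eq (hζ : IsPrimitiveRoot ζ p) {σ : K ≃ₐ[ℚ] K} {a : ℕ} (h : σ ζ = ζ ^ a) :
    omegaSq hζ σ = (a : ZMod p) ^ 2 := by
  have : NeZero p := ⟨(Fact.out : p.Prime).ne_zero⟩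
  have h1 : ζ ^ ((hζ.autToPow ℚ σ : (ZMod p)ˣ) : ZMod p).val = ζ ^ a := by
    rw [hζ.autToPow_spec ℚ σ, h]
  have hζ0 : ζ ≠ 0 := hζ.ne_zero (Fact.out : p.Prime).ne_zero
  have h2 : (Units.mk0 ζ hζ0) ^ ((hζ.autToPow ℚ σ : (ZMod p)ˣ) : ZMod p).val =
      (Units.mk0 ζ hζ0) ^ a := by
    ext; simpa using h1
  rw [pow_eq_pow_iff_modEq] at h2
  have h3 : orderOf (Units.mk0 ζ hζ0) = p := by
    rw [← orderOf_units]
    exact hζ.eq_orderOf.symm
  rw [h3, ← ZMod.natCast_eq_natCast_iff, ZMod.natCast_val, ZMod.cast_id', id_eq] at h2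
  simp only [omegaSq, MonoidHom.coe_comp, Function.comp_apply, powMonoidHom_apply,
    Units.coeHom_apply, Units.val_pow_eq_pow_val]
  rw [h2]

lemma exists_pow_eq (hζ : IsPrimitiveRoot ζ p) (σ : K ≃ₐ[ℚ] K) :
    ∃ a : ℕ, σ ζ = ζ ^ a := by
  have : NeZero p := ⟨(Fact.out : p.Prime).ne_zero⟩
  exact ⟨_, (hζ.autToPow_spec ℚ σ).symm⟩

lemma card_gal_coprime [IsCyclotomicExtension {p} ℚ K] :
    (Fintype.card (K ≃ₐ[ℚ] K)).Coprime p := by
  have hp : p.Prime := Fact.out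
  have : NeZero p := ⟨hp.ne_zero⟩
  have : IsGalois ℚ K := IsCyclotomicExtension.isGalois {p} ℚ K
  have h1 : Fintype.card (K ≃ₐ[ℚ] K) = p - 1 := by
    rw [← Nat.card_eq_fintype_card, IsGalois.card_aut_eq_finrank,
      IsCyclotomicExtension.finrank K (Polynomial.cyclotomic.irreducible_rat hp.pos),
      Nat.totient_prime hp]
  rw [h1]
  refine Nat.Coprime.symm ((Nat.Prime.coprime_iff_not_dvd hp).2 ?_)
  exact Nat.not_dvd_of_pos_of_lt (by have := hp.two_le; omega) (by have := hp.two_le; omega)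

/-- **Class part, integral form.**  Suppose every additive character `χ` of the class group with
`χ(σ I) = a² χ(I)` (whenever `σ ζ = ζ ^ a`) vanishes.  If `(β) = I ^ p` and `β` is an
`ω²`-eigenvector modulo `p`-th powers, then `I` is principal. -/
theorem isPrincipal_of_eigen [IsCyclotomicExtension {p} ℚ K] (hζ : IsPrimitiveRoot ζ p)
    (hχ : ∀ χ : Additive (ClassGroup (𝓞 K)) →+ ZMod p,
      (∀ (σ : K ≃ₐ[ℚ] K) (a : ℕ), σ ζ = ζ ^ a → ∀ I : (Ideal (𝓞 K))⁰,
        χ (Additive.ofMul (ClassGroup.mk0 (galIdeal σ I))) =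
          (a : ZMod p) ^ 2 * χ (Additive.ofMul (ClassGroup.mk0 I))) → χ = 0)
    (I : (Ideal (𝓞 K))⁰) (β : 𝓞 K) (hβ : β ≠ 0) (hI : Ideal.span {β} = (I : Ideal (𝓞 K)) ^ p)
    (heig : ∀ (σ : K ≃ₐ[ℚ] K) (a : ℕ), σ ζ = ζ ^ a →
      ∃ c : K, σ (β : K) = (β : K) ^ (a ^ 2) * c ^ p) :
    (I : Ideal (𝓞 K)).IsPrincipal := by
  classical
  have hp : p.Prime := Fact.out
  have : NeZero p := ⟨hp.ne_zero⟩
  have hI0 : (I : Ideal (𝓞 K)) ≠ 0 := mem_nonZeroDivisors_iff_ne_zero.1 I.2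
  -- the class of `I` is `p`-torsion
  have hpow : (ClassGroup.mk0 I) ^ p = 1 := by
    rw [← map_pow]
    have : (I ^ p : (Ideal (𝓞 K))⁰) = ⟨Ideal.span {β}, by
        rw [hI]; exact (I ^ p).2⟩ := by
      apply Subtype.ext
      simp [hI]
    rw [this, ClassGroup.mk0_eq_one_iff]
    exact ⟨β, rfl⟩
  -- the class of `I` is an eigenvector
  have heigI : ∀ (σ : K ≃ₐ[ℚ] K) (a : ℕ), σ ζ = ζ ^ a →
      ClassGroup.mk0 (galIdeal σ I) = (ClassGroup.mk0 I) ^ (a ^ 2) := by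
    intro σ a hσ
    obtain ⟨c, hc⟩ := heig σ a hσ
    have hβK : (β : K) ≠ 0 := by
      simpa using hβ
    have hc0 : c ≠ 0 := by
      rintro rfl
      rw [zero_pow hp.ne_zero, mul_zero] at hc
      exact hβK ((map_eq_zero σ).1 hc)
    obtain ⟨m, n, hn, rfl⟩ := IsFractionRing.div_surjective (𝓞 K) c
    have hn0 : n ≠ 0 := mem_nonZeroDivisors_iff_ne_zero.1 hn
    have hnK : (algebraMap (𝓞 K) K n) ≠ 0 := by simpa using hn0
    have hm0 : m ≠ 0 := by
      rintro rfl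
      simp at hc0
    -- the equation in `𝓞 K`
    have heq : n ^ p * sigO σ β = β ^ (a ^ 2) * m ^ p := by
      apply FaithfulSMul.algebraMap_injective (𝓞 K) K
      have h1 : algebraMap (𝓞 K) K (sigO σ β) = σ (algebraMap (𝓞 K) K β) := rfl
      have hc' : σ (algebraMap (𝓞 K) K β) = (algebraMap (𝓞 K) K β) ^ (a ^ 2) *
          ((algebraMap (𝓞 K) K) m / (algebraMap (𝓞 K) K) n) ^ p := hc
      rw [map_mul, map_mul, map_pow, map_pow, map_pow, h1, hc', div_pow]
      field_simp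
    -- the equation of ideals
    have hmap : (galIdeal σ I : Ideal (𝓞 K)) ^ p = Ideal.span {sigO σ β} := by
      rw [coe_galIdeal, ← Ideal.map_pow, ← hI, Ideal.map_span, Set.image_singleton]
    have hid : (Ideal.span {n} * (galIdeal σ I : Ideal (𝓞 K))) ^ p =
        (Ideal.span {m} * (I : Ideal (𝓞 K)) ^ (a ^ 2)) ^ p := by
      rw [mul_pow, mul_pow, hmap, Ideal.span_singleton_pow, Ideal.span_singleton_mul_span_singleton,
        heq, ← pow_mul, mul_comm (a ^ 2) p, pow_mul, ← hI, Ideal.span_singleton_pow,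
        Ideal.span_singleton_pow, Ideal.span_singleton_mul_span_singleton, mul_comm]
    have hid' := pow_left_injective hp.ne_zero hid
    rw [← map_pow]
    exact ClassGroup.mk0_eq_mk0_iff.2 ⟨n, m, hn0, hm0, by simpa using hid'⟩
  -- apply the abstract lemma
  let x : Additive (ClassGroup (𝓞 K)) := Additive.ofMul (ClassGroup.mk0 I)
  have hpx : p • x = 0 := by
    show Additive.ofMul ((ClassGroup.mk0 I) ^ p) = 0
    rw [hpow]; rfl
  have key : x = 0 := by
    refine eigen_eq_zero (G := K ≃ₐ[ℚ] K) p card_gal_coprime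
      (fun σ => MonoidHom.toAdditive (galCl σ).toMonoidHom) ?_ (omegaSq hζ) ?_ x hpx ?_
    · intro g h y
      exact congrArg Additive.ofMul (galCl_mul g h (Additive.toMul y))
    · intro χ hχ'
      apply hχ χ
      intro σ a hσ J
      have := hχ' σ (Additive.ofMul (ClassGroup.mk0 J))
      rw [omegaSq_eq hζ hσ] at this
      rw [← this, ← galCl_mk0]
      rfl
    · intro σ
      obtain ⟨a, ha⟩ := exists_pow_eq hζ σ
      show Additive.ofMul (galCl σ (ClassGroup.mk0 I)) = _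
      rw [galCl_mk0, heigI σ a ha, omegaSq_eq hζ ha]
      show (a ^ 2) • x = _
      refine nsmul_eq_of_natCast_eq hpx ?_
      rw [ZMod.natCast_val, ZMod.cast_id', id_eq]
      push_cast
      rfl
  exact (ClassGroup.mk0_eq_one_iff I.2).1 (congrArg Additive.toMul key)

omit [Fact p.Prime] in
/-- Transfer of the eigen-property along `α = u * γ ^ p`. -/
lemma eigen_transfer {α u γ : K} (hγ : γ ≠ 0) (h : α = u * γ ^ p)
    (heig : ∀ (σ : K ≃ₐ[ℚ] K) (a : ℕ), σ ζ = ζ ^ a → ∃ c : K, σ α = α ^ (a ^ 2) * c ^ p) :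
    ∀ (σ : K ≃ₐ[ℚ] K) (a : ℕ), σ ζ = ζ ^ a → ∃ c : K, σ u = u ^ (a ^ 2) * c ^ p := by
  intro σ a hσ
  obtain ⟨c, hc⟩ := heig σ a hσ
  have hσγ : σ γ ≠ 0 := (map_ne_zero σ).2 hγ
  refine ⟨γ ^ (a ^ 2) * c / σ γ, ?_⟩
  have h1 : σ u * σ γ ^ p = (u * γ ^ p) ^ (a ^ 2) * c ^ p := by
    rw [← map_pow, ← map_mul, ← h, hc]
  rw [div_pow, mul_pow, ← mul_div_assoc, eq_div_iff (pow_ne_zero p hσγ), h1]
  ring

/-- **Class part of the Thaine route.**  `K = ℚ(ζ_p)`.  Suppose every additive character `χ` of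
the class group with `χ(σ I) = a² χ(I)` (whenever `σ ζ = ζ ^ a`) vanishes.  If `α ∈ Kˣ` generates
the `p`-th power of a fractional ideal and is an `ω²`-eigenvector modulo `p`-th powers, then
`α = u * γ ^ p` with `u` a unit of `𝓞 K` (which is again an eigenvector). -/
theorem exists_unit_mul_pow [IsCyclotomicExtension {p} ℚ K] (hζ : IsPrimitiveRoot ζ p)
    (hχ : ∀ χ : Additive (ClassGroup (𝓞 K)) →+ ZMod p,
      (∀ (σ : K ≃ₐ[ℚ] K) (a : ℕ), σ ζ = ζ ^ a → ∀ I : (Ideal (𝓞 K))⁰,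
        χ (Additive.ofMul (ClassGroup.mk0 (galIdeal σ I))) =
          (a : ZMod p) ^ 2 * χ (Additive.ofMul (ClassGroup.mk0 I))) → χ = 0)
    {α : K} (hα : α ≠ 0) (A : FractionalIdeal (𝓞 K)⁰ K)
    (hA : FractionalIdeal.spanSingleton (𝓞 K)⁰ α = A ^ p)
    (heig : ∀ (σ : K ≃ₐ[ℚ] K) (a : ℕ), σ ζ = ζ ^ a → ∃ c : K, σ α = α ^ (a ^ 2) * c ^ p) :
    ∃ (u : (𝓞 K)ˣ) (γ : K), γ ≠ 0 ∧ α = (u : K) * γ ^ p ∧
      ∀ (σ : K ≃ₐ[ℚ] K) (a : ℕ), σ ζ = ζ ^ a →
        ∃ c : K, σ ((u : 𝓞 K) : K) = ((u : 𝓞 K) : K) ^ (a ^ 2) * c ^ p := by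
  classical
  have hp : p.Prime := Fact.out
  obtain ⟨d, I, hd, hAI⟩ := FractionalIdeal.exists_eq_spanSingleton_mul A
  have hdK : algebraMap (𝓞 K) K d ≠ 0 := by simpa using hd
  -- `(α d^p) = I^p`
  have h1 : FractionalIdeal.spanSingleton (𝓞 K)⁰ (α * algebraMap (𝓞 K) K d ^ p) =
      ((I ^ p : Ideal (𝓞 K)) : FractionalIdeal (𝓞 K)⁰ K) := by
    rw [← FractionalIdeal.spanSingleton_mul_spanSingleton, hA, hAI, mul_pow,
      FractionalIdeal.spanSingleton_pow, mul_right_comm,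
      FractionalIdeal.spanSingleton_mul_spanSingleton, ← mul_pow, inv_mul_cancel₀ hdK, one_pow,
      FractionalIdeal.spanSingleton_one, one_mul, FractionalIdeal.coeIdeal_pow]
  have h2 : α * algebraMap (𝓞 K) K d ^ p ∈
      ((I ^ p : Ideal (𝓞 K)) : FractionalIdeal (𝓞 K)⁰ K) := by
    rw [← h1]
    exact FractionalIdeal.mem_spanSingleton_self _ _
  obtain ⟨β, -, hβ⟩ := (FractionalIdeal.mem_coeIdeal _).1 h2
  have hβ0 : β ≠ 0 := by
    rintro rfl
    rw [map_zero] at hβ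
    exact mul_ne_zero hα (pow_ne_zero p hdK) hβ.symm
  have hspan : Ideal.span {β} = I ^ p := by
    apply FractionalIdeal.coeIdeal_injective (K := K)
    show ((Ideal.span {β} : Ideal (𝓞 K)) : FractionalIdeal (𝓞 K)⁰ K) = _
    rw [FractionalIdeal.coeIdeal_span_singleton, hβ, h1]
  have hI0 : I ≠ 0 := by
    rintro rfl
    rw [zero_pow hp.ne_zero] at hspan
    exact hβ0 (by simpa using hspan)
  -- eigen-property of `β`
  have heigβ : ∀ (σ : K ≃ₐ[ℚ] K) (a : ℕ), σ ζ = ζ ^ a →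
      ∃ c : K, σ (β : K) = (β : K) ^ (a ^ 2) * c ^ p := by
    intro σ a hσ
    obtain ⟨c, hc⟩ := heig σ a hσ
    refine ⟨c * σ (algebraMap (𝓞 K) K d) / algebraMap (𝓞 K) K d ^ (a ^ 2), ?_⟩
    have hβ' : (β : K) = α * algebraMap (𝓞 K) K d ^ p := hβ
    rw [hβ', map_mul, map_pow, hc, div_pow, mul_pow, mul_pow]
    field_simp
    ring
  have hprinc := isPrincipal_of_eigen hζ hχ ⟨I, mem_nonZeroDivisors_iff_ne_zero.2 hI0⟩ β hβ0
    hspan heigβ
  obtain ⟨γ₀, hγ₀⟩ := hprinc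
  have hγ₀' : I = Ideal.span {γ₀} := hγ₀
  have hγ₀0 : γ₀ ≠ 0 := by
    rintro rfl
    apply hI0
    rw [hγ₀']
    simp
  rw [hγ₀', Ideal.span_singleton_pow, Ideal.span_singleton_eq_span_singleton] at hspan
  obtain ⟨u, hu⟩ := hspan
  -- `β * u = γ₀ ^ p`
  have hγ : algebraMap (𝓞 K) K γ₀ / algebraMap (𝓞 K) K d ≠ 0 :=
    div_ne_zero (by simpa using hγ₀0) hdK
  have hmain : α = ((u⁻¹ : (𝓞 K)ˣ) : 𝓞 K) *
      (algebraMap (𝓞 K) K γ₀ / algebraMap (𝓞 K) K d) ^ p := by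
    have hu' : algebraMap (𝓞 K) K β * algebraMap (𝓞 K) K (u : 𝓞 K) =
        algebraMap (𝓞 K) K γ₀ ^ p := by
      rw [← map_mul, hu, map_pow]
    have huinv : algebraMap (𝓞 K) K (u : 𝓞 K) * algebraMap (𝓞 K) K ((u⁻¹ : (𝓞 K)ˣ) : 𝓞 K) = 1 := by
      rw [← map_mul, Units.mul_inv, map_one]
    have hu0 : algebraMap (𝓞 K) K (u : 𝓞 K) ≠ 0 := left_ne_zero_of_mul_eq_one huinv
    have e1 : α = algebraMap (𝓞 K) K β / algebraMap (𝓞 K) K d ^ p := by
      rw [hβ]; field_simp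
    have e2 : algebraMap (𝓞 K) K ((u⁻¹ : (𝓞 K)ˣ) : 𝓞 K) = (algebraMap (𝓞 K) K (u : 𝓞 K))⁻¹ :=
      eq_inv_of_mul_eq_one_right huinv
    show α = algebraMap (𝓞 K) K ((u⁻¹ : (𝓞 K)ˣ) : 𝓞 K) * _
    rw [e1, e2, div_pow, ← hu']
    field_simp
  exact ⟨u⁻¹, _, hγ, hmain, eigen_transfer hγ hmain heig⟩

end NumberField

end Fermat.Agent.S14.helper2515
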