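/-
S14 moonshot, leaf SUNIT (seat helper2613): adapter of the counting form of the `S`-unit theorem
to the M6 interface `helper1892.Stmt_SUnitCount` (relative-index form inside `Fˣ`).
-/
import Fermat.Agent.S14.helper2613_SUnitCount
import Fermat.Agent.S14.helper1892_M6Defs

set_option autoImplicit false

open IsDedekindDomain NumberField Module

namespace Fermat.Agent.S14.helper2613

variable {K : Type*} [Field K] [NumberField K]

/-- Relative-index form of `index_pow_SUnits`, inside `Kˣ`:
`[U_S : U_S ^ n] = n ^ (rank K + #S + 1)`. -/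
theorem relIndex_map_pow_SUnits (S : Finset (HeightOneSpectrum (𝓞 K))) {n : ℕ} (hn : n ≠ 0)
    {ζ : K} (hζ : IsPrimitiveRoot ζ n) :
    ((SUnits K S).map (powMonoidHom n)).relIndex (SUnits K S)
      = n ^ (NumberField.Units.rank K + S.card + 1) := by
  rw [← index_pow_SUnits S hn hζ, Subgroup.relIndex]
  congr 1
  ext x
  rw [Subgroup.mem_subgroupOf, Subgroup.mem_map, MonoidHom.mem_range]
  constructor
  · rintro ⟨y, hy, hyx⟩
    refine ⟨⟨y, hy⟩, ?_⟩
    apply Subtype.ext
    simpa using hyx
  · rintro ⟨y, rfl⟩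
    exact ⟨y.1, y.2, by simp⟩

/-- The M6 leaf `Stmt_SUnitCount` of `helper1892_M6Defs`. -/
theorem stmt_SUnitCount (F : Type*) [Field F] [NumberField F] {p : ℕ} (hp : p.Prime)
    (hζ : ∃ ζ : F, IsPrimitiveRoot ζ p) : helper1892.Stmt_SUnitCount F p := by
  obtain ⟨ζ, hζ⟩ := hζ
  intro S
  exact relIndex_map_pow_SUnits S hp.ne_zero hζ

end Fermat.Agent.S14.helper2613
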