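import Mathlib

/-!
# S14, module M3 (3a): Frobenius congruence for Gauss sums (ring-level core)

No number fields.  `r` is a prime, `χ : MulChar (ZMod r) A`, `ψ : AddChar (ZMod r) A`,
`g = gaussSum χ ψ`.

* `map_gaussSum` : Gauss sums commute with ring homomorphisms.
* `gaussSum_pow_prime_pow` : in characteristic `l`,
  `g ^ (l ^ f) = gaussSum (χ ^ (l ^ f)) (ψ ^ (l ^ f))`.
* `gaussSum_pow_prime_pow_eq` : in characteristic `l ≠ r`, if `χ ^ (l ^ f) = χ` then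
  `g ^ (l ^ f) = χ⁻¹ (l ^ f) * g`.
* `gaussSum_pow_sub_mem_span` : for ANY commutative ring `A`, `l ≠ r` prime, `χ ^ (l ^ f) = χ`:
  `g ^ (l ^ f) - χ⁻¹ (l ^ f) * g ∈ span {l}`.
* `gaussSum_pow_pred_eq` : in a domain of characteristic `l ≠ r`, `χ ≠ 1`, `ψ` primitive,
  `χ ^ (l ^ f) = χ`: `g ^ (l ^ f - 1) = χ⁻¹ (l ^ f)`.
* `gaussSum_pow_pred_sub_mem` / `gaussSum_pow_pow_div_sub_mem` : `A` a domain, `P` a prime ideal
  containing `l`, `l ≠ r`, `l ≠ p`, `χ ≠ 1`, `χ ^ p = 1`, `ψ ≠ 1`, `p ∣ l ^ f - 1`: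
  `g ^ (l ^ f - 1) - χ⁻¹ (l ^ f) ∈ P` and `(g ^ p) ^ ((l ^ f - 1) / p) - χ⁻¹ (l ^ f) ∈ P`.
  (With `q = l ^ f = N w` this is `sym_w (g ^ p) = - χ_r (N w)` in exponent notation.)
-/

set_option autoImplicit false
namespace Fermat.Agent.S14.helper2767
open Finset
section Core
variable {A : Type*} [CommRing A] {r : ℕ} [Fact r.Prime]

theorem map_gaussSum {B : Type*} [CommRing B] (φ : A →+* B) (χ : MulChar (ZMod r) A)
    (ψ : AddChar (ZMod r) A) :
    φ (gaussSum χ ψ) = gaussSum (χ.ringHomComp φ) ((φ : A →* B).compAddChar ψ) := by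
  simp [gaussSum, map_sum, map_mul, MulChar.ringHomComp_apply]

theorem gaussSum_pow_prime_pow (l : ℕ) [Fact l.Prime] [CharP A l] (χ : MulChar (ZMod r) A)
    (ψ : AddChar (ZMod r) A) (f : ℕ) :
    gaussSum χ ψ ^ (l ^ f) = gaussSum (χ ^ (l ^ f)) (ψ ^ (l ^ f)) := by
  induction f with
  | zero => simp
  | succ f ih => rw [pow_succ, pow_mul, ih, gaussSum_frob, ← pow_mul, ← pow_mul]

theorem isUnit_natCast_pow_zmod {l : ℕ} (hl : l.Prime) (hlr : l ≠ r) (f : ℕ) :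
    IsUnit ((l : ZMod r) ^ f) := by
  refine IsUnit.pow f ?_
  rw [ZMod.isUnit_prime_iff_not_dvd hl]
  exact fun h => hlr ((Nat.prime_dvd_prime_iff_eq hl (Fact.out : r.Prime)).mp h)

/-- In characteristic `l ≠ r`: `g ^ (l ^ f) = χ⁻¹(l ^ f) * g` when `χ ^ (l ^ f) = χ`. -/
theorem gaussSum_pow_prime_pow_eq (l : ℕ) [Fact l.Prime] [CharP A l] (hlr : l ≠ r)
    (χ : MulChar (ZMod r) A) (ψ : AddChar (ZMod r) A) (f : ℕ) (hχ : χ ^ (l ^ f) = χ) :
    gaussSum χ ψ ^ (l ^ f) = χ⁻¹ ((l : ZMod r) ^ f) * gaussSum χ ψ := by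
  have hu : IsUnit ((l : ZMod r) ^ f) := isUnit_natCast_pow_zmod (Fact.out : l.Prime) hlr f
  rw [gaussSum_pow_prime_pow, hχ, AddChar.pow_mulShift, Nat.cast_pow, ← hu.unit_spec,
    gaussSum_mulShift_eq]

/-- Frobenius congruence for Gauss sums in an arbitrary commutative ring. -/
theorem gaussSum_pow_sub_mem_span (l : ℕ) [Fact l.Prime] (hlr : l ≠ r)
    (χ : MulChar (ZMod r) A) (ψ : AddChar (ZMod r) A) (f : ℕ) (hχ : χ ^ (l ^ f) = χ) :
    gaussSum χ ψ ^ (l ^ f) - χ⁻¹ ((l : ZMod r) ^ f) * gaussSum χ ψ ∈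
      Ideal.span {(l : A)} := by
  by_cases hun : IsUnit (l : A)
  · rw [Ideal.span_singleton_eq_top.mpr hun]; trivial
  · have : CharP (A ⧸ Ideal.span {(l : A)}) l := CharP.quotient A l hun
    set π := Ideal.Quotient.mk (Ideal.span {(l : A)}) with hπ
    rw [← Ideal.Quotient.eq_zero_iff_mem, map_sub, map_mul, map_pow, sub_eq_zero, map_gaussSum]
    have h1 := gaussSum_pow_prime_pow_eq l hlr (χ.ringHomComp π) ((π : A →* _).compAddChar ψ) f
      (by rw [MulChar.ringHomComp_pow, hχ])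
    rw [h1, MulChar.ringHomComp_inv, MulChar.ringHomComp_apply]

/-- In a domain of characteristic `l ≠ r`: `g ^ (l ^ f - 1) = χ⁻¹ (l ^ f)`. -/
theorem gaussSum_pow_pred_eq [IsDomain A] (l : ℕ) [Fact l.Prime] [CharP A l] (hlr : l ≠ r)
    {χ : MulChar (ZMod r) A} (hχ1 : χ ≠ 1) {ψ : AddChar (ZMod r) A} (hψ : ψ.IsPrimitive)
    (f : ℕ) (hχ : χ ^ (l ^ f) = χ) :
    gaussSum χ ψ ^ (l ^ f - 1) = χ⁻¹ ((l : ZMod r) ^ f) := by
  have hr0 : ((Fintype.card (ZMod r) : ℕ) : A) ≠ 0 := by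
    rw [ZMod.card, Ne, CharP.cast_eq_zero_iff A l]
    exact fun h => hlr ((Nat.prime_dvd_prime_iff_eq (Fact.out : l.Prime) (Fact.out : r.Prime)).mp h)
  have hg : gaussSum χ ψ ≠ 0 := gaussSum_ne_zero_of_nontrivial hr0 hχ1 hψ
  apply mul_right_cancel₀ hg
  rw [← pow_succ, Nat.sub_add_cancel (Nat.one_le_pow _ _ (Fact.out : l.Prime).pos),
    gaussSum_pow_prime_pow_eq l hlr χ ψ f hχ]

/-- A root of unity `ζ ≠ 1` of order dividing `n` in a domain which becomes `1` under a ring hom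
forces `n = 0` in the target. -/
theorem natCast_eq_zero_of_map_eq_one [IsDomain A] {B : Type*} [CommRing B] (φ : A →+* B)
    {ζ : A} {n : ℕ} (hζn : ζ ^ n = 1) (hζ1 : ζ ≠ 1) (hφ : φ ζ = 1) : (n : B) = 0 := by
  have h0 : ∑ i ∈ range n, ζ ^ i = 0 := by
    have h := mul_geom_sum ζ n
    rw [hζn, sub_self] at h
    exact (mul_eq_zero.mp h).resolve_left (sub_ne_zero.mpr hζ1)
  have := congrArg φ h0
  simpa [map_sum, map_pow, hφ] using this

/-- Main congruence: `g ^ (q - 1) ≡ χ⁻¹(q)` modulo a prime ideal over `l`, `q = l ^ f`. -/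
theorem gaussSum_pow_pred_sub_mem [IsDomain A] (P : Ideal A) [P.IsPrime] {p l : ℕ}
    [Fact l.Prime] (hlP : (l : A) ∈ P) (hlr : l ≠ r) (hlp : l ≠ p) (hp : p.Prime)
    {χ : MulChar (ZMod r) A} (hχ1 : χ ≠ 1) (hχp : χ ^ p = 1) {ψ : AddChar (ZMod r) A}
    (hψ : ψ ≠ 1) (f : ℕ) (hpf : p ∣ l ^ f - 1) :
    gaussSum χ ψ ^ (l ^ f - 1) - χ⁻¹ ((l : ZMod r) ^ f) ∈ P := by
  have hl : l.Prime := Fact.out
  have hr : r.Prime := Fact.out
  have : CharP (A ⧸ P) l := by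
    rw [CharP.charP_iff_prime_eq_zero hl]
    simpa using (Ideal.Quotient.eq_zero_iff_mem (I := P)).mpr hlP
  set π := Ideal.Quotient.mk P with hπ
  -- the reduced characters are still nontrivial
  have hχ1' : χ.ringHomComp π ≠ 1 := by
    intro h
    obtain ⟨a, ha⟩ := MulChar.ne_one_iff.mp hχ1
    have hζp : χ a ^ p = 1 := by
      rw [← MulChar.pow_apply_coe, hχp, MulChar.one_apply_coe]
    have hπζ : π (χ a) = 1 := by
      rw [← MulChar.ringHomComp_apply, h, MulChar.one_apply_coe]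
    have h0 := natCast_eq_zero_of_map_eq_one π hζp ha hπζ
    rw [CharP.cast_eq_zero_iff (A ⧸ P) l] at h0
    exact hlp ((Nat.prime_dvd_prime_iff_eq hl hp).mp h0)
  have hψ1' : (π : A →* A ⧸ P).compAddChar ψ ≠ 1 := by
    intro h
    obtain ⟨x, hx⟩ := AddChar.ne_one_iff.mp hψ
    have hωr : ψ x ^ r = 1 := by
      rw [← AddChar.map_nsmul_eq_pow]
      have : r • x = 0 := by
        rw [nsmul_eq_mul, ZMod.natCast_self, zero_mul]
      rw [this, AddChar.map_zero_eq_one]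
    have hπω : π (ψ x) = 1 := by
      have := DFunLike.congr_fun h x
      simpa using this
    have h0 := natCast_eq_zero_of_map_eq_one π hωr hx hπω
    rw [CharP.cast_eq_zero_iff (A ⧸ P) l] at h0
    exact hlr ((Nat.prime_dvd_prime_iff_eq hl hr).mp h0)
  have hχq : χ ^ (l ^ f) = χ := by
    obtain ⟨m, hm⟩ := hpf
    have : l ^ f = p * m + 1 := by
      have := Nat.one_le_pow f l hl.pos
      omega
    rw [this, pow_succ, pow_mul, hχp, one_pow, one_mul]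
  have h1 := gaussSum_pow_pred_eq (A := A ⧸ P) l hlr hχ1' (AddChar.IsPrimitive.of_ne_one hψ1') f
    (by rw [MulChar.ringHomComp_pow, hχq])
  rw [← Ideal.Quotient.eq_zero_iff_mem, map_sub, map_pow, sub_eq_zero, map_gaussSum, h1,
    MulChar.ringHomComp_inv, MulChar.ringHomComp_apply]

/-- Symbol form: `(g ^ p) ^ ((q - 1) / p) ≡ χ⁻¹(q)` modulo a prime ideal over `l`, `q = l ^ f`. -/
theorem gaussSum_pow_pow_div_sub_mem [IsDomain A] (P : Ideal A) [P.IsPrime] {p l : ℕ}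
    [Fact l.Prime] (hlP : (l : A) ∈ P) (hlr : l ≠ r) (hlp : l ≠ p) (hp : p.Prime)
    {χ : MulChar (ZMod r) A} (hχ1 : χ ≠ 1) (hχp : χ ^ p = 1) {ψ : AddChar (ZMod r) A}
    (hψ : ψ ≠ 1) (f : ℕ) (hpf : p ∣ l ^ f - 1) :
    (gaussSum χ ψ ^ p) ^ ((l ^ f - 1) / p) - χ⁻¹ ((l : ZMod r) ^ f) ∈ P := by
  rw [← pow_mul, Nat.mul_div_cancel' hpf]
  exact gaussSum_pow_pred_sub_mem P hlP hlr hlp hp hχ1 hχp hψ f hpf

end Core
end Fermat.Agent.S14.helper2767
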