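/-
S14 / M7 leaf KSTR + KS + RN (board #611, owner helper6965).

Kummer extensions `M = K(γ^(1/p))` of number fields with `ζ_p ∈ K`:
* `kummer_structure` : `M / K` is Galois and some `σ ∈ Gal(M/K)` has `σ θ = ζ θ`;
* `stmt_KummerSplit` : `helper2797.Stmt_KummerSplit p` (a good prime at which `γ` is a `p`-th
  power residue has a prime of relative degree one above it);
* `stmt_RamNorm` : `helper2797.Stmt_RamNorm p` (if `p ∤ ord_R γ` then relative norms of integers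
  are `p`-th powers modulo `R`).
-/
import Mathlib
import Fermat.Agent.S14.helper2797_CrossingSpec
import Fermat.Agent.S14.helper4373_KummerDecomp

set_option autoImplicit false

namespace Fermat.Agent.S14.helper6965

open NumberField Polynomial IntermediateField

section KSTR

variable {p : ℕ} [hp : Fact p.Prime] {K M : Type} [Field K] [NumberField K] [Field M]
  [NumberField M] [Algebra K M]

omit [NumberField K] in
/-- An element of `𝓞 K` which is not a `p`-th power in `𝓞 K` is not a `p`-th power in `K`. -/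
theorem field_pow_ne {γ : 𝓞 K} (h : ¬ ∃ x : 𝓞 K, x ^ p = γ) (b : K) :
    b ^ p ≠ algebraMap (𝓞 K) K γ := by
  intro hb
  have hint : IsIntegral ℤ b :=
    IsIntegral.of_pow hp.out.pos (hb ▸ RingOfIntegers.isIntegral_coe γ)
  obtain ⟨x, hx⟩ : ∃ x : 𝓞 K, algebraMap (𝓞 K) K x = b := ⟨⟨b, hint⟩, rfl⟩
  refine h ⟨x, RingOfIntegers.coe_injective ?_⟩
  rw [map_pow, hx, hb]

omit [NumberField K] in
theorem irreducible_X_pow_sub_C_coe {γ : 𝓞 K} (h : ¬ ∃ x : 𝓞 K, x ^ p = γ) :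
    Irreducible (X ^ p - C (algebraMap (𝓞 K) K γ)) :=
  X_pow_sub_C_irreducible_of_prime hp.out (field_pow_ne h)

omit hp [NumberField K] [NumberField M] in
theorem coe_pow_eq_algebraMap {γ : 𝓞 K} {θ : 𝓞 M}
    (h : θ ^ p = algebraMap (𝓞 K) (𝓞 M) γ) :
    (algebraMap (𝓞 M) M θ) ^ p = algebraMap K M (algebraMap (𝓞 K) K γ) := by
  rw [← map_pow, h, ← IsScalarTower.algebraMap_apply (𝓞 K) (𝓞 M) M,
    IsScalarTower.algebraMap_apply (𝓞 K) K M]

theorem adjoin_coe_eq_top {γ : 𝓞 K} {θ : 𝓞 M} (h : helper2797.IsKummerExt p K M γ θ) :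
    K⟮algebraMap (𝓞 M) M θ⟯ = ⊤ := by
  rw [Field.primitive_element_iff_minpoly_natDegree_eq, h.finrank_eq]
  have hirr := irreducible_X_pow_sub_C_coe h.not_pow
  have hmin : minpoly K (algebraMap (𝓞 M) M θ) = X ^ p - C (algebraMap (𝓞 K) K γ) := by
    symm
    refine minpoly.eq_of_irreducible_of_monic hirr ?_ (monic_X_pow_sub_C _ hp.out.ne_zero)
    simp [coe_pow_eq_algebraMap h.pow_eq]
  rw [hmin, natDegree_X_pow_sub_C]

/-- **KSTR**: a Kummer extension `M = K(θ)`, `θ ^ p = γ`, of number fields with `ζ_p ∈ K` is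
Galois, and some automorphism multiplies `θ` by `ζ`. -/
theorem kummer_structure {ζ : 𝓞 K} (hζ : IsPrimitiveRoot ζ p) {γ : 𝓞 K} {θ : 𝓞 M}
    (h : helper2797.IsKummerExt p K M γ θ) :
    IsGalois K M ∧ ∃ σ : Gal(M/K), σ (algebraMap (𝓞 M) M θ) =
      algebraMap K M (algebraMap (𝓞 K) K ζ) * algebraMap (𝓞 M) M θ := by
  have hirr := irreducible_X_pow_sub_C_coe h.not_pow
  have hζK : IsPrimitiveRoot (algebraMap (𝓞 K) K ζ) p :=
    hζ.map_of_injective RingOfIntegers.coe_injective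
  have hne : (primitiveRoots p K).Nonempty :=
    ⟨_, (mem_primitiveRoots hp.out.pos).mpr hζK⟩
  have hθ := coe_pow_eq_algebraMap h.pow_eq
  have htop := adjoin_coe_eq_top h
  have : NeZero p := ⟨hp.out.ne_zero⟩
  have hfin : Module.finrank K M = p := h.finrank_eq
  have hsplit : IsSplittingField K M (X ^ p - C (algebraMap (𝓞 K) K γ)) := by
    have := isSplittingField_X_pow_sub_C_of_root_adjoin_eq_top (K := K) (L := M)
      (hfin.symm ▸ hne) (a := algebraMap (𝓞 K) K γ) (α := algebraMap (𝓞 M) M θ)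
      (hfin.symm ▸ hθ) htop
    rwa [hfin] at this
  refine ⟨isGalois_of_isSplittingField_X_pow_sub_C hne hirr M, ?_⟩
  refine ⟨(autEquivZmod hirr M hζK).symm (Multiplicative.ofAdd ((1 : ℕ) : ZMod p)), ?_⟩
  rw [autEquivZmod_symm_apply_natCast hirr M hθ hζK 1, pow_one, Algebra.smul_def]

/-- The same automorphism, acting on the ring of integers. -/
theorem kummer_structure_int {ζ : 𝓞 K} (hζ : IsPrimitiveRoot ζ p) {γ : 𝓞 K} {θ : 𝓞 M}
    (h : helper2797.IsKummerExt p K M γ θ) :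
    IsGalois K M ∧ ∃ σ : Gal(M/K), σ • θ = algebraMap (𝓞 K) (𝓞 M) ζ * θ := by
  obtain ⟨hgal, σ, hσ⟩ := kummer_structure hζ h
  refine ⟨hgal, σ, RingOfIntegers.coe_injective ?_⟩
  rw [map_mul, ← IsScalarTower.algebraMap_apply (𝓞 K) (𝓞 M) M,
    IsScalarTower.algebraMap_apply (𝓞 K) K M, ← hσ]
  rfl

end KSTR

section Leaves

variable (p : ℕ) [hp : Fact p.Prime]

/-- **Leaf KS** (board #611): `helper2797.Stmt_KummerSplit p`. -/
theorem stmt_KummerSplit : helper2797.Stmt_KummerSplit p := by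
  intro K M _ _ _ _ _ ζ hζ γ θ h P hP hP0 hpP hγP hpow
  obtain ⟨hgal, σ, hσ⟩ := kummer_structure_int hζ h
  have hGG := helper4373.isGaloisGroup_ringOfIntegers K M
  have hcard : Nat.card Gal(M/K) = p := (helper4373.card_gal_eq_finrank K M).trans h.finrank_eq
  have hPmax : P.IsMaximal := hP.isMaximal hP0
  have hζP : ζ - 1 ∉ P := fun hmem =>
    hpP (P.mem_of_dvd (hζ.sub_one_dvd_natCast hp.out.one_lt) hmem)
  have hsplit : (P.primesOver (𝓞 M)).ncard = p :=
    (helper4373.kummer_split_iff (G := Gal(M/K)) hp.out hcard P hζ hζP hσ h.pow_eq hγP).mpr hpow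
  have hf : P.inertiaDegIn (𝓞 M) = 1 := by
    rcases helper4373.trichotomy (B := 𝓞 M) (G := Gal(M/K)) hp.out hcard P with h' | h' | h'
    · exact h'.2.2
    · exact absurd (hsplit ▸ h'.1) hp.out.one_lt.ne'
    · exact absurd (hsplit ▸ h'.1) hp.out.one_lt.ne'
  obtain ⟨⟨W, hW1, hW2⟩⟩ := Ideal.nonempty_primesOver (S := 𝓞 M) P
  have hWmax : W.IsMaximal := Ideal.IsMaximal.of_liesOver_isMaximal W P
  have hfW : W.inertiaDeg (𝓞 K) = 1 := by
    rw [← Ideal.inertiaDegIn_eq_inertiaDeg P W Gal(M/K)]; exact hf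
  refine ⟨W, hW1, (Ideal.over_def W P).symm, ?_⟩
  rw [Ideal.absNorm_apply, Ideal.absNorm_apply, Submodule.cardQuot_apply, Submodule.cardQuot_apply]
  symm
  refine Nat.card_eq_of_bijective (Ideal.quotientMap W (algebraMap (𝓞 K) (𝓞 M)) (by
    rw [Ideal.over_def W P])) ⟨?_, ?_⟩
  · refine Ideal.quotientMap_injective' ?_
    rw [Ideal.over_def W P]
  · intro z
    obtain ⟨z, rfl⟩ := Ideal.Quotient.mk_surjective z
    obtain ⟨y, hy⟩ := helper4373.exists_sub_mem_of_inertiaDeg_eq_one P W hfW z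
    refine ⟨Ideal.Quotient.mk P y, ?_⟩
    rw [Ideal.quotientMap_mk]
    symm
    rw [Ideal.Quotient.eq]
    exact hy

/-- **Leaf RN** (board #611): `helper2797.Stmt_RamNorm p`. -/
theorem stmt_RamNorm : helper2797.Stmt_RamNorm p := by
  intro K M _ _ _ _ _ ζ hζ γ θ h R hR hpR hk y
  obtain ⟨k, hk, hγk, hγk'⟩ := hk
  obtain ⟨hgal, σ, hσ⟩ := kummer_structure_int hζ h
  have hGG := helper4373.isGaloisGroup_ringOfIntegers K M
  have hcard : Nat.card Gal(M/K) = p := (helper4373.card_gal_eq_finrank K M).trans h.finrank_eq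
  have hR0 : R ≠ ⊥ := by
    rintro rfl
    have hk0 : k ≠ 0 := by rintro rfl; exact hk (dvd_zero p)
    have hγ0 : γ = 0 := by
      have : (⊥ : Ideal (𝓞 K)) ^ k = ⊥ := by
        rw [← Ideal.zero_eq_bot, zero_pow hk0]
      rw [this] at hγk
      simpa using hγk
    exact hγk' (hγ0 ▸ zero_mem _)
  have hRmax : R.IsMaximal := hR.isMaximal hR0
  obtain ⟨h1, he, hf⟩ := helper4373.kummer_ramified (B := 𝓞 M) (G := Gal(M/K)) hp.out hcard R hR0
    h.pow_eq hk hγk hγk'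
  obtain ⟨⟨w, hw1, hw2⟩⟩ := Ideal.nonempty_primesOver (S := 𝓞 M) R
  have hwmax : w.IsMaximal := Ideal.IsMaximal.of_liesOver_isMaximal w R
  have hfw : w.inertiaDeg (𝓞 K) = 1 := by
    rw [← Ideal.inertiaDegIn_eq_inertiaDeg R w Gal(M/K)]; exact hf
  obtain ⟨b, hb⟩ := helper4373.exists_sub_mem_of_inertiaDeg_eq_one R w hfw y
  refine ⟨b, ?_⟩
  have hnorm : algebraMap (𝓞 K) (𝓞 M) (Algebra.intNorm (𝓞 K) (𝓞 M) y)
      = ∏ τ : Gal(M/K), τ • y := by
    apply RingOfIntegers.coe_injective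
    rw [← IsScalarTower.algebraMap_apply (𝓞 K) (𝓞 M) M, IsScalarTower.algebraMap_apply (𝓞 K) K M,
      Algebra.algebraMap_intNorm (A := 𝓞 K) (K := K) (L := M) (B := 𝓞 M) y,
      Algebra.norm_eq_prod_automorphisms K, map_prod]
    rfl
  have hmem : ∀ τ : Gal(M/K), τ • y - algebraMap (𝓞 K) (𝓞 M) b ∈ w := fun τ => by
    have h2 := helper4373.smul_sub_mem_of_totally_ramified R h1 hf w τ y
    have e : τ • y - algebraMap (𝓞 K) (𝓞 M) b
        = (τ • y - y) + (y - algebraMap (𝓞 K) (𝓞 M) b) := by ring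
    rw [e]; exact w.add_mem h2 hb
  have hprod : ∏ τ : Gal(M/K), τ • y - (algebraMap (𝓞 K) (𝓞 M) b) ^ p ∈ w := by
    rw [← Ideal.Quotient.eq, map_prod, map_pow]
    have h3 : ∀ τ : Gal(M/K), Ideal.Quotient.mk w (τ • y)
        = Ideal.Quotient.mk w (algebraMap (𝓞 K) (𝓞 M) b) := fun τ =>
      Ideal.Quotient.eq.mpr (hmem τ)
    rw [Finset.prod_congr rfl (fun τ _ => h3 τ), Finset.prod_const, Finset.card_univ,
      ← Nat.card_eq_fintype_card, hcard]
  have h4 : algebraMap (𝓞 K) (𝓞 M) (Algebra.intNorm (𝓞 K) (𝓞 M) y - b ^ p) ∈ w := by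
    rw [map_sub, map_pow, hnorm]; exact hprod
  have h5 : Algebra.intNorm (𝓞 K) (𝓞 M) y - b ^ p ∈ w.under (𝓞 K) := h4
  rwa [← Ideal.over_def w R] at h5

end Leaves

end Fermat.Agent.S14.helper6965
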