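import Fermat.Agent.S14.helper2797_CrossingSpec

/-!
# S14 / M7, leaf KE: existence of Kummer extensions as number fields in `Type`

For a number field `K : Type`, a prime `p` and `γ : 𝓞 K` which is not a `p`-th power in `𝓞 K`,
the field `M := K[X]/(X^p - γ)` is a number field of degree `p` over `K` and the class `θ` of `X`
is an algebraic integer of `M` with `θ ^ p = γ`.

Main result: `stmt_KummerExists : helper2797.Stmt_KummerExists p`.
-/

set_option autoImplicit false

namespace Fermat.Agent.S14.helper7715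

open NumberField Polynomial

/-- An element of a number field whose `p`-th power is an algebraic integer is an algebraic
integer (`p ≠ 0`). -/
theorem isIntegral_of_pow_eq_coe {K : Type} [Field K] [NumberField K] {p : ℕ} (hp : p ≠ 0)
    (γ : 𝓞 K) (b : K) (hb : b ^ p = (γ : K)) : IsIntegral ℤ b := by
  have h : IsIntegral ℤ (b ^ p) := by
    rw [hb]
    exact γ.2
  exact IsIntegral.of_pow (Nat.pos_of_ne_zero hp) h

/-- If `γ : 𝓞 K` is not a `p`-th power in `𝓞 K`, then it is not a `p`-th power in `K`. -/
theorem not_pow_in_field {K : Type} [Field K] [NumberField K] {p : ℕ} (hp : p ≠ 0)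
    (γ : 𝓞 K) (hγ : ¬ ∃ x : 𝓞 K, x ^ p = γ) (b : K) : b ^ p ≠ (γ : K) := by
  intro hb
  apply hγ
  refine ⟨⟨b, isIntegral_of_pow_eq_coe hp γ b hb⟩, ?_⟩
  apply RingOfIntegers.ext
  simpa using hb

/-- **Leaf KE**: existence of the Kummer extension `K(γ^(1/p))` as a number field in `Type`. -/
theorem stmt_KummerExists (p : ℕ) [hpF : Fact p.Prime] : helper2797.Stmt_KummerExists p := by
  intro K _ _ γ hγ
  have hp : p.Prime := hpF.out
  have hp0 : p ≠ 0 := hp.ne_zero
  set f : K[X] := X ^ p - C (γ : K) with hf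
  have hirr : Irreducible f :=
    X_pow_sub_C_irreducible_of_prime hp (not_pow_in_field hp0 γ hγ)
  have : Fact (Irreducible f) := ⟨hirr⟩
  have hmonic : f.Monic := monic_X_pow_sub_C (γ : K) hp0
  have hdeg : f.natDegree = p := natDegree_X_pow_sub_C
  have hf0 : f ≠ 0 := hmonic.ne_zero
  -- the field `M`
  let M : Type := AdjoinRoot f
  let _ : Field M := AdjoinRoot.instField
  let _ : Algebra K M := AdjoinRoot.instAlgebra f
  have : Module.Finite K M := (AdjoinRoot.powerBasis hf0).finite
  have : NumberField M := NumberField.of_module_finite K M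
  have hroot : (AdjoinRoot.root f : M) ^ p = algebraMap K M (γ : K) := by
    have h := AdjoinRoot.eval₂_root f
    rw [hf, eval₂_sub, eval₂_X_pow, eval₂_C, sub_eq_zero] at h
    exact h
  have hint : IsIntegral ℤ (AdjoinRoot.root f : M) := by
    have h : IsIntegral ℤ ((AdjoinRoot.root f : M) ^ p) := by
      rw [hroot]
      exact (γ.2 : IsIntegral ℤ (γ : K)).algebraMap
    exact IsIntegral.of_pow (Nat.pos_of_ne_zero hp0) h
  refine ⟨M, inferInstance, inferInstance, inferInstance, ⟨AdjoinRoot.root f, hint⟩, ?_, ?_, hγ⟩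
  · rw [(AdjoinRoot.powerBasis hf0).finrank, AdjoinRoot.powerBasis_dim, hdeg]
  · apply RingOfIntegers.ext
    have h : ((algebraMap (𝓞 K) (𝓞 M) γ : 𝓞 M) : M) = algebraMap K M (γ : K) := rfl
    rw [h, ← hroot]
    rfl

end Fermat.Agent.S14.helper7715
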