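import Fermat.Agent.S14.helper4679_GaussSymbol

/-!
# S14 / module M3 (GAUSS), part 2: further properties of `gaussDelta`

* `gaussDelta_mem_adjoin` : `gaussDelta χ ∈ ℤ[μ]` for `μ` a primitive `orderOf χ`-th root of unity.
* `gaussDelta_mul_gaussDelta_inv` : `gaussDelta χ * gaussDelta χ⁻¹ = #F ^ orderOf χ`.
* `gaussDelta_ne_zero`.
* `gaussDelta_pow_eq_mul` (Kummer equivariance):
  `gaussDelta χ ^ t = gaussDelta (χ ^ t) * (∏_{1 ≤ j < t} J(χ, χ^j)) ^ p` for `1 ≤ t < p = orderOf χ`.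
* `map_gaussDelta_eq_gaussDelta_pow` : `τ (gaussDelta χ) = gaussDelta (χ ^ t)` if `τ` raises the values
  of `χ` to the `t`-th power.
* `exists_mulChar_zmod_orderOf`, `map_gaussDelta_pow_zmod` : specialisation to `F = ZMod r`.
-/

set_option autoImplicit false

namespace Fermat.Agent.S14.helper4679

open Finset MulChar AddChar

universe u v

section Integrality

variable {F : Type*} [Field F] [Fintype F] {R : Type*} [CommRing R] [IsDomain R]

/-- `gaussDelta χ` lies in `ℤ[μ]` for `μ` a primitive `orderOf χ`-th root of unity. -/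
theorem gaussDelta_mem_adjoin (χ : MulChar F R) {μ : R} (hμ : IsPrimitiveRoot μ (orderOf χ)) :
    gaussDelta χ ∈ Algebra.adjoin ℤ {μ} := by
  have : NeZero (orderOf χ) := ⟨χ.orderOf_pos.ne'⟩
  have hχ : χ ^ orderOf χ = 1 := pow_orderOf_eq_one χ
  unfold gaussDelta
  refine Subalgebra.mul_mem _ (Subalgebra.mul_mem _ ?_ (Subalgebra.natCast_mem _ _)) ?_
  · exact MulChar.apply_mem_algebraAdjoin_of_pow_eq_one hχ hμ _
  · refine Subalgebra.prod_mem _ fun i _ => ?_
    refine jacobiSum_mem_algebraAdjoin_of_pow_eq_one hχ ?_ hμ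
    rw [← pow_mul, mul_comm, pow_mul, hχ, one_pow]

end Integrality

section Extension

variable {F : Type v} [Field F] [Fintype F] {R : Type u} [CommRing R] [IsDomain R]

/-- A domain `R` with `ringChar R ≠ ringChar F` embeds into a field carrying a primitive additive
character of `F`. -/
theorem exists_embedding_primitive_addChar (hch : ringChar R ≠ ringChar F) :
    ∃ (K : Type u) (_ : Field K) (ι : R →+* K) (ψ : AddChar F K),
      Function.Injective ι ∧ ψ.IsPrimitive := by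
  let K₀ := FractionRing R
  have hinj₀ : Function.Injective (algebraMap R K₀) := IsFractionRing.injective R K₀
  have hch₀ : ringChar K₀ ≠ ringChar F := by
    have : CharP K₀ (ringChar R) := charP_of_injective_algebraMap hinj₀ (ringChar R)
    rw [ringChar.eq K₀ (ringChar R)]
    exact hch
  let ψ := FiniteField.primitiveChar F K₀ hch₀
  refine ⟨CyclotomicField ψ.n K₀, inferInstance,
    (algebraMap K₀ (CyclotomicField ψ.n K₀)).comp (algebraMap R K₀), ψ.char, ?_, ψ.prim⟩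
  exact (algebraMap K₀ (CyclotomicField ψ.n K₀)).injective.comp hinj₀

/-- `gaussDelta χ * gaussDelta χ⁻¹ = #F ^ orderOf χ`. -/
theorem gaussDelta_mul_gaussDelta_inv (hch : ringChar R ≠ ringChar F) {χ : MulChar F R}
    (hχ : χ ≠ 1) :
    gaussDelta χ * gaussDelta χ⁻¹ = (Fintype.card F : R) ^ orderOf χ := by
  obtain ⟨K, _, ι, ψ, hι, hψ⟩ := exists_embedding_primitive_addChar (F := F) (R := R) hch
  apply hι
  set χ' : MulChar F K := χ.ringHomComp ι with hχ'
  have hord : orderOf χ' = orderOf χ := orderOf_ringHomComp_of_injective hι χ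
  have hordinv : orderOf (χ⁻¹.ringHomComp ι) = orderOf χ⁻¹ :=
    orderOf_ringHomComp_of_injective hι χ⁻¹
  have hχ'1 : χ' ≠ 1 := (ringHomComp_ne_one_iff hι).mpr hχ
  have h2 : 2 ≤ orderOf χ' := by
    have h0 : 0 < orderOf χ' := χ'.orderOf_pos
    have h1 : orderOf χ' ≠ 1 := fun h => hχ'1 (orderOf_eq_one_iff.mp h)
    omega
  have h2' : 2 ≤ orderOf χ'⁻¹ := by rwa [orderOf_inv]
  have e1 : ι (gaussDelta χ) = gaussSum χ' ψ ^ orderOf χ' := by
    rw [gaussSum_pow_orderOf_eq_gaussDelta h2 hψ, hχ', gaussDelta_ringHomComp _ _ hord]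
  have e2 : ι (gaussDelta χ⁻¹) = gaussSum χ'⁻¹ ψ ^ orderOf χ' := by
    have := gaussSum_pow_orderOf_eq_gaussDelta h2' hψ
    rw [orderOf_inv] at this
    rw [this, hχ', ringHomComp_inv, gaussDelta_ringHomComp _ _ hordinv]
  have e3 : gaussSum χ'⁻¹ ψ = χ'⁻¹ (-1) * gaussSum χ'⁻¹ ψ⁻¹ :=
    (mul_gaussSum_inv_eq_gaussSum χ'⁻¹ ψ).symm
  have e4 : χ'⁻¹ (-1) ^ orderOf χ' = 1 := by
    have hpow : χ'⁻¹ ^ orderOf χ' = 1 := by rw [inv_pow, pow_orderOf_eq_one, inv_one]
    have h := MulChar.pow_apply_coe χ'⁻¹ (orderOf χ') (-1 : Fˣ)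
    rw [hpow, MulChar.one_apply_coe, Units.val_neg, Units.val_one] at h
    exact h.symm
  rw [map_mul, e1, e2, e3, mul_pow, e4, one_mul, ← mul_pow,
    gaussSum_mul_gaussSum_eq_card hχ'1 hψ, map_pow, map_natCast, hord]

/-- `gaussDelta χ ≠ 0` when `#F ≠ 0` in `R`. -/
theorem gaussDelta_ne_zero (hch : ringChar R ≠ ringChar F) {χ : MulChar F R} (hχ : χ ≠ 1) :
    gaussDelta χ ≠ 0 := by
  intro h
  have h1 := gaussDelta_mul_gaussDelta_inv hch hχ
  rw [h, zero_mul] at h1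
  have h2 : (Fintype.card F : R) = 0 := (pow_eq_zero_iff χ.orderOf_pos.ne').mp h1.symm
  obtain ⟨n, hp, hc⟩ := FiniteField.card F (ringChar F)
  rw [hc, Nat.cast_pow] at h2
  have h3 : ((ringChar F : ℕ) : R) = 0 := (pow_eq_zero_iff n.ne_zero).mp h2
  have h4 : ringChar R ∣ ringChar F := (ringChar.spec R _).mp h3
  rcases (Nat.dvd_prime hp).mp h4 with h5 | h5
  · exact CharP.ringChar_ne_one (R := R) h5
  · exact hch h5

/-- **Kummer equivariance of `gaussDelta`**: for a character `χ` of prime order `p` and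
`1 ≤ t < p`, `gaussDelta χ ^ t = gaussDelta (χ ^ t) * (∏_{1 ≤ j < t} J(χ, χ^j)) ^ p`. -/
theorem gaussDelta_pow_eq_mul (hch : ringChar R ≠ ringChar F) {p : ℕ} (hp : p.Prime)
    {χ : MulChar F R} (hχ : orderOf χ = p) {t : ℕ} (ht1 : 1 ≤ t) (htp : t < p) :
    gaussDelta χ ^ t = gaussDelta (χ ^ t) * (∏ j ∈ Ico 1 t, jacobiSum χ (χ ^ j)) ^ p := by
  obtain ⟨K, _, ι, ψ, hι, hψ⟩ := exists_embedding_primitive_addChar (F := F) (R := R) hch
  apply hι
  set χ' : MulChar F K := χ.ringHomComp ι with hχ'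
  have hord : orderOf χ' = orderOf χ := orderOf_ringHomComp_of_injective hι χ
  have hordp : orderOf χ' = p := hord.trans hχ
  have h2 : 2 ≤ orderOf χ' := hordp ▸ hp.two_le
  have hcop : Nat.Coprime p t :=
    hp.coprime_iff_not_dvd.mpr (Nat.not_dvd_of_pos_of_lt ht1 htp)
  have hordt : orderOf (χ ^ t) = p := by
    rw [orderOf_pow' χ (by omega : t ≠ 0), hχ, Nat.gcd_comm, Nat.Coprime.gcd_eq_one hcop.symm,
      Nat.div_one]
  have hordt' : orderOf (χ' ^ t) = p := by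
    rw [orderOf_pow' χ' (by omega : t ≠ 0), hordp, Nat.gcd_comm,
      Nat.Coprime.gcd_eq_one hcop.symm, Nat.div_one]
  have e1 : ι (gaussDelta χ) = gaussSum χ' ψ ^ p := by
    rw [← hordp, gaussSum_pow_orderOf_eq_gaussDelta h2 hψ, hχ', gaussDelta_ringHomComp _ _ hord]
  have e2 : ι (gaussDelta (χ ^ t)) = gaussSum (χ' ^ t) ψ ^ p := by
    have h2t : 2 ≤ orderOf (χ' ^ t) := hordt' ▸ hp.two_le
    have := gaussSum_pow_orderOf_eq_gaussDelta h2t hψ
    rw [hordt'] at this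
    rw [this, hχ', ringHomComp_pow, gaussDelta_ringHomComp]
    rw [← ringHomComp_pow, ← hχ', hordt', hordt]
  have e3 : gaussSum χ' ψ ^ t = gaussSum (χ' ^ t) ψ * ∏ j ∈ Ico 1 t, jacobiSum χ' (χ' ^ j) :=
    gaussSum_pow_eq_prod_jacobiSum_aux χ' ψ ht1 (hordp ▸ htp)
  have e4 : ι (∏ j ∈ Ico 1 t, jacobiSum χ (χ ^ j)) = ∏ j ∈ Ico 1 t, jacobiSum χ' (χ' ^ j) := by
    rw [map_prod]
    refine Finset.prod_congr rfl fun j _ => ?_
    rw [hχ', ringHomComp_pow, jacobiSum_ringHomComp]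
  rw [map_pow, map_mul, map_pow, e1, e2, e4, ← mul_pow, ← e3, ← pow_mul, ← pow_mul, mul_comm]

end Extension

section Galois

variable {F : Type*} [Field F] [Fintype F] {R : Type*} [CommRing R]

omit [Fintype F] in
/-- If the ring endomorphism `τ` raises every value of `χ` to the `t`-th power, then
`χ.ringHomComp τ = χ ^ t`. -/
theorem ringHomComp_eq_pow (τ : R →+* R) (χ : MulChar F R) {t : ℕ}
    (hτ : ∀ a : Fˣ, τ (χ a) = χ a ^ t) :
    χ.ringHomComp τ = χ ^ t := by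
  ext a
  rw [ringHomComp_apply, MulChar.pow_apply_coe, hτ]

/-- If `τ : R →+* R` raises every value of `χ` to the `t`-th power and `χ ^ t` has the same
order as `χ` then `τ (gaussDelta χ) = gaussDelta (χ ^ t)`. -/
theorem map_gaussDelta_eq_gaussDelta_pow (τ : R →+* R) (χ : MulChar F R) {t : ℕ}
    (hτ : ∀ a : Fˣ, τ (χ a) = χ a ^ t) (hord : orderOf (χ ^ t) = orderOf χ) :
    τ (gaussDelta χ) = gaussDelta (χ ^ t) := by
  have h := ringHomComp_eq_pow τ χ hτ
  rw [← gaussDelta_ringHomComp τ χ (by rw [h, hord]), h]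

end Galois

section ZModCase

variable {R : Type*} [CommRing R] [IsDomain R] {k : Type*} [Field k]

omit [IsDomain R] in
/-- Existence of a character of order `p` on `ZMod r` for `p ∣ r - 1`, with values in a ring
containing a primitive `p`-th root of unity. -/
theorem exists_mulChar_zmod_orderOf {r p : ℕ} [Fact r.Prime] (h : p ∣ r - 1) {ζ : R}
    (hζ : IsPrimitiveRoot ζ p) :
    ∃ χ : MulChar (ZMod r) R, orderOf χ = p := by
  refine MulChar.exists_mulChar_orderOf (ZMod r) ?_ hζ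
  rwa [ZMod.card]

/-- **Frobenius congruence for Gauss sums**, case `F = ZMod r`:
`φ (gaussDelta χ) ^ ((ℓ ^ f - 1) / p) = (φ (χ (ℓ ^ f)))⁻¹` for `ℓ ∉ {r, p}`, `p ∣ ℓ ^ f - 1`. -/
theorem map_gaussDelta_pow_zmod {r : ℕ} [Fact r.Prime] (φ : R →+* k) (ℓ : ℕ) [Fact ℓ.Prime]
    [CharP k ℓ] (hℓr : ℓ ≠ r) {p : ℕ} (hp : p.Prime) (hℓp : ℓ ≠ p) {χ : MulChar (ZMod r) R}
    (hχ : orderOf χ = p) (f : ℕ) (hf : p ∣ ℓ ^ f - 1) :
    φ (gaussDelta χ) ^ ((ℓ ^ f - 1) / p) = (φ (χ ((ℓ ^ f : ℕ) : ZMod r)))⁻¹ :=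
  map_gaussDelta_pow φ ℓ (by rwa [ZMod.ringChar_zmod_n]) hp hℓp hχ f hf

end ZModCase

end Fermat.Agent.S14.helper4679
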