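import Fermat.Agent.S14.helper2797_CrossingSpec
import Fermat.Agent.S14.helper4679_GaussDelta2
import Fermat.Agent.S14.helper2253_GaussVal

/-!
# S14 / M7-GAUSS: `helper2797.Stmt_Gauss p` from the ring-level Gauss-sum cores

Owner: helper9365 (board row 617).  For `K = ℚ(ζ_p)`, a prime `r ≡ 1 mod p` and a character
`χ` of order `p` on `ZMod r` with values in `𝓞 K` we take

* `δ := helper4679.gaussDelta χ` (`= g(χ)^p`, `= helper2253.delta χ p`),
* `c n := chiExp p ζ χ n`, the exponent with `χ(n) = ζ ^ c(n)`.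

Main results:

* `chi_eq_pow_chiExp`, `chiExp_mul`, `chiExp_eq_zero_iff` : the exponent function.
* `symEq_gaussDelta` : Frobenius congruence in the `helper2797.SymEq` shape, for every number
  field `F ⊇ K` and every prime `P ∤ p r` of `F`.
* `gaussDatum` : the `helper2797.GaussDatum`.
* `stmt_Gauss` : `helper2797.Stmt_Gauss p`.
-/

set_option autoImplicit false

namespace Fermat.Agent.S14.helper9365

open NumberField Finset

/-- The two definitions of `δ(χ) = g(χ)^p` on main agree. -/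
theorem gaussDelta_eq_delta {A : Type*} [CommRing A] {r p : ℕ} [Fact r.Prime]
    (χ : MulChar (ZMod r) A) (hχ : orderOf χ = p) :
    helper4679.gaussDelta χ = helper2253.delta χ p := by
  unfold helper4679.gaussDelta helper2253.delta
  rw [hχ, ZMod.card]

section Exponent

variable {A : Type*} [CommRing A] [IsDomain A] {p : ℕ} [Fact p.Prime] {r : ℕ} [Fact r.Prime]

open Classical in
/-- The exponent `c(n) : ZMod p` with `χ(n) = ζ ^ c(n)` (junk value `0` if there is none). -/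
noncomputable def chiExp (p : ℕ) (ζ : A) (χ : MulChar (ZMod r) A) (n : ℕ) : ZMod p :=
  if h : ∃ j : ZMod p, χ (n : ZMod r) = ζ ^ j.val then h.choose else 0

omit [Fact p.Prime] in
theorem isUnit_natCast_zmod {n : ℕ} (hn : ¬ r ∣ n) : IsUnit (n : ZMod r) := by
  rw [isUnit_iff_ne_zero, Ne, ZMod.natCast_eq_zero_iff]
  exact hn

omit [IsDomain A] in
theorem chi_pow_eq_one {χ : MulChar (ZMod r) A} (hχ : orderOf χ = p) {x : ZMod r}
    (hx : IsUnit x) : χ x ^ p = 1 := by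
  have hp : p ≠ 0 := (Fact.out : p.Prime).ne_zero
  rw [← MulChar.pow_apply' χ hp, ← hχ, pow_orderOf_eq_one, MulChar.one_apply hx]

theorem chi_eq_pow_chiExp {ζ : A} (hζ : IsPrimitiveRoot ζ p) {χ : MulChar (ZMod r) A}
    (hχ : orderOf χ = p) {n : ℕ} (hn : ¬ r ∣ n) :
    χ (n : ZMod r) = ζ ^ (chiExp p ζ χ n).val := by
  have hex : ∃ j : ZMod p, χ (n : ZMod r) = ζ ^ j.val := by
    have : NeZero p := ⟨(Fact.out : p.Prime).ne_zero⟩
    obtain ⟨i, hi, hi'⟩ := hζ.eq_pow_of_pow_eq_one (chi_pow_eq_one hχ (isUnit_natCast_zmod hn))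
    exact ⟨(i : ZMod p), by rw [ZMod.val_natCast_of_lt hi, hi']⟩
  unfold chiExp
  rw [dif_pos hex]
  exact hex.choose_spec

omit [IsDomain A] in
theorem pow_val_injective {ζ : A} (hζ : IsPrimitiveRoot ζ p) {a b : ZMod p}
    (h : ζ ^ a.val = ζ ^ b.val) : a = b := by
  have : NeZero p := ⟨(Fact.out : p.Prime).ne_zero⟩
  exact ZMod.val_injective p (hζ.pow_inj (ZMod.val_lt a) (ZMod.val_lt b) h)

omit [IsDomain A] in
theorem pow_val_add {ζ : A} (hζ : ζ ^ p = 1) (a b : ZMod p) :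
    ζ ^ (a + b).val = ζ ^ a.val * ζ ^ b.val := by
  have : NeZero p := ⟨(Fact.out : p.Prime).ne_zero⟩
  rw [ZMod.val_add, ← pow_add, ← pow_eq_pow_mod _ hζ]

omit [IsDomain A] in
theorem pow_val_neg {ζ : A} (hζ : ζ ^ p = 1) (a : ZMod p) :
    ζ ^ a.val * ζ ^ (-a).val = 1 := by
  rw [← pow_val_add hζ, add_neg_cancel, ZMod.val_zero, pow_zero]

/-- `c` is additive on integers prime to `r`. -/
theorem chiExp_mul {ζ : A} (hζ : IsPrimitiveRoot ζ p) {χ : MulChar (ZMod r) A}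
    (hχ : orderOf χ = p) {m n : ℕ} (hm : ¬ r ∣ m) (hn : ¬ r ∣ n) :
    chiExp p ζ χ (m * n) = chiExp p ζ χ m + chiExp p ζ χ n := by
  have hr : r.Prime := Fact.out
  have hmn : ¬ r ∣ m * n := fun h => (hr.dvd_mul.mp h).elim hm hn
  apply pow_val_injective hζ
  rw [pow_val_add hζ.pow_eq_one, ← chi_eq_pow_chiExp hζ hχ hmn, ← chi_eq_pow_chiExp hζ hχ hm,
    ← chi_eq_pow_chiExp hζ hχ hn, Nat.cast_mul, map_mul]

omit [IsDomain A] in
/-- A character of prime order `p` on `ZMod r` is trivial exactly on the `p`-th powers. -/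
theorem chi_eq_one_iff {χ : MulChar (ZMod r) A} (hχ : orderOf χ = p) {x : ZMod r}
    (hx : IsUnit x) : χ x = 1 ↔ ∃ y : ZMod r, y ^ p = x := by
  have hp : p.Prime := Fact.out
  constructor
  · intro h
    obtain ⟨g, hg⟩ := IsCyclic.exists_monoid_generator (α := (ZMod r)ˣ)
    have hg1 : χ (g : ZMod r) ≠ 1 := by
      intro hg1
      have hχ1 : χ = 1 := by
        ext a
        obtain ⟨k, hk⟩ := (Submonoid.mem_powers_iff _ _).mp (hg a)
        rw [MulChar.one_apply_coe, ← hk, Units.val_pow_eq_pow_val, map_pow, hg1, one_pow]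
      rw [hχ1, orderOf_one] at hχ
      exact hp.one_lt.ne hχ
    have hgp : χ (g : ZMod r) ^ p = 1 := chi_pow_eq_one hχ g.isUnit
    have hord : orderOf (χ (g : ZMod r)) = p := orderOf_eq_prime hgp hg1
    obtain ⟨k, hk⟩ := (Submonoid.mem_powers_iff _ _).mp (hg hx.unit)
    have hk' : χ (g : ZMod r) ^ k = 1 := by
      rw [← map_pow, ← Units.val_pow_eq_pow_val, hk, IsUnit.unit_spec, h]
    obtain ⟨k', rfl⟩ : p ∣ k := hord ▸ orderOf_dvd_of_pow_eq_one hk'
    refine ⟨((g ^ k' : (ZMod r)ˣ) : ZMod r), ?_⟩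
    rw [← Units.val_pow_eq_pow_val, ← pow_mul, mul_comm, hk, IsUnit.unit_spec]
  · rintro ⟨y, rfl⟩
    have hy : IsUnit y := (isUnit_pow_iff hp.ne_zero).mp hx
    rw [map_pow]
    exact chi_pow_eq_one hχ hy

/-- `c n = 0` iff `n` is a `p`-th power modulo `r`. -/
theorem chiExp_eq_zero_iff {ζ : A} (hζ : IsPrimitiveRoot ζ p) {χ : MulChar (ZMod r) A}
    (hχ : orderOf χ = p) {n : ℕ} (hn : ¬ r ∣ n) :
    chiExp p ζ χ n = 0 ↔ ∃ x : ZMod r, x ^ p = (n : ZMod r) := by
  rw [← chi_eq_one_iff hχ (isUnit_natCast_zmod hn)]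
  constructor
  · intro h
    rw [chi_eq_pow_chiExp hζ hχ hn, h, ZMod.val_zero, pow_zero]
  · intro h
    apply pow_val_injective hζ
    rw [← chi_eq_pow_chiExp hζ hχ hn, h, ZMod.val_zero, pow_zero]

end Exponent

section Frobenius

variable {p : ℕ} [Fact p.Prime] {K : Type} [Field K] {r : ℕ} [Fact r.Prime]

/-- **Frobenius congruence** in the `helper2797.SymEq` shape: for every number field `F ⊇ K`
and every prime `P ∤ p r` of `F`, `δ ^ ((N P - 1)/p) ≡ ζ ^ (- c(N P)) (mod P)`. -/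
theorem symEq_gaussDelta {ζ : 𝓞 K} (hζ : IsPrimitiveRoot ζ p)
    {χ : MulChar (ZMod r) (𝓞 K)} (hχ : orderOf χ = p)
    (F : Type) [Field F] [NumberField F] [Algebra K F] (P : Ideal (𝓞 F)) (hP : P.IsPrime)
    (hP0 : P ≠ ⊥) (hpP : (p : 𝓞 F) ∉ P) (hrP : (r : 𝓞 F) ∉ P) :
    helper2797.SymEq p (algebraMap (𝓞 K) (𝓞 F) ζ) P
      (algebraMap (𝓞 K) (𝓞 F) (helper4679.gaussDelta χ))
      (- chiExp p ζ χ (Ideal.absNorm P)) := by
  have hp : p.Prime := Fact.out
  have hr : r.Prime := Fact.out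
  have hmax : P.IsMaximal := hP.isMaximal hP0
  let _ : Field (𝓞 F ⧸ P) := Ideal.Quotient.field P
  have : Finite (𝓞 F ⧸ P) := Ideal.finiteQuotientOfFreeOfNeBot P hP0
  let _ : Fintype (𝓞 F ⧸ P) := Fintype.ofFinite _
  have : CharP (𝓞 F ⧸ P) (ringChar (𝓞 F ⧸ P)) := ringChar.charP _
  obtain ⟨f, hℓ, hcard⟩ := FiniteField.card (𝓞 F ⧸ P) (ringChar (𝓞 F ⧸ P))
  have : Fact (ringChar (𝓞 F ⧸ P)).Prime := ⟨hℓ⟩
  have hN : Ideal.absNorm P = ringChar (𝓞 F ⧸ P) ^ (f : ℕ) := by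
    rw [Ideal.absNorm_apply, Submodule.cardQuot_apply, Nat.card_eq_fintype_card, hcard]
  let φ : 𝓞 K →+* 𝓞 F ⧸ P := (Ideal.Quotient.mk P).comp (algebraMap (𝓞 K) (𝓞 F))
  have hℓr : ringChar (𝓞 F ⧸ P) ≠ r := by
    intro h
    apply hrP
    rw [← Ideal.Quotient.eq_zero_iff_mem, map_natCast, ← h]
    exact CharP.cast_eq_zero _ _
  have hℓp : ringChar (𝓞 F ⧸ P) ≠ p := by
    intro h
    apply hpP
    rw [← Ideal.Quotient.eq_zero_iff_mem, map_natCast, ← h]
    exact CharP.cast_eq_zero _ _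
  have hξp : φ ζ ^ p = 1 := by rw [← map_pow, hζ.pow_eq_one, map_one]
  have hξ1 : φ ζ ≠ 1 := by
    intro h
    apply hpP
    have hsum := congrArg φ (hζ.geom_sum_eq_zero hp.one_lt)
    rw [map_sum, map_zero] at hsum
    simp only [map_pow, h, one_pow, Finset.sum_const, Finset.card_range, nsmul_eq_mul,
      mul_one] at hsum
    rw [← Ideal.Quotient.eq_zero_iff_mem, map_natCast]
    exact hsum
  have hξ0 : φ ζ ≠ 0 := by
    intro h
    rw [h, zero_pow hp.ne_zero] at hξp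
    exact zero_ne_one hξp
  have hf : p ∣ ringChar (𝓞 F ⧸ P) ^ (f : ℕ) - 1 := by
    have h1 := FiniteField.pow_card_sub_one_eq_one (φ ζ) hξ0
    rw [hcard] at h1
    have := orderOf_dvd_of_pow_eq_one h1
    rwa [orderOf_eq_prime hξp hξ1] at this
  have key := helper4679.map_gaussDelta_pow_zmod φ (ringChar (𝓞 F ⧸ P)) hℓr hp hℓp hχ
    (f : ℕ) hf
  have hrN : ¬ r ∣ Ideal.absNorm P := by
    rw [hN]
    intro h
    exact hℓr ((Nat.prime_dvd_prime_iff_eq hr hℓ).mp (hr.dvd_of_dvd_pow h)).symm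
  unfold helper2797.SymEq
  rw [← Ideal.Quotient.eq_zero_iff_mem, map_sub, map_pow, map_pow, sub_eq_zero]
  change φ (helper4679.gaussDelta χ) ^ _ = φ ζ ^ _
  rw [hN, key, ← hN, chi_eq_pow_chiExp hζ hχ hrN, map_pow]
  exact inv_eq_of_mul_eq_one_right (pow_val_neg hξp _)

end Frobenius

/-- The Gauss datum attached to a character `χ` of order `p` on `ZMod r`, `r ≡ 1 mod p`,
with values in the ring of integers of the `p`-th cyclotomic field. -/
theorem gaussDatum (p : ℕ) [Fact p.Prime] (K : Type) [Field K] [NumberField K]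
    [IsCyclotomicExtension {p} ℚ K] {ζ : 𝓞 K} (hζ : IsPrimitiveRoot ζ p) {r : ℕ}
    [Fact r.Prime] (hrp : ¬ r ∣ p) {χ : MulChar (ZMod r) (𝓞 K)} (hχ : orderOf χ = p) :
    helper2797.GaussDatum p ζ r (helper4679.gaussDelta χ) (chiExp p ζ χ) := by
  have hp : p.Prime := Fact.out
  have : NeZero p := ⟨hp.ne_zero⟩
  have hδ : helper4679.gaussDelta χ = helper2253.delta χ p := gaussDelta_eq_delta χ hχ
  refine ⟨?_, ?_, ?_, ?_, ?_⟩
  · intro m n hm hn
    exact chiExp_mul hζ hχ hm hn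
  · intro n hn
    exact chiExp_eq_zero_iff hζ hχ hn
  · intro F _ _ _ P hP hP0 hpP hrP
    exact symEq_gaussDelta hζ hχ F P hP hP0 hpP hrP
  · intro R hR hrR
    have := hR
    rw [hδ]
    exact helper2253.delta_mem_and_notMem_pow_of_mem K hp.two_le hχ hrp R hrR
  · intro Q hQ hrQ
    have := hQ
    rw [hδ]
    exact helper2253.delta_notMem_of_natCast_notMem hp.two_le hχ Q hrQ

/-- **M3 in the form consumed by M7** (no hypothesis on `p` beyond primality). -/
theorem stmt_Gauss' (p : ℕ) [Fact p.Prime] : helper2797.Stmt_Gauss p := by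
  intro K _ _ _ ζ hζ r hr hrp
  have hp : p.Prime := Fact.out
  have : Fact r.Prime := ⟨hr⟩
  have hdvd : p ∣ r - 1 := ⟨r / p, by have := Nat.div_add_mod r p; omega⟩
  have hnd : ¬ r ∣ p := by
    intro h
    have h' := (Nat.prime_dvd_prime_iff_eq hr hp).mp h
    rw [h', Nat.mod_self] at hrp
    exact zero_ne_one hrp
  obtain ⟨χ, hχ⟩ := helper4679.exists_mulChar_zmod_orderOf (R := 𝓞 K) hdvd hζ
  exact ⟨helper4679.gaussDelta χ, chiExp p ζ χ, gaussDatum p K hζ hnd hχ⟩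

/-- **Board row 617 (S14-M7-GAUSS)**, in the announced shape. -/
theorem stmt_Gauss (p : ℕ) [Fact p.Prime] (_hp2 : p ≠ 2) : helper2797.Stmt_Gauss p :=
  stmt_Gauss' p

end Fermat.Agent.S14.helper9365
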