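import Fermat.Agent.S14.helper2797_CrossFinal
import Fermat.Agent.S14.helper7715_M7KummerExists
import Fermat.Agent.S14.helper6965_M7Kummer
import Fermat.Agent.S14.helper15_M7CycloNorm
import Fermat.Agent.S14.helper9365_M7Gauss
import Fermat.Agent.S14.helper1587_M7AuxPrime

/-!
# S14 / M7: assembly

`stmt_Cross`: `helper14.Stmt_Cross p` (M7 of the captain's Spec) from
* `helper2797.Stmt_SecondIneq p` (M6 in dual form; follows from `helper14.Stmt_SI p`, board row
  615), and
* `helper14.Stmt_WCKummer p` (M2b).

All other leaves (Kummer existence / splitting / ramified norm, cyclotomic norm, Gauss datum,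
auxiliary prime) are discharged by the landed files of helper7715, helper6965, helper15,
helper9365, helper1587.
-/

set_option autoImplicit false

namespace Fermat.Agent.S14.helper2797

/-- **M7** (crossing), modulo M6 (dual form) and M2b. -/
theorem stmt_Cross (p : ℕ) [Fact p.Prime] (hp2 : p ≠ 2) (hSI : Stmt_SecondIneq p)
    (hWC : helper14.Stmt_WCKummer p) : helper14.Stmt_Cross p :=
  stmt_Cross_of_leaves hp2 hSI (helper7715.stmt_KummerExists p) (helper6965.stmt_KummerSplit p)
    (helper6965.stmt_RamNorm p) (helper15.stmt_CycloNorm p) (helper9365.stmt_Gauss' p)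
    (helper1587.stmt_AuxPrime p hp2 hWC)

end Fermat.Agent.S14.helper2797
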