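import Mathlib
import Fermat.Agent.S14.helper14_Spec
import Fermat.Agent.S14.helper2797_CrossingSpec

/-!
# S14 / M7-DICT (board row 618): dictionary between the captain's valuation language and the
integral ideal language of the crossing module

Owner: helper975.  Consumer: helper2797 (M7, crossing ⇒ reciprocity).

* `valuation_eq_exp_neg_ord`      : `v.valuation K x = exp (- ord v x)` for `x ≠ 0`.
* `exists_unit_rep`     (UR)      : if `p ∣ ord v α` and `p ∣ ord v' α` then `α * c ^ p` is an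
  element of `𝓞 K` outside `v` and `v'` for a suitable `c ≠ 0`.
* `isSymAt_iff_symEq`   (DICT1)   : `helper14.IsSymAt` ↔ `helper2797.SymEq` for integers prime to `v`.
* `isSymAt_mul_pow_iff` (DICT2)   : `IsSymAt` does not change under multiplication by `p`-th powers.
* `isSymAt_zero_iff_isPowRes` (DICT3) : symbol `0` ↔ `p`-th power residue.
-/

set_option autoImplicit false

namespace Fermat.Agent.S14.helper975

open NumberField IsDedekindDomain
open Fermat.Agent.S14

/-! ## Valuation versus `ord` -/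

section Bridge

variable {K : Type} [Field K] [NumberField K]

/-- The `v`-adic valuation is `exp (- ord v x)`. -/
theorem valuation_eq_exp_neg_ord (v : HeightOneSpectrum (𝓞 K)) {x : K} (hx : x ≠ 0) :
    v.valuation K x = WithZero.exp (-(helper14.ord v x)) := by
  obtain ⟨⟨r, s⟩, rfl⟩ := IsLocalization.mk'_surjective (nonZeroDivisors (𝓞 K)) x
  have hr : r ≠ 0 := by
    rintro rfl
    simp at hx
  have hs : (s : 𝓞 K) ≠ 0 := nonZeroDivisors.coe_ne_zero s
  show v.valuation K (IsLocalization.mk' K r s) = _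
  rw [HeightOneSpectrum.valuation_of_mk', v.intValuation_if_neg hr, v.intValuation_if_neg hs]
  have hI : FractionalIdeal.spanSingleton (nonZeroDivisors (𝓞 K)) (IsLocalization.mk' K r s) ≠ 0 := by
    rw [Ne, FractionalIdeal.spanSingleton_eq_zero_iff]
    exact hx
  have key : FractionalIdeal.spanSingleton (nonZeroDivisors (𝓞 K)) (IsLocalization.mk' K r s) =
      FractionalIdeal.spanSingleton (nonZeroDivisors (𝓞 K)) ((algebraMap (𝓞 K) K) (s : 𝓞 K))⁻¹ *
        ((Ideal.span {r} : Ideal (𝓞 K)) : FractionalIdeal (nonZeroDivisors (𝓞 K)) K) := by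
    rw [FractionalIdeal.coeIdeal_span_singleton, FractionalIdeal.spanSingleton_mul_spanSingleton]
    congr 1
    rw [IsFractionRing.mk'_eq_div]
    field_simp
  unfold helper14.ord
  rw [FractionalIdeal.count_well_defined K v hI key]
  rw [← WithZero.exp_sub]
  congr 1
  ring

/-- A uniformizer at `v` which is a unit at `v' ≠ v`. -/
theorem exists_uniformizer_away (v v' : HeightOneSpectrum (𝓞 K)) (h : v ≠ v') :
    ∃ π : K, v.valuation K π = WithZero.exp (-1 : ℤ) ∧ v'.valuation K π = 1 := by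
  obtain ⟨π₀, hπ₀⟩ := v.intValuation_exists_uniformizer
  have hnle : ¬ v.asIdeal ^ 2 ≤ v'.asIdeal := by
    intro hle
    have := v'.isPrime
    have h1 : v.asIdeal ≤ v'.asIdeal := Ideal.IsPrime.le_of_pow_le hle
    exact h (HeightOneSpectrum.ext (v.isMaximal.eq_of_le v'.isPrime.ne_top h1))
  obtain ⟨z, hz, hz'⟩ := SetLike.not_le_iff_exists.1 hnle
  have hzv : v.intValuation z ≤ WithZero.exp (-(2 : ℤ)) := by
    have := (v.intValuation_le_pow_iff_mem z 2).2 hz
    simpa using this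
  by_cases hπ' : π₀ ∈ v'.asIdeal
  · refine ⟨algebraMap (𝓞 K) K (π₀ + z), ?_, ?_⟩
    · rw [HeightOneSpectrum.valuation_of_algebraMap, Valuation.map_add_eq_of_lt_left, hπ₀]
      rw [hπ₀]
      exact lt_of_le_of_lt hzv (WithZero.exp_lt_exp.2 (by norm_num))
    · rw [v'.valuation_eq_one_iff_notMem]
      intro hmem
      exact hz' (by simpa using v'.asIdeal.sub_mem hmem hπ')
  · exact ⟨algebraMap (𝓞 K) K π₀, by rw [HeightOneSpectrum.valuation_of_algebraMap, hπ₀],
      v'.valuation_eq_one_iff_notMem.2 hπ'⟩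

/-- Prescribed valuations at one or two primes. -/
theorem exists_valuation_eq_exp_pair (v v' : HeightOneSpectrum (𝓞 K)) (k k' : ℤ)
    (h : v = v' → k = k') :
    ∃ c : K, c ≠ 0 ∧ v.valuation K c = WithZero.exp k ∧ v'.valuation K c = WithZero.exp k' := by
  by_cases hvv : v = v'
  · subst hvv
    obtain rfl := h rfl
    obtain ⟨π, hπ⟩ := v.valuation_exists_uniformizer K
    have hπ0 : π ≠ 0 := by
      rintro rfl
      rw [map_zero] at hπ
      exact WithZero.exp_ne_zero hπ.symm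
    have hval : v.valuation K (π ^ (-k)) = WithZero.exp k := by
      rw [map_zpow₀, hπ, ← WithZero.exp_zsmul]
      simp
    exact ⟨π ^ (-k), zpow_ne_zero _ hπ0, hval, hval⟩
  · obtain ⟨π, hπ, hπ'⟩ := exists_uniformizer_away v v' hvv
    obtain ⟨ϖ, hϖ, hϖ'⟩ := exists_uniformizer_away v' v (Ne.symm hvv)
    have hπ0 : π ≠ 0 := by
      rintro rfl
      rw [map_zero] at hπ
      exact WithZero.exp_ne_zero hπ.symm
    have hϖ0 : ϖ ≠ 0 := by
      rintro rfl
      rw [map_zero] at hϖ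
      exact WithZero.exp_ne_zero hϖ.symm
    refine ⟨π ^ (-k) * ϖ ^ (-k'), mul_ne_zero (zpow_ne_zero _ hπ0) (zpow_ne_zero _ hϖ0), ?_, ?_⟩
    · rw [map_mul, map_zpow₀, map_zpow₀, hπ, hϖ', one_zpow, mul_one, ← WithZero.exp_zsmul]
      simp
    · rw [map_mul, map_zpow₀, map_zpow₀, hπ', hϖ, one_zpow, one_mul, ← WithZero.exp_zsmul]
      simp

/-- **(UR)** unit representative: if `p ∣ ord v α` and `p ∣ ord v' α`, then after multiplying `α`
by a `p`-th power it becomes an algebraic integer prime to `v` and `v'`. -/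
theorem exists_unit_rep (p : ℕ) [Fact p.Prime] (α : K) (hα : α ≠ 0)
    (v v' : HeightOneSpectrum (𝓞 K))
    (hv : (p : ℤ) ∣ helper14.ord v α) (hv' : (p : ℤ) ∣ helper14.ord v' α) :
    ∃ (a : 𝓞 K) (c : K), c ≠ 0 ∧ (a : K) = α * c ^ p ∧ a ∉ v.asIdeal ∧ a ∉ v'.asIdeal := by
  have hp : p.Prime := Fact.out
  obtain ⟨k, hk⟩ := hv
  obtain ⟨k', hk'⟩ := hv'
  have hpk : v = v' → k = k' := by
    rintro rfl
    have : (p : ℤ) * k = p * k' := by rw [← hk, ← hk']
    exact mul_left_cancel₀ (by exact_mod_cast hp.ne_zero) this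
  obtain ⟨c₀, hc₀, h1, h2⟩ := exists_valuation_eq_exp_pair v v' k k' hpk
  set β := α * c₀ ^ p with hβ
  have hβv : v.valuation K β = 1 := by
    rw [hβ, map_mul, map_pow, valuation_eq_exp_neg_ord v hα, hk, h1, ← WithZero.exp_nsmul,
      ← WithZero.exp_add]
    simp
  have hβv' : v'.valuation K β = 1 := by
    rw [hβ, map_mul, map_pow, valuation_eq_exp_neg_ord v' hα, hk', h2, ← WithZero.exp_nsmul,
      ← WithZero.exp_add]
    simp
  obtain ⟨n₁, ⟨d₁, hd₁⟩, e₁⟩ := v.exists_primeCompl_mul_eq_of_integer β hβv.le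
  obtain ⟨n₂, ⟨d₂, hd₂⟩, e₂⟩ := v'.exists_primeCompl_mul_eq_of_integer β hβv'.le
  have hd₁' : d₁ ∉ v.asIdeal := hd₁
  have hd₂' : d₂ ∉ v'.asIdeal := hd₂
  have key : ∃ n d : 𝓞 K, β * algebraMap (𝓞 K) K d = algebraMap (𝓞 K) K n ∧
      d ∉ v.asIdeal ∧ d ∉ v'.asIdeal := by
    by_cases c1 : d₁ ∈ v'.asIdeal
    · by_cases c2 : d₂ ∈ v.asIdeal
      · refine ⟨n₁ + n₂, d₁ + d₂, by rw [map_add, map_add, mul_add, e₁, e₂], ?_, ?_⟩
        · intro hmem
          exact hd₁' (by simpa using v.asIdeal.sub_mem hmem c2)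
        · intro hmem
          exact hd₂' (by simpa using v'.asIdeal.sub_mem hmem c1)
      · exact ⟨n₂, d₂, e₂, c2, hd₂'⟩
    · exact ⟨n₁, d₁, e₁, hd₁', c1⟩
  obtain ⟨n, d, e, hdv, hdv'⟩ := key
  have hd0 : d ≠ 0 := by
    rintro rfl
    exact hdv (zero_mem _)
  have hd0' : algebraMap (𝓞 K) K d ≠ 0 := by
    simpa using hd0
  have hdp : (algebraMap (𝓞 K) K d) ^ p = algebraMap (𝓞 K) K d * (algebraMap (𝓞 K) K d) ^ (p - 1) := by
    rw [← pow_succ', Nat.sub_add_cancel hp.one_le]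
  have hnv : n ∉ v.asIdeal := by
    rw [← v.valuation_eq_one_iff_notMem (K := K), ← e, map_mul, hβv, one_mul]
    exact v.valuation_eq_one_iff_notMem.2 hdv
  have hnv' : n ∉ v'.asIdeal := by
    rw [← v'.valuation_eq_one_iff_notMem (K := K), ← e, map_mul, hβv', one_mul]
    exact v'.valuation_eq_one_iff_notMem.2 hdv'
  refine ⟨n * d ^ (p - 1), c₀ * algebraMap (𝓞 K) K d, mul_ne_zero hc₀ hd0', ?_, ?_, ?_⟩
  · rw [RingOfIntegers.coe_eq_algebraMap, map_mul, map_pow, ← e, hβ, mul_pow, hdp]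
    ring
  · intro hmem
    rcases v.isPrime.mem_or_mem hmem with h | h
    · exact hnv h
    · exact hdv (v.isPrime.mem_of_pow_mem _ h)
  · intro hmem
    rcases v'.isPrime.mem_or_mem hmem with h | h
    · exact hnv' h
    · exact hdv' (v'.isPrime.mem_of_pow_mem _ h)

end Bridge

/-! ## The residue field at `v` -/

section Residue

variable {F : Type} [Field F] [NumberField F]

/-- Fermat's little theorem in the residue field of `v`. -/
theorem pow_absNorm_sub_one_sub_one_mem (v : HeightOneSpectrum (𝓞 F)) {b : 𝓞 F}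
    (hb : b ∉ v.asIdeal) : b ^ (Ideal.absNorm v.asIdeal - 1) - 1 ∈ v.asIdeal := by
  have := v.isMaximal
  let _ := Ideal.Quotient.field v.asIdeal
  have : Finite (𝓞 F ⧸ v.asIdeal) := Ideal.finiteQuotientOfFreeOfNeBot v.asIdeal v.ne_bot
  let _ := Fintype.ofFinite (𝓞 F ⧸ v.asIdeal)
  have hcard : Ideal.absNorm v.asIdeal = Fintype.card (𝓞 F ⧸ v.asIdeal) := by
    rw [Ideal.absNorm_apply, Submodule.cardQuot_apply, Nat.card_eq_fintype_card]
  have hne : (Ideal.Quotient.mk v.asIdeal b) ≠ 0 := by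
    rwa [Ne, Ideal.Quotient.eq_zero_iff_mem]
  have h1 := FiniteField.pow_card_sub_one_eq_one _ hne
  rw [← hcard] at h1
  rw [← Ideal.Quotient.mk_eq_mk_iff_sub_mem]
  simpa using h1

/-- `p ∣ N v - 1` when `𝓞 F` contains a primitive `p`-th root of unity and `v ∤ p`. -/
theorem dvd_absNorm_sub_one {p : ℕ} (hp : p.Prime) {ζ : 𝓞 F} (hζ : IsPrimitiveRoot ζ p)
    (v : HeightOneSpectrum (𝓞 F)) (hpv : (p : 𝓞 F) ∉ v.asIdeal) :
    p ∣ Ideal.absNorm v.asIdeal - 1 := by
  have := v.isMaximal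
  by_contra hnd
  have hcop : Nat.Coprime p (Ideal.absNorm v.asIdeal - 1) :=
    (Nat.Prime.coprime_iff_not_dvd hp).2 hnd
  have hζv : ζ ∉ v.asIdeal := by
    intro h
    have h' : ζ ^ p ∈ v.asIdeal := Ideal.pow_mem_of_mem _ h _ hp.pos
    rw [hζ.pow_eq_one] at h'
    exact v.isPrime.ne_top ((Ideal.eq_top_iff_one _).2 h')
  have h1 := pow_absNorm_sub_one_sub_one_mem v hζv
  have e1 : (Ideal.Quotient.mk v.asIdeal ζ) ^ (Ideal.absNorm v.asIdeal - 1) = 1 := by
    have := (Ideal.Quotient.mk_eq_mk_iff_sub_mem _ _).2 h1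
    simpa using this
  have e2 : (Ideal.Quotient.mk v.asIdeal ζ) ^ p = 1 := by
    rw [← map_pow, hζ.pow_eq_one, map_one]
  have e3 : (Ideal.Quotient.mk v.asIdeal ζ) ^ (Nat.gcd p (Ideal.absNorm v.asIdeal - 1)) = 1 :=
    pow_gcd_eq_one.2 ⟨e2, e1⟩
  rw [Nat.Coprime.gcd_eq_one hcop, pow_one] at e3
  have e4 : (Ideal.Quotient.mk v.asIdeal) (∑ i ∈ Finset.range p, ζ ^ i)
      = (p : 𝓞 F ⧸ v.asIdeal) := by
    rw [map_sum]
    simp [e3]
  rw [hζ.geom_sum_eq_zero hp.one_lt, map_zero] at e4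
  apply hpv
  rw [← Ideal.Quotient.eq_zero_iff_mem, map_natCast]
  exact e4.symm

/-- Congruent `v`-integers have congruent powers. -/
theorem valuation_pow_sub_pow_lt (v : HeightOneSpectrum (𝓞 F)) {y b : F}
    (hy : v.valuation F y ≤ 1) (hb : v.valuation F b ≤ 1) (h : v.valuation F (y - b) < 1)
    (n : ℕ) : v.valuation F (y ^ n - b ^ n) < 1 := by
  induction n with
  | zero => simp
  | succ n ih =>
    have e : y ^ (n + 1) - b ^ (n + 1) = y ^ n * (y - b) + (y ^ n - b ^ n) * b := by ring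
    rw [e]
    apply Valuation.map_add_lt
    · rw [map_mul, map_pow]
      calc v.valuation F y ^ n * v.valuation F (y - b) ≤ 1 * v.valuation F (y - b) :=
            mul_le_mul' (pow_le_one' hy n) le_rfl
        _ < 1 := by rwa [one_mul]
    · rw [map_mul]
      calc v.valuation F (y ^ n - b ^ n) * v.valuation F b
            ≤ v.valuation F (y ^ n - b ^ n) * 1 := mul_le_mul' le_rfl hb
        _ < 1 := by rwa [mul_one]

/-- Fermat's little theorem for `v`-units of the field. -/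
theorem valuation_pow_absNorm_sub_one_sub_one_lt (v : HeightOneSpectrum (𝓞 F)) {y : F}
    (hy : v.valuation F y = 1) :
    v.valuation F (y ^ (Ideal.absNorm v.asIdeal - 1) - 1) < 1 := by
  obtain ⟨b, hb⟩ := v.exists_valuation_sub_lt_of_integer hy.le 1
  rw [Units.val_one] at hb
  have hyb : v.valuation F (y - algebraMap (𝓞 F) F b) < 1 := by rwa [Valuation.map_sub_swap]
  have hb1 : v.valuation F (algebraMap (𝓞 F) F b) = 1 := by
    have e : algebraMap (𝓞 F) F b = y + (algebraMap (𝓞 F) F b - y) := by ring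
    rw [e, Valuation.map_add_eq_of_lt_left _ (by rwa [hy]), hy]
  have hbv : b ∉ v.asIdeal := (v.valuation_eq_one_iff_notMem).1 hb1
  have h1 := pow_absNorm_sub_one_sub_one_mem v hbv
  have h2 : v.valuation F (algebraMap (𝓞 F) F b ^ (Ideal.absNorm v.asIdeal - 1) - 1) < 1 := by
    have h2' := (v.valuation_lt_one_iff_mem (K := F) _).2 h1
    have e : algebraMap (𝓞 F) F (b ^ (Ideal.absNorm v.asIdeal - 1) - 1)
        = algebraMap (𝓞 F) F b ^ (Ideal.absNorm v.asIdeal - 1) - 1 := by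
      rw [map_sub, map_pow, map_one]
    rw [← e]
    exact h2'
  have h3 := valuation_pow_sub_pow_lt v hy.le hb1.le hyb (Ideal.absNorm v.asIdeal - 1)
  have e : y ^ (Ideal.absNorm v.asIdeal - 1) - 1
      = (y ^ (Ideal.absNorm v.asIdeal - 1) - algebraMap (𝓞 F) F b ^ (Ideal.absNorm v.asIdeal - 1))
        + (algebraMap (𝓞 F) F b ^ (Ideal.absNorm v.asIdeal - 1) - 1) := by ring
  rw [e]
  exact Valuation.map_add_lt _ h3 h2

/-- Euler's criterion in the residue field of `v`. -/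
theorem pow_div_sub_one_mem_iff_isPowRes {p : ℕ} (hp : p.Prime) (v : HeightOneSpectrum (𝓞 F))
    (hdvd : p ∣ Ideal.absNorm v.asIdeal - 1) {a : 𝓞 F} (ha : a ∉ v.asIdeal) :
    a ^ ((Ideal.absNorm v.asIdeal - 1) / p) - 1 ∈ v.asIdeal ↔
      helper2797.IsPowRes p v.asIdeal a := by
  have := v.isMaximal
  let _ := Ideal.Quotient.field v.asIdeal
  have : Finite (𝓞 F ⧸ v.asIdeal) := Ideal.finiteQuotientOfFreeOfNeBot v.asIdeal v.ne_bot
  have hpm : p * ((Ideal.absNorm v.asIdeal - 1) / p) = Ideal.absNorm v.asIdeal - 1 :=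
    Nat.mul_div_cancel' hdvd
  have hcard : Nat.card (𝓞 F ⧸ v.asIdeal) = Ideal.absNorm v.asIdeal := by
    rw [Ideal.absNorm_apply, Submodule.cardQuot_apply]
  constructor
  · intro h
    have hne : (Ideal.Quotient.mk v.asIdeal a) ≠ 0 := by
      rwa [Ne, Ideal.Quotient.eq_zero_iff_mem]
    have h1 : (Ideal.Quotient.mk v.asIdeal a) ^ ((Ideal.absNorm v.asIdeal - 1) / p) = 1 := by
      have := (Ideal.Quotient.mk_eq_mk_iff_sub_mem _ _).2 h
      simpa using this
    obtain ⟨g, hg⟩ := IsCyclic.exists_generator (α := (𝓞 F ⧸ v.asIdeal)ˣ)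
    have hord : orderOf g = Ideal.absNorm v.asIdeal - 1 := by
      rw [orderOf_eq_card_of_forall_mem_zpowers hg, Nat.card_units, hcard]
    obtain ⟨t, ht⟩ := (mem_powers_iff_mem_zpowers.2 (hg (Units.mk0 _ hne)))
    have ht' : g ^ t = Units.mk0 _ hne := ht
    have h2 : g ^ (t * ((Ideal.absNorm v.asIdeal - 1) / p)) = 1 := by
      rw [pow_mul, ht']
      ext
      simpa using h1
    have h3 : Ideal.absNorm v.asIdeal - 1 ∣ t * ((Ideal.absNorm v.asIdeal - 1) / p) := by
      have h3' := orderOf_dvd_iff_pow_eq_one.2 h2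
      rwa [hord] at h3'
    have hN1 : 0 < Ideal.absNorm v.asIdeal - 1 := by
      rw [← hord]
      exact orderOf_pos g
    have hm0 : 0 < (Ideal.absNorm v.asIdeal - 1) / p := by
      rcases Nat.eq_zero_or_pos ((Ideal.absNorm v.asIdeal - 1) / p) with h0 | h0
      · rw [h0, mul_zero] at hpm
        omega
      · exact h0
    have h4 : p ∣ t := by
      have h3' : p * ((Ideal.absNorm v.asIdeal - 1) / p)
          ∣ t * ((Ideal.absNorm v.asIdeal - 1) / p) := by
        rw [hpm]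
        exact h3
      exact (Nat.mul_dvd_mul_iff_right hm0).1 h3'
    obtain ⟨s, rfl⟩ := h4
    obtain ⟨x, hx⟩ := Ideal.Quotient.mk_surjective
      ((g ^ s : (𝓞 F ⧸ v.asIdeal)ˣ) : 𝓞 F ⧸ v.asIdeal)
    refine ⟨x, ?_⟩
    rw [← Ideal.Quotient.mk_eq_mk_iff_sub_mem, map_pow, hx]
    have h5 := congrArg Units.val ht'
    rw [Units.val_mk0] at h5
    rw [← h5, mul_comm p s, pow_mul]
    simp
  · rintro ⟨x, hx⟩
    have hxv : x ∉ v.asIdeal := by
      intro hxv
      apply ha
      have h' : x ^ p ∈ v.asIdeal := Ideal.pow_mem_of_mem _ hxv _ hp.pos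
      have := v.asIdeal.sub_mem h' hx
      simpa using this
    have h1 := pow_absNorm_sub_one_sub_one_mem v hxv
    rw [← Ideal.Quotient.mk_eq_mk_iff_sub_mem] at hx h1 ⊢
    rw [map_pow] at hx h1 ⊢
    rw [← hx, ← pow_mul, hpm]
    exact h1

end Residue

/-! ## The dictionary -/

section Dict

variable {F : Type} [Field F] [NumberField F]

/-- **(DICT2)** `IsSymAt` is insensitive to `p`-th powers. -/
theorem isSymAt_mul_pow_iff (p : ℕ) (ζ : F) (v : HeightOneSpectrum (𝓞 F)) (α c : F)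
    (hc : c ≠ 0) (j : ZMod p) :
    helper14.IsSymAt p ζ v (α * c ^ p) j ↔ helper14.IsSymAt p ζ v α j := by
  constructor
  · rintro ⟨y, hy, hu, hcg⟩
    have e : α / (y / c) ^ p = α * c ^ p / y ^ p := by
      rw [div_pow]
      field_simp
    refine ⟨y / c, div_ne_zero hy hc, ?_, ?_⟩
    · rw [e]
      exact hu
    · rw [e]
      exact hcg
  · rintro ⟨y, hy, hu, hcg⟩
    have e : α * c ^ p / (y * c) ^ p = α / y ^ p := by
      rw [mul_pow]
      field_simp
    refine ⟨y * c, mul_ne_zero hy hc, ?_, ?_⟩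
    · rw [e]
      exact hu
    · rw [e]
      exact hcg

/-- **(DICT1)** for an algebraic integer `a` prime to `v` (and `v ∤ p`), the captain's symbol
relation is the congruence `a ^ ((N v - 1) / p) ≡ ζ ^ j (mod v)`. -/
theorem isSymAt_iff_symEq (p : ℕ) [Fact p.Prime] (ζ : 𝓞 F) (hζ : IsPrimitiveRoot ζ p)
    (v : HeightOneSpectrum (𝓞 F)) (hpv : (p : 𝓞 F) ∉ v.asIdeal) (a : 𝓞 F)
    (ha : a ∉ v.asIdeal) (j : ZMod p) :
    helper14.IsSymAt p (ζ : F) v (a : F) j ↔ helper2797.SymEq p ζ v.asIdeal a j := by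
  have hp : p.Prime := Fact.out
  have hdvd : p ∣ Ideal.absNorm v.asIdeal - 1 := dvd_absNorm_sub_one hp hζ v hpv
  have hpm : p * ((Ideal.absNorm v.asIdeal - 1) / p) = Ideal.absNorm v.asIdeal - 1 :=
    Nat.mul_div_cancel' hdvd
  have hav : v.valuation F (algebraMap (𝓞 F) F a) = 1 := v.valuation_eq_one_iff_notMem.2 ha
  unfold helper14.IsSymAt helper14.UnitAt helper14.CongrAt helper2797.SymEq
  rw [RingOfIntegers.coe_eq_algebraMap, RingOfIntegers.coe_eq_algebraMap]
  constructor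
  · rintro ⟨y, hy, hu, hcg⟩
    have hy1 : v.valuation F y = 1 := by
      have hu' := hu
      rw [map_div₀, hav, map_pow, one_div, inv_eq_one] at hu'
      exact (pow_eq_one_iff.1 hu').resolve_right hp.ne_zero
    have hy2 := valuation_pow_absNorm_sub_one_sub_one_lt v hy1
    have hypow : y ^ p ≠ 0 := pow_ne_zero _ hy
    have e : algebraMap (𝓞 F) F a ^ ((Ideal.absNorm v.asIdeal - 1) / p)
          - algebraMap (𝓞 F) F ζ ^ j.val
        = (algebraMap (𝓞 F) F a / y ^ p) ^ ((Ideal.absNorm v.asIdeal - 1) / p)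
            * (y ^ (Ideal.absNorm v.asIdeal - 1) - 1)
          + ((algebraMap (𝓞 F) F a / y ^ p) ^ ((Ideal.absNorm v.asIdeal - 1) / p)
            - algebraMap (𝓞 F) F ζ ^ j.val) := by
      have e1 : algebraMap (𝓞 F) F a = (algebraMap (𝓞 F) F a / y ^ p) * y ^ p := by
        field_simp
      have e2 : y ^ (Ideal.absNorm v.asIdeal - 1)
          = (y ^ p) ^ ((Ideal.absNorm v.asIdeal - 1) / p) := by
        rw [← pow_mul, hpm]
      rw [e2]
      conv_lhs => rw [e1, mul_pow]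
      ring
    have hlt : v.valuation F (algebraMap (𝓞 F) F a ^ ((Ideal.absNorm v.asIdeal - 1) / p)
        - algebraMap (𝓞 F) F ζ ^ j.val) < 1 := by
      rw [e]
      refine Valuation.map_add_lt _ ?_ hcg
      rw [map_mul, map_pow, hu, one_pow, one_mul]
      exact hy2
    rw [← map_pow, ← map_pow, ← map_sub] at hlt
    exact (v.valuation_lt_one_iff_mem _).1 hlt
  · intro h
    refine ⟨1, one_ne_zero, ?_, ?_⟩
    · rw [one_pow, div_one]
      exact hav
    · rw [one_pow, div_one, ← map_pow, ← map_pow, ← map_sub]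
      exact (v.valuation_lt_one_iff_mem (K := F) _).2 h

/-- **(DICT3)** symbol `0` means `p`-th power residue. -/
theorem isSymAt_zero_iff_isPowRes (p : ℕ) [Fact p.Prime] (ζ : 𝓞 F) (hζ : IsPrimitiveRoot ζ p)
    (v : HeightOneSpectrum (𝓞 F)) (hpv : (p : 𝓞 F) ∉ v.asIdeal) (a : 𝓞 F)
    (ha : a ∉ v.asIdeal) :
    helper14.IsSymAt p (ζ : F) v (a : F) 0 ↔ helper2797.IsPowRes p v.asIdeal a := by
  have hp : p.Prime := Fact.out
  rw [isSymAt_iff_symEq p ζ hζ v hpv a ha 0,
    ← pow_div_sub_one_mem_iff_isPowRes hp v (dvd_absNorm_sub_one hp hζ v hpv) ha]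
  unfold helper2797.SymEq
  rw [ZMod.val_zero, pow_zero]

end Dict

end Fermat.Agent.S14.helper975
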