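import Fermat.Agent.S14.helper2797_PairCross
import Fermat.Agent.S14.helper14_Spec
import Fermat.Agent.S14.helper975_M7Dict

/-!
# S14 / M7: from the dual pair-crossing theorem to `helper14.Stmt_Cross`

`stmt_Cross_of_leaves`: `helper14.Stmt_Cross p` from the `Stmt_*` propositions of
`helper2797_CrossingSpec` (second inequality in dual form, Kummer leaves, Gauss datum, auxiliary
prime).  The passage from the dual statement (all characters vanish) to the primal one (membership
in `P + N`) is linear duality on the `ZMod p`-vector space `Div K ⧸ H`.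
-/

set_option autoImplicit false
set_option linter.unusedSectionVars false

namespace Fermat.Agent.S14.helper2797

open NumberField UniqueFactorizationMonoid IsDedekindDomain

section Ord

variable {K : Type} [Field K] [NumberField K]

theorem ord_mul (u : HeightOneSpectrum (𝓞 K)) {x y : K} (hx : x ≠ 0) (hy : y ≠ 0) :
    helper14.ord u (x * y) = helper14.ord u x + helper14.ord u y := by
  have h := helper975.valuation_eq_exp_neg_ord u (mul_ne_zero hx hy)
  rw [map_mul, helper975.valuation_eq_exp_neg_ord u hx, helper975.valuation_eq_exp_neg_ord u hy,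
    ← WithZero.exp_add, WithZero.exp_inj] at h
  omega

theorem ord_one (u : HeightOneSpectrum (𝓞 K)) : helper14.ord u (1 : K) = 0 := by
  have h := helper975.valuation_eq_exp_neg_ord u (one_ne_zero (α := K))
  rw [map_one, ← WithZero.exp_zero, WithZero.exp_inj] at h
  omega

theorem ord_inv (u : HeightOneSpectrum (𝓞 K)) {x : K} (hx : x ≠ 0) :
    helper14.ord u x⁻¹ = - helper14.ord u x := by
  have h := ord_mul u hx (inv_ne_zero hx)
  rw [mul_inv_cancel₀ hx, ord_one] at h
  omega

open Classical in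
theorem ord_algebraMap (u : HeightOneSpectrum (𝓞 K)) {y : 𝓞 K} (hy : y ≠ 0) :
    helper14.ord u (y : K) =
      (Multiset.count u.asIdeal (normalizedFactors (Ideal.span {y})) : ℤ) := by
  have hy' : (y : K) ≠ 0 := by
    rwa [Ne, RingOfIntegers.coe_eq_zero_iff]
  have h := helper975.valuation_eq_exp_neg_ord u hy'
  have h2 : u.valuation K (y : K) = u.intValuation y := u.valuation_of_algebraMap y
  rw [h2, u.intValuation_eq_exp_neg_multiplicity hy, WithZero.exp_inj] at h
  have hirr : Irreducible u.asIdeal := u.irreducible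
  have hspan : Ideal.span {y} ≠ 0 := by
    rw [Ne, Ideal.zero_eq_bot, Ideal.span_singleton_eq_bot]; exact hy
  rw [multiplicity_eq_count_normalizedFactors hirr hspan, normalize_eq] at h
  omega

end Ord


/-- Duality for elementary abelian `p`-quotients: an element on which every `ZMod p`-valued
character killing `H ⊇ p • G` vanishes lies in `H`. -/
theorem mem_of_forall_char {G : Type*} [AddCommGroup G] (p : ℕ) [Fact p.Prime]
    (H : AddSubgroup G) (hpH : ∀ D : G, p • D ∈ H) (x : G)
    (h : ∀ Φ : G →+ ZMod p, (∀ D ∈ H, Φ D = 0) → Φ x = 0) : x ∈ H := by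
  rw [← QuotientAddGroup.eq_zero_iff]
  have hker : ∀ y : G ⧸ H, p • y = 0 := fun y => by
    obtain ⟨D, rfl⟩ := QuotientAddGroup.mk_surjective y
    rw [← QuotientAddGroup.mk_nsmul, QuotientAddGroup.eq_zero_iff]
    exact hpH D
  have instMod : Module (ZMod p) (G ⧸ H) := AddCommGroup.zmodModule hker
  have t2 : Module.Free (ZMod p) (G ⧸ H) := inferInstance
  have hproj : Module.Projective (ZMod p) (G ⧸ H) := inferInstance
  refine (Module.forall_dual_apply_eq_zero_iff (ZMod p) _).mp (fun f => ?_)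
  have := h (f.toAddMonoidHom.comp (QuotientAddGroup.mk' H)) (fun D hD => by
    simp [(QuotientAddGroup.eq_zero_iff D).mpr hD])
  simpa using this

section Final

variable {p : ℕ} [hp : Fact p.Prime] {K : Type} [Field K] [NumberField K]

open Classical in
/-- The prime divisor attached to an ideal (junk value `0` if the ideal is not a nonzero prime). -/
noncomputable def toDiv (I : Ideal (𝓞 K)) : helper14.Div K :=
  if h : I.IsPrime ∧ I ≠ ⊥ then
    Finsupp.single (⟨I, h.1, h.2⟩ : HeightOneSpectrum (𝓞 K)) (1 : ℤ) else 0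

theorem toDiv_asIdeal (u : HeightOneSpectrum (𝓞 K)) :
    toDiv u.asIdeal = Finsupp.single u (1 : ℤ) := by
  unfold toDiv
  rw [dif_pos ⟨u.isPrime, u.ne_bot⟩]

/-- The divisor of a nonzero ideal. -/
noncomputable def divI (I : Ideal (𝓞 K)) : helper14.Div K :=
  ((normalizedFactors I).map toDiv).sum

open Classical in
theorem sum_toDiv_apply (s : Multiset (Ideal (𝓞 K))) (hs : ∀ P ∈ s, P.IsPrime ∧ P ≠ ⊥)
    (u : HeightOneSpectrum (𝓞 K)) :
    ((s.map toDiv).sum) u = (Multiset.count u.asIdeal s : ℤ) := by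
  induction s using Multiset.induction_on with
  | empty => simp
  | cons P s ih =>
    have hP := hs P (Multiset.mem_cons_self P s)
    rw [Multiset.map_cons, Multiset.sum_cons, Finsupp.add_apply,
      ih (fun Q hQ => hs Q (Multiset.mem_cons_of_mem hQ)), Multiset.count_cons]
    have h1 : toDiv P u = if u.asIdeal = P then (1 : ℤ) else 0 := by
      unfold toDiv
      rw [dif_pos hP, Finsupp.single_apply]
      by_cases h : u.asIdeal = P
      · rw [if_pos h, if_pos]
        ext1
        exact h.symm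
      · rw [if_neg h, if_neg]
        intro h'
        exact h (by rw [← h'])
    rw [h1]
    push_cast
    ring

open Classical in
theorem divI_apply {I : Ideal (𝓞 K)} (hI : I ≠ ⊥) (u : HeightOneSpectrum (𝓞 K)) :
    divI I u = (Multiset.count u.asIdeal (normalizedFactors I) : ℤ) := by
  unfold divI
  apply sum_toDiv_apply
  intro P hP
  exact ⟨((Ideal.mem_normalizedFactors_iff hI).mp hP).1, ne_zero_of_mem_normalizedFactors hP⟩

/-- **M7**: `helper14.Stmt_Cross p` from the leaves of `helper2797_CrossingSpec`. -/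
theorem stmt_Cross_of_leaves (hp2 : p ≠ 2)
    (hSI : Stmt_SecondIneq p) (hKE : Stmt_KummerExists p) (hKS : Stmt_KummerSplit p)
    (hRN : Stmt_RamNorm p) (hCN : Stmt_CycloNorm p) (hGs : Stmt_Gauss p)
    (hAux : Stmt_AuxPrime p) : helper14.Stmt_Cross p := by
  intro K _ _ _ ζ hζ α hα hordα v v' d d' hN hN' hNne hv hv' hsym hsym' hd hd'
  classical
  have hpr := hp.out
  have : NeZero p := ⟨hpr.ne_zero⟩
  set ζ₀ := hζ.toInteger with hζ₀
  have hζ₀p : IsPrimitiveRoot ζ₀ p := hζ.toInteger_isPrimitiveRoot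
  have hζ₀c : (ζ₀ : K) = ζ := hζ.coe_toInteger
  obtain ⟨a, c, hc, hac, hav, hav'⟩ :=
    helper975.exists_unit_rep p α hα v v' (hordα v hv) (hordα v' hv')
  -- the subgroup `H = P + N`
  let H : AddSubgroup (helper14.Div K) :=
    { carrier := {D | ∃ (γ : K) (D₁ D₂ : helper14.Div K), γ ≠ 0 ∧
        (∀ u, D₁ u ≠ 0 → helper14.Over p u ∨ helper14.IsSymAt p ζ u α 0) ∧
        (∀ u, D u = helper14.ord u γ + D₁ u + p * D₂ u)}
      add_mem' := by
        rintro D D' ⟨γ, D₁, D₂, hγ, h1, h2⟩ ⟨γ', D₁', D₂', hγ', h1', h2'⟩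
        refine ⟨γ * γ', D₁ + D₁', D₂ + D₂', mul_ne_zero hγ hγ', fun u hu => ?_, fun u => ?_⟩
        · by_cases h : D₁ u = 0
          · refine h1' u (fun h' => hu ?_)
            rw [Finsupp.add_apply, h, h', add_zero]
          · exact h1 u h
        · rw [Finsupp.add_apply, Finsupp.add_apply, Finsupp.add_apply, h2 u, h2' u,
            ord_mul u hγ hγ']
          ring
      zero_mem' := ⟨1, 0, 0, one_ne_zero, fun u hu => absurd rfl hu, fun u => by
        simp [ord_one]⟩
      neg_mem' := by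
        rintro D ⟨γ, D₁, D₂, hγ, h1, h2⟩
        refine ⟨γ⁻¹, -D₁, -D₂, inv_ne_zero hγ, fun u hu => h1 u (fun h => hu ?_), fun u => ?_⟩
        · rw [Finsupp.neg_apply, h, neg_zero]
        · rw [Finsupp.neg_apply, Finsupp.neg_apply, Finsupp.neg_apply, h2 u, ord_inv u hγ]
          ring }
  have hHmem : ∀ D : helper14.Div K, D ∈ H ↔ ∃ (γ : K) (D₁ D₂ : helper14.Div K), γ ≠ 0 ∧
        (∀ u, D₁ u ≠ 0 → helper14.Over p u ∨ helper14.IsSymAt p ζ u α 0) ∧
        (∀ u, D u = helper14.ord u γ + D₁ u + p * D₂ u) := fun D => Iff.rfl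
  have hpH : ∀ D : helper14.Div K, p • D ∈ H := fun D =>
    (hHmem _).mpr ⟨1, 0, D, one_ne_zero, fun u hu => absurd rfl hu, fun u => by
      simp [ord_one]⟩
  set x : helper14.Div K := d' • Finsupp.single v (1 : ℤ) - d • Finsupp.single v' (1 : ℤ)
    with hx
  suffices hxH : x ∈ H by
    obtain ⟨γ, D₁, D₂, hγ, hD₁, hD⟩ := (hHmem x).mp hxH
    refine ⟨γ, D₁, D₂, hγ, hD₁, fun u => ?_⟩
    rw [← hD u, hx, Finsupp.sub_apply, Finsupp.smul_apply, Finsupp.smul_apply, smul_eq_mul,
      smul_eq_mul]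
  apply mem_of_forall_char p H hpH x
  intro Φ hΦH
  let φ : Ideal (𝓞 K) → ZMod p := fun I => Φ (toDiv I)
  have hev : ∀ I : Ideal (𝓞 K), evalChar p φ I = Φ (divI I) := by
    intro I
    unfold evalChar divI
    rw [map_multiset_sum, Multiset.map_map]
    rfl
  have hNR : IsNRChar p ((p : 𝓞 K) * a * 1) a φ := by
    refine ⟨?_, ?_⟩
    · intro y hy _
      rw [hev]
      apply hΦH
      have hspan : Ideal.span {y} ≠ ⊥ := by simpa using hy
      refine (hHmem _).mpr ⟨(y : K), 0, 0, ?_, fun u hu => absurd rfl hu, fun u => ?_⟩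
      · rwa [Ne, RingOfIntegers.coe_eq_zero_iff]
      · rw [divI_apply hspan u, ord_algebraMap u hy]
        simp
    · intro P hP hpow
      let u : HeightOneSpectrum (𝓞 K) := ⟨P, hP.isPrime, hP.ne_bot⟩
      show Φ (toDiv u.asIdeal) = 0
      rw [toDiv_asIdeal]
      apply hΦH
      have hpu : (p : 𝓞 K) ∉ u.asIdeal := fun h =>
        hP.notMem (Ideal.mul_mem_right _ _ (Ideal.mul_mem_right _ _ h))
      have hau : a ∉ u.asIdeal := fun h =>
        hP.notMem (Ideal.mul_mem_right _ _ (Ideal.mul_mem_left _ _ h))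
      have h1 : helper14.IsSymAt p (ζ₀ : K) u (a : K) 0 :=
        (helper975.isSymAt_zero_iff_isPowRes p ζ₀ hζ₀p u hpu a hau).mpr hpow
      rw [hζ₀c, hac, helper975.isSymAt_mul_pow_iff p ζ u α c hc 0] at h1
      refine (hHmem _).mpr ⟨1, Finsupp.single u 1, 0, one_ne_zero, fun w hw => Or.inr ?_,
        fun w => by simp [ord_one]⟩
      have hwu : w = u := by
        by_contra hne
        exact hw (by rw [Finsupp.single_apply, if_neg (Ne.symm hne)])
      rw [hwu]
      exact h1
  have hgv : GoodPrime ((p : 𝓞 K) * a * 1) v.asIdeal := ⟨v.isPrime, v.ne_bot, by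
    rw [mul_one]
    intro h
    rcases v.isPrime.mem_or_mem h with h | h
    · exact hv h
    · exact hav h⟩
  have hgv' : GoodPrime ((p : 𝓞 K) * a * 1) v'.asIdeal := ⟨v'.isPrime, v'.ne_bot, by
    rw [mul_one]
    intro h
    rcases v'.isPrime.mem_or_mem h with h | h
    · exact hv' h
    · exact hav' h⟩
  have hpc := pair_cross hp2 hSI hKE hKS hRN hCN hGs hAux hζ₀p hNR hgv hgv' hN hN' hNne
  have hs : sym p ζ₀ a v.asIdeal = (d : ZMod p) := by
    apply sym_eq_of_symEq hζ₀p hv
    rw [← helper975.isSymAt_iff_symEq p ζ₀ hζ₀p v hv a hav, hζ₀c, hac,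
      helper975.isSymAt_mul_pow_iff p ζ v α c hc]
    exact hsym
  have hs' : sym p ζ₀ a v'.asIdeal = (d' : ZMod p) := by
    apply sym_eq_of_symEq hζ₀p hv'
    rw [← helper975.isSymAt_iff_symEq p ζ₀ hζ₀p v' hv' a hav', hζ₀c, hac,
      helper975.isSymAt_mul_pow_iff p ζ v' α c hc]
    exact hsym'
  rw [hs, hs'] at hpc
  have hfx : Φ x = (d' : ZMod p) * φ v.asIdeal - (d : ZMod p) * φ v'.asIdeal := by
    show Φ x = (d' : ZMod p) * Φ (toDiv v.asIdeal) - (d : ZMod p) * Φ (toDiv v'.asIdeal)
    rw [hx, map_sub, map_zsmul, map_zsmul, zsmul_eq_mul, zsmul_eq_mul, toDiv_asIdeal,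
      toDiv_asIdeal]
  rw [hfx]
  linear_combination hpc

end Final

end Fermat.Agent.S14.helper2797
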