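import Mathlib
import Fermat.Agent.S14.helper14_Spec
import Fermat.Agent.S14.helper2797_CrossingSpec

/-!
# S14 / M7-SI adapter: `helper14.Stmt_SI p → helper2797.Stmt_SecondIneq p`

Owner: helper7337 (board row 615).

Contents:
* general Dedekind-domain lemmas: CRT with exact valuations (`exists_intValuation_eq`),
  strong approximation with prescribed valuations on a finite set and integrality elsewhere
  (`exists_valuation_eq`), decomposition of an element which is a `p`-th power up to units on a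
  finite set `S` as `γ * x ^ p * y₂ = y₁` with `y₁ y₂` integral and prime to `S`
  (`exists_pow_decomp`);
* the dictionary `v.valuation F x = exp (-(ord v x))` for `helper14.ord`;
* the additive functional `Phi` on divisors attached to a character on primes and its comparison
  with `helper2797.evalChar`;
* the adapter `stmt_SecondIneq`.
-/

set_option autoImplicit false

namespace Fermat.Agent.S14.helper7337

open IsDedekindDomain WithZero

section Dedekind

variable {R : Type*} [CommRing R] [IsDedekindDomain R] {K : Type*} [Field K] [Algebra R K]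
  [IsFractionRing R K]

/-- A nonzero element has valuation `exp (-n)` for a natural number `n`. -/
theorem exists_intValuation_eq_exp (v : HeightOneSpectrum R) {c : R} (hc : c ≠ 0) :
    ∃ n : ℕ, v.intValuation c = exp (-(n : ℤ)) := ⟨_, v.intValuation_if_neg hc⟩

/-- **CRT with exact valuations**: there is a nonzero element with prescribed valuations at
finitely many primes. -/
theorem exists_intValuation_eq (S : Finset (HeightOneSpectrum R)) (e : HeightOneSpectrum R → ℕ) :
    ∃ c : R, c ≠ 0 ∧ ∀ v ∈ S, v.intValuation c = exp (-(e v : ℤ)) := by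
  classical
  rcases S.eq_empty_or_nonempty with rfl | hS
  · exact ⟨1, one_ne_zero, by simp⟩
  choose π hπ using fun v : HeightOneSpectrum R => v.intValuation_exists_uniformizer
  obtain ⟨y, hy⟩ := IsDedekindDomain.exists_forall_sub_mem_ideal (s := S) (fun v => v.asIdeal)
    (fun v => e v + 1) (fun v _ => v.prime)
    (fun v _ w _ hvw h => hvw (HeightOneSpectrum.ext h)) (fun v => π v ^ e v)
  have key : ∀ v ∈ S, v.intValuation y = exp (-(e v : ℤ)) := by
    intro v hv
    have h1 : v.intValuation (y - π v ^ e v) ≤ exp (-((e v + 1 : ℕ) : ℤ)) :=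
      (v.intValuation_le_pow_iff_mem _ _).mpr (hy v hv)
    have h2 : v.intValuation (π v ^ e v) = exp (-(e v : ℤ)) := by
      rw [map_pow, hπ v, ← exp_nsmul]
      simp
    have h3 : v.intValuation (y - π v ^ e v) < v.intValuation (π v ^ e v) := by
      rw [h2]
      refine lt_of_le_of_lt h1 ?_
      rw [exp_lt_exp]
      push_cast
      omega
    have h4 : y = (y - π v ^ e v) + π v ^ e v := by ring
    rw [h4, Valuation.map_add_eq_of_lt_right _ h3, h2]
  obtain ⟨v, hv⟩ := hS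
  refine ⟨y, ?_, key⟩
  rintro rfl
  have := key v hv
  rw [map_zero] at this
  exact WithZero.exp_ne_zero this.symm

/-- **Strong approximation with prescribed valuations**: there is a nonzero `x : K` with
prescribed valuations at the primes of a finite set `S` which is integral at all other primes. -/
theorem exists_valuation_eq (S : Finset (HeightOneSpectrum R)) (e : HeightOneSpectrum R → ℤ) :
    ∃ x : K, x ≠ 0 ∧ (∀ v ∈ S, v.valuation K x = exp (e v)) ∧
      ∀ v : HeightOneSpectrum R, v ∉ S → v.valuation K x ≤ 1 := by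
  classical
  obtain ⟨g, hg0, hg⟩ := exists_intValuation_eq S (fun v => (-e v).toNat)
  obtain ⟨h, hh0, hh⟩ := exists_intValuation_eq S (fun v => (e v).toNat)
  have hfin := Ideal.finite_factors (I := Ideal.span {h}) (by simpa using hh0)
  choose n hn using fun v : HeightOneSpectrum R => exists_intValuation_eq_exp v hh0
  obtain ⟨c, hc0, hc⟩ :=
    exists_intValuation_eq (S ∪ hfin.toFinset) (fun v => if v ∈ S then 0 else n v)
  have hinj := IsFractionRing.injective R K
  have hg0' : algebraMap R K g ≠ 0 := (map_ne_zero_iff _ hinj).mpr hg0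
  have hh0' : algebraMap R K h ≠ 0 := (map_ne_zero_iff _ hinj).mpr hh0
  have hc0' : algebraMap R K c ≠ 0 := (map_ne_zero_iff _ hinj).mpr hc0
  refine ⟨algebraMap R K g * algebraMap R K c / algebraMap R K h,
    div_ne_zero (mul_ne_zero hg0' hc0') hh0', ?_, ?_⟩
  · intro v hv
    rw [map_div₀, map_mul, HeightOneSpectrum.valuation_of_algebraMap,
      HeightOneSpectrum.valuation_of_algebraMap, HeightOneSpectrum.valuation_of_algebraMap,
      hg v hv, hh v hv, hc v (Finset.mem_union_left _ hv), if_pos hv]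
    simp only [Nat.cast_zero, neg_zero, exp_zero, mul_one]
    rw [← exp_sub]
    congr 1
    omega
  · intro v hv
    rw [map_div₀, map_mul, HeightOneSpectrum.valuation_of_algebraMap,
      HeightOneSpectrum.valuation_of_algebraMap, HeightOneSpectrum.valuation_of_algebraMap]
    have hcle : v.intValuation c ≤ v.intValuation h := by
      by_cases hvh : v ∈ hfin.toFinset
      · rw [hc v (Finset.mem_union_right _ hvh), if_neg hv, hn v]
      · have hnot : h ∉ v.asIdeal := by
          simpa [Ideal.dvd_span_singleton] using hvh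
        rw [HeightOneSpectrum.intValuation_eq_one_iff.mpr hnot]
        exact v.intValuation_le_one c
    have hpos : 0 < v.intValuation h := zero_lt_iff.mpr (v.intValuation_ne_zero h hh0)
    rw [div_le_one₀ hpos]
    calc v.intValuation g * v.intValuation c ≤ 1 * v.intValuation h :=
          mul_le_mul' (v.intValuation_le_one g) hcle
      _ = _ := one_mul _

/-- If the valuation of `γ ≠ 0` is a `p`-th power at every prime of the finite set `S`, then
`γ * x ^ p * y₂ = y₁` with `x ≠ 0` and `y₁ y₂` nonzero elements of `R` prime to `S`. -/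
theorem exists_pow_decomp (S : Finset (HeightOneSpectrum R)) (p : ℕ) {γ : K} (hγ : γ ≠ 0)
    (h : ∀ v ∈ S, ∃ k : ℤ, v.valuation K γ = exp ((p : ℤ) * k)) :
    ∃ (x : K) (y₁ y₂ : R), x ≠ 0 ∧ y₁ ≠ 0 ∧ y₂ ≠ 0 ∧ (∀ v ∈ S, y₁ ∉ v.asIdeal) ∧
      (∀ v ∈ S, y₂ ∉ v.asIdeal) ∧ γ * x ^ p * algebraMap R K y₂ = algebraMap R K y₁ := by
  classical
  have h' : ∀ v : HeightOneSpectrum R, ∃ k : ℤ, v ∈ S → v.valuation K γ = exp ((p : ℤ) * k) := by
    intro v
    by_cases hv : v ∈ S
    · obtain ⟨k, hk⟩ := h v hv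
      exact ⟨k, fun _ => hk⟩
    · exact ⟨0, fun hv' => absurd hv' hv⟩
  choose k hk using h'
  obtain ⟨x, hx0, hxS, -⟩ := exists_valuation_eq (K := K) S (fun v => - k v)
  set γ₁ := γ * x ^ p with hγ₁
  have hγ₁0 : γ₁ ≠ 0 := mul_ne_zero hγ (pow_ne_zero _ hx0)
  have hγ₁S : ∀ v ∈ S, v.valuation K γ₁ = 1 := by
    intro v hv
    rw [hγ₁, map_mul, map_pow, hk v hv, hxS v hv, ← exp_nsmul, ← exp_add]
    simp
  obtain ⟨n₁, d₁, hd₁, hnd⟩ := IsFractionRing.div_surjective (A := R) γ₁
  have hd₁0 : d₁ ≠ 0 := nonZeroDivisors.ne_zero hd₁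
  have hinj := IsFractionRing.injective R K
  have hd₁0' : algebraMap R K d₁ ≠ 0 := (map_ne_zero_iff _ hinj).mpr hd₁0
  have hn₁ : algebraMap R K n₁ = γ₁ * algebraMap R K d₁ := by
    rw [← hnd]
    field_simp
  have hn₁0 : n₁ ≠ 0 := by
    rintro rfl
    rw [map_zero] at hn₁
    exact (mul_ne_zero hγ₁0 hd₁0') hn₁.symm
  choose n hn using fun v : HeightOneSpectrum R => exists_intValuation_eq_exp v hd₁0
  obtain ⟨x₂, hx₂0, hx₂S, hx₂S'⟩ := exists_valuation_eq (K := K) S (fun v => (n v : ℤ))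
  have hd₁S : ∀ v ∈ S, v.valuation K (algebraMap R K d₁ * x₂) = 1 := by
    intro v hv
    rw [map_mul, HeightOneSpectrum.valuation_of_algebraMap, hn v, hx₂S v hv, ← exp_add]
    simp
  have hn₁S : ∀ v ∈ S, v.valuation K (algebraMap R K n₁ * x₂) = 1 := by
    intro v hv
    rw [hn₁, mul_assoc, map_mul, hγ₁S v hv, one_mul, hd₁S v hv]
  have hy₂ : ∀ v : HeightOneSpectrum R, v.valuation K (algebraMap R K d₁ * x₂) ≤ 1 := by
    intro v
    by_cases hv : v ∈ S
    · exact (hd₁S v hv).le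
    · rw [map_mul]
      exact mul_le_one' (v.valuation_le_one d₁) (hx₂S' v hv)
  have hy₁ : ∀ v : HeightOneSpectrum R, v.valuation K (algebraMap R K n₁ * x₂) ≤ 1 := by
    intro v
    by_cases hv : v ∈ S
    · exact (hn₁S v hv).le
    · rw [map_mul]
      exact mul_le_one' (v.valuation_le_one n₁) (hx₂S' v hv)
  obtain ⟨y₂, hy₂e⟩ := HeightOneSpectrum.mem_integers_of_valuation_le_one K _ hy₂
  obtain ⟨y₁, hy₁e⟩ := HeightOneSpectrum.mem_integers_of_valuation_le_one K _ hy₁
  refine ⟨x, y₁, y₂, hx0, ?_, ?_, ?_, ?_, ?_⟩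
  · rintro rfl
    rw [map_zero] at hy₁e
    exact mul_ne_zero ((map_ne_zero_iff _ hinj).mpr hn₁0) hx₂0 hy₁e.symm
  · rintro rfl
    rw [map_zero] at hy₂e
    exact mul_ne_zero hd₁0' hx₂0 hy₂e.symm
  · intro v hv
    rw [← HeightOneSpectrum.valuation_eq_one_iff_notMem (K := K), hy₁e]
    exact hn₁S v hv
  · intro v hv
    rw [← HeightOneSpectrum.valuation_eq_one_iff_notMem (K := K), hy₂e]
    exact hd₁S v hv
  · rw [hy₂e, hy₁e, hn₁]
    ring

end Dedekind

section NumberField

open NumberField UniqueFactorizationMonoid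
open Fermat.Agent.S14.helper14 Fermat.Agent.S14.helper2797

variable {F : Type} [Field F] [NumberField F]

/-- Dictionary: the adic valuation is `exp (-ord)`. -/
theorem valuation_eq_exp_neg_ord (v : HeightOneSpectrum (𝓞 F)) {x : F} (hx : x ≠ 0) :
    v.valuation F x = exp (-(ord v x)) := by
  classical
  obtain ⟨n, d, hd, rfl⟩ := IsFractionRing.div_surjective (A := 𝓞 F) x
  have hd0 : d ≠ 0 := nonZeroDivisors.ne_zero hd
  have hn0 : n ≠ 0 := by
    rintro rfl
    simp at hx
  have hI : FractionalIdeal.spanSingleton (nonZeroDivisors (𝓞 F))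
      (algebraMap (𝓞 F) F n / algebraMap (𝓞 F) F d) ≠ 0 := by
    rw [Ne, FractionalIdeal.spanSingleton_eq_zero_iff]
    exact hx
  have h_aJ : FractionalIdeal.spanSingleton (nonZeroDivisors (𝓞 F))
      (algebraMap (𝓞 F) F n / algebraMap (𝓞 F) F d) =
      FractionalIdeal.spanSingleton (nonZeroDivisors (𝓞 F)) ((algebraMap (𝓞 F) F) d)⁻¹ *
        ↑(Ideal.span {n} : Ideal (𝓞 F)) := by
    rw [FractionalIdeal.coeIdeal_span_singleton, FractionalIdeal.spanSingleton_mul_spanSingleton,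
      div_eq_inv_mul]
  rw [ord, FractionalIdeal.count_well_defined F v hI h_aJ, map_div₀,
    HeightOneSpectrum.valuation_of_algebraMap, HeightOneSpectrum.valuation_of_algebraMap,
    v.intValuation_if_neg hn0, v.intValuation_if_neg hd0, ← exp_sub]
  congr 1
  ring

/-- `ord` of an integer is the multiplicity of `v` in its principal ideal. -/
theorem ord_algebraMap (v : HeightOneSpectrum (𝓞 F)) {y : 𝓞 F} (hy : y ≠ 0) :
    ord v (algebraMap (𝓞 F) F y) =
      (Multiset.count v.asIdeal (normalizedFactors (Ideal.span {y} : Ideal (𝓞 F))) : ℤ) := by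
  classical
  have hJ : (Ideal.span {y} : Ideal (𝓞 F)) ≠ 0 := by simpa using hy
  rw [ord, ← FractionalIdeal.coeIdeal_span_singleton, FractionalIdeal.count_coe F v hJ,
    Ideal.count_associates_factors_eq hJ v.isPrime v.ne_bot]

/-- `ord` vanishes at integers prime to `v`. -/
theorem ord_algebraMap_eq_zero (v : HeightOneSpectrum (𝓞 F)) {y : 𝓞 F} (hy : y ∉ v.asIdeal) :
    ord v (algebraMap (𝓞 F) F y) = 0 := by
  have hy0 : y ≠ 0 := by
    rintro rfl
    exact hy (Submodule.zero_mem _)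
  have h1 := valuation_eq_exp_neg_ord v
    ((map_ne_zero_iff _ (IsFractionRing.injective (𝓞 F) F)).mpr hy0)
  rw [(HeightOneSpectrum.valuation_eq_one_iff_notMem (K := F) v).mpr hy, ← exp_zero, exp_inj] at h1
  omega

/-- The principal divisor of `x : F`. -/
noncomputable def divOf (x : F) : helper14.Div F :=
  Finsupp.ofSupportFinite (fun v => ord v x)
    (Filter.eventually_cofinite.mp (FractionalIdeal.finite_factors (K := F)
      (FractionalIdeal.spanSingleton (nonZeroDivisors (𝓞 F)) x)))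

@[simp] theorem divOf_apply (x : F) (v : HeightOneSpectrum (𝓞 F)) : divOf x v = ord v x := rfl

/-- The additive functional on divisors attached to a function on primes. -/
noncomputable def Phi (p : ℕ) (ψ : HeightOneSpectrum (𝓞 F) → ZMod p) : helper14.Div F →+ ZMod p :=
  Finsupp.liftAddHom (fun v => (AddMonoidHom.mulRight (ψ v)).comp (Int.castAddHom (ZMod p)))

theorem Phi_apply (p : ℕ) (ψ : HeightOneSpectrum (𝓞 F) → ZMod p) (E : helper14.Div F) :
    Phi p ψ E = ∑ v ∈ E.support, (E v : ZMod p) * ψ v := by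
  simp [Phi, Finsupp.liftAddHom_apply, Finsupp.sum]

theorem Phi_eq_zero (p : ℕ) (ψ : HeightOneSpectrum (𝓞 F) → ZMod p) (E : helper14.Div F)
    (h : ∀ v, (E v : ZMod p) * ψ v = 0) : Phi p ψ E = 0 := by
  rw [Phi_apply]
  exact Finset.sum_eq_zero fun v _ => h v

theorem Phi_single (p : ℕ) (ψ : HeightOneSpectrum (𝓞 F) → ZMod p)
    (v : HeightOneSpectrum (𝓞 F)) : Phi p ψ (Finsupp.single v 1) = ψ v := by
  simp [Phi]

/-- Dictionary: `Phi` of the divisor of an integer is `evalChar` of its principal ideal. -/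
theorem Phi_divOf_eq_evalChar (p : ℕ) (φ : Ideal (𝓞 F) → ZMod p)
    (ψ : HeightOneSpectrum (𝓞 F) → ZMod p) {y : 𝓞 F} (hy : y ≠ 0)
    (hψ : ∀ v : HeightOneSpectrum (𝓞 F), y ∈ v.asIdeal → ψ v = φ v.asIdeal) :
    Phi p ψ (divOf (algebraMap (𝓞 F) F y)) = evalChar p φ (Ideal.span {y}) := by
  classical
  set nf := normalizedFactors (Ideal.span {y} : Ideal (𝓞 F)) with hnf
  set E := divOf (algebraMap (𝓞 F) F y) with hE
  have hcount : ∀ v, E v = (Multiset.count v.asIdeal nf : ℤ) := fun v => ord_algebraMap v hy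
  have hsupp : E.support.image HeightOneSpectrum.asIdeal = nf.toFinset := by
    ext P
    simp only [Finset.mem_image, Finsupp.mem_support_iff, Multiset.mem_toFinset]
    constructor
    · rintro ⟨v, hv, rfl⟩
      rw [hcount] at hv
      exact Multiset.count_ne_zero.mp (by exact_mod_cast hv)
    · intro hP
      have hprime : Prime P := prime_of_normalized_factor P hP
      refine ⟨⟨P, Ideal.isPrime_of_prime hprime, hprime.ne_zero⟩, ?_, rfl⟩
      rw [hcount]
      exact_mod_cast Multiset.count_ne_zero.mpr hP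
  rw [evalChar, Finset.sum_multiset_map_count, ← hsupp,
    Finset.sum_image (fun v _ w _ h => HeightOneSpectrum.ext h), Phi_apply]
  refine Finset.sum_congr rfl fun v hv => ?_
  have hmem : v.asIdeal ∈ nf := by
    rw [Finsupp.mem_support_iff, hcount] at hv
    exact Multiset.count_ne_zero.mp (by exact_mod_cast hv)
  have hyv : y ∈ v.asIdeal := Ideal.dvd_span_singleton.mp (dvd_of_mem_normalizedFactors hmem)
  rw [hψ v hyv, hcount, nsmul_eq_mul]
  push_cast
  rfl

/-- In the residue field at a prime not over `p`, an element whose `(N v - 1) / p`-th power is `1`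
is a `p`-th power (cyclicity of the multiplicative group of a finite field). -/
theorem exists_pow_eq_of_pow_eq_one {k : Type*} [Field k] [Finite k] {p : ℕ} (hp : p ≠ 0)
    (hpq : p ∣ Nat.card k - 1) {u : k} (hu : u ^ ((Nat.card k - 1) / p) = 1) :
    ∃ x : k, x ^ p = u := by
  classical
  have hu0 : u ≠ 0 := by
    rintro rfl
    have hk : (Nat.card k - 1) / p ≠ 0 := by
      have h2 : 1 < Nat.card k := Finite.one_lt_card
      have h3 : p ≤ Nat.card k - 1 := Nat.le_of_dvd (by omega) hpq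
      exact (Nat.div_pos h3 (Nat.pos_of_ne_zero hp)).ne'
    rw [zero_pow hk] at hu
    exact zero_ne_one hu
  obtain ⟨g, hg⟩ := IsCyclic.exists_generator (α := kˣ)
  obtain ⟨i, hi⟩ := Subgroup.mem_zpowers_iff.mp (hg (Units.mk0 u hu0))
  have hord : orderOf g = Nat.card k - 1 := by
    rw [orderOf_eq_card_of_forall_mem_zpowers hg, Nat.card_units]
  have h1 : g ^ (i * (((Nat.card k - 1) / p : ℕ) : ℤ)) = 1 := by
    rw [zpow_mul, hi, zpow_natCast]
    ext
    simpa using hu
  have hdvd : ((Nat.card k - 1 : ℕ) : ℤ) ∣ i * (((Nat.card k - 1) / p : ℕ) : ℤ) := by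
    have h5 := orderOf_dvd_iff_zpow_eq_one.mpr h1
    rwa [hord] at h5
  have hk : (Nat.card k - 1) / p ≠ 0 := by
    have h2 : 1 < Nat.card k := Finite.one_lt_card
    have h3 : p ≤ Nat.card k - 1 := Nat.le_of_dvd (by omega) hpq
    exact (Nat.div_pos h3 (Nat.pos_of_ne_zero hp)).ne'
  have hpi : (p : ℤ) ∣ i := by
    obtain ⟨c, hc⟩ := hpq
    rw [hc, Nat.mul_div_cancel_left c (Nat.pos_of_ne_zero hp)] at hdvd hk
    push_cast at hdvd
    exact Int.dvd_of_mul_dvd_mul_right (by exact_mod_cast hk) hdvd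
  obtain ⟨j, rfl⟩ := hpi
  refine ⟨((g ^ j : kˣ) : k), ?_⟩
  have h2 := congrArg Units.val hi
  rw [Units.val_mk0] at h2
  rw [← h2, ← Units.val_pow_eq_pow_val, ← zpow_natCast, ← zpow_mul, mul_comm]

/-- A prime not over `p` has norm `≡ 1 mod p` when `𝓞 F` contains a primitive `p`-th root of
unity. -/
theorem dvd_absNorm_sub_one {p : ℕ} (hp : p.Prime) {ζ : 𝓞 F} (hζ : IsPrimitiveRoot ζ p)
    (v : HeightOneSpectrum (𝓞 F)) (hpv : (p : 𝓞 F) ∉ v.asIdeal) :
    p ∣ Nat.card (𝓞 F ⧸ v.asIdeal) - 1 := by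
  classical
  have : v.asIdeal.IsMaximal := v.isMaximal
  let _ : Field (𝓞 F ⧸ v.asIdeal) := Ideal.Quotient.field v.asIdeal
  have : Finite (𝓞 F ⧸ v.asIdeal) := Ideal.finiteQuotientOfFreeOfNeBot v.asIdeal v.ne_bot
  have : Fintype (𝓞 F ⧸ v.asIdeal) := Fintype.ofFinite _
  have hroot : (Polynomial.cyclotomic p (𝓞 F)).IsRoot ζ := hζ.isRoot_cyclotomic hp.pos
  have hroot' : (Polynomial.cyclotomic p (𝓞 F ⧸ v.asIdeal)).IsRoot
      (Ideal.Quotient.mk v.asIdeal ζ) := by
    rw [← Polynomial.map_cyclotomic p (Ideal.Quotient.mk v.asIdeal)]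
    exact hroot.map
  have : NeZero ((p : ℕ) : 𝓞 F ⧸ v.asIdeal) := ⟨by
    rw [← map_natCast (Ideal.Quotient.mk v.asIdeal), Ne, Ideal.Quotient.eq_zero_iff_mem]
    exact hpv⟩
  have hprim : IsPrimitiveRoot (Ideal.Quotient.mk v.asIdeal ζ) p :=
    Polynomial.isRoot_cyclotomic_iff.mp hroot'
  have hq1 : (Ideal.Quotient.mk v.asIdeal ζ) ^ (Nat.card (𝓞 F ⧸ v.asIdeal) - 1) = 1 := by
    rw [Nat.card_eq_fintype_card]
    exact FiniteField.pow_card_sub_one_eq_one _ (hprim.ne_zero hp.ne_zero)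
  exact hprim.dvd_of_pow_eq_one _ hq1

/-- At a prime `v` not over `p` where the integer `a` is a unit, `IsSymAt p ζ v a 0` means that `a`
is a `p`-th power residue modulo `v`. -/
theorem isPowRes_of_isSymAt_zero {p : ℕ} (hp : p.Prime) {ζ : 𝓞 F} (hζ : IsPrimitiveRoot ζ p)
    (v : HeightOneSpectrum (𝓞 F)) (hpv : (p : 𝓞 F) ∉ v.asIdeal) {a : 𝓞 F} (hav : a ∉ v.asIdeal)
    (h : IsSymAt p (algebraMap (𝓞 F) F ζ) v (algebraMap (𝓞 F) F a) 0) :
    IsPowRes p v.asIdeal a := by
  classical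
  have : Fact p.Prime := ⟨hp⟩
  obtain ⟨y, hy0, hunit, hcongr⟩ := h
  have hva : v.valuation F (algebraMap (𝓞 F) F a) = 1 :=
    (HeightOneSpectrum.valuation_eq_one_iff_notMem (K := F) v).mpr hav
  have hvy : v.valuation F y = 1 := by
    have h1 : v.valuation F y ^ p = 1 := by
      have h2 := hunit
      unfold UnitAt at h2
      rw [map_div₀, map_pow, hva, one_div, inv_eq_one] at h2
      exact h2
    exact (pow_eq_one_iff_of_nonneg zero_le hp.ne_zero).mp h1
  obtain ⟨n, ⟨d, hd⟩, hnd⟩ := HeightOneSpectrum.exists_primeCompl_mul_eq_of_integer v y hvy.le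
  have hdv : d ∉ v.asIdeal := hd
  have hvd : v.valuation F (algebraMap (𝓞 F) F d) = 1 :=
    (HeightOneSpectrum.valuation_eq_one_iff_notMem (K := F) v).mpr hdv
  have hnd' : y * algebraMap (𝓞 F) F d = algebraMap (𝓞 F) F n := hnd
  have hvn : v.valuation F (algebraMap (𝓞 F) F n) = 1 := by
    rw [← hnd', map_mul, hvy, hvd, one_mul]
  have hnv : n ∉ v.asIdeal := (HeightOneSpectrum.valuation_eq_one_iff_notMem (K := F) v).mp hvn
  have hinj := IsFractionRing.injective (𝓞 F) F
  have hd0 : algebraMap (𝓞 F) F d ≠ 0 := by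
    intro h0
    rw [h0, map_zero] at hvd
    exact zero_ne_one hvd
  have hn0 : algebraMap (𝓞 F) F n ≠ 0 := by
    intro h0
    rw [h0, map_zero] at hvn
    exact zero_ne_one hvn
  set k := (Ideal.absNorm v.asIdeal - 1) / p with hk
  have hmem : (a * d ^ p) ^ k - (n ^ p) ^ k ∈ v.asIdeal := by
    rw [← HeightOneSpectrum.valuation_lt_one_iff_mem (K := F)]
    have e : algebraMap (𝓞 F) F ((a * d ^ p) ^ k - (n ^ p) ^ k) =
        (algebraMap (𝓞 F) F n ^ p) ^ k * ((algebraMap (𝓞 F) F a / y ^ p) ^ k - 1) := by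
      have hy : y = algebraMap (𝓞 F) F n / algebraMap (𝓞 F) F d := by
        rw [eq_div_iff hd0]
        exact hnd'
      have h6 : algebraMap (𝓞 F) F a / (algebraMap (𝓞 F) F n / algebraMap (𝓞 F) F d) ^ p =
          algebraMap (𝓞 F) F a * algebraMap (𝓞 F) F d ^ p / algebraMap (𝓞 F) F n ^ p := by
        rw [div_pow, div_div_eq_mul_div]
      rw [hy, map_sub, map_pow, map_pow, map_mul, map_pow, map_pow, h6, div_pow, mul_sub,
        mul_div_cancel₀ _ (pow_ne_zero _ (pow_ne_zero _ hn0)), mul_one]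
    have hc : v.valuation F ((algebraMap (𝓞 F) F a / y ^ p) ^ k - 1) < 1 := by
      have h3 := hcongr
      unfold CongrAt at h3
      rw [ZMod.val_zero, pow_zero] at h3
      exact h3
    change v.valuation F (algebraMap (𝓞 F) F ((a * d ^ p) ^ k - (n ^ p) ^ k)) < 1
    rw [e, map_mul, map_pow, map_pow, hvn, one_pow, one_pow, one_mul]
    exact hc
  have : v.asIdeal.IsMaximal := v.isMaximal
  let _ : Field (𝓞 F ⧸ v.asIdeal) := Ideal.Quotient.field v.asIdeal
  have : Finite (𝓞 F ⧸ v.asIdeal) := Ideal.finiteQuotientOfFreeOfNeBot v.asIdeal v.ne_bot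
  have hcard : Nat.card (𝓞 F ⧸ v.asIdeal) = Ideal.absNorm v.asIdeal := by
    rw [Ideal.absNorm_apply, Submodule.cardQuot_apply]
  have hpq : p ∣ Nat.card (𝓞 F ⧸ v.asIdeal) - 1 := dvd_absNorm_sub_one hp hζ v hpv
  have hpk : p * k = Nat.card (𝓞 F ⧸ v.asIdeal) - 1 := by
    rw [hk, ← hcard]
    exact Nat.mul_div_cancel' hpq
  have hone : ∀ z : 𝓞 F, z ∉ v.asIdeal → (Ideal.Quotient.mk v.asIdeal z ^ p) ^ k = 1 := by
    intro z hz
    have : Fintype (𝓞 F ⧸ v.asIdeal) := Fintype.ofFinite _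
    rw [← pow_mul, hpk, Nat.card_eq_fintype_card]
    refine FiniteField.pow_card_sub_one_eq_one _ ?_
    rwa [Ne, Ideal.Quotient.eq_zero_iff_mem]
  have hak : Ideal.Quotient.mk v.asIdeal a ^ ((Nat.card (𝓞 F ⧸ v.asIdeal) - 1) / p) = 1 := by
    have h4 : Ideal.Quotient.mk v.asIdeal ((a * d ^ p) ^ k - (n ^ p) ^ k) = 0 :=
      Ideal.Quotient.eq_zero_iff_mem.mpr hmem
    rw [map_sub, map_pow, map_pow, map_mul, map_pow, map_pow, mul_pow, hone d hdv, hone n hnv,
      mul_one, sub_eq_zero] at h4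
    rw [hcard]
    exact h4
  obtain ⟨x, hx⟩ := exists_pow_eq_of_pow_eq_one hp.ne_zero hpq hak
  obtain ⟨x, rfl⟩ := Ideal.Quotient.mk_surjective x
  refine ⟨x, ?_⟩
  rw [← Ideal.Quotient.eq_zero_iff_mem, map_sub, map_pow, hx, sub_self]

/-- **Key lemma**: the functional attached to a norm-residue character kills the divisor of an
element which is a local `p`-th power at all bad primes. -/
theorem Phi_eq_zero_of_isLocalPow {p : ℕ} {m a : 𝓞 F} (hm : m ≠ 0)
    {φ : Ideal (𝓞 F) → ZMod p} (hφ : IsNRChar p m a φ) (ψ : HeightOneSpectrum (𝓞 F) → ZMod p)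
    (hψ : ∀ v : HeightOneSpectrum (𝓞 F), m ∉ v.asIdeal → ψ v = φ v.asIdeal)
    {γ : F} (hγ : γ ≠ 0)
    (hloc : ∀ v : HeightOneSpectrum (𝓞 F), m ∈ v.asIdeal → IsLocalPow p v γ)
    (E : helper14.Div F) (hE : ∀ v, E v = ord v γ) : Phi p ψ E = 0 := by
  classical
  have hfin := Ideal.finite_factors (I := Ideal.span {m}) (by simpa using hm)
  set B : Finset (HeightOneSpectrum (𝓞 F)) := hfin.toFinset with hBdef
  have hB : ∀ v, v ∈ B ↔ m ∈ v.asIdeal := by
    intro v
    simp [hBdef, Ideal.dvd_span_singleton]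
  have hval : ∀ v ∈ B, ∃ k : ℤ, v.valuation F γ = exp ((p : ℤ) * k) := by
    intro v hv
    obtain ⟨y, hy0, hy⟩ := hloc v ((hB v).mp hv) 1
    have h1 : v.valuation F (γ / y ^ p - 1) < 1 :=
      lt_of_le_of_lt hy (by rw [← exp_zero, exp_lt_exp]; norm_num)
    have h2 : v.valuation F (γ / y ^ p) = 1 := by
      have h4 : γ / y ^ p = (γ / y ^ p - 1) + 1 := by ring
      rw [h4, Valuation.map_add_eq_of_lt_right _ (by rwa [map_one]), map_one]
    rw [map_div₀, map_pow,
      div_eq_one_iff_eq (pow_ne_zero _ ((Valuation.ne_zero_iff _).mpr hy0))] at h2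
    refine ⟨-(ord v y), ?_⟩
    rw [h2, valuation_eq_exp_neg_ord v hy0, ← exp_nsmul]
    simp
  obtain ⟨x, y₁, y₂, hx0, hy₁0, hy₂0, hy₁B, hy₂B, hdec⟩ := exists_pow_decomp B p hγ hval
  have hinj := IsFractionRing.injective (𝓞 F) F
  have hy₁0' : algebraMap (𝓞 F) F y₁ ≠ 0 := (map_ne_zero_iff _ hinj).mpr hy₁0
  have hy₂0' : algebraMap (𝓞 F) F y₂ ≠ 0 := (map_ne_zero_iff _ hinj).mpr hy₂0
  have hord : ∀ v : HeightOneSpectrum (𝓞 F),
      ord v γ + p * ord v x + ord v (algebraMap (𝓞 F) F y₂) = ord v (algebraMap (𝓞 F) F y₁) := by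
    intro v
    have h := congrArg (v.valuation F) hdec
    rw [map_mul, map_mul, map_pow, valuation_eq_exp_neg_ord v hγ, valuation_eq_exp_neg_ord v hx0,
      valuation_eq_exp_neg_ord v hy₂0', valuation_eq_exp_neg_ord v hy₁0', ← exp_nsmul, ← exp_add,
      ← exp_add, exp_inj] at h
    simp only [nsmul_eq_mul] at h
    linarith
  have hprin : ∀ y : 𝓞 F, y ≠ 0 → (∀ v ∈ B, y ∉ v.asIdeal) →
      Phi p ψ (divOf (algebraMap (𝓞 F) F y)) = 0 := by
    intro y hy0 hyB
    rw [Phi_divOf_eq_evalChar p φ ψ hy0]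
    · refine hφ.principal y hy0 ?_
      intro P hP hmP
      have hP0 : P ≠ ⊥ := by
        rintro rfl
        exact hm (by simpa using hmP)
      exact hyB ⟨P, hP, hP0⟩ ((hB _).mpr hmP)
    · intro v hyv
      refine hψ v ?_
      intro hmv
      exact hyB v ((hB v).mpr hmv) hyv
  have h3 : Phi p ψ (E + divOf (algebraMap (𝓞 F) F y₂) - divOf (algebraMap (𝓞 F) F y₁)) = 0 := by
    refine Phi_eq_zero p ψ _ fun v => ?_
    have h5 : (E + divOf (algebraMap (𝓞 F) F y₂) - divOf (algebraMap (𝓞 F) F y₁)) v =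
        -(p * ord v x) := by
      simp only [Finsupp.coe_sub, Finsupp.coe_add, Pi.sub_apply, Pi.add_apply, divOf_apply, hE]
      linarith [hord v]
    rw [h5]
    simp
  rw [map_sub, map_add, hprin y₁ hy₁0 hy₁B, hprin y₂ hy₂0 hy₂B] at h3
  simpa using h3

/-- **M7-SI adapter** (board row 615): the second inequality in the primal divisor form
`helper14.Stmt_SI` implies its dual form `helper2797.Stmt_SecondIneq` (any two norm-residue
characters are proportional). -/
theorem stmt_SecondIneq (p : ℕ) [Fact p.Prime] (_hp2 : p ≠ 2) (hSI : helper14.Stmt_SI p) :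
    helper2797.Stmt_SecondIneq p := by
  classical
  have hp : p.Prime := Fact.out
  intro F _ _ ζ hζ a t ha ht φ φ' hφ hφ' P Q hP hQ
  set m : 𝓞 F := (p : 𝓞 F) * a * t with hmdef
  have hp0 : (p : 𝓞 F) ≠ 0 := Nat.cast_ne_zero.mpr hp.ne_zero
  have hm : m ≠ 0 := mul_ne_zero (mul_ne_zero hp0 ha) ht
  have hinj := IsFractionRing.injective (𝓞 F) F
  have hfin := Ideal.finite_factors (I := Ideal.span {m}) (by simpa using hm)
  set B : Finset (HeightOneSpectrum (𝓞 F)) := hfin.toFinset with hBdef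
  have hB : ∀ v, v ∈ B ↔ m ∈ v.asIdeal := by
    intro v
    simp [hBdef, Ideal.dvd_span_singleton]
  have hpB : ∀ v : HeightOneSpectrum (𝓞 F), (p : 𝓞 F) ∈ v.asIdeal → m ∈ v.asIdeal :=
    fun v h => Ideal.mul_mem_right _ _ (Ideal.mul_mem_right _ _ h)
  have haB : ∀ v : HeightOneSpectrum (𝓞 F), a ∈ v.asIdeal → m ∈ v.asIdeal :=
    fun v h => Ideal.mul_mem_right _ _ (Ideal.mul_mem_left _ _ h)
  obtain ⟨D₀, hD₀⟩ := hSI F (algebraMap (𝓞 F) F ζ) (hζ.map_of_injective hinj)
    (algebraMap (𝓞 F) F a) ((map_ne_zero_iff _ hinj).mpr ha) B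
    (fun v hv => (hB v).mpr (hpB v hv))
    (fun v hv => by
      rw [ord_algebraMap_eq_zero v (fun h => hv ((hB v).mpr (haB v h)))]
      exact dvd_zero _)
  let ψ : (Ideal (𝓞 F) → ZMod p) → HeightOneSpectrum (𝓞 F) → ZMod p :=
    fun χ v => if m ∈ v.asIdeal then 0 else χ v.asIdeal
  have hψ : ∀ χ (v : HeightOneSpectrum (𝓞 F)), m ∉ v.asIdeal → ψ χ v = χ v.asIdeal :=
    fun χ v h => if_neg h
  have main : ∀ P : Ideal (𝓞 F), GoodPrime m P → ∃ n : ℤ, ∀ χ : Ideal (𝓞 F) → ZMod p,
      IsNRChar p m a χ → χ P = n * Phi p (ψ χ) D₀ := by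
    intro P hP
    let vP : HeightOneSpectrum (𝓞 F) := ⟨P, hP.isPrime, hP.ne_bot⟩
    obtain ⟨n, γ, D₁, D₂, hγ, hloc, hD₁, hD⟩ := hD₀ (Finsupp.single vP 1) (by
      intro v hv
      rw [Finsupp.single_apply, if_neg]
      rintro rfl
      exact hP.notMem ((hB _).mp hv))
    refine ⟨n, fun χ hχ => ?_⟩
    set Eγ : helper14.Div F := Finsupp.single vP 1 - n • D₀ - D₁ - (p : ℤ) • D₂ with hEγ
    have hEγv : ∀ v, Eγ v = ord v γ := by
      intro v
      simp only [hEγ, Finsupp.coe_sub, Finsupp.coe_smul, Pi.sub_apply, Pi.smul_apply, smul_eq_mul]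
      linarith [hD v]
    have h1 : Phi p (ψ χ) Eγ = 0 :=
      Phi_eq_zero_of_isLocalPow hm hχ (ψ χ) (hψ χ) hγ (fun v hv => hloc v ((hB v).mpr hv)) Eγ hEγv
    have h2 : Phi p (ψ χ) D₁ = 0 := by
      refine Phi_eq_zero p _ _ fun v => ?_
      by_cases hv : D₁ v = 0
      · rw [hv]
        simp
      · obtain ⟨hvB, hsym⟩ := hD₁ v hv
        have hmv : m ∉ v.asIdeal := fun h => hvB ((hB v).mpr h)
        rw [hψ χ v hmv, hχ.split v.asIdeal ⟨v.isPrime, v.ne_bot, hmv⟩
          (isPowRes_of_isSymAt_zero hp hζ v (fun h => hmv (hpB v h)) (fun h => hmv (haB v h)) hsym),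
          mul_zero]
    have h3 : Phi p (ψ χ) ((p : ℤ) • D₂) = 0 := by
      rw [map_zsmul, zsmul_eq_mul]
      simp
    have h4 : Finsupp.single vP 1 = n • D₀ + Eγ + D₁ + (p : ℤ) • D₂ := by
      rw [hEγ]
      abel
    have h5 := congrArg (Phi p (ψ χ)) h4
    rw [Phi_single, map_add, map_add, map_add, h1, h2, h3, map_zsmul, zsmul_eq_mul,
      hψ χ vP hP.notMem] at h5
    simpa using h5
  obtain ⟨nP, hnP⟩ := main P hP
  obtain ⟨nQ, hnQ⟩ := main Q hQ
  rw [hnP φ hφ, hnP φ' hφ', hnQ φ hφ, hnQ φ' hφ']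
  ring

end NumberField

end Fermat.Agent.S14.helper7337
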