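import Fermat.Agent.S14.helper2797_CrossAssembly
import Fermat.Agent.S14.helper7337_M7SIAdapter

/-!
# S14 / M7 (crossing): final statement in the captain's Spec

`stmt_Cross_of_SI_WCKummer`:
`helper14.Stmt_SI p → helper14.Stmt_WCKummer p → helper14.Stmt_Cross p` for an odd prime `p`.
-/

set_option autoImplicit false

namespace Fermat.Agent.S14.helper2797

/-- **M7 of the S14 plan**: the crossing statement `helper14.Stmt_Cross p` follows from the second
inequality `helper14.Stmt_SI p` (M6) and the weak Chebotarev statement `helper14.Stmt_WCKummer p`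
(M2b). -/
theorem stmt_Cross_of_SI_WCKummer (p : ℕ) [Fact p.Prime] (hp2 : p ≠ 2)
    (hSI : helper14.Stmt_SI p) (hWC : helper14.Stmt_WCKummer p) : helper14.Stmt_Cross p :=
  stmt_Cross p hp2 (helper7337.stmt_SecondIneq p hp2 hSI) hWC

end Fermat.Agent.S14.helper2797
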