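import Fermat.Agent.S14.helper2797_Sym

/-!
# S14 / M7: the pair-crossing theorem (dual form)

`pair_cross_aux`: for two good primes `P`, `P'` of `K = ℚ(ζ_p)` and an auxiliary rational prime
`r ≡ 1 (mod p)` whose Gauss-sum element `δ_r` satisfies `sym_P(δ_r) ≠ 0` and
`sym_P'(a) * sym_P(δ_r) = sym_P(a) * sym_P'(δ_r)`, every norm-residue character `φ` for `a`
satisfies `φ P * sym_P'(a) = φ P' * sym_P(a)`.
-/

set_option autoImplicit false
set_option linter.unusedSectionVars false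

namespace Fermat.Agent.S14.helper2797

open NumberField UniqueFactorizationMonoid IsDedekindDomain

section Val
variable {p : ℕ} [hp : Fact p.Prime] {K : Type} [Field K] [NumberField K]

/-- Lemma B: valuation of `a ^ E * δ ^ D` at a prime `R` with `a ∉ R`, `δ ∈ R`, `δ ∉ R ^ p`,
`1 ≤ D < p`: it is prime to `p`. -/
theorem exists_ord_not_dvd {R : Ideal (𝓞 K)} (hR : R.IsPrime) (hR0 : R ≠ ⊥) {a δ : 𝓞 K}
    (ha : a ∉ R) (hδ : δ ∈ R) (hδp : δ ∉ R ^ p) (E : ℕ) {D : ℕ} (hD0 : 0 < D) (hDp : D < p) :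
    ∃ k : ℕ, ¬ p ∣ k ∧ a ^ E * δ ^ D ∈ R ^ k ∧ a ^ E * δ ^ D ∉ R ^ (k + 1) := by
  let v : HeightOneSpectrum (𝓞 K) := ⟨R, hR, hR0⟩
  have hδ0 : δ ≠ 0 := by
    rintro rfl
    exact hδp (zero_mem _)
  have hva : v.intValuation a = 1 := by
    rw [v.intValuation_eq_one_iff_mem_primeCompl]
    exact ha
  set k₀ := multiplicity R (Ideal.span {δ}) with hk₀
  have hvδ : v.intValuation δ = WithZero.exp (-(k₀ : ℤ)) :=
    v.intValuation_eq_exp_neg_multiplicity hδ0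
  have hk1 : 1 ≤ k₀ := by
    have h1 : v.intValuation δ ≤ WithZero.exp (-((1 : ℕ) : ℤ)) :=
      (v.intValuation_le_pow_iff_mem _ _).mpr (by simpa using hδ)
    rw [hvδ, WithZero.exp_le_exp] at h1
    omega
  have hkp : k₀ < p := by
    by_contra hcon
    rw [not_lt] at hcon
    apply hδp
    have : v.intValuation δ ≤ WithZero.exp (-((p : ℕ) : ℤ)) := by
      rw [hvδ, WithZero.exp_le_exp]
      omega
    exact (v.intValuation_le_pow_iff_mem _ _).mp this
  have hvγ : v.intValuation (a ^ E * δ ^ D) = WithZero.exp (-((D * k₀ : ℕ) : ℤ)) := by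
    rw [map_mul, map_pow, map_pow, hva, one_pow, one_mul, hvδ, ← WithZero.exp_nsmul]
    congr 1
    push_cast
    ring
  refine ⟨D * k₀, ?_, ?_, ?_⟩
  · intro hdvd
    rcases (Nat.Prime.dvd_mul hp.out).mp hdvd with h | h
    · exact absurd (Nat.le_of_dvd hD0 h) (by omega)
    · exact absurd (Nat.le_of_dvd (by omega) h) (by omega)
  · have : v.intValuation (a ^ E * δ ^ D) ≤ WithZero.exp (-((D * k₀ : ℕ) : ℤ)) := hvγ.le
    exact (v.intValuation_le_pow_iff_mem _ _).mp this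
  · intro hmem
    have := (v.intValuation_le_pow_iff_mem _ _).mpr hmem
    rw [hvγ, WithZero.exp_le_exp] at this
    push_cast at this
    omega

/-- Lemma C: an element whose valuation at some prime is prime to `p` is not a `p`-th power. -/
theorem not_pow_of_ord {R : Ideal (𝓞 K)} (hR : R.IsPrime) (hR0 : R ≠ ⊥) {γ : 𝓞 K} {k : ℕ}
    (hk : ¬ p ∣ k) (h1 : γ ∈ R ^ k) (h2 : γ ∉ R ^ (k + 1)) : ¬ ∃ x : 𝓞 K, x ^ p = γ := by
  rintro ⟨x, rfl⟩
  let v : HeightOneSpectrum (𝓞 K) := ⟨R, hR, hR0⟩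
  have hx0 : x ≠ 0 := by
    rintro rfl
    rw [zero_pow hp.out.ne_zero] at h2
    exact h2 (zero_mem _)
  set n := multiplicity R (Ideal.span {x}) with hn
  have hvx : v.intValuation x = WithZero.exp (-(n : ℤ)) :=
    v.intValuation_eq_exp_neg_multiplicity hx0
  have hv : v.intValuation (x ^ p) = WithZero.exp (-((p * n : ℕ) : ℤ)) := by
    rw [map_pow, hvx, ← WithZero.exp_nsmul]
    congr 1
    push_cast
    ring
  have h1' := (v.intValuation_le_pow_iff_mem _ _).mpr h1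
  have h2' : ¬ v.intValuation (x ^ p) ≤ WithZero.exp (-((k + 1 : ℕ) : ℤ)) := fun h =>
    h2 ((v.intValuation_le_pow_iff_mem _ _).mp h)
  rw [hv, WithZero.exp_le_exp] at h1' h2'
  push_cast at h1' h2'
  apply hk
  have : k = p * n := by omega
  exact ⟨n, this⟩

end Val

section Misc
variable {p : ℕ} [hp : Fact p.Prime] {F : Type} [Field F] [NumberField F]

/-- If the rational prime `ℓ` is not in the nonzero prime `V`, then `ℓ ∤ N V`. -/
theorem not_dvd_absNorm {V : Ideal (𝓞 F)} (hV : V.IsPrime) (hV0 : V ≠ ⊥) {ℓ : ℕ} (hℓ : ℓ.Prime)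
    (hℓV : (ℓ : 𝓞 F) ∉ V) : ¬ ℓ ∣ Ideal.absNorm V := by
  intro hdvd
  have := isMaximal_of_isPrime hV hV0
  let _ : Field (𝓞 F ⧸ V) := Ideal.Quotient.field V
  have := finite_quot hV0
  have : Fintype (𝓞 F ⧸ V) := Fintype.ofFinite _
  have hcard : ℓ ∣ Fintype.card (𝓞 F ⧸ V) := by
    rw [← Nat.card_eq_fintype_card, natCard_quot]; exact hdvd
  have : Fact ℓ.Prime := ⟨hℓ⟩
  obtain ⟨x, hx⟩ := exists_prime_addOrderOf_dvd_card ℓ hcard
  have hx0 : x ≠ 0 := by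
    rintro rfl
    rw [addOrderOf_zero] at hx
    exact hℓ.one_lt.ne' hx.symm
  have h1 : ℓ • x = 0 := by
    rw [← hx]; exact addOrderOf_nsmul_eq_zero x
  rw [nsmul_eq_mul] at h1
  rcases mul_eq_zero.mp h1 with h | h
  · apply hℓV
    rw [← Ideal.Quotient.eq_zero_iff_mem, map_natCast]
    exact h
  · exact hx0 h

end Misc

section GaussC
variable {p : ℕ} {K : Type} [Field K] [NumberField K] {ζ : 𝓞 K} {r : ℕ} {δ : 𝓞 K}
  {c : ℕ → ZMod p}

theorem GaussDatum.c_one (hG : GaussDatum p ζ r δ c) (hr : r.Prime) : c 1 = 0 := by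
  have h := hG.c_mul 1 1 (by simpa using hr.one_lt.ne') (by simpa using hr.one_lt.ne')
  simpa using h

theorem GaussDatum.c_multiset_prod (hG : GaussDatum p ζ r δ c) (hr : r.Prime) (s : Multiset ℕ)
    (hs : ∀ n ∈ s, ¬ r ∣ n) : c s.prod = (s.map c).sum ∧ ¬ r ∣ s.prod := by
  induction s using Multiset.induction_on with
  | empty => simpa using ⟨hG.c_one hr, hr.one_lt.ne'⟩
  | cons n s ih =>
    obtain ⟨ih1, ih2⟩ := ih (fun m hm => hs m (Multiset.mem_cons_of_mem hm))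
    have hn := hs n (Multiset.mem_cons_self n s)
    rw [Multiset.prod_cons, Multiset.map_cons, Multiset.sum_cons, hG.c_mul n _ hn ih2, ih1]
    refine ⟨rfl, ?_⟩
    intro h
    rcases (Nat.Prime.dvd_mul hr).mp h with h | h
    · exact hn h
    · exact ih2 h

theorem GaussDatum.c_pow' (hG : GaussDatum p ζ r δ c) (hr : r.Prime) {n : ℕ} (hn : ¬ r ∣ n)
    (k : ℕ) : c (n ^ k) = (k : ZMod p) * c n := by
  have h := hG.c_multiset_prod hr (Multiset.replicate k n) (fun m hm => by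
    rw [Multiset.eq_of_mem_replicate hm]; exact hn)
  rw [Multiset.prod_replicate, Multiset.map_replicate, Multiset.sum_replicate] at h
  rw [h.1]
  simp

end GaussC

section Main
variable {p : ℕ} [hp : Fact p.Prime]

/-- A prime of `𝓞 K` over a rational prime `r` exists. -/
theorem exists_prime_over {K : Type} [Field K] [NumberField K] {r : ℕ} (hr : r.Prime) :
    ∃ R : Ideal (𝓞 K), R.IsPrime ∧ R ≠ ⊥ ∧ (r : 𝓞 K) ∈ R := by
  have hprime : (Ideal.span {(r : ℤ)}).IsPrime := by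
    rw [Ideal.span_singleton_prime (by exact_mod_cast hr.ne_zero)]
    exact Nat.prime_iff_prime_int.mp hr
  obtain ⟨Q, -, hQ, hQc⟩ := Ideal.exists_ideal_over_prime_of_isIntegral (S := 𝓞 K)
    (Ideal.span {(r : ℤ)}) ⊥ (by
      rw [Ideal.comap_bot_of_injective _ (FaithfulSMul.algebraMap_injective ℤ (𝓞 K))]
      exact bot_le)
  have hrQ : (r : 𝓞 K) ∈ Q := by
    have : (r : ℤ) ∈ Q.comap (algebraMap ℤ (𝓞 K)) := by
      rw [hQc]; exact Ideal.mem_span_singleton_self _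
    simpa using this
  refine ⟨Q, hQ, ?_, hrQ⟩
  rintro rfl
  have : (r : 𝓞 K) = 0 := by simpa using hrQ
  exact hr.ne_zero (by exact_mod_cast this)

/-- A prime of relative degree one has relative norm the prime below. -/
theorem relNorm_eq_of_absNorm_eq {K M : Type} [Field K] [NumberField K] [Field M] [NumberField M]
    [Algebra K M] {W : Ideal (𝓞 M)} (hW : W.IsPrime) {P : Ideal (𝓞 K)} (hP : P.IsPrime)
    (hP0 : P ≠ ⊥) (hWP : W.comap (algebraMap (𝓞 K) (𝓞 M)) = P)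
    (hN : Ideal.absNorm W = Ideal.absNorm P) : Ideal.relNorm (𝓞 K) W = P := by
  obtain ⟨s, hs1, hs2⟩ := relNorm_prime (K := K) hW
  rw [hWP] at hs1 hs2
  have h2 : 2 ≤ Ideal.absNorm P := by
    have h0 : Ideal.absNorm P ≠ 0 := fun h => hP0 (Ideal.absNorm_eq_zero_iff.mp h)
    have h1 : Ideal.absNorm P ≠ 1 := fun h => hP.ne_top (Ideal.absNorm_eq_one_iff.mp h)
    omega
  have hs : s = 1 := by
    have : Ideal.absNorm P ^ s = Ideal.absNorm P ^ 1 := by rw [← hs2, hN, pow_one]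
    exact Nat.pow_right_injective h2 this
  rw [hs1, hs, pow_one]

/-- **Pair crossing, dual form, with explicit auxiliary data.** -/
theorem pair_cross_aux (hp2 : p ≠ 2)
    (hSI : Stmt_SecondIneq p) (hKE : Stmt_KummerExists p) (hKS : Stmt_KummerSplit p)
    (hRN : Stmt_RamNorm p) (hCN : Stmt_CycloNorm p)
    {K : Type} [Field K] [NumberField K] [IsCyclotomicExtension {p} ℚ K] {ζ : 𝓞 K}
    (hζ : IsPrimitiveRoot ζ p) {a t : 𝓞 K}
    {φ : Ideal (𝓞 K) → ZMod p} (hφ : IsNRChar p ((p : 𝓞 K) * a * t) a φ)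
    {P P' : Ideal (𝓞 K)} (hP : GoodPrime ((p : 𝓞 K) * a * t) P)
    (hP' : GoodPrime ((p : 𝓞 K) * a * t) P')
    {r : ℕ} (hr : r.Prime) (hr1 : r % p = 1) {δ : 𝓞 K} {c : ℕ → ZMod p}
    (hG : GaussDatum p ζ r δ c) (hrP : (r : 𝓞 K) ∉ P) (hrP' : (r : 𝓞 K) ∉ P')
    (hrm : ∀ R : Ideal (𝓞 K), R.IsPrime → (r : 𝓞 K) ∈ R → (p : 𝓞 K) * a * t ∉ R)
    (hd : sym p ζ a P ≠ 0) (he : sym p ζ δ P ≠ 0)
    (hlink : sym p ζ a P' * sym p ζ δ P = sym p ζ a P * sym p ζ δ P') :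
    φ P * sym p ζ a P' = φ P' * sym p ζ a P := by
  classical
  have hpr : p.Prime := hp.out
  have : NeZero p := ⟨hpr.ne_zero⟩
  obtain ⟨hPp, hP0, hPm⟩ := hP
  obtain ⟨hPp', hP0', hPm'⟩ := hP'
  have hpP : (p : 𝓞 K) ∉ P := fun h =>
    hPm (Ideal.mul_mem_right _ _ (Ideal.mul_mem_right _ _ h))
  have haP : a ∉ P := fun h => hPm (Ideal.mul_mem_right _ _ (Ideal.mul_mem_left _ _ h))
  have htP : t ∉ P := fun h => hPm (Ideal.mul_mem_left _ _ h)
  have hpP' : (p : 𝓞 K) ∉ P' := fun h =>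
    hPm' (Ideal.mul_mem_right _ _ (Ideal.mul_mem_right _ _ h))
  have haP' : a ∉ P' := fun h => hPm' (Ideal.mul_mem_right _ _ (Ideal.mul_mem_left _ _ h))
  have htP' : t ∉ P' := fun h => hPm' (Ideal.mul_mem_left _ _ h)
  have hδP : δ ∉ P := hG.unit P hPp hrP
  have hδP' : δ ∉ P' := hG.unit P' hPp' hrP'
  set d := sym p ζ a P with hd_def
  set e := sym p ζ δ P with he_def
  set d' := sym p ζ a P' with hd'_def
  set e' := sym p ζ δ P' with he'_def
  set E : ℕ := e.val with hE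
  set D : ℕ := (-d).val with hD
  have hEc : (E : ZMod p) = e := ZMod.natCast_zmod_val e
  have hDc : (D : ZMod p) = -d := ZMod.natCast_zmod_val (-d)
  have hD0 : 0 < D := ZMod.val_pos.mpr (neg_ne_zero.mpr hd)
  have hDp : D < p := ZMod.val_lt _
  set γ := a ^ E * δ ^ D with hγ
  have hγP : γ ∉ P := fun h => by
    rcases hPp.mem_or_mem h with h | h
    · exact haP (hPp.mem_of_pow_mem _ h)
    · exact hδP (hPp.mem_of_pow_mem _ h)
  have hγP' : γ ∉ P' := fun h => by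
    rcases hPp'.mem_or_mem h with h | h
    · exact haP' (hPp'.mem_of_pow_mem _ h)
    · exact hδP' (hPp'.mem_of_pow_mem _ h)
  have hsγ : sym p ζ γ P = 0 := by
    rw [hγ, sym_mul hζ hPp hP0 hpP (fun h => haP (hPp.mem_of_pow_mem _ h))
      (fun h => hδP (hPp.mem_of_pow_mem _ h)), sym_pow hζ hPp hP0 hpP haP,
      sym_pow hζ hPp hP0 hpP hδP, hEc, hDc]
    ring
  have hsγ' : sym p ζ γ P' = 0 := by
    rw [hγ, sym_mul hζ hPp' hP0' hpP' (fun h => haP' (hPp'.mem_of_pow_mem _ h))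
      (fun h => hδP' (hPp'.mem_of_pow_mem _ h)), sym_pow hζ hPp' hP0' hpP' haP',
      sym_pow hζ hPp' hP0' hpP' hδP', hEc, hDc]
    linear_combination hlink
  have hpowP : IsPowRes p P γ := (sym_eq_zero_iff hζ hPp hP0 hpP hγP).mp hsγ
  have hpowP' : IsPowRes p P' γ := (sym_eq_zero_iff hζ hPp' hP0' hpP' hγP').mp hsγ'
  -- valuations of `γ` at the primes over `r`
  have hord : ∀ R : Ideal (𝓞 K), R.IsPrime → (r : 𝓞 K) ∈ R →
      ∃ k : ℕ, ¬ p ∣ k ∧ γ ∈ R ^ k ∧ γ ∉ R ^ (k + 1) := by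
    intro R hR hrR
    have hR0 : R ≠ ⊥ := by
      rintro rfl
      have : (r : 𝓞 K) = 0 := by simpa using hrR
      exact hr.ne_zero (by exact_mod_cast this)
    have haR : a ∉ R := fun h =>
      hrm R hR hrR (Ideal.mul_mem_right _ _ (Ideal.mul_mem_left _ _ h))
    obtain ⟨h1, h2⟩ := hG.ram R hR hrR
    exact exists_ord_not_dvd hR hR0 haR h1 h2 E hD0 hDp
  obtain ⟨R₀, hR₀, hR₀0, hrR₀⟩ := exists_prime_over (K := K) hr
  obtain ⟨k, hk, hk1, hk2⟩ := hord R₀ hR₀ hrR₀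
  have hnp : ¬ ∃ x : 𝓞 K, x ^ p = γ := not_pow_of_ord hR₀ hR₀0 hk hk1 hk2
  -- the auxiliary Kummer field
  obtain ⟨M, _, _, _, θ, hθ⟩ := hKE K γ hnp
  obtain ⟨W, hWp, hWP, hWN⟩ := hKS K M ζ hζ γ θ hθ P hPp hP0 hpP hγP hpowP
  obtain ⟨W', hWp', hWP', hWN'⟩ := hKS K M ζ hζ γ θ hθ P' hPp' hP0' hpP' hγP' hpowP'
  have hζM : IsPrimitiveRoot (algebraMap (𝓞 K) (𝓞 M) ζ) p :=
    hζ.map_of_injective algebraMap_injective'
  have hr0M : (r : 𝓞 M) ≠ 0 := by exact_mod_cast hr.ne_zero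
  -- facts about good primes of `M`
  have key : ∀ V : Ideal (𝓞 M),
      GoodPrime ((p : 𝓞 M) * algebraMap (𝓞 K) (𝓞 M) a * (algebraMap (𝓞 K) (𝓞 M) t * (r : 𝓞 M))) V →
      V.IsPrime ∧ V ≠ ⊥ ∧ (p : 𝓞 M) ∉ V ∧ algebraMap (𝓞 K) (𝓞 M) a ∉ V ∧ (r : 𝓞 M) ∉ V ∧
        GoodPrime ((p : 𝓞 K) * a * t) (V.comap (algebraMap (𝓞 K) (𝓞 M))) ∧
        algebraMap (𝓞 K) (𝓞 M) δ ∉ V := by
    rintro V ⟨hVp, hV0, hVm⟩
    have h1 : (p : 𝓞 M) ∉ V := fun h =>
      hVm (Ideal.mul_mem_right _ _ (Ideal.mul_mem_right _ _ h))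
    have h2 : algebraMap (𝓞 K) (𝓞 M) a ∉ V := fun h =>
      hVm (Ideal.mul_mem_right _ _ (Ideal.mul_mem_left _ _ h))
    have h3 : algebraMap (𝓞 K) (𝓞 M) t ∉ V := fun h =>
      hVm (Ideal.mul_mem_left _ _ (Ideal.mul_mem_right _ _ h))
    have h4 : (r : 𝓞 M) ∉ V := fun h =>
      hVm (Ideal.mul_mem_left _ _ (Ideal.mul_mem_left _ _ h))
    have hQp : (V.comap (algebraMap (𝓞 K) (𝓞 M))).IsPrime := Ideal.comap_isPrime _ V
    have hQ0 : V.comap (algebraMap (𝓞 K) (𝓞 M)) ≠ ⊥ := fun h =>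
      hV0 (Ideal.eq_bot_of_comap_eq_bot h)
    have hQm : (p : 𝓞 K) * a * t ∉ V.comap (algebraMap (𝓞 K) (𝓞 M)) := by
      intro h
      rw [Ideal.mem_comap, map_mul, map_mul, map_natCast] at h
      rcases hVp.mem_or_mem h with h | h
      · rcases hVp.mem_or_mem h with h | h
        · exact h1 h
        · exact h2 h
      · exact h3 h
    have hrQ : (r : 𝓞 K) ∉ V.comap (algebraMap (𝓞 K) (𝓞 M)) := by
      intro h
      rw [Ideal.mem_comap, map_natCast] at h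
      exact h4 h
    have hδQ : δ ∉ V.comap (algebraMap (𝓞 K) (𝓞 M)) := hG.unit _ hQp hrQ
    exact ⟨hVp, hV0, h1, h2, h4, ⟨hQp, hQ0, hQm⟩, hδQ⟩
  -- norms of integers of `M` are `p`-th powers modulo `r`
  have hnorm : ∀ y : 𝓞 M, ∃ n : ℤ, (r : ℤ) ∣ Algebra.norm ℤ y - n ^ p := by
    intro y
    have h1 : ∀ R : Ideal (𝓞 K), R.IsPrime → (r : 𝓞 K) ∈ R →
        ∃ b : 𝓞 K, Algebra.intNorm (𝓞 K) (𝓞 M) y - b ^ p ∈ R := by
      intro R hR hrR
      have hpR : (p : 𝓞 K) ∉ R := fun h =>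
        hrm R hR hrR (Ideal.mul_mem_right _ _ (Ideal.mul_mem_right _ _ h))
      exact hRN K M ζ hζ γ θ hθ R hR hpR (hord R hR hrR) y
    obtain ⟨n, hn⟩ := hCN K r hr hr1 _ h1
    refine ⟨n, ?_⟩
    have h2 : Algebra.norm ℤ (Algebra.intNorm (𝓞 K) (𝓞 M) y) = Algebra.norm ℤ y := by
      have h3 := Algebra.intNorm_intNorm ℤ (𝓞 K) (C := 𝓞 M) y
      rw [Algebra.intNorm_eq_norm ℤ (𝓞 K), Algebra.intNorm_eq_norm ℤ (𝓞 M)] at h3
      exact h3
    rwa [h2] at hn
  -- the symbol character on `M`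
  have hψM : IsNRChar p
      ((p : 𝓞 M) * algebraMap (𝓞 K) (𝓞 M) a * (algebraMap (𝓞 K) (𝓞 M) t * (r : 𝓞 M)))
      (algebraMap (𝓞 K) (𝓞 M) a)
      (sym p (algebraMap (𝓞 K) (𝓞 M) ζ) (algebraMap (𝓞 K) (𝓞 M) a)) := by
    refine ⟨?_, ?_⟩
    · intro y hy hym
      have hspan : Ideal.span {y} ≠ ⊥ := by simpa using hy
      have hfac : ∀ V ∈ normalizedFactors (Ideal.span {y}),
          GoodPrime ((p : 𝓞 M) * algebraMap (𝓞 K) (𝓞 M) a *
            (algebraMap (𝓞 K) (𝓞 M) t * (r : 𝓞 M))) V := by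
        intro V hV
        have hV' := (Ideal.mem_normalizedFactors_iff hspan).mp hV
        exact ⟨hV'.1, ne_zero_of_mem_normalizedFactors hV, fun hm =>
          hym V hV'.1 hm (hV'.2 (Ideal.mem_span_singleton_self y))⟩
      have hpt : ∀ V ∈ normalizedFactors (Ideal.span {y}),
          sym p (algebraMap (𝓞 K) (𝓞 M) ζ) (algebraMap (𝓞 K) (𝓞 M) a) V =
            (-d * e⁻¹) * c (Ideal.absNorm V) := by
        intro V hV
        obtain ⟨hVp, hV0, hpV, haV, hrV, -, hδV⟩ := key V (hfac V hV)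
        have hγV : algebraMap (𝓞 K) (𝓞 M) γ ∉ V := by
          rw [hγ, map_mul, map_pow, map_pow]
          intro h
          rcases hVp.mem_or_mem h with h | h
          · exact haV (hVp.mem_of_pow_mem _ h)
          · exact hδV (hVp.mem_of_pow_mem _ h)
        have h0 : sym p (algebraMap (𝓞 K) (𝓞 M) ζ) (algebraMap (𝓞 K) (𝓞 M) γ) V = 0 :=
          (sym_eq_zero_iff hζM hVp hV0 hpV hγV).mpr
            ⟨θ, by rw [hθ.pow_eq, sub_self]; exact zero_mem _⟩
        have hsδ : sym p (algebraMap (𝓞 K) (𝓞 M) ζ) (algebraMap (𝓞 K) (𝓞 M) δ) V =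
            - c (Ideal.absNorm V) :=
          sym_eq_of_symEq hζM hpV (hG.frob M V hVp hV0 hpV hrV)
        have hexp : sym p (algebraMap (𝓞 K) (𝓞 M) ζ) (algebraMap (𝓞 K) (𝓞 M) γ) V =
            (E : ZMod p) * sym p (algebraMap (𝓞 K) (𝓞 M) ζ) (algebraMap (𝓞 K) (𝓞 M) a) V +
            (D : ZMod p) * sym p (algebraMap (𝓞 K) (𝓞 M) ζ) (algebraMap (𝓞 K) (𝓞 M) δ) V := by
          rw [hγ, map_mul, map_pow, map_pow,
            sym_mul hζM hVp hV0 hpV (fun h => haV (hVp.mem_of_pow_mem _ h))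
              (fun h => hδV (hVp.mem_of_pow_mem _ h)),
            sym_pow hζM hVp hV0 hpV haV, sym_pow hζM hVp hV0 hpV hδV]
        rw [h0, hEc, hDc, hsδ] at hexp
        have he0 : e ≠ 0 := he
        field_simp
        linear_combination -hexp
      have hcs := hG.c_multiset_prod hr
        ((normalizedFactors (Ideal.span {y})).map (fun V => Ideal.absNorm V)) (by
          intro n hn
          obtain ⟨V, hV, rfl⟩ := Multiset.mem_map.mp hn
          obtain ⟨hVp, hV0, -, -, hrV, -, -⟩ := key V (hfac V hV)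
          exact not_dvd_absNorm hVp hV0 hr hrV)
      have hprod : ((normalizedFactors (Ideal.span {y})).map (fun V => Ideal.absNorm V)).prod =
          Ideal.absNorm (Ideal.span {y}) := by
        rw [← map_multiset_prod, Ideal.prod_normalizedFactors_eq_self hspan]
      rw [hprod, Multiset.map_map] at hcs
      have hzero : c (Ideal.absNorm (Ideal.span {y})) = 0 := by
        rw [hG.c_pow _ hcs.2, Ideal.absNorm_span_singleton]
        obtain ⟨n, hn⟩ := hnorm y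
        have hcong : ((Algebra.norm ℤ y : ℤ) : ZMod r) = (n : ZMod r) ^ p := by
          have := (ZMod.intCast_zmod_eq_zero_iff_dvd _ r).mpr hn
          push_cast at this
          exact sub_eq_zero.mp this
        have hnat : (((Algebra.norm ℤ y).natAbs : ℕ) : ZMod r) =
            (((Algebra.norm ℤ y).natAbs : ℤ) : ZMod r) := (Int.cast_natCast _).symm
        rcases Int.natAbs_eq (Algebra.norm ℤ y) with h | h
        · refine ⟨(n : ZMod r), ?_⟩
          rw [← hcong, hnat, ← h]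
        · refine ⟨-(n : ZMod r), ?_⟩
          have hodd : Odd p := hpr.odd_of_ne_two hp2
          have h' : (((Algebra.norm ℤ y).natAbs : ℕ) : ℤ) = -(Algebra.norm ℤ y) := by omega
          rw [hodd.neg_pow, ← hcong, hnat, h', Int.cast_neg]
      unfold evalChar
      rw [Multiset.map_congr rfl hpt, Multiset.sum_map_mul_left]
      have : (Multiset.map (fun V => c (Ideal.absNorm V)) (normalizedFactors (Ideal.span {y}))).sum
          = c (Ideal.absNorm (Ideal.span {y})) := hcs.1.symm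
      rw [this, hzero, mul_zero]
    · intro V hV hpow
      obtain ⟨hVp, hV0, hpV, haV, -, -, -⟩ := key V hV
      exact (sym_eq_zero_iff hζM hVp hV0 hpV haV).mpr hpow
  -- the norm character on `M`
  have hφM : IsNRChar p
      ((p : 𝓞 M) * algebraMap (𝓞 K) (𝓞 M) a * (algebraMap (𝓞 K) (𝓞 M) t * (r : 𝓞 M)))
      (algebraMap (𝓞 K) (𝓞 M) a)
      (fun V => evalChar p φ (Ideal.relNorm (𝓞 K) V)) := by
    refine ⟨?_, ?_⟩
    · intro y hy hym
      have hspan : Ideal.span {y} ≠ ⊥ := by simpa using hy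
      rw [evalChar_comp_relNorm φ hspan, Ideal.relNorm_singleton]
      apply hφ.principal
      · exact Algebra.intNorm_ne_zero.mpr hy
      · intro Q hQ hmQ hyQ
        have hle : Ideal.relNorm (𝓞 K) (Ideal.span {y}) ≤ Q := by
          rw [Ideal.relNorm_singleton, Ideal.span_singleton_le_iff_mem]
          exact hyQ
        rw [← Ideal.prod_normalizedFactors_eq_self hspan, map_multiset_prod,
          hQ.multiset_prod_le] at hle
        obtain ⟨J, hJ, hJQ⟩ := hle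
        obtain ⟨V, hV, rfl⟩ := Multiset.mem_map.mp hJ
        have hV' := (Ideal.mem_normalizedFactors_iff hspan).mp hV
        have hVp := hV'.1
        have hV0 : V ≠ ⊥ := ne_zero_of_mem_normalizedFactors hV
        obtain ⟨s, hs, -⟩ := relNorm_prime (K := K) hVp
        rw [hs] at hJQ
        have hcQ : V.comap (algebraMap (𝓞 K) (𝓞 M)) ≤ Q :=
          Ideal.IsPrime.le_of_pow_le (hP := hQ) hJQ
        have hc0 : V.comap (algebraMap (𝓞 K) (𝓞 M)) ≠ ⊥ := fun h =>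
          hV0 (Ideal.eq_bot_of_comap_eq_bot h)
        have hcmax := isMaximal_of_isPrime (Ideal.comap_isPrime _ V) hc0
        have heq : V.comap (algebraMap (𝓞 K) (𝓞 M)) = Q := hcmax.eq_of_le hQ.ne_top hcQ
        have hmV : (p : 𝓞 M) * algebraMap (𝓞 K) (𝓞 M) a *
            (algebraMap (𝓞 K) (𝓞 M) t * (r : 𝓞 M)) ∈ V := by
          have h1 : algebraMap (𝓞 K) (𝓞 M) ((p : 𝓞 K) * a * t) ∈ V := by
            rw [← Ideal.mem_comap, heq]; exact hmQ
          rw [map_mul, map_mul, map_natCast] at h1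
          have h2 := Ideal.mul_mem_right (r : 𝓞 M) V h1
          convert h2 using 1
          ring
        exact hym V hVp hmV (hV'.2 (Ideal.mem_span_singleton_self y))
    · intro V hV hpow
      obtain ⟨hVp, hV0, hpV, haV, -, hQ, -⟩ := key V hV
      obtain ⟨s, hs1, hs2⟩ := relNorm_prime (K := K) hVp
      show evalChar p φ (Ideal.relNorm (𝓞 K) V) = 0
      rw [hs1, evalChar_pow φ hQ.isPrime hQ.ne_bot]
      have hpQ : (p : 𝓞 K) ∉ V.comap (algebraMap (𝓞 K) (𝓞 M)) := fun h =>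
        hQ.notMem (Ideal.mul_mem_right _ _ (Ideal.mul_mem_right _ _ h))
      have haQ : a ∉ V.comap (algebraMap (𝓞 K) (𝓞 M)) := fun h =>
        hQ.notMem (Ideal.mul_mem_right _ _ (Ideal.mul_mem_left _ _ h))
      have h1 := sym_ext hζ hVp hQ.ne_bot hpQ hs2 haQ
      have h2 : sym p (algebraMap (𝓞 K) (𝓞 M) ζ) (algebraMap (𝓞 K) (𝓞 M) a) V = 0 :=
        (sym_eq_zero_iff hζM hVp hV0 hpV haV).mpr hpow
      rw [h2] at h1
      rcases mul_eq_zero.mp h1.symm with h | h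
      · rw [h, zero_mul]
      · rw [hφ.split _ hQ ((sym_eq_zero_iff hζ hQ.isPrime hQ.ne_bot hpQ haQ).mp h), mul_zero]
  -- the primes `W`, `W'` are good
  have hgood : ∀ (V : Ideal (𝓞 M)) (Q : Ideal (𝓞 K)), V.IsPrime →
      V.comap (algebraMap (𝓞 K) (𝓞 M)) = Q → Ideal.absNorm V = Ideal.absNorm Q → Q ≠ ⊥ →
      (p : 𝓞 K) ∉ Q → a ∉ Q → t ∉ Q → (r : 𝓞 K) ∉ Q →
      GoodPrime ((p : 𝓞 M) * algebraMap (𝓞 K) (𝓞 M) a *
        (algebraMap (𝓞 K) (𝓞 M) t * (r : 𝓞 M))) V := by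
    intro V Q hVp hVQ hVN hQ0 hpQ haQ htQ hrQ
    have hV0 : V ≠ ⊥ := by
      rintro rfl
      rw [Ideal.absNorm_bot] at hVN
      exact hQ0 (Ideal.absNorm_eq_zero_iff.mp hVN.symm)
    refine ⟨hVp, hV0, ?_⟩
    intro h
    have h1 : (p : 𝓞 M) ∉ V := natCast_notMem_of_comap (by rw [hVQ]; exact hpQ)
    have h2 : algebraMap (𝓞 K) (𝓞 M) a ∉ V := fun h => haQ (by rw [← hVQ]; exact h)
    have h3 : algebraMap (𝓞 K) (𝓞 M) t ∉ V := fun h => htQ (by rw [← hVQ]; exact h)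
    have h4 : (r : 𝓞 M) ∉ V := natCast_notMem_of_comap (by rw [hVQ]; exact hrQ)
    rcases hVp.mem_or_mem h with h | h
    · rcases hVp.mem_or_mem h with h | h
      · exact h1 h
      · exact h2 h
    · rcases hVp.mem_or_mem h with h | h
      · exact h3 h
      · exact h4 h
  have hWgood := hgood W P hWp hWP hWN hP0 hpP haP htP hrP
  have hWgood' := hgood W' P' hWp' hWP' hWN' hP0' hpP' haP' htP' hrP'
  have ha0 : a ≠ 0 := by rintro rfl; exact haP (zero_mem _)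
  have ht0 : t ≠ 0 := by rintro rfl; exact htP (zero_mem _)
  have haM : algebraMap (𝓞 K) (𝓞 M) a ≠ 0 := fun h =>
    ha0 (algebraMap_injective' (by rw [h, map_zero]))
  have htM : algebraMap (𝓞 K) (𝓞 M) t * (r : 𝓞 M) ≠ 0 :=
    mul_ne_zero (fun h => ht0 (algebraMap_injective' (by rw [h, map_zero]))) hr0M
  have hfinal := hSI M (algebraMap (𝓞 K) (𝓞 M) ζ) hζM (algebraMap (𝓞 K) (𝓞 M) a)
    (algebraMap (𝓞 K) (𝓞 M) t * (r : 𝓞 M)) haM htM _ _ hφM hψM W W' hWgood hWgood'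
  have e1 : evalChar p φ (Ideal.relNorm (𝓞 K) W) = φ P := by
    rw [relNorm_eq_of_absNorm_eq hWp hPp hP0 hWP hWN, evalChar_prime φ hPp hP0]
  have e1' : evalChar p φ (Ideal.relNorm (𝓞 K) W') = φ P' := by
    rw [relNorm_eq_of_absNorm_eq hWp' hPp' hP0' hWP' hWN', evalChar_prime φ hPp' hP0']
  have e2 : sym p (algebraMap (𝓞 K) (𝓞 M) ζ) (algebraMap (𝓞 K) (𝓞 M) a) W = d := by
    have h := sym_ext hζ hWp (by rw [hWP]; exact hP0) (by rw [hWP]; exact hpP) (s := 1)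
      (by rw [hWP, pow_one]; exact hWN) (a := a) (by rw [hWP]; exact haP)
    rw [h, hWP]
    simp [hd_def]
  have e2' : sym p (algebraMap (𝓞 K) (𝓞 M) ζ) (algebraMap (𝓞 K) (𝓞 M) a) W' = d' := by
    have h := sym_ext hζ hWp' (by rw [hWP']; exact hP0') (by rw [hWP']; exact hpP') (s := 1)
      (by rw [hWP', pow_one]; exact hWN') (a := a) (by rw [hWP']; exact haP')
    rw [h, hWP']
    simp [hd'_def]
  simp only [e1, e1', e2, e2'] at hfinal
  exact hfinal

end Main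

section Main2
variable {p : ℕ} [hp : Fact p.Prime]

/-- A rational prime lying in a prime ideal divides its absolute norm. -/
theorem dvd_absNorm_of_mem {F : Type} [Field F] [NumberField F] {V : Ideal (𝓞 F)}
    (hV : V.IsPrime) {ℓ : ℕ} (hℓ : ℓ.Prime) (hℓV : (ℓ : 𝓞 F) ∈ V) : ℓ ∣ Ideal.absNorm V := by
  by_contra hnd
  have hcop : Nat.Coprime ℓ (Ideal.absNorm V) := (Nat.Prime.coprime_iff_not_dvd hℓ).mpr hnd
  have hic : IsCoprime (ℓ : ℤ) (Ideal.absNorm V : ℤ) := Nat.isCoprime_iff_coprime.mpr hcop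
  obtain ⟨u, v, huv⟩ := hic
  have h1 : ((u * (ℓ : ℤ) + v * (Ideal.absNorm V : ℤ) : ℤ) : 𝓞 F) ∈ V := by
    push_cast
    exact V.add_mem (Ideal.mul_mem_left _ _ hℓV) (Ideal.mul_mem_left _ _ (Ideal.absNorm_mem V))
  rw [huv] at h1
  exact hV.ne_top ((Ideal.eq_top_iff_one V).mpr (by simpa using h1))

/-- **Pair crossing, dual form**: for two good primes of distinct prime norms, every
norm-residue character `φ` for `a` satisfies `φ P * sym_P'(a) = φ P' * sym_P(a)`. -/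
theorem pair_cross (hp2 : p ≠ 2)
    (hSI : Stmt_SecondIneq p) (hKE : Stmt_KummerExists p) (hKS : Stmt_KummerSplit p)
    (hRN : Stmt_RamNorm p) (hCN : Stmt_CycloNorm p) (hGs : Stmt_Gauss p)
    (hAux : Stmt_AuxPrime p)
    {K : Type} [Field K] [NumberField K] [IsCyclotomicExtension {p} ℚ K] {ζ : 𝓞 K}
    (hζ : IsPrimitiveRoot ζ p) {a t : 𝓞 K}
    {φ : Ideal (𝓞 K) → ZMod p} (hφ : IsNRChar p ((p : 𝓞 K) * a * t) a φ)
    {P P' : Ideal (𝓞 K)} (hP : GoodPrime ((p : 𝓞 K) * a * t) P)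
    (hP' : GoodPrime ((p : 𝓞 K) * a * t) P')
    (hq : (Ideal.absNorm P).Prime) (hq' : (Ideal.absNorm P').Prime)
    (hne : Ideal.absNorm P ≠ Ideal.absNorm P') :
    φ P * sym p ζ a P' = φ P' * sym p ζ a P := by
  have hpr : p.Prime := hp.out
  have : NeZero p := ⟨hpr.ne_zero⟩
  have hPp := hP.isPrime
  have hP0 := hP.ne_bot
  have hPm := hP.notMem
  have hPp' := hP'.isPrime
  have hP0' := hP'.ne_bot
  have hPm' := hP'.notMem
  have hpP : (p : 𝓞 K) ∉ P := fun h =>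
    hPm (Ideal.mul_mem_right _ _ (Ideal.mul_mem_right _ _ h))
  have haP : a ∉ P := fun h => hPm (Ideal.mul_mem_right _ _ (Ideal.mul_mem_left _ _ h))
  have hpP' : (p : 𝓞 K) ∉ P' := fun h =>
    hPm' (Ideal.mul_mem_right _ _ (Ideal.mul_mem_right _ _ h))
  have haP' : a ∉ P' := fun h => hPm' (Ideal.mul_mem_right _ _ (Ideal.mul_mem_left _ _ h))
  by_cases hd : sym p ζ a P = 0
  · rw [hd, mul_zero, hφ.split P hP ((sym_eq_zero_iff hζ hPp hP0 hpP haP).mp hd), zero_mul]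
  by_cases hd' : sym p ζ a P' = 0
  · rw [hd', mul_zero, hφ.split P' hP' ((sym_eq_zero_iff hζ hPp' hP0' hpP' haP').mp hd'), zero_mul]
  set q := Ideal.absNorm P with hq_def
  set q' := Ideal.absNorm P' with hq'_def
  have hqp : q ≠ p := by
    intro h
    apply hpP
    rw [← h]
    exact Ideal.absNorm_mem P
  have hqp' : q' ≠ p := by
    intro h
    apply hpP'
    rw [← h]
    exact Ideal.absNorm_mem P'
  set d := sym p ζ a P with hd_def
  set d' := sym p ζ a P' with hd'_def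
  set A : ℕ := d'.val with hA
  set A' : ℕ := (-d).val with hA'
  have hAc : (A : ZMod p) = d' := ZMod.natCast_zmod_val d'
  have hAc' : (A' : ZMod p) = -d := ZMod.natCast_zmod_val (-d)
  have hAp : ¬ p ∣ A := by
    intro h
    have : (A : ZMod p) = 0 := (ZMod.natCast_eq_zero_iff A p).mpr h
    rw [hAc] at this
    exact hd' this
  have hAp' : ¬ p ∣ A' := by
    intro h
    have : (A' : ZMod p) = 0 := (ZMod.natCast_eq_zero_iff A' p).mpr h
    rw [hAc'] at this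
    exact hd (neg_eq_zero.mp this)
  have hm0 : (p : 𝓞 K) * a * t ≠ 0 := by
    intro h
    rw [h] at hPm
    exact hPm (zero_mem _)
  set Nm := Ideal.absNorm (Ideal.span {(p : 𝓞 K) * a * t}) with hNm
  have hNm0 : Nm ≠ 0 := by
    rw [hNm, Ne, Ideal.absNorm_eq_zero_iff, Ideal.span_singleton_eq_bot]
    exact hm0
  have hT : p * q * q' * Nm ≠ 0 :=
    mul_ne_zero (mul_ne_zero (mul_ne_zero hpr.ne_zero hq.ne_zero) hq'.ne_zero) hNm0
  obtain ⟨r, hr, hr1, hrT, ⟨x, hx⟩, hnq⟩ := hAux q q' hq hq' hne hqp hqp' A A' hAp hAp' _ hT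
  have hrp : r ≠ p := fun h => hrT (by rw [h]; exact ⟨q * q' * Nm, by ring⟩)
  have hrq : r ≠ q := fun h => hrT (by rw [h]; exact ⟨p * q' * Nm, by ring⟩)
  have hrq' : r ≠ q' := fun h => hrT (by rw [h]; exact ⟨p * q * Nm, by ring⟩)
  have hrNm : ¬ r ∣ Nm := fun h => hrT (Dvd.dvd.mul_left h _)
  obtain ⟨δ, c, hG⟩ := hGs K ζ hζ r hr hr1
  have hrP : (r : 𝓞 K) ∉ P := fun h =>
    hrq ((Nat.prime_dvd_prime_iff_eq hr hq).mp (dvd_absNorm_of_mem hPp hr h))
  have hrP' : (r : 𝓞 K) ∉ P' := fun h =>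
    hrq' ((Nat.prime_dvd_prime_iff_eq hr hq').mp (dvd_absNorm_of_mem hPp' hr h))
  have hrm : ∀ R : Ideal (𝓞 K), R.IsPrime → (r : 𝓞 K) ∈ R → (p : 𝓞 K) * a * t ∉ R := by
    intro R hR hrR hmR
    apply hrNm
    have h1 : r ∣ Ideal.absNorm R := dvd_absNorm_of_mem hR hr hrR
    have h2 : Ideal.absNorm R ∣ Nm :=
      Ideal.absNorm_dvd_absNorm_of_le ((Ideal.span_singleton_le_iff_mem _).mpr hmR)
    exact h1.trans h2
  have hrq_dvd : ¬ r ∣ q := fun h => hrq ((Nat.prime_dvd_prime_iff_eq hr hq).mp h)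
  have hrq_dvd' : ¬ r ∣ q' := fun h => hrq' ((Nat.prime_dvd_prime_iff_eq hr hq').mp h)
  have hrqA : ¬ r ∣ q ^ A := fun h => hrq_dvd (hr.dvd_of_dvd_pow h)
  have hrqA' : ¬ r ∣ q' ^ A' := fun h => hrq_dvd' (hr.dvd_of_dvd_pow h)
  have hprod : ¬ r ∣ q ^ A * q' ^ A' := fun h => by
    rcases (Nat.Prime.dvd_mul hr).mp h with h | h
    · exact hrqA h
    · exact hrqA' h
  have hc0 : c (q ^ A * q' ^ A') = 0 := by
    rw [hG.c_pow _ hprod]
    exact ⟨x, by rw [hx]; push_cast; ring⟩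
  rw [hG.c_mul _ _ hrqA hrqA', hG.c_pow' hr hrq_dvd, hG.c_pow' hr hrq_dvd', hAc, hAc'] at hc0
  have hcq : c q ≠ 0 := by
    rw [Ne, hG.c_pow _ hrq_dvd]
    exact hnq
  have hsδ : sym p ζ δ P = - c q :=
    sym_eq_of_symEq hζ hpP (hG.frob K P hPp hP0 hpP hrP)
  have hsδ' : sym p ζ δ P' = - c q' :=
    sym_eq_of_symEq hζ hpP' (hG.frob K P' hPp' hP0' hpP' hrP')
  refine pair_cross_aux hp2 hSI hKE hKS hRN hCN hζ hφ hP hP' hr hr1 hG hrP hrP' hrm hd ?_ ?_
  · rw [hsδ]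
    exact neg_ne_zero.mpr hcq
  · rw [hsδ, hsδ']
    linear_combination (-1 : ZMod p) * hc0

end Main2

end Fermat.Agent.S14.helper2797
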