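import Fermat.Agent.S14.helper2797_CrossingSpec

/-!
# S14 / M7: API for the power residue symbol `sym` (exponent form) at a prime not over `p`
-/

set_option autoImplicit false
set_option linter.unusedSectionVars false

namespace Fermat.Agent.S14.helper2797

open NumberField UniqueFactorizationMonoid

section FiniteField

variable {k : Type*} [Field k] [Finite k] {p : ℕ}

/-- In a finite field with a primitive `p`-th root of unity, `p ∣ #k - 1`. -/
theorem dvd_card_sub_one_of_primitiveRoot {μ : k} (hμ : IsPrimitiveRoot μ p) (hp0 : p ≠ 0) :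
    p ∣ Nat.card k - 1 := by
  have : Fintype k := Fintype.ofFinite k
  have hμ0 : μ ≠ 0 := by
    rintro rfl
    have := hμ.pow_eq_one
    rw [zero_pow hp0] at this
    exact zero_ne_one this
  apply hμ.dvd_of_pow_eq_one
  rw [Nat.card_eq_fintype_card]
  exact FiniteField.pow_card_sub_one_eq_one μ hμ0

/-- In a finite field, for `p ∣ #k - 1`: `x ^ ((#k - 1) / p) = 1` iff `x` is a `p`-th power
(`x ≠ 0`). -/
theorem pow_card_sub_one_div_eq_one_iff (hp : p ∣ Nat.card k - 1) (hp0 : p ≠ 0) {x : k}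
    (hx : x ≠ 0) : x ^ ((Nat.card k - 1) / p) = 1 ↔ ∃ y : k, y ^ p = x := by
  have : Fintype k := Fintype.ofFinite k
  have hN : Nat.card k = Fintype.card k := Nat.card_eq_fintype_card
  constructor
  · intro h
    obtain ⟨g, hg⟩ := IsCyclic.exists_generator (α := kˣ)
    obtain ⟨i, hi⟩ : ∃ i : ℕ, g ^ i = Units.mk0 x hx := by
      have := hg (Units.mk0 x hx)
      rw [Subgroup.mem_zpowers_iff] at this
      obtain ⟨z, hz⟩ := this
      refine ⟨(z % (orderOf g : ℤ)).toNat, ?_⟩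
      have hpos : (0 : ℤ) < orderOf g := by exact_mod_cast orderOf_pos g
      rw [← zpow_natCast, Int.toNat_of_nonneg (Int.emod_nonneg _ hpos.ne'), zpow_mod_orderOf, hz]
    have hord : orderOf g = Nat.card k - 1 := by
      rw [orderOf_eq_card_of_forall_mem_zpowers hg, Nat.card_units]
    have h1 : g ^ (i * ((Nat.card k - 1) / p)) = 1 := by
      rw [pow_mul, hi]
      ext
      simpa using h
    have h2 : orderOf g ∣ i * ((Nat.card k - 1) / p) := orderOf_dvd_of_pow_eq_one h1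
    rw [hord] at h2
    obtain ⟨m, hm⟩ := hp
    have hm0 : m ≠ 0 := by
      rintro rfl
      rw [mul_zero] at hm
      have : 1 < Nat.card k := Finite.one_lt_card
      omega
    rw [hm, Nat.mul_div_cancel_left m (Nat.pos_of_ne_zero hp0)] at h2
    have h3 : p ∣ i := by
      have := Nat.dvd_of_mul_dvd_mul_right (Nat.pos_of_ne_zero hm0) h2
      exact this
    obtain ⟨j, rfl⟩ := h3
    refine ⟨((g ^ j : kˣ) : k), ?_⟩
    have : (g ^ j) ^ p = Units.mk0 x hx := by rw [← hi, ← pow_mul, mul_comm]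
    have := congrArg (Units.val) this
    simpa using this
  · rintro ⟨y, rfl⟩
    have hy : y ≠ 0 := by
      rintro rfl
      exact hx (zero_pow hp0)
    rw [← pow_mul, Nat.mul_div_cancel' hp, hN]
    exact FiniteField.pow_card_sub_one_eq_one y hy

end FiniteField

section Residue

variable {p : ℕ} [hp : Fact p.Prime] {F : Type} [Field F] [NumberField F]
  {ζ : 𝓞 F} {P : Ideal (𝓞 F)}

/-- The residue field at a nonzero prime is finite. -/
theorem finite_quot (hP0 : P ≠ ⊥) : Finite (𝓞 F ⧸ P) :=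
  Ideal.finiteQuotientOfFreeOfNeBot P hP0

theorem natCard_quot (P : Ideal (𝓞 F)) : Nat.card (𝓞 F ⧸ P) = Ideal.absNorm P := by
  rw [Ideal.absNorm_apply, Submodule.cardQuot_apply]

theorem isMaximal_of_isPrime (hP : P.IsPrime) (hP0 : P ≠ ⊥) : P.IsMaximal :=
  hP.isMaximal hP0

/-- `ζ` stays a primitive `p`-th root of unity modulo a prime not containing `p`. -/
theorem mk_isPrimitiveRoot (hζ : IsPrimitiveRoot ζ p) (hpP : (p : 𝓞 F) ∉ P) :
    IsPrimitiveRoot (Ideal.Quotient.mk P ζ) p := by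
  have hp' := hp.out
  have hpow : (Ideal.Quotient.mk P ζ) ^ p = 1 := by
    rw [← map_pow, hζ.pow_eq_one, map_one]
  have hne : Ideal.Quotient.mk P ζ ≠ 1 := by
    intro h1
    have hζ1 : ζ ≠ 1 := hζ.ne_one hp'.one_lt
    have hsum : ∑ i ∈ Finset.range p, ζ ^ i = 0 := by
      have h := mul_geom_sum ζ p
      rw [hζ.pow_eq_one, sub_self] at h
      exact (mul_eq_zero.mp h).resolve_left (sub_ne_zero.mpr hζ1)
    have := congrArg (Ideal.Quotient.mk P) hsum
    rw [map_sum] at this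
    simp only [map_pow, h1, one_pow, Finset.sum_const, Finset.card_range, nsmul_eq_mul, mul_one,
      map_zero] at this
    apply hpP
    rw [← Ideal.Quotient.eq_zero_iff_mem, map_natCast]
    exact this
  have hord : orderOf (Ideal.Quotient.mk P ζ) = p := orderOf_eq_prime hpow hne
  rw [← hord]
  exact IsPrimitiveRoot.orderOf _

/-- `p ∣ N P - 1` for a nonzero prime `P` not containing `p` (when `ζ_p ∈ F`). -/
theorem dvd_absNorm_sub_one (hζ : IsPrimitiveRoot ζ p) (hP : P.IsPrime) (hP0 : P ≠ ⊥)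
    (hpP : (p : 𝓞 F) ∉ P) : p ∣ Ideal.absNorm P - 1 := by
  have := isMaximal_of_isPrime hP hP0
  let _ : Field (𝓞 F ⧸ P) := Ideal.Quotient.field P
  have := finite_quot hP0
  rw [← natCard_quot P]
  exact dvd_card_sub_one_of_primitiveRoot (mk_isPrimitiveRoot hζ hpP) hp.out.ne_zero

theorem symEq_iff {a : 𝓞 F} {j : ZMod p} :
    SymEq p ζ P a j ↔
      (Ideal.Quotient.mk P a) ^ ((Ideal.absNorm P - 1) / p) = (Ideal.Quotient.mk P ζ) ^ j.val := by
  unfold SymEq
  rw [← Ideal.Quotient.eq, map_pow, map_pow]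

/-- Existence of the symbol. -/
theorem exists_symEq (hζ : IsPrimitiveRoot ζ p) (hP : P.IsPrime) (hP0 : P ≠ ⊥)
    (hpP : (p : 𝓞 F) ∉ P) {a : 𝓞 F} (ha : a ∉ P) : ∃ j : ZMod p, SymEq p ζ P a j := by
  have := isMaximal_of_isPrime hP hP0
  let _ : Field (𝓞 F ⧸ P) := Ideal.Quotient.field P
  have := finite_quot hP0
  have : Fintype (𝓞 F ⧸ P) := Fintype.ofFinite _
  have hμ := mk_isPrimitiveRoot hζ hpP
  have hdvd := dvd_absNorm_sub_one hζ hP hP0 hpP
  have ha0 : Ideal.Quotient.mk P a ≠ 0 := by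
    rwa [Ne, Ideal.Quotient.eq_zero_iff_mem]
  have h1 : ((Ideal.Quotient.mk P a) ^ ((Ideal.absNorm P - 1) / p)) ^ p = 1 := by
    rw [← pow_mul, Nat.div_mul_cancel hdvd, ← natCard_quot P, Nat.card_eq_fintype_card]
    exact FiniteField.pow_card_sub_one_eq_one _ ha0
  have : NeZero p := ⟨hp.out.ne_zero⟩
  obtain ⟨i, hi, hi'⟩ := hμ.eq_pow_of_pow_eq_one h1
  refine ⟨(i : ZMod p), ?_⟩
  rw [symEq_iff, ZMod.val_natCast, Nat.mod_eq_of_lt hi, hi']

/-- Uniqueness of the symbol. -/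
theorem symEq_unique (hζ : IsPrimitiveRoot ζ p)
    (hpP : (p : 𝓞 F) ∉ P) {a : 𝓞 F} {j j' : ZMod p} (h : SymEq p ζ P a j)
    (h' : SymEq p ζ P a j') : j = j' := by
  have hμ := mk_isPrimitiveRoot hζ hpP
  rw [symEq_iff] at h h'
  have : NeZero p := ⟨hp.out.ne_zero⟩
  have := hμ.pow_inj (ZMod.val_lt j) (ZMod.val_lt j') (h.symm.trans h')
  exact ZMod.val_injective p this

theorem sym_spec (hζ : IsPrimitiveRoot ζ p) (hP : P.IsPrime) (hP0 : P ≠ ⊥)
    (hpP : (p : 𝓞 F) ∉ P) {a : 𝓞 F} (ha : a ∉ P) : SymEq p ζ P a (sym p ζ a P) := by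
  have h := exists_symEq hζ hP hP0 hpP ha
  unfold sym
  rw [dif_pos h]
  exact h.choose_spec

theorem sym_eq_of_symEq (hζ : IsPrimitiveRoot ζ p)
    (hpP : (p : 𝓞 F) ∉ P) {a : 𝓞 F} {j : ZMod p} (h : SymEq p ζ P a j) :
    sym p ζ a P = j := by
  have h' : ∃ j : ZMod p, SymEq p ζ P a j := ⟨j, h⟩
  unfold sym
  rw [dif_pos h']
  exact symEq_unique hζ hpP h'.choose_spec h

/-- `ζ ^ n` modulo `P` only depends on `n` modulo `p`. -/
theorem mk_zeta_pow_val (hζ : IsPrimitiveRoot ζ p) (n : ℕ) :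
    (Ideal.Quotient.mk P ζ) ^ ((n : ZMod p).val) = (Ideal.Quotient.mk P ζ) ^ n := by
  have hpow : (Ideal.Quotient.mk P ζ) ^ p = 1 := by
    rw [← map_pow, hζ.pow_eq_one, map_one]
  rw [ZMod.val_natCast]
  conv_rhs => rw [← Nat.mod_add_div n p]
  rw [pow_add, pow_mul, hpow, one_pow, mul_one]

theorem symEq_mul (hζ : IsPrimitiveRoot ζ p) {a b : 𝓞 F} {j j' : ZMod p}
    (h : SymEq p ζ P a j) (h' : SymEq p ζ P b j') : SymEq p ζ P (a * b) (j + j') := by
  rw [symEq_iff] at h h' ⊢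
  have : NeZero p := ⟨hp.out.ne_zero⟩
  rw [map_mul, mul_pow, h, h', ← pow_add]
  have : j + j' = ((j.val + j'.val : ℕ) : ZMod p) := by
    rw [Nat.cast_add, ZMod.natCast_zmod_val, ZMod.natCast_zmod_val]
  rw [this, mk_zeta_pow_val hζ]

theorem symEq_pow (hζ : IsPrimitiveRoot ζ p) {a : 𝓞 F} {j : ZMod p}
    (h : SymEq p ζ P a j) (n : ℕ) : SymEq p ζ P (a ^ n) ((n : ZMod p) * j) := by
  rw [symEq_iff] at h ⊢
  have : NeZero p := ⟨hp.out.ne_zero⟩
  rw [map_pow, ← pow_mul, mul_comm, pow_mul, h, ← pow_mul]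
  have : (n : ZMod p) * j = ((j.val * n : ℕ) : ZMod p) := by
    rw [Nat.cast_mul, ZMod.natCast_zmod_val, mul_comm]
  rw [this, mk_zeta_pow_val hζ]

theorem sym_mul (hζ : IsPrimitiveRoot ζ p) (hP : P.IsPrime) (hP0 : P ≠ ⊥)
    (hpP : (p : 𝓞 F) ∉ P) {a b : 𝓞 F} (ha : a ∉ P) (hb : b ∉ P) :
    sym p ζ (a * b) P = sym p ζ a P + sym p ζ b P :=
  sym_eq_of_symEq hζ hpP
    (symEq_mul hζ (sym_spec hζ hP hP0 hpP ha) (sym_spec hζ hP hP0 hpP hb))

theorem sym_pow (hζ : IsPrimitiveRoot ζ p) (hP : P.IsPrime) (hP0 : P ≠ ⊥)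
    (hpP : (p : 𝓞 F) ∉ P) {a : 𝓞 F} (ha : a ∉ P) (n : ℕ) :
    sym p ζ (a ^ n) P = (n : ZMod p) * sym p ζ a P :=
  sym_eq_of_symEq hζ hpP (symEq_pow hζ (sym_spec hζ hP hP0 hpP ha) n)

/-- The symbol vanishes exactly at the `p`-th power residues. -/
theorem sym_eq_zero_iff (hζ : IsPrimitiveRoot ζ p) (hP : P.IsPrime) (hP0 : P ≠ ⊥)
    (hpP : (p : 𝓞 F) ∉ P) {a : 𝓞 F} (ha : a ∉ P) :
    sym p ζ a P = 0 ↔ IsPowRes p P a := by
  have := isMaximal_of_isPrime hP hP0
  let _ : Field (𝓞 F ⧸ P) := Ideal.Quotient.field P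
  have := finite_quot hP0
  have hdvd := dvd_absNorm_sub_one hζ hP hP0 hpP
  have ha0 : Ideal.Quotient.mk P a ≠ 0 := by
    rwa [Ne, Ideal.Quotient.eq_zero_iff_mem]
  have key := pow_card_sub_one_div_eq_one_iff (k := 𝓞 F ⧸ P) (p := p)
    (by rw [natCard_quot]; exact hdvd) hp.out.ne_zero ha0
  rw [natCard_quot] at key
  have hspec := sym_spec hζ hP hP0 hpP ha
  constructor
  · intro h0
    rw [h0, symEq_iff, ZMod.val_zero, pow_zero] at hspec
    obtain ⟨y, hy⟩ := key.mp hspec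
    obtain ⟨x, rfl⟩ := Ideal.Quotient.mk_surjective y
    refine ⟨x, ?_⟩
    rw [← Ideal.Quotient.eq, map_pow]
    exact hy
  · rintro ⟨x, hx⟩
    apply sym_eq_of_symEq hζ hpP
    rw [symEq_iff, ZMod.val_zero, pow_zero, key]
    refine ⟨Ideal.Quotient.mk P x, ?_⟩
    rw [← map_pow, Ideal.Quotient.eq]
    exact hx

end Residue

section EvalChar
variable {p : ℕ} {F : Type} [Field F] [NumberField F]

theorem evalChar_mul (φ : Ideal (𝓞 F) → ZMod p) {I J : Ideal (𝓞 F)} (hI : I ≠ ⊥) (hJ : J ≠ ⊥) :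
    evalChar p φ (I * J) = evalChar p φ I + evalChar p φ J := by
  unfold evalChar
  rw [normalizedFactors_mul hI hJ, Multiset.map_add, Multiset.sum_add]

theorem evalChar_prime (φ : Ideal (𝓞 F) → ZMod p) {P : Ideal (𝓞 F)} (hP : P.IsPrime) (hP0 : P ≠ ⊥) :
    evalChar p φ P = φ P := by
  unfold evalChar
  have hirr : Irreducible P := (Ideal.prime_of_isPrime hP0 hP).irreducible
  rw [normalizedFactors_irreducible hirr, normalize_eq]
  simp

theorem evalChar_one (φ : Ideal (𝓞 F) → ZMod p) : evalChar p φ (1 : Ideal (𝓞 F)) = 0 := by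
  unfold evalChar
  rw [normalizedFactors_one]
  simp

theorem evalChar_pow (φ : Ideal (𝓞 F) → ZMod p) {P : Ideal (𝓞 F)} (hP : P.IsPrime) (hP0 : P ≠ ⊥)
    (s : ℕ) : evalChar p φ (P ^ s) = (s : ZMod p) * φ P := by
  unfold evalChar
  have hirr : Irreducible P := (Ideal.prime_of_isPrime hP0 hP).irreducible
  rw [normalizedFactors_pow, normalizedFactors_irreducible hirr, normalize_eq, Multiset.map_nsmul,
    Multiset.sum_nsmul]
  simp

theorem evalChar_multiset_prod (φ : Ideal (𝓞 F) → ZMod p) (s : Multiset (Ideal (𝓞 F)))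
    (hs : ∀ I ∈ s, I ≠ ⊥) : evalChar p φ s.prod = (s.map (evalChar p φ)).sum := by
  induction s using Multiset.induction_on with
  | empty => simpa using evalChar_one φ
  | cons I s ih =>
    rw [Multiset.prod_cons, Multiset.map_cons, Multiset.sum_cons,
      evalChar_mul φ (hs I (Multiset.mem_cons_self I s)), ih (fun J hJ => hs J (Multiset.mem_cons_of_mem hJ))]
    rw [Ne, ← Ideal.zero_eq_bot, Multiset.prod_eq_zero_iff]
    intro h0
    exact hs 0 (Multiset.mem_cons_of_mem h0) rfl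

end EvalChar

section RelNorm
variable {p : ℕ} {K M : Type} [Field K] [NumberField K] [Field M] [NumberField M] [Algebra K M]

theorem evalChar_comp_relNorm (φ : Ideal (𝓞 K) → ZMod p) {I : Ideal (𝓞 M)} (hI : I ≠ ⊥) :
    evalChar p (fun W => evalChar p φ (Ideal.relNorm (𝓞 K) W)) I =
      evalChar p φ (Ideal.relNorm (𝓞 K) I) := by
  conv_rhs => rw [← Ideal.prod_normalizedFactors_eq_self hI, map_multiset_prod]
  rw [evalChar_multiset_prod]
  · rw [Multiset.map_map]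
    rfl
  · intro J hJ
    rw [Multiset.mem_map] at hJ
    obtain ⟨W, hW, rfl⟩ := hJ
    rw [Ne, Ideal.relNorm_eq_bot_iff]
    exact ne_zero_of_mem_normalizedFactors hW

theorem relNorm_prime {W : Ideal (𝓞 M)} (hW : W.IsPrime) :
    ∃ s : ℕ, Ideal.relNorm (𝓞 K) W = (W.comap (algebraMap (𝓞 K) (𝓞 M))) ^ s ∧
      Ideal.absNorm W = Ideal.absNorm (W.comap (algebraMap (𝓞 K) (𝓞 M))) ^ s := by
  have : (W.comap (algebraMap (𝓞 K) (𝓞 M))).IsPrime := Ideal.comap_isPrime _ W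
  have : W.LiesOver (W.comap (algebraMap (𝓞 K) (𝓞 M))) := ⟨rfl⟩
  obtain ⟨s, hs⟩ := Ideal.exists_relNorm_eq_pow_of_isPrime W (W.comap (algebraMap (𝓞 K) (𝓞 M)))
  refine ⟨s, hs, ?_⟩
  rw [← Ideal.absNorm_relNorm (𝓞 K) (𝓞 M) W, hs, map_pow]

end RelNorm

section Ext
variable {p : ℕ} [hp : Fact p.Prime] {K M : Type} [Field K] [NumberField K] [Field M] [NumberField M] [Algebra K M]

theorem algebraMap_injective' : Function.Injective (algebraMap (𝓞 K) (𝓞 M)) :=
  FaithfulSMul.algebraMap_injective (𝓞 K) (𝓞 M)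

theorem natCast_notMem_of_comap {W : Ideal (𝓞 M)} {n : ℕ}
    (h : (n : 𝓞 K) ∉ W.comap (algebraMap (𝓞 K) (𝓞 M))) : (n : 𝓞 M) ∉ W := by
  intro hW
  apply h
  rw [Ideal.mem_comap, map_natCast]
  exact hW

/-- Behaviour of the symbol in an extension: if `N W = (N P) ^ s` for `W` over `P`, then
`sym_W(a) = s • sym_P(a)`. -/
theorem sym_ext {ζ : 𝓞 K} (hζ : IsPrimitiveRoot ζ p) {W : Ideal (𝓞 M)} (hW : W.IsPrime)
    (hP0 : W.comap (algebraMap (𝓞 K) (𝓞 M)) ≠ ⊥)
    (hpP : (p : 𝓞 K) ∉ W.comap (algebraMap (𝓞 K) (𝓞 M))) {s : ℕ}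
    (hs : Ideal.absNorm W = Ideal.absNorm (W.comap (algebraMap (𝓞 K) (𝓞 M))) ^ s)
    {a : 𝓞 K} (ha : a ∉ W.comap (algebraMap (𝓞 K) (𝓞 M))) :
    sym p (algebraMap (𝓞 K) (𝓞 M) ζ) (algebraMap (𝓞 K) (𝓞 M) a) W =
      (s : ZMod p) * sym p ζ a (W.comap (algebraMap (𝓞 K) (𝓞 M))) := by
  set P := W.comap (algebraMap (𝓞 K) (𝓞 M)) with hPdef
  have hP : P.IsPrime := Ideal.comap_isPrime _ W
  have hζM : IsPrimitiveRoot (algebraMap (𝓞 K) (𝓞 M) ζ) p :=
    hζ.map_of_injective algebraMap_injective'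
  have hpW : (p : 𝓞 M) ∉ W := natCast_notMem_of_comap hpP
  apply sym_eq_of_symEq hζM hpW
  have hspec := sym_spec hζ hP hP0 hpP ha
  set j := sym p ζ a P with hj
  have hdvd := dvd_absNorm_sub_one hζ hP hP0 hpP
  obtain ⟨m, hm⟩ := hdvd
  have hN1 : 1 ≤ Ideal.absNorm P := by
    rcases Nat.eq_zero_or_pos (Ideal.absNorm P) with h0 | h0
    · rw [Ideal.absNorm_eq_zero_iff] at h0
      exact absurd h0 hP0
    · exact h0
  have hNP : Ideal.absNorm P = p * m + 1 := by omega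
  have hmdiv : (Ideal.absNorm P - 1) / p = m := by
    rw [hm, Nat.mul_div_cancel_left _ hp.out.pos]
  -- geometric sum
  set S := ∑ i ∈ Finset.range s, (Ideal.absNorm P) ^ i with hS
  have hgeom : Ideal.absNorm W - 1 = p * (m * S) := by
    rw [hs]
    have h := Nat.geomSum_eq (m := Ideal.absNorm P) (by
      rcases Nat.lt_or_ge 1 (Ideal.absNorm P) with h | h
      · exact h
      · exfalso
        have h1 : Ideal.absNorm P = 1 := le_antisymm h hN1
        rw [Ideal.absNorm_eq_one_iff] at h1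
        exact hP.ne_top h1) s
    rw [← hS] at h
    have h2 : (Ideal.absNorm P - 1) ∣ Ideal.absNorm P ^ s - 1 := by
      simpa using Nat.sub_dvd_pow_sub_pow (Ideal.absNorm P) 1 s
    have h3 : Ideal.absNorm P ^ s - 1 = (Ideal.absNorm P - 1) * S := by
      rw [h, Nat.mul_div_cancel' h2]
    rw [h3, hm, mul_assoc]
  have hWdiv : (Ideal.absNorm W - 1) / p = m * S := by
    rw [hgeom, Nat.mul_div_cancel_left _ hp.out.pos]
  have hScast : (S : ZMod p) = (s : ZMod p) := by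
    rw [hS, Nat.cast_sum]
    have : ((Ideal.absNorm P : ℕ) : ZMod p) = 1 := by
      rw [hNP]; simp
    simp [this]
  rw [symEq_iff, hWdiv, pow_mul]
  rw [symEq_iff, hmdiv] at hspec
  have hmap : (Ideal.Quotient.mk W (algebraMap (𝓞 K) (𝓞 M) a)) ^ m =
      (Ideal.Quotient.mk W (algebraMap (𝓞 K) (𝓞 M) ζ)) ^ j.val := by
    have h1 : a ^ m - ζ ^ j.val ∈ P := by
      rw [← Ideal.Quotient.eq, map_pow, map_pow]; exact hspec
    have h2 : algebraMap (𝓞 K) (𝓞 M) (a ^ m - ζ ^ j.val) ∈ W := h1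
    rw [map_sub, map_pow, map_pow, ← Ideal.Quotient.eq, map_pow, map_pow] at h2
    exact h2
  rw [hmap, ← pow_mul]
  have hcast : (s : ZMod p) * j = ((j.val * S : ℕ) : ZMod p) := by
    have : NeZero p := ⟨hp.out.ne_zero⟩
    rw [Nat.cast_mul, ZMod.natCast_zmod_val, hScast, mul_comm]
  rw [hcast, mk_zeta_pow_val hζM]

end Ext

end Fermat.Agent.S14.helper2797
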