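import Mathlib

/-!
# S14 / M2 : the zeta lemma (weak Chebotarev from the pole of the Dedekind zeta function)

Author: helper2850.  Mathlib only, no Euler product, no logarithm of zeta.

Main results (all for arbitrary number fields):

* `zeta_lemma_count` : for number fields `E`, `E'`, an integer `d ≥ 2` and a finite set `T`,
  it is impossible that `d * #{ideals of 𝓞 E of norm ℓ} ≤ #{ideals of 𝓞 E' of norm ℓ}` for
  every rational prime `ℓ ∉ T`.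
* `exists_prime_few_above` : if `[E' : E] ≥ 2`, then for every finite `T` there is a prime `𝔭`
  of `𝓞 E` whose norm is a rational prime outside `T` and such that fewer than `[E' : E]`
  primes of `𝓞 E'` of the same norm lie over it (so `𝔭` does not split completely).

Method: with `w(I) = N(I)^{-s}` and `Z(s) = ∑ w(I)` (real `s > 1`), the sieve identity
`∑_{I prime to P} w(I) = ∏_{𝔭 ∈ P} (1 - w 𝔭) * Z(s)` gives both
`exp (∑_{𝔭 ∈ P} w 𝔭) ≤ Z(s)` and `Z(s) ≤ C * exp (∑_{deg-one 𝔭 in a finite set} w 𝔭)`;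
then compare the two fields and use Mathlib's residue of `dedekindZeta` at `s = 1`.
-/

namespace Fermat.Agent.S14.helper2850

open NumberField Ideal Filter Topology Asymptotics

noncomputable section

variable (K : Type*) [Field K] [NumberField K]

/-- The weight `N(I)^(-s)` of an ideal. -/
def wt (s : ℝ) (I : Ideal (𝓞 K)) : ℝ := (absNorm I : ℝ) ^ (-s)

variable {K}

theorem wt_nonneg (s : ℝ) (I : Ideal (𝓞 K)) : 0 ≤ wt K s I :=
  Real.rpow_nonneg (Nat.cast_nonneg _) _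

theorem wt_mul (s : ℝ) (I J : Ideal (𝓞 K)) : wt K s (I * J) = wt K s I * wt K s J := by
  unfold wt
  rw [map_mul, Nat.cast_mul, Real.mul_rpow (Nat.cast_nonneg _) (Nat.cast_nonneg _)]

theorem wt_top (s : ℝ) : wt K s (⊤ : Ideal (𝓞 K)) = 1 := by
  unfold wt
  rw [Ideal.absNorm_top, Nat.cast_one, Real.one_rpow]

theorem wt_bot {s : ℝ} (hs : s ≠ 0) : wt K s (⊥ : Ideal (𝓞 K)) = 0 := by
  unfold wt
  rw [Ideal.absNorm_bot, Nat.cast_zero, Real.zero_rpow (neg_ne_zero.mpr hs)]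

theorem wt_le_one {s : ℝ} (hs : 0 ≤ s) (I : Ideal (𝓞 K)) : wt K s I ≤ 1 := by
  unfold wt
  rcases Nat.eq_zero_or_pos (absNorm I) with h | h
  · rw [h, Nat.cast_zero]
    rcases eq_or_lt_of_le hs with h0 | h0
    · rw [← h0]; simp
    · rw [Real.zero_rpow (by linarith)]; exact zero_le_one
  · exact Real.rpow_le_one_of_one_le_of_nonpos (by exact_mod_cast h) (by linarith)

theorem two_le_absNorm_of_prime {𝔭 : Ideal (𝓞 K)} (h𝔭 : Prime 𝔭) : 2 ≤ absNorm 𝔭 := by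
  have h0 : absNorm 𝔭 ≠ 0 := by
    rw [Ne, Ideal.absNorm_eq_zero_iff]
    exact h𝔭.ne_zero
  have h1 : absNorm 𝔭 ≠ 1 := by
    rw [Ne, Ideal.absNorm_eq_one_iff]
    intro h
    exact h𝔭.not_isUnit (Ideal.isUnit_iff.mpr h)
  omega

theorem wt_le_half {s : ℝ} (hs : 1 ≤ s) {𝔭 : Ideal (𝓞 K)} (h𝔭 : Prime 𝔭) : wt K s 𝔭 ≤ 1 / 2 := by
  unfold wt
  have h2 : (2 : ℝ) ≤ (absNorm 𝔭 : ℝ) := by exact_mod_cast two_le_absNorm_of_prime h𝔭
  rw [Real.rpow_neg (by linarith), one_div]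
  apply inv_anti₀ (by norm_num)
  calc (2 : ℝ) ≤ (absNorm 𝔭 : ℝ) := h2
    _ = (absNorm 𝔭 : ℝ) ^ (1 : ℝ) := (Real.rpow_one _).symm
    _ ≤ (absNorm 𝔭 : ℝ) ^ s := Real.rpow_le_rpow_of_exponent_le (by linarith) hs

theorem wt_sq_le {s : ℝ} (hs : 1 ≤ s) {I : Ideal (𝓞 K)} (hI : absNorm I ≠ 0) :
    wt K s I ^ 2 ≤ wt K 2 I := by
  unfold wt
  have h1 : (1 : ℝ) ≤ (absNorm I : ℝ) := by exact_mod_cast Nat.pos_of_ne_zero hI
  rw [← Real.rpow_natCast, ← Real.rpow_mul (by linarith)]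
  exact Real.rpow_le_rpow_of_exponent_le h1 (by push_cast; linarith)

variable (K)

/-! ### The Dedekind zeta function as a sum over ideals -/

theorem tendsto_coeff_sum :
    Tendsto (fun n : ℕ ↦ (∑ k ∈ Finset.Icc 1 n,
      (Nat.card {I : Ideal (𝓞 K) // absNorm I = k} : ℝ)) / (n : ℝ)) atTop
      (𝓝 (dedekindZeta_residue K)) := by
  refine ((Ideal.tendsto_norm_le_div_atTop₀ K).comp tendsto_natCast_atTop_atTop).congr fun n ↦ ?_
  simp only [Function.comp_apply, Nat.cast_le, ← Nat.cast_sum]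
  congr
  rw [← add_left_inj 1, ← card_norm_le_eq_card_norm_le_add_one,
    show Finset.Icc 1 n = Finset.Ioc 0 n from Finset.Icc_succ_left_eq_Ioc _ _,
    show 1 = Nat.card {I : Ideal (𝓞 K) // absNorm I = 0} by simp [Ideal.absNorm_eq_zero_iff],
    Finset.sum_Ioc_add_eq_sum_Icc (n.zero_le),
    ← Finset.card_preimage_eq_sum_card_image_eq (fun k _ ↦ finite_setOfPred_absNorm_eq k)]
  simp [Set.coe_eq_subtype]

theorem lseriesSummable_coeff {s : ℝ} (hs : 1 < s) :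
    LSeriesSummable (fun n ↦ ((Nat.card {I : Ideal (𝓞 K) // absNorm I = n} : ℝ) : ℂ)) (s : ℂ) := by
  refine LSeriesSummable_of_sum_norm_bigO_and_nonneg ?_ (fun _ ↦ Nat.cast_nonneg _) zero_le_one
    (by simpa using hs)
  exact isBigO_atTop_natCast_rpow_of_tendsto_div_rpow (by simpa using tendsto_coeff_sum K)

theorem summable_coeff_real {s : ℝ} (hs : 1 < s) :
    Summable (fun n : ℕ ↦ (Nat.card {I : Ideal (𝓞 K) // absNorm I = n} : ℝ) * (n : ℝ) ^ (-s)) := by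
  have h := (lseriesSummable_coeff K hs).norm
  refine h.congr fun n ↦ ?_
  rw [LSeries.norm_term_eq]
  rcases Nat.eq_zero_or_pos n with rfl | hn
  · simp [Real.zero_rpow (by linarith : -s ≠ 0)]
  · rw [if_neg hn.ne']
    simp [Real.rpow_neg (Nat.cast_nonneg n), div_eq_mul_inv]

theorem tsum_fiber_wt (s : ℝ) (n : ℕ) :
    ∑' y : {I : Ideal (𝓞 K) // absNorm I = n},
      wt K s ((Equiv.sigmaFiberEquiv (fun I : Ideal (𝓞 K) ↦ absNorm I)) ⟨n, y⟩) =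
    (Nat.card {I : Ideal (𝓞 K) // absNorm I = n} : ℝ) * (n : ℝ) ^ (-s) := by
  have : ∀ y : {I : Ideal (𝓞 K) // absNorm I = n},
      wt K s ((Equiv.sigmaFiberEquiv (fun I : Ideal (𝓞 K) ↦ absNorm I)) ⟨n, y⟩) =
        (n : ℝ) ^ (-s) := by
    intro y
    simp only [Equiv.sigmaFiberEquiv_apply, wt, y.2]
  simp_rw [this]
  rw [tsum_const, nsmul_eq_mul]

theorem summable_wt_sigma {s : ℝ} (hs : 1 < s) :
    Summable (fun x : (Σ n : ℕ, {I : Ideal (𝓞 K) // absNorm I = n}) ↦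
      wt K s ((Equiv.sigmaFiberEquiv (fun I : Ideal (𝓞 K) ↦ absNorm I)) x)) := by
  rw [summable_sigma_of_nonneg (fun x ↦ wt_nonneg _ _)]
  refine ⟨fun n ↦ ?_, ?_⟩
  · have : Finite {I : Ideal (𝓞 K) // absNorm I = n} := finite_setOfPred_absNorm_eq n
    exact Summable.of_finite
  · exact (summable_coeff_real K hs).congr fun n ↦ (tsum_fiber_wt K s n).symm

/-- `∑_I N(I)^{-s}` converges for real `s > 1`. -/
theorem summable_wt {s : ℝ} (hs : 1 < s) : Summable (wt K s) :=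
  (Equiv.sigmaFiberEquiv (fun I : Ideal (𝓞 K) ↦ absNorm I)).summable_iff.mp (summable_wt_sigma K hs)

theorem tsum_wt_eq {s : ℝ} (hs : 1 < s) :
    ∑' I, wt K s I =
      ∑' n : ℕ, (Nat.card {I : Ideal (𝓞 K) // absNorm I = n} : ℝ) * (n : ℝ) ^ (-s) := by
  rw [← (Equiv.sigmaFiberEquiv (fun I : Ideal (𝓞 K) ↦ absNorm I)).tsum_eq (wt K s)]
  rw [Summable.tsum_sigma' _ (summable_wt_sigma K hs)]
  · exact tsum_congr fun n ↦ tsum_fiber_wt K s n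
  · intro n
    have : Finite {I : Ideal (𝓞 K) // absNorm I = n} := finite_setOfPred_absNorm_eq n
    exact Summable.of_finite

/-- Mathlib's `dedekindZeta` at a real `s > 1` is the sum of `N(I)^{-s}` over all ideals. -/
theorem dedekindZeta_eq {s : ℝ} (hs : 1 < s) :
    dedekindZeta K (s : ℂ) = ((∑' I, wt K s I : ℝ) : ℂ) := by
  rw [tsum_wt_eq K hs, Complex.ofReal_tsum]
  unfold dedekindZeta LSeries
  refine tsum_congr fun n ↦ ?_
  rw [LSeries.term_def]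
  rcases Nat.eq_zero_or_pos n with rfl | hn
  · simp [Real.zero_rpow (by linarith : -s ≠ 0)]
  · rw [if_neg hn.ne']
    rw [Real.rpow_neg (Nat.cast_nonneg n), div_eq_mul_inv]
    push_cast
    rw [Complex.ofReal_cpow (Nat.cast_nonneg n)]
    simp

/-- The real Dedekind zeta function on `s > 1`. -/
def Zr (s : ℝ) : ℝ := ∑' I, wt K s I

theorem Zr_nonneg (s : ℝ) : 0 ≤ Zr K s := tsum_nonneg fun I ↦ wt_nonneg s I

/-- The pole at `s = 1`, in real form. -/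
theorem tendsto_Zr :
    Tendsto (fun s : ℝ ↦ (s - 1) * Zr K s) (𝓝[>] 1) (𝓝 (dedekindZeta_residue K)) := by
  have h := tendsto_sub_one_mul_dedekindZeta_nhdsGT K
  have h2 := (Complex.continuous_re.tendsto _).comp h
  simp only [Complex.ofReal_re] at h2
  refine h2.congr' ?_
  filter_upwards [self_mem_nhdsWithin] with s hs
  simp only [Function.comp_apply]
  rw [dedekindZeta_eq K hs, ← Complex.ofReal_one, ← Complex.ofReal_sub, ← Complex.ofReal_mul,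
    Complex.ofReal_re]
  rfl

/-! ### The sieve identity -/

open Classical in
/-- The sum of the weights of the ideals prime to a finite set `P` of primes. -/
def sieved (s : ℝ) (P : Finset (Ideal (𝓞 K))) : ℝ :=
  ∑' I, if (∀ 𝔭 ∈ P, ¬ 𝔭 ∣ I) then wt K s I else 0

theorem sieved_empty (s : ℝ) : sieved K s ∅ = Zr K s := by
  unfold sieved Zr
  simp

open Classical in
theorem summable_sieved {s : ℝ} (hs : 1 < s) (P : Finset (Ideal (𝓞 K))) :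
    Summable (fun I ↦ if (∀ 𝔭 ∈ P, ¬ 𝔭 ∣ I) then wt K s I else 0) := by
  refine Summable.of_nonneg_of_le (fun I ↦ ?_) (fun I ↦ ?_) (summable_wt K hs)
  · split_ifs
    · exact wt_nonneg s I
    · exact le_rfl
  · split_ifs
    · exact le_rfl
    · exact wt_nonneg s I

theorem sieved_insert {s : ℝ} (hs : 1 < s) (P : Finset (Ideal (𝓞 K))) (𝔮 : Ideal (𝓞 K))
    (h𝔮 : Prime 𝔮) (hP : ∀ 𝔭 ∈ P, Prime 𝔭) (hq : 𝔮 ∉ P) :
    sieved K s (insert 𝔮 P) = (1 - wt K s 𝔮) * sieved K s P := by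
  classical
  set f : Ideal (𝓞 K) → ℝ := fun I ↦ if (∀ 𝔭 ∈ P, ¬ 𝔭 ∣ I) then wt K s I else 0 with hf
  set g : Ideal (𝓞 K) → ℝ := fun I ↦ if (∀ 𝔭 ∈ insert 𝔮 P, ¬ 𝔭 ∣ I) then wt K s I else 0 with hg
  set h : Ideal (𝓞 K) → ℝ := fun I ↦ if 𝔮 ∣ I then f I else 0 with hh
  have hfs : Summable f := summable_sieved K hs P
  have hgs : Summable g := summable_sieved K hs (insert 𝔮 P)
  have hfg : ∀ I, f I = g I + h I := by
    intro I
    simp only [hf, hg, hh, Finset.forall_mem_insert]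
    by_cases h1 : 𝔮 ∣ I <;> by_cases h2 : ∀ 𝔭 ∈ P, ¬ 𝔭 ∣ I <;> simp [h1, h2]
  have hhs : Summable h := by
    have : h = fun I ↦ f I - g I := by
      funext I; rw [hfg I]; ring
    rw [this]
    exact hfs.sub hgs
  have hinj : Function.Injective (fun J : Ideal (𝓞 K) ↦ 𝔮 * J) :=
    mul_right_injective₀ h𝔮.ne_zero
  have hsupp : Function.support h ⊆ Set.range (fun J : Ideal (𝓞 K) ↦ 𝔮 * J) := by
    intro I hI
    simp only [Function.mem_support, hh] at hI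
    by_cases h1 : 𝔮 ∣ I
    · obtain ⟨J, rfl⟩ := h1
      exact ⟨J, rfl⟩
    · simp [h1] at hI
  have hsum : ∑' I, h I = wt K s 𝔮 * ∑' I, f I := by
    rw [← hinj.tsum_eq hsupp, ← tsum_mul_left]
    refine tsum_congr fun J ↦ ?_
    simp only [hh, hf, dvd_mul_right, if_true]
    have : (∀ 𝔭 ∈ P, ¬ 𝔭 ∣ 𝔮 * J) ↔ (∀ 𝔭 ∈ P, ¬ 𝔭 ∣ J) := by
      refine forall₂_congr fun 𝔭 h𝔭 ↦ ?_
      rw [(hP 𝔭 h𝔭).dvd_mul, prime_dvd_prime_iff_eq (hP 𝔭 h𝔭) h𝔮]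
      have : 𝔭 ≠ 𝔮 := fun e ↦ hq (e ▸ h𝔭)
      simp [this]
    simp only [this, wt_mul]
    split_ifs <;> simp
  have htot : ∑' I, f I = ∑' I, g I + ∑' I, h I := by
    rw [← hgs.tsum_add hhs]
    exact tsum_congr hfg
  unfold sieved
  change ∑' I, g I = (1 - wt K s 𝔮) * ∑' I, f I
  rw [hsum] at htot
  linarith

/-- **Sieve identity**: `∑_{I prime to P} N(I)^{-s} = ∏_{𝔭 ∈ P} (1 - N𝔭^{-s}) * ζ_K(s)`. -/
theorem sieved_eq {s : ℝ} (hs : 1 < s) (P : Finset (Ideal (𝓞 K))) (hP : ∀ 𝔭 ∈ P, Prime 𝔭) :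
    sieved K s P = (∏ 𝔭 ∈ P, (1 - wt K s 𝔭)) * Zr K s := by
  classical
  induction P using Finset.induction_on with
  | empty => simp [sieved_empty]
  | insert 𝔮 P hq ih =>
    rw [sieved_insert K hs P 𝔮 (hP 𝔮 (Finset.mem_insert_self _ _))
      (fun 𝔭 h ↦ hP 𝔭 (Finset.mem_insert_of_mem h)) hq,
      ih (fun 𝔭 h ↦ hP 𝔭 (Finset.mem_insert_of_mem h)), Finset.prod_insert hq]
    ring

theorem one_le_sieved {s : ℝ} (hs : 1 < s) (P : Finset (Ideal (𝓞 K))) (hP : ∀ 𝔭 ∈ P, Prime 𝔭) :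
    1 ≤ sieved K s P := by
  classical
  unfold sieved
  have h1 : (if (∀ 𝔭 ∈ P, ¬ 𝔭 ∣ (⊤ : Ideal (𝓞 K))) then wt K s ⊤ else 0) = 1 := by
    rw [if_pos, wt_top]
    intro 𝔭 h𝔭 hdvd
    exact (hP 𝔭 h𝔭).not_isUnit (isUnit_of_dvd_one (by simpa using hdvd))
  rw [← h1]
  refine (summable_sieved K hs P).le_tsum ⊤ (fun I _ ↦ ?_)
  split_ifs
  · exact wt_nonneg s I
  · exact le_rfl

/-- **Lower bound**: `exp (∑_{𝔭 ∈ P} N𝔭^{-s}) ≤ ζ_K(s)` for every finite set `P` of primes. -/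
theorem exp_sum_le_Zr {s : ℝ} (hs : 1 < s) (P : Finset (Ideal (𝓞 K))) (hP : ∀ 𝔭 ∈ P, Prime 𝔭) :
    Real.exp (∑ 𝔭 ∈ P, wt K s 𝔭) ≤ Zr K s := by
  have h1 := one_le_sieved K hs P hP
  rw [sieved_eq K hs P hP] at h1
  have h2 : ∏ 𝔭 ∈ P, (1 - wt K s 𝔭) ≤ Real.exp (-∑ 𝔭 ∈ P, wt K s 𝔭) := by
    rw [← Finset.sum_neg_distrib, Real.exp_sum]
    refine Finset.prod_le_prod (fun 𝔭 _ ↦ ?_) (fun 𝔭 _ ↦ ?_)
    · linarith [wt_le_one (by linarith : (0 : ℝ) ≤ s) 𝔭]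
    · exact Real.one_sub_le_exp_neg _
  have h3 : 1 ≤ Real.exp (-∑ 𝔭 ∈ P, wt K s 𝔭) * Zr K s :=
    h1.trans (mul_le_mul_of_nonneg_right h2 (Zr_nonneg K s))
  have h4 : Real.exp (∑ 𝔭 ∈ P, wt K s 𝔭) * 1 ≤
      Real.exp (∑ 𝔭 ∈ P, wt K s 𝔭) * (Real.exp (-∑ 𝔭 ∈ P, wt K s 𝔭) * Zr K s) :=
    mul_le_mul_of_nonneg_left h3 (Real.exp_pos _).le
  rwa [mul_one, ← mul_assoc, ← Real.exp_add, add_neg_cancel, Real.exp_zero, one_mul] at h4

theorem key_ineq {x : ℝ} (h1 : x ≤ 1 / 2) :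
    1 ≤ (1 - x) * Real.exp (x + 2 * x ^ 2) := by
  have h2 : x + 2 * x ^ 2 + 1 ≤ Real.exp (x + 2 * x ^ 2) := Real.add_one_le_exp _
  have h3 : 1 ≤ (1 - x) * (x + 2 * x ^ 2 + 1) := by nlinarith [sq_nonneg x]
  exact h3.trans (mul_le_mul_of_nonneg_left h2 (by linarith))

/-- **Upper bound** in terms of a sieved sum. -/
theorem Zr_le_sieved_mul_exp {s : ℝ} (hs : 1 < s) (P : Finset (Ideal (𝓞 K)))
    (hP : ∀ 𝔭 ∈ P, Prime 𝔭) :
    Zr K s ≤ sieved K s P * Real.exp (∑ 𝔭 ∈ P, (wt K s 𝔭 + 2 * wt K s 𝔭 ^ 2)) := by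
  rw [sieved_eq K hs P hP, Real.exp_sum, mul_comm _ (Zr K s), mul_assoc, ← Finset.prod_mul_distrib]
  have : (1 : ℝ) ≤ ∏ 𝔭 ∈ P, (1 - wt K s 𝔭) * Real.exp (wt K s 𝔭 + 2 * wt K s 𝔭 ^ 2) := by
    calc (1 : ℝ) = ∏ 𝔭 ∈ P, (1 : ℝ) := by simp
      _ ≤ _ := Finset.prod_le_prod (fun _ _ ↦ zero_le_one) (fun 𝔭 h𝔭 ↦
        key_ineq (wt_le_half hs.le (hP 𝔭 h𝔭)))
  calc Zr K s = Zr K s * 1 := (mul_one _).symm
    _ ≤ _ := mul_le_mul_of_nonneg_left this (Zr_nonneg K s)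

open Classical in
/-- The finite set of the prime ideals of norm at most `N`. -/
def primesLE (N : ℕ) : Finset (Ideal (𝓞 K)) :=
  (finite_setOfPred_absNorm_le (S := 𝓞 K) N).toFinset.filter (fun I ↦ Prime I)

theorem mem_primesLE {N : ℕ} {I : Ideal (𝓞 K)} :
    I ∈ primesLE K N ↔ absNorm I ≤ N ∧ Prime I := by
  classical
  simp [primesLE]

/-- Sieving by all the primes of norm `≤ N` leaves at most `2`, for `N` large (depending on
`s`). -/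
theorem exists_sieved_le_two {s : ℝ} (hs : 1 < s) : ∃ N, sieved K s (primesLE K N) ≤ 2 := by
  classical
  have hsum := summable_wt K hs
  obtain ⟨F0, hF0⟩ : ∃ F0 : Finset (Ideal (𝓞 K)), Zr K s - 1 < ∑ I ∈ F0, wt K s I := by
    by_contra hcon
    simp only [not_exists, not_lt] at hcon
    have := hsum.tsum_le_of_sum_le hcon
    unfold Zr at this
    linarith
  refine ⟨F0.sup (fun I ↦ absNorm I), ?_⟩
  set N := F0.sup (fun I ↦ absNorm I) with hN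
  set h : Ideal (𝓞 K) → ℝ := fun I ↦ (if I = ⊤ then 1 else 0) +
    (wt K s I - (if I ∈ F0 then wt K s I else 0)) with hh
  have hs1 : Summable (fun I : Ideal (𝓞 K) ↦ if I = ⊤ then (1 : ℝ) else 0) :=
    (hasSum_ite_eq ⊤ (1 : ℝ)).summable
  have hs2 : Summable (fun I : Ideal (𝓞 K) ↦ if I ∈ F0 then wt K s I else 0) :=
    summable_of_ne_finset_zero (s := F0) (fun I hI ↦ by simp [hI])
  have hhs : Summable h := hs1.add (hsum.sub hs2)
  have hle : ∀ I, (if (∀ 𝔭 ∈ primesLE K N, ¬ 𝔭 ∣ I) then wt K s I else 0) ≤ h I := by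
    intro I
    simp only [hh]
    by_cases hI : I = ⊤
    · subst hI
      rw [if_pos rfl, wt_top]
      split_ifs <;> simp
    · rw [if_neg hI, zero_add]
      by_cases hF : I ∈ F0
      · rw [if_pos hF, sub_self]
        by_cases hb : I = ⊥
        · subst hb
          rw [wt_bot (by linarith)]
          split_ifs <;> simp
        · obtain ⟨𝔭, h𝔭max, hle⟩ := Ideal.exists_le_maximal I hI
          have h𝔭0 : 𝔭 ≠ ⊥ := fun h ↦ hb (le_bot_iff.mp (h ▸ hle))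
          have h𝔭 : Prime 𝔭 := Ideal.prime_of_isPrime h𝔭0 h𝔭max.isPrime
          have hdvd : 𝔭 ∣ I := Ideal.dvd_iff_le.mpr hle
          have hn0 : absNorm I ≠ 0 := by rwa [Ne, Ideal.absNorm_eq_zero_iff]
          have hn : absNorm 𝔭 ≤ N :=
            (Nat.le_of_dvd (Nat.pos_of_ne_zero hn0) (absNorm_dvd_absNorm_of_le hle)).trans
              (Finset.le_sup (f := fun I ↦ absNorm I) hF)
          rw [if_neg]
          intro hall
          exact hall 𝔭 ((mem_primesLE K).mpr ⟨hn, h𝔭⟩) hdvd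
      · rw [if_neg hF, sub_zero]
        split_ifs
        · exact le_rfl
        · exact wt_nonneg s I
  have hval : ∑' I, h I = 1 + (Zr K s - ∑ I ∈ F0, wt K s I) := by
    have e1 : ∑' I : Ideal (𝓞 K), (if I ∈ F0 then wt K s I else 0) = ∑ I ∈ F0, wt K s I := by
      rw [tsum_eq_sum (s := F0) (fun I hI ↦ if_neg hI)]
      exact Finset.sum_congr rfl fun I hI ↦ if_pos hI
    simp only [hh]
    rw [hs1.tsum_add (hsum.sub hs2), tsum_ite_eq, hsum.tsum_sub hs2, e1]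
    rfl
  have : sieved K s (primesLE K N) ≤ ∑' I, h I :=
    (summable_sieved K hs _).tsum_le_tsum hle hhs
  rw [hval] at this
  linarith

/-! ### Bounding the contribution of the primes of degree `≥ 2` -/

theorem sum_wt_sq_le {s : ℝ} (hs : 1 ≤ s) (P : Finset (Ideal (𝓞 K))) (hP : ∀ 𝔭 ∈ P, Prime 𝔭) :
    ∑ 𝔭 ∈ P, wt K s 𝔭 ^ 2 ≤ Zr K 2 := by
  calc ∑ 𝔭 ∈ P, wt K s 𝔭 ^ 2 ≤ ∑ 𝔭 ∈ P, wt K 2 𝔭 :=
        Finset.sum_le_sum fun 𝔭 h𝔭 ↦ wt_sq_le hs (by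
          have := two_le_absNorm_of_prime (hP 𝔭 h𝔭); omega)
    _ ≤ Zr K 2 := (summable_wt K one_lt_two).sum_le_tsum P (fun I _ ↦ wt_nonneg 2 I)

/-- At most `[K : ℚ]` primes of `𝓞 K` contain a given rational prime. -/
theorem card_primes_over_le (p : ℕ) (hp : p.Prime) (S : Finset (Ideal (𝓞 K)))
    (hS : ∀ 𝔭 ∈ S, Prime 𝔭 ∧ (p : 𝓞 K) ∈ 𝔭) : S.card ≤ Module.finrank ℚ K := by
  have hdvd : ∏ 𝔭 ∈ S, 𝔭 ∣ Ideal.span {(p : 𝓞 K)} :=
    Finset.prod_primes_dvd _ (fun 𝔭 h𝔭 ↦ (hS 𝔭 h𝔭).1) (fun 𝔭 h𝔭 ↦ by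
      rw [Ideal.dvd_iff_le, Ideal.span_singleton_le_iff_mem]
      exact (hS 𝔭 h𝔭).2)
  have h1 : ∏ 𝔭 ∈ S, absNorm 𝔭 ∣ p ^ Module.finrank ℚ K := by
    have := map_dvd (absNorm (S := 𝓞 K)) hdvd
    rwa [map_prod, Ideal.absNorm_span_natCast, RingOfIntegers.rank] at this
  have h2 : ∀ 𝔭 ∈ S, p ∣ absNorm 𝔭 := by
    intro 𝔭 h𝔭
    have h3 : absNorm 𝔭 ∣ p ^ Module.finrank ℚ K :=
      (Finset.dvd_prod_of_mem _ h𝔭).trans h1
    obtain ⟨j, -, hj⟩ := (Nat.dvd_prime_pow hp).mp h3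
    have h4 := two_le_absNorm_of_prime (hS 𝔭 h𝔭).1
    rw [hj]
    rcases Nat.eq_zero_or_pos j with rfl | hj0
    · rw [hj, pow_zero] at h4; omega
    · exact dvd_pow_self p hj0.ne'
  have h5 : p ^ S.card ∣ p ^ Module.finrank ℚ K := by
    refine Dvd.dvd.trans ?_ h1
    rw [← Finset.prod_const]
    exact Finset.prod_dvd_prod_of_dvd _ _ h2
  exact (Nat.pow_dvd_pow_iff_le_right hp.one_lt).mp h5

/-- Data of a prime ideal: the rational prime below it and its residue degree. -/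
theorem prime_data {𝔭 : Ideal (𝓞 K)} (h𝔭 : Prime 𝔭) :
    ∃ p f : ℕ, 0 < f ∧ (p : 𝓞 K) ∈ 𝔭 ∧ p.Prime ∧ absNorm 𝔭 = p ^ f := by
  have : 𝔭.IsMaximal := (Ideal.isPrime_of_prime h𝔭).isMaximal h𝔭.ne_zero
  exact Ideal.exists_prime_and_absNorm_eq_pow 𝔭

/-- The constant `∑ m^{-2}`. -/
def Bconst : ℝ := ∑' m : ℕ, (m : ℝ) ^ (-2 : ℝ)

theorem sum_wt_nonprime_le {s : ℝ} (hs : 1 ≤ s) (P : Finset (Ideal (𝓞 K)))
    (hP : ∀ 𝔭 ∈ P, Prime 𝔭 ∧ ¬ (absNorm 𝔭).Prime) :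
    ∑ 𝔭 ∈ P, wt K s 𝔭 ≤ Module.finrank ℚ K * Bconst := by
  classical
  have hsumB : Summable (fun m : ℕ ↦ (m : ℝ) ^ (-2 : ℝ)) :=
    Real.summable_nat_rpow.mpr (by norm_num)
  -- pointwise bound
  have h1 : ∀ 𝔭 ∈ P, wt K s 𝔭 ≤ (((absNorm 𝔭).minFac : ℕ) : ℝ) ^ (-2 : ℝ) := by
    intro 𝔭 h𝔭
    obtain ⟨p, f, hf, -, hp, hnorm⟩ := prime_data K (hP 𝔭 h𝔭).1
    have hf2 : 2 ≤ f := by
      rcases Nat.lt_or_ge f 2 with h | h
      · have : f = 1 := by omega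
        rw [this, pow_one] at hnorm
        exact absurd (hnorm ▸ hp) (hP 𝔭 h𝔭).2
      · exact h
    have hmin : (absNorm 𝔭).minFac = p := by rw [hnorm, hp.pow_minFac hf.ne']
    unfold wt
    rw [hmin, hnorm]
    have hp1 : (1 : ℝ) ≤ (p : ℝ) := by exact_mod_cast hp.one_lt.le
    have hpp : (p : ℝ) ^ (2 : ℝ) ≤ ((p ^ f : ℕ) : ℝ) := by
      rw [Real.rpow_two]
      exact_mod_cast Nat.pow_le_pow_right hp.pos hf2
    calc ((p ^ f : ℕ) : ℝ) ^ (-s) ≤ ((p : ℝ) ^ (2 : ℝ)) ^ (-s) :=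
          Real.rpow_le_rpow_of_nonpos (by positivity) hpp (by linarith)
      _ = (p : ℝ) ^ (-(2 * s)) := by rw [← Real.rpow_mul (by linarith)]; ring_nf
      _ ≤ (p : ℝ) ^ (-2 : ℝ) := Real.rpow_le_rpow_of_exponent_le hp1 (by linarith)
  -- fibre count
  have h2 : ∀ b ∈ P.image (fun 𝔭 ↦ (absNorm 𝔭).minFac),
      (P.filter (fun 𝔭 ↦ (absNorm 𝔭).minFac = b)).card ≤ Module.finrank ℚ K := by
    intro b hb
    obtain ⟨𝔮, h𝔮, rfl⟩ := Finset.mem_image.mp hb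
    obtain ⟨p, f, hf, -, hp, hnorm⟩ := prime_data K (hP 𝔮 h𝔮).1
    have hmin : (absNorm 𝔮).minFac = p := by rw [hnorm, hp.pow_minFac hf.ne']
    rw [hmin]
    refine card_primes_over_le K p hp _ (fun 𝔭 h𝔭 ↦ ?_)
    obtain ⟨h𝔭P, h𝔭min⟩ := Finset.mem_filter.mp h𝔭
    refine ⟨(hP 𝔭 h𝔭P).1, ?_⟩
    obtain ⟨p', f', hf', hmem', hp', hnorm'⟩ := prime_data K (hP 𝔭 h𝔭P).1
    have : (absNorm 𝔭).minFac = p' := by rw [hnorm', hp'.pow_minFac hf'.ne']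
    rw [← h𝔭min, this]
    exact hmem'
  calc ∑ 𝔭 ∈ P, wt K s 𝔭 ≤ ∑ 𝔭 ∈ P, (((absNorm 𝔭).minFac : ℕ) : ℝ) ^ (-2 : ℝ) :=
        Finset.sum_le_sum h1
    _ = ∑ b ∈ P.image (fun 𝔭 ↦ (absNorm 𝔭).minFac),
          (P.filter (fun 𝔭 ↦ (absNorm 𝔭).minFac = b)).card • ((b : ℝ) ^ (-2 : ℝ)) :=
        Finset.sum_comp (fun b : ℕ ↦ (b : ℝ) ^ (-2 : ℝ)) (fun 𝔭 ↦ (absNorm 𝔭).minFac)
    _ ≤ ∑ b ∈ P.image (fun 𝔭 ↦ (absNorm 𝔭).minFac),
          (Module.finrank ℚ K : ℝ) * ((b : ℝ) ^ (-2 : ℝ)) := by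
        refine Finset.sum_le_sum fun b hb ↦ ?_
        rw [nsmul_eq_mul]
        exact mul_le_mul_of_nonneg_right (by exact_mod_cast h2 b hb)
          (Real.rpow_nonneg (Nat.cast_nonneg _) _)
    _ = (Module.finrank ℚ K : ℝ) * ∑ b ∈ P.image (fun 𝔭 ↦ (absNorm 𝔭).minFac),
          ((b : ℝ) ^ (-2 : ℝ)) := by rw [Finset.mul_sum]
    _ ≤ Module.finrank ℚ K * Bconst :=
        mul_le_mul_of_nonneg_left
          (hsumB.sum_le_tsum _ (fun m _ ↦ Real.rpow_nonneg (Nat.cast_nonneg _) _))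
          (Nat.cast_nonneg _)

/-! ### Ideals of prime norm and the comparison -/

open Classical in
/-- The finite set of the ideals whose norm lies in a finite set `L` of natural numbers. -/
def idealsNormIn (L : Finset ℕ) : Finset (Ideal (𝓞 K)) :=
  (finite_setOfPred_absNorm_le (S := 𝓞 K) (L.sup id)).toFinset.filter (fun I ↦ absNorm I ∈ L)

theorem mem_idealsNormIn {L : Finset ℕ} {I : Ideal (𝓞 K)} :
    I ∈ idealsNormIn K L ↔ absNorm I ∈ L := by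
  classical
  simp only [idealsNormIn, Finset.mem_filter, Set.Finite.mem_toFinset, Set.mem_ofPred_eq,
    and_iff_right_iff_imp]
  intro h
  exact Finset.le_sup (f := id) h

theorem prime_of_mem_idealsNormIn {L : Finset ℕ} (hL : ∀ ℓ ∈ L, ℓ.Prime) {I : Ideal (𝓞 K)}
    (hI : I ∈ idealsNormIn K L) : Prime I := by
  have hp : (absNorm I).Prime := hL _ ((mem_idealsNormIn K).mp hI)
  have hI0 : I ≠ ⊥ := by
    intro h
    rw [h, Ideal.absNorm_bot] at hp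
    exact Nat.not_prime_zero hp
  exact Ideal.prime_of_isPrime hI0 (Ideal.isPrime_of_irreducible_absNorm hp.prime.irreducible)

theorem sum_idealsNormIn (s : ℝ) (L : Finset ℕ) :
    ∑ I ∈ idealsNormIn K L, wt K s I =
      ∑ ℓ ∈ L, (Nat.card {I : Ideal (𝓞 K) // absNorm I = ℓ} : ℝ) * (ℓ : ℝ) ^ (-s) := by
  classical
  rw [← Finset.sum_fiberwise_of_maps_to (g := fun I ↦ absNorm I) (t := L)
    (fun I hI ↦ (mem_idealsNormIn K).mp hI)]
  refine Finset.sum_congr rfl fun ℓ hℓ ↦ ?_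
  have h1 : ∀ I ∈ (idealsNormIn K L).filter (fun I ↦ absNorm I = ℓ),
      wt K s I = (ℓ : ℝ) ^ (-s) := by
    intro I hI
    rw [Finset.mem_filter] at hI
    simp [wt, hI.2]
  rw [Finset.sum_congr rfl h1, Finset.sum_const, nsmul_eq_mul]
  congr 2
  refine (Nat.subtype_card _ (fun I ↦ ?_)).symm
  rw [Finset.mem_filter, mem_idealsNormIn]
  exact ⟨fun h ↦ h.2, fun h ↦ ⟨h ▸ hℓ, h⟩⟩

/-- **Upper bound**: `ζ_K(s) ≤ C * exp (∑ N𝔭^{-s})`, the sum over the primes whose norm is a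
rational prime in a suitable finite set `L` avoiding `T`; the constant does not depend on `s`. -/
theorem Zr_upper (T : Finset ℕ) : ∃ C : ℝ, 0 < C ∧ ∀ s : ℝ, 1 < s →
    ∃ L : Finset ℕ, (∀ ℓ ∈ L, ℓ.Prime ∧ ℓ ∉ T) ∧
      Zr K s ≤ C * Real.exp (∑ I ∈ idealsNormIn K L, wt K s I) := by
  classical
  set C0 : ℝ := 2 * Zr K 2 + Module.finrank ℚ K * Bconst + ((primesLE K (T.sup id)).card : ℝ)
    with hC0
  refine ⟨2 * Real.exp C0, by positivity, fun s hs ↦ ?_⟩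
  obtain ⟨N, hN⟩ := exists_sieved_le_two K hs
  set P := primesLE K N with hPdef
  have hP : ∀ 𝔭 ∈ P, Prime 𝔭 := fun 𝔭 h ↦ ((mem_primesLE K).mp h).2
  set L : Finset ℕ := (Finset.range (N + 1)).filter (fun ℓ ↦ ℓ.Prime ∧ ℓ ∉ T) with hLdef
  refine ⟨L, fun ℓ hℓ ↦ (Finset.mem_filter.mp hℓ).2, ?_⟩
  have hZ := Zr_le_sieved_mul_exp K hs P hP
  -- bound the exponent
  have hexp : ∑ 𝔭 ∈ P, (wt K s 𝔭 + 2 * wt K s 𝔭 ^ 2) ≤
      C0 + ∑ I ∈ idealsNormIn K L, wt K s I := by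
    rw [Finset.sum_add_distrib, ← Finset.mul_sum]
    have hsq := sum_wt_sq_le K hs.le P hP
    -- split the linear sum
    have hsplit : ∑ 𝔭 ∈ P, wt K s 𝔭 =
        ∑ 𝔭 ∈ P.filter (fun 𝔭 ↦ (absNorm 𝔭).Prime ∧ absNorm 𝔭 ∉ T), wt K s 𝔭 +
        (∑ 𝔭 ∈ (P.filter (fun 𝔭 ↦ ¬ ((absNorm 𝔭).Prime ∧ absNorm 𝔭 ∉ T))).filter
            (fun 𝔭 ↦ (absNorm 𝔭).Prime), wt K s 𝔭 +
         ∑ 𝔭 ∈ (P.filter (fun 𝔭 ↦ ¬ ((absNorm 𝔭).Prime ∧ absNorm 𝔭 ∉ T))).filter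
            (fun 𝔭 ↦ ¬ (absNorm 𝔭).Prime), wt K s 𝔭) := by
      rw [Finset.sum_filter_add_sum_filter_not, Finset.sum_filter_add_sum_filter_not]
    have hA : ∑ 𝔭 ∈ P.filter (fun 𝔭 ↦ (absNorm 𝔭).Prime ∧ absNorm 𝔭 ∉ T), wt K s 𝔭 ≤
        ∑ I ∈ idealsNormIn K L, wt K s I := by
      refine Finset.sum_le_sum_of_subset_of_nonneg (fun 𝔭 h𝔭 ↦ ?_) (fun I _ _ ↦ wt_nonneg s I)
      obtain ⟨h1, h2⟩ := Finset.mem_filter.mp h𝔭
      rw [mem_idealsNormIn, hLdef, Finset.mem_filter, Finset.mem_range]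
      exact ⟨Nat.lt_succ_of_le ((mem_primesLE K).mp h1).1, h2⟩
    have hB : ∑ 𝔭 ∈ (P.filter (fun 𝔭 ↦ ¬ ((absNorm 𝔭).Prime ∧ absNorm 𝔭 ∉ T))).filter
            (fun 𝔭 ↦ (absNorm 𝔭).Prime), wt K s 𝔭 ≤ ((primesLE K (T.sup id)).card : ℝ) := by
      calc _ ≤ ∑ 𝔭 ∈ primesLE K (T.sup id), wt K s 𝔭 := by
            refine Finset.sum_le_sum_of_subset_of_nonneg (fun 𝔭 h𝔭 ↦ ?_)
              (fun I _ _ ↦ wt_nonneg s I)
            obtain ⟨h1, h2⟩ := Finset.mem_filter.mp h𝔭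
            obtain ⟨h3, h4⟩ := Finset.mem_filter.mp h1
            have hT : absNorm 𝔭 ∈ T := by
              by_contra hcon
              exact h4 ⟨h2, hcon⟩
            exact (mem_primesLE K).mpr ⟨Finset.le_sup (f := id) hT, hP 𝔭 h3⟩
        _ ≤ ∑ 𝔭 ∈ primesLE K (T.sup id), (1 : ℝ) :=
            Finset.sum_le_sum fun 𝔭 _ ↦ wt_le_one (by linarith) 𝔭
        _ = _ := by simp
    have hC : ∑ 𝔭 ∈ (P.filter (fun 𝔭 ↦ ¬ ((absNorm 𝔭).Prime ∧ absNorm 𝔭 ∉ T))).filter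
            (fun 𝔭 ↦ ¬ (absNorm 𝔭).Prime), wt K s 𝔭 ≤ Module.finrank ℚ K * Bconst := by
      refine sum_wt_nonprime_le K hs.le _ (fun 𝔭 h𝔭 ↦ ?_)
      obtain ⟨h1, h2⟩ := Finset.mem_filter.mp h𝔭
      exact ⟨hP 𝔭 (Finset.mem_filter.mp h1).1, h2⟩
    rw [hsplit, hC0]
    linarith
  calc Zr K s ≤ sieved K s P * Real.exp (∑ 𝔭 ∈ P, (wt K s 𝔭 + 2 * wt K s 𝔭 ^ 2)) := hZ
    _ ≤ 2 * Real.exp (C0 + ∑ I ∈ idealsNormIn K L, wt K s I) :=
        mul_le_mul hN (Real.exp_le_exp.mpr hexp) (Real.exp_pos _).le (by norm_num)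
    _ = 2 * Real.exp C0 * Real.exp (∑ I ∈ idealsNormIn K L, wt K s I) := by
        rw [Real.exp_add]; ring

/-- **Zeta lemma, counting form.**  Let `E`, `E'` be number fields and `d ≥ 2`.  It is impossible
that for all rational primes `ℓ` outside a finite set `T`, `E'` has at least `d` times as many
ideals of norm `ℓ` (= primes of degree one over `ℓ`) as `E` has. -/
theorem zeta_lemma_count (E : Type*) (E' : Type*) [Field E] [NumberField E] [Field E']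
    [NumberField E'] (d : ℕ) (hd : 2 ≤ d) (T : Finset ℕ) :
    ¬ (∀ ℓ : ℕ, ℓ.Prime → ℓ ∉ T →
        d * Nat.card {I : Ideal (𝓞 E) // absNorm I = ℓ} ≤
          Nat.card {I : Ideal (𝓞 E') // absNorm I = ℓ}) := by
  intro hyp
  obtain ⟨C, hC, hupper⟩ := Zr_upper E T
  -- the key inequality for every `s > 1`
  have key : ∀ s : ℝ, 1 < s → Zr E s ^ d ≤ C ^ d * Zr E' s := by
    intro s hs
    obtain ⟨L, hL, hZ⟩ := hupper s hs
    have h1 : (d : ℝ) * ∑ I ∈ idealsNormIn E L, wt E s I ≤ ∑ I ∈ idealsNormIn E' L, wt E' s I := by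
      rw [sum_idealsNormIn, sum_idealsNormIn, Finset.mul_sum]
      refine Finset.sum_le_sum fun ℓ hℓ ↦ ?_
      rw [← mul_assoc]
      refine mul_le_mul_of_nonneg_right ?_ (Real.rpow_nonneg (Nat.cast_nonneg _) _)
      exact_mod_cast hyp ℓ (hL ℓ hℓ).1 (hL ℓ hℓ).2
    have h2 : Real.exp (∑ I ∈ idealsNormIn E' L, wt E' s I) ≤ Zr E' s :=
      exp_sum_le_Zr E' hs _ (fun I hI ↦ prime_of_mem_idealsNormIn E' (fun ℓ hℓ ↦ (hL ℓ hℓ).1) hI)
    calc Zr E s ^ d ≤ (C * Real.exp (∑ I ∈ idealsNormIn E L, wt E s I)) ^ d :=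
          pow_le_pow_left₀ (Zr_nonneg E s) hZ d
      _ = C ^ d * Real.exp ((d : ℝ) * ∑ I ∈ idealsNormIn E L, wt E s I) := by
          rw [mul_pow, ← Real.exp_nat_mul]
      _ ≤ C ^ d * Real.exp (∑ I ∈ idealsNormIn E' L, wt E' s I) :=
          mul_le_mul_of_nonneg_left (Real.exp_le_exp.mpr h1) (by positivity)
      _ ≤ C ^ d * Zr E' s := mul_le_mul_of_nonneg_left h2 (by positivity)
  -- pass to the limit `s → 1⁺`
  have hlim1 : Tendsto (fun s : ℝ ↦ ((s - 1) * Zr E s) ^ d) (𝓝[>] 1)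
      (𝓝 (dedekindZeta_residue E ^ d)) := (tendsto_Zr E).pow d
  have hlim0 : Tendsto (fun s : ℝ ↦ (s - 1) ^ (d - 1)) (𝓝[>] 1) (𝓝 0) := by
    have : Tendsto (fun s : ℝ ↦ (s - 1) ^ (d - 1)) (𝓝 1) (𝓝 ((1 - 1 : ℝ) ^ (d - 1))) :=
      ((continuous_id.sub continuous_const).pow (d - 1)).tendsto 1
    rw [sub_self, zero_pow (by omega)] at this
    exact tendsto_nhdsWithin_of_tendsto_nhds this
  have hlim2 : Tendsto (fun s : ℝ ↦ C ^ d * ((s - 1) ^ (d - 1) * ((s - 1) * Zr E' s))) (𝓝[>] 1)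
      (𝓝 (C ^ d * (0 * dedekindZeta_residue E'))) :=
    (hlim0.mul (tendsto_Zr E')).const_mul _
  have hle : (fun s : ℝ ↦ ((s - 1) * Zr E s) ^ d) ≤ᶠ[𝓝[>] 1]
      (fun s : ℝ ↦ C ^ d * ((s - 1) ^ (d - 1) * ((s - 1) * Zr E' s))) := by
    filter_upwards [self_mem_nhdsWithin] with s hs
    have hs' : (1 : ℝ) < s := hs
    have hpos : 0 < s - 1 := by linarith
    have := mul_le_mul_of_nonneg_left (key s hs') (pow_nonneg hpos.le d)
    calc ((s - 1) * Zr E s) ^ d = (s - 1) ^ d * Zr E s ^ d := mul_pow _ _ _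
      _ ≤ (s - 1) ^ d * (C ^ d * Zr E' s) := this
      _ = C ^ d * ((s - 1) ^ (d - 1) * ((s - 1) * Zr E' s)) := by
          have : (s - 1) ^ d = (s - 1) ^ (d - 1) * (s - 1) := by
            rw [← pow_succ]; congr 1; omega
          rw [this]; ring
  have hfinal := le_of_tendsto_of_tendsto hlim1 hlim2 hle
  rw [zero_mul, mul_zero] at hfinal
  have hpos := pow_pos (dedekindZeta_residue_pos E) d
  linarith

end

end Fermat.Agent.S14.helper2850
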