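/-
S14 moonshot, module M6, leaf LOCAL-CYCLIC (board row 509).  Author: helper7212.

At a finite place `w` of a number field `F`, the `w`-units modulo `p`-th power residues form a
cyclic group of order dividing `p`: if the `w`-unit `t` is not a `p`-th power residue, then every
`w`-unit `x` is `t ^ k` times a `p`-th power residue.
-/
import Mathlib
import Fermat.Agent.S14.helper1892_M6Defs

set_option autoImplicit false

open IsDedekindDomain NumberField WithZero

namespace Fermat.Agent.S14.helper7212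

open Fermat.Agent.S14.helper1892

variable {F : Type*} [Field F] [NumberField F]

/-- In `ℤᵐ⁰`, `z < 1` is the same as `z ≤ exp (-1)`. -/
theorem lt_one_iff_le_exp_neg_one (z : ℤᵐ⁰) : z < 1 ↔ z ≤ WithZero.exp (-(1 : ℤ)) := by
  have h := WithZero.lt_mul_exp_iff_le (x := z) (y := WithZero.exp (-(1 : ℤ))) WithZero.exp_ne_zero
  rw [← WithZero.exp_add] at h
  simpa using h

/-- Congruence modulo the maximal ideal of a valuation is multiplicative on integral elements. -/
theorem val_mul_sub_mul_lt_one {K : Type*} [Field K] {Γ : Type*}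
    [LinearOrderedCommGroupWithZero Γ] (v : Valuation K Γ) {x y a b : K} (hy : v y ≤ 1) (ha : v a ≤ 1)
    (hxa : v (x - a) < 1) (hyb : v (y - b) < 1) : v (x * y - a * b) < 1 := by
  have key : x * y - a * b = (x - a) * y + a * (y - b) := by ring
  rw [key]
  refine Valuation.map_add_lt _ ?_ ?_
  · rw [map_mul]
    calc v (x - a) * v y ≤ v (x - a) * 1 := by gcongr
      _ = v (x - a) := mul_one _
      _ < 1 := hxa
  · rw [map_mul]
    calc v a * v (y - b) ≤ 1 * v (y - b) := by gcongr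
      _ = v (y - b) := one_mul _
      _ < 1 := hyb

/-- Congruence modulo the maximal ideal of a valuation is compatible with powers. -/
theorem val_pow_sub_pow_lt_one {K : Type*} [Field K] {Γ : Type*}
    [LinearOrderedCommGroupWithZero Γ] (v : Valuation K Γ) {x a : K} (hx : v x ≤ 1) (ha : v a ≤ 1)
    (hxa : v (x - a) < 1) (k : ℕ) (hk : k ≠ 0) : v (x ^ k - a ^ k) < 1 := by
  induction k with
  | zero => exact absurd rfl hk
  | succ n ih =>
    rcases Nat.eq_zero_or_pos n with rfl | hn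
    · simpa using hxa
    · have h1 := ih (Nat.pos_iff_ne_zero.mp hn)
      have hap : v (a ^ n) ≤ 1 := by
        rw [map_pow]; exact pow_le_one' ha n
      have := val_mul_sub_mul_lt_one v hx hap h1 hxa
      simpa [pow_succ] using this

/-- An integral approximation of a `w`-unit: `a : 𝓞 F`, `a ∉ w`, `a ≡ x` modulo `w`. -/
theorem exists_integer_approx (w : HeightOneSpectrum (𝓞 F)) (x : F)
    (hx : w.valuation F x = 1) :
    ∃ a : 𝓞 F, a ∉ w.asIdeal ∧ w.valuation F (x - algebraMap (𝓞 F) F a) < 1 := by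
  obtain ⟨a, ha⟩ := w.exists_valuation_sub_lt_of_integer (K := F) (x := x) hx.le 1
  have ha' : w.valuation F (algebraMap (𝓞 F) F a - x) < 1 := by simpa using ha
  have ha'' : w.valuation F (x - algebraMap (𝓞 F) F a) < 1 := by
    rw [← Valuation.map_neg]; simpa using ha'
  refine ⟨a, ?_, ha''⟩
  intro hmem
  have h1 : w.valuation F (algebraMap (𝓞 F) F a) < 1 :=
    (w.valuation_lt_one_iff_mem (K := F) a).mpr hmem
  have h2 : w.valuation F x < 1 := by
    have e : x = (x - algebraMap (𝓞 F) F a) + algebraMap (𝓞 F) F a := by ring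
    rw [e]
    exact Valuation.map_add_lt _ ha'' h1
  rw [hx] at h2
  exact lt_irrefl _ h2

/-- If `x ≡ a` modulo `w` with `a` integral and `a ≡ β ^ p` modulo `w`, `β ∉ w`, then `x` is a
`p`-th power residue at `w`. -/
theorem locPowN_one_of_residue (p : ℕ) (w : HeightOneSpectrum (𝓞 F)) (x : Fˣ) (a β : 𝓞 F)
    (hxa : w.valuation F ((x : F) - algebraMap (𝓞 F) F a) < 1)
    (hβ : β ∉ w.asIdeal) (hab : a - β ^ p ∈ w.asIdeal) : LocPowN p w 1 x := by
  have hβ0 : (algebraMap (𝓞 F) F β) ≠ 0 := by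
    intro h
    apply hβ
    have : β = 0 := by
      apply FaithfulSMul.algebraMap_injective (𝓞 F) F
      simpa using h
    rw [this]; exact Submodule.zero_mem _
  have hβ1 : w.valuation F (algebraMap (𝓞 F) F β) = 1 :=
    (w.valuation_eq_one_iff_notMem (K := F)).mpr hβ
  refine ⟨Units.mk0 _ hβ0, ?_⟩
  rw [Units.val_mk0]
  have hpow0 : (algebraMap (𝓞 F) F β) ^ p ≠ 0 := pow_ne_zero _ hβ0
  have key : (x : F) / (algebraMap (𝓞 F) F β) ^ p - 1
      = ((x : F) - (algebraMap (𝓞 F) F β) ^ p) / (algebraMap (𝓞 F) F β) ^ p := by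
    field_simp
  have h2 : w.valuation F (algebraMap (𝓞 F) F a - (algebraMap (𝓞 F) F β) ^ p) < 1 := by
    have : algebraMap (𝓞 F) F a - (algebraMap (𝓞 F) F β) ^ p
        = algebraMap (𝓞 F) F (a - β ^ p) := by simp
    rw [this]
    exact (w.valuation_lt_one_iff_mem (K := F) _).mpr hab
  have h3 : w.valuation F ((x : F) - (algebraMap (𝓞 F) F β) ^ p) < 1 := by
    have e : (x : F) - (algebraMap (𝓞 F) F β) ^ p
        = ((x : F) - algebraMap (𝓞 F) F a)
          + (algebraMap (𝓞 F) F a - (algebraMap (𝓞 F) F β) ^ p) := by ring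
    rw [e]
    exact Valuation.map_add_lt _ hxa h2
  rw [key, map_div₀, map_pow, hβ1, one_pow, div_one, Nat.cast_one,
    ← lt_one_iff_le_exp_neg_one]
  exact h3

/-- Elementary arithmetic: if `p` is prime and `p ∤ a` then `p ∣ b + a * k` for some `k`. -/
theorem exists_dvd_add_mul {p : ℕ} (hp : p.Prime) (a b : ℕ) (ha : ¬ p ∣ a) :
    ∃ k : ℕ, p ∣ b + a * k := by
  have hcop : Nat.Coprime a p := ((Nat.Prime.coprime_iff_not_dvd hp).mpr ha).symm
  obtain ⟨m, -, hm⟩ := Nat.exists_mul_mod_eq_one_of_coprime hcop hp.one_lt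
  refine ⟨m * ((p - 1) * b), ?_⟩
  have h1 : (a * m) % p = 1 % p := by rw [hm, Nat.mod_eq_of_lt hp.one_lt]
  have h2 : a * (m * ((p - 1) * b)) = (a * m) * ((p - 1) * b) := by ring
  rw [h2]
  have h3 : (b + (a * m) * ((p - 1) * b)) % p = (b + 1 * ((p - 1) * b)) % p := by
    have := Nat.ModEq.mul_right ((p - 1) * b) (show a * m ≡ 1 [MOD p] from h1)
    exact Nat.ModEq.add_left b this
  have h4 : b + 1 * ((p - 1) * b) = p * b := by
    have hp1 : 1 ≤ p := hp.one_lt.le
    obtain ⟨q, rfl⟩ : ∃ q, p = q + 1 := ⟨p - 1, by omega⟩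
    simp only [Nat.add_sub_cancel]
    ring
  rw [Nat.dvd_iff_mod_eq_zero, h3, h4]
  exact Nat.mul_mod_right p b

/-- **Leaf LOCAL-CYCLIC** of M6. -/
theorem localCyclic {p : ℕ} (hp : p.Prime) : Stmt_LocalCyclic F p := by
  intro w _ t x ht hx hnt
  classical
  set v := w.valuation F with hv
  -- integral approximations
  obtain ⟨at', hat, hta⟩ := exists_integer_approx w (t : F) ht
  obtain ⟨ax, hax, hxa⟩ := exists_integer_approx w (x : F) hx
  -- the residue field
  have hmax : w.asIdeal.IsMaximal := w.isMaximal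
  let _ : Field (𝓞 F ⧸ w.asIdeal) := Ideal.Quotient.field w.asIdeal
  have : Finite (𝓞 F ⧸ w.asIdeal) := Ideal.finiteQuotientOfFreeOfNeBot w.asIdeal w.ne_bot
  let π : 𝓞 F →+* 𝓞 F ⧸ w.asIdeal := Ideal.Quotient.mk w.asIdeal
  have hπsurj : Function.Surjective π := Ideal.Quotient.mk_surjective
  have hπ0 : ∀ z : 𝓞 F, π z = 0 ↔ z ∈ w.asIdeal := fun z => Ideal.Quotient.eq_zero_iff_mem
  have hat0 : π at' ≠ 0 := fun h => hat ((hπ0 _).mp h)
  have hax0 : π ax ≠ 0 := fun h => hax ((hπ0 _).mp h)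
  -- generator of the cyclic group of units
  obtain ⟨g, hg⟩ := IsCyclic.exists_monoid_generator (α := (𝓞 F ⧸ w.asIdeal)ˣ)
  obtain ⟨a, ha⟩ := hg (Units.mk0 _ hat0)
  obtain ⟨b, hb⟩ := hg (Units.mk0 _ hax0)
  have ha' : (g : 𝓞 F ⧸ w.asIdeal) ^ a = π at' := by
    have := congrArg (Units.val) ha
    simpa using this
  have hb' : (g : 𝓞 F ⧸ w.asIdeal) ^ b = π ax := by
    have := congrArg (Units.val) hb
    simpa using this
  -- lifting powers of the generator
  have lift : ∀ c : ℕ, ∃ β : 𝓞 F, β ∉ w.asIdeal ∧ π β = (g : 𝓞 F ⧸ w.asIdeal) ^ c := by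
    intro c
    obtain ⟨β, hβ⟩ := hπsurj ((g : 𝓞 F ⧸ w.asIdeal) ^ c)
    refine ⟨β, fun hmem => ?_, hβ⟩
    have h0 : π β = 0 := (hπ0 _).mpr hmem
    rw [hβ] at h0
    exact (pow_ne_zero c g.ne_zero) h0
  -- `p ∤ a`
  have hpa : ¬ p ∣ a := by
    rintro ⟨c, rfl⟩
    obtain ⟨β, hβ, hβc⟩ := lift c
    apply hnt
    refine locPowN_one_of_residue p w t at' β hta hβ ?_
    rw [← hπ0, map_sub, map_pow, hβc, ← ha', ← pow_mul, mul_comm, sub_self]
  obtain ⟨k, c, hc⟩ := exists_dvd_add_mul hp a b hpa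
  obtain ⟨β, hβ, hβc⟩ := lift c
  refine ⟨k, ?_⟩
  -- `x * t ^ k ≡ ax * at' ^ k` modulo `w`
  have hval_le : ∀ z : 𝓞 F, v (algebraMap (𝓞 F) F z) ≤ 1 := fun z => w.valuation_le_one z
  have hclose : v ((x : F) * (t : F) ^ k - algebraMap (𝓞 F) F (ax * at' ^ k)) < 1 := by
    rw [map_mul, map_pow]
    rcases Nat.eq_zero_or_pos k with rfl | hk
    · simpa using hxa
    · have h1 : v ((t : F) ^ k - (algebraMap (𝓞 F) F at') ^ k) < 1 :=
        val_pow_sub_pow_lt_one v ht.le (hval_le at') hta k (Nat.pos_iff_ne_zero.mp hk)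
      have htk : v ((t : F) ^ k) ≤ 1 := by
        rw [map_pow, ht, one_pow]
      exact val_mul_sub_mul_lt_one v htk (hval_le ax) hxa h1
  have hfinal : LocPowN p w 1 (x * t ^ k) := by
    refine locPowN_one_of_residue p w (x * t ^ k) (ax * at' ^ k) β ?_ hβ ?_
    · simpa using hclose
    · rw [← hπ0, map_sub, map_pow, map_mul, map_pow, hβc, ← ha', ← hb', ← pow_mul, ← pow_mul,
        ← pow_add, mul_comm c p, ← hc, sub_self]
  exact hfinal

end Fermat.Agent.S14.helper7212
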