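/-
S14 moonshot, board row 540 (S14-GEN-NOCHAR), seat helper2936.

An analytic-free proof of `helper1934.Stmt_NoChar p` from the leaves of the Tate count (M6) for the
cyclotomic field itself, the weak Chebotarev statement for Kummer extensions and Thaine's relation
(the "generation theorem" of team chat #73).
-/
import Mathlib
import Fermat.Agent.S14.helper1892_M6Defs
import Fermat.Agent.S14.helper7212_LocalCyclic
import Fermat.Agent.S14.helper14_Spec
import Fermat.Agent.S14.helper1934_ThaineSpec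

set_option autoImplicit false

open IsDedekindDomain NumberField WithZero
open scoped nonZeroDivisors

namespace Fermat.Agent.S14.helper2936

open Fermat.Agent.S14.helper2613 (ordAt SUnits mem_SUnits ordAt_mul ordAt_eq_zero_iff
  valuation_unit_ne_zero)
open Fermat.Agent.S14.helper1892

noncomputable section

variable {F : Type} [Field F] [NumberField F]

/-! ## The subgroup of `p`-th power residues at a place -/

theorem exp_neg_one_lt_one : (WithZero.exp (-(1 : ℤ)) : ℤᵐ⁰) < 1 := by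
  rw [← WithZero.exp_zero, WithZero.exp_lt_exp]
  omega

theorem locPowN_one_pow (p : ℕ) (v : HeightOneSpectrum (𝓞 F)) (y : Fˣ) :
    LocPowN p v 1 (y ^ p) := by
  refine ⟨y, ?_⟩
  have hy : ((y : F)) ^ p ≠ 0 := pow_ne_zero _ y.ne_zero
  simp

theorem locPowN_one_mul {p : ℕ} {v : HeightOneSpectrum (𝓞 F)} {x x' : Fˣ}
    (hx : LocPowN p v 1 x) (hx' : LocPowN p v 1 x') : LocPowN p v 1 (x * x') := by
  obtain ⟨y, hy⟩ := hx
  obtain ⟨y', hy'⟩ := hx'
  refine ⟨y * y', ?_⟩
  have hlt : (WithZero.exp (-((1 : ℕ) : ℤ)) : ℤᵐ⁰) < 1 := by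
    simpa using exp_neg_one_lt_one
  have h1 : v.valuation F ((x' : F) / (y' : F) ^ p) = 1 :=
    val_eq_one_of_sub_one_lt v (lt_of_le_of_lt hy' hlt)
  have key : ((x * x' : Fˣ) : F) / ((y * y' : Fˣ) : F) ^ p - 1
      = ((x : F) / (y : F) ^ p - 1) * ((x' : F) / (y' : F) ^ p) + ((x' : F) / (y' : F) ^ p - 1) := by
    have hy0 : ((y : F)) ^ p ≠ 0 := pow_ne_zero _ y.ne_zero
    have hy0' : ((y' : F)) ^ p ≠ 0 := pow_ne_zero _ y'.ne_zero
    push_cast
    field_simp
    ring
  rw [key]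
  refine Valuation.map_add_le _ ?_ hy'
  rw [map_mul, h1, mul_one]
  exact hy

theorem locPowN_one_inv {p : ℕ} {v : HeightOneSpectrum (𝓞 F)} {x : Fˣ}
    (hx : LocPowN p v 1 x) : LocPowN p v 1 x⁻¹ := by
  obtain ⟨y, hy⟩ := hx
  refine ⟨y⁻¹, ?_⟩
  have hlt : (WithZero.exp (-((1 : ℕ) : ℤ)) : ℤᵐ⁰) < 1 := by
    simpa using exp_neg_one_lt_one
  have h1 : v.valuation F ((x : F) / (y : F) ^ p) = 1 :=
    val_eq_one_of_sub_one_lt v (lt_of_le_of_lt hy hlt)
  have hy0 : ((y : F)) ^ p ≠ 0 := pow_ne_zero _ y.ne_zero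
  have hx0 : (x : F) ≠ 0 := x.ne_zero
  have ht0 : (x : F) / (y : F) ^ p ≠ 0 := div_ne_zero hx0 hy0
  have key : ((x⁻¹ : Fˣ) : F) / ((y⁻¹ : Fˣ) : F) ^ p - 1
      = -((x : F) / (y : F) ^ p - 1) * ((x : F) / (y : F) ^ p)⁻¹ := by
    have e1 : ((x⁻¹ : Fˣ) : F) / ((y⁻¹ : Fˣ) : F) ^ p = ((x : F) / (y : F) ^ p)⁻¹ := by
      push_cast
      rw [inv_pow, inv_div, div_inv_eq_mul, mul_comm, div_eq_mul_inv]
    rw [e1, neg_mul, sub_mul, mul_inv_cancel₀ ht0, one_mul, neg_sub]
  rw [key, map_mul, map_inv₀, h1, inv_one, mul_one, Valuation.map_neg]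
  exact hy

/-- The subgroup of `Fˣ` of elements which are a `p`-th power times an element `≡ 1 mod v`. -/
def resSubgroup (p : ℕ) (v : HeightOneSpectrum (𝓞 F)) : Subgroup Fˣ where
  carrier := {x | LocPowN p v 1 x}
  mul_mem' := fun hx hx' => locPowN_one_mul hx hx'
  one_mem' := by
    have := locPowN_one_pow p v (1 : Fˣ)
    simpa using this
  inv_mem' := fun hx => locPowN_one_inv hx

@[simp] theorem mem_resSubgroup {p : ℕ} {v : HeightOneSpectrum (𝓞 F)} {x : Fˣ} :
    x ∈ resSubgroup p v ↔ LocPowN p v 1 x := Iff.rfl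

theorem pow_mem_resSubgroup (p : ℕ) (v : HeightOneSpectrum (𝓞 F)) (y : Fˣ) :
    y ^ p ∈ resSubgroup p v := locPowN_one_pow p v y

/-- A local `p`-th power has order divisible by `p`. -/
theorem dvd_ordAt_of_locPowN_one {p : ℕ} {v : HeightOneSpectrum (𝓞 F)} {x : Fˣ}
    (hx : LocPowN p v 1 x) : (p : ℤ) ∣ ordAt v x := by
  obtain ⟨y, hy⟩ := hx
  have hlt : (WithZero.exp (-((1 : ℕ) : ℤ)) : ℤᵐ⁰) < 1 := by
    simpa using exp_neg_one_lt_one
  have h1 : v.valuation F ((x : F) / (y : F) ^ p) = 1 :=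
    val_eq_one_of_sub_one_lt v (lt_of_le_of_lt hy hlt)
  have h2 : v.valuation F (x : F) = v.valuation F (y : F) ^ p := by
    have hy0 : v.valuation F ((y : F) ^ p) ≠ 0 :=
      (Valuation.ne_zero_iff _).mpr (pow_ne_zero _ y.ne_zero)
    rw [map_div₀, div_eq_one_iff_eq hy0, map_pow] at h1
    exact h1
  refine ⟨ordAt v y, ?_⟩
  unfold ordAt
  rw [h2, WithZero.log_pow]
  simp

theorem dvd_ordAt_of_locPow {p : ℕ} {v : HeightOneSpectrum (𝓞 F)} {x : Fˣ}
    (hx : LocPow p v x) : (p : ℤ) ∣ ordAt v x :=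
  dvd_ordAt_of_locPowN_one (hx 1)

/-! ## Bridge to the symbol relation of `helper14` -/

theorem val_pow_sub_one_lt_one (v : HeightOneSpectrum (𝓞 F)) {u : F}
    (h : v.valuation F (u - 1) < 1) (m : ℕ) : v.valuation F (u ^ m - 1) < 1 := by
  have hu : v.valuation F u = 1 := val_eq_one_of_sub_one_lt v h
  induction m with
  | zero => simp
  | succ m ih =>
    have key : u ^ (m + 1) - 1 = u * (u ^ m - 1) + (u - 1) := by ring
    rw [key]
    refine lt_of_le_of_lt (Valuation.map_add _ _ _) (max_lt ?_ h)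
    rw [map_mul, hu, one_mul]
    exact ih

/-- A `p`-th power residue has trivial symbol. -/
theorem isSymAt_zero_of_locPowN_one {p : ℕ} (ζ : F) {v : HeightOneSpectrum (𝓞 F)} {x : Fˣ}
    (hx : LocPowN p v 1 x) : helper14.IsSymAt p ζ v (x : F) 0 := by
  obtain ⟨y, hy⟩ := hx
  have hlt : (WithZero.exp (-((1 : ℕ) : ℤ)) : ℤᵐ⁰) < 1 := by
    simpa using exp_neg_one_lt_one
  have h0 : v.valuation F ((x : F) / (y : F) ^ p - 1) < 1 := lt_of_le_of_lt hy hlt
  refine ⟨y, y.ne_zero, val_eq_one_of_sub_one_lt v h0, ?_⟩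
  unfold helper14.CongrAt
  rw [ZMod.val_zero, pow_zero]
  exact val_pow_sub_one_lt_one v h0 _

theorem isSymAt_zero_mul {p : ℕ} (ζ : F) {v : HeightOneSpectrum (𝓞 F)} {a b : F}
    (ha : helper14.IsSymAt p ζ v a 0) (hb : helper14.IsSymAt p ζ v b 0) :
    helper14.IsSymAt p ζ v (a * b) 0 := by
  obtain ⟨y, hy0, hyu, hyc⟩ := ha
  obtain ⟨y', hy0', hyu', hyc'⟩ := hb
  unfold helper14.UnitAt at hyu hyu'
  unfold helper14.CongrAt at hyc hyc'
  rw [ZMod.val_zero, pow_zero] at hyc hyc'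
  have e : a * b / (y * y') ^ p = (a / y ^ p) * (b / y' ^ p) := by
    rw [mul_pow]
    field_simp
  refine ⟨y * y', mul_ne_zero hy0 hy0', ?_, ?_⟩
  · unfold helper14.UnitAt
    rw [e, map_mul, hyu, hyu', one_mul]
  · unfold helper14.CongrAt
    rw [ZMod.val_zero, pow_zero, e, mul_pow]
    set A := (a / y ^ p) ^ ((Ideal.absNorm v.asIdeal - 1) / p)
    set B := (b / y' ^ p) ^ ((Ideal.absNorm v.asIdeal - 1) / p)
    have hB : v.valuation F B = 1 := val_eq_one_of_sub_one_lt v hyc'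
    have key : A * B - 1 = (A - 1) * B + (B - 1) := by ring
    rw [key]
    refine lt_of_le_of_lt (Valuation.map_add _ _ _) (max_lt ?_ hyc')
    rw [map_mul, hB, mul_one]
    exact hyc

theorem isSymAt_zero_of_mul_pow {p : ℕ} (ζ : F) {v : HeightOneSpectrum (𝓞 F)} {a c : F}
    (hc : c ≠ 0) (ha : helper14.IsSymAt p ζ v (a * c ^ p) 0) :
    helper14.IsSymAt p ζ v a 0 := by
  obtain ⟨y, hy0, hyu, hyc⟩ := ha
  have e : a * c ^ p / y ^ p = a / (y / c) ^ p := by
    rw [div_pow]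
    field_simp
  rw [e] at hyu hyc
  exact ⟨y / c, div_ne_zero hy0 hc, hyu, hyc⟩

/-! ## Pigeonhole on `U_S / U_S^p` -/

theorem not_mem_of_pow_mem_aux {G : Type*} [CommGroup G] (H : Subgroup G) {p : ℕ} (hp : p.Prime)
    {g : G} (hg : g ∉ H) (hgp : g ^ p ∈ H) {k : ℕ} (hk : g ^ k ∈ H) : p ∣ k := by
  by_contra hndvd
  have hcop : Nat.Coprime k p := (Nat.Coprime.symm ((Nat.Prime.coprime_iff_not_dvd hp).mpr hndvd))
  obtain ⟨m, -, hm⟩ := Nat.exists_mul_mod_eq_one_of_coprime hcop hp.one_lt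
  apply hg
  have h1 : g ^ (k * m) ∈ H := by
    rw [pow_mul]
    exact H.pow_mem hk m
  have h2 : g ^ (k * m) = g * (g ^ p) ^ (k * m / p) := by
    conv_lhs => rw [← Nat.mod_add_div (k * m) p, hm]
    rw [pow_add, pow_one, pow_mul]
  have h3 : g = g ^ (k * m) * ((g ^ p) ^ (k * m / p))⁻¹ := by
    rw [h2, mul_inv_cancel_right]
  rw [h3]
  exact H.mul_mem h1 (H.inv_mem (H.pow_mem hgp _))

/-- Local cyclicity with an exponent `< p`. -/
theorem exists_fin_of_localCyclic {p : ℕ} (hp : p.Prime) (hLC : Stmt_LocalCyclic F p)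
    {w : HeightOneSpectrum (𝓞 F)} (hw : (p : 𝓞 F) ∉ w.asIdeal) {t x : Fˣ}
    (ht : w.valuation F (t : F) = 1) (hx : w.valuation F (x : F) = 1)
    (hnt : ¬ LocPowN p w 1 t) : ∃ k : Fin p, LocPowN p w 1 (x * t ^ (k : ℕ)) := by
  obtain ⟨k, hk⟩ := hLC w hw t x ht hx hnt
  refine ⟨⟨k % p, Nat.mod_lt _ hp.pos⟩, ?_⟩
  have hk' : t ^ k = t ^ (k % p) * (t ^ (k / p)) ^ p := by
    rw [← pow_mul', ← pow_add, Nat.mod_add_div]
  have e : x * t ^ (k % p) = (x * t ^ k) * ((t ^ (k / p)) ^ p)⁻¹ := by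
    rw [hk', ← mul_assoc, mul_inv_cancel_right]
  show x * t ^ (k % p) ∈ resSubgroup p w
  rw [e]
  exact (resSubgroup p w).mul_mem hk ((resSubgroup p w).inv_mem (pow_mem_resSubgroup p w _))

theorem mem_SUnits_of_pow_mem {p : ℕ} (hp : p ≠ 0) {S : Finset (HeightOneSpectrum (𝓞 F))}
    {y : Fˣ} (hy : y ^ p ∈ SUnits F S) : y ∈ SUnits F S := by
  rw [mem_SUnits] at hy ⊢
  intro v hv
  have h1 := hy v hv
  rw [Units.val_pow_eq_pow_val, map_pow] at h1
  exact (pow_eq_one_iff_of_nonneg zero_le hp).mp h1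

/-- If `T` has fewer than `s` elements (`p^s = [U_S : U_S^p]`), some `S`-unit which is not a
`p`-th power is a `p`-th power residue at all places of `T`. -/
theorem exists_residue_not_pow {p : ℕ} (hp : p.Prime) (hLC : Stmt_LocalCyclic F p)
    (S T : Finset (HeightOneSpectrum (𝓞 F))) (E : Fˣ) (hE : E ∈ SUnits F S) {s : ℕ}
    (hs : ((SUnits F S).map (powMonoidHom p)).relIndex (SUnits F S) = p ^ s)
    (hTS : ∀ w ∈ T, w ∉ S) (hTp : ∀ w ∈ T, (p : 𝓞 F) ∉ w.asIdeal)
    (hTE : ∀ w ∈ T, ¬ LocPowN p w 1 E) (hcard : T.card < s) :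
    ∃ x ∈ SUnits F S, (¬ ∃ y : Fˣ, x = y ^ p) ∧ ∀ w ∈ T, LocPowN p w 1 x := by
  classical
  set U : Subgroup Fˣ := SUnits F S with hU
  set N : Subgroup U := ((U.map (powMonoidHom p)).subgroupOf U) with hN
  have hcardQ : Nat.card (U ⧸ N) = p ^ s := by
    rw [← hs]
    rfl
  have hfin : Finite (U ⧸ N) :=
    Nat.finite_of_card_ne_zero (by rw [hcardQ]; exact pow_ne_zero _ hp.ne_zero)
  let _ : Fintype (U ⧸ N) := Fintype.ofFinite _
  have key : ∀ (x : U) (w : T), ∃ k : Fin p, LocPowN p w.1 1 ((x : Fˣ) * E ^ (k : ℕ)) := by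
    intro x w
    exact exists_fin_of_localCyclic hp hLC (hTp w.1 w.2) (mem_SUnits.mp hE w.1 (hTS w.1 w.2))
      (mem_SUnits.mp x.2 w.1 (hTS w.1 w.2)) (hTE w.1 w.2)
  choose f hf using key
  let g : U ⧸ N → (T → Fin p) := fun q w => f (Quotient.out q) w
  have hlt : Fintype.card (T → Fin p) < Fintype.card (U ⧸ N) := by
    rw [← Nat.card_eq_fintype_card (α := U ⧸ N), hcardQ, Fintype.card_fun, Fintype.card_fin,
      Fintype.card_coe]
    exact Nat.pow_lt_pow_right hp.one_lt hcard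
  obtain ⟨q, q', hne, hqq⟩ := Fintype.exists_ne_map_eq_of_card_lt g hlt
  set a : U := Quotient.out q with ha
  set a' : U := Quotient.out q' with ha'
  have hmem : (a : Fˣ) * (a' : Fˣ)⁻¹ ∈ U := U.mul_mem a.2 (U.inv_mem a'.2)
  refine ⟨(a : Fˣ) * (a' : Fˣ)⁻¹, hmem, ?_, ?_⟩
  · rintro ⟨y, hy⟩
    apply hne
    have hyU : y ∈ U := mem_SUnits_of_pow_mem hp.ne_zero (hy ▸ hmem)
    have hq : (a : U ⧸ N) = (a' : U ⧸ N) := by
      rw [QuotientGroup.eq, hN, Subgroup.mem_subgroupOf]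
      refine ⟨y⁻¹, U.inv_mem hyU, ?_⟩
      rw [powMonoidHom_apply, inv_pow, ← hy]
      simp only [mul_inv_rev, inv_inv, Subgroup.coe_mul, InvMemClass.coe_inv]
      exact mul_comm _ _
    have e1 : (a : U ⧸ N) = q := QuotientGroup.out_eq' q
    have e2 : (a' : U ⧸ N) = q' := QuotientGroup.out_eq' q'
    rw [← e1, ← e2]
    exact hq
  · intro w hw
    have h1 := hf a ⟨w, hw⟩
    have h2 := hf a' ⟨w, hw⟩
    have h3 : f a ⟨w, hw⟩ = f a' ⟨w, hw⟩ := congrFun hqq ⟨w, hw⟩
    rw [h3] at h1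
    have h4 := (resSubgroup p w).mul_mem h1 ((resSubgroup p w).inv_mem h2)
    have e : (a : Fˣ) * (a' : Fˣ)⁻¹ =
        ((a : Fˣ) * E ^ (f a' ⟨w, hw⟩ : ℕ)) * ((a' : Fˣ) * E ^ (f a' ⟨w, hw⟩ : ℕ))⁻¹ := by
      rw [mul_inv_rev, mul_assoc, mul_inv_cancel_left]
    rw [e]
    exact h4

/-! ## More on the symbol relation -/

theorem isSymAt_zero_one {p : ℕ} (ζ : F) (v : HeightOneSpectrum (𝓞 F)) :
    helper14.IsSymAt p ζ v (1 : F) 0 := by
  refine ⟨1, one_ne_zero, ?_, ?_⟩
  · unfold helper14.UnitAt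
    simp
  · unfold helper14.CongrAt
    simp

theorem isSymAt_zero_pow {p : ℕ} (ζ : F) {v : HeightOneSpectrum (𝓞 F)} {a : F}
    (ha : helper14.IsSymAt p ζ v a 0) (n : ℕ) : helper14.IsSymAt p ζ v (a ^ n) 0 := by
  induction n with
  | zero => simpa using isSymAt_zero_one ζ v
  | succ n ih =>
    rw [pow_succ]
    exact isSymAt_zero_mul ζ ih ha

/-! ## Auxiliary sets of places -/

/-- `T` is an auxiliary set of places for `S`, relative to the `S`-unit `E`: disjoint from `S`,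
tame, of degree one, `E` is a non-residue at each place of `T` and the residue classes of the
`S`-units at the places of `T` can be prescribed arbitrarily. -/
structure AuxSet (p : ℕ) (S : Finset (HeightOneSpectrum (𝓞 F))) (E : Fˣ)
    (T : Finset (HeightOneSpectrum (𝓞 F))) : Prop where
  disj : ∀ w ∈ T, w ∉ S
  notOver : ∀ w ∈ T, (p : 𝓞 F) ∉ w.asIdeal
  normPrime : ∀ w ∈ T, (Ideal.absNorm w.asIdeal).Prime
  nonres : ∀ w ∈ T, ¬ LocPowN p w 1 E
  surj : ∀ z : HeightOneSpectrum (𝓞 F) → Fˣ, (∀ w ∈ T, w.valuation F (z w : F) = 1) →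
    ∃ e ∈ SUnits F S, ∀ w ∈ T, LocPowN p w 1 (z w * e)

theorem auxSet_empty (p : ℕ) (S : Finset (HeightOneSpectrum (𝓞 F))) (E : Fˣ) :
    AuxSet p S E ∅ :=
  ⟨by simp, by simp, by simp, by simp, fun _ _ => ⟨1, Subgroup.one_mem _, by simp⟩⟩

open Classical in
theorem AuxSet.insert {p : ℕ} (hLC : Stmt_LocalCyclic F p)
    {S T : Finset (HeightOneSpectrum (𝓞 F))} {E : Fˣ} (hT : AuxSet p S E T)
    {w : HeightOneSpectrum (𝓞 F)} (hwS : w ∉ S) (hwp : (p : 𝓞 F) ∉ w.asIdeal)
    (hwN : (Ideal.absNorm w.asIdeal).Prime) (hwE : ¬ LocPowN p w 1 E)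
    {x : Fˣ} (hxU : x ∈ SUnits F S) (hxT : ∀ w' ∈ T, LocPowN p w' 1 x)
    (hxw : ¬ LocPowN p w 1 x) : AuxSet p S E (insert w T) := by
  refine ⟨?_, ?_, ?_, ?_, ?_⟩
  · intro w' hw'
    rcases Finset.mem_insert.mp hw' with rfl | h
    · exact hwS
    · exact hT.disj w' h
  · intro w' hw'
    rcases Finset.mem_insert.mp hw' with rfl | h
    · exact hwp
    · exact hT.notOver w' h
  · intro w' hw'
    rcases Finset.mem_insert.mp hw' with rfl | h
    · exact hwN
    · exact hT.normPrime w' h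
  · intro w' hw'
    rcases Finset.mem_insert.mp hw' with rfl | h
    · exact hwE
    · exact hT.nonres w' h
  · intro z hz
    obtain ⟨e', he'U, he'⟩ := hT.surj z (fun w' hw' => hz w' (Finset.mem_insert_of_mem hw'))
    have hu : w.valuation F ((z w * e' : Fˣ) : F) = 1 := by
      rw [Units.val_mul, map_mul, hz w (Finset.mem_insert_self _ _), mem_SUnits.mp he'U w hwS,
        one_mul]
    obtain ⟨k, hk⟩ := hLC w hwp x (z w * e') (mem_SUnits.mp hxU w hwS) hu hxw
    refine ⟨e' * x ^ k, Subgroup.mul_mem _ he'U (Subgroup.pow_mem _ hxU k), ?_⟩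
    intro w' hw'
    rcases Finset.mem_insert.mp hw' with rfl | h
    · rw [← mul_assoc]
      exact hk
    · rw [← mul_assoc]
      exact (resSubgroup p w').mul_mem (he' w' h) ((resSubgroup p w').pow_mem (hxT w' h) k)

open Classical in
/-- Existence of auxiliary sets of every size `≤ s`, where `p ^ s = [U_S : U_S ^ p]`. -/
theorem exists_auxSet {p : ℕ} (hp : p.Prime) {ζ : F} (hζ : IsPrimitiveRoot ζ p)
    (hWC : helper14.Stmt_WCKummer p) (hLC : Stmt_LocalCyclic F p)
    (S : Finset (HeightOneSpectrum (𝓞 F))) (E : Fˣ) (hE : E ∈ SUnits F S)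
    (hEnp : ¬ ∃ y : Fˣ, E = y ^ p) {s : ℕ}
    (hs : ((SUnits F S).map (powMonoidHom p)).relIndex (SUnits F S) = p ^ s) :
    ∀ n : ℕ, n ≤ s → ∃ T : Finset (HeightOneSpectrum (𝓞 F)), T.card = n ∧ AuxSet p S E T := by
  intro n
  induction n with
  | zero =>
    intro _
    exact ⟨∅, rfl, auxSet_empty p S E⟩
  | succ n ih =>
    intro hn
    obtain ⟨T, hTc, hT⟩ := ih (by omega)
    have key : ∃ (w : HeightOneSpectrum (𝓞 F)) (x : Fˣ), w ∉ S ∧ w ∉ T ∧
        (p : 𝓞 F) ∉ w.asIdeal ∧ (Ideal.absNorm w.asIdeal).Prime ∧ ¬ LocPowN p w 1 E ∧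
        x ∈ SUnits F S ∧ (∀ w' ∈ T, LocPowN p w' 1 x) ∧ ¬ LocPowN p w 1 x := by
      rcases T.eq_empty_or_nonempty with hTe | ⟨w₁, hw₁⟩
      · have hyp : ¬ ∃ (e : F → ℕ) (y : F), (E : F) = (∏ a ∈ (∅ : Finset F), a ^ e a) * y ^ p := by
          rintro ⟨e, y, hy⟩
          rw [Finset.prod_empty, one_mul] at hy
          have hy0 : y ≠ 0 := by
            rintro rfl
            rw [zero_pow hp.ne_zero] at hy
            exact E.ne_zero hy
          exact hEnp ⟨Units.mk0 y hy0, Units.ext (by simpa using hy)⟩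
        obtain ⟨w, hwB, hwN, hwp, -, -, hwE⟩ :=
          hWC F ζ hζ ∅ (E : F) (by simp) E.ne_zero hyp S
        have hwE' : ¬ LocPowN p w 1 E := fun h => hwE (isSymAt_zero_of_locPowN_one ζ h)
        exact ⟨w, E, hwB, by simp [hTe], hwp, hwN, hwE', hE, by simp [hTe], hwE'⟩
      · obtain ⟨x, hxU, hxnp, hxT⟩ := exists_residue_not_pow hp hLC S T E hE hs hT.disj
          hT.notOver hT.nonres (by omega)
        set a : Fˣ := E * x ^ (p - 1) with ha
        have hyp : ¬ ∃ (e : F → ℕ) (y : F),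
            (x : F) = (∏ a' ∈ ({(a : F)} : Finset F), a' ^ e a') * y ^ p := by
          rintro ⟨e, y, hy⟩
          rw [Finset.prod_singleton] at hy
          have hy0 : y ≠ 0 := by
            rintro rfl
            rw [zero_pow hp.ne_zero, mul_zero] at hy
            exact x.ne_zero hy
          set k := e (a : F) with hk
          have hy' : x = a ^ k * (Units.mk0 y hy0) ^ p := Units.ext (by simpa using hy)
          have h1 : E ^ k ∈ resSubgroup p w₁ := by
            have e1 : E ^ k = x * ((Units.mk0 y hy0) ^ p)⁻¹ * ((x ^ (p - 1)) ^ k)⁻¹ := by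
              rw [ha, mul_pow] at hy'
              exact eq_mul_inv_of_mul_eq (eq_mul_inv_of_mul_eq hy'.symm)
            rw [e1]
            refine (resSubgroup p w₁).mul_mem ((resSubgroup p w₁).mul_mem (hxT w₁ hw₁)
              ((resSubgroup p w₁).inv_mem (pow_mem_resSubgroup p w₁ _))) ?_
            exact (resSubgroup p w₁).inv_mem
              ((resSubgroup p w₁).pow_mem ((resSubgroup p w₁).pow_mem (hxT w₁ hw₁) _) _)
          have hdvd : p ∣ k := not_mem_of_pow_mem_aux (resSubgroup p w₁) hp (hT.nonres w₁ hw₁)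
            (pow_mem_resSubgroup p w₁ E) h1
          obtain ⟨m, hm⟩ := hdvd
          refine hxnp ⟨a ^ m * Units.mk0 y hy0, ?_⟩
          rw [mul_pow, ← pow_mul', ← hm]
          exact hy'
        obtain ⟨w, hwB, hwN, hwp, hwa, -, hwx⟩ :=
          hWC F ζ hζ {(a : F)} (x : F) (by simp) x.ne_zero hyp (S ∪ T)
        have hwS : w ∉ S := fun h => hwB (Finset.mem_union_left _ h)
        have hwT : w ∉ T := fun h => hwB (Finset.mem_union_right _ h)
        have hwx' : ¬ LocPowN p w 1 x := fun h => hwx (isSymAt_zero_of_locPowN_one ζ h)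
        have hwE : ¬ LocPowN p w 1 E := by
          intro h
          apply hwx
          have hE0 := isSymAt_zero_of_locPowN_one ζ h
          have ha0 := (hwa (a : F) (Finset.mem_singleton_self _)).2
          have h2 := isSymAt_zero_mul ζ (isSymAt_zero_pow ζ ha0 (p - 1)) hE0
          have hp2 : 2 ≤ p := hp.two_le
          have e2 : (a : F) ^ (p - 1) * (E : F) = (x : F) * ((E : F) * (x : F) ^ (p - 2)) ^ p := by
            have ha' : (a : F) = (E : F) * (x : F) ^ (p - 1) := by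
              rw [ha]
              push_cast
              rfl
            rw [ha']
            obtain ⟨q, hq⟩ : ∃ q, p = q + 2 := ⟨p - 2, by omega⟩
            have hq1 : p - 1 = q + 1 := by omega
            have hq2 : p - 2 = q := by omega
            rw [hq1, hq2, hq]
            ring
          rw [e2] at h2
          exact isSymAt_zero_of_mul_pow ζ
            (mul_ne_zero E.ne_zero (pow_ne_zero _ x.ne_zero)) h2
        exact ⟨w, x, hwS, hwT, hwp, hwN, hwE, hxU, hxT, hwx'⟩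
    obtain ⟨w, x, hwS, hwT, hwp, hwN, hwE, hxU, hxT, hxw⟩ := key
    exact ⟨insert w T, by rw [Finset.card_insert_of_notMem hwT, hTc],
      hT.insert hLC hwS hwp hwN hwE hxU hxT hxw⟩

/-! ## The key lemma (G1) and the count (G2) -/

open Classical in
/-- **(G1)** An `S ∪ T`-unit which is a local `p`-th power at all places of `S` is a `p`-th
power. -/
theorem pow_of_mem_inf {p : ℕ} (hp : p.Prime) (hM5 : Stmt_M5 F p)
    {S T : Finset (HeightOneSpectrum (𝓞 F))} {E : Fˣ}
    (hSp : ∀ v : HeightOneSpectrum (𝓞 F), (p : 𝓞 F) ∈ v.asIdeal → v ∈ S) (hCG : ClassGen S)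
    (hT : AuxSet p S E T) {x : Fˣ} (hxU : x ∈ SUnits F (S ∪ T)) (hxL : x ∈ locPowS p S) :
    ∃ y : Fˣ, x = y ^ p := by
  by_contra hnot
  obtain ⟨v₀, hv₀dvd, hv₀not, hv₀⟩ :=
    hM5 x hnot (fun v hv => (mem_locPowS.mp hxL) v (hSp v hv))
  have hv₀S : v₀ ∉ S := fun h => hv₀not ((mem_locPowS.mp hxL) v₀ h)
  obtain ⟨z, hz1, hz2⟩ := hCG v₀ hv₀S
  have hR : ∀ v, ¬ (p : ℤ) ∣ ordAt v x → v ∈ T ∧ v ≠ v₀ := by
    intro v hv
    have hvS : v ∉ S := fun h => hv (dvd_ordAt_of_locPow ((mem_locPowS.mp hxL) v h))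
    have hvST : v ∈ S ∪ T := by
      by_contra h
      apply hv
      rw [(helper2613.mem_SUnits_iff_ordAt.mp hxU) v h]
      exact dvd_zero _
    refine ⟨(Finset.mem_union.mp hvST).resolve_left hvS, ?_⟩
    rintro rfl
    exact hv hv₀dvd
  let zt : HeightOneSpectrum (𝓞 F) → Fˣ := fun w => if (p : ℤ) ∣ ordAt w x then 1 else z
  have hzt : ∀ w ∈ T, w.valuation F (zt w : F) = 1 := by
    intro w hw
    by_cases h : (p : ℤ) ∣ ordAt w x
    · simp [zt, h]
    · simp only [zt, h, if_false]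
      exact hz2 w (hT.disj w hw) (hR w h).2
  obtain ⟨e, heU, he⟩ := hT.surj zt hzt
  have hfin := hv₀ (z * e) (by
      intro v hv
      obtain ⟨hvT, hvne⟩ := hR v hv
      have hvS := hT.disj v hvT
      refine ⟨?_, ?_⟩
      · rw [Units.val_mul, map_mul, hz2 v hvS hvne, mem_SUnits.mp heU v hvS, one_mul]
      · have := he v hvT
        simpa [zt, hv] using this)
    (by
      intro v _ hne hnl
      have hvS : v ∉ S := fun h => hnl ((mem_locPowS.mp hxL) v h)
      have h1 : ordAt v z = 0 := (ordAt_eq_zero_iff v z).mpr (hz2 v hvS hne)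
      have h2 : ordAt v e = 0 := (ordAt_eq_zero_iff v e).mpr (mem_SUnits.mp heU v hvS)
      rw [ordAt_mul, h1, h2]
      simp)
  have h1 : ordAt v₀ z = -1 := by
    unfold ordAt
    rw [hz1, WithZero.log_exp]
  have h2 : ordAt v₀ e = 0 := (ordAt_eq_zero_iff v₀ e).mpr (mem_SUnits.mp heU v₀ hv₀S)
  rw [ordAt_mul, h1, h2, add_zero] at hfin
  have h3 : (p : ℤ) = 1 := Int.eq_one_of_dvd_one (Int.natCast_nonneg p) ((dvd_neg).mp hfin)
  have h4 : p = 1 := by exact_mod_cast h3
  exact hp.one_lt.ne' h4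

open Classical in
/-- **(G2)** If `#T = s`, then `Fˣ` is generated by the `S ∪ T`-units and the elements which are
local `p`-th powers at `S`. -/
theorem sup_eq_top {p : ℕ} (hp : p.Prime) (hM5 : Stmt_M5 F p) (hLI : Stmt_LocIndex F p)
    (hSU : Stmt_SUnitCount F p) (hTC : Stmt_TotComplex F)
    {S T : Finset (HeightOneSpectrum (𝓞 F))} {E : Fˣ}
    (hSp : ∀ v : HeightOneSpectrum (𝓞 F), (p : 𝓞 F) ∈ v.asIdeal → v ∈ S) (hCG : ClassGen S)
    (hT : AuxSet p S E T) (hcard : T.card = NumberField.Units.rank F + S.card + 1) :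
    locPowS p S ⊔ SUnits F (S ∪ T) = ⊤ := by
  set L : Subgroup Fˣ := locPowS p S with hL
  set U : Subgroup Fˣ := SUnits F (S ∪ T) with hU
  obtain ⟨hL0, hLle⟩ := hLI S hSp
  have hdisj : Disjoint S T := Finset.disjoint_right.mpr hT.disj
  have hUidx : (U.map (powMonoidHom p)).relIndex U = p ^ (2 * T.card) := by
    have h := hSU (S ∪ T)
    rw [Finset.card_union_of_disjoint hdisj] at h
    rw [h]
    congr 1
    omega
  have hLle' : L.index ≤ p ^ (2 * T.card) := by
    refine hLle.trans (le_of_eq ?_)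
    have h : Module.finrank ℚ F = 2 * (NumberField.Units.rank F + 1) := hTC
    rw [h]
    congr 1
    omega
  have hinf : U ⊓ L ≤ U.map (powMonoidHom p) := by
    rintro x ⟨hxU, hxL⟩
    obtain ⟨y, hy⟩ := pow_of_mem_inf hp hM5 hSp hCG hT hxU hxL
    have hxU' : x ∈ SUnits F (S ∪ T) := hxU
    rw [hy] at hxU'
    exact ⟨y, mem_SUnits_of_pow_mem hp.ne_zero hxU', by simp [hy]⟩
  have h1 : p ^ (2 * T.card) ∣ L.relIndex U := by
    rw [← hUidx, ← Subgroup.inf_relIndex_left U L]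
    exact Subgroup.relIndex_dvd_of_le_left U hinf
  have h2 : L.relIndex (U ⊔ L) = L.relIndex U := Subgroup.relIndex_sup_right U L
  have h3 : L.relIndex (U ⊔ L) * (U ⊔ L).index = L.index :=
    Subgroup.relIndex_mul_index le_sup_right
  rw [h2] at h3
  have h4 : (U ⊔ L).index = 1 := by
    obtain ⟨c, hc⟩ := h1
    rw [hc] at h3
    have hpos : 0 < p ^ (2 * T.card) := pow_pos hp.pos _
    have hc0 : c ≠ 0 := by
      rintro rfl
      apply hL0
      rw [← h3]
      simp
    have hi0 : (U ⊔ L).index ≠ 0 := by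
      intro h0
      apply hL0
      rw [← h3, h0]
      simp
    have hle : p ^ (2 * T.card) * c * (U ⊔ L).index ≤ p ^ (2 * T.card) := h3 ▸ hLle'
    by_contra hne
    have h2le : 2 ≤ (U ⊔ L).index := by omega
    have hc1 : 1 ≤ c := Nat.one_le_iff_ne_zero.mpr hc0
    have : p ^ (2 * T.card) * 2 ≤ p ^ (2 * T.card) * c * (U ⊔ L).index := by
      calc p ^ (2 * T.card) * 2 = p ^ (2 * T.card) * 1 * 2 := by ring
        _ ≤ p ^ (2 * T.card) * c * (U ⊔ L).index :=
          Nat.mul_le_mul (Nat.mul_le_mul le_rfl hc1) h2le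
    omega
  rw [sup_comm]
  exact Subgroup.index_eq_one.mp h4

/-! ## Characters of the class group and divisors of elements -/

/-- The exponent of `v` in the factorisation of the ideal `I`. -/
def cnt (v : HeightOneSpectrum (𝓞 F)) (I : Ideal (𝓞 F)) : ℕ :=
  (Associates.mk v.asIdeal).count (Associates.mk I).factors

theorem exists_finset_factorization (I : Ideal (𝓞 F)) (hI : I ≠ 0) :
    ∃ s : Finset (HeightOneSpectrum (𝓞 F)), (∀ v, v ∉ s → cnt v I = 0) ∧
      ∏ v ∈ s, v.asIdeal ^ cnt v I = I := by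
  have hfin := Filter.eventually_cofinite.mp (Associates.finite_factors hI)
  refine ⟨hfin.toFinset, ?_, ?_⟩
  · intro v hv
    simpa [cnt] using hv
  · have h := Ideal.finprod_heightOneSpectrum_factorization hI
    rw [finprod_eq_prod_of_mulSupport_subset (s := hfin.toFinset)] at h
    · exact h
    · intro v hv
      simp only [Set.Finite.coe_toFinset, Set.mem_ofPred_eq]
      intro h0
      apply hv
      simp [HeightOneSpectrum.maxPowDividing, Int.natCast_eq_zero.mp h0]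

theorem char_mk0_eq_prod {A : Type*} [CommMonoid A] (χ : ClassGroup (𝓞 F) →* A)
    (I : (Ideal (𝓞 F))⁰) (s : Finset (HeightOneSpectrum (𝓞 F)))
    (n : HeightOneSpectrum (𝓞 F) → ℕ) (h : ∏ v ∈ s, v.asIdeal ^ n v = (I : Ideal (𝓞 F))) :
    χ (ClassGroup.mk0 I) = ∏ v ∈ s, χ (helper1934.primeClass v) ^ n v := by
  have hI : I = ∏ v ∈ s,
      (⟨v.asIdeal, mem_nonZeroDivisors_iff_ne_zero.mpr v.ne_bot⟩ : (Ideal (𝓞 F))⁰) ^ n v := by
    apply Subtype.ext
    rw [← h]
    simp
  rw [hI, map_prod, map_prod]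
  refine Finset.prod_congr rfl (fun v _ => ?_)
  rw [map_pow, map_pow]
  rfl

omit [NumberField F] in
theorem span_singleton_mem_nonZeroDivisors {a : 𝓞 F} (ha : a ≠ 0) :
    Ideal.span {a} ∈ (Ideal (𝓞 F))⁰ :=
  mem_nonZeroDivisors_iff_ne_zero.mpr (by simpa using ha)

/-- The divisor of a nonzero integer is killed by every character of the class group. -/
theorem char_prod_eq_one_of_integer {A : Type*} [CommMonoid A] (χ : ClassGroup (𝓞 F) →* A)
    {a : 𝓞 F} (ha : a ≠ 0) (s : Finset (HeightOneSpectrum (𝓞 F)))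
    (hs : ∀ v, v ∉ s → cnt v (Ideal.span {a}) = 0) :
    ∏ v ∈ s, χ (helper1934.primeClass v) ^ cnt v (Ideal.span {a}) = 1 := by
  classical
  have hI : (Ideal.span {a} : Ideal (𝓞 F)) ≠ 0 := by simpa using ha
  obtain ⟨s₀, hs₀, hprod⟩ := exists_finset_factorization (Ideal.span {a}) hI
  have hprod' : ∏ v ∈ s ∪ s₀, v.asIdeal ^ cnt v (Ideal.span {a}) = Ideal.span {a} :=
    (Finset.prod_subset (Finset.subset_union_right : s₀ ⊆ s ∪ s₀)
      (fun v _ hv => by rw [hs₀ v hv, pow_zero])).symm.trans hprod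
  have h1 := char_mk0_eq_prod χ ⟨Ideal.span {a}, span_singleton_mem_nonZeroDivisors ha⟩
    (s ∪ s₀) (fun v => cnt v (Ideal.span {a})) hprod'
  have h2 : ClassGroup.mk0 (⟨Ideal.span {a}, span_singleton_mem_nonZeroDivisors ha⟩ :
      (Ideal (𝓞 F))⁰) = 1 :=
    (ClassGroup.mk0_eq_one_iff _).mpr ⟨a, rfl⟩
  rw [h2, map_one] at h1
  exact (Finset.prod_subset (Finset.subset_union_left : s ⊆ s ∪ s₀)
    (fun v _ hv => by rw [hs v hv, pow_zero])).trans h1.symm

theorem ordAt_of_integer (v : HeightOneSpectrum (𝓞 F)) {a : 𝓞 F} (ha : a ≠ 0) (u : Fˣ)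
    (hu : (u : F) = algebraMap (𝓞 F) F a) : ordAt v u = -(cnt v (Ideal.span {a}) : ℤ) := by
  unfold ordAt
  rw [hu, HeightOneSpectrum.valuation_of_algebraMap, v.intValuation_if_neg ha, WithZero.log_exp]
  rfl

theorem pow_card_eq_one_aux {p : ℕ} (m : Multiplicative (ZMod p)) : m ^ p = 1 := by
  apply Multiplicative.toAdd.injective
  rw [toAdd_pow, toAdd_one, nsmul_eq_mul, ZMod.natCast_self, zero_mul]

/-- **Divisor criterion.**  If the divisor of `x` is `n • v₁` with `p ∤ n` up to multiples of `p`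
and primes on which `χ` is trivial, then `χ` is trivial on `v₁`. -/
theorem char_eq_one_of_ord {p : ℕ} (hp : p.Prime)
    (χ : ClassGroup (𝓞 F) →* Multiplicative (ZMod p)) (x : Fˣ) (v₁ : HeightOneSpectrum (𝓞 F))
    (h1 : ¬ (p : ℤ) ∣ ordAt v₁ x)
    (h2 : ∀ v, v ≠ v₁ → (p : ℤ) ∣ ordAt v x ∨ χ (helper1934.primeClass v) = 1) :
    χ (helper1934.primeClass v₁) = 1 := by
  classical
  obtain ⟨a, b, hb, hab⟩ := IsFractionRing.div_surjective (A := 𝓞 F) (x : F)
  have hb0 : b ≠ 0 := nonZeroDivisors.ne_zero hb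
  have hbF : (algebraMap (𝓞 F) F b) ≠ 0 := by
    simpa using hb0
  have ha0 : a ≠ 0 := by
    rintro rfl
    rw [map_zero, zero_div] at hab
    exact x.ne_zero hab.symm
  have haF : (algebraMap (𝓞 F) F a) ≠ 0 := by
    simpa using ha0
  have hIa : (Ideal.span {a} : Ideal (𝓞 F)) ≠ 0 := by simpa using ha0
  have hIb : (Ideal.span {b} : Ideal (𝓞 F)) ≠ 0 := by simpa using hb0
  obtain ⟨sa, hsa, -⟩ := exists_finset_factorization (Ideal.span {a}) hIa
  obtain ⟨sb, hsb, -⟩ := exists_finset_factorization (Ideal.span {b}) hIb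
  set s : Finset (HeightOneSpectrum (𝓞 F)) := insert v₁ (sa ∪ sb) with hs
  have hsa' : ∀ v, v ∉ s → cnt v (Ideal.span {a}) = 0 := fun v hv =>
    hsa v (fun h => hv (Finset.mem_insert_of_mem (Finset.mem_union_left _ h)))
  have hsb' : ∀ v, v ∉ s → cnt v (Ideal.span {b}) = 0 := fun v hv =>
    hsb v (fun h => hv (Finset.mem_insert_of_mem (Finset.mem_union_right _ h)))
  have hPa := char_prod_eq_one_of_integer χ ha0 s hsa'
  have hPb := char_prod_eq_one_of_integer χ hb0 s hsb'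
  have hord : ∀ v, ordAt v x = (cnt v (Ideal.span {b}) : ℤ) - (cnt v (Ideal.span {a}) : ℤ) := by
    intro v
    have hmul : x * Units.mk0 _ hbF = Units.mk0 _ haF := by
      apply Units.ext
      rw [Units.val_mul, Units.val_mk0, Units.val_mk0, ← hab, div_mul_cancel₀ _ hbF]
    have h := congrArg (ordAt v) hmul
    rw [ordAt_mul, ordAt_of_integer v hb0 _ (Units.val_mk0 _),
      ordAt_of_integer v ha0 _ (Units.val_mk0 _)] at h
    linarith
  have hprod : ∏ v ∈ s, χ (helper1934.primeClass v) ^ (ordAt v x) = 1 := by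
    have e : ∀ v ∈ s, χ (helper1934.primeClass v) ^ (ordAt v x) =
        χ (helper1934.primeClass v) ^ cnt v (Ideal.span {b}) /
          χ (helper1934.primeClass v) ^ cnt v (Ideal.span {a}) := by
      intro v _
      rw [hord v, zpow_sub, zpow_natCast, zpow_natCast, div_eq_mul_inv]
    rw [Finset.prod_congr rfl e, Finset.prod_div_distrib, hPa, hPb, div_one]
  have hsingle : ∏ v ∈ s, χ (helper1934.primeClass v) ^ (ordAt v x) =
      χ (helper1934.primeClass v₁) ^ (ordAt v₁ x) := by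
    refine Finset.prod_eq_single v₁ (fun v _ hv => ?_) (fun h => ?_)
    · rcases h2 v hv with ⟨m, hm⟩ | h
      · rw [hm, zpow_mul, zpow_natCast, pow_card_eq_one_aux, one_zpow]
      · rw [h, one_zpow]
    · exact absurd (Finset.mem_insert_self _ _) h
  rw [hsingle] at hprod
  have hd1 : (orderOf (χ (helper1934.primeClass v₁)) : ℤ) ∣ ordAt v₁ x :=
    orderOf_dvd_iff_zpow_eq_one.mpr hprod
  have hd2 : orderOf (χ (helper1934.primeClass v₁)) ∣ p :=
    orderOf_dvd_of_pow_eq_one (pow_card_eq_one_aux _)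
  rcases (Nat.dvd_prime hp).mp hd2 with h | h
  · exact orderOf_eq_one_iff.mp h
  · rw [h] at hd1
    exact absurd hd1 h1

/-- A character of the class group which is trivial on all prime classes is trivial. -/
theorem char_eq_one_of_primes {A : Type*} [CommMonoid A] (χ : ClassGroup (𝓞 F) →* A)
    (h : ∀ v : HeightOneSpectrum (𝓞 F), χ (helper1934.primeClass v) = 1) : χ = 1 := by
  ext c
  obtain ⟨I, rfl⟩ := ClassGroup.mk0_surjective c
  obtain ⟨s, -, hs⟩ := exists_finset_factorization (I : Ideal (𝓞 F)) (nonZeroDivisors.coe_ne_zero I)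
  rw [char_mk0_eq_prod χ I s _ hs]
  simp [h]

/-- An element with a simple zero at `v₁ ∈ S` and no zero or pole at the other places of `S`. -/
theorem exists_uniformizer_away (S : Finset (HeightOneSpectrum (𝓞 F)))
    (v₁ : HeightOneSpectrum (𝓞 F)) (hv₁ : v₁ ∈ S) :
    ∃ z : Fˣ, ordAt v₁ z = -1 ∧ ∀ u ∈ S, u ≠ v₁ → ordAt u z = 0 := by
  classical
  obtain ⟨π, hπ⟩ := v₁.intValuation_exists_uniformizer
  obtain ⟨y, hy⟩ := IsDedekindDomain.exists_forall_sub_mem_ideal (s := S)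
    (fun v : HeightOneSpectrum (𝓞 F) => v.asIdeal) (fun v => if v = v₁ then 2 else 1)
    (fun v _ => v.prime) (fun v _ w _ hvw h => hvw (HeightOneSpectrum.ext h))
    (fun v => if (v : HeightOneSpectrum (𝓞 F)) = v₁ then π else 1)
  have h1 : v₁.intValuation y = WithZero.exp (-1 : ℤ) := by
    have h := hy v₁ hv₁
    simp only [if_true] at h
    have h' : v₁.intValuation (y - π) ≤ WithZero.exp (-((2 : ℕ) : ℤ)) :=
      (v₁.intValuation_le_pow_iff_mem _ _).mpr h
    have hlt : v₁.intValuation (y - π) < v₁.intValuation π := by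
      rw [hπ]
      refine lt_of_le_of_lt h' ?_
      rw [WithZero.exp_lt_exp]
      norm_num
    have e : y = (y - π) + π := by ring
    rw [e, Valuation.map_add_eq_of_lt_right _ hlt, hπ]
  have hy0 : y ≠ 0 := by
    rintro rfl
    rw [Valuation.map_zero] at h1
    exact WithZero.exp_ne_zero h1.symm
  have hyF : (algebraMap (𝓞 F) F y) ≠ 0 := by
    simpa using hy0
  refine ⟨Units.mk0 _ hyF, ?_, ?_⟩
  · unfold ordAt
    rw [Units.val_mk0, HeightOneSpectrum.valuation_of_algebraMap, h1, WithZero.log_exp]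
  · intro u hu hne
    rw [ordAt_eq_zero_iff, Units.val_mk0, HeightOneSpectrum.valuation_eq_one_iff_notMem]
    intro hmem
    have h := hy u hu
    simp only [hne, if_false, pow_one] at h
    have : (1 : 𝓞 F) ∈ u.asIdeal := by
      have e : (1 : 𝓞 F) = y - (y - 1) := by ring
      rw [e]
      exact Ideal.sub_mem _ hmem h
    exact u.isPrime.ne_top ((Ideal.eq_top_iff_one _).mpr this)

/-! ## The generation theorem and `Stmt_NoChar` -/

open Classical in
/-- **Generation theorem** (team chat #73, (G3)).  Let `S` contain the places over `p` and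
generate the class group, and let `T` be an auxiliary set with `#T = s`.  A character of the class
group with values in `ℤ/p` which is trivial on the primes of `T` is trivial. -/
theorem char_eq_one_of_auxSet {p : ℕ} (hp : p.Prime) (hM5 : Stmt_M5 F p)
    (hLI : Stmt_LocIndex F p) (hSU : Stmt_SUnitCount F p) (hTC : Stmt_TotComplex F)
    {S T : Finset (HeightOneSpectrum (𝓞 F))} {E : Fˣ}
    (hSp : ∀ v : HeightOneSpectrum (𝓞 F), (p : 𝓞 F) ∈ v.asIdeal → v ∈ S) (hCG : ClassGen S)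
    (hT : AuxSet p S E T) (hcard : T.card = NumberField.Units.rank F + S.card + 1)
    (χ : ClassGroup (𝓞 F) →* Multiplicative (ZMod p))
    (hχT : ∀ w ∈ T, χ (helper1934.primeClass w) = 1) : χ = 1 := by
  have htop := sup_eq_top hp hM5 hLI hSU hTC hSp hCG hT hcard
  have hsplit : ∀ z : Fˣ, ∃ g ∈ locPowS p S, ∃ y ∈ SUnits F (S ∪ T), g * y = z := by
    intro z
    have hz : z ∈ locPowS p S ⊔ SUnits F (S ∪ T) := by
      rw [htop]
      exact Subgroup.mem_top z
    exact Subgroup.mem_sup.mp hz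
  apply char_eq_one_of_primes
  intro v₁
  by_cases hvT : v₁ ∈ T
  · exact hχT v₁ hvT
  by_cases hvS : v₁ ∈ S
  · obtain ⟨z, hz1, hz2⟩ := exists_uniformizer_away S v₁ hvS
    obtain ⟨g, hg, y, hy, hgy⟩ := hsplit z
    have hgS : ∀ v ∈ S, (p : ℤ) ∣ ordAt v g := fun v hv =>
      dvd_ordAt_of_locPow ((mem_locPowS.mp hg) v hv)
    have hord : ∀ v, ordAt v y = ordAt v z - ordAt v g := by
      intro v
      rw [← hgy, ordAt_mul]
      ring
    apply char_eq_one_of_ord hp χ y v₁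
    · rw [hord, hz1]
      intro hdvd
      have h1 : (p : ℤ) ∣ 1 := by
        have h2 := dvd_add hdvd (hgS v₁ hvS)
        have e : (-1 - ordAt v₁ g) + ordAt v₁ g = -1 := by ring
        rw [e] at h2
        exact (dvd_neg).mp h2
      have h3 : (p : ℤ) = 1 := Int.eq_one_of_dvd_one (Int.natCast_nonneg p) h1
      have h4 : p = 1 := by exact_mod_cast h3
      exact hp.one_lt.ne' h4
    · intro v hv
      by_cases hvT' : v ∈ T
      · exact Or.inr (hχT v hvT')
      left
      by_cases hvS' : v ∈ S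
      · rw [hord, hz2 v hvS' hv, zero_sub]
        exact (dvd_neg).mpr (hgS v hvS')
      · have hvST : v ∉ S ∪ T := fun h => (Finset.mem_union.mp h).elim hvS' hvT'
        rw [(helper2613.mem_SUnits_iff_ordAt.mp hy) v hvST]
        exact dvd_zero _
  · obtain ⟨z, hz1, hz2⟩ := hCG v₁ hvS
    obtain ⟨g, hg, y, hy, hgy⟩ := hsplit z
    have hgS : ∀ v ∈ S, (p : ℤ) ∣ ordAt v g := fun v hv =>
      dvd_ordAt_of_locPow ((mem_locPowS.mp hg) v hv)
    have hord : ∀ v, ordAt v g = ordAt v z - ordAt v y := by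
      intro v
      rw [← hgy, ordAt_mul]
      ring
    have hv₁ST : v₁ ∉ S ∪ T := fun h => (Finset.mem_union.mp h).elim hvS hvT
    apply char_eq_one_of_ord hp χ g v₁
    · have h1 : ordAt v₁ z = -1 := by
        unfold ordAt
        rw [hz1, WithZero.log_exp]
      rw [hord, h1, (helper2613.mem_SUnits_iff_ordAt.mp hy) v₁ hv₁ST, sub_zero]
      intro hdvd
      have h3 : (p : ℤ) = 1 := Int.eq_one_of_dvd_one (Int.natCast_nonneg p) ((dvd_neg).mp hdvd)
      have h4 : p = 1 := by exact_mod_cast h3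
      exact hp.one_lt.ne' h4
    · intro v hv
      by_cases hvT' : v ∈ T
      · exact Or.inr (hχT v hvT')
      left
      by_cases hvS' : v ∈ S
      · exact hgS v hvS'
      · have hvST : v ∉ S ∪ T := fun h => (Finset.mem_union.mp h).elim hvS' hvT'
        have h1 : ordAt v z = 0 := (ordAt_eq_zero_iff v z).mpr (hz2 v hvS' hv)
        rw [hord, h1, (helper2613.mem_SUnits_iff_ordAt.mp hy) v hvST, sub_zero]
        exact dvd_zero _

/-- **Board row 540.**  An analytic-free proof of `Stmt_NoChar p` from the leaves of the Tate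
count for the cyclotomic field, weak Chebotarev for Kummer extensions and Thaine's relation. -/
theorem noChar_of_gen (p : ℕ) [Fact p.Prime]
    (hM5 : ∀ (K : Type) [Field K] [NumberField K] [IsCyclotomicExtension {p} ℚ K],
      helper1892.Stmt_M5 K p)
    (hLI : ∀ (K : Type) [Field K] [NumberField K] [IsCyclotomicExtension {p} ℚ K],
      helper1892.Stmt_LocIndex K p)
    (hSU : ∀ (K : Type) [Field K] [NumberField K] [IsCyclotomicExtension {p} ℚ K],
      helper1892.Stmt_SUnitCount K p)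
    (hTC : ∀ (K : Type) [Field K] [NumberField K] [IsCyclotomicExtension {p} ℚ K],
      helper1892.Stmt_TotComplex K)
    (hCG : ∀ (K : Type) [Field K] [NumberField K] [IsCyclotomicExtension {p} ℚ K],
      helper1892.Stmt_ClassGen K)
    (hLC : ∀ (K : Type) [Field K] [NumberField K] [IsCyclotomicExtension {p} ℚ K],
      helper1892.Stmt_LocalCyclic K p)
    (hWC : helper14.Stmt_WCKummer p)
    (hT : helper1934.Stmt_ThaineChar p) (hL : helper1934.Stmt_Local p)
    (hE : helper1934.Stmt_E2 p) :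
    helper1934.Stmt_NoChar p := by
  intro K _ _ _ ζ hζ h5 χ hχ
  have hp : p.Prime := Fact.out
  have hζK : IsPrimitiveRoot (ζ : K) p := hζ.map_of_injective RingOfIntegers.coe_injective
  obtain ⟨e, he, -⟩ := hE K ζ hζ h5
  set E : Kˣ := Units.map (algebraMap (𝓞 K) K : 𝓞 K →* K) e with hEdef
  have hEval : (E : K) = algebraMap (𝓞 K) K (helper1934.E2 p ζ) := by
    rw [← he]
    rfl
  have hprime : Prime (ζ - 1) := hζK.zeta_sub_one_prime'
  have h1π : (1 : 𝓞 K) ∉ Ideal.span {1 - ζ} := by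
    intro h1
    rw [← neg_sub ζ 1, Ideal.span_singleton_neg, Ideal.mem_span_singleton] at h1
    exact hprime.not_isUnit (isUnit_of_dvd_one h1)
  -- `E2` is not a `p`-th power
  have hEnp : ¬ ∃ y : Kˣ, E = y ^ p := by
    rintro ⟨y, hy⟩
    have hval : (y : K) ^ p = algebraMap (𝓞 K) K (helper1934.E2 p ζ) := by
      rw [← hEval, hy, Units.val_pow_eq_pow_val]
    have hint : IsIntegral ℤ ((y : K) ^ p) := by
      rw [hval]
      exact RingOfIntegers.isIntegral_coe _
    have hyint : IsIntegral ℤ (y : K) := IsIntegral.of_pow hp.pos hint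
    let y₀ : 𝓞 K := ⟨(y : K), hyint⟩
    have hy₀p : y₀ ^ p = helper1934.E2 p ζ := by
      apply RingOfIntegers.coe_injective
      rw [← hval]
      rfl
    have hmem : ζ ^ 0 * helper1934.E2 p ζ ^ 1 * (1 : 𝓞 K) ^ p - y₀ ^ p ∈
        Ideal.span {(1 - ζ) ^ 3} := by
      rw [hy₀p]
      simp
    have := (hL K ζ hζ h5 0 1 1 y₀ h1π hmem).2
    exact hp.one_lt.ne' (Nat.dvd_one.mp this)
  -- the set `S`
  have hfinp : {v : HeightOneSpectrum (𝓞 K) | (p : 𝓞 K) ∈ v.asIdeal}.Finite := by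
    have hp0 : (Ideal.span {(p : 𝓞 K)} : Ideal (𝓞 K)) ≠ 0 := by
      simpa using hp.ne_zero
    refine (Ideal.finite_factors hp0).subset ?_
    intro v hv
    exact Ideal.dvd_span_singleton.mpr hv
  obtain ⟨S, hS₀, hCGS⟩ := hCG K hfinp.toFinset
  have hSp : ∀ v : HeightOneSpectrum (𝓞 K), (p : 𝓞 K) ∈ v.asIdeal → v ∈ S := fun v hv =>
    hS₀ (by simpa using hv)
  have hES : E ∈ SUnits K S := (helper2613.unitsToSUnits S e).2
  obtain ⟨T, hTc, hTaux⟩ := exists_auxSet hp hζK hWC (hLC K) S E hES hEnp (hSU K S) _ le_rfl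
  apply char_eq_one_of_auxSet hp (hM5 K) (hLI K) (hSU K) (hTC K) hSp hCGS hTaux hTc χ
  intro w hw
  by_contra hne
  obtain ⟨y, hy⟩ := hT K ζ hζ h5 χ hχ w (hTaux.normPrime w hw) (hTaux.notOver w hw) hne
  apply hTaux.nonres w hw
  have hEw : w.valuation K (E : K) = 1 := mem_SUnits.mp hES w (hTaux.disj w hw)
  have hE2w : helper1934.E2 p ζ ∉ w.asIdeal := by
    rw [hEval] at hEw
    exact (w.valuation_eq_one_iff_notMem (K := K)).mp hEw
  have hyw : y ∉ w.asIdeal := by
    intro hmem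
    apply hE2w
    have e1 : helper1934.E2 p ζ = (helper1934.E2 p ζ - y ^ p) + y ^ p := by ring
    rw [e1]
    exact Ideal.add_mem _ hy (Ideal.pow_mem_of_mem _ hmem p hp.pos)
  refine helper7212.locPowN_one_of_residue p w E (helper1934.E2 p ζ) y ?_ hyw hy
  rw [hEval, sub_self, Valuation.map_zero]
  exact zero_lt_one

end

end Fermat.Agent.S14.helper2936
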