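import Mathlib

/-!
# Herbrand quotient for a cyclic group of prime order (S14 moonshot, module M4, layer A)

Pure algebra, no number fields, Mathlib only.

`M` is an abelian group, `f g : M →+ M` are endomorphisms with `f ∘ g = 0 = g ∘ f` (in the
application `f = s - 1`, `g = 1 + s + ... + s^(p-1)` for an automorphism `s` with `s^p = 1`).
For a subgroup `L` stable under `f` and `g` we put `hIdx f g L = [L ∩ ker f : g L]`
(an index, `0` when infinite).

Main results:

* `hIdx_finite_index` : invariance of the Herbrand quotient under passing to a finite-index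
  stable subgroup (stated multiplicatively, no division), with transfer of finiteness.
* `herbrand_main` / `herbrand_main'` : for a finitely generated abelian group `M` and
  `s ^ p = 1` (`p` prime), with `D = s - 1`, `N = 1 + s + ... + s^(p-1)`:
  `[ker D : N M]` and `[ker N : D M]` are finite (nonzero as indices) and
  `[ker D : N M] * p ^ b = [ker N : D M] * p ^ a`, where `a = rank (ker D)` and
  `rank M = a + (p - 1) * b`.
* auxiliary: `relIndex_eq_map_mul_ker` (`[B : A] = [f B : f A] * [B ∩ ker f : A ∩ ker f]`),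
  `finrank_eq_of_nsmul_mem`, `finrank_range_add_finrank_ker`, `index_range_nsmul`
  (`[A : nA] = n ^ rank A` for torsion-free finitely generated `A`), `relIndex_map_pow`.
-/

set_option autoImplicit false

namespace Fermat.Agent.S14.helper3127

open AddSubgroup

variable {M : Type*} [AddCommGroup M]

/-- `[B : A] = [B + K : A + K] * [B ∩ K : A ∩ K]` for `A ≤ B`. -/
theorem relIndex_eq_sup_mul_inf (A B K : AddSubgroup M) (hAB : A ≤ B) :
    A.relIndex B = (A ⊔ K).relIndex (B ⊔ K) * (A ⊓ K).relIndex (B ⊓ K) := by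
  have h1 : A ≤ B ⊓ (A ⊔ K) := le_inf hAB le_sup_left
  have h2 : B ⊓ (A ⊔ K) ≤ B := inf_le_left
  rw [← relIndex_mul_relIndex A (B ⊓ (A ⊔ K)) B h1 h2]
  have e1 : (B ⊓ (A ⊔ K)).relIndex B = (A ⊔ K).relIndex (B ⊔ K) := by
    rw [inf_comm, inf_relIndex_right]
    have : B ⊔ K = B ⊔ (A ⊔ K) := by
      rw [← sup_assoc, sup_eq_left.mpr hAB]
    rw [this, relIndex_sup_right]
  have e2 : A.relIndex (B ⊓ (A ⊔ K)) = (A ⊓ K).relIndex (B ⊓ K) := by
    have hmod : B ⊓ (A ⊔ K) = A ⊔ (B ⊓ K) := by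
      rw [inf_comm, sup_inf_assoc_of_le K hAB, inf_comm]
    rw [hmod, relIndex_sup_left]
    have : A ⊓ K = A ⊓ (B ⊓ K) := by
      rw [← inf_assoc, inf_eq_left.mpr hAB]
    rw [this, inf_relIndex_right]
  rw [e1, e2, mul_comm]

/-- `[B : A] = [f B : f A] * [B ∩ ker f : A ∩ ker f]` for `A ≤ B`. -/
theorem relIndex_eq_map_mul_ker (f : M →+ M) (A B : AddSubgroup M) (hAB : A ≤ B) :
    A.relIndex B = (A.map f).relIndex (B.map f) * (A ⊓ f.ker).relIndex (B ⊓ f.ker) := by
  rw [relIndex_map_map]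
  exact relIndex_eq_sup_mul_inf A B f.ker hAB

/-- `hIdx f g L = [L ∩ ker f : g L]` (zero if infinite). -/
noncomputable def hIdx (f g : M →+ M) (L : AddSubgroup M) : ℕ :=
  (L.map g).relIndex (L ⊓ f.ker)

theorem map_le_inf_ker {f g : M →+ M} (hfg : f.comp g = 0) {L : AddSubgroup M}
    (hL : L.map g ≤ L) : L.map g ≤ L ⊓ f.ker := by
  refine le_inf hL ?_
  rintro _ ⟨x, -, rfl⟩
  rw [AddMonoidHom.mem_ker]
  exact DFunLike.congr_fun hfg x

/-- Key chain identity: `[g B : g A] * [B_f : g B] = [A_f : g A] * [B_f : A_f]`. -/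
theorem chain_identity {f g : M →+ M} (hfg : f.comp g = 0) {A B : AddSubgroup M} (hAB : A ≤ B)
    (hAg : A.map g ≤ A) (hBg : B.map g ≤ B) :
    (A.map g).relIndex (B.map g) * hIdx f g B = hIdx f g A * (A ⊓ f.ker).relIndex (B ⊓ f.ker) := by
  unfold hIdx
  have h1 : A.map g ≤ B.map g := AddSubgroup.map_mono hAB
  have h2 : B.map g ≤ B ⊓ f.ker := map_le_inf_ker hfg hBg
  have h3 : A.map g ≤ A ⊓ f.ker := map_le_inf_ker hfg hAg
  have h4 : A ⊓ f.ker ≤ B ⊓ f.ker := inf_le_inf_right _ hAB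
  rw [relIndex_mul_relIndex _ _ _ h1 h2, relIndex_mul_relIndex _ _ _ h3 h4]

/-- Invariance of the Herbrand quotient under finite-index stable subgroups, multiplicative form,
together with transfer of finiteness in both directions. -/
theorem hIdx_finite_index {f g : M →+ M} (hfg : f.comp g = 0) (hgf : g.comp f = 0)
    {A B : AddSubgroup M} (hAB : A ≤ B) (hfin : A.relIndex B ≠ 0)
    (hAf : A.map f ≤ A) (hAg : A.map g ≤ A) (hBf : B.map f ≤ B) (hBg : B.map g ≤ B) :
    hIdx f g B * hIdx g f A = hIdx g f B * hIdx f g A ∧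
      (hIdx f g A ≠ 0 ↔ hIdx f g B ≠ 0) ∧ (hIdx g f A ≠ 0 ↔ hIdx g f B ≠ 0) := by
  have Ef := relIndex_eq_map_mul_ker f A B hAB
  have Eg := relIndex_eq_map_mul_ker g A B hAB
  have I := chain_identity hfg hAB hAg hBg
  have II := chain_identity hgf hAB hAf hBf
  set α := (A.map g).relIndex (B.map g)
  set β := (A ⊓ f.ker).relIndex (B ⊓ f.ker)
  set γ := (A.map f).relIndex (B.map f)
  set δ := (A ⊓ g.ker).relIndex (B ⊓ g.ker)
  set n := A.relIndex B
  have hα : α ≠ 0 := fun h => hfin (by rw [Eg, h, zero_mul])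
  have hδ : δ ≠ 0 := fun h => hfin (by rw [Eg, h, mul_zero])
  have hγ : γ ≠ 0 := fun h => hfin (by rw [Ef, h, zero_mul])
  have hβ : β ≠ 0 := fun h => hfin (by rw [Ef, h, mul_zero])
  refine ⟨?_, ?_, ?_⟩
  · have hn : n ≠ 0 := hfin
    apply Nat.eq_of_mul_eq_mul_left (Nat.pos_of_ne_zero hn)
    calc n * (hIdx f g B * hIdx g f A)
        = (α * hIdx f g B) * (hIdx g f A * δ) := by rw [Eg]; ring
      _ = (hIdx f g A * β) * (γ * hIdx g f B) := by rw [I, II]
      _ = n * (hIdx g f B * hIdx f g A) := by rw [Ef]; ring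
  · constructor
    · intro h hB
      have : hIdx f g A * β = 0 := by rw [← I, hB, mul_zero]
      exact (mul_ne_zero h hβ) this
    · intro h hA
      have : α * hIdx f g B = 0 := by rw [I, hA, zero_mul]
      exact (mul_ne_zero hα h) this
  · constructor
    · intro h hB
      have : hIdx g f A * δ = 0 := by rw [← II, hB, mul_zero]
      exact (mul_ne_zero h hδ) this
    · intro h hA
      have : γ * hIdx g f B = 0 := by rw [II, hA, zero_mul]
      exact (mul_ne_zero hγ h) this

theorem hIdx_top (f g : M →+ M) : hIdx f g ⊤ = g.range.relIndex f.ker := by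
  unfold hIdx
  rw [← AddMonoidHom.range_eq_map, top_inf_eq]

/-! ### Ranks of subgroups of finitely generated abelian groups -/

theorem moduleFinite_addSubgroup [Module.Finite ℤ M] (A : AddSubgroup M) : Module.Finite ℤ ↥A :=
  inferInstanceAs (Module.Finite ℤ ↥(AddSubgroup.toIntSubmodule A))

/-- If `A ≤ C` and `k • C ≤ A` for some `k ≠ 0` then `A` and `C` have the same rank. -/
theorem finrank_eq_of_nsmul_mem [Module.Finite ℤ M] (A C : AddSubgroup M) (hAC : A ≤ C) (k : ℕ)
    (hk : k ≠ 0) (h : ∀ x ∈ C, k • x ∈ A) : Module.finrank ℤ ↥A = Module.finrank ℤ ↥C := by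
  have := moduleFinite_addSubgroup A
  have := moduleFinite_addSubgroup C
  apply le_antisymm
  · exact LinearMap.finrank_le_finrank_of_injective (f := (AddSubgroup.inclusion hAC).toIntLinearMap)
      (AddSubgroup.inclusion_injective hAC)
  · let j : ↥C →+ ↥A :=
      { toFun := fun x => ⟨k • (x : M), h x x.2⟩
        map_zero' := by simp
        map_add' := fun x y => by ext; simp [smul_add] }
    let jl : ↥C →ₗ[ℤ] ↥A := j.toIntLinearMap
    have hker : Module.finrank ℤ ↥(LinearMap.ker jl) = 0 := by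
      rw [Module.finrank_eq_zero_iff]
      intro x
      refine ⟨(k : ℤ), by exact_mod_cast hk, ?_⟩
      have hx : jl x.1 = 0 := x.2
      have hx' : k • ((x.1 : ↥C) : M) = 0 := congrArg Subtype.val hx
      ext
      simp only [Submodule.coe_smul, ZeroMemClass.coe_zero, AddSubgroup.coe_zsmul]
      rw [natCast_zsmul]; exact hx'
    have h1 := Submodule.finrank_quotient_add_finrank (LinearMap.ker jl)
    have h2 := (LinearMap.quotKerEquivRange jl).finrank_eq
    have h3 := Submodule.finrank_le (LinearMap.range jl)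
    omega

/-- Rank–nullity for an additive endomorphism of a finitely generated abelian group. -/
theorem finrank_range_add_finrank_ker [Module.Finite ℤ M] (D : M →+ M) :
    Module.finrank ℤ ↥D.range + Module.finrank ℤ ↥D.ker = Module.finrank ℤ M := by
  have h1 := Submodule.finrank_quotient_add_finrank (LinearMap.ker D.toIntLinearMap)
  have h2 := (LinearMap.quotKerEquivRange D.toIntLinearMap).finrank_eq
  have e1 : Module.finrank ℤ ↥D.range = Module.finrank ℤ ↥(LinearMap.range D.toIntLinearMap) := rfl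
  have e2 : Module.finrank ℤ ↥D.ker = Module.finrank ℤ ↥(LinearMap.ker D.toIntLinearMap) := rfl
  omega

/-- For a torsion-free finitely generated abelian group, `[A : nA] = n ^ rank A`. -/
theorem index_range_nsmul (A : Type*) [AddCommGroup A] [Module.Finite ℤ A]
    (htf : ∀ (k : ℕ) (x : A), k ≠ 0 → k • x = 0 → x = 0) (n : ℕ) (hn : n ≠ 0) :
    (nsmulAddMonoidHom (α := A) n).range.index = n ^ Module.finrank ℤ A := by
  have : Module.IsTorsionFree ℤ A := by
    refine Module.IsTorsionFree.of_smul_eq_zero fun r m h => ?_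
    by_cases hr : r = 0
    · exact Or.inl hr
    · right
      refine htf r.natAbs m (by simpa using hr) ?_
      rcases Int.natAbs_eq r with h' | h'
      · rw [h'] at h; simpa using h
      · rw [h'] at h; simpa using h
  have : Module.Free ℤ A := Module.free_of_finite_type_torsion_free'
  let ι := Module.Free.ChooseBasisIndex ℤ A
  let b : Module.Basis ι ℤ A := Module.Free.chooseBasis ℤ A
  have : NeZero n := ⟨hn⟩
  let ψ : A →+ (ι → ZMod n) :=
    { toFun := fun x i => ((b.repr x i : ℤ) : ZMod n)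
      map_zero' := by ext i; simp
      map_add' := fun x y => by ext i; simp }
  have hψ : ∀ x i, ψ x i = ((b.repr x i : ℤ) : ZMod n) := fun _ _ => rfl
  have hsurj : Function.Surjective ψ := by
    intro v
    refine ⟨b.equivFun.symm (fun i => ((v i).val : ℤ)), ?_⟩
    ext i
    rw [hψ, ← Module.Basis.equivFun_apply, LinearEquiv.apply_symm_apply]
    simp
  have hker : ψ.ker = (nsmulAddMonoidHom (α := A) n).range := by
    ext x
    rw [AddMonoidHom.mem_ker, AddMonoidHom.mem_range]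
    constructor
    · intro hx
      have hdvd : ∀ i, (n : ℤ) ∣ b.repr x i := by
        intro i
        have := congrFun hx i
        rw [hψ] at this
        exact (ZMod.intCast_zmod_eq_zero_iff_dvd _ _).mp this
      refine ⟨b.equivFun.symm (fun i => b.repr x i / n), ?_⟩
      apply b.equivFun.injective
      rw [nsmulAddMonoidHom_apply, map_nsmul, LinearEquiv.apply_symm_apply]
      ext i
      simp only [Pi.smul_apply, nsmul_eq_mul, Module.Basis.equivFun_apply]
      exact Int.mul_ediv_cancel' (hdvd i)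
    · rintro ⟨y, rfl⟩
      ext i
      rw [hψ, nsmulAddMonoidHom_apply, map_nsmul]
      simp
  rw [← hker, AddSubgroup.index_ker, AddMonoidHom.range_eq_top.mpr hsurj]
  rw [Nat.card_congr (AddSubgroup.topEquiv (G := ι → ZMod n)).toEquiv, Nat.card_fun, Nat.card_zmod,
    Module.finrank_eq_card_chooseBasisIndex, Nat.card_eq_fintype_card]

/-- Relative version: for a torsion-free subgroup `A` of a finitely generated abelian group,
`[A : nA] = n ^ rank A`. -/
theorem relIndex_map_nsmul [Module.Finite ℤ M] (A : AddSubgroup M)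
    (htf : ∀ (k : ℕ), k ≠ 0 → ∀ x ∈ A, k • x = 0 → x = 0) (n : ℕ) (hn : n ≠ 0) :
    (A.map (nsmulAddMonoidHom n)).relIndex A = n ^ Module.finrank ℤ ↥A := by
  have := moduleFinite_addSubgroup A
  have key := index_range_nsmul ↥A
    (fun k x hk hx => Subtype.ext (htf k hk x.1 x.2 (by simpa using congrArg Subtype.val hx))) n hn
  rw [← key, AddSubgroup.relIndex]
  congr 1
  ext x
  rw [AddSubgroup.mem_addSubgroupOf, AddSubgroup.mem_map, AddMonoidHom.mem_range]
  constructor
  · rintro ⟨y, hy, hyx⟩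
    exact ⟨⟨y, hy⟩, Subtype.ext (by simpa using hyx)⟩
  · rintro ⟨y, rfl⟩
    exact ⟨y.1, y.2, by simp⟩

/-! ### Polynomial identities for the norm polynomial `1 + X + ... + X^(p-1)` -/

section Poly

open Polynomial

theorem poly_sub_one_mul_geom (p : ℕ) :
    ((X : ℤ[X]) - 1) * (∑ i ∈ Finset.range p, (X : ℤ[X]) ^ i) = X ^ p - 1 :=
  mul_geom_sum X p

theorem poly_E1 (p : ℕ) : ∃ W : ℤ[X],
    (C (p : ℤ) : ℤ[X]) = (∑ i ∈ Finset.range p, (X : ℤ[X]) ^ i) + (X - 1) * W := by
  have h : ((X : ℤ[X]) - C 1) ∣ C (p : ℤ) - ∑ i ∈ Finset.range p, (X : ℤ[X]) ^ i := by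
    rw [Polynomial.dvd_iff_isRoot]
    simp [Polynomial.eval_finsetSum]
  obtain ⟨W, hW⟩ := h
  refine ⟨W, ?_⟩
  rw [map_one] at hW
  linear_combination hW

theorem poly_E2 (p : ℕ) (hp : p.Prime) : ∃ h : ℤ[X],
    (∑ i ∈ Finset.range p, (X : ℤ[X]) ^ i) = (X - 1) ^ (p - 1) + C (p : ℤ) * (1 + (X - 1) * h) := by
  obtain ⟨r, hr⟩ := exists_add_pow_prime_eq hp ((X : ℤ[X]) - 1) 1
  have hY : ((X : ℤ[X]) - 1) ≠ 0 := by
    have := X_sub_C_ne_zero (1 : ℤ)
    simpa using this
  have h1 : (∑ i ∈ Finset.range p, (X : ℤ[X]) ^ i) = (X - 1) ^ (p - 1) + C (p : ℤ) * r := by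
    apply mul_left_cancel₀ hY
    rw [mul_geom_sum]
    have hpp : p = (p - 1) + 1 := (Nat.succ_pred_eq_of_pos hp.pos).symm
    have : (X : ℤ[X]) ^ p = ((X - 1) + 1) ^ p := by ring
    rw [this, hr]
    have e : ((X : ℤ[X]) - 1) ^ p = (X - 1) * (X - 1) ^ (p - 1) := by
      conv_lhs => rw [hpp, pow_succ']
    rw [e]
    simp only [one_pow, mul_one]
    have : ((p : ℕ) : ℤ[X]) = C (p : ℤ) := by simp
    rw [this]; ring
  have h2 : r.eval 1 = 1 := by
    have := congrArg (Polynomial.eval 1) h1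
    simp [Polynomial.eval_finsetSum] at this
    have hp1 : p - 1 ≠ 0 := by have := hp.two_le; omega
    rw [zero_pow hp1, zero_add] at this
    have hp0 : (p : ℤ) ≠ 0 := by exact_mod_cast hp.ne_zero
    have h3 : (p : ℤ) * 1 = p * r.eval 1 := by linarith
    exact (mul_left_cancel₀ hp0 h3).symm
  have h3 : ((X : ℤ[X]) - C 1) ∣ r - 1 := by
    rw [Polynomial.dvd_iff_isRoot]
    simp [h2]
  obtain ⟨h, hh⟩ := h3
  refine ⟨h, ?_⟩
  rw [map_one] at hh
  rw [h1]
  have : r = 1 + (X - 1) * h := by linear_combination hh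
  rw [this]

/-- A subgroup stable under `s` is stable under every integer polynomial in `s`. -/
theorem aeval_apply_mem (s : AddMonoid.End M) (S : AddSubgroup M) (hS : ∀ x ∈ S, s x ∈ S)
    (q : ℤ[X]) : ∀ x ∈ S, (aeval s q) x ∈ S := by
  induction q using Polynomial.induction_on with
  | C a =>
    intro x hx
    rw [aeval_C]
    have : (algebraMap ℤ (AddMonoid.End M) a) x = a • x := by
      rw [eq_intCast]; simp
    rw [this]
    exact S.zsmul_mem hx a
  | add q₁ q₂ h₁ h₂ =>
    intro x hx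
    rw [map_add]
    exact S.add_mem (h₁ x hx) (h₂ x hx)
  | monomial n a ih =>
    intro x hx
    rw [pow_succ, ← mul_assoc, map_mul, aeval_X]
    exact ih (s x) (hS x hx)

end Poly

/-! ### The chain `B ⊇ D B ⊇ D² B ⊇ ...` for an endomorphism injective on `B` -/

/-- View an element of the endomorphism ring as an additive homomorphism. -/
abbrev toHom (e : AddMonoid.End M) : M →+ M := e

@[simp] theorem toHom_apply (e : AddMonoid.End M) (x : M) : toHom e x = e x := rfl

section Chain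

variable (D : AddMonoid.End M) (B : AddSubgroup M)

theorem pow_apply_eq_zero (hB : ∀ x ∈ B, D x ∈ B) (hinj : ∀ x ∈ B, D x = 0 → x = 0) (k : ℕ) :
    ∀ x ∈ B, (D ^ k) x = 0 → x = 0 := by
  induction k with
  | zero => intro x _ hx; simpa using hx
  | succ k ih =>
    intro x hx h
    rw [pow_succ] at h
    exact hinj x hx (ih (D x) (hB x hx) h)

theorem pow_apply_mem (hB : ∀ x ∈ B, D x ∈ B) (k : ℕ) : ∀ x ∈ B, (D ^ k) x ∈ B := by
  induction k with
  | zero => intro x hx; simpa using hx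
  | succ k ih =>
    intro x hx
    rw [pow_succ]
    exact ih (D x) (hB x hx)

theorem map_pow_le (hB : ∀ x ∈ B, D x ∈ B) (k : ℕ) : B.map (toHom (D ^ k)) ≤ B := by
  rintro _ ⟨x, hx, rfl⟩
  exact pow_apply_mem D B hB k x hx

theorem map_pow_zero : B.map (toHom (D ^ 0)) = B := by
  ext x
  simp [AddSubgroup.mem_map]

theorem map_pow_succ (k : ℕ) :
    B.map (toHom (D ^ (k + 1))) = (B.map (toHom D)).map (toHom (D ^ k)) := by
  rw [AddSubgroup.map_map]
  rfl

theorem relIndex_map_pow (hB : ∀ x ∈ B, D x ∈ B) (hinj : ∀ x ∈ B, D x = 0 → x = 0) (k : ℕ) :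
    (B.map (toHom (D ^ k))).relIndex B = ((B.map (toHom D)).relIndex B) ^ k := by
  have hBD : B.map (toHom D) ≤ B := by
    rintro _ ⟨x, hx, rfl⟩; exact hB x hx
  induction k with
  | zero =>
    rw [map_pow_zero, relIndex_self, pow_zero]
  | succ k ih =>
    have hle1 : B.map (toHom (D ^ (k + 1))) ≤ B.map (toHom (D ^ k)) := by
      rw [map_pow_succ]; exact AddSubgroup.map_mono hBD
    have hle2 : B.map (toHom (D ^ k)) ≤ B := map_pow_le D B hB k
    have hbot : B ⊓ (toHom (D ^ k)).ker = ⊥ := by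
      rw [eq_bot_iff]
      rintro x ⟨hx, hxk⟩
      rw [AddSubgroup.mem_bot]
      exact pow_apply_eq_zero D B hB hinj k x hx hxk
    have hbot' : B.map (toHom D) ⊓ (toHom (D ^ k)).ker = ⊥ := by
      rw [eq_bot_iff, ← hbot]
      exact inf_le_inf_right _ hBD
    have key : (B.map (toHom (D ^ (k + 1)))).relIndex (B.map (toHom (D ^ k))) =
        (B.map (toHom D)).relIndex B := by
      rw [map_pow_succ, relIndex_map_map, relIndex_eq_sup_mul_inf (B.map (toHom D)) B
        (toHom (D ^ k)).ker hBD, hbot, hbot', relIndex_self, mul_one]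
    rw [← relIndex_mul_relIndex _ _ _ hle1 hle2, ih, key, pow_succ']

/-- If on `B` we have `D^m b + p • (b + D (H b)) = 0` with `H` preserving `B`, then
`D^m B = p B`. -/
theorem map_pow_eq_map_nsmul (hB : ∀ x ∈ B, D x ∈ B) (H : AddMonoid.End M)
    (hH : ∀ x ∈ B, H x ∈ B) (p m : ℕ)
    (hrel : ∀ x ∈ B, (D ^ m) x + p • (x + D (H x)) = 0) :
    B.map (toHom (D ^ m)) = B.map (nsmulAddMonoidHom p) := by
  apply le_antisymm
  · rintro _ ⟨x, hx, rfl⟩
    refine ⟨-(x + D (H x)), B.neg_mem (B.add_mem hx (hB _ (hH x hx))), ?_⟩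
    have := hrel x hx
    rw [nsmulAddMonoidHom_apply, smul_neg, toHom_apply]
    exact (eq_neg_of_add_eq_zero_left this).symm
  · -- `P ≤ D^m B + D^j P` for all `j`
    set P := B.map (nsmulAddMonoidHom p) with hP
    have hPB : P ≤ B := by
      rintro _ ⟨x, hx, rfl⟩
      exact B.nsmul_mem hx p
    have step : ∀ j : ℕ, P ≤ B.map (toHom (D ^ m)) ⊔ P.map (toHom (D ^ j)) := by
      intro j
      induction j with
      | zero =>
        rw [map_pow_zero]; exact le_sup_right
      | succ j ih =>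
        refine ih.trans (sup_le le_sup_left ?_)
        rintro _ ⟨_, ⟨b, hb, rfl⟩, rfl⟩
        -- element `D^j (p • b)`
        have h1 := hrel b hb
        have h2 : p • b = -((D ^ m) b) - D (p • H b) := by
          have : (D ^ m) b + (p • b + D (p • H b)) = 0 := by
            rw [map_nsmul]; rw [← smul_add]; exact h1
          rw [eq_sub_iff_add_eq, eq_neg_iff_add_eq_zero]
          rw [← this]; abel
        rw [nsmulAddMonoidHom_apply, h2, map_sub, map_neg]
        refine AddSubgroup.sub_mem _ (AddSubgroup.neg_mem _ ?_) ?_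
        · refine AddSubgroup.mem_sup_left ⟨(D ^ j) b, pow_apply_mem D B hB j b hb, ?_⟩
          show (D ^ m) ((D ^ j) b) = (D ^ j) ((D ^ m) b)
          have : D ^ m * D ^ j = D ^ j * D ^ m := (Commute.pow_pow (Commute.refl D) m j)
          exact DFunLike.congr_fun this b
        · refine AddSubgroup.mem_sup_right ⟨p • H b, ⟨H b, hH b hb, rfl⟩, ?_⟩
          show (D ^ (j + 1)) (p • H b) = (D ^ j) (D (p • H b))
          rw [pow_succ]; rfl
    refine (step m).trans (sup_le le_rfl ?_)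
    exact AddSubgroup.map_mono hPB

end Chain

/-! ### Finitely generated abelian groups: torsion-free sublattices of finite index -/

theorem index_range_nsmul_ne_zero [Module.Finite ℤ M] (k : ℕ) (hk : k ≠ 0) :
    (nsmulAddMonoidHom (α := M) k).range.index ≠ 0 := by
  set K := (nsmulAddMonoidHom (α := M) k).range
  have hfg : Module.Finite ℤ (M ⧸ K) :=
    Module.Finite.of_surjective (QuotientAddGroup.mk' K).toIntLinearMap
      (QuotientAddGroup.mk'_surjective K)
  have htors : Module.IsTorsion ℤ (M ⧸ K) := by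
    intro x
    obtain ⟨y, rfl⟩ := QuotientAddGroup.mk_surjective x
    refine ⟨⟨(k : ℤ), mem_nonZeroDivisors_of_ne_zero (by exact_mod_cast hk)⟩, ?_⟩
    show (k : ℤ) • (y : M ⧸ K) = 0
    rw [natCast_zsmul, ← QuotientAddGroup.mk_nsmul, QuotientAddGroup.eq_zero_iff]
    exact ⟨y, rfl⟩
  have : Finite (M ⧸ K) := Module.finite_of_fg_torsion _ htors
  exact AddSubgroup.index_ne_zero_of_finite

theorem exists_torsionFree_nsmul [Module.Finite ℤ M] :
    ∃ n : ℕ, n ≠ 0 ∧ ∀ (x : M) (k : ℕ), k ≠ 0 → k • (n • x) = 0 → n • x = 0 := by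
  have hfin : Finite ↥(Submodule.torsion ℤ M) :=
    Module.finite_of_fg_torsion _ (Submodule.torsion_isTorsion (R := ℤ) (M := M))
  refine ⟨Nat.card ↥(Submodule.torsion ℤ M), Nat.card_pos.ne', fun x k hk h => ?_⟩
  have hx : x ∈ Submodule.torsion ℤ M := by
    rw [Submodule.mem_torsion_iff]
    refine ⟨⟨((k * Nat.card ↥(Submodule.torsion ℤ M) : ℕ) : ℤ), mem_nonZeroDivisors_of_ne_zero
      (by exact_mod_cast Nat.mul_ne_zero hk Nat.card_pos.ne')⟩, ?_⟩
    show ((k * Nat.card ↥(Submodule.torsion ℤ M) : ℕ) : ℤ) • x = 0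
    rw [natCast_zsmul, mul_smul]; exact h
  have := card_nsmul_eq_zero' (G := ↥(Submodule.torsion ℤ M)) (x := ⟨x, hx⟩)
  exact congrArg Subtype.val this

/-! ### Operators attached to `s` with `s ^ p = 1` -/

section Operators

open Polynomial

variable (p : ℕ) (s : AddMonoid.End M)

theorem aeval_geom : aeval s (∑ i ∈ Finset.range p, (X : ℤ[X]) ^ i) = ∑ i ∈ Finset.range p, s ^ i := by
  simp [map_sum]

theorem aeval_X_sub_one : aeval s ((X : ℤ[X]) - 1) = s - 1 := by simp

theorem aeval_C_natCast_apply (x : M) : (aeval s (C (p : ℤ) : ℤ[X])) x = p • x := by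
  rw [aeval_C, eq_intCast]; simp

theorem exists_W : ∃ W : AddMonoid.End M,
    (∀ S : AddSubgroup M, (∀ x ∈ S, s x ∈ S) → ∀ x ∈ S, W x ∈ S) ∧
    (∀ x, p • x = (∑ i ∈ Finset.range p, s ^ i) x + (s - 1) (W x)) ∧
    (∀ x, p • x = (∑ i ∈ Finset.range p, s ^ i) x + W ((s - 1) x)) := by
  obtain ⟨W, hW⟩ := poly_E1 p
  refine ⟨aeval s W, fun S hS => aeval_apply_mem s S hS W, fun x => ?_, fun x => ?_⟩
  · have : (aeval s (C (p : ℤ) : ℤ[X])) x =
        (aeval s ((∑ i ∈ Finset.range p, (X : ℤ[X]) ^ i) + (X - 1) * W)) x := by rw [← hW]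
    rw [aeval_C_natCast_apply, map_add, map_mul, aeval_geom, aeval_X_sub_one] at this
    exact this
  · have hW' : (C (p : ℤ) : ℤ[X]) = (∑ i ∈ Finset.range p, (X : ℤ[X]) ^ i) + W * (X - 1) := by
      rw [hW]; ring
    have : (aeval s (C (p : ℤ) : ℤ[X])) x =
        (aeval s ((∑ i ∈ Finset.range p, (X : ℤ[X]) ^ i) + W * (X - 1))) x := by rw [← hW']
    rw [aeval_C_natCast_apply, map_add, map_mul, aeval_geom, aeval_X_sub_one] at this
    exact this

theorem exists_H (hp : p.Prime) : ∃ H : AddMonoid.End M,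
    (∀ S : AddSubgroup M, (∀ x ∈ S, s x ∈ S) → ∀ x ∈ S, H x ∈ S) ∧
    (∀ x, (∑ i ∈ Finset.range p, s ^ i) x =
      ((s - 1) ^ (p - 1)) x + p • (x + (s - 1) (H x))) := by
  obtain ⟨h, hh⟩ := poly_E2 p hp
  refine ⟨aeval s h, fun S hS => aeval_apply_mem s S hS h, fun x => ?_⟩
  have : (aeval s (∑ i ∈ Finset.range p, (X : ℤ[X]) ^ i)) x =
      (aeval s ((X - 1) ^ (p - 1) + C (p : ℤ) * (1 + (X - 1) * h))) x := by rw [← hh]
  rw [aeval_geom, map_add, map_pow, aeval_X_sub_one, map_mul, map_add, map_one, map_mul,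
    aeval_X_sub_one] at this
  rw [this]
  show ((s - 1) ^ (p - 1)) x + (aeval s (C (p : ℤ))) ((1 + (s - 1) * aeval s h) x) = _
  rw [aeval_C_natCast_apply]
  rfl

end Operators

/-! ### The main theorem -/

/-- **Herbrand quotient of a finitely generated module over a cyclic group of prime order.**
`M` a finitely generated abelian group, `s` an endomorphism with `s ^ p = 1`, `D = s - 1`,
`N = 1 + s + ... + s^(p-1)`.  Then `[ker D : N M]` and `[ker N : D M]` are finite and
`[ker D : N M] * p ^ b = [ker N : D M] * p ^ a`, where `a = rank (ker D)` and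
`rank M = a + (p - 1) * b`. -/
theorem herbrand_main [Module.Finite ℤ M] {p : ℕ} (hp : p.Prime) (s : AddMonoid.End M)
    (hs : s ^ p = 1) :
    ∃ b : ℕ,
      Module.finrank ℤ M = Module.finrank ℤ ↥(toHom (s - 1)).ker + (p - 1) * b ∧
      hIdx (toHom (s - 1)) (toHom (∑ i ∈ Finset.range p, s ^ i)) ⊤ ≠ 0 ∧
      hIdx (toHom (∑ i ∈ Finset.range p, s ^ i)) (toHom (s - 1)) ⊤ ≠ 0 ∧
      hIdx (toHom (s - 1)) (toHom (∑ i ∈ Finset.range p, s ^ i)) ⊤ * p ^ b =
        hIdx (toHom (∑ i ∈ Finset.range p, s ^ i)) (toHom (s - 1)) ⊤ *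
          p ^ Module.finrank ℤ ↥(toHom (s - 1)).ker := by
  set D : AddMonoid.End M := s - 1 with hD
  set N : AddMonoid.End M := ∑ i ∈ Finset.range p, s ^ i with hN
  have hDN : D * N = 0 := by rw [hD, hN, mul_geom_sum, hs, sub_self]
  have hND : N * D = 0 := by rw [hD, hN, geom_sum_mul, hs, sub_self]
  have hDNx : ∀ x, D (N x) = 0 := fun x => DFunLike.congr_fun hDN x
  have hNDx : ∀ x, N (D x) = 0 := fun x => DFunLike.congr_fun hND x
  obtain ⟨W, hWst, hW1, hW2⟩ := exists_W p s
  obtain ⟨H, hHst, hH⟩ := exists_H p s hp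
  have hDapp : ∀ x, D x = s x - x := fun x => rfl
  -- stability
  have hDst : ∀ S : AddSubgroup M, (∀ x ∈ S, s x ∈ S) → ∀ x ∈ S, D x ∈ S :=
    fun S hS x hx => S.sub_mem (hS x hx) hx
  have hNst : ∀ S : AddSubgroup M, (∀ x ∈ S, s x ∈ S) → ∀ x ∈ S, N x ∈ S := by
    intro S hS x hx
    have : N x = ∑ i ∈ Finset.range p, (s ^ i) x := by
      rw [hN]; exact AddMonoidHom.finsetSum_apply _ _ _
    rw [this]
    exact S.sum_mem fun i _ => pow_apply_mem s S hS i x hx
  have hNker : ∀ x, D x = 0 → N x = p • x := by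
    intro x hx
    have := hW2 x
    rw [← hD, ← hN, hx, map_zero, add_zero] at this
    exact this.symm
  -- torsion-free sublattice
  obtain ⟨n, hn, htf⟩ := exists_torsionFree_nsmul (M := M)
  set M₁ : AddSubgroup M := (nsmulAddMonoidHom (α := M) n).range with hM₁
  have hM₁s : ∀ x ∈ M₁, s x ∈ M₁ := by
    rintro _ ⟨y, rfl⟩
    exact ⟨s y, by rw [nsmulAddMonoidHom_apply, nsmulAddMonoidHom_apply, map_nsmul]⟩
  have hM₁tf : ∀ k : ℕ, k ≠ 0 → ∀ x ∈ M₁, k • x = 0 → x = 0 := by
    rintro k hk _ ⟨y, rfl⟩ h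
    exact htf y k hk h
  set A : AddSubgroup M := M₁ ⊓ (toHom D).ker with hA
  set B : AddSubgroup M := M₁ ⊓ (toHom N).ker with hB
  set L : AddSubgroup M := A ⊔ B with hL
  have hAD : ∀ x ∈ A, D x = 0 := fun x hx => hx.2
  have hBN : ∀ x ∈ B, N x = 0 := fun x hx => hx.2
  have hAs : ∀ x ∈ A, s x ∈ A := by
    intro x hx
    have : s x = x := by
      have := hAD x hx
      rw [hDapp, sub_eq_zero] at this
      exact this
    rw [this]; exact hx
  have hBs : ∀ x ∈ B, s x ∈ B := by
    intro x hx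
    refine ⟨hM₁s x hx.1, ?_⟩
    show N (s x) = 0
    have h1 : N (s x) = N (D x) + N x := by
      rw [hDapp, map_sub, sub_add_cancel]
    rw [h1, hNDx, hBN x hx, add_zero]
  have hAB0 : ∀ x ∈ M₁, D x = 0 → N x = 0 → x = 0 := by
    intro x hx hxD hxN
    have := hNker x hxD
    rw [hxN] at this
    exact hM₁tf p hp.ne_zero x hx this.symm
  -- (c1), (c2)
  have c1 : L ⊓ (toHom D).ker = A := by
    apply le_antisymm
    · rintro x ⟨hxL, hxD⟩
      obtain ⟨a, ha, b, hb, rfl⟩ := AddSubgroup.mem_sup.mp hxL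
      have hbD : D b = 0 := by
        have : D (a + b) = 0 := hxD
        rw [map_add, hAD a ha, zero_add] at this
        exact this
      have hb0 : b = 0 := hAB0 b hb.1 hbD (hBN b hb)
      rw [hb0, add_zero]; exact ha
    · exact le_inf le_sup_left inf_le_right
  have c2 : L ⊓ (toHom N).ker = B := by
    apply le_antisymm
    · rintro x ⟨hxL, hxN⟩
      obtain ⟨a, ha, b, hb, rfl⟩ := AddSubgroup.mem_sup.mp hxL
      have haN : N a = 0 := by
        have : N (a + b) = 0 := hxN
        rw [map_add, hBN b hb, add_zero] at this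
        exact this
      have ha0 : a = 0 := hAB0 a ha.1 (hAD a ha) haN
      rw [ha0, zero_add]; exact hb
    · exact le_inf le_sup_right inf_le_right
  -- (c3), (c4)
  have c3 : L.map (toHom N) = A.map (nsmulAddMonoidHom p) := by
    rw [hL, AddSubgroup.map_sup]
    have hB0 : B.map (toHom N) = ⊥ := by
      rw [eq_bot_iff]
      rintro _ ⟨x, hx, rfl⟩
      rw [AddSubgroup.mem_bot]; exact hBN x hx
    rw [hB0, sup_bot_eq]
    ext y
    constructor
    · rintro ⟨x, hx, rfl⟩
      exact ⟨x, hx, (hNker x (hAD x hx)).symm⟩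
    · rintro ⟨x, hx, rfl⟩
      exact ⟨x, hx, hNker x (hAD x hx)⟩
  have c4 : L.map (toHom D) = B.map (toHom D) := by
    rw [hL, AddSubgroup.map_sup]
    have hA0 : A.map (toHom D) = ⊥ := by
      rw [eq_bot_iff]
      rintro _ ⟨x, hx, rfl⟩
      rw [AddSubgroup.mem_bot]; exact hAD x hx
    rw [hA0, bot_sup_eq]
  have hAtf : ∀ k : ℕ, k ≠ 0 → ∀ x ∈ A, k • x = 0 → x = 0 :=
    fun k hk x hx h => hM₁tf k hk x hx.1 h
  have hBtf : ∀ k : ℕ, k ≠ 0 → ∀ x ∈ B, k • x = 0 → x = 0 :=
    fun k hk x hx h => hM₁tf k hk x hx.1 h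
  have hL0 : hIdx (toHom D) (toHom N) L = p ^ Module.finrank ℤ ↥A := by
    unfold hIdx
    rw [c3, c1]
    exact relIndex_map_nsmul A hAtf p hp.ne_zero
  have hL1 : hIdx (toHom N) (toHom D) L = (B.map (toHom D)).relIndex B := by
    unfold hIdx
    rw [c4, c2]
  -- the chain on `B`
  have hBD : ∀ x ∈ B, D x ∈ B := hDst B hBs
  have hBinj : ∀ x ∈ B, D x = 0 → x = 0 := fun x hx hxD => hAB0 x hx.1 hxD (hBN x hx)
  have hrel : ∀ x ∈ B, (D ^ (p - 1)) x + p • (x + D (H x)) = 0 := by
    intro x hx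
    have := hH x
    rw [← hN, ← hD, hBN x hx] at this
    exact this.symm
  have hd : ((B.map (toHom D)).relIndex B) ^ (p - 1) = p ^ Module.finrank ℤ ↥B := by
    rw [← relIndex_map_pow D B hBD hBinj (p - 1),
      map_pow_eq_map_nsmul D B hBD H (hHst B hBs) p (p - 1) hrel,
      relIndex_map_nsmul B hBtf p hp.ne_zero]
  obtain ⟨b, hb1, hb2⟩ : ∃ b : ℕ, (p - 1) * b = Module.finrank ℤ ↥B ∧
      (B.map (toHom D)).relIndex B = p ^ b := by
    have hp1 : p - 1 ≠ 0 := by have := hp.two_le; omega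
    have hdvd : (B.map (toHom D)).relIndex B ∣ p ^ Module.finrank ℤ ↥B := by
      rw [← hd]; exact dvd_pow_self _ hp1
    obtain ⟨b, -, hb⟩ := (Nat.dvd_prime_pow hp).mp hdvd
    refine ⟨b, ?_, hb⟩
    rw [hb, ← pow_mul] at hd
    have := Nat.pow_right_injective hp.two_le hd
    rw [mul_comm]; exact this
  -- `L` has finite index and is stable
  have hLfin : L.relIndex ⊤ ≠ 0 := by
    rw [relIndex_top_right]
    have hle : (nsmulAddMonoidHom (α := M) (p * n)).range ≤ L := by
      rintro _ ⟨y, rfl⟩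
      have hx : n • y ∈ M₁ := ⟨y, rfl⟩
      have h1 : (nsmulAddMonoidHom (α := M) (p * n)) y = N (n • y) + D (W (n • y)) := by
        rw [nsmulAddMonoidHom_apply, mul_smul]
        exact hW1 (n • y)
      rw [h1]
      refine AddSubgroup.add_mem _ (AddSubgroup.mem_sup_left ?_) (AddSubgroup.mem_sup_right ?_)
      · exact ⟨hNst M₁ hM₁s _ hx, hDNx _⟩
      · exact ⟨hDst M₁ hM₁s _ (hWst M₁ hM₁s _ hx), hNDx _⟩
    have h0 := index_range_nsmul_ne_zero (M := M) (p * n) (Nat.mul_ne_zero hp.ne_zero hn)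
    intro hL0'
    have := AddSubgroup.index_dvd_of_le hle
    rw [hL0'] at this
    exact h0 (Nat.eq_zero_of_zero_dvd this)
  have hLs : ∀ x ∈ L, s x ∈ L := by
    intro x hx
    obtain ⟨a, ha, b', hb', rfl⟩ := AddSubgroup.mem_sup.mp hx
    rw [map_add]
    exact AddSubgroup.add_mem _ (AddSubgroup.mem_sup_left (hAs a ha))
      (AddSubgroup.mem_sup_right (hBs b' hb'))
  have hLD : L.map (toHom D) ≤ L := by
    rintro _ ⟨x, hx, rfl⟩; exact hDst L hLs x hx
  have hLN : L.map (toHom N) ≤ L := by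
    rintro _ ⟨x, hx, rfl⟩; exact hNst L hLs x hx
  have hcomp1 : (toHom D).comp (toHom N) = 0 := hDN
  have hcomp2 : (toHom N).comp (toHom D) = 0 := hND
  obtain ⟨inv, fin0, fin1⟩ := hIdx_finite_index (f := toHom D) (g := toHom N) hcomp1 hcomp2
    (le_top : L ≤ ⊤) hLfin hLD hLN le_top le_top
  -- ranks
  have rA : Module.finrank ℤ ↥A = Module.finrank ℤ ↥(toHom D).ker :=
    finrank_eq_of_nsmul_mem A (toHom D).ker inf_le_right n hn
      (fun x hx => ⟨⟨x, rfl⟩, by
        show D (n • x) = 0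
        rw [map_nsmul]
        have : D x = 0 := hx
        rw [this, smul_zero]⟩)
  have rB : Module.finrank ℤ ↥B = Module.finrank ℤ ↥(toHom N).ker :=
    finrank_eq_of_nsmul_mem B (toHom N).ker inf_le_right n hn
      (fun x hx => ⟨⟨x, rfl⟩, by
        show N (n • x) = 0
        rw [map_nsmul]
        have : N x = 0 := hx
        rw [this, smul_zero]⟩)
  have rDN : Module.finrank ℤ ↥(toHom D).range = Module.finrank ℤ ↥(toHom N).ker :=
    finrank_eq_of_nsmul_mem (toHom D).range (toHom N).ker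
      (by rintro _ ⟨x, rfl⟩; exact hNDx x) p hp.ne_zero
      (fun x hx => by
        have hxN : N x = 0 := hx
        have := hW1 x
        rw [← hN, ← hD, hxN, zero_add] at this
        rw [this]
        exact ⟨W x, rfl⟩)
  have rk := finrank_range_add_finrank_ker (toHom D)
  refine ⟨b, ?_, ?_, ?_, ?_⟩
  · rw [← rk, rDN, ← rB, ← hb1]; ring
  · exact fin0.mp (by rw [hL0]; exact pow_ne_zero _ hp.ne_zero)
  · exact fin1.mp (by rw [hL1, hb2]; exact pow_ne_zero _ hp.ne_zero)
  · rw [hL0, hL1, hb2, rA] at inv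
    exact inv

/-- `herbrand_main` restated with ranges and kernels:
`[ker D : N M] * p ^ b = [ker N : D M] * p ^ a`. -/
theorem herbrand_main' [Module.Finite ℤ M] {p : ℕ} (hp : p.Prime) (s : AddMonoid.End M)
    (hs : s ^ p = 1) :
    ∃ b : ℕ,
      Module.finrank ℤ M = Module.finrank ℤ ↥(toHom (s - 1)).ker + (p - 1) * b ∧
      (toHom (∑ i ∈ Finset.range p, s ^ i)).range.relIndex (toHom (s - 1)).ker ≠ 0 ∧
      (toHom (s - 1)).range.relIndex (toHom (∑ i ∈ Finset.range p, s ^ i)).ker ≠ 0 ∧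
      (toHom (∑ i ∈ Finset.range p, s ^ i)).range.relIndex (toHom (s - 1)).ker * p ^ b =
        (toHom (s - 1)).range.relIndex (toHom (∑ i ∈ Finset.range p, s ^ i)).ker *
          p ^ Module.finrank ℤ ↥(toHom (s - 1)).ker := by
  obtain ⟨b, h1, h2, h3, h4⟩ := herbrand_main hp s hs
  rw [hIdx_top, hIdx_top] at h4
  rw [hIdx_top] at h2 h3
  exact ⟨b, h1, h2, h3, h4⟩

/-- A finite group has trivial Herbrand quotient: `[ker f : g M] = [ker g : f M]`. -/
theorem hIdx_eq_of_finite [Finite M] {f g : M →+ M} (hfg : f.comp g = 0) (hgf : g.comp f = 0) :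
    hIdx f g ⊤ = hIdx g f ⊤ := by
  have hfin : (⊥ : AddSubgroup M).relIndex ⊤ ≠ 0 := by
    rw [relIndex_top_right]
    exact AddSubgroup.index_ne_zero_of_finite
  have hbot : ∀ e : M →+ M, (⊥ : AddSubgroup M).map e ≤ ⊥ := fun e => by
    rw [AddSubgroup.map_bot]
  obtain ⟨h, -, -⟩ := hIdx_finite_index hfg hgf (bot_le : (⊥ : AddSubgroup M) ≤ ⊤) hfin
    (hbot f) (hbot g) le_top le_top
  have e1 : hIdx g f (⊥ : AddSubgroup M) = 1 := by
    unfold hIdx
    rw [AddSubgroup.map_bot, bot_inf_eq, relIndex_self]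
  have e2 : hIdx f g (⊥ : AddSubgroup M) = 1 := by
    unfold hIdx
    rw [AddSubgroup.map_bot, bot_inf_eq, relIndex_self]
  rw [e1, e2, mul_one, mul_one] at h
  exact h

end Fermat.Agent.S14.helper3127
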