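/-
S14 moonshot, module M4 layer B (seat helper3127): the Herbrand quotient of the group of
(S-)units of a cyclic extension of number fields of prime degree, in `relIndex` language.
-/
import Mathlib
import Fermat.Agent.S14.helper3127_Herbrand
import Fermat.Agent.S14.helper2613_SUnit

set_option autoImplicit false

namespace Fermat.Agent.S14.helper3127

open AddSubgroup

section Relative

variable {X : Type*} [AddCommGroup X]

/-- Restriction of an additive endomorphism to a stable subgroup. -/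
def restrictEnd (s : X →+ X) (U : AddSubgroup X) (hsU : ∀ x ∈ U, s x ∈ U) : AddMonoid.End ↥U :=
  (s.comp U.subtype).codRestrict U (fun x => hsU x x.2)

theorem restrictEnd_apply (s : X →+ X) (U : AddSubgroup X) (hsU : ∀ x ∈ U, s x ∈ U) (x : ↥U) :
    ((restrictEnd s U hsU x : ↥U) : X) = s x := rfl

theorem restrictEnd_pow_apply (s : X →+ X) (U : AddSubgroup X) (hsU : ∀ x ∈ U, s x ∈ U) (k : ℕ)
    (x : ↥U) : (((restrictEnd s U hsU ^ k) x : ↥U) : X) = s^[k] x := by
  rw [AddMonoid.End.coe_pow]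
  induction k with
  | zero => rfl
  | succ k ih =>
    rw [Function.iterate_succ_apply', Function.iterate_succ_apply', restrictEnd_apply, ih]

theorem end_sum_apply {M : Type*} [AddCommGroup M] (t : Finset ℕ) (f : ℕ → AddMonoid.End M)
    (x : M) : (∑ i ∈ t, f i) x = ∑ i ∈ t, f i x := by
  classical
  induction t using Finset.induction_on with
  | empty => rfl
  | insert a t ha ih =>
    rw [Finset.sum_insert ha, Finset.sum_insert ha, ← ih]
    rfl

/-- **Relative form of the Herbrand quotient formula.**  `U` is a finitely generated subgroup of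
an arbitrary abelian group `X`, stable under an endomorphism `s` of `X` with `s ^ p = 1` on `U`,
and `N` is an endomorphism of `X` restricting to the norm `∑ s ^ i` on `U`.  Then
`[U^s : N U] * p ^ b = [U ∩ ker N : (s - 1) U] * p ^ a` with `a = rank U^s` and
`rank U = a + (p - 1) b`. -/
theorem herbrand_rel {p : ℕ} (hp : p.Prime) (s N : X →+ X) (U : AddSubgroup X)
    [Module.Finite ℤ ↥U] (hsU : ∀ x ∈ U, s x ∈ U) (hs : ∀ x ∈ U, s^[p] x = x)
    (hN : ∀ x ∈ U, N x = ∑ i ∈ Finset.range p, s^[i] x) :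
    ∃ b : ℕ,
      Module.finrank ℤ ↥U =
        Module.finrank ℤ ↥(U ⊓ (s - AddMonoidHom.id X).ker) + (p - 1) * b ∧
      (U.map N).relIndex (U ⊓ (s - AddMonoidHom.id X).ker) ≠ 0 ∧
      (U.map (s - AddMonoidHom.id X)).relIndex (U ⊓ N.ker) ≠ 0 ∧
      (U.map N).relIndex (U ⊓ (s - AddMonoidHom.id X).ker) * p ^ b =
        (U.map (s - AddMonoidHom.id X)).relIndex (U ⊓ N.ker) *
          p ^ Module.finrank ℤ ↥(U ⊓ (s - AddMonoidHom.id X).ker) := by
  set s' : AddMonoid.End ↥U := restrictEnd s U hsU with hs'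
  have hs'p : s' ^ p = 1 := by
    ext x
    rw [restrictEnd_pow_apply, hs x x.2]
    rfl
  obtain ⟨b, h1, h2, h3, h4⟩ := herbrand_main' hp s' hs'p
  set D' : ↥U →+ ↥U := toHom (s' - 1) with hD'
  set N' : ↥U →+ ↥U := toHom (∑ i ∈ Finset.range p, s' ^ i) with hN'
  have hD'x : ∀ x : ↥U, ((D' x : ↥U) : X) = s x - x := fun x => rfl
  have hN'x : ∀ x : ↥U, ((N' x : ↥U) : X) = N x := by
    intro x
    rw [hN x x.2]
    show ((((∑ i ∈ Finset.range p, s' ^ i : AddMonoid.End ↥U)) x : ↥U) : X) = _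
    rw [end_sum_apply, AddSubmonoidClass.coe_finset_sum]
    exact Finset.sum_congr rfl (fun i _ => restrictEnd_pow_apply s U hsU i x)
  have hinj : Function.Injective U.subtype := U.subtype_injective
  have e1 : D'.ker.map U.subtype = U ⊓ (s - AddMonoidHom.id X).ker := by
    ext x
    constructor
    · rintro ⟨y, hy, rfl⟩
      refine AddSubgroup.mem_inf.mpr ⟨y.2, ?_⟩
      have : ((D' y : ↥U) : X) = 0 := by rw [AddMonoidHom.mem_ker.mp hy]; rfl
      rw [hD'x] at this
      exact AddMonoidHom.mem_ker.mpr this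
    · intro hx
      obtain ⟨hxU, hxk⟩ := AddSubgroup.mem_inf.mp hx
      refine ⟨⟨x, hxU⟩, AddMonoidHom.mem_ker.mpr ?_, rfl⟩
      apply Subtype.ext
      rw [hD'x]
      exact AddMonoidHom.mem_ker.mp hxk
  have e2 : N'.range.map U.subtype = U.map N := by
    ext x
    constructor
    · rintro ⟨_, ⟨y, rfl⟩, rfl⟩
      exact ⟨y, y.2, (hN'x y).symm⟩
    · rintro ⟨y, hy, rfl⟩
      exact ⟨N' ⟨y, hy⟩, ⟨⟨y, hy⟩, rfl⟩, hN'x ⟨y, hy⟩⟩
  have e3 : D'.range.map U.subtype = U.map (s - AddMonoidHom.id X) := by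
    ext x
    constructor
    · rintro ⟨_, ⟨y, rfl⟩, rfl⟩
      exact ⟨y, y.2, (hD'x y).symm⟩
    · rintro ⟨y, hy, rfl⟩
      exact ⟨D' ⟨y, hy⟩, ⟨⟨y, hy⟩, rfl⟩, hD'x ⟨y, hy⟩⟩
  have e4 : N'.ker.map U.subtype = U ⊓ N.ker := by
    ext x
    constructor
    · rintro ⟨y, hy, rfl⟩
      refine AddSubgroup.mem_inf.mpr ⟨y.2, ?_⟩
      have : ((N' y : ↥U) : X) = 0 := by rw [AddMonoidHom.mem_ker.mp hy]; rfl
      rw [hN'x] at this
      exact AddMonoidHom.mem_ker.mpr this
    · intro hx
      obtain ⟨hxU, hxk⟩ := AddSubgroup.mem_inf.mp hx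
      refine ⟨⟨x, hxU⟩, AddMonoidHom.mem_ker.mpr ?_, rfl⟩
      apply Subtype.ext
      rw [hN'x]
      exact AddMonoidHom.mem_ker.mp hxk
  have r0 : N'.range.relIndex D'.ker = (U.map N).relIndex (U ⊓ (s - AddMonoidHom.id X).ker) := by
    rw [← e1, ← e2, AddSubgroup.relIndex_map_map_of_injective _ _ hinj]
  have r1 : D'.range.relIndex N'.ker = (U.map (s - AddMonoidHom.id X)).relIndex (U ⊓ N.ker) := by
    rw [← e3, ← e4, AddSubgroup.relIndex_map_map_of_injective _ _ hinj]
  have rk : Module.finrank ℤ ↥D'.ker =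
      Module.finrank ℤ ↥(U ⊓ (s - AddMonoidHom.id X).ker) := by
    have h := (AddSubgroup.equivMapOfInjective D'.ker U.subtype hinj).toIntLinearEquiv.finrank_eq
    rw [h, e1]
  rw [r0] at h2
  rw [r0, r1, rk] at h4
  rw [r1] at h3
  rw [rk] at h1
  exact ⟨b, h1, h2, h3, h4⟩

end Relative

section NumberField

open NumberField IsDedekindDomain Module
open Fermat.Agent.S14.helper2613

variable {E : Type*} [Field E] [NumberField E]

/-- The pull-back of a finite place of `E` along a field automorphism of `E`. -/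
noncomputable def comapPlace (e : E ≃+* E) (w : HeightOneSpectrum (𝓞 E)) :
    HeightOneSpectrum (𝓞 E) where
  asIdeal := w.asIdeal.comap (RingOfIntegers.mapRingEquiv e)
  isPrime := Ideal.comap_isPrime _ _
  ne_bot := by
    intro h
    obtain ⟨x, hx, hx0⟩ := Submodule.exists_mem_ne_zero_of_ne_bot w.ne_bot
    have h1 : (RingOfIntegers.mapRingEquiv e).symm x ∈ (⊥ : Ideal (𝓞 E)) := by
      rw [← h, Ideal.mem_comap, RingEquiv.apply_symm_apply]
      exact hx
    rw [Ideal.mem_bot] at h1
    exact hx0 (by simpa using h1)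

theorem mem_comapPlace (e : E ≃+* E) (w : HeightOneSpectrum (𝓞 E)) (x : 𝓞 E) :
    x ∈ (comapPlace e w).asIdeal ↔ RingOfIntegers.mapRingEquiv e x ∈ w.asIdeal := Iff.rfl

/-- If `x` is a unit at the pulled-back place `e⁻¹ w`, then `e x` is a unit at `w`. -/
theorem valuation_apply_eq_one (e : E ≃+* E) (w : HeightOneSpectrum (𝓞 E)) (x : E)
    (hx : (comapPlace e w).valuation E x = 1) : w.valuation E (e x) = 1 := by
  obtain ⟨n, d, hnd⟩ := (comapPlace e w).exists_primeCompl_mul_eq_of_integer x hx.le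
  have hd : (d : 𝓞 E) ∉ (comapPlace e w).asIdeal := d.2
  have hvd : (comapPlace e w).valuation E (algebraMap (𝓞 E) E d) = 1 :=
    ((comapPlace e w).valuation_eq_one_iff_notMem (K := E)).mpr hd
  have hvn : (comapPlace e w).valuation E (algebraMap (𝓞 E) E n) = 1 := by
    rw [← hnd, map_mul, hx, hvd, mul_one]
  have hn : n ∉ (comapPlace e w).asIdeal :=
    ((comapPlace e w).valuation_eq_one_iff_notMem (K := E)).mp hvn
  rw [mem_comapPlace] at hd hn
  have key : e x * algebraMap (𝓞 E) E (RingOfIntegers.mapRingEquiv e d) =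
      algebraMap (𝓞 E) E (RingOfIntegers.mapRingEquiv e n) := by
    have h := congrArg e hnd
    rw [map_mul] at h
    exact h
  have h1 := congrArg (w.valuation E) key
  rw [map_mul, (w.valuation_eq_one_iff_notMem (K := E)).mpr hd,
    (w.valuation_eq_one_iff_notMem (K := E)).mpr hn, mul_one] at h1
  exact h1

variable {F : Type*} [Field F] [NumberField F] [Algebra F E]

omit [NumberField F] in
theorem comapPlace_under (σ : E ≃ₐ[F] E) (w : HeightOneSpectrum (𝓞 E)) :
    (comapPlace (σ : E ≃+* E) w).asIdeal.comap (algebraMap (𝓞 F) (𝓞 E)) =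
      w.asIdeal.comap (algebraMap (𝓞 F) (𝓞 E)) := by
  ext x
  rw [Ideal.mem_comap, Ideal.mem_comap, mem_comapPlace]
  have h : RingOfIntegers.mapRingEquiv (σ : E ≃+* E) (algebraMap (𝓞 F) (𝓞 E) x) =
      algebraMap (𝓞 F) (𝓞 E) x := by
    apply RingOfIntegers.ext
    show σ (algebraMap F E (x : F)) = algebraMap F E (x : F)
    exact σ.commutes _
  rw [h]

/-- The set of primes of `E` above a set `S` of primes of `F`, as a hypothesis on `S'`. -/
def IsPrimesAbove (S : Finset (HeightOneSpectrum (𝓞 F))) (S' : Finset (HeightOneSpectrum (𝓞 E))) :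
    Prop :=
  ∀ w : HeightOneSpectrum (𝓞 E),
    w ∈ S' ↔ ∃ v ∈ S, w.asIdeal.comap (algebraMap (𝓞 F) (𝓞 E)) = v.asIdeal

/-- `S'`-units are stable under `Gal(E/F)` when `S'` is the set of primes above `S`. -/
theorem sUnits_galois_stable {S : Finset (HeightOneSpectrum (𝓞 F))}
    {S' : Finset (HeightOneSpectrum (𝓞 E))} (hS' : IsPrimesAbove S S') (σ : E ≃ₐ[F] E)
    (x : Eˣ) (hx : x ∈ SUnits E S') : Units.map (σ : E →* E) x ∈ SUnits E S' := by
  rw [mem_SUnits] at hx ⊢
  intro w hw
  have hw' : comapPlace (σ : E ≃+* E) w ∉ S' := by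
    rw [hS'] at hw ⊢
    rwa [comapPlace_under]
  exact valuation_apply_eq_one (σ : E ≃+* E) w x (hx _ hw')

/-- The prime of `F` below a finite place of `E`. -/
noncomputable def underPlace (F : Type*) [Field F] [NumberField F] [Algebra F E]
    (w : HeightOneSpectrum (𝓞 E)) : HeightOneSpectrum (𝓞 F) where
  asIdeal := w.asIdeal.comap (algebraMap (𝓞 F) (𝓞 E))
  isPrime := Ideal.comap_isPrime _ _
  ne_bot := Ideal.under_ne_bot (𝓞 F) w.ne_bot

theorem exists_place_over (v : HeightOneSpectrum (𝓞 F)) :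
    ∃ w : HeightOneSpectrum (𝓞 E), w.asIdeal.comap (algebraMap (𝓞 F) (𝓞 E)) = v.asIdeal := by
  have hinj : Function.Injective (algebraMap (𝓞 F) (𝓞 E)) :=
    FaithfulSMul.algebraMap_injective _ _
  obtain ⟨Q, -, hQ, hQv⟩ := Ideal.exists_ideal_over_prime_of_isIntegral v.asIdeal
    (⊥ : Ideal (𝓞 E)) (by rw [Ideal.comap_bot_of_injective _ hinj]; exact bot_le)
  refine ⟨⟨Q, hQ, ?_⟩, hQv⟩
  rintro rfl
  rw [Ideal.comap_bot_of_injective _ hinj] at hQv
  exact v.ne_bot hQv.symm

theorem withZero_eq_one_of_pow_eq_one {a : WithZero (Multiplicative ℤ)} {n : ℕ} (hn : n ≠ 0)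
    (h : a ^ n = 1) : a = 1 := by
  have ha : a ≠ 0 := by
    rintro rfl
    rw [zero_pow hn] at h
    exact zero_ne_one h
  have h1 := congrArg WithZero.log h
  rw [WithZero.log_pow, WithZero.log_one] at h1
  have h2 : WithZero.log a = 0 := by
    rcases smul_eq_zero.mp h1 with h3 | h3
    · exact absurd h3 hn
    · exact h3
  rw [← WithZero.exp_log ha, h2, WithZero.exp_zero]

/-- For `w` above `v`, an element of `F` is a `v`-unit iff it is a `w`-unit. -/
theorem valuation_algebraMap_eq_one_iff (v : HeightOneSpectrum (𝓞 F))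
    (w : HeightOneSpectrum (𝓞 E)) (h : w.asIdeal.comap (algebraMap (𝓞 F) (𝓞 E)) = v.asIdeal)
    (y : F) : w.valuation E (algebraMap F E y) = 1 ↔ v.valuation F y = 1 := by
  haveI : w.asIdeal.LiesOver v.asIdeal := ⟨h.symm⟩
  have key := HeightOneSpectrum.valuation_liesOver E v w y
  have he : v.asIdeal.ramificationIdx' w.asIdeal ≠ 0 :=
    Ideal.IsDedekindDomain.ramificationIdx'_ne_zero_of_liesOver w.asIdeal v.ne_bot
  constructor
  · intro h1
    rw [h1] at key
    exact withZero_eq_one_of_pow_eq_one he key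
  · intro h1
    rw [← key, h1, one_pow]

/-- Elements of `F` are `S`-units iff they are `S'`-units of `E`, for `S'` the primes above
`S`. -/
theorem mem_sUnits_algebraMap_iff {S : Finset (HeightOneSpectrum (𝓞 F))}
    {S' : Finset (HeightOneSpectrum (𝓞 E))} (hS' : IsPrimesAbove S S') (y : Fˣ) :
    Units.map (algebraMap F E : F →* E) y ∈ SUnits E S' ↔ y ∈ SUnits F S := by
  rw [mem_SUnits, mem_SUnits]
  constructor
  · intro h v hv
    obtain ⟨w, hw⟩ := exists_place_over (E := E) v
    have hw' : w ∉ S' := by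
      intro hwS
      obtain ⟨v', hv', hv'w⟩ := (hS' w).mp hwS
      have : v' = v := HeightOneSpectrum.ext (hv'w.symm.trans hw)
      exact hv (this ▸ hv')
    exact (valuation_algebraMap_eq_one_iff v w hw _).mp (h w hw')
  · intro h w hw
    have hv : underPlace F w ∉ S := fun hvS => hw ((hS' w).mpr ⟨underPlace F w, hvS, rfl⟩)
    exact (valuation_algebraMap_eq_one_iff (underPlace F w) w rfl _).mpr (h _ hv)

/-! ### The Galois action on `Additive Eˣ` -/

/-- The additive endomorphism of `Additive Eˣ` induced by a field automorphism. -/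
noncomputable def galAdd (e : E ≃+* E) : Additive Eˣ →+ Additive Eˣ :=
  MonoidHom.toAdditive (Units.map (e : E →* E))

theorem galAdd_apply (e : E ≃+* E) (x : Additive Eˣ) :
    ((Additive.toMul (galAdd e x) : Eˣ) : E) = e ((Additive.toMul x : Eˣ) : E) := rfl

theorem galAdd_iterate (σ : E ≃ₐ[F] E) (k : ℕ) (x : Additive Eˣ) :
    ((Additive.toMul ((galAdd (σ : E ≃+* E))^[k] x) : Eˣ) : E) =
      (σ ^ k) ((Additive.toMul x : Eˣ) : E) := by
  induction k with
  | zero => rfl
  | succ k ih =>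
    rw [Function.iterate_succ_apply', galAdd_apply, ih, pow_succ']
    rfl

theorem eq_galAdd (σ : E ≃ₐ[F] E) (s : Additive Eˣ →+ Additive Eˣ)
    (hs : ∀ x : Eˣ, ((Additive.toMul (s (Additive.ofMul x)) : Eˣ) : E) = σ (x : E)) :
    s = galAdd (σ : E ≃+* E) := by
  ext x
  exact hs (Additive.toMul x)

theorem galAdd_mem {S : Finset (HeightOneSpectrum (𝓞 F))}
    {S' : Finset (HeightOneSpectrum (𝓞 E))} (hS' : IsPrimesAbove S S') (σ : E ≃ₐ[F] E)
    (x : Additive Eˣ) (hx : x ∈ (SUnits E S').toAddSubgroup) :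
    galAdd (σ : E ≃+* E) x ∈ (SUnits E S').toAddSubgroup :=
  sUnits_galois_stable hS' σ (Additive.toMul x) hx

/-- `Additive H` is the additive subgroup `H.toAddSubgroup` of `Additive G`. -/
def additiveEquivToAddSubgroup {G : Type*} [Group G] (H : Subgroup G) :
    Additive ↥H ≃+ ↥(Subgroup.toAddSubgroup H) where
  toFun x := ⟨Additive.ofMul ((Additive.toMul x : ↥H) : G), (Additive.toMul x).2⟩
  invFun y := Additive.ofMul ⟨Additive.toMul (y : Additive G), y.2⟩
  left_inv _ := rfl
  right_inv _ := rfl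
  map_add' _ _ := rfl

instance instFiniteSUnitsToAddSubgroup (S' : Finset (HeightOneSpectrum (𝓞 E))) :
    Module.Finite ℤ ↥(SUnits E S').toAddSubgroup :=
  Module.Finite.equiv (additiveEquivToAddSubgroup (SUnits E S')).toIntLinearEquiv

theorem finrank_sUnits_toAddSubgroup (S' : Finset (HeightOneSpectrum (𝓞 E))) :
    finrank ℤ ↥(SUnits E S').toAddSubgroup = NumberField.Units.rank E + S'.card := by
  rw [← finrank_SUnits S']
  exact (additiveEquivToAddSubgroup (SUnits E S')).toIntLinearEquiv.finrank_eq.symm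

/-! ### Fixed points -/

/-- The inclusion of the `S`-units of `F` into `Additive Eˣ`. -/
noncomputable def sUnitsIncl (E : Type*) [Field E] [NumberField E] [Algebra F E]
    (S : Finset (HeightOneSpectrum (𝓞 F))) : Additive (SUnits F S) →+ Additive Eˣ :=
  MonoidHom.toAdditive ((Units.map (algebraMap F E : F →* E)).comp (SUnits F S).subtype)

theorem sUnitsIncl_injective (S : Finset (HeightOneSpectrum (𝓞 F))) :
    Function.Injective (sUnitsIncl E S) := by
  intro x y h
  have h1 : Units.map (algebraMap F E : F →* E) ((Additive.toMul x : SUnits F S) : Fˣ) =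
      Units.map (algebraMap F E : F →* E) ((Additive.toMul y : SUnits F S) : Fˣ) := h
  have h2 := Units.map_injective (f := (algebraMap F E : F →* E))
    (FaithfulSMul.algebraMap_injective F E) h1
  exact Additive.toMul.injective (Subtype.ext h2)

theorem exists_algebraMap_eq_of_fixed [IsGalois F E] {p : ℕ} (hp : p.Prime)
    (hdeg : finrank F E = p) (σ : E ≃ₐ[F] E) (hσ : σ ≠ 1) (x : E) (hx : σ x = x) :
    ∃ y : F, algebraMap F E y = x := by
  haveI := Fact.mk hp
  have hcard : Nat.card (E ≃ₐ[F] E) = p := (IsGalois.card_aut_eq_finrank F E).trans hdeg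
  have hpow : ∀ n : ℕ, (σ ^ n) x = x := by
    intro n
    induction n with
    | zero => rfl
    | succ n ih =>
      rw [pow_succ]
      show (σ ^ n) (σ x) = x
      rw [hx, ih]
  have : x ∈ Set.range (algebraMap F E) := by
    rw [IsGalois.mem_range_algebraMap_iff_fixed]
    intro τ
    obtain ⟨n, rfl⟩ := mem_powers_of_prime_card hcard hσ (g' := τ)
    exact hpow n
  exact this

theorem range_sUnitsIncl [IsGalois F E] {p : ℕ} (hp : p.Prime) (hdeg : finrank F E = p)
    (σ : E ≃ₐ[F] E) (hσ : σ ≠ 1) {S : Finset (HeightOneSpectrum (𝓞 F))}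
    {S' : Finset (HeightOneSpectrum (𝓞 E))} (hS' : IsPrimesAbove S S') :
    (sUnitsIncl E S).range =
      (SUnits E S').toAddSubgroup ⊓
        (galAdd (σ : E ≃+* E) - AddMonoidHom.id (Additive Eˣ)).ker := by
  ext x
  constructor
  · rintro ⟨y, rfl⟩
    refine AddSubgroup.mem_inf.mpr ⟨?_, ?_⟩
    · exact (mem_sUnits_algebraMap_iff hS' _).mpr (Additive.toMul y).2
    · rw [AddMonoidHom.mem_ker, AddMonoidHom.sub_apply, AddMonoidHom.id_apply, sub_eq_zero]
      apply Additive.toMul.injective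
      apply Units.ext
      rw [galAdd_apply]
      exact σ.commutes _
  · intro hx
    obtain ⟨hxU, hxk⟩ := AddSubgroup.mem_inf.mp hx
    rw [AddMonoidHom.mem_ker, AddMonoidHom.sub_apply, AddMonoidHom.id_apply, sub_eq_zero] at hxk
    have hfix : σ ((Additive.toMul x : Eˣ) : E) = ((Additive.toMul x : Eˣ) : E) := by
      have := galAdd_apply (σ : E ≃+* E) x
      rw [hxk] at this
      exact this.symm
    obtain ⟨y0, hy0⟩ := exists_algebraMap_eq_of_fixed hp hdeg σ hσ _ hfix
    have hy0ne : y0 ≠ 0 := by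
      rintro rfl
      rw [map_zero] at hy0
      exact (Additive.toMul x).ne_zero hy0.symm
    have hy : Units.map (algebraMap F E : F →* E) (Units.mk0 y0 hy0ne) = Additive.toMul x :=
      Units.ext hy0
    have hyS : Units.mk0 y0 hy0ne ∈ SUnits F S :=
      (mem_sUnits_algebraMap_iff hS' _).mp (by rw [hy]; exact hxU)
    exact ⟨Additive.ofMul ⟨Units.mk0 y0 hy0ne, hyS⟩, congrArg Additive.ofMul hy⟩

theorem finrank_fixed [IsGalois F E] {p : ℕ} (hp : p.Prime) (hdeg : finrank F E = p)
    (σ : E ≃ₐ[F] E) (hσ : σ ≠ 1) {S : Finset (HeightOneSpectrum (𝓞 F))}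
    {S' : Finset (HeightOneSpectrum (𝓞 E))} (hS' : IsPrimesAbove S S') :
    finrank ℤ ↥((SUnits E S').toAddSubgroup ⊓
        (galAdd (σ : E ≃+* E) - AddMonoidHom.id (Additive Eˣ)).ker) =
      NumberField.Units.rank F + S.card := by
  rw [← range_sUnitsIncl hp hdeg σ hσ hS', ← finrank_SUnits S]
  exact (AddMonoidHom.ofInjective (sUnitsIncl_injective (E := E) S)).toIntLinearEquiv.finrank_eq.symm

theorem card_le_card_of_isPrimesAbove {S : Finset (HeightOneSpectrum (𝓞 F))}
    {S' : Finset (HeightOneSpectrum (𝓞 E))} (hS' : IsPrimesAbove S S') : S.card ≤ S'.card := by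
  classical
  choose f hf using fun v : HeightOneSpectrum (𝓞 F) => exists_place_over (E := E) v
  apply Finset.card_le_card_of_injOn f
  · intro v hv
    exact (hS' (f v)).mpr ⟨v, hv, hf v⟩
  · intro v _ v' _ h
    exact HeightOneSpectrum.ext (by rw [← hf v, ← hf v', h])

/-- For `F` totally complex (in the shape `[F:ℚ] = 2 (rank + 1)`), the unit ranks of `E`
and `F` are related by `rank E + 1 = [E:F] (rank F + 1)`. -/
theorem rank_add_one_eq_mul {p : ℕ} (hdeg : finrank F E = p)
    (hF : finrank ℚ F = 2 * (NumberField.Units.rank F + 1)) :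
    NumberField.Units.rank E + 1 = p * (NumberField.Units.rank F + 1) := by
  have hFr : InfinitePlace.nrRealPlaces F = 0 := by
    have h1 := InfinitePlace.card_add_two_mul_card_eq_rank F
    have h2 := InfinitePlace.card_eq_nrRealPlaces_add_nrComplexPlaces F
    have h3 : 0 < Fintype.card (InfinitePlace F) := Fintype.card_pos
    rw [NumberField.Units.rank] at hF
    omega
  haveI : IsTotallyComplex F := nrRealPlaces_eq_zero_iff.mp hFr
  haveI : IsTotallyComplex E := isTotallyComplex_of_algebra F E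
  have hE := IsTotallyComplex.finrank E
  have hE0 : InfinitePlace.nrRealPlaces E = 0 := IsTotallyComplex.nrRealPlaces_eq_zero E
  have h2 := InfinitePlace.card_eq_nrRealPlaces_add_nrComplexPlaces E
  have h3 : 0 < Fintype.card (InfinitePlace E) := Fintype.card_pos
  have htower : finrank ℚ F * finrank F E = finrank ℚ E := Module.finrank_mul_finrank ℚ F E
  rw [hdeg, hF, hE] at htower
  have h4 : InfinitePlace.nrComplexPlaces E = p * (NumberField.Units.rank F + 1) := by
    have : 2 * (p * (NumberField.Units.rank F + 1)) = 2 * InfinitePlace.nrComplexPlaces E := by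
      rw [← htower]; ring
    exact (Nat.eq_of_mul_eq_mul_left two_pos this).symm
  rw [NumberField.Units.rank]
  omega

/-! ### Main theorems -/

/-- **Herbrand quotient of `S'`-units**, for the canonical Galois action `galAdd σ` on
`Additive Eˣ`.  `E / F` Galois of prime degree `p`, `σ` a generator, `F` totally complex,
`S'` the set of primes of `E` above `S`, `U` the group of `S'`-units of `E`, `N` the norm
`∑_{i<p} σ^i`.  Then `[U^σ : N U] * p ^ (c + 1) = [U ∩ ker N : (σ - 1) U] * p ^ #S`, where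
`#S' = #S + (p - 1) c` (so `c` is the number of primes of `S` that split in `E`). -/
theorem herbrand_sUnits_galAdd [IsGalois F E] {p : ℕ} (hp : p.Prime) (hdeg : finrank F E = p)
    (σ : E ≃ₐ[F] E) (hσ : σ ≠ 1) (hF : finrank ℚ F = 2 * (NumberField.Units.rank F + 1))
    {S : Finset (HeightOneSpectrum (𝓞 F))} {S' : Finset (HeightOneSpectrum (𝓞 E))}
    (hS' : IsPrimesAbove S S') (N : Additive Eˣ →+ Additive Eˣ)
    (hN : ∀ x, N x = ∑ i ∈ Finset.range p, (galAdd (σ : E ≃+* E))^[i] x) :
    ∃ c : ℕ, S'.card = S.card + (p - 1) * c ∧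
      ((SUnits E S').toAddSubgroup.map N).relIndex ((SUnits E S').toAddSubgroup ⊓
        (galAdd (σ : E ≃+* E) - AddMonoidHom.id (Additive Eˣ)).ker) ≠ 0 ∧
      ((SUnits E S').toAddSubgroup.map
        (galAdd (σ : E ≃+* E) - AddMonoidHom.id (Additive Eˣ))).relIndex
          ((SUnits E S').toAddSubgroup ⊓ N.ker) ≠ 0 ∧
      ((SUnits E S').toAddSubgroup.map N).relIndex ((SUnits E S').toAddSubgroup ⊓
        (galAdd (σ : E ≃+* E) - AddMonoidHom.id (Additive Eˣ)).ker) * p ^ (c + 1) =
      ((SUnits E S').toAddSubgroup.map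
        (galAdd (σ : E ≃+* E) - AddMonoidHom.id (Additive Eˣ))).relIndex
          ((SUnits E S').toAddSubgroup ⊓ N.ker) * p ^ S.card := by
  have hcard : Nat.card (E ≃ₐ[F] E) = p := (IsGalois.card_aut_eq_finrank F E).trans hdeg
  have hσp : σ ^ p = 1 := by rw [← hcard]; exact pow_card_eq_one'
  have hsp : ∀ x ∈ (SUnits E S').toAddSubgroup, (galAdd (σ : E ≃+* E))^[p] x = x := by
    intro x _
    apply Additive.toMul.injective
    apply Units.ext
    rw [galAdd_iterate, hσp]
    rfl
  obtain ⟨b, hb1, hb2, hb3, hb4⟩ := herbrand_rel hp (galAdd (σ : E ≃+* E)) N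
    (SUnits E S').toAddSubgroup (galAdd_mem hS' σ) hsp (fun x _ => hN x)
  rw [finrank_fixed hp hdeg σ hσ hS'] at hb1 hb4
  rw [finrank_sUnits_toAddSubgroup] at hb1
  have hrank := rank_add_one_eq_mul (E := E) hdeg hF
  have hle := card_le_card_of_isPrimesAbove hS'
  obtain ⟨q, rfl⟩ : ∃ q, p = q + 1 := ⟨p - 1, (Nat.succ_pred_eq_of_pos hp.pos).symm⟩
  have hq : 0 < q := by have := hp.two_le; omega
  rw [Nat.add_sub_cancel] at hb1 ⊢
  set R := NumberField.Units.rank F + 1 with hR
  have e1 : q * R + S'.card = S.card + q * b := by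
    have h1 : NumberField.Units.rank E + 1 + S'.card = R + S.card + q * b := by omega
    rw [hrank] at h1
    have h2 : (q + 1) * R = q * R + R := by ring
    omega
  have hRb : R ≤ b := by
    have : q * R ≤ q * b := by omega
    exact Nat.le_of_mul_le_mul_left this hq
  obtain ⟨c, rfl⟩ : ∃ c, b = R + c := ⟨b - R, by omega⟩
  refine ⟨c, ?_, hb2, hb3, ?_⟩
  · have : q * (R + c) = q * R + q * c := by ring
    omega
  · have h3 : (q + 1) ^ (R + c) = (q + 1) ^ (c + 1) * (q + 1) ^ NumberField.Units.rank F := by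
      rw [← pow_add]; congr 1; omega
    have h4 : (q + 1) ^ (NumberField.Units.rank F + S.card) =
        (q + 1) ^ S.card * (q + 1) ^ NumberField.Units.rank F := by
      rw [← pow_add]; congr 1; omega
    rw [h3, h4, ← mul_assoc, ← mul_assoc] at hb4
    exact Nat.eq_of_mul_eq_mul_right (pow_pos (Nat.succ_pos q) _) hb4

/-- **Herbrand quotient of `S'`-units**, generic form: any `s`, `N`, `U` on `Additive Eˣ` with
the expected pointwise descriptions. This is `(F3)`:
`|U^G / N U| = |H^1(U)| * p ^ (#nonsplit - 1)`. -/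
theorem herbrand_sUnits [IsGalois F E] {p : ℕ} (hp : p.Prime) (hdeg : finrank F E = p)
    (σ : E ≃ₐ[F] E) (hσ : σ ≠ 1) (hF : finrank ℚ F = 2 * (NumberField.Units.rank F + 1))
    {S : Finset (HeightOneSpectrum (𝓞 F))} {S' : Finset (HeightOneSpectrum (𝓞 E))}
    (hS' : IsPrimesAbove S S') (s N : Additive Eˣ →+ Additive Eˣ) (U : AddSubgroup (Additive Eˣ))
    (hs : ∀ x : Eˣ, ((Additive.toMul (s (Additive.ofMul x)) : Eˣ) : E) = σ (x : E))
    (hN : ∀ x, N x = ∑ i ∈ Finset.range p, s^[i] x)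
    (hU : ∀ x : Eˣ, Additive.ofMul x ∈ U ↔ x ∈ SUnits E S') :
    ∃ c : ℕ, S'.card = S.card + (p - 1) * c ∧
      (U.map N).relIndex (U ⊓ (s - AddMonoidHom.id (Additive Eˣ)).ker) ≠ 0 ∧
      (U.map (s - AddMonoidHom.id (Additive Eˣ))).relIndex (U ⊓ N.ker) ≠ 0 ∧
      (U.map N).relIndex (U ⊓ (s - AddMonoidHom.id (Additive Eˣ)).ker) * p ^ (c + 1) =
        (U.map (s - AddMonoidHom.id (Additive Eˣ))).relIndex (U ⊓ N.ker) * p ^ S.card := by
  obtain rfl : s = galAdd (σ : E ≃+* E) := eq_galAdd σ s hs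
  obtain rfl : U = (SUnits E S').toAddSubgroup := by
    ext x
    exact hU (Additive.toMul x)
  exact herbrand_sUnits_galAdd hp hdeg σ hσ hF hS' N hN

/-- **Herbrand quotient of the unit group** `(𝓞 E)ˣ` (inside `Additive Eˣ`):
`|H^1(U_E)| = p * |H^0(U_E)|` for `E / F` cyclic of prime degree `p` with `F` totally complex.
The two conclusions are exactly the hypotheses `hH0` and `hH` of
`helper68.not_le_of_count`. -/
theorem herbrand_units [IsGalois F E] {p : ℕ} (hp : p.Prime) (hdeg : finrank F E = p)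
    (σ : E ≃ₐ[F] E) (hσ : σ ≠ 1) (hF : finrank ℚ F = 2 * (NumberField.Units.rank F + 1))
    (s N : Additive Eˣ →+ Additive Eˣ) (U : AddSubgroup (Additive Eˣ))
    (hs : ∀ x : Eˣ, ((Additive.toMul (s (Additive.ofMul x)) : Eˣ) : E) = σ (x : E))
    (hN : ∀ x, N x = ∑ i ∈ Finset.range p, s^[i] x)
    (hU : ∀ x : Eˣ, Additive.ofMul x ∈ U ↔
      ∀ w : HeightOneSpectrum (𝓞 E), w.valuation E (x : E) = 1) :
    (U.map N).relIndex (U ⊓ (s - AddMonoidHom.id (Additive Eˣ)).ker) ≠ 0 ∧
      (U.map (s - AddMonoidHom.id (Additive Eˣ))).relIndex (U ⊓ N.ker) =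
        p * (U.map N).relIndex (U ⊓ (s - AddMonoidHom.id (Additive Eˣ)).ker) := by
  have hS' : IsPrimesAbove (F := F) (E := E) ∅ ∅ := by
    intro w
    simp
  obtain ⟨c, hc, h0, -, h⟩ := herbrand_sUnits hp hdeg σ hσ hF hS' s N U hs hN
    (fun x => by rw [hU, mem_SUnits]; simp)
  have hc0 : c = 0 := by
    have h2 := hp.two_le
    simp only [Finset.card_empty, zero_add] at hc
    rcases Nat.mul_eq_zero.mp hc.symm with h3 | h3
    · omega
    · exact h3
  subst hc0
  refine ⟨h0, ?_⟩
  simp only [Finset.card_empty, zero_add, pow_one, pow_zero, mul_one] at h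
  rw [← h, mul_comm]

/-! ### The norm as a product over powers of a generator -/

theorem algebraMap_norm_eq_prod_pow [IsGalois F E] {p : ℕ} (hp : p.Prime)
    (hdeg : finrank F E = p) (σ : E ≃ₐ[F] E) (hσ : σ ≠ 1) (x : E) :
    algebraMap F E (Algebra.norm F x) = ∏ i ∈ Finset.range p, (σ ^ i) x := by
  classical
  haveI := Fact.mk hp
  have hcard : Nat.card (E ≃ₐ[F] E) = p := (IsGalois.card_aut_eq_finrank F E).trans hdeg
  have hσp : σ ^ p = 1 := by rw [← hcard]; exact pow_card_eq_one'
  have hord : orderOf σ = p := orderOf_eq_prime hσp hσ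
  have hinj : Set.InjOn (fun i : ℕ => σ ^ i) (Finset.range p : Set ℕ) := by
    intro i hi j hj h
    rw [← hord] at hi hj
    exact pow_injOn_Iio_orderOf (by simpa using hi) (by simpa using hj) h
  rw [Algebra.norm_eq_prod_automorphisms]
  have himg : (Finset.range p).image (fun i => σ ^ i) = Finset.univ := by
    apply Finset.eq_univ_of_card
    rw [Finset.card_image_of_injOn hinj, Finset.card_range, ← Nat.card_eq_fintype_card, hcard]
  rw [← himg, Finset.prod_image hinj]

/-- The additive norm `∑_{i<p} σ^i` on `Additive Eˣ` is the field norm `N_{E/F}`. -/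
theorem sum_galAdd_iterate [IsGalois F E] {p : ℕ} (hp : p.Prime) (hdeg : finrank F E = p)
    (σ : E ≃ₐ[F] E) (hσ : σ ≠ 1) (x : Additive Eˣ) :
    ((Additive.toMul (∑ i ∈ Finset.range p, (galAdd (σ : E ≃+* E))^[i] x) : Eˣ) : E) =
      algebraMap F E (Algebra.norm F ((Additive.toMul x : Eˣ) : E)) := by
  rw [algebraMap_norm_eq_prod_pow hp hdeg σ hσ, toMul_sum, Units.coe_prod]
  exact Finset.prod_congr rfl (fun i _ => galAdd_iterate σ i x)

end NumberField

end Fermat.Agent.S14.helper3127
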