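import Mathlib
import Fermat.Agent.S14.helper4679_GaussDelta2
import Fermat.Agent.S14.helper2253_GaussVal
import Fermat.Agent.S14.helper14_Spec
import Fermat.Agent.S14.helper2797_CrossingSpec

/-!
# S14 / M3 (3d): number-field adapters for the Gauss-sum Frobenius congruence (helper3184)
-/

set_option autoImplicit false

namespace Fermat.Agent.S14.helper3184

open NumberField IsDedekindDomain MulChar
open Fermat.Agent.S14.helper4679

section FiniteField

variable {R : Type*} [CommRing R] [IsDomain R] {k : Type*} [Field k] [Fintype k]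
  {r : ℕ} [Fact r.Prime]

/-- Frobenius congruence for `gaussDelta`, finite residue field form. -/
theorem map_gaussDelta_pow_card (φ : R →+* k) {p : ℕ} (hp : p.Prime)
    (hpk : (p : k) ≠ 0) (hrk : (r : k) ≠ 0) {χ : MulChar (ZMod r) R} (hχ : orderOf χ = p) :
    p ∣ Fintype.card k - 1 ∧ IsUnit ((Fintype.card k : ℕ) : ZMod r) ∧
      φ (gaussDelta χ) ^ ((Fintype.card k - 1) / p) *
        φ (χ ((Fintype.card k : ℕ) : ZMod r)) = 1 := by
  have hr : r.Prime := Fact.out
  obtain ⟨n, hℓ, hcard⟩ := FiniteField.card k (ringChar k)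
  have : Fact (ringChar k).Prime := ⟨hℓ⟩
  have hℓr : ringChar k ≠ r := by
    intro h
    apply hrk
    rw [← h]
    exact ringChar.Nat.cast_ringChar
  have hℓp : ringChar k ≠ p := by
    intro h
    apply hpk
    rw [← h]
    exact ringChar.Nat.cast_ringChar
  -- the reduced character has order `p`
  have hord : orderOf (χ.ringHomComp φ) = p := orderOf_ringHomComp_of_prime φ hp hpk hχ
  have hne : χ.ringHomComp φ ≠ 1 := by
    intro h
    rw [h, orderOf_one] at hord
    exact hp.one_lt.ne hord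
  obtain ⟨a, ha⟩ := MulChar.ne_one_iff.mp hne
  have hdvd : p ∣ Fintype.card k - 1 := by
    have hu : IsUnit ((χ.ringHomComp φ) a) := (a.isUnit).map (χ.ringHomComp φ)
    have hpow : (χ.ringHomComp φ) a ^ p = 1 := by
      rw [← MulChar.pow_apply_coe, ← hord, pow_orderOf_eq_one, MulChar.one_apply_coe]
    have : Fact p.Prime := ⟨hp⟩
    have hord2 : orderOf ((χ.ringHomComp φ) a) = p := orderOf_eq_prime hpow ha
    classical
    rw [← hord2, ← Fintype.card_units]
    have := orderOf_dvd_card (x := hu.unit)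
    rwa [← orderOf_units, IsUnit.unit_spec] at this
  have hunit : IsUnit (((ringChar k ^ (n : ℕ) : ℕ) : ZMod r)) := by
    rw [Nat.cast_pow]
    refine IsUnit.pow _ ?_
    rw [ZMod.isUnit_iff_coprime]
    exact (Nat.coprime_primes hℓ hr).mpr hℓr
  refine ⟨hdvd, hcard ▸ hunit, ?_⟩
  rw [hcard] at hdvd ⊢
  have key := map_gaussDelta_pow_zmod φ (ringChar k) hℓr hp hℓp hχ (n : ℕ) hdvd
  rw [key]
  have h0 : φ (χ ((ringChar k ^ (n : ℕ) : ℕ) : ZMod r)) ≠ 0 := by
    have : IsUnit (φ (χ ((ringChar k ^ (n : ℕ) : ℕ) : ZMod r))) := (hunit.map χ).map φ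
    exact this.ne_zero
  exact inv_mul_cancel₀ h0

end FiniteField

section NumberFieldForm

variable {F : Type*} [Field F] [NumberField F] {r : ℕ} [Fact r.Prime]

/-- **Frobenius congruence for `gaussDelta`, number-field form** (no root of unity of order `r`
needed): for a nonzero prime `P` of `𝓞 F` not containing `p` and `r`, and a character `χ` of
order `p` on `ZMod r` with values in `𝓞 F`:
`p ∣ N P - 1` and `gaussDelta χ ^ ((N P - 1) / p) * χ (N P) ≡ 1 (mod P)`. -/
theorem gaussDelta_pow_mul_sub_one_mem (P : Ideal (𝓞 F)) [hP : P.IsPrime] (hP0 : P ≠ ⊥)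
    {p : ℕ} (hp : p.Prime) (hpP : (p : 𝓞 F) ∉ P) (hrP : (r : 𝓞 F) ∉ P)
    {χ : MulChar (ZMod r) (𝓞 F)} (hχ : orderOf χ = p) :
    p ∣ Ideal.absNorm P - 1 ∧ IsUnit ((Ideal.absNorm P : ℕ) : ZMod r) ∧
      gaussDelta χ ^ ((Ideal.absNorm P - 1) / p) * χ ((Ideal.absNorm P : ℕ) : ZMod r) - 1
        ∈ P := by
  have hmax : P.IsMaximal := hP.isMaximal hP0
  let _ : Field (𝓞 F ⧸ P) := Ideal.Quotient.field P
  have : Finite (𝓞 F ⧸ P) := Ideal.finiteQuotientOfFreeOfNeBot P hP0
  let _ : Fintype (𝓞 F ⧸ P) := Fintype.ofFinite _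
  have hcard : Fintype.card (𝓞 F ⧸ P) = Ideal.absNorm P := by
    rw [Ideal.absNorm_apply, Submodule.cardQuot_apply, Nat.card_eq_fintype_card]
  have hpk : ((p : ℕ) : 𝓞 F ⧸ P) ≠ 0 := by
    intro h
    apply hpP
    rw [← Ideal.Quotient.eq_zero_iff_mem]
    simpa using h
  have hrk : ((r : ℕ) : 𝓞 F ⧸ P) ≠ 0 := by
    intro h
    apply hrP
    rw [← Ideal.Quotient.eq_zero_iff_mem]
    simpa using h
  obtain ⟨h1, hu, h2⟩ := map_gaussDelta_pow_card (Ideal.Quotient.mk P) hp hpk hrk hχ
  rw [hcard] at h1 h2 hu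
  refine ⟨h1, hu, ?_⟩
  rw [← Ideal.Quotient.eq_zero_iff_mem, map_sub, map_mul, map_pow, h2, map_one, sub_self]

end NumberFieldForm

section Exponent

variable {R : Type*} [CommRing R] [IsDomain R] {r : ℕ} [Fact r.Prime]

/-- The exponent (discrete logarithm) of a character of order `p` on `ZMod r` with respect to a
primitive `p`-th root of unity `μ`: `χ a = μ ^ c a`, `c` additive, `c a = 0` iff `a` is a `p`-th
power. -/
theorem exists_exponent {p : ℕ} (hp : p.Prime) {μ : R} (hμ : IsPrimitiveRoot μ p)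
    {χ : MulChar (ZMod r) R} (hχ : orderOf χ = p) :
    ∃ c : ZMod r → ZMod p,
      (∀ a : ZMod r, IsUnit a → χ a = μ ^ (c a).val) ∧
      (∀ a b : ZMod r, IsUnit a → IsUnit b → c (a * b) = c a + c b) ∧
      (∀ a : ZMod r, IsUnit a → (c a = 0 ↔ ∃ x : ZMod r, x ^ p = a)) := by
  have : NeZero p := ⟨hp.ne_zero⟩
  have hχp : ∀ a : ZMod r, IsUnit a → χ a ^ p = 1 := by
    intro a ha
    obtain ⟨u, rfl⟩ := ha
    rw [← MulChar.pow_apply_coe, ← hχ, pow_orderOf_eq_one, MulChar.one_apply_coe]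
  have hex : ∀ a : ZMod r, ∃ j : ZMod p, IsUnit a → χ a = μ ^ j.val := by
    intro a
    by_cases ha : IsUnit a
    · obtain ⟨i, hi, h⟩ := hμ.eq_pow_of_pow_eq_one (hχp a ha)
      exact ⟨(i : ZMod p), fun _ => by rw [ZMod.val_natCast_of_lt hi, h]⟩
    · exact ⟨0, fun h => absurd h ha⟩
  choose c hc using hex
  have hinj : ∀ x y : ZMod p, μ ^ x.val = μ ^ y.val → x = y := by
    intro x y h
    have := hμ.pow_inj (ZMod.val_lt x) (ZMod.val_lt y) h
    exact ZMod.val_injective p this
  have hval : ∀ n : ℕ, μ ^ ((n : ZMod p)).val = μ ^ n := by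
    intro n
    rw [ZMod.val_natCast]
    conv_rhs => rw [← Nat.mod_add_div n p, pow_add, pow_mul, hμ.pow_eq_one, one_pow, mul_one]
  refine ⟨c, hc, ?_, ?_⟩
  · intro a b ha hb
    apply hinj
    rw [← hc _ (ha.mul hb), map_mul, hc a ha, hc b hb, ← pow_add]
    have : c a + c b = (((c a).val + (c b).val : ℕ) : ZMod p) := by
      push_cast
      rw [ZMod.natCast_zmod_val, ZMod.natCast_zmod_val]
    rw [this, hval]
  · intro a ha
    have h1 : c a = 0 ↔ χ a = 1 := by
      constructor
      · intro h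
        rw [hc a ha, h, ZMod.val_zero, pow_zero]
      · intro h
        apply hinj
        rw [← hc a ha, h, ZMod.val_zero, pow_zero]
    rw [h1]
    constructor
    · intro h
      obtain ⟨g, hg⟩ := IsCyclic.exists_monoid_generator (α := (ZMod r)ˣ)
      have hω : χ (g : ZMod r) ≠ 1 := by
        intro h1
        have : χ = 1 := by
          ext u
          obtain ⟨k, rfl⟩ := hg u
          simp [h1]
        rw [this, orderOf_one] at hχ
        exact hp.one_lt.ne hχ
      have hωp : χ (g : ZMod r) ^ p = 1 := hχp _ g.isUnit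
      have hord : orderOf (χ (g : ZMod r)) = p := by
        have : Fact p.Prime := ⟨hp⟩
        exact orderOf_eq_prime hωp hω
      obtain ⟨u, rfl⟩ := ha
      obtain ⟨k, rfl⟩ := hg u
      have hk : χ (g : ZMod r) ^ k = 1 := by simpa using h
      have hdvd : p ∣ k := by
        rw [← hord]
        exact orderOf_dvd_of_pow_eq_one hk
      obtain ⟨m, rfl⟩ := hdvd
      refine ⟨((g ^ m : (ZMod r)ˣ) : ZMod r), ?_⟩
      push_cast
      rw [← pow_mul, mul_comm]
    · rintro ⟨x, rfl⟩
      have hx : IsUnit x := (isUnit_pow_iff hp.ne_zero).mp ha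
      rw [map_pow, hχp x hx]

end Exponent

section Aux

/-- From `X * Z ^ j ≡ 1` and `Z ^ p = 1` deduce `X ≡ Z ^ (-j)` (exponents in `ZMod p`). -/
theorem sub_pow_neg_val_mem {S : Type*} [CommRing S] (P : Ideal S) {p : ℕ} [NeZero p] {Z X : S}
    (hZ : Z ^ p = 1) (j : ZMod p) (h : X * Z ^ j.val - 1 ∈ P) : X - Z ^ (-j).val ∈ P := by
  have hZZ : Z ^ (-j).val * Z ^ j.val = 1 := by
    rw [← pow_add]
    have : p ∣ (-j).val + j.val := by
      rw [← ZMod.natCast_eq_zero_iff]
      push_cast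
      rw [ZMod.natCast_zmod_val, ZMod.natCast_zmod_val]
      ring
    obtain ⟨k, hk⟩ := this
    rw [hk, pow_mul, hZ, one_pow]
  have : X - Z ^ (-j).val = Z ^ (-j).val * (X * Z ^ j.val - 1) := by
    have : Z ^ (-j).val * (X * Z ^ j.val - 1) = X * (Z ^ (-j).val * Z ^ j.val) - Z ^ (-j).val := by
      ring
    rw [this, hZZ, mul_one]
  rw [this]
  exact Ideal.mul_mem_left _ _ h

end Aux

section Crossing

open Fermat.Agent.S14.helper2797 in
/-- **M3 in the form consumed by M7** (`helper2797.Stmt_Gauss`): the Gauss datum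
`(δ_r, c)` over the `p`-th cyclotomic field. -/
theorem stmt_Gauss_crossing (p : ℕ) (hp : p.Prime) : Fermat.Agent.S14.helper2797.Stmt_Gauss p := by
  intro K _ _ _ ζ hζ r hr hrp
  have : Fact r.Prime := ⟨hr⟩
  have : NeZero p := ⟨hp.ne_zero⟩
  have hdvd : p ∣ r - 1 := by
    have := Nat.mod_add_div r p
    exact ⟨r / p, by omega⟩
  have hrnp : ¬ r ∣ p := by
    intro h
    have := (Nat.prime_dvd_prime_iff_eq hr hp).mp h
    rw [this, Nat.mod_self] at hrp
    exact zero_ne_one hrp
  obtain ⟨χ, hχ⟩ := exists_mulChar_zmod_orderOf (R := 𝓞 K) hdvd hζ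
  obtain ⟨c₀, hc1, hc2, hc3⟩ := exists_exponent hp hζ hχ
  have hunit : ∀ n : ℕ, ¬ r ∣ n → IsUnit (n : ZMod r) := by
    intro n hn
    rw [ZMod.isUnit_iff_coprime]
    exact ((Nat.Prime.coprime_iff_not_dvd hr).mpr hn).symm
  have hδ : gaussDelta χ = Fermat.Agent.S14.helper2253.delta χ p := by
    unfold gaussDelta Fermat.Agent.S14.helper2253.delta
    rw [hχ, ZMod.card]
  refine ⟨gaussDelta χ, fun n => c₀ (n : ZMod r), ?_⟩
  constructor
  · intro m n hm hn
    rw [Nat.cast_mul]
    exact hc2 _ _ (hunit m hm) (hunit n hn)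
  · intro n hn
    exact hc3 _ (hunit n hn)
  · intro F _ _ _ P hP hP0 hpP hrP
    have hinj : Function.Injective (algebraMap (𝓞 K) (𝓞 F)) :=
      RingOfIntegers.algebraMap.injective K F
    have hord : orderOf (χ.ringHomComp (algebraMap (𝓞 K) (𝓞 F))) = p := by
      rw [orderOf_ringHomComp_of_injective hinj, hχ]
    obtain ⟨h1, hu, h2⟩ := gaussDelta_pow_mul_sub_one_mem P hP0 hp hpP hrP hord
    rw [gaussDelta_ringHomComp _ _ (hord.trans hχ.symm), ringHomComp_apply, hc1 _ hu,
      map_pow] at h2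
    unfold SymEq
    refine sub_pow_neg_val_mem P ?_ _ h2
    rw [← map_pow, hζ.pow_eq_one, map_one]
  · intro R hR hrR
    rw [hδ]
    exact Fermat.Agent.S14.helper2253.delta_mem_and_notMem_pow_of_mem K hp.two_le hχ hrnp R hrR
  · intro Q hQ hrQ
    rw [hδ]
    exact Fermat.Agent.S14.helper2253.delta_notMem_of_natCast_notMem hp.two_le hχ Q hrQ

end Crossing

section Universal

open Polynomial

/-- `ℤ[X]/(Φ_p)` is a domain. -/
theorem isDomain_adjoinRoot_cyclotomic (p : ℕ) (hp : 0 < p) :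
    IsDomain (AdjoinRoot (cyclotomic p ℤ)) :=
  AdjoinRoot.isDomain_of_prime (cyclotomic.irreducible hp).prime

/-- `ℤ[X]/(Φ_p)` has characteristic zero. -/
theorem charZero_adjoinRoot_cyclotomic (p : ℕ) (hp : 0 < p) :
    CharZero (AdjoinRoot (cyclotomic p ℤ)) := by
  have hinj : Function.Injective (AdjoinRoot.of (cyclotomic p ℤ)) := by
    apply AdjoinRoot.of.injective_of_degree_ne_zero
    rw [degree_cyclotomic]
    exact_mod_cast (Nat.totient_pos.mpr hp).ne'
  exact charZero_of_injective_ringHom hinj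

/-- The root of `Φ_p` in `ℤ[X]/(Φ_p)` is a primitive `p`-th root of unity. -/
theorem isPrimitiveRoot_root_cyclotomic (p : ℕ) (hp : 0 < p) :
    IsPrimitiveRoot (AdjoinRoot.root (cyclotomic p ℤ)) p := by
  have := isDomain_adjoinRoot_cyclotomic p hp
  have := charZero_adjoinRoot_cyclotomic p hp
  rw [← isRoot_cyclotomic_iff_charZero hp]
  have := AdjoinRoot.isRoot_root (cyclotomic p ℤ)
  rwa [map_cyclotomic] at this

open Fermat.Agent.S14.helper14 in
/-- **M3 in the captain's form** (`helper14.Stmt_Gauss`): a universal polynomial `G ∈ ℤ[X]` with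
`δ_r = G(ζ)` and a universal exponent function `χ`, such that the `p`-th power residue symbol of
`G(ζ)` at every prime `v ∤ p r` of every number field `F ∋ ζ` is `ζ ^ χ(N v)`. -/
theorem stmt_Gauss (p : ℕ) (hp : p.Prime) : Fermat.Agent.S14.helper14.Stmt_Gauss p := by
  intro r hr hrp
  have : Fact r.Prime := ⟨hr⟩
  have : NeZero p := ⟨hp.ne_zero⟩
  have hdvd : p ∣ r - 1 := by
    have := Nat.mod_add_div r p
    exact ⟨r / p, by omega⟩
  have : IsDomain (AdjoinRoot (cyclotomic p ℤ)) := isDomain_adjoinRoot_cyclotomic p hp.pos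
  have hμ : IsPrimitiveRoot (AdjoinRoot.root (cyclotomic p ℤ)) p :=
    isPrimitiveRoot_root_cyclotomic p hp.pos
  obtain ⟨χ, hχ⟩ := exists_mulChar_zmod_orderOf (R := AdjoinRoot (cyclotomic p ℤ)) hdvd hμ
  obtain ⟨c₀, hc1, hc2, hc3⟩ := exists_exponent hp hμ hχ
  obtain ⟨G, hG⟩ := AdjoinRoot.mk_surjective (g := cyclotomic p ℤ) (gaussDelta χ)
  have hunit : ∀ n : ℕ, n.Coprime r → IsUnit (n : ZMod r) := fun n hn =>
    (ZMod.isUnit_iff_coprime n r).mpr hn
  refine ⟨G, fun n => - c₀ (n : ZMod r), ?_, ?_, ?_, ?_⟩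
  · intro m n hm hn
    beta_reduce
    rw [Nat.cast_mul, hc2 _ _ (hunit m hm) (hunit n hn), neg_add]
  · intro m n hmn
    beta_reduce
    rw [(ZMod.natCast_eq_natCast_iff' m n r).mpr hmn]
  · intro m hm
    beta_reduce
    rw [neg_eq_zero, hc3 _ (hunit m hm)]
    constructor
    · rintro ⟨x, hx⟩
      refine ⟨x.val, ?_⟩
      rw [← ZMod.natCast_eq_natCast_iff']
      push_cast
      rw [ZMod.natCast_zmod_val, hx]
    · rintro ⟨y, hy⟩
      refine ⟨(y : ZMod r), ?_⟩
      rw [← ZMod.natCast_eq_natCast_iff'] at hy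
      exact_mod_cast hy
  · intro F _ _ ζ hζ
    -- the integral root of unity and the specialisation map
    set ζ' : 𝓞 F := hζ.toInteger with hζ'def
    have hζ' : IsPrimitiveRoot ζ' p := hζ.toInteger_isPrimitiveRoot
    have hroot : (cyclotomic p ℤ).eval₂ (Int.castRingHom (𝓞 F)) ζ' = 0 := by
      rw [eval₂_eq_eval_map, map_cyclotomic]
      exact hζ'.isRoot_cyclotomic hp.pos
    set φ : AdjoinRoot (cyclotomic p ℤ) →+* 𝓞 F :=
      AdjoinRoot.lift (Int.castRingHom (𝓞 F)) ζ' hroot with hφ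
    have hφμ : φ (AdjoinRoot.root (cyclotomic p ℤ)) = ζ' := AdjoinRoot.lift_root hroot
    have hinj : Function.Injective (algebraMap (𝓞 F) F) := RingOfIntegers.coe_injective
    -- the specialised character has order `p`
    have hpF : ((p : ℕ) : F) ≠ 0 := Nat.cast_ne_zero.mpr hp.ne_zero
    have hord : orderOf (χ.ringHomComp φ) = p := by
      rw [← orderOf_ringHomComp_of_injective hinj (χ.ringHomComp φ)]
      have : (χ.ringHomComp φ).ringHomComp (algebraMap (𝓞 F) F) =
          χ.ringHomComp ((algebraMap (𝓞 F) F).comp φ) := by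
        ext a
        simp [ringHomComp_apply]
      rw [this]
      exact orderOf_ringHomComp_of_prime _ hp hpF hχ
    have hδ : gaussDelta (χ.ringHomComp φ) =
        Fermat.Agent.S14.helper2253.delta (χ.ringHomComp φ) p := by
      unfold gaussDelta Fermat.Agent.S14.helper2253.delta
      rw [hord, ZMod.card]
    -- `G(ζ)` is the image of `gaussDelta` of the specialised character
    have hGζ : aeval ζ G = algebraMap (𝓞 F) F (gaussDelta (χ.ringHomComp φ)) := by
      rw [gaussDelta_ringHomComp _ _ (hord.trans hχ.symm), ← hG, hφ, AdjoinRoot.lift_mk,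
        hom_eval₂, aeval_def]
      congr 1
    have hne1 : χ.ringHomComp φ ≠ 1 := by
      intro h
      rw [h, orderOf_one] at hord
      exact hp.one_lt.ne hord
    have hch : ringChar (𝓞 F) ≠ ringChar (ZMod r) := by
      rw [ringChar.eq_zero, ZMod.ringChar_zmod_n]
      exact hr.ne_zero.symm
    refine ⟨?_, ?_⟩
    · rw [hGζ]
      intro h0
      exact gaussDelta_ne_zero hch hne1 (hinj (by rw [h0, map_zero]))
    · intro v hpv hrv
      have hP : v.asIdeal.IsPrime := v.isPrime
      obtain ⟨h1, hu, h2⟩ := gaussDelta_pow_mul_sub_one_mem v.asIdeal v.ne_bot hp hpv hrv hord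
      rw [ringHomComp_apply, hc1 _ hu, map_pow, hφμ] at h2
      have h3 := sub_pow_neg_val_mem v.asIdeal hζ'.pow_eq_one _ h2
      have hU : UnitAt v (aeval ζ G) := by
        unfold UnitAt
        rw [hGζ, hδ]
        exact Fermat.Agent.S14.helper2253.valuation_delta_eq_one_of_notMem hp.two_le hord v hrv
      refine ⟨hU, 1, one_ne_zero, ?_, ?_⟩
      · simpa using hU
      · unfold CongrAt
        rw [one_pow, div_one, hGζ]
        have : (algebraMap (𝓞 F) F) (gaussDelta (χ.ringHomComp φ)) ^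
              ((Ideal.absNorm v.asIdeal - 1) / p) -
            ζ ^ (-c₀ ((Ideal.absNorm v.asIdeal : ℕ) : ZMod r)).val =
            algebraMap (𝓞 F) F (gaussDelta (χ.ringHomComp φ) ^
              ((Ideal.absNorm v.asIdeal - 1) / p) -
              ζ' ^ (-c₀ ((Ideal.absNorm v.asIdeal : ℕ) : ZMod r)).val) := by
          rw [map_sub, map_pow, map_pow]
          rfl
        rw [this]
        exact (v.valuation_lt_one_iff_mem _).mpr h3

end Universal

end Fermat.Agent.S14.helper3184
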