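import Mathlib

namespace Fermat.Agent.S14.helper602

open NumberField NumberField.mixedEmbedding NumberField.Units NumberField.Units.dirichletUnitTheorem
open scoped nonZeroDivisors

/-- Fiberwise summation for nonnegative real functions. -/
theorem hasSum_of_fiberwise_nonneg {α β : Type*} (f : α → ℝ) (hf : ∀ x, 0 ≤ f x) (g : α → β)
    (F : β → ℝ) (S : ℝ) (hfib : ∀ b, HasSum (fun x : {x // g x = b} => f x) (F b))
    (hF : HasSum F S) : HasSum f S := by
  rw [← (Equiv.sigmaFiberEquiv g).hasSum_iff]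
  refine HasSum.sigma_of_hasSum hF (fun b => hfib b) ?_
  refine (summable_sigma_of_nonneg (fun x => hf _)).2 ⟨fun b => (hfib b).summable, ?_⟩
  have : (fun b => ∑' y : {x // g x = b}, f ((Equiv.sigmaFiberEquiv g) ⟨b, y⟩)) = F := by
    funext b
    exact (hfib b).tsum_eq
  exact this ▸ hF.summable

/-- Generic unfolding: a sum over the nonzero elements of an integral ideal `J`, weighted by a
function `φ` whose sum over every unit orbit is `c`, is `c * N(J)^(-s)` times the partial zeta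
sum of the inverse class of `J`. -/
theorem unfold (K : Type*) [Field K] [NumberField K]
    (φ : 𝓞 K → ℝ) (c : ℝ) (hφ0 : ∀ a, 0 ≤ φ a)
    (hφ : ∀ a : 𝓞 K, a ≠ 0 → HasSum (fun u : (𝓞 K)ˣ => φ (u * a)) c)
    (J : (Ideal (𝓞 K))⁰) (s : ℝ)
    (hsum : Summable (fun I : {I : (Ideal (𝓞 K))⁰ // ClassGroup.mk0 I = (ClassGroup.mk0 J)⁻¹} =>
      (Ideal.absNorm (I.1 : Ideal (𝓞 K)) : ℝ) ^ (-s))) :
    HasSum (fun a : {a : 𝓞 K // a ∈ (J : Ideal (𝓞 K)) ∧ a ≠ 0} =>
        φ a * (|Algebra.norm ℤ (a : 𝓞 K)| : ℝ) ^ (-s))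
      (c * (Ideal.absNorm (J : Ideal (𝓞 K)) : ℝ) ^ (-s) *
        ∑' I : {I : (Ideal (𝓞 K))⁰ // ClassGroup.mk0 I = (ClassGroup.mk0 J)⁻¹},
          (Ideal.absNorm (I.1 : Ideal (𝓞 K)) : ℝ) ^ (-s)) := by
  classical
  set T := {I : (Ideal (𝓞 K))⁰ // ClassGroup.mk0 I = (ClassGroup.mk0 J)⁻¹} with hT
  have hJ0 : (J : Ideal (𝓞 K)) ≠ ⊥ := nonZeroDivisors.coe_ne_zero J
  -- the class map
  have key : ∀ a : {a : 𝓞 K // a ∈ (J : Ideal (𝓞 K)) ∧ a ≠ 0}, ∃ I : T,
      Ideal.span {(a : 𝓞 K)} = (J : Ideal (𝓞 K)) * (I.1 : Ideal (𝓞 K)) := by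
    rintro ⟨a, haJ, ha0⟩
    obtain ⟨I, hI⟩ : (J : Ideal (𝓞 K)) ∣ Ideal.span {a} := Ideal.dvd_span_singleton.mpr haJ
    have hI0 : I ≠ ⊥ := by
      rintro rfl
      rw [Ideal.mul_bot] at hI
      exact ha0 (Ideal.span_singleton_eq_bot.mp hI)
    have hImem : I ∈ (Ideal (𝓞 K))⁰ := mem_nonZeroDivisors_of_ne_zero hI0
    refine ⟨⟨⟨I, hImem⟩, ?_⟩, hI⟩
    rw [eq_inv_iff_mul_eq_one, ← map_mul]
    have h : (((⟨I, hImem⟩ * J : (Ideal (𝓞 K))⁰) : Ideal (𝓞 K))).IsPrincipal := by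
      refine ⟨a, ?_⟩
      rw [Submonoid.coe_mul, ← Ideal.span, hI, mul_comm]
    rwa [← ClassGroup.mk0_eq_one_iff (SetLike.coe_mem _)] at h
  choose g hg using key
  have hg_iff : ∀ a I, g a = I ↔
      Ideal.span {(a : 𝓞 K)} = (J : Ideal (𝓞 K)) * (I.1 : Ideal (𝓞 K)) := by
    intro a I
    constructor
    · rintro rfl; exact hg a
    · intro h
      have := (hg a).symm.trans h
      have h2 : ((g a).1 : Ideal (𝓞 K)) = (I.1 : Ideal (𝓞 K)) := mul_left_cancel₀ hJ0 this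
      exact Subtype.ext (Subtype.ext h2)
  refine hasSum_of_fiberwise_nonneg _ (fun a => mul_nonneg (hφ0 _) (by positivity)) g
    (fun I => c * ((Ideal.absNorm (J : Ideal (𝓞 K)) : ℝ) ^ (-s) *
      (Ideal.absNorm (I.1 : Ideal (𝓞 K)) : ℝ) ^ (-s))) _ ?_ ?_
  · -- fibers
    intro I
    -- a generator of `J * I`
    have hprinc : (((J * I.1 : (Ideal (𝓞 K))⁰) : Ideal (𝓞 K))).IsPrincipal := by
      rw [← ClassGroup.mk0_eq_one_iff (SetLike.coe_mem _), map_mul, I.2, mul_inv_cancel]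
    rw [Submonoid.coe_mul] at hprinc
    obtain ⟨a₀, ha₀⟩ := hprinc
    have ha₀' : Ideal.span {a₀} = (J : Ideal (𝓞 K)) * (I.1 : Ideal (𝓞 K)) := ha₀.symm
    have hI0 : (I.1 : Ideal (𝓞 K)) ≠ ⊥ := nonZeroDivisors.coe_ne_zero I.1
    have ha₀0 : a₀ ≠ 0 := by
      rintro rfl
      rw [Ideal.span_singleton_eq_bot.mpr rfl] at ha₀'
      exact mul_ne_zero hJ0 hI0 ha₀'.symm
    have hmemJ : ∀ x : 𝓞 K, Ideal.span {x} = (J : Ideal (𝓞 K)) * (I.1 : Ideal (𝓞 K)) →
        x ∈ (J : Ideal (𝓞 K)) := by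
      intro x hx
      have : x ∈ Ideal.span {x} := Ideal.mem_span_singleton_self x
      rw [hx] at this
      exact Ideal.mul_le_left this
    have hspan_u : ∀ u : (𝓞 K)ˣ, Ideal.span {(u : 𝓞 K) * a₀} =
        (J : Ideal (𝓞 K)) * (I.1 : Ideal (𝓞 K)) := by
      intro u
      rw [← ha₀', Ideal.span_singleton_eq_span_singleton]
      exact associated_unit_mul_left_iff.mpr (Associated.refl a₀)
    -- the bijection between units and the fiber
    let h : (𝓞 K)ˣ → {x : {a : 𝓞 K // a ∈ (J : Ideal (𝓞 K)) ∧ a ≠ 0} // g x = I} := fun u =>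
      ⟨⟨(u : 𝓞 K) * a₀, hmemJ _ (hspan_u u), mul_ne_zero u.ne_zero ha₀0⟩,
        (hg_iff _ _).mpr (hspan_u u)⟩
    have hbij : Function.Bijective h := by
      constructor
      · intro u v huv
        have : (u : 𝓞 K) * a₀ = (v : 𝓞 K) * a₀ := congrArg (fun x => (x.1.1 : 𝓞 K)) huv
        exact Units.ext (mul_right_cancel₀ ha₀0 this)
      · rintro ⟨⟨x, hxJ, hx0⟩, hxI⟩
        have hx : Ideal.span {x} = Ideal.span {a₀} := by
          rw [ha₀']; exact (hg_iff _ _).mp hxI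
        obtain ⟨u, hu⟩ := (Ideal.span_singleton_eq_span_singleton.mp hx).symm
        refine ⟨u, ?_⟩
        apply Subtype.ext; apply Subtype.ext
        change (u : 𝓞 K) * a₀ = x
        rw [mul_comm]; exact hu
    have hnorm : ∀ x : {x : {a : 𝓞 K // a ∈ (J : Ideal (𝓞 K)) ∧ a ≠ 0} // g x = I},
        (|Algebra.norm ℤ (x.1.1 : 𝓞 K)| : ℝ) ^ (-s) =
          (Ideal.absNorm (J : Ideal (𝓞 K)) : ℝ) ^ (-s) *
            (Ideal.absNorm (I.1 : Ideal (𝓞 K)) : ℝ) ^ (-s) := by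
      intro x
      have h1 := (hg_iff _ _).mp x.2
      have h2 : (Ideal.absNorm (Ideal.span {(x.1.1 : 𝓞 K)}) : ℝ) =
          (Ideal.absNorm (J : Ideal (𝓞 K)) : ℝ) * (Ideal.absNorm (I.1 : Ideal (𝓞 K)) : ℝ) := by
        rw [h1, map_mul, Nat.cast_mul]
      rw [Ideal.absNorm_span_singleton, Nat.cast_natAbs, Int.cast_abs] at h2
      rw [h2, Real.mul_rpow (Nat.cast_nonneg _) (Nat.cast_nonneg _)]
    rw [← (Equiv.ofBijective h hbij).hasSum_iff]
    have : ((fun x : {x : {a : 𝓞 K // a ∈ (J : Ideal (𝓞 K)) ∧ a ≠ 0} // g x = I} =>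
        φ x.1.1 * (|Algebra.norm ℤ (x.1.1 : 𝓞 K)| : ℝ) ^ (-s)) ∘ (Equiv.ofBijective h hbij)) =
        fun u : (𝓞 K)ˣ => φ (u * a₀) * ((Ideal.absNorm (J : Ideal (𝓞 K)) : ℝ) ^ (-s) *
            (Ideal.absNorm (I.1 : Ideal (𝓞 K)) : ℝ) ^ (-s)) := by
      funext u
      simp only [Function.comp_apply]
      rw [hnorm]
      rfl
    rw [this]
    exact (hφ a₀ ha₀0).mul_right _
  · have := (hsum.hasSum.mul_left (c * (Ideal.absNorm (J : Ideal (𝓞 K)) : ℝ) ^ (-s)))
    simpa only [mul_assoc] using this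

/-- Fiberwise summation for real functions, absolute version. -/
theorem hasSum_of_fiberwise_abs {α β : Type*} (f : α → ℝ) (g : α → β)
    (F G : β → ℝ) (S : ℝ) (hfib : ∀ b, HasSum (fun x : {x // g x = b} => f x) (F b))
    (hfibabs : ∀ b, HasSum (fun x : {x // g x = b} => |f x|) (G b))
    (hG : Summable G) (hF : HasSum F S) : HasSum f S := by
  rw [← (Equiv.sigmaFiberEquiv g).hasSum_iff]
  refine HasSum.sigma_of_hasSum hF (fun b => hfib b) ?_
  refine Summable.of_abs ?_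
  refine (summable_sigma_of_nonneg (fun x => abs_nonneg _)).2
    ⟨fun b => (hfibabs b).summable, ?_⟩
  have : (fun b => ∑' y : {x // g x = b}, |(f ∘ (Equiv.sigmaFiberEquiv g)) ⟨b, y⟩|) = G := by
    funext b
    exact (hfibabs b).tsum_eq
  exact this ▸ hG

/-- Pulling back a sum along a map all of whose fibers are in bijection with a fixed finite
type `τ`. -/
theorem hasSum_comp_of_fiber_equiv {α β τ : Type*} [Fintype τ] (L : α → β)
    (e : ∀ b, τ ≃ {x // L x = b}) (f : β → ℝ) (S : ℝ) (hf : HasSum f S) :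
    HasSum (fun x => f (L x)) ((Fintype.card τ : ℝ) * S) := by
  have hconst : ∀ (b : β) (r : ℝ), HasSum (fun x : {x // L x = b} => r)
      ((Fintype.card τ : ℝ) * r) := by
    intro b r
    rw [← (e b).hasSum_iff]
    have := hasSum_fintype (fun _ : τ => r)
    simp only [Finset.sum_const, Finset.card_univ, nsmul_eq_mul] at this
    exact this
  refine hasSum_of_fiberwise_abs _ L (fun b => (Fintype.card τ : ℝ) * f b)
    (fun b => (Fintype.card τ : ℝ) * |f b|) _ ?_ ?_ (hf.summable.abs.mul_left _) (hf.mul_left _)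
  · intro b
    have h1 : (fun x : {x // L x = b} => f (L x)) = fun _ => f b := by
      funext x; rw [x.2]
    rw [h1]
    exact hconst b (f b)
  · intro b
    have h1 : (fun x : {x // L x = b} => |f (L x)|) = fun _ => |f b| := by
      funext x; rw [x.2]
    rw [h1]
    exact hconst b |f b|

/-- The sum over all units of a partition of unity of `logSpace K` under `unitLattice K`,
evaluated at `logMap` of the unit multiples of a nonzero integer, is the number of roots of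
unity. -/
theorem unitsum (K : Type*) [Field K] [NumberField K]
    (ψ : logSpace K → ℝ)
    (hψ : ∀ v, HasSum (fun l : unitLattice K => ψ (v + l)) 1)
    (a : 𝓞 K) (ha : a ≠ 0) :
    HasSum (fun u : (𝓞 K)ˣ => ψ (logMap (mixedEmbedding K ((u * a : 𝓞 K) : K))))
      (torsionOrder K : ℝ) := by
  classical
  have : Fintype (torsion K) := Fintype.ofFinite _
  let L : (𝓞 K)ˣ → unitLattice K := fun u =>
    ⟨logEmbedding K (Additive.ofMul u), ⟨Additive.ofMul u, trivial, rfl⟩⟩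
  have hnorm : mixedEmbedding.norm (mixedEmbedding K (a : K)) ≠ 0 := by
    rw [ne_eq, norm_eq_zero_iff' ⟨_, rfl⟩, map_eq_zero]
    exact_mod_cast ha
  have hL : ∀ u : (𝓞 K)ˣ, ψ (logMap (mixedEmbedding K ((u * a : 𝓞 K) : K))) =
      ψ (logMap (mixedEmbedding K (a : K)) + (L u : logSpace K)) := by
    intro u
    have h1 : mixedEmbedding K ((u * a : 𝓞 K) : K) = u • mixedEmbedding K (a : K) := by
      rw [unitSMul_smul, ← map_mul]
      rfl
    rw [h1, logMap_unit_smul u hnorm, add_comm]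
  have hne : ∀ b : unitLattice K, Nonempty (torsion K ≃ {u // L u = b}) := by
    intro b
    obtain ⟨x, -, hx⟩ := b.2
    have hu₀ : L (Additive.toMul x) = b := Subtype.ext hx
    refine ⟨Equiv.ofBijective (fun ζ => ⟨Additive.toMul x * ζ.1, ?_⟩) ⟨?_, ?_⟩⟩
    · apply Subtype.ext
      change logEmbedding K (Additive.ofMul (Additive.toMul x * ζ.1)) = b
      rw [ofMul_mul, map_add, (logEmbedding_eq_zero_iff).mpr ζ.2, add_zero]
      exact hx
    · intro ζ ζ' h
      have : Additive.toMul x * ζ.1 = Additive.toMul x * ζ'.1 := congrArg Subtype.val h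
      exact Subtype.ext (mul_left_cancel this)
    · rintro ⟨u, hu⟩
      have hu' : logEmbedding K (Additive.ofMul u) = b := congrArg Subtype.val hu
      refine ⟨⟨(Additive.toMul x)⁻¹ * u, ?_⟩, ?_⟩
      · rw [← logEmbedding_eq_zero_iff, ofMul_mul, map_add, hu', ofMul_inv, map_neg]
        have : logEmbedding K (Additive.ofMul (Additive.toMul x)) = b := hx
        rw [this, neg_add_cancel]
      · apply Subtype.ext
        change Additive.toMul x * ((Additive.toMul x)⁻¹ * u) = u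
        rw [mul_inv_cancel_left]
  have e : ∀ b : unitLattice K, torsion K ≃ {u // L u = b} := fun b => (hne b).some
  have := hasSum_comp_of_fiber_equiv L e
    (fun l => ψ (logMap (mixedEmbedding K (a : K)) + (l : logSpace K))) 1 (hψ _)
  rw [mul_one] at this
  have hcard : (Fintype.card (torsion K) : ℝ) = (torsionOrder K : ℝ) := by
    rw [torsionOrder, Nat.card_eq_fintype_card]
  rw [hcard] at this
  have hfun : (fun u : (𝓞 K)ˣ => ψ (logMap (mixedEmbedding K ((u * a : 𝓞 K) : K)))) =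
      fun u => ψ (logMap (mixedEmbedding K (a : K)) + (L u : logSpace K)) := funext hL
  rw [hfun]
  exact this

/-- Unfolding for partitions of unity in `logMap` coordinates (sum over the nonzero elements
of the ideal). -/
theorem unfold_logMap (K : Type*) [Field K] [NumberField K]
    (ψ : logSpace K → ℝ) (hψ0 : ∀ v, 0 ≤ ψ v)
    (hψ : ∀ v, HasSum (fun l : unitLattice K => ψ (v + l)) 1)
    (J : (Ideal (𝓞 K))⁰) (s : ℝ)
    (hsum : Summable (fun I : {I : (Ideal (𝓞 K))⁰ // ClassGroup.mk0 I = (ClassGroup.mk0 J)⁻¹} =>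
      (Ideal.absNorm (I.1 : Ideal (𝓞 K)) : ℝ) ^ (-s))) :
    HasSum (fun a : {a : 𝓞 K // a ∈ (J : Ideal (𝓞 K)) ∧ a ≠ 0} =>
        ψ (logMap (mixedEmbedding K ((a : 𝓞 K) : K))) *
          (|Algebra.norm ℤ (a : 𝓞 K)| : ℝ) ^ (-s))
      ((torsionOrder K : ℝ) * (Ideal.absNorm (J : Ideal (𝓞 K)) : ℝ) ^ (-s) *
        ∑' I : {I : (Ideal (𝓞 K))⁰ // ClassGroup.mk0 I = (ClassGroup.mk0 J)⁻¹},
          (Ideal.absNorm (I.1 : Ideal (𝓞 K)) : ℝ) ^ (-s)) :=
  unfold K (fun a => ψ (logMap (mixedEmbedding K (a : K)))) _ (fun _ => hψ0 _)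
    (fun a ha => unitsum K ψ hψ a ha) J s hsum

/-- The norm on the mixed space of the image of an algebraic integer. -/
theorem norm_mixedEmbedding_int (K : Type*) [Field K] [NumberField K] (a : 𝓞 K) :
    mixedEmbedding.norm (mixedEmbedding K (a : K)) = (|Algebra.norm ℤ a| : ℝ) := by
  rw [norm_eq_norm, ← Algebra.coe_norm_int, Rat.cast_abs, Rat.cast_intCast]

/-- Unfolding for partitions of unity in `logMap` coordinates, as a sum over all points of the
lattice `idealLattice K J` of the mixed space (the point `0` contributes `0` for `s ≠ 0`). -/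
theorem unfold_lattice (K : Type*) [Field K] [NumberField K]
    (ψ : logSpace K → ℝ) (hψ0 : ∀ v, 0 ≤ ψ v)
    (hψ : ∀ v, HasSum (fun l : unitLattice K => ψ (v + l)) 1)
    (J : (Ideal (𝓞 K))⁰) (s : ℝ) (hs : s ≠ 0)
    (hsum : Summable (fun I : {I : (Ideal (𝓞 K))⁰ // ClassGroup.mk0 I = (ClassGroup.mk0 J)⁻¹} =>
      (Ideal.absNorm (I.1 : Ideal (𝓞 K)) : ℝ) ^ (-s))) :
    HasSum (fun x : idealLattice K (FractionalIdeal.mk0 K J) =>
        ψ (logMap (x : mixedSpace K)) * mixedEmbedding.norm (x : mixedSpace K) ^ (-s))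
      ((torsionOrder K : ℝ) * (Ideal.absNorm (J : Ideal (𝓞 K)) : ℝ) ^ (-s) *
        ∑' I : {I : (Ideal (𝓞 K))⁰ // ClassGroup.mk0 I = (ClassGroup.mk0 J)⁻¹},
          (Ideal.absNorm (I.1 : Ideal (𝓞 K)) : ℝ) ^ (-s)) := by
  have hmem : ∀ a : {a : 𝓞 K // a ∈ (J : Ideal (𝓞 K)) ∧ a ≠ 0},
      mixedEmbedding K ((a : 𝓞 K) : K) ∈ idealLattice K (FractionalIdeal.mk0 K J) := by
    intro a
    rw [mem_idealLattice]
    exact ⟨(a : 𝓞 K), by simp [a.2.1], rfl⟩
  let i : {a : 𝓞 K // a ∈ (J : Ideal (𝓞 K)) ∧ a ≠ 0} → idealLattice K (FractionalIdeal.mk0 K J) :=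
    fun a => ⟨mixedEmbedding K ((a : 𝓞 K) : K), hmem a⟩
  have hi : Function.Injective i := by
    intro a b hab
    have h1 : mixedEmbedding K ((a : 𝓞 K) : K) = mixedEmbedding K ((b : 𝓞 K) : K) :=
      congrArg Subtype.val hab
    exact Subtype.ext (RingOfIntegers.ext (mixedEmbedding_injective K h1))
  have hout : ∀ x : idealLattice K (FractionalIdeal.mk0 K J), x ∉ Set.range i →
      ψ (logMap (x : mixedSpace K)) * mixedEmbedding.norm (x : mixedSpace K) ^ (-s) = 0 := by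
    rintro ⟨x, hx⟩ hxr
    obtain ⟨y, hy, rfl⟩ := (mem_idealLattice K _).mp hx
    have hy' : ∃ a : 𝓞 K, a ∈ (J : Ideal (𝓞 K)) ∧ (a : K) = y := by
      simpa [FractionalIdeal.coe_mk0] using hy
    obtain ⟨a, haJ, rfl⟩ := hy'
    have ha0 : a = 0 := by
      by_contra ha0
      exact hxr ⟨⟨a, haJ, ha0⟩, rfl⟩
    subst ha0
    simp [Real.zero_rpow (neg_ne_zero.mpr hs)]
  rw [← hi.hasSum_iff hout]
  have hfun : ((fun x : idealLattice K (FractionalIdeal.mk0 K J) =>
        ψ (logMap (x : mixedSpace K)) * mixedEmbedding.norm (x : mixedSpace K) ^ (-s)) ∘ i) =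
      fun a : {a : 𝓞 K // a ∈ (J : Ideal (𝓞 K)) ∧ a ≠ 0} =>
        ψ (logMap (mixedEmbedding K ((a : 𝓞 K) : K))) *
          (|Algebra.norm ℤ (a : 𝓞 K)| : ℝ) ^ (-s) := by
    funext a
    simp only [Function.comp_apply, i]
    rw [norm_mixedEmbedding_int]
  rw [hfun]
  exact unfold_logMap K ψ hψ0 hψ J s hsum

end Fermat.Agent.S14.helper602
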