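/-
S14 (Weber bound core, W0): the partial zeta functions of two ideal classes of a number field
differ by a bounded function on `(1, 2]`.  "Theta partition" proof (no tents, no cones):
the weight `φ(a) = ν(a)^(-2n) / Θ(a)` of `helper3886_ThetaPartition` is an algebraic partition of
unity on unit orbits; unfolding is `helper602.unfold`, the `(s-1) Z_C(s)` bound is
`helper1121.exists_class_upper`.
-/
import Mathlib
import Fermat.Agent.S14.helper3886_ThetaPartition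
import Fermat.Agent.S14.helper602_Unfold
import Fermat.Agent.Lib.helper1121_ZetaIdealSum

set_option autoImplicit false

namespace Fermat.Agent.S14.helper3886

open NumberField NumberField.InfinitePlace NumberField.mixedEmbedding Module

open scoped nonZeroDivisors

open scoped Classical

variable {K : Type*} [Field K] [NumberField K]

/-- the theta weight on integers: `φ(a) = ν(a)^(-2n) / Θ(a)`. -/
noncomputable def phi (a : 𝓞 K) : ℝ :=
  (nu K (a : K) ^ (2 * finrank ℚ K))⁻¹ / theta K (a : K)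

lemma phi_nonneg (a : 𝓞 K) : 0 ≤ phi a :=
  div_nonneg (inv_nu_pow_nonneg _ _) (theta_nonneg _)

lemma hasSum_phi {a : 𝓞 K} (ha : a ≠ 0) :
    HasSum (fun u : (𝓞 K)ˣ ↦ phi ((u : 𝓞 K) * a)) 1 := by
  have ha' : (a : K) ≠ 0 := by simpa using ha
  have h := (theta_summable ha').hasSum
  have h2 := h.div_const (theta K (a : K))
  have e1 : (∑' u : (𝓞 K)ˣ, (nu K (((u : 𝓞 K) : K) * (a : K)) ^ (2 * finrank ℚ K))⁻¹) /
      theta K (a : K) = 1 := div_self (theta_pos ha').ne'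
  rw [e1] at h2
  refine h2.congr_fun fun u ↦ ?_
  have e2 : (((u : 𝓞 K) * a : 𝓞 K) : K) = ((u : 𝓞 K) : K) * (a : K) := by push_cast; rfl
  unfold phi
  rw [e2, theta_unit_mul]

lemma F_eq_phi (s : ℝ) (a : 𝓞 K) :
    F K s (a : K) = phi a * (|Algebra.norm ℤ (a : 𝓞 K)| : ℝ) ^ (-s) := by
  unfold F phi aN
  rw [mul_comm, ← Algebra.coe_norm_int]
  push_cast
  rfl

variable (K) in
/-- the partial zeta function of an ideal class. -/
noncomputable def partialZeta (C : ClassGroup (𝓞 K)) (s : ℝ) : ℝ :=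
  ∑' I : {I : (Ideal (𝓞 K))⁰ // ClassGroup.mk0 I = C},
    (Ideal.absNorm (I.1 : Ideal (𝓞 K)) : ℝ) ^ (-s)

lemma partialZeta_nonneg (C : ClassGroup (𝓞 K)) (s : ℝ) : 0 ≤ partialZeta K C s :=
  Lib.helper1121.tsum_class_rpow_nonneg K C s

/-- unfolding over the nonzero elements of an integral ideal. -/
lemma hasSum_F_ne_zero (J : (Ideal (𝓞 K))⁰) {s : ℝ} (hs : 1 < s) :
    HasSum (fun a : {a : 𝓞 K // a ∈ (J : Ideal (𝓞 K)) ∧ a ≠ 0} ↦ F K s ((a : 𝓞 K) : K))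
      ((Ideal.absNorm (J : Ideal (𝓞 K)) : ℝ) ^ (-s) * partialZeta K (ClassGroup.mk0 J)⁻¹ s) := by
  have h := helper602.unfold K phi 1 phi_nonneg (fun a ha ↦ hasSum_phi ha) J s
    (Lib.helper1121.summable_class_rpow K _ hs)
  rw [one_mul] at h
  refine h.congr_fun fun a ↦ ?_
  exact F_eq_phi s a.1

/-- unfolding over all elements of an integral ideal. -/
lemma hasSum_F_ideal (J : (Ideal (𝓞 K))⁰) {s : ℝ} (hs : 1 < s) :
    HasSum (fun x : (J : Ideal (𝓞 K)) ↦ F K s ((x : 𝓞 K) : K))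
      ((Ideal.absNorm (J : Ideal (𝓞 K)) : ℝ) ^ (-s) * partialZeta K (ClassGroup.mk0 J)⁻¹ s) := by
  have h := hasSum_F_ne_zero J hs
  set f : 𝓞 K → ℝ := fun a ↦ F K s (a : K) with hf
  have h1 := (hasSum_subtype_iff_indicator
    (s := {a : 𝓞 K | a ∈ (J : Ideal (𝓞 K)) ∧ a ≠ 0}) (f := f)).mp h
  have e : Set.indicator {a : 𝓞 K | a ∈ (J : Ideal (𝓞 K)) ∧ a ≠ 0} f =
      Set.indicator ((J : Ideal (𝓞 K)) : Set (𝓞 K)) f := by
    funext a
    by_cases ha : a = 0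
    · subst ha
      simp [Set.indicator, hf]
    · simp [Set.indicator, ha]
  rw [e] at h1
  exact (hasSum_subtype_iff_indicator (s := ((J : Ideal (𝓞 K)) : Set (𝓞 K))) (f := f)).mpr h1

/-- unfolding over the whole ring of integers. -/
lemma hasSum_F_top {s : ℝ} (hs : 1 < s) :
    HasSum (fun y : 𝓞 K ↦ F K s (y : K)) (partialZeta K 1 s) := by
  have h := hasSum_F_ideal (K := K) 1 hs
  have e : (Ideal.absNorm ((1 : (Ideal (𝓞 K))⁰) : Ideal (𝓞 K)) : ℝ) ^ (-s) *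
      partialZeta K (ClassGroup.mk0 (1 : (Ideal (𝓞 K))⁰))⁻¹ s = partialZeta K 1 s := by
    simp
  rw [e] at h
  have h1 := (hasSum_subtype_iff_indicator
    (s := (((1 : (Ideal (𝓞 K))⁰) : Ideal (𝓞 K)) : Set (𝓞 K)))
    (f := fun a : 𝓞 K ↦ F K s (a : K))).mp h
  have e2 : (((1 : (Ideal (𝓞 K))⁰) : Ideal (𝓞 K)) : Set (𝓞 K)) = Set.univ := by simp
  rwa [e2, Set.indicator_univ] at h1

/-- coset comparison: `|S_𝓞(s) - N(J) S_J(s)|` is bounded uniformly in `s ∈ (1, 2]`. -/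
lemma exists_coset_bound (J : (Ideal (𝓞 K))⁰) :
    ∃ B : ℝ, ∀ s : ℝ, 1 < s → s ≤ 2 →
      |∑' y : 𝓞 K, F K s (y : K) - (Ideal.absNorm (J : Ideal (𝓞 K)) : ℝ) *
        ∑' x : (J : Ideal (𝓞 K)), F K s ((x : 𝓞 K) : K)| ≤ B := by
  obtain ⟨A, hA, h⟩ := exists_shift_sum_bound (K := K)
  have hJ0 : (J : Ideal (𝓞 K)) ≠ ⊥ := nonZeroDivisors.coe_ne_zero J
  have : Finite (𝓞 K ⧸ (J : Ideal (𝓞 K))) := Ideal.finiteQuotientOfFreeOfNeBot _ hJ0
  let _ : Fintype (𝓞 K ⧸ (J : Ideal (𝓞 K))) := Fintype.ofFinite _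
  refine ⟨∑ q : 𝓞 K ⧸ (J : Ideal (𝓞 K)), A * nu K ((Quotient.out q : 𝓞 K) : K),
    fun s hs1 hs2 ↦ ?_⟩
  have hcard : (Ideal.absNorm (J : Ideal (𝓞 K)) : ℝ) =
      (Fintype.card (𝓞 K ⧸ (J : Ideal (𝓞 K))) : ℝ) := by
    rw [Ideal.absNorm_apply, Submodule.cardQuot_apply, Nat.card_eq_fintype_card]
  rw [tsum_eq_sum_cosets (J : Ideal (𝓞 K)) (f := fun y : 𝓞 K ↦ F K s (y : K))
    (summable_F hs1 hs2), hcard, ← nsmul_eq_mul, ← Finset.card_univ, ← Finset.sum_const,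
    ← Finset.sum_sub_distrib]
  refine (Finset.abs_sum_le_sum_abs _ _).trans (Finset.sum_le_sum fun q _ ↦ ?_)
  exact h s hs1 hs2 (J : Ideal (𝓞 K)) (Quotient.out q)

/-- every class differs from the trivial class by a bounded amount. -/
lemma exists_diff_one_bound (J : (Ideal (𝓞 K))⁰) :
    ∃ B : ℝ, ∀ s : ℝ, 1 < s → s ≤ 2 →
      |partialZeta K (ClassGroup.mk0 J)⁻¹ s - partialZeta K 1 s| ≤ B := by
  obtain ⟨BJ, hBJ⟩ := exists_coset_bound J
  obtain ⟨B1, hB1⟩ := Lib.helper1121.exists_class_upper K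
  set N : ℝ := (Ideal.absNorm (J : Ideal (𝓞 K)) : ℝ) with hN
  have hN1 : 1 ≤ N := Lib.helper1121.one_le_absNorm K J
  have hN0 : 0 < N := by linarith
  refine ⟨Real.log N * B1 + BJ, fun s hs1 hs2 ↦ ?_⟩
  set Z := partialZeta K (ClassGroup.mk0 J)⁻¹ s with hZ
  set Z1 := partialZeta K 1 s with hZ1
  have hZ0 : 0 ≤ Z := partialZeta_nonneg _ _
  have h1 := hBJ s hs1 hs2
  rw [(hasSum_F_top hs1).tsum_eq, (hasSum_F_ideal J hs1).tsum_eq, ← hN, ← hZ, ← hZ1,
    ← mul_assoc] at h1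
  have ht : N * N ^ (-s) = N ^ (1 - s) := by
    rw [sub_eq_add_neg, Real.rpow_add hN0, Real.rpow_one]
  rw [ht] at h1
  have hlog : 0 ≤ Real.log N := Real.log_nonneg hN1
  have ht1 : 1 - N ^ (1 - s) ≤ (s - 1) * Real.log N := by
    have := Real.add_one_le_exp ((1 - s) * Real.log N)
    rw [Real.rpow_def_of_pos hN0, mul_comm (Real.log N)]
    linarith
  have ht2 : N ^ (1 - s) ≤ 1 := Real.rpow_le_one_of_one_le_of_nonpos hN1 (by linarith)
  have hB1' := hB1 s hs1 hs2 (ClassGroup.mk0 J)⁻¹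
  have h2 : (1 - N ^ (1 - s)) * Z ≤ Real.log N * B1 := by
    calc (1 - N ^ (1 - s)) * Z ≤ (s - 1) * Real.log N * Z :=
          mul_le_mul_of_nonneg_right ht1 hZ0
      _ = Real.log N * ((s - 1) * Z) := by ring
      _ ≤ Real.log N * B1 := mul_le_mul_of_nonneg_left hB1' hlog
  have h3 : 0 ≤ (1 - N ^ (1 - s)) * Z := mul_nonneg (by linarith) hZ0
  rw [abs_le] at h1 ⊢
  constructor <;> nlinarith [h1.1, h1.2]

variable (K) in
/-- **Weber bound core (W0).** The partial zeta functions of any two ideal classes differ by a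
bounded function on `(1, 2]`, uniformly in the classes. -/
theorem partialZeta_diff_bounded :
    ∃ B : ℝ, ∀ s : ℝ, 1 < s → s ≤ 2 → ∀ C C' : ClassGroup (𝓞 K),
      |(∑' I : {I : (Ideal (𝓞 K))⁰ // ClassGroup.mk0 I = C},
            (Ideal.absNorm (I.1 : Ideal (𝓞 K)) : ℝ) ^ (-s)) -
        (∑' I : {I : (Ideal (𝓞 K))⁰ // ClassGroup.mk0 I = C'},
            (Ideal.absNorm (I.1 : Ideal (𝓞 K)) : ℝ) ^ (-s))| ≤ B := by
  have key : ∀ C : ClassGroup (𝓞 K), ∃ B : ℝ, ∀ s : ℝ, 1 < s → s ≤ 2 →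
      |partialZeta K C s - partialZeta K 1 s| ≤ B := by
    intro C
    obtain ⟨J, hJ⟩ := ClassGroup.mk0_surjective C⁻¹
    have := exists_diff_one_bound J
    rwa [hJ, inv_inv] at this
  choose Bf hBf using key
  refine ⟨2 * ∑ C : ClassGroup (𝓞 K), |Bf C|, fun s hs1 hs2 C C' ↦ ?_⟩
  have hle : ∀ D : ClassGroup (𝓞 K), Bf D ≤ ∑ C : ClassGroup (𝓞 K), |Bf C| := fun D ↦
    (le_abs_self _).trans
      (Finset.single_le_sum (f := fun C ↦ |Bf C|) (fun C _ ↦ abs_nonneg _) (Finset.mem_univ D))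
  have h1 := hBf C s hs1 hs2
  have h2 := hBf C' s hs1 hs2
  have h3 := hle C
  have h4 := hle C'
  show |partialZeta K C s - partialZeta K C' s| ≤ _
  rw [abs_le] at h1 h2 ⊢
  constructor <;> linarith [h1.1, h1.2, h2.1, h2.2]

variable (K) in
/-- summability of each partial zeta series (restated from `helper1121`). -/
theorem summable_partialZeta (C : ClassGroup (𝓞 K)) {s : ℝ} (hs : 1 < s) :
    Summable fun I : {I : (Ideal (𝓞 K))⁰ // ClassGroup.mk0 I = C} ↦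
      (Ideal.absNorm (I.1 : Ideal (𝓞 K)) : ℝ) ^ (-s) :=
  Lib.helper1121.summable_class_rpow K C hs

end Fermat.Agent.S14.helper3886
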