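/-
S14 (Weber bound core, W0) in the exact shape of the Thaine-route specification:
`helper1934.Stmt_PartialZetaDiff`.
-/
import Mathlib
import Fermat.Agent.S14.helper3886_PartialZeta
import Fermat.Agent.S14.helper1934_ThaineSpec

set_option autoImplicit false

namespace Fermat.Agent.S14.helper3886

/-- The partial zeta functions of two ideal classes differ by a bounded function on `(1, 2)`. -/
theorem stmt_PartialZetaDiff : helper1934.Stmt_PartialZetaDiff := by
  intro K _ _ C C'
  obtain ⟨B, hB⟩ := partialZeta_diff_bounded K
  exact ⟨B, fun s hs1 hs2 ↦ hB s hs1 hs2.le C C'⟩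

end Fermat.Agent.S14.helper3886
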