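/-
S14 (Thaine route, Weber bound core): differences of partial Dedekind zeta functions of two ideal
classes are bounded on (1,2].  Proof by an ALGEBRAIC partition of unity for the unit action
(no tent functions, no Lipschitz estimates, no logarithmic coordinates).  Author: helper3886.
-/
import Mathlib

set_option autoImplicit false

namespace Fermat.Agent.S14.helper3886

open NumberField NumberField.InfinitePlace NumberField.mixedEmbedding Module

open scoped Classical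

variable (K : Type*) [Field K] [NumberField K]

/-- The sup norm over the infinite places (= sup norm of the mixed embedding). -/
noncomputable def nu (a : K) : ℝ := ‖mixedEmbedding K a‖

variable {K}

lemma nu_nonneg (a : K) : 0 ≤ nu K a := norm_nonneg _

lemma nu_pos {a : K} (ha : a ≠ 0) : 0 < nu K a :=
  norm_pos_iff.mpr ((map_ne_zero (mixedEmbedding K)).mpr ha)

@[simp] lemma nu_zero : nu K (0 : K) = 0 := by simp [nu]

lemma place_le_nu (w : InfinitePlace K) (a : K) : w a ≤ nu K a := by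
  classical
  rw [nu, norm_eq_sup'_normAtPlace]
  have := Finset.le_sup' (fun w ↦ normAtPlace w (mixedEmbedding K a)) (Finset.mem_univ w)
  simpa using this

lemma nu_le {a : K} {r : ℝ} (h : ∀ w : InfinitePlace K, w a ≤ r) : nu K a ≤ r := by
  classical
  rw [nu, norm_eq_sup'_normAtPlace]
  simpa [Finset.sup'_le_iff] using h

lemma inv_nu_pow_nonneg (a : K) (m : ℕ) : 0 ≤ (nu K a ^ m)⁻¹ :=
  inv_nonneg.mpr (pow_nonneg (nu_nonneg a) m)

lemma exists_place_eq_nu (a : K) : ∃ w : InfinitePlace K, w a = nu K a := by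
  classical
  obtain ⟨w, -, hw⟩ := Finset.exists_mem_eq_sup' (Finset.univ_nonempty (α := InfinitePlace K))
    (fun w ↦ normAtPlace w (mixedEmbedding K a))
  refine ⟨w, ?_⟩
  rw [nu, norm_eq_sup'_normAtPlace, hw]
  simp

/-- If every place of `a` is at least `m`, then `m * nu b ≤ nu (b * a)`. -/
lemma mul_nu_le {a b : K} {m : ℝ} (hm : ∀ w : InfinitePlace K, m ≤ w a) :
    m * nu K b ≤ nu K (b * a) := by
  obtain ⟨w, hw⟩ := exists_place_eq_nu b
  calc m * nu K b = m * w b := by rw [hw]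
    _ ≤ w a * w b := by gcongr; exact hm w
    _ = w (b * a) := by rw [map_mul, mul_comm]
    _ ≤ nu K (b * a) := place_le_nu w _

/-- comparison of `nu` under placewise comparison -/
lemma nu_le_mul_nu {a b : K} {ρ : ℝ} (h : ∀ w : InfinitePlace K, w b ≤ ρ * w a) (hρ : 0 ≤ ρ) :
    nu K b ≤ ρ * nu K a :=
  nu_le fun w ↦ (h w).trans (by gcongr; exact place_le_nu w a)

/-- absolute norm as a real number -/
noncomputable def aN (a : K) : ℝ := |(Algebra.norm ℚ a : ℝ)|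

lemma aN_eq_prod (a : K) : aN a = ∏ w : InfinitePlace K, w a ^ w.mult := by
  rw [aN, InfinitePlace.prod_eq_abs_norm]; simp

lemma aN_nonneg (a : K) : 0 ≤ aN a := abs_nonneg _

lemma aN_pos {a : K} (ha : a ≠ 0) : 0 < aN a := by
  rw [aN, abs_pos]
  exact_mod_cast (Algebra.norm_ne_zero_iff).mpr ha

lemma aN_mul (a b : K) : aN (a * b) = aN a * aN b := by
  simp [aN, abs_mul]

lemma aN_unit (u : (𝓞 K)ˣ) : aN ((u : 𝓞 K) : K) = 1 := by
  have h := NumberField.mixedEmbedding.norm_unit u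
  rw [norm_eq_norm] at h
  rw [aN]
  exact_mod_cast h

lemma one_le_aN {a : 𝓞 K} (ha : a ≠ 0) : 1 ≤ aN (a : K) := by
  rw [aN, ← Algebra.coe_norm_int]
  have h : Algebra.norm ℤ a ≠ 0 := (Algebra.norm_ne_zero_iff).mpr ha
  have := Int.one_le_abs h
  norm_cast

lemma aN_le_nu_pow (a : K) : aN a ≤ nu K a ^ finrank ℚ K := by
  rw [aN_eq_prod, ← InfinitePlace.sum_mult_eq, ← Finset.prod_pow_eq_pow_sum]
  exact Finset.prod_le_prod (fun w _ ↦ by positivity)
    (fun w _ ↦ pow_le_pow_left₀ (by positivity) (place_le_nu w a) _)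

/-- KEY INEQUALITY: `N(a) * nu a ≤ |a|_w * nu a ^ n` for every place `w`. -/
lemma aN_mul_nu_le (w : InfinitePlace K) (a : K) :
    aN a * nu K a ≤ w a * nu K a ^ finrank ℚ K := by
  classical
  have hν := nu_nonneg a
  rw [aN_eq_prod, ← InfinitePlace.sum_mult_eq, ← Finset.prod_pow_eq_pow_sum,
    ← Finset.mul_prod_erase Finset.univ _ (Finset.mem_univ w),
    ← Finset.mul_prod_erase Finset.univ (fun v : InfinitePlace K ↦ nu K a ^ v.mult)
      (Finset.mem_univ w)]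
  have h1 : w a ^ w.mult * nu K a ≤ w a * nu K a ^ w.mult := by
    obtain ⟨k, hk⟩ : ∃ k, w.mult = k + 1 := Nat.exists_eq_succ_of_ne_zero mult_ne_zero
    rw [hk, pow_succ, pow_succ]
    have : w a ^ k ≤ nu K a ^ k := pow_le_pow_left₀ (by positivity) (place_le_nu w a) _
    nlinarith [mul_nonneg (mul_nonneg (apply_nonneg w a) hν) (sub_nonneg.mpr this)]
  have h2 : ∏ v ∈ Finset.univ.erase w, v a ^ v.mult ≤
      ∏ v ∈ Finset.univ.erase w, nu K a ^ v.mult :=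
    Finset.prod_le_prod (fun v _ ↦ by positivity)
      (fun v _ ↦ pow_le_pow_left₀ (by positivity) (place_le_nu v a) _)
  calc (w a ^ w.mult * ∏ v ∈ Finset.univ.erase w, v a ^ v.mult) * nu K a
      = (w a ^ w.mult * nu K a) * ∏ v ∈ Finset.univ.erase w, v a ^ v.mult := by ring
    _ ≤ (w a * nu K a ^ w.mult) * ∏ v ∈ Finset.univ.erase w, nu K a ^ v.mult := by
        gcongr
    _ = w a * (nu K a ^ w.mult * ∏ v ∈ Finset.univ.erase w, nu K a ^ v.mult) := by ring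

/-! ### The theta function: an algebraic partition of unity on unit orbits -/

variable (K) in
/-- `Θ(a) = ∑_{u ∈ (𝓞 K)ˣ} ν(u a)^(-2n)`. -/
noncomputable def theta (a : K) : ℝ :=
  ∑' u : (𝓞 K)ˣ, (nu K (((u : 𝓞 K) : K) * a) ^ (2 * finrank ℚ K))⁻¹

lemma finrank_integerLattice :
    finrank ℤ (mixedEmbedding.integerLattice K) = finrank ℚ K := by
  rw [ZLattice.rank ℝ, mixedEmbedding.finrank]

variable (K) in
/-- the embedding of `𝓞 K` in the integer lattice -/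
noncomputable def toLat (x : 𝓞 K) : mixedEmbedding.integerLattice K :=
  ⟨mixedEmbedding K (x : K), ⟨x, rfl⟩⟩

lemma toLat_injective : Function.Injective (toLat K) := by
  intro x y h
  have h' : mixedEmbedding K (x : K) = mixedEmbedding K (y : K) := congrArg Subtype.val h
  exact RingOfIntegers.ext ((mixedEmbedding_injective K) h')

lemma norm_toLat (x : 𝓞 K) : ‖toLat K x‖ = nu K (x : K) := rfl

lemma finrank_pos' : 0 < finrank ℚ K := finrank_pos

/-- `∑_{x ∈ 𝓞 K} ν(x)^(-m)` converges for `m > n`. -/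
lemma summable_nu_pow_inv {m : ℕ} (hm : finrank ℚ K < m) :
    Summable fun x : 𝓞 K ↦ (nu K (x : K) ^ m)⁻¹ := by
  have h := ZLattice.summable_norm_pow_inv (mixedEmbedding.integerLattice K) m
    (by rw [finrank_integerLattice]; exact hm)
  have h2 := h.comp_injective (toLat_injective (K := K))
  refine h2.congr fun x ↦ ?_
  show (‖toLat K x‖⁻¹) ^ m = _
  rw [norm_toLat, inv_pow]

lemma summable_units_nu_pow_inv {m : ℕ} (hm : finrank ℚ K < m) :
    Summable fun u : (𝓞 K)ˣ ↦ (nu K ((u : 𝓞 K) : K) ^ m)⁻¹ :=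
  (summable_nu_pow_inv hm).comp_injective Units.val_injective

lemma exists_pos_le_place {a : K} (ha : a ≠ 0) :
    ∃ w₀ : InfinitePlace K, 0 < w₀ a ∧ ∀ w : InfinitePlace K, w₀ a ≤ w a := by
  obtain ⟨w₀, hw₀⟩ := Finite.exists_min (fun w : InfinitePlace K ↦ w a)
  exact ⟨w₀, (InfinitePlace.pos_iff).mpr ha, hw₀⟩

lemma theta_summable {a : K} (ha : a ≠ 0) :
    Summable fun u : (𝓞 K)ˣ ↦ (nu K (((u : 𝓞 K) : K) * a) ^ (2 * finrank ℚ K))⁻¹ := by
  obtain ⟨w₀, hpos, hmin⟩ := exists_pos_le_place ha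
  have hn : finrank ℚ K < 2 * finrank ℚ K := by have := finrank_pos' (K := K); omega
  refine Summable.of_nonneg_of_le (fun u ↦ inv_nu_pow_nonneg _ _) (fun u ↦ ?_)
    ((summable_units_nu_pow_inv hn).mul_left ((w₀ a ^ (2 * finrank ℚ K))⁻¹))
  have hu : ((u : 𝓞 K) : K) ≠ 0 := by simp
  have h1 : w₀ a * nu K ((u : 𝓞 K) : K) ≤ nu K (((u : 𝓞 K) : K) * a) := mul_nu_le hmin
  have h2 : 0 < w₀ a * nu K ((u : 𝓞 K) : K) := mul_pos hpos (nu_pos hu)
  rw [← mul_inv, ← mul_pow]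
  exact inv_anti₀ (pow_pos h2 _) (pow_le_pow_left₀ h2.le h1 _)

lemma theta_pos {a : K} (ha : a ≠ 0) : 0 < theta K a := by
  refine (theta_summable ha).tsum_pos (fun u ↦ inv_nu_pow_nonneg _ _) 1 ?_
  have : (((1 : (𝓞 K)ˣ) : 𝓞 K) : K) * a ≠ 0 := by simpa using ha
  exact inv_pos.mpr (pow_pos (nu_pos this) _)

lemma theta_nonneg (a : K) : 0 ≤ theta K a := tsum_nonneg fun u ↦ inv_nu_pow_nonneg _ _

lemma theta_unit_mul (v : (𝓞 K)ˣ) (a : K) : theta K (((v : 𝓞 K) : K) * a) = theta K a := by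
  have h := (Equiv.mulRight v).tsum_eq
    (fun u : (𝓞 K)ˣ ↦ (nu K (((u : 𝓞 K) : K) * a) ^ (2 * finrank ℚ K))⁻¹)
  rw [theta, theta, ← h]
  refine tsum_congr fun u ↦ ?_
  simp [mul_assoc]

/-- each single term is at most `Θ`. -/
lemma le_theta {a : K} (ha : a ≠ 0) (u : (𝓞 K)ˣ) :
    (nu K (((u : 𝓞 K) : K) * a) ^ (2 * finrank ℚ K))⁻¹ ≤ theta K a :=
  (theta_summable ha).le_tsum u (fun v _ ↦ inv_nu_pow_nonneg _ _)

/-- UNIT BALANCING: there is `C > 0` such that every `a ≠ 0` has a unit `u` with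
`ν(u a)^n ≤ C * N(a)`. -/
lemma exists_unit_balance :
    ∃ C : ℝ, 0 < C ∧ ∀ a : K, a ≠ 0 → ∃ u : (𝓞 K)ˣ,
      nu K (((u : 𝓞 K) : K) * a) ^ finrank ℚ K ≤ C * aN a := by
  obtain ⟨B, hB⟩ := (isBounded_iff_forall_norm_le).mp (fundamentalCone.isBounded_normLeOne K)
  refine ⟨(max B 1) ^ finrank ℚ K, by positivity, fun a ha ↦ ?_⟩
  have ht : 0 < aN a := aN_pos ha
  have hN : mixedEmbedding.norm (mixedEmbedding K a) ≠ 0 := by
    rw [norm_eq_norm]
    have := ht.ne'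
    rw [aN] at this
    exact_mod_cast this
  obtain ⟨u, hu⟩ := fundamentalCone.exists_unit_smul_mem hN
  refine ⟨u, ?_⟩
  have hy' : u • mixedEmbedding K a = mixedEmbedding K (((u : 𝓞 K) : K) * a) := by
    rw [unitSMul_smul, map_mul]
  rw [hy'] at hu
  have hnormy : mixedEmbedding.norm (mixedEmbedding K (((u : 𝓞 K) : K) * a)) = aN a := by
    rw [norm_eq_norm]
    have := aN_mul ((u : 𝓞 K) : K) a
    rw [aN_unit, one_mul] at this
    rw [← this, aN]; push_cast; rfl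
  set r := aN a ^ ((finrank ℚ K : ℝ)⁻¹) with hr
  have hrpos : 0 < r := Real.rpow_pos_of_pos ht _
  have hrn : r ^ finrank ℚ K = aN a := Real.rpow_inv_natCast_pow ht.le finrank_pos'.ne'
  have hmem : r⁻¹ • mixedEmbedding K (((u : 𝓞 K) : K) * a) ∈ fundamentalCone.normLeOne K := by
    refine ⟨fundamentalCone.smul_mem_of_mem hu (inv_ne_zero hrpos.ne'), ?_⟩
    show mixedEmbedding.norm (r⁻¹ • mixedEmbedding K (((u : 𝓞 K) : K) * a)) ≤ 1
    rw [mixedEmbedding.norm_smul, abs_of_pos (inv_pos.mpr hrpos), inv_pow, hrn, hnormy,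
      inv_mul_cancel₀ ht.ne']
  have h1 := hB _ hmem
  rw [_root_.norm_smul, Real.norm_of_nonneg (inv_pos.mpr hrpos).le] at h1
  have h2 : nu K (((u : 𝓞 K) : K) * a) ≤ max B 1 * r := by
    have h3 : ‖mixedEmbedding K (((u : 𝓞 K) : K) * a)‖ ≤ B * r := by
      rw [inv_mul_le_iff₀ hrpos] at h1
      linarith [mul_comm r B]
    exact h3.trans (by gcongr; exact le_max_left _ _)
  calc nu K (((u : 𝓞 K) : K) * a) ^ finrank ℚ K
      ≤ (max B 1 * r) ^ finrank ℚ K := pow_le_pow_left₀ (nu_nonneg _) h2 _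
    _ = max B 1 ^ finrank ℚ K * aN a := by rw [mul_pow, hrn]

/-- LOWER BOUND for `Θ`. -/
lemma exists_theta_lower :
    ∃ C : ℝ, 0 < C ∧ ∀ a : K, a ≠ 0 → (C * aN a ^ 2)⁻¹ ≤ theta K a := by
  obtain ⟨C, hC, h⟩ := exists_unit_balance (K := K)
  refine ⟨C ^ 2, by positivity, fun a ha ↦ ?_⟩
  obtain ⟨u, hu⟩ := h a ha
  refine le_trans ?_ (le_theta ha u)
  have hpos : 0 < nu K (((u : 𝓞 K) : K) * a) := nu_pos (mul_ne_zero (by simp) ha)
  have haN := aN_pos ha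
  apply inv_anti₀ (pow_pos hpos _)
  calc nu K (((u : 𝓞 K) : K) * a) ^ (2 * finrank ℚ K)
      = (nu K (((u : 𝓞 K) : K) * a) ^ finrank ℚ K) ^ 2 := by
        rw [mul_comm 2 (finrank ℚ K), pow_mul]
    _ ≤ (C * aN a) ^ 2 := pow_le_pow_left₀ (pow_nonneg hpos.le _) hu 2
    _ = C ^ 2 * aN a ^ 2 := by ring

/-! ### The weight `F_s` -/

variable (K) in
/-- `F_s(a) = N(a)^(-s) * ν(a)^(-2n) / Θ(a)`. -/
noncomputable def F (s : ℝ) (a : K) : ℝ :=
  aN a ^ (-s) * ((nu K a ^ (2 * finrank ℚ K))⁻¹ / theta K a)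

lemma F_nonneg (s : ℝ) (a : K) : 0 ≤ F K s a :=
  mul_nonneg (Real.rpow_nonneg (aN_nonneg a) _)
    (div_nonneg (inv_nu_pow_nonneg _ _) (theta_nonneg a))

@[simp] lemma F_zero (s : ℝ) : F K s 0 = 0 := by
  have : 2 * finrank ℚ K ≠ 0 := by have := finrank_pos' (K := K); omega
  simp [F, this]

/-- `F_s(a) ≤ C * N(a)^(2-s) * ν(a)^(-2n)`. -/
lemma exists_F_le :
    ∃ C : ℝ, 0 < C ∧ ∀ (s : ℝ) (a : K), a ≠ 0 →
      F K s a ≤ C * aN a ^ (2 - s) * (nu K a ^ (2 * finrank ℚ K))⁻¹ := by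
  obtain ⟨C, hC, h⟩ := exists_theta_lower (K := K)
  refine ⟨C, hC, fun s a ha ↦ ?_⟩
  have hθ := theta_pos ha
  have haN := aN_pos ha
  have hX := inv_nu_pow_nonneg a (2 * finrank ℚ K)
  have h1 : 1 ≤ C * aN a ^ 2 * theta K a := by
    have := h a ha
    rw [inv_le_iff_one_le_mul₀ (by positivity)] at this
    linarith [mul_comm (theta K a) (C * aN a ^ 2)]
  have h2 : (nu K a ^ (2 * finrank ℚ K))⁻¹ / theta K a ≤
      (nu K a ^ (2 * finrank ℚ K))⁻¹ * (C * aN a ^ 2) := by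
    rw [div_le_iff₀ hθ]
    nlinarith [mul_nonneg hX (sub_nonneg.mpr h1)]
  have h3 : aN a ^ (-s) * aN a ^ 2 = aN a ^ (2 - s) := by
    rw [← Real.rpow_natCast, ← Real.rpow_add haN]; congr 1; push_cast; ring
  calc F K s a ≤ aN a ^ (-s) * ((nu K a ^ (2 * finrank ℚ K))⁻¹ * (C * aN a ^ 2)) := by
        unfold F; gcongr
    _ = C * (aN a ^ (-s) * aN a ^ 2) * (nu K a ^ (2 * finrank ℚ K))⁻¹ := by ring
    _ = C * aN a ^ (2 - s) * (nu K a ^ (2 * finrank ℚ K))⁻¹ := by rw [h3]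

/-- For integral `a ≠ 0`, `1 ≤ s ≤ 2` and ANY place `w`: `F_s(a) ≤ C * |a|_w * ν(a)^(-(n+1))`. -/
lemma exists_F_le_place :
    ∃ C : ℝ, 0 < C ∧ ∀ (s : ℝ), 1 ≤ s → s ≤ 2 → ∀ a : 𝓞 K, a ≠ 0 → ∀ w : InfinitePlace K,
      F K s (a : K) ≤ C * w (a : K) * (nu K (a : K) ^ (finrank ℚ K + 1))⁻¹ := by
  obtain ⟨C, hC, h⟩ := exists_F_le (K := K)
  refine ⟨C, hC, fun s hs1 hs2 a ha w ↦ ?_⟩
  have ha' : (a : K) ≠ 0 := by simpa using ha
  have hν := nu_pos ha'
  have h1 := one_le_aN ha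
  have h2 : aN (a : K) ^ (2 - s) ≤ aN (a : K) := by
    calc aN (a : K) ^ (2 - s) ≤ aN (a : K) ^ (1 : ℝ) :=
          Real.rpow_le_rpow_of_exponent_le h1 (by linarith)
      _ = aN (a : K) := Real.rpow_one _
  have h3 : aN (a : K) * (nu K (a : K) ^ (2 * finrank ℚ K))⁻¹ ≤
      w (a : K) * (nu K (a : K) ^ (finrank ℚ K + 1))⁻¹ := by
    rw [← div_eq_mul_inv, ← div_eq_mul_inv, div_le_div_iff₀ (pow_pos hν _) (pow_pos hν _)]
    calc aN (a : K) * nu K (a : K) ^ (finrank ℚ K + 1)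
        = (aN (a : K) * nu K (a : K)) * nu K (a : K) ^ finrank ℚ K := by ring
      _ ≤ (w (a : K) * nu K (a : K) ^ finrank ℚ K) * nu K (a : K) ^ finrank ℚ K :=
          mul_le_mul_of_nonneg_right (aN_mul_nu_le w _) (pow_nonneg hν.le _)
      _ = w (a : K) * nu K (a : K) ^ (2 * finrank ℚ K) := by ring
  calc F K s (a : K) ≤ C * aN (a : K) ^ (2 - s) * (nu K (a : K) ^ (2 * finrank ℚ K))⁻¹ :=
        h s _ ha'
    _ ≤ C * aN (a : K) * (nu K (a : K) ^ (2 * finrank ℚ K))⁻¹ :=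
        mul_le_mul_of_nonneg_right (mul_le_mul_of_nonneg_left h2 hC.le)
          (inv_nu_pow_nonneg _ _)
    _ = C * (aN (a : K) * (nu K (a : K) ^ (2 * finrank ℚ K))⁻¹) := by ring
    _ ≤ C * (w (a : K) * (nu K (a : K) ^ (finrank ℚ K + 1))⁻¹) := by gcongr
    _ = C * w (a : K) * (nu K (a : K) ^ (finrank ℚ K + 1))⁻¹ := by ring

/-! ### Multiplicative perturbation -/

lemma place_add_le (w : InfinitePlace K) (x y : K) : w (x + y) ≤ w x + w y := w.1.add_le x y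

/-- `b` is `ρ`-close to `a` at all infinite places. -/
def Close (ρ : ℝ) (a b : K) : Prop := ∀ w : InfinitePlace K, w b ≤ ρ * w a ∧ w a ≤ ρ * w b

lemma Close.symm {ρ : ℝ} {a b : K} (h : Close ρ a b) : Close ρ b a := fun w ↦ (h w).symm

lemma Close.mul_left {ρ : ℝ} {a b : K} (h : Close ρ a b) (x : K) : Close ρ (x * a) (x * b) := by
  intro w
  rw [map_mul, map_mul]
  have hx : 0 ≤ w x := apply_nonneg w x
  exact ⟨by nlinarith [(h w).1], by nlinarith [(h w).2]⟩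

lemma Close.nu_le {ρ : ℝ} {a b : K} (h : Close ρ a b) (hρ : 0 ≤ ρ) : nu K b ≤ ρ * nu K a :=
  nu_le_mul_nu (fun w ↦ (h w).1) hρ

lemma Close.aN_le {ρ : ℝ} {a b : K} (h : Close ρ a b) (hρ : 0 ≤ ρ) :
    aN b ≤ ρ ^ finrank ℚ K * aN a := by
  rw [aN_eq_prod, aN_eq_prod, ← InfinitePlace.sum_mult_eq, ← Finset.prod_pow_eq_pow_sum,
    ← Finset.prod_mul_distrib]
  refine Finset.prod_le_prod (fun w _ ↦ pow_nonneg (apply_nonneg w b) _) (fun w _ ↦ ?_)
  rw [← mul_pow]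
  exact pow_le_pow_left₀ (apply_nonneg w b) (h w).1 _

lemma Close.inv_nu_pow_le {ρ : ℝ} {a b : K} (h : Close ρ a b) (hρ : 0 ≤ ρ) (ha : a ≠ 0)
    (hb : b ≠ 0) (m : ℕ) : (nu K b ^ m)⁻¹ ≤ ρ ^ m * (nu K a ^ m)⁻¹ := by
  have h1 : nu K a ^ m ≤ ρ ^ m * nu K b ^ m := by
    rw [← mul_pow]; exact pow_le_pow_left₀ (nu_nonneg a) (h.symm.nu_le hρ) m
  have hA := pow_pos (nu_pos ha) m
  have hB := pow_pos (nu_pos hb) m
  rw [← div_eq_mul_inv, inv_eq_one_div, div_le_div_iff₀ hB hA]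
  linarith

lemma Close.theta_le {ρ : ℝ} {a b : K} (h : Close ρ a b) (hρ : 0 ≤ ρ) (ha : a ≠ 0)
    (hb : b ≠ 0) : theta K b ≤ ρ ^ (2 * finrank ℚ K) * theta K a := by
  rw [theta, theta, ← tsum_mul_left]
  refine (theta_summable hb).tsum_le_tsum (fun u ↦ ?_) ((theta_summable ha).mul_left _)
  have hu : (((u : 𝓞 K) : K)) ≠ 0 := by simp
  exact (h.mul_left _).inv_nu_pow_le hρ (mul_ne_zero hu ha) (mul_ne_zero hu hb) _

/-- `F_s(b) ≤ ρ^(6n) F_s(a)` for `ρ`-close `a`, `b`, `0 ≤ s ≤ 2`, `1 ≤ ρ`. -/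
lemma Close.F_le {ρ : ℝ} {a b : K} (h : Close ρ a b) (hρ : 1 ≤ ρ) (ha : a ≠ 0) (hb : b ≠ 0)
    {s : ℝ} (hs0 : 0 ≤ s) (hs2 : s ≤ 2) :
    F K s b ≤ ρ ^ (6 * finrank ℚ K) * F K s a := by
  have hρ0 : (0 : ℝ) ≤ ρ := by linarith
  set n := finrank ℚ K with hn
  have hNa := aN_pos ha
  have hNb := aN_pos hb
  have hρn : (1 : ℝ) ≤ ρ ^ n := one_le_pow₀ hρ
  -- (i) norm factor
  have h1 : aN b ^ (-s) ≤ ρ ^ (2 * n) * aN a ^ (-s) := by
    have hle : aN a / ρ ^ n ≤ aN b := by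
      rw [div_le_iff₀ (by positivity)]
      linarith [h.symm.aN_le hρ0, mul_comm (ρ ^ n) (aN b)]
    calc aN b ^ (-s) ≤ (aN a / ρ ^ n) ^ (-s) :=
          Real.rpow_le_rpow_of_nonpos (by positivity) hle (by linarith)
      _ = aN a ^ (-s) * (ρ ^ n) ^ s := by
          rw [Real.div_rpow hNa.le (by positivity), Real.rpow_neg (by positivity : (0:ℝ) ≤ ρ ^ n),
            div_eq_mul_inv, inv_inv]
      _ ≤ aN a ^ (-s) * (ρ ^ n) ^ (2 : ℝ) := by
          gcongr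
      _ = ρ ^ (2 * n) * aN a ^ (-s) := by
          rw [Real.rpow_two, ← pow_mul, mul_comm n 2, mul_comm]
  -- (ii) nu factor
  have h2 := h.inv_nu_pow_le hρ0 ha hb (2 * n)
  -- (iii) theta factor
  have h3 : (theta K b)⁻¹ ≤ ρ ^ (2 * n) * (theta K a)⁻¹ := by
    have hθa := theta_pos ha
    have hθb := theta_pos hb
    have := h.symm.theta_le hρ0 hb ha
    rw [← div_eq_mul_inv, inv_eq_one_div, div_le_div_iff₀ hθb hθa]
    linarith
  have e6 : ρ ^ (6 * n) = ρ ^ (2 * n) * (ρ ^ (2 * n) * ρ ^ (2 * n)) := by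
    rw [← pow_add, ← pow_add]; congr 1; ring
  have hX := inv_nu_pow_nonneg a (2 * n)
  have hY : 0 ≤ (theta K a)⁻¹ := inv_nonneg.mpr (theta_nonneg a)
  have hZ : 0 ≤ aN a ^ (-s) := Real.rpow_nonneg hNa.le _
  have hP : (0 : ℝ) ≤ ρ ^ (2 * n) := by positivity
  calc F K s b = aN b ^ (-s) * ((nu K b ^ (2 * n))⁻¹ * (theta K b)⁻¹) := by
        rw [F, div_eq_mul_inv]
    _ ≤ (ρ ^ (2 * n) * aN a ^ (-s)) *
          ((ρ ^ (2 * n) * (nu K a ^ (2 * n))⁻¹) * (ρ ^ (2 * n) * (theta K a)⁻¹)) := by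
        apply mul_le_mul h1 (mul_le_mul h2 h3 (inv_nonneg.mpr (theta_nonneg b)) (by positivity))
          (mul_nonneg (inv_nu_pow_nonneg b _) (inv_nonneg.mpr (theta_nonneg b))) (by positivity)
    _ = ρ ^ (6 * n) * F K s a := by
        rw [F, div_eq_mul_inv, e6]; ring

/-- `|F_s(b) - F_s(a)| ≤ (ρ^(6n) - 1) ρ^(6n) F_s(a)`. -/
lemma Close.abs_F_sub_le {ρ : ℝ} {a b : K} (h : Close ρ a b) (hρ : 1 ≤ ρ) (ha : a ≠ 0)
    (hb : b ≠ 0) {s : ℝ} (hs0 : 0 ≤ s) (hs2 : s ≤ 2) :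
    |F K s b - F K s a| ≤
      (ρ ^ (6 * finrank ℚ K) - 1) * ρ ^ (6 * finrank ℚ K) * F K s a := by
  set M := ρ ^ (6 * finrank ℚ K) with hM
  have hM1 : 1 ≤ M := one_le_pow₀ hρ
  have h1 := h.F_le hρ ha hb hs0 hs2
  have h2 := h.symm.F_le hρ hb ha hs0 hs2
  have ha0 := F_nonneg s a
  have hb0 := F_nonneg s b
  rw [abs_le]
  constructor
  · -- F a - F b ≤ (M-1) F b ≤ (M-1) M F a
    nlinarith [mul_nonneg (sub_nonneg.mpr hM1) (sub_nonneg.mpr h1)]
  · nlinarith [mul_nonneg (sub_nonneg.mpr hM1) ha0, mul_nonneg (mul_nonneg (sub_nonneg.mpr hM1) (sub_nonneg.mpr hM1)) ha0]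

/-- additive perturbation gives closeness -/
lemma close_add {a c : K} {τ : ℝ} (hτ0 : 0 ≤ τ) (hτ : τ ≤ 1 / 2)
    (h : ∀ w : InfinitePlace K, w c ≤ τ * w a) : Close (1 + 2 * τ) a (a + c) := by
  intro w
  have hwa : 0 ≤ w a := apply_nonneg w a
  have h1 : w (a + c) ≤ w a + w c := place_add_le w a c
  have h2 : w a ≤ w (a + c) + w c := by
    have := place_add_le w (a + c) (-c)
    have hneg : w (-c) = w c := w.1.map_neg c
    rw [hneg] at this
    simpa using this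
  have hc := h w
  constructor
  · nlinarith
  · nlinarith [mul_nonneg hτ0 hwa, mul_nonneg (mul_nonneg hτ0 hwa) (sub_nonneg.mpr hτ)]

/-- elementary: `ρ^m - 1 ≤ m * 2^m * (ρ - 1)` for `1 ≤ ρ ≤ 2`. -/
lemma pow_sub_one_le {ρ : ℝ} (h1 : 1 ≤ ρ) (h2 : ρ ≤ 2) (m : ℕ) :
    ρ ^ m - 1 ≤ m * 2 ^ m * (ρ - 1) := by
  rw [← geom_sum_mul]
  have : ∑ i ∈ Finset.range m, ρ ^ i ≤ m * 2 ^ m := by
    calc ∑ i ∈ Finset.range m, ρ ^ i ≤ ∑ _i ∈ Finset.range m, (2 : ℝ) ^ m := by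
          refine Finset.sum_le_sum fun i hi ↦ ?_
          calc ρ ^ i ≤ 2 ^ i := pow_le_pow_left₀ (by linarith) h2 i
            _ ≤ 2 ^ m := pow_le_pow_right₀ (by norm_num) (Finset.mem_range.mp hi).le
      _ = m * 2 ^ m := by simp
  exact mul_le_mul_of_nonneg_right this (by linarith)

/-- PERTURBATION LEMMA: if `|c|_w ≤ τ |a|_w` at all places, `τ ≤ 1/2`, `0 ≤ s ≤ 2`, then
`|F_s(a + c) - F_s(a)| ≤ K₀ τ F_s(a)` with `K₀ = 12 n 4^(6n)`. -/
lemma abs_F_add_sub_le {a c : K} {τ : ℝ} (hτ0 : 0 ≤ τ) (hτ : τ ≤ 1 / 2)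
    (h : ∀ w : InfinitePlace K, w c ≤ τ * w a) (ha : a ≠ 0) (hac : a + c ≠ 0)
    {s : ℝ} (hs0 : 0 ≤ s) (hs2 : s ≤ 2) :
    |F K s (a + c) - F K s a| ≤
      (12 * finrank ℚ K * 4 ^ (6 * finrank ℚ K)) * τ * F K s a := by
  set m := 6 * finrank ℚ K with hm
  have hρ1 : (1 : ℝ) ≤ 1 + 2 * τ := by linarith
  have hρ2 : (1 : ℝ) + 2 * τ ≤ 2 := by linarith
  have h0 := (close_add hτ0 hτ h).abs_F_sub_le hρ1 ha hac hs0 hs2
  have h3 := pow_sub_one_le hρ1 hρ2 m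
  have h4 : (1 + 2 * τ) ^ m ≤ 2 ^ m := pow_le_pow_left₀ (by linarith) hρ2 m
  have hF := F_nonneg s a
  have h5 : (0 : ℝ) ≤ (1 + 2 * τ) ^ m - 1 := by
    have := one_le_pow₀ (n := m) hρ1; linarith
  have e4 : (4 : ℝ) ^ m = 2 ^ m * 2 ^ m := by rw [← mul_pow]; norm_num
  calc |F K s (a + c) - F K s a| ≤ ((1 + 2 * τ) ^ m - 1) * (1 + 2 * τ) ^ m * F K s a := h0
    _ ≤ ((m : ℝ) * 2 ^ m * ((1 + 2 * τ) - 1)) * 2 ^ m * F K s a := by
        gcongr
    _ = (12 * finrank ℚ K * 4 ^ m) * τ * F K s a := by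
        rw [e4, hm]; push_cast; ring

lemma nu_eq_zero_iff {a : K} : nu K a = 0 ↔ a = 0 := by
  constructor
  · intro h
    by_contra ha
    exact (nu_pos ha).ne' h
  · rintro rfl; simp

/-- version of `exists_F_le_place` valid also for `a = 0`. -/
lemma exists_F_le_place' :
    ∃ C : ℝ, 0 < C ∧ ∀ (s : ℝ), 1 ≤ s → s ≤ 2 → ∀ (a : 𝓞 K) (w : InfinitePlace K),
      F K s (a : K) ≤ C * w (a : K) * (nu K (a : K) ^ (finrank ℚ K + 1))⁻¹ := by
  obtain ⟨C, hC, h⟩ := exists_F_le_place (K := K)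
  refine ⟨C, hC, fun s hs1 hs2 a w ↦ ?_⟩
  by_cases ha : a = 0
  · subst ha; simp
  · exact h s hs1 hs2 a ha w

/-- SHIFT LEMMA: `|F_s(a + c) - F_s(a)| ≤ A ν(c) (ν(a)^(-n-1) + ν(a+c)^(-n-1))` for all
integral `a`, `c` and `1 ≤ s ≤ 2`. -/
lemma exists_shift_bound :
    ∃ A : ℝ, 0 ≤ A ∧ ∀ (s : ℝ), 1 ≤ s → s ≤ 2 → ∀ a c : 𝓞 K,
      |F K s ((a : K) + (c : K)) - F K s (a : K)| ≤
        A * nu K (c : K) * ((nu K (a : K) ^ (finrank ℚ K + 1))⁻¹ +
          (nu K ((a : K) + (c : K)) ^ (finrank ℚ K + 1))⁻¹) := by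
  obtain ⟨C, hC, hF⟩ := exists_F_le_place' (K := K)
  refine ⟨12 * finrank ℚ K * 4 ^ (6 * finrank ℚ K) * C + 3 * C, by positivity,
    fun s hs1 hs2 a c ↦ ?_⟩
  set K0 : ℝ := 12 * finrank ℚ K * 4 ^ (6 * finrank ℚ K) with hK0
  have hK0nn : 0 ≤ K0 := by positivity
  set X := (nu K (a : K) ^ (finrank ℚ K + 1))⁻¹ with hXdef
  set Y := (nu K ((a : K) + (c : K)) ^ (finrank ℚ K + 1))⁻¹ with hYdef
  have hX : 0 ≤ X := inv_nu_pow_nonneg _ _
  have hY : 0 ≤ Y := inv_nu_pow_nonneg _ _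
  have hνc := nu_nonneg (c : K)
  have hFa := F_nonneg s (a : K)
  have hFac := F_nonneg s ((a : K) + (c : K))
  by_cases h : ∀ w : InfinitePlace K, 2 * nu K (c : K) ≤ w (a : K)
  · by_cases ha : (a : K) = 0
    · -- then c = 0
      obtain ⟨w⟩ := (inferInstance : Nonempty (InfinitePlace K))
      have h1 := h w
      rw [ha, map_zero] at h1
      have hc0 : nu K (c : K) = 0 := by linarith
      have hc : (c : K) = 0 := nu_eq_zero_iff.mp hc0
      have e : |F K s ((a : K) + (c : K)) - F K s (a : K)| = 0 := by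
        rw [hc, add_zero, sub_self, abs_zero]
      rw [e]
      exact mul_nonneg (mul_nonneg (add_nonneg (mul_nonneg hK0nn hC.le) (by positivity)) hνc)
        (add_nonneg hX hY)
    · obtain ⟨w0, hw0pos, hw0min⟩ := exists_pos_le_place ha
      have hac : (a : K) + (c : K) ≠ 0 := by
        intro h0
        have hc : (c : K) = -(a : K) := by linear_combination h0
        have h1 := h w0
        have h2 : w0 (c : K) = w0 (a : K) := by rw [hc]; exact w0.1.map_neg _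
        have h3 := place_le_nu w0 (c : K)
        linarith
      set τ := nu K (c : K) / w0 (a : K) with hτdef
      have hτ0 : 0 ≤ τ := div_nonneg hνc hw0pos.le
      have hτ : τ ≤ 1 / 2 := by
        rw [hτdef, div_le_iff₀ hw0pos]; linarith [h w0]
      have hτw : τ * w0 (a : K) = nu K (c : K) := by
        rw [hτdef]; field_simp
      have hclose : ∀ w : InfinitePlace K, w (c : K) ≤ τ * w (a : K) := fun w ↦ by
        calc w (c : K) ≤ nu K (c : K) := place_le_nu w _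
          _ = τ * w0 (a : K) := hτw.symm
          _ ≤ τ * w (a : K) := by gcongr; exact hw0min w
      have h1 := abs_F_add_sub_le hτ0 hτ hclose ha hac (by linarith : (0:ℝ) ≤ s) hs2
      have h2 := hF s hs1 hs2 a w0
      calc |F K s ((a : K) + (c : K)) - F K s (a : K)| ≤ K0 * τ * F K s (a : K) := h1
        _ ≤ K0 * τ * (C * w0 (a : K) * X) := by gcongr
        _ = K0 * C * (τ * w0 (a : K)) * X := by ring
        _ = K0 * C * nu K (c : K) * X := by rw [hτw]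
        _ ≤ (K0 * C + 3 * C) * nu K (c : K) * (X + Y) := by
            have : 0 ≤ C * nu K (c : K) := by positivity
            nlinarith [mul_nonneg this hX, mul_nonneg this hY,
              mul_nonneg (mul_nonneg hK0nn this) hY]
  · simp only [not_forall, not_le] at h
    obtain ⟨w1, hw1⟩ := h
    have h2 := hF s hs1 hs2 a w1
    have h3 := hF s hs1 hs2 (a + c) w1
    have ecast : (((a + c : 𝓞 K)) : K) = (a : K) + (c : K) := by push_cast; rfl
    rw [ecast] at h3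
    have h4 : w1 ((a : K) + (c : K)) ≤ 3 * nu K (c : K) := by
      calc w1 ((a : K) + (c : K)) ≤ w1 (a : K) + w1 (c : K) := place_add_le _ _ _
        _ ≤ 2 * nu K (c : K) + nu K (c : K) := add_le_add hw1.le (place_le_nu _ _)
        _ = 3 * nu K (c : K) := by ring
    have h5 : F K s (a : K) ≤ C * (2 * nu K (c : K)) * X :=
      h2.trans (by gcongr)
    have h6 : F K s ((a : K) + (c : K)) ≤ C * (3 * nu K (c : K)) * Y :=
      h3.trans (by gcongr)
    have h7 : |F K s ((a : K) + (c : K)) - F K s (a : K)| ≤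
        F K s ((a : K) + (c : K)) + F K s (a : K) := by
      rw [abs_le]; constructor <;> linarith
    have : 0 ≤ C * nu K (c : K) := by positivity
    nlinarith [mul_nonneg this hX, mul_nonneg this hY, mul_nonneg (mul_nonneg hK0nn this) hY,
      mul_nonneg (mul_nonneg hK0nn this) hX]

/-! ### Lattice sums -/

/-- `F_s` is summable over `𝓞 K` for `1 < s ≤ 2`. -/
lemma summable_F {s : ℝ} (hs1 : 1 < s) (hs2 : s ≤ 2) :
    Summable fun x : 𝓞 K ↦ F K s (x : K) := by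
  obtain ⟨C, hC, h⟩ := exists_F_le (K := K)
  set n := finrank ℚ K with hn
  have hnpos : 0 < n := finrank_pos'
  have hr : -((n : ℝ) * s) < -(finrank ℤ (mixedEmbedding.integerLattice K) : ℝ) := by
    rw [finrank_integerLattice]
    have : (0 : ℝ) < n := by exact_mod_cast hnpos
    nlinarith
  have hsum := ((ZLattice.summable_norm_rpow (mixedEmbedding.integerLattice K) _ hr).comp_injective
    (toLat_injective (K := K))).mul_left C
  refine Summable.of_nonneg_of_le (fun x ↦ F_nonneg s _) (fun x ↦ ?_) hsum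
  show F K s (x : K) ≤ C * ‖toLat K x‖ ^ (-((n : ℝ) * s))
  rw [norm_toLat]
  by_cases hx : (x : K) = 0
  · rw [hx, F_zero]
    exact mul_nonneg hC.le (Real.rpow_nonneg (nu_nonneg _) _)
  · have hν := nu_pos hx
    have h1 : aN (x : K) ^ (2 - s) ≤ nu K (x : K) ^ ((n : ℝ) * (2 - s)) := by
      rw [Real.rpow_natCast_mul hν.le]
      exact Real.rpow_le_rpow (aN_nonneg _) (aN_le_nu_pow _) (by linarith)
    have h2 : (nu K (x : K) ^ (2 * n))⁻¹ = nu K (x : K) ^ (-(2 * (n : ℝ))) := by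
      rw [Real.rpow_neg hν.le, ← Real.rpow_natCast]; push_cast; rfl
    have h3 : nu K (x : K) ^ ((n : ℝ) * (2 - s)) * nu K (x : K) ^ (-(2 * (n : ℝ))) =
        nu K (x : K) ^ (-((n : ℝ) * s)) := by
      rw [← Real.rpow_add hν]; congr 1; ring
    calc F K s (x : K) ≤ C * aN (x : K) ^ (2 - s) * (nu K (x : K) ^ (2 * n))⁻¹ := h s _ hx
      _ ≤ C * nu K (x : K) ^ ((n : ℝ) * (2 - s)) * (nu K (x : K) ^ (2 * n))⁻¹ :=
          mul_le_mul_of_nonneg_right (mul_le_mul_of_nonneg_left h1 hC.le)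
            (inv_nu_pow_nonneg _ _)
      _ = C * nu K (x : K) ^ (-((n : ℝ) * s)) := by rw [h2, mul_assoc, h3]

/-- the coset decomposition `𝓞 K ≃ (𝓞 K ⧸ J) × J`. -/
noncomputable def cosetEquiv (J : Ideal (𝓞 K)) : (𝓞 K ⧸ J) × J ≃ 𝓞 K where
  toFun p := (p.2 : 𝓞 K) + Quotient.out p.1
  invFun y := (Ideal.Quotient.mk J y,
    ⟨y - Quotient.out (Ideal.Quotient.mk J y), by
      rw [← Ideal.Quotient.eq, Ideal.Quotient.mk_out]⟩)
  left_inv := by
    rintro ⟨q, x⟩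
    have h1 : Ideal.Quotient.mk J ((x : 𝓞 K) + Quotient.out q) = q := by
      rw [map_add, Ideal.Quotient.mk_out, Ideal.Quotient.eq_zero_iff_mem.mpr x.2, zero_add]
    ext
    · exact h1
    · simp only [h1]; simp
  right_inv := by
    intro y
    simp

lemma tsum_eq_sum_cosets (J : Ideal (𝓞 K)) [Fintype (𝓞 K ⧸ J)] {f : 𝓞 K → ℝ}
    (hf : Summable f) :
    ∑' y : 𝓞 K, f y = ∑ q : 𝓞 K ⧸ J, ∑' x : J, f ((x : 𝓞 K) + Quotient.out q) := by
  have hs : Summable (fun p : (𝓞 K ⧸ J) × J ↦ f (cosetEquiv J p)) :=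
    (cosetEquiv J).summable_iff.mpr hf
  rw [← (cosetEquiv J).tsum_eq f, hs.tsum_prod' (fun q ↦ ?_), tsum_fintype]
  · rfl
  · exact hf.comp_injective (fun x y h ↦ Subtype.ext (add_right_cancel h))

variable (K) in
/-- `T = ∑_{y ∈ 𝓞 K} ν(y)^(-(n+1))`. -/
noncomputable def latT : ℝ := ∑' y : 𝓞 K, (nu K (y : K) ^ (finrank ℚ K + 1))⁻¹

lemma summable_latT : Summable fun y : 𝓞 K ↦ (nu K (y : K) ^ (finrank ℚ K + 1))⁻¹ :=
  summable_nu_pow_inv (Nat.lt_succ_self _)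

lemma latT_nonneg : 0 ≤ latT K := tsum_nonneg fun y ↦ inv_nu_pow_nonneg _ _

/-- shifting a sub-lattice sum of `F_s` changes it by a bounded amount. -/
lemma exists_shift_sum_bound :
    ∃ A : ℝ, 0 ≤ A ∧ ∀ (s : ℝ), 1 < s → s ≤ 2 → ∀ (J : Ideal (𝓞 K)) (c : 𝓞 K),
      |∑' x : J, F K s (((x : 𝓞 K) + c : 𝓞 K) : K) - ∑' x : J, F K s ((x : 𝓞 K) : K)| ≤
        A * nu K (c : K) := by
  obtain ⟨A, hA, h⟩ := exists_shift_bound (K := K)
  refine ⟨A * (2 * latT K), mul_nonneg hA (mul_nonneg (by norm_num) latT_nonneg),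
    fun s hs1 hs2 J c ↦ ?_⟩
  have hF := summable_F (K := K) hs1 hs2
  have hT := summable_latT (K := K)
  have inj1 : Function.Injective fun x : J ↦ (x : 𝓞 K) + c :=
    fun x y h ↦ Subtype.ext (add_right_cancel h)
  have inj0 : Function.Injective fun x : J ↦ (x : 𝓞 K) := Subtype.val_injective
  have s1 : Summable fun x : J ↦ F K s (((x : 𝓞 K) + c : 𝓞 K) : K) := hF.comp_injective inj1
  have s0 : Summable fun x : J ↦ F K s ((x : 𝓞 K) : K) := hF.comp_injective inj0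
  have t1 : Summable fun x : J ↦ (nu K ((((x : 𝓞 K) + c : 𝓞 K)) : K) ^ (finrank ℚ K + 1))⁻¹ :=
    hT.comp_injective inj1
  have t0 : Summable fun x : J ↦ (nu K ((x : 𝓞 K) : K) ^ (finrank ℚ K + 1))⁻¹ :=
    hT.comp_injective inj0
  have le1 : ∑' x : J, (nu K ((((x : 𝓞 K) + c : 𝓞 K)) : K) ^ (finrank ℚ K + 1))⁻¹ ≤ latT K :=
    tsum_comp_le_tsum_of_inj hT (fun y ↦ inv_nu_pow_nonneg _ _) inj1
  have le0 : ∑' x : J, (nu K ((x : 𝓞 K) : K) ^ (finrank ℚ K + 1))⁻¹ ≤ latT K :=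
    tsum_comp_le_tsum_of_inj hT (fun y ↦ inv_nu_pow_nonneg _ _) inj0
  have hνc := nu_nonneg (c : K)
  have hd := s1.sub s0
  rw [← Summable.tsum_sub s1 s0]
  calc |∑' x : J, (F K s (((x : 𝓞 K) + c : 𝓞 K) : K) - F K s ((x : 𝓞 K) : K))|
      ≤ ∑' x : J, |F K s (((x : 𝓞 K) + c : 𝓞 K) : K) - F K s ((x : 𝓞 K) : K)| := by
        have := norm_tsum_le_tsum_norm hd.norm
        simpa [Real.norm_eq_abs] using this
    _ ≤ ∑' x : J, A * nu K (c : K) * ((nu K ((x : 𝓞 K) : K) ^ (finrank ℚ K + 1))⁻¹ +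
          (nu K ((((x : 𝓞 K) + c : 𝓞 K)) : K) ^ (finrank ℚ K + 1))⁻¹) := by
        refine Summable.tsum_le_tsum (fun x ↦ ?_) hd.abs ((t0.add t1).mul_left _)
        have := h s hs1.le hs2 (x : 𝓞 K) c
        simpa using this
    _ = A * nu K (c : K) * (∑' x : J, (nu K ((x : 𝓞 K) : K) ^ (finrank ℚ K + 1))⁻¹ +
          ∑' x : J, (nu K ((((x : 𝓞 K) + c : 𝓞 K)) : K) ^ (finrank ℚ K + 1))⁻¹) := by
        rw [tsum_mul_left, Summable.tsum_add t0 t1]
    _ ≤ A * nu K (c : K) * (latT K + latT K) := by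
        gcongr
    _ = A * (2 * latT K) * nu K (c : K) := by ring

end Fermat.Agent.S14.helper3886
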