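/-
S14 moonshot, leaf LOCPOW (seat helper4204): completion-free local `p`-th powers at a finite
place of a number field.  Imports Mathlib + helper1892_M6Defs (definitions only).

Main results (`F` a number field, `v : HeightOneSpectrum (𝓞 F)`, `p` prime, `e = ordP v p`
the exponent of `v` in `(p)`, `Nv = Ideal.absNorm v.asIdeal`):

* `exists_root_sub_mem`, `pow_sub_one_mem_of_sub_root_mem` : for `2 * e ≤ N`,
  `x ^ p ≡ 1 mod v ^ N` iff `x ≡ η mod v ^ (N - e)` for some `p`-th root of unity `η`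
  (Dedekind domain with a primitive `p`-th root of unity).
* `card_pow_eq_one`, `card_units_pow_eq_one`, `index_range_pow_units` (LP1): for `2 * e < N`
  the group `(𝓞 F ⧸ v ^ N)ˣ` has exactly `p * Nv ^ e` elements of order dividing `p`, and its
  subgroup of `p`-th powers has index `p * Nv ^ e`.
* `exists_pow_sub_le`, `locPow_of_valuation_sub_one_le` (LP2, Hensel by hand): if
  `ord_v (x - 1) ≥ N > 2 * e` then `x` is a local `p`-th power (`helper1892.LocPow p v x`).
* `index_locPowSubgroup` (LP3): `helper1892.locPowSubgroup p v` has finite index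
  `≤ p ^ 2 * Nv ^ e` in `Fˣ`.
* `index_locPowS`, `stmt_locIndex` (LP4): `helper1892.Stmt_LocIndex F p`, i.e. for every finite
  set `S` of places `[Fˣ : locPowS p S] ≤ p ^ (2 * #S + [F:ℚ])` (and is finite).
-/
import Mathlib
import Fermat.Agent.S14.helper1892_M6Defs

set_option autoImplicit false

open IsDedekindDomain IsDedekindDomain.HeightOneSpectrum WithZero Polynomial

namespace Fermat.Agent.S14.helper4204

noncomputable section

open scoped Classical in
/-- `∏_{η ≠ η₀} (η₀ - η) = p * η₀ ^ (p - 1)` over the `p`-th roots of unity. -/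
theorem prod_erase_sub_eq {R : Type*} [CommRing R] [IsDomain R] {p : ℕ} (hp : 0 < p) {ζ : R}
    (hζ : IsPrimitiveRoot ζ p) {η₀ : R} (hη₀ : η₀ ∈ nthRootsFinset p (1 : R)) :
    ∏ η ∈ (nthRootsFinset p (1 : R)).erase η₀, (η₀ - η) = (p : R) * η₀ ^ (p - 1) := by
  have h := X_pow_sub_one_eq_prod hp hζ
  have h2 : eval η₀ (derivative (X ^ p - 1 : R[X])) =
      eval η₀ (derivative (∏ ζ ∈ nthRootsFinset p (1 : R), (X - C ζ))) := by rw [h]
  have h3 : (∏ ζ ∈ nthRootsFinset p (1 : R), (X - C ζ)) =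
      (Multiset.map (fun a => X - C a) (nthRootsFinset p (1 : R)).val).prod := rfl
  rw [h3, eval_multiset_prod_X_sub_C_derivative (Finset.mem_val.mpr hη₀)] at h2
  have h4 : (Multiset.map (fun a => η₀ - a) ((nthRootsFinset p (1 : R)).val.erase η₀)).prod =
      ∏ η ∈ (nthRootsFinset p (1 : R)).erase η₀, (η₀ - η) := by
    rw [Finset.prod, Finset.erase_val]
  rw [h4] at h2
  rw [← h2]
  simp [derivative_X_pow]

/-- `x ^ p - 1 = ∏_η (x - η)` over the `p`-th roots of unity. -/
theorem pow_sub_one_eq_prod_roots {R : Type*} [CommRing R] [IsDomain R] {p : ℕ} (hp : 0 < p)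
    {ζ : R} (hζ : IsPrimitiveRoot ζ p) (x : R) :
    x ^ p - 1 = ∏ η ∈ nthRootsFinset p (1 : R), (x - η) := by
  have h := congrArg (eval x) (X_pow_sub_one_eq_prod hp hζ)
  simpa [eval_prod] using h

section Val

variable {R : Type*} [CommRing R] [IsDedekindDomain R] (v : HeightOneSpectrum R)

/-- a `p`-th root of unity has valuation one -/
theorem intValuation_root_eq_one {p : ℕ} (hp : 0 < p) {η : R}
    (hη : η ∈ nthRootsFinset p (1 : R)) : v.intValuation η = 1 := by
  have h1 : η ^ p = 1 := (mem_nthRootsFinset hp 1).mp hη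
  have h2 : v.intValuation η ^ p = 1 := by rw [← map_pow, h1, map_one]
  rcases lt_or_eq_of_le (v.intValuation_le_one η) with h | h
  · exact absurd h2 (ne_of_lt (pow_lt_one₀ zero_le h hp.ne'))
  · exact h

open scoped Classical in
/-- the product of the valuations of `η₀ - η`, `η ≠ η₀`, is the valuation of `p`. -/
theorem prod_intValuation_erase {p : ℕ} (hp : 0 < p) {ζ : R} (hζ : IsPrimitiveRoot ζ p) {η₀ : R}
    (hη₀ : η₀ ∈ nthRootsFinset p (1 : R)) :
    ∏ η ∈ (nthRootsFinset p (1 : R)).erase η₀, v.intValuation (η₀ - η) =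
      v.intValuation (p : R) := by
  rw [← map_prod, prod_erase_sub_eq hp hζ hη₀, map_mul, map_pow,
    intValuation_root_eq_one v hp hη₀, one_pow, mul_one]

open scoped Classical in
/-- distinct `p`-th roots of unity are at distance at least `v p`. -/
theorem intValuation_le_sub_roots {p : ℕ} (hp : 0 < p) {ζ : R} (hζ : IsPrimitiveRoot ζ p)
    {η₀ η : R} (hη₀ : η₀ ∈ nthRootsFinset p (1 : R)) (hη : η ∈ nthRootsFinset p (1 : R))
    (hne : η ≠ η₀) : v.intValuation (p : R) ≤ v.intValuation (η₀ - η) := by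
  rw [← prod_intValuation_erase v hp hζ hη₀]
  have hmem : η ∈ (nthRootsFinset p (1 : R)).erase η₀ := Finset.mem_erase.mpr ⟨hne, hη⟩
  rw [← Finset.mul_prod_erase _ _ hmem]
  calc v.intValuation (η₀ - η) * ∏ x ∈ ((nthRootsFinset p (1 : R)).erase η₀).erase η,
        v.intValuation (η₀ - x)
      ≤ v.intValuation (η₀ - η) * 1 := by
        gcongr
        exact Finset.prod_le_one' (fun i _ => v.intValuation_le_one _)
    _ = v.intValuation (η₀ - η) := mul_one _

/-- **Key lemma (direct)**: if `x ^ p ≡ 1 mod v ^ N` then `x ≡ η mod v ^ (N - e)` for some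
`p`-th root of unity `η`, where `e = ord_v p`. -/
theorem exists_root_sub_mem {p : ℕ} (hp : 0 < p) {ζ : R} (hζ : IsPrimitiveRoot ζ p)
    {e N : ℕ} (he : v.intValuation (p : R) = exp (-(e : ℤ))) {x : R}
    (hx : x ^ p - 1 ∈ v.asIdeal ^ N) :
    ∃ η ∈ nthRootsFinset p (1 : R), x - η ∈ v.asIdeal ^ (N - e) := by
  classical
  have hne : (nthRootsFinset p (1 : R)).Nonempty := ⟨1, (mem_nthRootsFinset hp 1).mpr (one_pow p)⟩
  obtain ⟨η₀, hη₀, hmin⟩ := Finset.exists_min_image _ (fun η => v.intValuation (x - η)) hne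
  refine ⟨η₀, hη₀, ?_⟩
  rw [← intValuation_le_pow_iff_mem] at hx ⊢
  rw [pow_sub_one_eq_prod_roots hp hζ x, map_prod, ← Finset.mul_prod_erase _ _ hη₀] at hx
  have h1 : v.intValuation (x - η₀) * v.intValuation (p : R) ≤ exp (-(N : ℤ)) := by
    refine le_trans ?_ hx
    rw [← prod_intValuation_erase v hp hζ hη₀]
    gcongr with η hη
    · intro i _; simp
    have hη' := (Finset.mem_erase.mp hη).2
    have : η₀ - η = (x - η) - (x - η₀) := by ring
    rw [this]
    exact le_trans (Valuation.map_sub _ _ _) (max_le le_rfl (hmin η hη'))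
  rw [he] at h1
  by_cases hNe : e ≤ N
  · have h2 : v.intValuation (x - η₀) ≤ exp (-(N : ℤ)) * exp (e : ℤ) := by
      calc v.intValuation (x - η₀) = v.intValuation (x - η₀) * exp (-(e : ℤ)) * exp (e : ℤ) := by
            rw [mul_assoc, ← exp_add]; simp
        _ ≤ exp (-(N : ℤ)) * exp (e : ℤ) := by gcongr
    refine le_trans h2 ?_
    rw [← exp_add, exp_le_exp]
    omega
  · have : N - e = 0 := by omega
    rw [this]
    simpa using v.intValuation_le_one _

/-- **Key lemma (converse)**: if `x ≡ η mod v ^ (N - e)` for a `p`-th root of unity `η`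
and `2 * e ≤ N`, then `x ^ p ≡ 1 mod v ^ N`. -/
theorem pow_sub_one_mem_of_sub_root_mem {p : ℕ} (hp : 0 < p) {ζ : R} (hζ : IsPrimitiveRoot ζ p)
    {e N : ℕ} (he : v.intValuation (p : R) = exp (-(e : ℤ))) (hN : 2 * e ≤ N) {x η₀ : R}
    (hη₀ : η₀ ∈ nthRootsFinset p (1 : R)) (hx : x - η₀ ∈ v.asIdeal ^ (N - e)) :
    x ^ p - 1 ∈ v.asIdeal ^ N := by
  classical
  rw [← intValuation_le_pow_iff_mem] at hx ⊢
  rw [pow_sub_one_eq_prod_roots hp hζ x, map_prod, ← Finset.mul_prod_erase _ _ hη₀]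
  have h1 : ∏ η ∈ (nthRootsFinset p (1 : R)).erase η₀, v.intValuation (x - η) ≤
      v.intValuation (p : R) := by
    rw [← prod_intValuation_erase v hp hζ hη₀]
    gcongr with η hη
    · intro i _; simp
    have hη' := Finset.mem_erase.mp hη
    have : x - η = (x - η₀) + (η₀ - η) := by ring
    rw [this]
    refine le_trans (Valuation.map_add _ _ _) (max_le ?_ le_rfl)
    refine le_trans hx (le_trans ?_ (intValuation_le_sub_roots v hp hζ hη₀ hη'.2 hη'.1))
    rw [he, exp_le_exp]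
    omega
  calc v.intValuation (x - η₀) * ∏ η ∈ (nthRootsFinset p (1 : R)).erase η₀, v.intValuation (x - η)
      ≤ exp (-((N - e : ℕ) : ℤ)) * exp (-(e : ℤ)) := by
        rw [← he]; gcongr
    _ = exp (-(N : ℤ)) := by
        rw [← exp_add]; congr 1; omega

end Val

/-! ### Part B: counting `p`-torsion in `(𝓞 F ⧸ v ^ N)ˣ` -/

section Count

open NumberField

variable {F : Type*} [Field F] [NumberField F] (v : HeightOneSpectrum (𝓞 F))

theorem absNorm_pos : 0 < Ideal.absNorm v.asIdeal :=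
  Nat.pos_of_ne_zero (fun h => v.ne_bot (Ideal.absNorm_eq_zero_iff.mp h))

theorem card_quot_pow (N : ℕ) :
    Nat.card (𝓞 F ⧸ v.asIdeal ^ N) = Ideal.absNorm v.asIdeal ^ N := by
  rw [← Submodule.cardQuot_apply, ← Ideal.absNorm_apply, map_pow]

theorem finite_quot_pow (N : ℕ) : Finite (𝓞 F ⧸ v.asIdeal ^ N) := by
  apply Nat.finite_of_card_ne_zero
  rw [card_quot_pow]
  exact (pow_pos (absNorm_pos v) N).ne'

/-- the kernel of `𝓞/v^N → 𝓞/v^(N-e)` has `Nv ^ e` elements -/
theorem card_ker_factor {e N : ℕ} (heN : e ≤ N) :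
    Nat.card (RingHom.ker (Ideal.Quotient.factor
      (Ideal.pow_le_pow_right (Nat.sub_le N e) : v.asIdeal ^ N ≤ v.asIdeal ^ (N - e)))) =
      Ideal.absNorm v.asIdeal ^ e := by
  set π := Ideal.Quotient.factor
      (Ideal.pow_le_pow_right (Nat.sub_le N e) : v.asIdeal ^ N ≤ v.asIdeal ^ (N - e)) with hπ
  have hsurj : Function.Surjective π := Ideal.Quotient.factor_surjective _
  have h1 := Submodule.card_eq_card_quotient_mul_card (RingHom.ker π)
  have h2 : Nat.card ((𝓞 F ⧸ v.asIdeal ^ N) ⧸ RingHom.ker π) = Nat.card (𝓞 F ⧸ v.asIdeal ^ (N - e)) :=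
    Nat.card_congr (RingHom.quotientKerEquivOfSurjective hsurj).toEquiv
  rw [h2, card_quot_pow, card_quot_pow] at h1
  have h3 : Ideal.absNorm v.asIdeal ^ N =
      Ideal.absNorm v.asIdeal ^ e * Ideal.absNorm v.asIdeal ^ (N - e) := by
    rw [← pow_add]; congr 1; omega
  rw [h3] at h1
  exact (Nat.eq_of_mul_eq_mul_right (pow_pos (absNorm_pos v) (N - e)) h1).symm

/-- **(LP1)**, ring form: the number of solutions of `x ^ p = 1` in `𝓞 F ⧸ v ^ N` is
`p * Nv ^ e`, where `e = ord_v p` and `2 * e < N`. -/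
theorem card_pow_eq_one {p : ℕ} (hp : 0 < p) {ζ : 𝓞 F} (hζ : IsPrimitiveRoot ζ p) {e N : ℕ}
    (he : v.intValuation (p : 𝓞 F) = exp (-(e : ℤ))) (hN : 2 * e < N) :
    Nat.card {x : 𝓞 F ⧸ v.asIdeal ^ N // x ^ p = 1} = p * Ideal.absNorm v.asIdeal ^ e := by
  classical
  have hIJ : v.asIdeal ^ N ≤ v.asIdeal ^ (N - e) := Ideal.pow_le_pow_right (Nat.sub_le N e)
  set π := Ideal.Quotient.factor hIJ with hπ
  -- the bijection `(η, k) ↦ η + k`
  have hwd : ∀ (η : nthRootsFinset p (1 : 𝓞 F)) (k : RingHom.ker π),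
      (Ideal.Quotient.mk (v.asIdeal ^ N) (η : 𝓞 F) + (k : 𝓞 F ⧸ v.asIdeal ^ N)) ^ p = 1 := by
    rintro ⟨η, hη⟩ ⟨k, hk⟩
    obtain ⟨t, rfl⟩ := Ideal.Quotient.mk_surjective k
    rw [RingHom.mem_ker, hπ, Ideal.Quotient.factor_mk, Ideal.Quotient.eq_zero_iff_mem] at hk
    show (Ideal.Quotient.mk (v.asIdeal ^ N) η + Ideal.Quotient.mk (v.asIdeal ^ N) t) ^ p = 1
    rw [← map_add, ← map_pow, ← map_one (Ideal.Quotient.mk (v.asIdeal ^ N)), Ideal.Quotient.eq]
    apply pow_sub_one_mem_of_sub_root_mem v hp hζ he hN.le hη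
    simpa using hk
  let f : nthRootsFinset p (1 : 𝓞 F) × RingHom.ker π → {x : 𝓞 F ⧸ v.asIdeal ^ N // x ^ p = 1} :=
    fun a => ⟨_, hwd a.1 a.2⟩
  have hf : Function.Bijective f := by
    constructor
    · rintro ⟨⟨η, hη⟩, ⟨k, hk⟩⟩ ⟨⟨η', hη'⟩, ⟨k', hk'⟩⟩ h
      have h1 : Ideal.Quotient.mk (v.asIdeal ^ N) η + k =
          Ideal.Quotient.mk (v.asIdeal ^ N) η' + k' := congrArg Subtype.val h
      have h2 := congrArg π h1
      rw [map_add, map_add, RingHom.mem_ker.mp hk, RingHom.mem_ker.mp hk', add_zero, add_zero,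
        hπ, Ideal.Quotient.factor_mk, Ideal.Quotient.factor_mk, Ideal.Quotient.eq,
        ← intValuation_le_pow_iff_mem] at h2
      have hηη' : η = η' := by
        by_contra hne
        have h3 := intValuation_le_sub_roots v hp hζ hη hη' (Ne.symm hne)
        rw [he] at h3
        have h4 := le_trans h3 h2
        rw [exp_le_exp] at h4
        omega
      subst hηη'
      have hkk' : k = k' := add_left_cancel h1
      subst hkk'
      rfl
    · rintro ⟨x, hx⟩
      obtain ⟨x, rfl⟩ := Ideal.Quotient.mk_surjective x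
      rw [← map_pow, ← map_one (Ideal.Quotient.mk (v.asIdeal ^ N)), Ideal.Quotient.eq] at hx
      obtain ⟨η, hη, hxη⟩ := exists_root_sub_mem v hp hζ he hx
      refine ⟨⟨⟨η, hη⟩, ⟨Ideal.Quotient.mk (v.asIdeal ^ N) (x - η), ?_⟩⟩, ?_⟩
      · rw [RingHom.mem_ker, hπ, Ideal.Quotient.factor_mk, Ideal.Quotient.eq_zero_iff_mem]
        exact hxη
      · apply Subtype.ext
        show Ideal.Quotient.mk (v.asIdeal ^ N) η + Ideal.Quotient.mk (v.asIdeal ^ N) (x - η) =
          Ideal.Quotient.mk (v.asIdeal ^ N) x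
        rw [← map_add]; congr 1; ring
  rw [← Nat.card_congr (Equiv.ofBijective f hf), Nat.card_prod, Nat.card_eq_finsetCard,
    IsPrimitiveRoot.card_nthRootsFinset hζ, hπ, card_ker_factor v (by omega : e ≤ N)]

/-- **(LP1)**, unit form: the number of `u ∈ (𝓞 F ⧸ v ^ N)ˣ` with `u ^ p = 1` is
`p * Nv ^ e`, where `e = ord_v p` and `2 * e < N`. -/
theorem card_units_pow_eq_one {p : ℕ} (hp : 0 < p) {ζ : 𝓞 F} (hζ : IsPrimitiveRoot ζ p)
    {e N : ℕ} (he : v.intValuation (p : 𝓞 F) = exp (-(e : ℤ))) (hN : 2 * e < N) :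
    Nat.card {u : (𝓞 F ⧸ v.asIdeal ^ N)ˣ // u ^ p = 1} = p * Ideal.absNorm v.asIdeal ^ e := by
  rw [← card_pow_eq_one v hp hζ he hN]
  refine Nat.card_congr
    { toFun := fun u => ⟨(u.1 : 𝓞 F ⧸ v.asIdeal ^ N), by
        have := congrArg Units.val u.2
        simpa using this⟩
      invFun := fun x => ⟨Units.ofPowEqOne x.1 p x.2 hp.ne', Units.pow_ofPowEqOne x.2 hp.ne'⟩
      left_inv := fun u => by
        apply Subtype.ext; apply Units.ext; rfl
      right_inv := fun x => by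
        apply Subtype.ext; rfl }

/-- in a finite commutative group the index of the `n`-th powers is the number of
`n`-torsion elements. -/
theorem index_range_pow_eq_card_ker {G : Type*} [CommGroup G] [Finite G] (n : ℕ) :
    (powMonoidHom n : G →* G).range.index = Nat.card (powMonoidHom n : G →* G).ker := by
  have h1 := Subgroup.card_mul_index (powMonoidHom n : G →* G).ker
  have h2 := Subgroup.card_mul_index (powMonoidHom n : G →* G).range
  rw [Subgroup.index_ker] at h1
  rw [← h1, mul_comm] at h2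
  exact Nat.eq_of_mul_eq_mul_right Nat.card_pos h2

/-- **(LP1)**, index form: the index of the `p`-th powers in `(𝓞 F ⧸ v ^ N)ˣ` is
`p * Nv ^ e`, where `e = ord_v p` and `2 * e < N`. -/
theorem index_range_pow_units {p : ℕ} (hp : 0 < p) {ζ : 𝓞 F} (hζ : IsPrimitiveRoot ζ p)
    {e N : ℕ} (he : v.intValuation (p : 𝓞 F) = exp (-(e : ℤ))) (hN : 2 * e < N) :
    (powMonoidHom p : (𝓞 F ⧸ v.asIdeal ^ N)ˣ →* (𝓞 F ⧸ v.asIdeal ^ N)ˣ).range.index =
      p * Ideal.absNorm v.asIdeal ^ e := by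
  have := finite_quot_pow v N
  rw [index_range_pow_eq_card_ker, ← card_units_pow_eq_one v hp hζ he hN]
  exact Nat.card_congr (Equiv.subtypeEquivRight (fun u => by simp [MonoidHom.mem_ker]))

end Count

/-! ### Part C: Hensel's lemma for `p`-th powers, by hand -/

section Hensel

open NumberField

variable {F : Type*} [Field F] [NumberField F] (v : HeightOneSpectrum (𝓞 F))

theorem valuation_natCast_le_one (n : ℕ) : v.valuation F (n : F) ≤ 1 := by
  rw [← map_natCast (algebraMap (𝓞 F) F)]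
  exact v.valuation_le_one _

/-- the binomial remainder: `(1 + s) ^ p - 1 - p * s` is small. -/
theorem valuation_one_add_pow_sub_le {p : ℕ} (hp : p.Prime) (s : F)
    (hs : v.valuation F s ≤ 1) :
    v.valuation F ((1 + s) ^ p - 1 - p * s) ≤
      max (v.valuation F (p : F) * v.valuation F s ^ 2) (v.valuation F s ^ p) := by
  obtain ⟨q, rfl⟩ : ∃ q, p = q + 2 := ⟨p - 2, by have := hp.two_le; omega⟩
  have h1 : (1 + s) ^ (q + 2) - 1 - ((q + 2 : ℕ) : F) * s =
      ∑ i ∈ Finset.range (q + 1), s ^ (i + 2) * ((q + 2).choose (i + 2) : F) := by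
    rw [add_comm 1 s, add_pow, Finset.sum_range_succ', Finset.sum_range_succ']
    simp only [one_pow, mul_one, pow_zero, Nat.choose_zero_right, Nat.cast_one, zero_add, pow_one,
      Nat.choose_one_right]
    ring
  rw [h1]
  apply Valuation.map_sum_le
  intro i hi
  rw [Finset.mem_range] at hi
  rw [map_mul, map_pow]
  rcases Nat.lt_succ_iff_lt_or_eq.mp hi with hlt | rfl
  · -- middle terms: the binomial coefficient is divisible by `p`
    apply le_max_of_le_left
    obtain ⟨c, hc⟩ := hp.dvd_choose_self (by omega : i + 2 ≠ 0) (by omega : i + 2 < q + 2)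
    rw [hc, Nat.cast_mul, map_mul, mul_comm]
    calc v.valuation F ((q + 2 : ℕ) : F) * v.valuation F (c : F) * v.valuation F s ^ (i + 2)
        ≤ v.valuation F ((q + 2 : ℕ) : F) * 1 * v.valuation F s ^ 2 :=
          mul_le_mul' (mul_le_mul' le_rfl (valuation_natCast_le_one v c))
            (pow_le_pow_of_le_one zero_le hs (show 2 ≤ i + 2 by omega))
      _ = v.valuation F ((q + 2 : ℕ) : F) * v.valuation F s ^ 2 := by rw [mul_one]
  · apply le_max_of_le_right
    simp

/-- **Hensel step**: improve an approximate `p`-th root. -/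
theorem exists_pow_sub_le {p : ℕ} (hp : p.Prime) {e N : ℕ}
    (he : v.valuation F (p : F) = exp (-(e : ℤ))) (hN : 2 * e < N) {x : F}
    (hx : v.valuation F (x - 1) ≤ exp (-(N : ℤ))) (k : ℕ) :
    ∃ y : F, v.valuation F y = 1 ∧ v.valuation F (x - y ^ p) ≤ exp (-((N + k : ℕ) : ℤ)) := by
  induction k with
  | zero => exact ⟨1, map_one _, by simpa using hx⟩
  | succ k ih =>
    obtain ⟨y, hy1, hy⟩ := ih
    have hp0 : (p : F) ≠ 0 := by
      intro h; rw [h, map_zero] at he; exact exp_ne_zero he.symm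
    have hy0 : y ≠ 0 := by
      intro h; rw [h, map_zero] at hy1; exact zero_ne_one hy1
    set d := x - y ^ p with hd
    set s := d / (p * y ^ p) with hs
    have hvs : v.valuation F s ≤ exp ((e : ℤ) - (N + k : ℕ)) := by
      rw [hs, map_div₀, map_mul, map_pow, hy1, one_pow, mul_one, he, exp_neg, div_inv_eq_mul,
        sub_eq_add_neg, add_comm, exp_add]
      gcongr
    have hvs1 : v.valuation F s < 1 := by
      refine lt_of_le_of_lt hvs ?_
      rw [← exp_zero, exp_lt_exp]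
      push_cast; omega
    refine ⟨y * (1 + s), by rw [map_mul, hy1, one_mul, (v.valuation F).map_one_add_of_lt hvs1], ?_⟩
    have hkey : x - (y * (1 + s)) ^ p = -(y ^ p * ((1 + s) ^ p - 1 - p * s)) := by
      have : y ^ p * (p * s) = d := by
        rw [hs]; field_simp
      rw [mul_pow, mul_sub, mul_sub, this, hd]; ring
    rw [hkey, Valuation.map_neg, map_mul, map_pow, hy1, one_pow, one_mul]
    refine le_trans (valuation_one_add_pow_sub_le v hp s hvs1.le) (max_le ?_ ?_)
    · calc v.valuation F (p : F) * v.valuation F s ^ 2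
          ≤ exp (-(e : ℤ)) * exp ((e : ℤ) - (N + k : ℕ)) ^ 2 := by
            rw [he]; gcongr
        _ = exp (-(e : ℤ) + 2 • ((e : ℤ) - (N + k : ℕ))) := by
            rw [exp_add, exp_nsmul]
        _ ≤ exp (-((N + (k + 1) : ℕ) : ℤ)) := by
            rw [exp_le_exp]; simp only [nsmul_eq_mul]; push_cast; omega
    · calc v.valuation F s ^ p ≤ exp ((e : ℤ) - (N + k : ℕ)) ^ p := by gcongr
        _ = exp (p • ((e : ℤ) - (N + k : ℕ))) := by rw [exp_nsmul]
        _ ≤ exp (-((N + (k + 1) : ℕ) : ℤ)) := by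
            rw [exp_le_exp]
            have h2 : (2 : ℤ) ≤ (p : ℤ) := by exact_mod_cast hp.two_le
            have h3 : (e : ℤ) - (N + k : ℕ) ≤ 0 := by push_cast; omega
            have h4 : (p : ℤ) * ((e : ℤ) - (N + k : ℕ)) ≤ 2 * ((e : ℤ) - (N + k : ℕ)) :=
              mul_le_mul_of_nonpos_right h2 h3
            simp only [nsmul_eq_mul]
            push_cast at h4 ⊢
            omega

end Hensel

/-! ### Part D: the index of the local `p`-th powers (in helper1892's `LocPow` language) -/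

section LocPow

open NumberField
open Fermat.Agent.S14.helper1892 (LocPow LocPowN locPowSubgroup locPowS)

variable {F : Type*} [Field F] [NumberField F] (v : HeightOneSpectrum (𝓞 F))

/-- `ord_v p`, the exponent of `v` in the factorisation of `(p)`. -/
def ordP (p : ℕ) : ℕ :=
  (Associates.mk v.asIdeal).count (Associates.mk (Ideal.span {(p : 𝓞 F)})).factors

theorem intValuation_natCast_eq {p : ℕ} (hp : p ≠ 0) :
    v.intValuation (p : 𝓞 F) = exp (-(ordP v p : ℤ)) :=
  v.intValuation_if_neg (Nat.cast_ne_zero.mpr hp)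

theorem valuation_natCast_eq {p : ℕ} (hp : p ≠ 0) :
    v.valuation F (p : F) = exp (-(ordP v p : ℤ)) := by
  have h : (p : F) = algebraMap (𝓞 F) F (p : 𝓞 F) := (map_natCast _ p).symm
  rw [h, valuation_of_algebraMap, intValuation_natCast_eq v hp]

/-- **(LP2) Hensel for `p`-th powers**: an element close to `1` is a local `p`-th power. -/
theorem locPow_of_valuation_sub_one_le {p : ℕ} (hp : p.Prime) {N : ℕ}
    (hN : 2 * ordP v p < N) {x : Fˣ} (hx : v.valuation F ((x : F) - 1) ≤ exp (-(N : ℤ))) :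
    LocPow p v x := by
  intro M
  obtain ⟨y, hy1, hy⟩ := exists_pow_sub_le v hp (valuation_natCast_eq v hp.ne_zero) hN hx M
  have hy0 : y ≠ 0 := by
    rintro rfl
    rw [map_zero] at hy1
    exact zero_ne_one hy1
  refine ⟨Units.mk0 y hy0, ?_⟩
  have h1 : (x : F) / y ^ p - 1 = ((x : F) - y ^ p) / y ^ p := by
    have := pow_ne_zero p hy0
    field_simp
  rw [Units.val_mk0, h1, map_div₀, map_pow, hy1, one_pow, div_one]
  refine le_trans hy ?_
  rw [exp_le_exp]; push_cast; omega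

/-- **(LP3)**: the local `p`-th powers at `v` have finite index at most `p ^ 2 * Nv ^ (ord_v p)`
in `Fˣ`. -/
theorem index_locPowSubgroup {p : ℕ} (hp : p.Prime) {ζ : F} (hζ : IsPrimitiveRoot ζ p) :
    (locPowSubgroup p v).index ≠ 0 ∧
      (locPowSubgroup p v).index ≤ p ^ 2 * Ideal.absNorm v.asIdeal ^ ordP v p := by
  classical
  set e := ordP v p with he_def
  obtain ⟨N, hNdef⟩ : ∃ N, N = 2 * e + 1 := ⟨_, rfl⟩
  have hN : 2 * e < N := by omega
  have hN0 : N ≠ 0 := by omega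
  have hfin : Finite (𝓞 F ⧸ v.asIdeal ^ N) := finite_quot_pow v N
  have hpne : NeZero p := ⟨hp.ne_zero⟩
  have hζ' : IsPrimitiveRoot hζ.toInteger p := hζ.toInteger_isPrimitiveRoot
  have hcardQ : Nat.card ((𝓞 F ⧸ v.asIdeal ^ N)ˣ ⧸
      (powMonoidHom p : (𝓞 F ⧸ v.asIdeal ^ N)ˣ →* (𝓞 F ⧸ v.asIdeal ^ N)ˣ).range) =
      p * Ideal.absNorm v.asIdeal ^ e :=
    index_range_pow_units v hp.pos hζ' (intValuation_natCast_eq v hp.ne_zero) hN
  -- representatives in `𝓞 F` of the classes of units modulo `p`-th powers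
  have hrep : ∀ q : (𝓞 F ⧸ v.asIdeal ^ N)ˣ ⧸
      (powMonoidHom p : (𝓞 F ⧸ v.asIdeal ^ N)ˣ →* (𝓞 F ⧸ v.asIdeal ^ N)ˣ).range,
      ∃ r : 𝓞 F, r ∉ v.asIdeal ∧ ∃ u : (𝓞 F ⧸ v.asIdeal ^ N)ˣ,
        (u : 𝓞 F ⧸ v.asIdeal ^ N) = Ideal.Quotient.mk (v.asIdeal ^ N) r ∧
        (QuotientGroup.mk u : (𝓞 F ⧸ v.asIdeal ^ N)ˣ ⧸
          (powMonoidHom p : (𝓞 F ⧸ v.asIdeal ^ N)ˣ →* (𝓞 F ⧸ v.asIdeal ^ N)ˣ).range) = q := by
    intro q
    obtain ⟨u, rfl⟩ := QuotientGroup.mk_surjective q
    obtain ⟨r, hr⟩ := Ideal.Quotient.mk_surjective (u : 𝓞 F ⧸ v.asIdeal ^ N)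
    refine ⟨r, ?_, u, hr.symm, rfl⟩
    rw [← Ideal.Quotient.isUnit_mk_pow_iff_notMem v.asIdeal hN0, hr]
    exact u.isUnit
  choose r hr using hrep
  have hr0 : ∀ q, algebraMap (𝓞 F) F (r q) ≠ 0 := by
    intro q h
    have h0 : r q = 0 := by
      have := (FaithfulSMul.algebraMap_injective (𝓞 F) F).eq_iff.mp (h.trans (map_zero _).symm)
      exact this
    exact (hr q).1 (h0 ▸ Ideal.zero_mem _)
  -- a uniformizer
  obtain ⟨ϖ, hϖ⟩ := v.valuation_exists_uniformizer F
  have hϖ0 : ϖ ≠ 0 := by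
    rintro rfl
    rw [map_zero] at hϖ
    exact exp_ne_zero hϖ.symm
  have hexpN : exp (-(N : ℤ)) ≤ (1 : ℤᵐ⁰) := by
    rw [← exp_zero, exp_le_exp]; omega
  let g : Fin p × ((𝓞 F ⧸ v.asIdeal ^ N)ˣ ⧸
      (powMonoidHom p : (𝓞 F ⧸ v.asIdeal ^ N)ˣ →* (𝓞 F ⧸ v.asIdeal ^ N)ˣ).range) →
      Fˣ ⧸ locPowSubgroup p v :=
    fun a => QuotientGroup.mk (Units.mk0 ϖ hϖ0 ^ (a.1 : ℕ) * Units.mk0 _ (hr0 a.2))
  have hg : Function.Surjective g := by
    intro X
    obtain ⟨x, rfl⟩ := QuotientGroup.mk_surjective X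
    have hx0 : v.valuation F (x : F) ≠ 0 := (Valuation.ne_zero_iff _).mpr x.ne_zero
    obtain ⟨n, hn⟩ : ∃ n : ℤ, n = - log (v.valuation F (x : F)) := ⟨_, rfl⟩
    have hvx : v.valuation F (x : F) = exp (-n) := by rw [hn, neg_neg, exp_log hx0]
    have hp0 : (0 : ℤ) < p := by exact_mod_cast hp.pos
    obtain ⟨k, hk⟩ : ∃ k : ℕ, (k : ℤ) = n % p := ⟨(n % p).toNat, Int.toNat_of_nonneg (Int.emod_nonneg _ hp0.ne')⟩
    have hkp : k < p := by
      have := Int.emod_lt_of_pos n hp0
      omega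
    obtain ⟨j, hj⟩ : ∃ j : ℤ, j = n / p := ⟨_, rfl⟩
    have hnkj : n = k + j * p := by
      have := Int.emod_add_mul_ediv n p
      rw [hk, hj]; linarith
    obtain ⟨x₁, hx₁⟩ : ∃ x₁ : F, x₁ = (x : F) * ϖ ^ (-n) := ⟨_, rfl⟩
    have hvx₁ : v.valuation F x₁ = 1 := by
      rw [hx₁, map_mul, map_zpow₀, hϖ, hvx, ← exp_zsmul, ← exp_add]
      simp
    have hx₁0 : x₁ ≠ 0 := by
      rintro rfl
      rw [map_zero] at hvx₁
      exact zero_ne_one hvx₁
    obtain ⟨a, ha⟩ := v.exists_valuation_sub_lt_of_integer (K := F) hvx₁.le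
      (Units.mk0 (exp (-(N : ℤ))) exp_ne_zero)
    rw [Units.val_mk0] at ha
    have hva : v.valuation F (algebraMap (𝓞 F) F a) = 1 := by
      have h1 : algebraMap (𝓞 F) F a = x₁ + (algebraMap (𝓞 F) F a - x₁) := by ring
      rw [h1, Valuation.map_add_eq_of_lt_left, hvx₁]
      rw [hvx₁]
      exact lt_of_lt_of_le ha hexpN
    have haP : a ∉ v.asIdeal := by
      rw [valuation_of_algebraMap] at hva
      exact intValuation_eq_one_iff.mp hva
    have hua : IsUnit (Ideal.Quotient.mk (v.asIdeal ^ N) a) :=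
      (Ideal.Quotient.isUnit_mk_pow_iff_notMem v.asIdeal hN0).mpr haP
    obtain ⟨hrq, u, hu, huq⟩ := hr (QuotientGroup.mk hua.unit)
    have hmem : hua.unit⁻¹ * u ∈
        (powMonoidHom p : (𝓞 F ⧸ v.asIdeal ^ N)ˣ →* (𝓞 F ⧸ v.asIdeal ^ N)ˣ).range :=
      QuotientGroup.eq.mp huq.symm
    obtain ⟨t, ht⟩ := hmem
    obtain ⟨b, hb⟩ := Ideal.Quotient.mk_surjective (t : 𝓞 F ⧸ v.asIdeal ^ N)
    have hbP : b ∉ v.asIdeal := by
      rw [← Ideal.Quotient.isUnit_mk_pow_iff_notMem v.asIdeal hN0, hb]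
      exact t.isUnit
    have hrel : Ideal.Quotient.mk (v.asIdeal ^ N) (r (QuotientGroup.mk hua.unit)) =
        Ideal.Quotient.mk (v.asIdeal ^ N) (a * b ^ p) := by
      have h1 : u = hua.unit * t ^ p := by
        rw [powMonoidHom_apply] at ht
        rw [ht]; group
      have h2 := congrArg Units.val h1
      rw [Units.val_mul, Units.val_pow_eq_pow_val, IsUnit.unit_spec, hu, ← hb] at h2
      rw [h2, map_mul, map_pow]
    have hval : v.intValuation (r (QuotientGroup.mk hua.unit) - a * b ^ p) ≤ exp (-(N : ℤ)) :=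
      (v.intValuation_le_pow_iff_mem _ _).mpr (Ideal.Quotient.eq.mp hrel)
    have hvr : v.valuation F (algebraMap (𝓞 F) F (r (QuotientGroup.mk hua.unit))) = 1 := by
      rw [valuation_of_algebraMap]; exact intValuation_eq_one_iff.mpr hrq
    have hvb : v.valuation F (algebraMap (𝓞 F) F b) = 1 := by
      rw [valuation_of_algebraMap]; exact intValuation_eq_one_iff.mpr hbP
    have hb0 : algebraMap (𝓞 F) F b ≠ 0 := by
      intro h; rw [h, map_zero] at hvb; exact zero_ne_one hvb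
    have hr0' := hr0 (QuotientGroup.mk hua.unit)
    obtain ⟨z, hz⟩ : ∃ z : F, z = x₁ * algebraMap (𝓞 F) F b ^ p /
        algebraMap (𝓞 F) F (r (QuotientGroup.mk hua.unit)) := ⟨_, rfl⟩
    have hz1 : v.valuation F (z - 1) ≤ exp (-(N : ℤ)) := by
      have h1 : z - 1 = ((x₁ - algebraMap (𝓞 F) F a) * algebraMap (𝓞 F) F b ^ p +
          algebraMap (𝓞 F) F (a * b ^ p - r (QuotientGroup.mk hua.unit))) /
          algebraMap (𝓞 F) F (r (QuotientGroup.mk hua.unit)) := by
        rw [hz, map_sub, map_mul, map_pow]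
        field_simp
        ring
      rw [h1, map_div₀, hvr, div_one]
      apply Valuation.map_add_le
      · rw [map_mul, map_pow, hvb, one_pow, mul_one, Valuation.map_sub_swap]
        exact ha.le
      · rw [valuation_of_algebraMap, Valuation.map_sub_swap]
        exact hval
    have hz0 : z ≠ 0 := by
      rw [hz]
      exact div_ne_zero (mul_ne_zero hx₁0 (pow_ne_zero p hb0)) hr0'
    have hzloc : LocPow p v (Units.mk0 z hz0) :=
      locPow_of_valuation_sub_one_le v hp hN (by rw [Units.val_mk0]; exact hz1)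
    refine ⟨(⟨k, hkp⟩, QuotientGroup.mk hua.unit), ?_⟩
    show (QuotientGroup.mk (Units.mk0 ϖ hϖ0 ^ k * Units.mk0 _ hr0') : Fˣ ⧸ locPowSubgroup p v) =
      QuotientGroup.mk x
    rw [QuotientGroup.eq]
    have hmain : (Units.mk0 ϖ hϖ0 ^ k * Units.mk0 _ hr0')⁻¹ * x =
        (Units.mk0 ϖ hϖ0 ^ j * (Units.mk0 _ hb0)⁻¹) ^ p * Units.mk0 z hz0 := by
      apply Units.ext
      simp only [Units.val_mul, Units.val_inv_eq_inv_val, Units.val_pow_eq_pow_val,
        Units.val_zpow_eq_zpow_val, Units.val_mk0]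
      have hx' : (x : F) = x₁ * ϖ ^ n := by
        rw [hx₁, mul_assoc, ← zpow_add₀ hϖ0]; simp
      have hpow : ϖ ^ n = ϖ ^ k * (ϖ ^ j) ^ p := by
        rw [hnkj, zpow_add₀ hϖ0, zpow_natCast, zpow_mul, zpow_natCast]
      rw [hx', hpow, hz]
      field_simp
      rw [div_pow, div_mul_cancel₀ _ (pow_ne_zero p hb0)]
    rw [hmain]
    exact (locPowSubgroup p v).mul_mem (helper1892.locPow_pow p v _) hzloc
  have hfinQ : Finite (Fˣ ⧸ locPowSubgroup p v) := Finite.of_surjective g hg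
  constructor
  · rw [Subgroup.index_eq_card]
    exact Nat.card_pos.ne'
  · rw [Subgroup.index_eq_card]
    calc Nat.card (Fˣ ⧸ locPowSubgroup p v)
        ≤ Nat.card (Fin p × ((𝓞 F ⧸ v.asIdeal ^ N)ˣ ⧸
          (powMonoidHom p : (𝓞 F ⧸ v.asIdeal ^ N)ˣ →* (𝓞 F ⧸ v.asIdeal ^ N)ˣ).range)) :=
          Nat.card_le_card_of_surjective g hg
      _ = p ^ 2 * Ideal.absNorm v.asIdeal ^ e := by
          rw [Nat.card_prod, Nat.card_fin, hcardQ]; ring

/-- the product of `Nv ^ (ord_v p)` over any finite set of places is at most `p ^ [F:ℚ]`. -/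
theorem prod_absNorm_pow_ordP_le {p : ℕ} (hp : p ≠ 0) (S : Finset (HeightOneSpectrum (𝓞 F))) :
    ∏ v ∈ S, Ideal.absNorm v.asIdeal ^ ordP v p ≤ p ^ Module.finrank ℚ F := by
  classical
  have hI : Ideal.span {(p : 𝓞 F)} ≠ 0 := by
    rw [Ne, Ideal.zero_eq_bot, Ideal.span_singleton_eq_bot]
    exact Nat.cast_ne_zero.mpr hp
  have hfin := Ideal.hasFiniteMulSupport hI
  have h1 := Ideal.finprod_heightOneSpectrum_factorization hI
  have h2 := congrArg Ideal.absNorm h1
  rw [map_finprod Ideal.absNorm hfin, Ideal.absNorm_span_natCast, RingOfIntegers.rank] at h2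
  have hfin' : (Function.mulSupport fun v : HeightOneSpectrum (𝓞 F) =>
      Ideal.absNorm (v.maxPowDividing (Ideal.span {(p : 𝓞 F)}))).Finite := by
    refine Set.Finite.subset hfin ?_
    intro v hv h
    apply hv
    show Ideal.absNorm (v.maxPowDividing (Ideal.span {(p : 𝓞 F)})) = 1
    rw [show v.maxPowDividing (Ideal.span {(p : 𝓞 F)}) = 1 from h, Ideal.one_eq_top,
      Ideal.absNorm_top]
  have h3 : ∏ᶠ v : HeightOneSpectrum (𝓞 F),
      Ideal.absNorm (v.maxPowDividing (Ideal.span {(p : 𝓞 F)})) =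
      ∏ v ∈ S ∪ hfin'.toFinset, Ideal.absNorm (v.maxPowDividing (Ideal.span {(p : 𝓞 F)})) := by
    apply finprod_eq_prod_of_mulSupport_subset
    intro v hv
    simp only [Finset.coe_union, Set.Finite.coe_toFinset, Set.mem_union]
    exact Or.inr hv
  rw [h3] at h2
  rw [← h2]
  have h4 : ∀ v : HeightOneSpectrum (𝓞 F),
      Ideal.absNorm (v.maxPowDividing (Ideal.span {(p : 𝓞 F)})) =
        Ideal.absNorm v.asIdeal ^ ordP v p := by
    intro v
    rw [HeightOneSpectrum.maxPowDividing, map_pow]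
    rfl
  simp only [h4]
  apply Finset.prod_le_prod_of_subset_of_one_le' Finset.subset_union_left
  intro v _ _
  exact Nat.one_le_pow _ _ (absNorm_pos v)

/-- **(LP4)** = `helper1892.Stmt_LocIndex`: for any finite set `S` of places, the elements of
`Fˣ` that are local `p`-th powers at all places of `S` form a subgroup of finite index at most
`p ^ (2 * #S + [F:ℚ])`. -/
theorem index_locPowS {p : ℕ} (hp : p.Prime) {ζ : F} (hζ : IsPrimitiveRoot ζ p)
    (S : Finset (HeightOneSpectrum (𝓞 F))) :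
    (locPowS p S).index ≠ 0 ∧ (locPowS p S).index ≤ p ^ (2 * S.card + Module.finrank ℚ F) := by
  classical
  have key : ∀ S : Finset (HeightOneSpectrum (𝓞 F)), (locPowS p S).index ≠ 0 ∧
      (locPowS p S).index ≤ ∏ v ∈ S, (p ^ 2 * Ideal.absNorm v.asIdeal ^ ordP v p) := by
    intro S
    induction S using Finset.induction_on with
    | empty => simp [locPowS]
    | insert v S hv ih =>
      have hins : locPowS p (insert v S) = locPowSubgroup p v ⊓ locPowS p S := by
        unfold locPowS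
        exact Finset.iInf_insert v S _
      rw [hins, Finset.prod_insert hv]
      obtain ⟨h1, h2⟩ := index_locPowSubgroup v hp hζ
      exact ⟨Subgroup.index_inf_ne_zero h1 ih.1,
        le_trans Subgroup.index_inf_le (Nat.mul_le_mul h2 ih.2)⟩
  refine ⟨(key S).1, le_trans (key S).2 ?_⟩
  rw [Finset.prod_mul_distrib, Finset.prod_const, ← pow_mul, pow_add]
  exact Nat.mul_le_mul le_rfl (prod_absNorm_pow_ordP_le hp.ne_zero S)

/-- the leaf `Stmt_LocIndex` of helper1892's M6 interface. -/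
theorem stmt_locIndex {p : ℕ} (hp : p.Prime) (hζ : ∃ ζ : F, IsPrimitiveRoot ζ p) :
    helper1892.Stmt_LocIndex F p := by
  obtain ⟨ζ, hζ⟩ := hζ
  intro S _
  exact index_locPowS hp hζ S

end LocPow

end

end Fermat.Agent.S14.helper4204
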