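/-
S14 moonshot, leaf M6-FINAL (seat helper4272; board row 676, architect helper1892).

`helper14.Stmt_SI p` (second inequality in the divisor language of the captain's Spec) from
`helper1892.Stmt_TateCount` (Tate's count, the M6 core) and weak approximation `Stmt_ApproxN`.

Contents:
* dictionary `helper14.ord v x = - helper2613.ordAt v x`, `LocPow → IsLocalPow`,
  `LocPow → IsSymAt _ _ _ _ 0`;
* a subgroup of index `≤ p` containing all `p`-th powers has cyclic quotient;
* `ClassGen S` realises every divisor outside `S` by an element of `Fˣ`;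
* the assembly `stmt_SI_of_tateCount`.
-/
import Mathlib
import Fermat.Agent.S14.helper14_Spec
import Fermat.Agent.S14.helper1892_M6Core
import Fermat.Agent.S14.helper4204_LocalPow
import Fermat.Agent.S14.helper1913_ApproxN

set_option autoImplicit false

open IsDedekindDomain NumberField WithZero

namespace Fermat.Agent.S14.helper4272

open Fermat.Agent.S14.helper2613 (ordAt SUnits mem_SUnits mem_SUnits_iff_ordAt ordAt_mul ordAt_one
  ordAt_eq_zero_iff valuation_unit_ne_zero)
open Fermat.Agent.S14.helper1892 (LocPow LocPowN locPowS mem_locPowS ClassGen ordAt_pow ordAt_inv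
  dvd_ordAt_of_locPowN locPow_mul locPow_pow val_eq_one_of_sub_one_lt exp_neg_succ_lt_one
  finite_setOf_valuation_ne_one)

/-- Weak approximation with prescribed precision at `R` and prescribed orders at `T`. -/
def Stmt_ApproxN (F : Type*) [Field F] [NumberField F] : Prop :=
  ∀ R T : Finset (HeightOneSpectrum (𝓞 F)), Disjoint R T →
    ∀ (N : ℕ) (m : HeightOneSpectrum (𝓞 F) → ℤ),
      ∃ z : Fˣ, (∀ v ∈ R, v.valuation F ((z : F) - 1) ≤ WithZero.exp (-(N : ℤ))) ∧
        ∀ v ∈ T, helper2613.ordAt v z = m v

section dictionary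

variable {F : Type*} [Field F] [NumberField F]

/-- For a nonzero integer `r`, the count of the principal ideal is minus the log of the valuation. -/
theorem count_spanSingleton_algebraMap (v : HeightOneSpectrum (𝓞 F)) {r : 𝓞 F} (hr : r ≠ 0) :
    FractionalIdeal.count F v
        (FractionalIdeal.spanSingleton (nonZeroDivisors (𝓞 F)) (algebraMap (𝓞 F) F r))
      = - WithZero.log (v.valuation F (algebraMap (𝓞 F) F r)) := by
  classical
  have hne : (Ideal.span {r} : Ideal (𝓞 F)) ≠ 0 := by
    rw [Ne, Ideal.zero_eq_bot, Ideal.span_singleton_eq_bot]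
    exact hr
  rw [← FractionalIdeal.coeIdeal_span_singleton, FractionalIdeal.count_coe F v hne,
    HeightOneSpectrum.valuation_of_algebraMap, v.intValuation_if_neg hr, WithZero.log_exp]
  simp

/-- Dictionary between the captain's additive order `helper14.ord` and `helper2613.ordAt`. -/
theorem ord_eq_neg_ordAt (v : HeightOneSpectrum (𝓞 F)) (x : Fˣ) :
    helper14.ord v (x : F) = - ordAt v x := by
  classical
  obtain ⟨a, b, hb, hab⟩ := IsFractionRing.div_surjective (A := 𝓞 F) (x : F)
  have hb0 : b ≠ 0 := nonZeroDivisors.ne_zero hb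
  have hb0' : algebraMap (𝓞 F) F b ≠ 0 := by
    simpa using (map_ne_zero_iff (algebraMap (𝓞 F) F) (FaithfulSMul.algebraMap_injective _ _)).mpr hb0
  have ha0 : a ≠ 0 := by
    rintro rfl
    rw [map_zero, zero_div] at hab
    exact x.ne_zero hab.symm
  have ha0' : algebraMap (𝓞 F) F a ≠ 0 := by
    simpa using (map_ne_zero_iff (algebraMap (𝓞 F) F) (FaithfulSMul.algebraMap_injective _ _)).mpr ha0
  have hmul : (x : F) * algebraMap (𝓞 F) F b = algebraMap (𝓞 F) F a := by
    rw [← hab, div_mul_cancel₀ _ hb0']
  have h1 : FractionalIdeal.spanSingleton (nonZeroDivisors (𝓞 F)) (x : F)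
      * FractionalIdeal.spanSingleton (nonZeroDivisors (𝓞 F)) (algebraMap (𝓞 F) F b)
      = FractionalIdeal.spanSingleton (nonZeroDivisors (𝓞 F)) (algebraMap (𝓞 F) F a) := by
    rw [FractionalIdeal.spanSingleton_mul_spanSingleton, hmul]
  have hx' : FractionalIdeal.spanSingleton (nonZeroDivisors (𝓞 F)) (x : F) ≠ 0 :=
    FractionalIdeal.spanSingleton_ne_zero_iff.mpr x.ne_zero
  have hb' : FractionalIdeal.spanSingleton (nonZeroDivisors (𝓞 F)) (algebraMap (𝓞 F) F b) ≠ 0 :=
    FractionalIdeal.spanSingleton_ne_zero_iff.mpr hb0'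
  have h2 := FractionalIdeal.count_mul F v hx' hb'
  rw [h1, count_spanSingleton_algebraMap v ha0, count_spanSingleton_algebraMap v hb0] at h2
  have h3 : WithZero.log (v.valuation F (algebraMap (𝓞 F) F a))
      = WithZero.log (v.valuation F (x : F)) + WithZero.log (v.valuation F (algebraMap (𝓞 F) F b)) := by
    rw [← hmul, map_mul]
    exact WithZero.log_mul (valuation_unit_ne_zero v x) ((Valuation.ne_zero_iff _).mpr hb0')
  unfold helper14.ord ordAt
  omega

theorem ord_one (v : HeightOneSpectrum (𝓞 F)) : helper14.ord v (1 : F) = 0 := by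
  have h := ord_eq_neg_ordAt v (1 : Fˣ)
  rw [ordAt_one] at h
  simpa using h

/-- `ordAt` of an integer power. -/
theorem ordAt_zpow (v : HeightOneSpectrum (𝓞 F)) (y : Fˣ) (n : ℤ) :
    ordAt v (y ^ n) = n * ordAt v y := by
  induction n using Int.induction_on with
  | zero => simp [ordAt_one]
  | succ n ih =>
    rw [zpow_add_one, ordAt_mul, ih]
    ring
  | pred n ih =>
    rw [zpow_sub_one, ordAt_mul, ordAt_inv, ih]
    ring

/-- `helper1892.LocPow` implies the captain's `IsLocalPow`. -/
theorem isLocalPow_of_locPow {p : ℕ} {v : HeightOneSpectrum (𝓞 F)} {x : Fˣ}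
    (h : LocPow p v x) : helper14.IsLocalPow p v (x : F) := by
  intro N
  obtain ⟨y, hy⟩ := h N
  exact ⟨(y : F), y.ne_zero, hy⟩

theorem valuation_pow_sub_one_lt (v : HeightOneSpectrum (𝓞 F)) {t : F}
    (h : v.valuation F (t - 1) < 1) (k : ℕ) : v.valuation F (t ^ k - 1) < 1 := by
  have ht : v.valuation F t = 1 := val_eq_one_of_sub_one_lt v h
  induction k with
  | zero => simp
  | succ k ih =>
    have e : t ^ (k + 1) - 1 = t ^ k * (t - 1) + (t ^ k - 1) := by ring
    rw [e]
    refine Valuation.map_add_lt _ ?_ ih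
    rw [map_mul, map_pow, ht, one_pow, one_mul]
    exact h

/-- A local `p`-th power has trivial `p`-th power residue symbol (in the captain's language). -/
theorem isSymAt_zero_of_locPow {p : ℕ} (ζ : F) {v : HeightOneSpectrum (𝓞 F)} {a : Fˣ}
    (h : LocPow p v a) : helper14.IsSymAt p ζ v (a : F) 0 := by
  obtain ⟨y, hy⟩ := h 1
  have hlt : v.valuation F ((a : F) / (y : F) ^ p - 1) < 1 :=
    lt_of_le_of_lt hy (exp_neg_succ_lt_one 0)
  refine ⟨(y : F), y.ne_zero, val_eq_one_of_sub_one_lt v hlt, ?_⟩
  show v.valuation F (((a : F) / (y : F) ^ p) ^ ((Ideal.absNorm v.asIdeal - 1) / p)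
    - ζ ^ (0 : ZMod p).val) < 1
  rw [ZMod.val_zero, pow_zero]
  exact valuation_pow_sub_one_lt v hlt _

theorem finite_setOf_ordAt_ne_zero (x : Fˣ) :
    {v : HeightOneSpectrum (𝓞 F) | ordAt v x ≠ 0}.Finite := by
  refine (finite_setOf_valuation_ne_one x).subset ?_
  intro v hv
  simp only [Set.mem_ofPred_eq] at hv ⊢
  rwa [Ne, ← ordAt_eq_zero_iff]

/-- `ClassGen S` realises every divisor outside `S`. -/
theorem exists_unit_ordAt_of_classGen {S : Finset (HeightOneSpectrum (𝓞 F))} (hS : ClassGen S)
    (e : HeightOneSpectrum (𝓞 F) → ℤ) (he : (Function.support e).Finite) :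
    ∃ x : Fˣ, ∀ w, w ∉ S → ordAt w x = - e w := by
  classical
  have key : ∀ s : Finset (HeightOneSpectrum (𝓞 F)), (∀ v ∈ s, v ∉ S) →
      ∃ x : Fˣ, ∀ w, w ∉ S → ordAt w x = if w ∈ s then - e w else 0 := by
    intro s
    induction s using Finset.induction_on with
    | empty => intro _; exact ⟨1, fun w _ => by simp [ordAt_one]⟩
    | insert v₁ s hv₁ ih =>
      intro hs
      obtain ⟨x', hx'⟩ := ih (fun v hv => hs v (Finset.mem_insert_of_mem hv))
      obtain ⟨x₁, hx₁, hx₁'⟩ := hS v₁ (hs v₁ (Finset.mem_insert_self _ _))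
      refine ⟨x' * x₁ ^ (e v₁), fun w hw => ?_⟩
      rw [ordAt_mul, ordAt_zpow, hx' w hw]
      by_cases hwv : w = v₁
      · subst hwv
        have h1 : ordAt w x₁ = -1 := by
          unfold ordAt
          rw [hx₁, WithZero.log_exp]
        simp [hv₁, h1]
      · have h0 : ordAt w x₁ = 0 := by
          rw [ordAt_eq_zero_iff]
          exact hx₁' w hw hwv
        simp [hwv, h0]
  obtain ⟨x, hx⟩ := key (he.toFinset.filter (fun v => v ∉ S))
    (fun v hv => (Finset.mem_filter.mp hv).2)
  refine ⟨x, fun w hw => ?_⟩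
  rw [hx w hw]
  by_cases hw' : w ∈ he.toFinset.filter (fun v => v ∉ S)
  · simp [hw']
  · have h0 : e w = 0 := by
      by_contra h
      exact hw' (Finset.mem_filter.mpr ⟨he.mem_toFinset.mpr h, hw⟩)
    simp [hw', h0]

end dictionary

/-- A subgroup of index `≤ p` (and `≠ 0`) of a commutative group which contains all `p`-th powers
has cyclic quotient: some `x₀` generates the group modulo the subgroup. -/
theorem exists_gen_of_index_le {G : Type*} [CommGroup G] (H : Subgroup G) {p : ℕ} (hp : p.Prime)
    (h0 : H.index ≠ 0) (hle : H.index ≤ p) (hpow : ∀ x : G, x ^ p ∈ H) :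
    ∃ x₀ : G, ∀ x : G, ∃ n : ℤ, x * x₀ ^ (-n) ∈ H := by
  classical
  by_cases htop : H = ⊤
  · exact ⟨1, fun x => ⟨0, by simp [htop]⟩⟩
  · obtain ⟨x₀, hx₀⟩ : ∃ x₀, x₀ ∉ H := by
      by_contra h
      push Not at h
      exact htop ((Subgroup.eq_top_iff' H).mpr h)
    have : H.FiniteIndex := ⟨h0⟩
    have : Finite (G ⧸ H) := Subgroup.finite_quotient_of_finiteIndex
    have hq1 : (x₀ : G ⧸ H) ≠ 1 := by
      rwa [Ne, QuotientGroup.eq_one_iff]
    have hqp : (x₀ : G ⧸ H) ^ p = 1 := by
      rw [← QuotientGroup.mk_pow, QuotientGroup.eq_one_iff]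
      exact hpow x₀
    have hord : orderOf (x₀ : G ⧸ H) = p := by
      rcases (Nat.dvd_prime hp).mp (orderOf_dvd_of_pow_eq_one hqp) with h | h
      · exact absurd (orderOf_eq_one_iff.mp h) hq1
      · exact h
    have htop' : Subgroup.zpowers (x₀ : G ⧸ H) = ⊤ := by
      apply Subgroup.eq_top_of_le_card
      rw [Nat.card_zpowers, hord, ← Subgroup.index_eq_card]
      exact hle
    refine ⟨x₀, fun x => ?_⟩
    have hx : (x : G ⧸ H) ∈ Subgroup.zpowers (x₀ : G ⧸ H) := by
      rw [htop']
      trivial
    obtain ⟨n, hn⟩ := Subgroup.mem_zpowers_iff.mp hx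
    refine ⟨n, ?_⟩
    rw [← QuotientGroup.eq_one_iff, QuotientGroup.mk_mul, QuotientGroup.mk_zpow, ← hn,
      ← zpow_add, add_neg_cancel, zpow_zero]

set_option linter.unusedVariables false in
open Classical in
/-- **M6-FINAL**: the captain's second inequality `helper14.Stmt_SI p` from Tate's count
(`helper1892.Stmt_TateCount`) and weak approximation. -/
theorem stmt_SI_of_tateCount (p : ℕ) (hp : p.Prime) (hodd : p ≠ 2)
    (hTate : ∀ (F : Type) [Field F] [NumberField F], (∃ ζ : F, IsPrimitiveRoot ζ p) →
      helper1892.Stmt_TateCount F p)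
    (hApp : ∀ (F : Type) [Field F] [NumberField F], Stmt_ApproxN F) : helper14.Stmt_SI p := by
  intro F _ _ ζ hζ a ha B _hB _hBa
  set au : Fˣ := Units.mk0 a ha with hau
  have hau' : (au : F) = a := Units.val_mk0 ha
  by_cases hpow : ∃ y : Fˣ, au = y ^ p
  · -- `a` is a `p`-th power: everything splits
    obtain ⟨y, hy⟩ := hpow
    refine ⟨0, fun D hD => ⟨0, 1, D, 0, one_ne_zero, ?_, ?_, ?_⟩⟩
    · intro v _
      have := isLocalPow_of_locPow (helper1892.locPow_one p v)
      simpa using this
    · intro v hv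
      refine ⟨fun hvB => hv (hD v hvB), ?_⟩
      have h1 : LocPow p v au := by
        rw [hy]
        exact locPow_pow p v y
      have := isSymAt_zero_of_locPow ζ h1
      rwa [hau'] at this
    · intro v
      simp [ord_one]
  · -- the main case
    obtain ⟨S, T, hBS, hdisj, _hSp, hCG, _haS, hTa, hidx0, hidxp⟩ := hTate F ⟨ζ, hζ⟩ au hpow B
    have hpowH : ∀ x : Fˣ, x ^ p ∈ locPowS p S ⊔ SUnits F (S ∪ T) := fun x =>
      Subgroup.mem_sup_left (mem_locPowS.mpr (fun v _ => locPow_pow p v x))
    obtain ⟨x₀, hx₀⟩ := exists_gen_of_index_le _ hp hidx0 hidxp hpowH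
    -- the divisor `D₀`
    have hD₀fin : (Function.support
        (fun v : HeightOneSpectrum (𝓞 F) => if v ∈ S then (0 : ℤ) else - ordAt v x₀)).Finite := by
      refine (finite_setOf_ordAt_ne_zero x₀).subset ?_
      intro v hv
      simp only [Function.mem_support, ne_eq] at hv
      simp only [Set.mem_ofPred_eq]
      intro h
      apply hv
      simp [h]
    refine ⟨Finsupp.ofSupportFinite _ hD₀fin, fun D hD => ?_⟩
    -- approximation
    set N : ℕ := 2 * (∑ v ∈ B, helper4204.ordP v p) + 1 with hN
    have hNv : ∀ v ∈ B, 2 * helper4204.ordP v p < N := by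
      intro v hv
      have := Finset.single_le_sum (f := fun v => helper4204.ordP v p)
        (fun i _ => Nat.zero_le _) hv
      omega
    obtain ⟨y, hyB, hyT⟩ := hApp F B (S \ B) Finset.disjoint_sdiff N (fun v => - D v)
    have hyLP : ∀ v ∈ B, LocPow p v y := fun v hv =>
      helper4204.locPow_of_valuation_sub_one_le v hp (hNv v hv) (hyB v hv)
    -- realise the rest of the divisor outside `S`
    have hefin : (Function.support
        (fun v : HeightOneSpectrum (𝓞 F) => D v + ordAt v y)).Finite := by
      refine ((D.support : Set (HeightOneSpectrum (𝓞 F))).toFinite.union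
        (finite_setOf_ordAt_ne_zero y)).subset ?_
      intro v hv
      simp only [Function.mem_support, ne_eq] at hv
      by_cases h : D v = 0
      · right
        simp only [Set.mem_ofPred_eq]
        intro h'
        apply hv
        rw [h, h', add_zero]
      · left
        simpa using h
    obtain ⟨x, hx⟩ := exists_unit_ordAt_of_classGen hCG _ hefin
    obtain ⟨n, hn⟩ := hx₀ x
    obtain ⟨g, hg, u, hu, hgu⟩ := Subgroup.mem_sup.mp hn
    have hgS : ∀ v ∈ S, LocPow p v g := mem_locPowS.mp hg
    have hord : ∀ v, ordAt v g + ordAt v u = ordAt v x - n * ordAt v x₀ := by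
      intro v
      have := congrArg (ordAt v) hgu
      rw [ordAt_mul, ordAt_mul, ordAt_zpow] at this
      rw [this]
      ring
    have hγB : ∀ v ∈ B, LocPow p v (g * y) := fun v hv =>
      locPow_mul (hgS v (hBS hv)) (hyLP v hv)
    refine ⟨n, ((g * y : Fˣ) : F),
      Finsupp.onFinset T (fun v => if v ∈ T then - ordAt v u else 0)
        (fun v hv => by by_contra h; simp [h] at hv),
      Finsupp.onFinset S (fun v => if v ∈ B then ordAt v (g * y) / p
        else if v ∈ S then ordAt v g / p else 0)
        (fun v hv => by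
          by_contra h
          have hB' : v ∉ B := fun hvB => h (hBS hvB)
          simp [h, hB'] at hv),
      (g * y).ne_zero, ?_, ?_, ?_⟩
    · intro v hv
      exact isLocalPow_of_locPow (hγB v hv)
    · intro v hv
      have hvT : v ∈ T := by
        by_contra h
        simp [h] at hv
      refine ⟨fun hvB => (Finset.disjoint_left.mp hdisj (hBS hvB)) hvT, ?_⟩
      have := isSymAt_zero_of_locPow ζ (hTa v hvT)
      rwa [hau'] at this
    · intro v
      rw [ord_eq_neg_ordAt, ordAt_mul]
      simp only [Finsupp.ofSupportFinite_coe, Finsupp.onFinset_apply]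
      by_cases hvB : v ∈ B
      · have hvS : v ∈ S := hBS hvB
        have hvT : v ∉ T := fun h => (Finset.disjoint_left.mp hdisj hvS) h
        have hdvd : (p : ℤ) ∣ ordAt v (g * y) := dvd_ordAt_of_locPowN (hγB v hvB 1)
        have hmul := Int.mul_ediv_cancel' hdvd
        rw [ordAt_mul] at hmul
        simp only [hvB, hvS, hvT, if_true, if_false, hD v hvB, ordAt_mul]
        linarith
      · by_cases hvS : v ∈ S
        · have hvT : v ∉ T := fun h => (Finset.disjoint_left.mp hdisj hvS) h
          have hdvd : (p : ℤ) ∣ ordAt v g := dvd_ordAt_of_locPowN (hgS v hvS 1)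
          have hmul := Int.mul_ediv_cancel' hdvd
          have hy := hyT v (Finset.mem_sdiff.mpr ⟨hvS, hvB⟩)
          simp only [hvB, hvS, hvT, if_true, if_false]
          linarith
        · have hxv := hx v hvS
          have hov := hord v
          by_cases hvT : v ∈ T
          · simp only [hvB, hvS, hvT, if_true, if_false]
            linarith
          · have hu0 : ordAt v u = 0 := by
              refine (mem_SUnits_iff_ordAt.mp hu) v ?_
              simp [hvS, hvT]
            simp only [hvB, hvS, hvT, if_false]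
            linarith

/-- `Stmt_ApproxN` holds (landed leaf `helper1913.approxN`, board row 677). -/
theorem stmt_ApproxN (F : Type*) [Field F] [NumberField F] : Stmt_ApproxN F :=
  helper1913.approxN

/-- **M6-FINAL**, with weak approximation discharged: `helper14.Stmt_SI p` from Tate's count. -/
theorem stmt_SI_of_tateCount' (p : ℕ) (hp : p.Prime) (hodd : p ≠ 2)
    (hTate : ∀ (F : Type) [Field F] [NumberField F], (∃ ζ : F, IsPrimitiveRoot ζ p) →
      helper1892.Stmt_TateCount F p) : helper14.Stmt_SI p :=
  stmt_SI_of_tateCount p hp hodd hTate (fun F _ _ => stmt_ApproxN F)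

end Fermat.Agent.S14.helper4272
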