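import Mathlib
import Fermat.Agent.S14.helper1934_ThaineSpec

/-!
# S14, Thaine route: `Stmt_KummerDensity` (helper4394)

We prove the specification item `helper1934.Stmt_KummerDensity p` from a single analytic input,
`Stmt_ZUpper` (upper bound `log (1/(s-1)) + B` for the finite prime zeta sums of a number field).

* `exists_primesOver_of_pow_residue` : abstract Kummer splitting.  For `L/K` of prime degree `p`,
  `θ ∈ 𝓞 L`, `θ ^ p = e ∈ 𝓞 K`, an `𝓞 K`-automorphism `τ` of `𝓞 L` with `τ θ = ζ θ`, and a prime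
  `v ∌ p, e` of `𝓞 K` modulo which `e` is a `p`-th power, there are `p` distinct primes of `𝓞 L`
  over `v`, each with the same absolute norm as `v`.
* `exists_kummer_field` : the model `L = K[X]/(X^p - e)`.
* `mul_primeIdealZetaSum_le` : comparison of prime zeta sums.
* `kummerDensity_of_zUpper` : the specification item.
-/

set_option autoImplicit false

namespace Fermat.Agent.S14.helper4394

open NumberField IsDedekindDomain Polynomial

section Split

/-- If `ζ` is a primitive `p`-th root of unity and `ζ ^ d - 1` lies in an ideal, with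
`0 < d < p`, then `p` lies in that ideal. -/
theorem natCast_mem_of_pow_sub_one_mem {R : Type*} [CommRing R] [IsDomain R] {p : ℕ} (hp : p.Prime)
    {ζ : R} (hζ : IsPrimitiveRoot ζ p) (v : Ideal R) {d : ℕ} (hd0 : 0 < d) (hdp : d < p)
    (h : ζ ^ d - 1 ∈ v) : (p : R) ∈ v := by
  have hcop : d.Coprime p := (Nat.coprime_of_lt_prime hd0.ne' hdp hp).symm
  have hη : IsPrimitiveRoot (ζ ^ d) p := hζ.pow_of_coprime d hcop
  have hsum := hη.geom_sum_eq_zero hp.one_lt
  have h1 : Ideal.Quotient.mk v (ζ ^ d) = 1 := by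
    rw [← sub_eq_zero, ← map_one (Ideal.Quotient.mk v), ← map_sub]
    exact Ideal.Quotient.eq_zero_iff_mem.mpr h
  have h2 := congrArg (Ideal.Quotient.mk v) hsum
  rw [map_sum, map_zero] at h2
  simp only [map_pow, h1, one_pow, Finset.sum_const, Finset.card_range, nsmul_eq_mul, mul_one] at h2
  rw [← map_natCast (Ideal.Quotient.mk v)] at h2
  exact Ideal.Quotient.eq_zero_iff_mem.mp h2

variable {K L : Type*} [Field K] [NumberField K] [Field L] [NumberField L] [Algebra K L]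

/-- **Kummer splitting.**  Let `L/K` be an extension of number fields of prime degree `p`, `ζ ∈ 𝓞 K`
a primitive `p`-th root of unity, `θ ∈ 𝓞 L` with `θ ^ p = e ∈ 𝓞 K` and `τ` an `𝓞 K`-automorphism
of `𝓞 L` with `τ θ = ζ θ`.  If `v` is a maximal ideal of `𝓞 K` not containing `p` nor `e`, and `e`
is a `p`-th power modulo `v`, then there are `p` distinct primes of `𝓞 L` over `v`, each of the
same absolute norm as `v`. -/
theorem exists_primesOver_of_pow_residue {p : ℕ} (hp : p.Prime) (hfr : Module.finrank K L = p)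
    {ζ : 𝓞 K} (hζ : IsPrimitiveRoot ζ p) {e : 𝓞 K} {θ : 𝓞 L}
    (hθ : θ ^ p = algebraMap (𝓞 K) (𝓞 L) e)
    (τ : 𝓞 L ≃ₐ[𝓞 K] 𝓞 L) (hτ : τ θ = algebraMap (𝓞 K) (𝓞 L) ζ * θ)
    (v : Ideal (𝓞 K)) [v.IsMaximal] (hpv : (p : 𝓞 K) ∉ v) (hev : e ∉ v)
    {y : 𝓞 K} (hy : e - y ^ p ∈ v) :
    ∃ W : Finset (Ideal (𝓞 L)), W.card = p ∧
      ∀ w ∈ W, w.IsPrime ∧ w.LiesOver v ∧ Ideal.absNorm w = Ideal.absNorm v := by
  classical
  have : NeZero p := ⟨hp.ne_zero⟩
  set a : 𝓞 K →+* 𝓞 L := algebraMap (𝓞 K) (𝓞 L) with ha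
  have hainj : Function.Injective a := FaithfulSMul.algebraMap_injective (𝓞 K) (𝓞 L)
  have hζ' : IsPrimitiveRoot (a ζ) p := hζ.map_of_injective hainj
  -- powers of `τ`
  have hτk : ∀ k : ℕ, (τ ^ k) θ = a (ζ ^ k) * θ := by
    intro k
    induction k with
    | zero => simp
    | succ k ih =>
      rw [pow_succ', AlgEquiv.mul_apply, ih, map_mul, hτ, ha, AlgEquiv.commutes, ← ha, pow_succ,
        map_mul]
      ring
  -- a prime over `v`
  obtain ⟨⟨w0, hw0p, hw0v⟩⟩ := Ideal.nonempty_primesOver (S := 𝓞 L) v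
  -- some factor lies in `w0`
  have hprod : θ ^ p - (a y) ^ p ∈ w0 := by
    rw [hθ, ← map_pow, ← map_sub]
    have : e - y ^ p ∈ w0.under (𝓞 K) := by rw [← hw0v.over]; exact hy
    exact this
  rw [hζ'.pow_sub_pow_eq_prod_sub_mul θ (a y) hp.pos, Ideal.IsPrime.prod_mem_iff] at hprod
  obtain ⟨μ, hμ, hμw⟩ := hprod
  obtain ⟨i0, -, rfl⟩ := hζ'.eq_pow_of_pow_eq_one ((mem_nthRootsFinset hp.pos 1).mp hμ)
  -- the conjugate primes
  let w : ℕ → Ideal (𝓞 L) := fun k => Ideal.comap ((τ ^ k : 𝓞 L ≃ₐ[𝓞 K] 𝓞 L) : 𝓞 L →+* 𝓞 L) w0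
  have hwprime : ∀ k, (w k).IsPrime := fun k => Ideal.comap_isPrime _ _
  have hwover : ∀ k, (w k).LiesOver v := by
    intro k
    constructor
    ext x
    rw [Ideal.under_def, Ideal.mem_comap, Ideal.mem_comap]
    have : ((τ ^ k : 𝓞 L ≃ₐ[𝓞 K] 𝓞 L) : 𝓞 L →+* 𝓞 L) (algebraMap (𝓞 K) (𝓞 L) x) =
        algebraMap (𝓞 K) (𝓞 L) x := (τ ^ k).commutes x
    rw [this, hw0v.over, Ideal.under_def, Ideal.mem_comap]
  have hwmem : ∀ k, θ - a (ζ ^ (i0 + k) * y) ∈ w k := by
    intro k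
    show ((τ ^ k : 𝓞 L ≃ₐ[𝓞 K] 𝓞 L) : 𝓞 L →+* 𝓞 L) (θ - a (ζ ^ (i0 + k) * y)) ∈ w0
    have h1 : ((τ ^ k : 𝓞 L ≃ₐ[𝓞 K] 𝓞 L) : 𝓞 L →+* 𝓞 L) (θ - a (ζ ^ (i0 + k) * y)) =
        a (ζ ^ k) * (θ - a ζ ^ i0 * a y) := by
      rw [map_sub]
      have e1 : ((τ ^ k : 𝓞 L ≃ₐ[𝓞 K] 𝓞 L) : 𝓞 L →+* 𝓞 L) θ = a (ζ ^ k) * θ := hτk k
      have e2 : ((τ ^ k : 𝓞 L ≃ₐ[𝓞 K] 𝓞 L) : 𝓞 L →+* 𝓞 L) (a (ζ ^ (i0 + k) * y)) =
          a (ζ ^ (i0 + k) * y) := (τ ^ k).commutes _
      rw [e1, e2]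
      simp only [map_mul, map_pow]
      ring
    rw [h1]
    exact Ideal.mul_mem_left _ _ hμw
  -- injectivity
  have hyv : y ∉ v := by
    intro hyv
    apply hev
    have := v.add_mem hy (v.pow_mem_of_mem hyv p hp.pos)
    simpa using this
  have hζv : ∀ m : ℕ, ζ ^ m ∉ v := by
    intro m hm
    have h1 : (ζ ^ m) ^ p ∈ v := v.pow_mem_of_mem hm p hp.pos
    rw [← pow_mul, mul_comm, pow_mul, hζ.pow_eq_one, one_pow] at h1
    exact (Ideal.IsPrime.ne_top inferInstance) ((Ideal.eq_top_iff_one v).mpr h1)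
  have hinj : ∀ k k', k < k' → k' < p → w k ≠ w k' := by
    intro k k' hkk' hk'p heq
    have h1 := hwmem k
    have h2 := hwmem k'
    rw [← heq] at h2
    have h3 : a (ζ ^ (i0 + k) * ((ζ ^ (k' - k) - 1) * y)) ∈ w k := by
      have : a (ζ ^ (i0 + k) * ((ζ ^ (k' - k) - 1) * y)) =
          (θ - a (ζ ^ (i0 + k) * y)) - (θ - a (ζ ^ (i0 + k') * y)) := by
        have hk : i0 + k' = (i0 + k) + (k' - k) := by omega
        rw [hk, pow_add]
        simp only [map_mul, map_sub, map_pow, map_one]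
        ring
      rw [this]
      exact (w k).sub_mem h1 h2
    have h4 : ζ ^ (i0 + k) * ((ζ ^ (k' - k) - 1) * y) ∈ v := by
      rw [(hwover k).over]
      exact h3
    rcases Ideal.IsPrime.mem_or_mem inferInstance h4 with h5 | h5
    · exact hζv _ h5
    rcases Ideal.IsPrime.mem_or_mem inferInstance h5 with h6 | h6
    · exact hpv (natCast_mem_of_pow_sub_one_mem hp hζ v (by omega) (by omega) h6)
    · exact hyv h6
  have hinj' : Set.InjOn w (Finset.range p : Set ℕ) := by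
    intro k hk k' hk' heq
    simp only [Finset.coe_range, Set.mem_Iio] at hk hk'
    by_contra hne
    rcases Nat.lt_or_gt_of_ne hne with h | h
    · exact hinj k k' h hk' heq
    · exact hinj k' k h hk heq.symm
  -- counting via `∑ e f = p`
  have hmem : ∀ k, w k ∈ v.primesOver (𝓞 L) := fun k => ⟨hwprime k, hwover k⟩
  let q : ℕ → v.primesOver (𝓞 L) := fun k => ⟨w k, hmem k⟩
  have hqinj : Set.InjOn q (Finset.range p : Set ℕ) :=
    fun k hk k' hk' h => hinj' hk hk' (congrArg Subtype.val h)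
  let g : v.primesOver (𝓞 L) → ℕ :=
    fun q => q.1.ramificationIdx (𝓞 K) * q.1.inertiaDeg (𝓞 K)
  have hsum : ∑ q : v.primesOver (𝓞 L), g q = p := by
    rw [Ideal.sum_ramification_inertia_eq_finrank v (𝓞 L),
      ← IsFractionRing.finrank_eq (𝓞 K) K (𝓞 L) L, hfr]
  have hg1 : ∀ q : v.primesOver (𝓞 L), 1 ≤ g q := by
    intro q
    have := q.2.1
    exact Nat.mul_pos (Ideal.ramificationIdx_pos _ _) (Ideal.inertiaDeg_pos _ _)
  set W' : Finset (v.primesOver (𝓞 L)) := (Finset.range p).image q with hW'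
  have hcard : W'.card = p := by rw [Finset.card_image_of_injOn hqinj, Finset.card_range]
  have hg : ∀ q ∈ W', g q = 1 := by
    intro q0 hq0
    by_contra hne
    have h2 : 2 ≤ g q0 := by have := hg1 q0; omega
    have h5 : ∑ q ∈ W', g q ≤ p :=
      hsum ▸ Finset.sum_le_univ_sum_of_nonneg (fun _ => Nat.zero_le _)
    have h3 : ∑ q ∈ W', g q = g q0 + ∑ q ∈ W'.erase q0, g q :=
      (Finset.add_sum_erase _ _ hq0).symm
    have h4 : (W'.erase q0).card • 1 ≤ ∑ q ∈ W'.erase q0, g q :=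
      Finset.card_nsmul_le_sum _ _ _ (fun q _ => hg1 q)
    rw [Finset.card_erase_of_mem hq0, hcard] at h4
    simp only [smul_eq_mul, mul_one] at h4
    have := hp.two_le
    omega
  refine ⟨(Finset.range p).image w, ?_, ?_⟩
  · rw [Finset.card_image_of_injOn hinj', Finset.card_range]
  · intro w' hw'
    obtain ⟨k, hk, rfl⟩ := Finset.mem_image.mp hw'
    refine ⟨hwprime k, hwover k, ?_⟩
    have h1 : g (q k) = 1 := hg _ (Finset.mem_image_of_mem _ hk)
    have hf : (w k).inertiaDeg (𝓞 K) = 1 := Nat.eq_one_of_mul_eq_one_left h1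
    have := hwprime k
    have := hwover k
    rw [← Ideal.absNorm_pow_inertiaDeg v (w k), hf, pow_one]

end Split

section Model

variable {K : Type} [Field K] [NumberField K]

/-- The Kummer extension `K(e^(1/p))` as an abstract number field, with the splitting behaviour of
the primes modulo which `e` is a `p`-th power. -/
theorem exists_kummer_field (p : ℕ) (hp : p.Prime) (ζ : 𝓞 K) (hζ : IsPrimitiveRoot ζ p)
    (e : (𝓞 K)ˣ) (he : ¬ ∃ y : 𝓞 K, (e : 𝓞 K) = y ^ p) :
    ∃ (L : Type) (_ : Field L) (_ : NumberField L) (_ : Algebra K L),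
      ∀ v : HeightOneSpectrum (𝓞 K), (p : 𝓞 K) ∉ v.asIdeal →
        (∃ y : 𝓞 K, (e : 𝓞 K) - y ^ p ∈ v.asIdeal) →
        ∃ W : Finset (HeightOneSpectrum (𝓞 L)), W.card = p ∧
          ∀ w ∈ W, w.asIdeal.LiesOver v.asIdeal ∧
            Ideal.absNorm w.asIdeal = Ideal.absNorm v.asIdeal := by
  classical
  have : NeZero p := ⟨hp.ne_zero⟩
  set a : K := algebraMap (𝓞 K) K (e : 𝓞 K) with ha
  have hirr : Irreducible (X ^ p - C a) := by
    apply X_pow_sub_C_irreducible_of_prime hp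
    intro b hb
    have hbint : IsIntegral ℤ b := by
      apply IsIntegral.of_pow hp.pos
      rw [hb]
      exact RingOfIntegers.isIntegral_coe _
    apply he
    let b' : 𝓞 K := ⟨b, (mem_integralClosure_iff ℤ K).mpr hbint⟩
    refine ⟨b', ?_⟩
    apply RingOfIntegers.coe_injective
    rw [map_pow]
    exact hb.symm
  have hfact : Fact (Irreducible (X ^ p - C a)) := ⟨hirr⟩
  let L : Type := AdjoinRoot (X ^ p - C a)
  have hfin : Module.Finite K L := (monic_X_pow_sub_C a hp.ne_zero).finite_adjoinRoot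
  have hNF : NumberField L := NumberField.of_module_finite K L
  refine ⟨L, inferInstance, hNF, inferInstance, ?_⟩
  have hfr : Module.finrank K L = p := by
    rw [(AdjoinRoot.powerBasis hirr.ne_zero).finrank, AdjoinRoot.powerBasis_dim,
      natDegree_X_pow_sub_C]
  -- the root
  set θ0 : L := AdjoinRoot.root (X ^ p - C a) with hθ0
  have hθ0p : θ0 ^ p = algebraMap K L a := root_X_pow_sub_C_pow p a
  have hθ0int : IsIntegral ℤ θ0 := by
    apply IsIntegral.of_pow hp.pos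
    rw [hθ0p]
    exact (RingOfIntegers.isIntegral_coe (e : 𝓞 K)).algebraMap
  let θ : 𝓞 L := ⟨θ0, (mem_integralClosure_iff ℤ L).mpr hθ0int⟩
  have hθ : θ ^ p = algebraMap (𝓞 K) (𝓞 L) (e : 𝓞 K) := by
    apply RingOfIntegers.coe_injective
    rw [map_pow, ← IsScalarTower.algebraMap_apply (𝓞 K) (𝓞 L) L,
      IsScalarTower.algebraMap_apply (𝓞 K) K L]
    exact hθ0p
  -- the automorphism
  have hζK : (algebraMap (𝓞 K) K ζ) ^ p = 1 := by
    rw [← map_pow, hζ.pow_eq_one, map_one]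
  let η : rootsOfUnity p K := rootsOfUnity.mkOfPowEq (algebraMap (𝓞 K) K ζ) hζK
  let σ : L ≃ₐ[K] L := autAdjoinRootXPowSubC p a η
  have hσ : σ θ0 = algebraMap K L (algebraMap (𝓞 K) K ζ) * θ0 := by
    have := autAdjoinRootXPowSubC_root a η
    rw [Algebra.smul_def] at this
    exact this
  let τ : 𝓞 L ≃ₐ[𝓞 K] 𝓞 L := galRestrict (𝓞 K) K L (𝓞 L) σ
  have hτ : τ θ = algebraMap (𝓞 K) (𝓞 L) ζ * θ := by
    apply RingOfIntegers.coe_injective
    rw [algebraMap_galRestrict_apply, map_mul, ← IsScalarTower.algebraMap_apply (𝓞 K) (𝓞 L) L,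
      IsScalarTower.algebraMap_apply (𝓞 K) K L]
    exact hσ
  intro v hpv ⟨y, hy⟩
  have hev : (e : 𝓞 K) ∉ v.asIdeal := by
    intro h
    exact (Ideal.IsPrime.ne_top v.isPrime) (Ideal.eq_top_of_isUnit_mem _ h e.isUnit)
  have := v.isMaximal
  obtain ⟨W0, hW0card, hW0⟩ :=
    exists_primesOver_of_pow_residue hp hfr hζ hθ τ hτ v.asIdeal hpv hev hy
  have hne : ∀ w ∈ W0, w ≠ ⊥ := by
    intro w hw hbot
    have h1 := (hW0 w hw).2.2
    rw [hbot, Ideal.absNorm_bot] at h1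
    exact v.ne_bot (Ideal.absNorm_eq_zero_iff.mp h1.symm)
  let emb : {w // w ∈ W0} ↪ HeightOneSpectrum (𝓞 L) :=
    ⟨fun w => ⟨w.1, (hW0 w.1 w.2).1, hne w.1 w.2⟩, by
      intro w w' h
      exact Subtype.ext (congrArg HeightOneSpectrum.asIdeal h)⟩
  refine ⟨W0.attach.map emb, ?_, ?_⟩
  · rw [Finset.card_map, Finset.card_attach, hW0card]
  · intro w hw
    obtain ⟨w', -, rfl⟩ := Finset.mem_map.mp hw
    exact ⟨(hW0 w'.1 w'.2).2.1, (hW0 w'.1 w'.2).2.2⟩

end Model

section Sum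

variable {K L : Type*} [Field K] [NumberField K] [Field L] [NumberField L] [Algebra K L]

/-- If every prime of a set `S` of primes of `K` has `p` primes of `L` above it with the same
absolute norm, then `p` times the prime zeta sum of `S` is bounded by any bound for the finite
prime zeta sums of `L`. -/
theorem mul_primeIdealZetaSum_le (p : ℕ) (S : Set (HeightOneSpectrum (𝓞 K)))
    (hS : ∀ v ∈ S, ∃ W : Finset (HeightOneSpectrum (𝓞 L)), W.card = p ∧
      ∀ w ∈ W, w.asIdeal.LiesOver v.asIdeal ∧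
        Ideal.absNorm w.asIdeal = Ideal.absNorm v.asIdeal)
    {s c : ℝ}
    (hZ : ∀ T : Finset (HeightOneSpectrum (𝓞 L)),
      ∑ w ∈ T, (Ideal.absNorm w.asIdeal : ℝ) ^ (-s) ≤ c) :
    (p : ℝ) * Set.primeIdealZetaSum S s ≤ c := by
  classical
  choose! W hWcard hW using hS
  rw [NumberField.Set.primeIdealZetaSum_def, ← tsum_mul_left]
  apply Real.tsum_le_of_sum_le
  · intro v
    positivity
  · intro u
    have hdisj : (u : Set S).PairwiseDisjoint (fun v => W v.1) := by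
      intro v _ v' _ hne
      rw [Function.onFun, Finset.disjoint_left]
      intro w hw hw'
      apply hne
      apply Subtype.ext
      apply HeightOneSpectrum.ext
      rw [((hW v.1 v.2 w hw).1).over, ((hW v'.1 v'.2 w hw').1).over]
    calc ∑ v ∈ u, (p : ℝ) * (Ideal.absNorm v.1.asIdeal : ℝ) ^ (-s)
        = ∑ v ∈ u, ∑ w ∈ W v.1, (Ideal.absNorm w.asIdeal : ℝ) ^ (-s) := by
          apply Finset.sum_congr rfl
          intro v _
          rw [Finset.sum_congr rfl (fun w hw => by rw [(hW v.1 v.2 w hw).2]), Finset.sum_const,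
            hWcard v.1 v.2, nsmul_eq_mul]
      _ = ∑ w ∈ u.biUnion (fun v => W v.1), (Ideal.absNorm w.asIdeal : ℝ) ^ (-s) :=
          (Finset.sum_biUnion hdisj).symm
      _ ≤ c := hZ _

end Sum

/-- **Upper bound for finite prime zeta sums** (the only analytic input of
`Stmt_KummerDensity`): `∑_{w ∈ T} N(w)^(-s) ≤ log (1/(s-1)) + B` for every finite set `T` of
primes, uniformly for `s ∈ (1,2)`. -/
def Stmt_ZUpper : Prop :=
  ∀ (L : Type) [Field L] [NumberField L], ∃ B : ℝ, ∀ s : ℝ, 1 < s → s < 2 →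
    ∀ T : Finset (HeightOneSpectrum (𝓞 L)),
      ∑ w ∈ T, (Ideal.absNorm w.asIdeal : ℝ) ^ (-s) ≤ Real.log (1 / (s - 1)) + B

/-- `Stmt_KummerDensity` of the Thaine specification follows from the upper bound for finite
prime zeta sums. -/
theorem kummerDensity_of_zUpper (p : ℕ) [Fact p.Prime] (hZ : Stmt_ZUpper) :
    helper1934.Stmt_KummerDensity p := by
  intro K _ _ ζ hζ e he
  obtain ⟨L, _, _, _, hL⟩ := exists_kummer_field p Fact.out ζ hζ e he
  obtain ⟨B, hB⟩ := hZ L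
  refine ⟨B, fun s hs1 hs2 => ?_⟩
  exact mul_primeIdealZetaSum_le p _ (fun v hv => hL v hv.1 hv.2) (hB s hs1 hs2)

end Fermat.Agent.S14.helper4394
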