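import Mathlib

/-!
# S14, Thaine route, module (L): the local computation modulo `π³`

Abstract ring-level core (no number fields).  `R` is a commutative domain, `π : R`,
`ζ := 1 - π`, `p ≥ 5` a prime with `p ∈ (π³)`, `π` a nonzero nonunit and `R/π` generated by
the integers (`LocalHyp p π`).  With `geo π b = ∑_{i<b} ζ^i = (1 - ζ^b)/(1 - ζ)` and
`E2 p π = ∏_{a=1}^{p-1} geo π (a⁻¹ mod p)^(a²)`:

* `LocalHyp.int_mem_iff`   : `(n : R) ∈ (π) ↔ p ∣ n`;
* `LocalHyp.pow_p_congr`   : every `y^p` is congruent to an integer modulo `π³`;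
* `LocalHyp.E2_congr`      : `E2 ≡ m (1 - c π²) mod π³`, `m = mConst p`, `24 c ≡ 1 mod p`;
* `LocalHyp.dvd_of_E2_pow` : `E2^j y^p ≡ n x^p mod π³` (`n ∈ ℤ`, `y ∉ (π)`) implies `p ∣ j`;
* `LocalHyp.dvd_of_zeta_pow_mul_E2_pow` : `ζ^k E2^j y^p ≡ x^p mod π³` implies `p ∣ k`, `p ∣ j`.
-/

set_option autoImplicit false

namespace Fermat.Agent.S14.helper4440

open Finset

section Quot

/-! ### Computations in a ring `Q` with `t ^ 3 = 0` and `24 * c = 1` -/

variable {Q : Type*} [CommRing Q] (t c : Q)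

/-- truncated logarithm `log u = (u - 1) - (u - 1)^2 / 2` -/
def Lg (u : Q) : Q := (u - 1) - 12 * c * (u - 1) ^ 2

/-- one-units: elements congruent to `1` modulo `t`. -/
def IsOneUnit (u : Q) : Prop := ∃ x : Q, u = 1 + t * x

variable {t c}

lemma isOneUnit_one : IsOneUnit t (1 : Q) := ⟨0, by ring⟩

lemma IsOneUnit.mul {u v : Q} (hu : IsOneUnit t u) (hv : IsOneUnit t v) :
    IsOneUnit t (u * v) := by
  obtain ⟨x, rfl⟩ := hu
  obtain ⟨y, rfl⟩ := hv
  exact ⟨x + y + t * x * y, by ring⟩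

lemma IsOneUnit.pow {u : Q} (hu : IsOneUnit t u) (n : ℕ) : IsOneUnit t (u ^ n) := by
  induction n with
  | zero => simpa using isOneUnit_one
  | succ n ih => rw [pow_succ]; exact ih.mul hu

lemma isOneUnit_prod {ι : Type*} (s : Finset ι) (u : ι → Q) (hu : ∀ i ∈ s, IsOneUnit t (u i)) :
    IsOneUnit t (∏ i ∈ s, u i) := by
  classical
  induction s using Finset.induction_on with
  | empty => simpa using isOneUnit_one
  | insert a s ha ih =>
    rw [Finset.prod_insert ha]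
    exact (hu a (Finset.mem_insert_self a s)).mul
      (ih fun i hi => hu i (Finset.mem_insert_of_mem hi))

lemma Lg_one : Lg c (1 : Q) = 0 := by simp [Lg]

lemma Lg_mul (ht : t ^ 3 = 0) (hc : 24 * c = 1) {u v : Q} (hu : IsOneUnit t u)
    (hv : IsOneUnit t v) : Lg c (u * v) = Lg c u + Lg c v := by
  obtain ⟨x, rfl⟩ := hu
  obtain ⟨y, rfl⟩ := hv
  simp only [Lg]
  linear_combination (-(12 * c) * (2 * x ^ 2 * y + 2 * x * y ^ 2 + t * x ^ 2 * y ^ 2)) * ht
    - (t ^ 2 * x * y) * hc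

lemma Lg_pow (ht : t ^ 3 = 0) (hc : 24 * c = 1) {u : Q} (hu : IsOneUnit t u) (n : ℕ) :
    Lg c (u ^ n) = n * Lg c u := by
  induction n with
  | zero => simp [Lg_one]
  | succ n ih =>
    rw [pow_succ, Lg_mul ht hc (hu.pow n) hu, ih]
    push_cast; ring

lemma Lg_prod (ht : t ^ 3 = 0) (hc : 24 * c = 1) {ι : Type*} (s : Finset ι) (u : ι → Q)
    (hu : ∀ i ∈ s, IsOneUnit t (u i)) :
    Lg c (∏ i ∈ s, u i) = ∑ i ∈ s, Lg c (u i) := by
  classical
  induction s using Finset.induction_on with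
  | empty => simp [Lg_one]
  | insert a s ha ih =>
    rw [Finset.prod_insert ha, Finset.sum_insert ha,
      Lg_mul ht hc (hu a (Finset.mem_insert_self a s))
        (isOneUnit_prod s u fun i hi => hu i (Finset.mem_insert_of_mem hi)),
      ih fun i hi => hu i (Finset.mem_insert_of_mem hi)]

/-- A one-unit is determined by its truncated logarithm (here: log = `-c t^2`). -/
lemma eq_of_Lg_eq (ht : t ^ 3 = 0) {u : Q} (hu : IsOneUnit t u) {d : Q}
    (h : Lg c u = d * t ^ 2) : u = 1 + d * t ^ 2 := by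
  obtain ⟨x, rfl⟩ := hu
  simp only [Lg] at h
  -- t x - 12 c t^2 x^2 = d t^2
  have h1 : t * x = t ^ 2 * (d + 12 * c * x ^ 2) := by linear_combination h
  have h2 : (t * x) ^ 2 = 0 := by
    rw [h1]; linear_combination (t * (d + 12 * c * x ^ 2) ^ 2) * ht
  linear_combination h + 12 * c * h2

/-- `2 * (1 - t)^b` modulo `t^3`. -/
lemma two_mul_one_sub_pow (ht : t ^ 3 = 0) (b : ℕ) :
    2 * (1 - t) ^ b = 2 - 2 * (b : Q) * t + (b : Q) * ((b : Q) - 1) * t ^ 2 := by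
  induction b with
  | zero => simp
  | succ b ih =>
    rw [pow_succ, ← mul_assoc, ih]
    push_cast
    linear_combination (-((b : Q) * ((b : Q) - 1))) * ht

/-- the geometric sum `∑_{i<b} (1 - t)^i`. -/
def geoQ (t : Q) (b : ℕ) : Q := ∑ i ∈ range b, (1 - t) ^ i

/-- `6 * geoQ t b` modulo `t^3`. -/
lemma six_mul_geoQ (ht : t ^ 3 = 0) (b : ℕ) :
    6 * geoQ t b = 6 * (b : Q) - 3 * (b : Q) * ((b : Q) - 1) * t
      + (b : Q) * ((b : Q) - 1) * ((b : Q) - 2) * t ^ 2 := by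
  induction b with
  | zero => simp [geoQ]
  | succ b ih =>
    have h2 := two_mul_one_sub_pow ht b
    unfold geoQ at ih ⊢
    rw [Finset.sum_range_succ, mul_add, ih]
    push_cast
    linear_combination 3 * h2

/-- the normalised factor `A * geoQ t b` (with `A * B = 1`) is a one-unit. -/
lemma normalised_eq (ht : t ^ 3 = 0) (hc : 24 * c = 1) (b : ℕ) {A : Q}
    (hAB : A * (b : Q) = 1) :
    A * geoQ t b = 1 + t * (4 * c * ((b : Q) - 1) * (-3 + ((b : Q) - 2) * t)) := by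
  have h6 := six_mul_geoQ ht b
  linear_combination (-(A * geoQ t b)) * hc + 4 * c * A * h6
    + 4 * c * (6 - 3 * ((b : Q) - 1) * t + ((b : Q) - 1) * ((b : Q) - 2) * t ^ 2) * hAB + hc

lemma isOneUnit_normalised (ht : t ^ 3 = 0) (hc : 24 * c = 1) (b : ℕ) {A : Q}
    (hAB : A * (b : Q) = 1) : IsOneUnit t (A * geoQ t b) :=
  ⟨_, normalised_eq ht hc b hAB⟩

/-- the weighted logarithm of one normalised factor. -/
lemma sq_mul_Lg_normalised (ht : t ^ 3 = 0) (hc : 24 * c = 1) (b : ℕ) {A : Q}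
    (hAB : A * (b : Q) = 1) :
    A ^ 2 * Lg c (A * geoQ t b)
      = -12 * c * (A - A ^ 2) * t + c * (1 - 6 * A + 5 * A ^ 2) * t ^ 2 := by
  rw [normalised_eq ht hc b hAB]
  set B : Q := (b : Q) with hB
  have e1 : A ^ 2 * (B - 1) = A - A ^ 2 := by linear_combination A * hAB
  have e2 : A ^ 2 * (B - 1) * (B - 2) = 1 - 3 * A + 2 * A ^ 2 := by
    linear_combination (A * B + 1 - 3 * A) * hAB
  have e3 : A ^ 2 * (B - 1) ^ 2 = 1 - 2 * A + A ^ 2 := by
    linear_combination (A * B + 1 - 2 * A) * hAB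
  have e4 : 1728 * c ^ 3 = 3 * c := by linear_combination (3 * c * (24 * c + 1)) * hc
  simp only [Lg]
  linear_combination (-12 * c * t) * e1 + (4 * c * t ^ 2) * e2 - (1728 * c ^ 3 * t ^ 2) * e3
    - ((1 - 2 * A + A ^ 2) * t ^ 2) * e4
    - (12 * c * A ^ 2 * (4 * c * (B - 1)) ^ 2 * (-6 * (B - 2) + (B - 2) ^ 2 * t)) * ht

lemma one_sub_mul_sq_pow (ht : t ^ 3 = 0) (d : Q) (j : ℕ) :
    (1 + d * t ^ 2) ^ j = 1 + (j : Q) * d * t ^ 2 := by
  induction j with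
  | zero => simp
  | succ j ih =>
    rw [pow_succ, ih]
    push_cast
    linear_combination ((j : Q) * d ^ 2 * t) * ht

lemma sum_range_sq_mul_six (n : ℕ) :
    (∑ i ∈ range n, (i : Q) ^ 2) * 6 = (n : Q) * ((n : Q) - 1) * (2 * (n : Q) - 1) := by
  induction n with
  | zero => simp
  | succ n ih =>
    rw [Finset.sum_range_succ, add_mul, ih]
    push_cast
    ring

lemma sum_range_mul_two (n : ℕ) :
    (∑ i ∈ range n, (i : Q)) * 2 = (n : Q) * ((n : Q) - 1) := by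
  induction n with
  | zero => simp
  | succ n ih =>
    rw [Finset.sum_range_succ, add_mul, ih]
    push_cast
    ring

end Quot

/-- the inverse of `a` modulo `p`, as a natural number in `[0, p)`. -/
def invp (p a : ℕ) : ℕ := ((a : ZMod p)⁻¹).val

/-- the integer constant `m = ∏_{a=1}^{p-1} (a⁻¹ mod p)^(a^2)`. -/
def mConst (p : ℕ) : ℕ := ∏ a ∈ Ico 1 p, invp p a ^ (a ^ 2)

/-- an inverse of `24` modulo `p`, as a natural number. -/
def c24 (p : ℕ) : ℕ := ((24 : ZMod p)⁻¹).val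

section ZModFacts

variable {p : ℕ} [hp : Fact p.Prime]

lemma natCast_ne_zero_of_mem_Ico {a : ℕ} (ha : a ∈ Ico 1 p) : (a : ZMod p) ≠ 0 := by
  rw [Finset.mem_Ico] at ha
  rw [Ne, ZMod.natCast_eq_zero_iff]
  exact Nat.not_dvd_of_pos_of_lt (by omega) ha.2

lemma mul_invp_modEq {a : ℕ} (ha : a ∈ Ico 1 p) : a * invp p a ≡ 1 [MOD p] := by
  rw [← ZMod.natCast_eq_natCast_iff]
  push_cast
  rw [invp, ZMod.natCast_zmod_val, mul_inv_cancel₀ (natCast_ne_zero_of_mem_Ico ha)]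

lemma not_dvd_invp {a : ℕ} (ha : a ∈ Ico 1 p) : ¬ p ∣ invp p a := by
  intro h
  have h1 := mul_invp_modEq (p := p) ha
  have h2 : a * invp p a ≡ 0 [MOD p] := (Nat.modEq_zero_iff_dvd).2 (Dvd.dvd.mul_left h a)
  have h3 : (1 : ℕ) ≡ 0 [MOD p] := h1.symm.trans h2
  have h4 : p ∣ 1 := (Nat.modEq_zero_iff_dvd).1 h3
  exact hp.out.one_lt.ne' (Nat.dvd_one.1 h4)

lemma not_dvd_mConst : ¬ p ∣ mConst p := by
  unfold mConst
  rw [Prime.dvd_finsetProd_iff hp.out.prime]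
  rintro ⟨a, ha, h⟩
  exact not_dvd_invp ha (hp.out.dvd_of_dvd_pow h)

lemma twentyfour_ne_zero (h5 : 5 ≤ p) : (24 : ZMod p) ≠ 0 := by
  have h24 : ((24 : ℕ) : ZMod p) ≠ 0 := by
    rw [Ne, ZMod.natCast_eq_zero_iff]
    intro h
    have h1 : p ∣ 2 ^ 3 * 3 := by norm_num; exact h
    rcases (hp.out.dvd_mul).1 h1 with h2 | h3
    · have := (Nat.prime_dvd_prime_iff_eq hp.out Nat.prime_two).1 (hp.out.dvd_of_dvd_pow h2)
      omega
    · have := (Nat.prime_dvd_prime_iff_eq hp.out Nat.prime_three).1 h3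
      omega
  exact_mod_cast h24

lemma mul_c24_modEq (h5 : 5 ≤ p) : 24 * c24 p ≡ 1 [MOD p] := by
  rw [← ZMod.natCast_eq_natCast_iff]
  push_cast
  rw [c24, ZMod.natCast_zmod_val, mul_inv_cancel₀ (twentyfour_ne_zero h5)]

lemma not_dvd_c24 (h5 : 5 ≤ p) : ¬ p ∣ c24 p := by
  intro h
  have h1 := mul_c24_modEq (p := p) h5
  have h2 : 24 * c24 p ≡ 0 [MOD p] := (Nat.modEq_zero_iff_dvd).2 (Dvd.dvd.mul_left h 24)
  have h4 : p ∣ 1 := (Nat.modEq_zero_iff_dvd).1 (h1.symm.trans h2)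
  exact hp.out.one_lt.ne' (Nat.dvd_one.1 h4)

omit hp in
/-- transport of a congruence `x ≡ 1 [MOD p]` to a ring in which `p = 0`. -/
lemma cast_eq_one_of_modEq {Q : Type*} [CommRing Q] (hpQ : (p : Q) = 0) {x : ℕ}
    (h : x ≡ 1 [MOD p]) : (x : Q) = 1 := by
  obtain ⟨k, hk⟩ := (Nat.modEq_iff_dvd.1 h.symm)
  have h1 : ((x : ℤ) : Q) - ((1 : ℕ) : ℤ) = ((p : ℤ) : Q) * (k : Q) := by
    rw [← Int.cast_mul, ← hk]; push_cast; ring
  push_cast at h1
  rw [hpQ, zero_mul] at h1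
  linear_combination h1

end ZModFacts

section QuotMain

variable {Q : Type*} [CommRing Q] {t c : Q} {p : ℕ} [hp : Fact p.Prime]

/-- **Main computation** in a ring with `t^3 = 0`, `p = 0`, `24 c = 1`:
`∏_{a=1}^{p-1} geo(a⁻¹)^(a^2) = m * (1 - c t^2)`. -/
theorem prod_geoQ_pow (ht : t ^ 3 = 0) (hc : 24 * c = 1) (hpQ : (p : Q) = 0) :
    ∏ a ∈ Ico 1 p, geoQ t (invp p a) ^ (a ^ 2) = (mConst p : Q) * (1 + (-c) * t ^ 2) := by
  have hAB : ∀ a ∈ Ico 1 p, (a : Q) * (invp p a : Q) = 1 := by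
    intro a ha
    have := cast_eq_one_of_modEq hpQ (mul_invp_modEq (p := p) ha)
    push_cast at this
    exact this
  -- split off the integer parts
  have hsplit : ∀ a ∈ Ico 1 p, geoQ t (invp p a) ^ (a ^ 2)
      = (invp p a : Q) ^ (a ^ 2) * ((a : Q) * geoQ t (invp p a)) ^ (a ^ 2) := by
    intro a ha
    rw [← mul_pow]
    congr 1
    linear_combination (-(geoQ t (invp p a))) * hAB a ha
  rw [Finset.prod_congr rfl hsplit, Finset.prod_mul_distrib]
  have hm : (mConst p : Q) = ∏ a ∈ Ico 1 p, (invp p a : Q) ^ (a ^ 2) := by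
    unfold mConst; push_cast; rfl
  rw [hm]
  congr 1
  -- the one-unit part
  have hone : ∀ a ∈ Ico 1 p, IsOneUnit t (((a : Q) * geoQ t (invp p a)) ^ (a ^ 2)) :=
    fun a ha => (isOneUnit_normalised ht hc _ (hAB a ha)).pow _
  refine eq_of_Lg_eq (c := c) ht (isOneUnit_prod _ _ hone) ?_
  rw [Lg_prod ht hc _ _ hone]
  have hterm : ∀ a ∈ Ico 1 p, Lg c (((a : Q) * geoQ t (invp p a)) ^ (a ^ 2))
      = -12 * c * ((a : Q) - (a : Q) ^ 2) * t + c * (1 - 6 * (a : Q) + 5 * (a : Q) ^ 2) * t ^ 2 := by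
    intro a ha
    rw [Lg_pow ht hc (isOneUnit_normalised ht hc _ (hAB a ha))]
    push_cast
    exact sq_mul_Lg_normalised ht hc _ (hAB a ha)
  rw [Finset.sum_congr rfl hterm]
  -- power sums
  have hp1 : 1 ≤ p := hp.out.one_lt.le
  have hIco : ∀ f : ℕ → Q, f 0 = 0 → ∑ a ∈ Ico 1 p, f a = ∑ a ∈ range p, f a := by
    intro f hf
    rw [Finset.range_eq_Ico, Finset.sum_eq_sum_Ico_succ_bot hp.out.pos, hf, zero_add]
  have hS1 : ∑ a ∈ Ico 1 p, (a : Q) = 0 := by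
    rw [hIco (fun a => (a : Q)) (by simp)]
    have h := sum_range_mul_two (Q := Q) p
    rw [hpQ, zero_mul] at h
    linear_combination (12 * c) * h - (∑ a ∈ range p, (a : Q)) * hc
  have hS2 : ∑ a ∈ Ico 1 p, (a : Q) ^ 2 = 0 := by
    rw [hIco (fun a => (a : Q) ^ 2) (by simp)]
    have h := sum_range_sq_mul_six (Q := Q) p
    rw [hpQ, zero_mul, zero_mul] at h
    linear_combination (4 * c) * h - (∑ a ∈ range p, (a : Q) ^ 2) * hc
  have hS0 : ∑ a ∈ Ico 1 p, (1 : Q) = -1 := by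
    rw [Finset.sum_const, Nat.card_Ico, nsmul_eq_mul, mul_one, Nat.cast_sub hp1, hpQ]
    simp
  have hexpand : ∑ a ∈ Ico 1 p, (-12 * c * ((a : Q) - (a : Q) ^ 2) * t
        + c * (1 - 6 * (a : Q) + 5 * (a : Q) ^ 2) * t ^ 2)
      = -12 * c * t * (∑ a ∈ Ico 1 p, (a : Q) - ∑ a ∈ Ico 1 p, (a : Q) ^ 2)
        + c * t ^ 2 * (∑ a ∈ Ico 1 p, (1 : Q) - 6 * ∑ a ∈ Ico 1 p, (a : Q)
          + 5 * ∑ a ∈ Ico 1 p, (a : Q) ^ 2) := by
    rw [Finset.mul_sum, Finset.mul_sum, ← Finset.sum_sub_distrib, ← Finset.sum_sub_distrib,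
      ← Finset.sum_add_distrib, Finset.mul_sum, Finset.mul_sum, ← Finset.sum_add_distrib]
    refine Finset.sum_congr rfl fun a _ => ?_
    ring
  rw [hexpand, hS1, hS2, hS0]
  ring

/-- expansion used for the `ζ^k`-statement. -/
lemma two_mul_zeta_pow_mul (ht : t ^ 3 = 0) (k j : ℕ) (m n1 : Q) :
    2 * ((1 - t) ^ k * (m * (1 + (-c) * t ^ 2)) ^ j * n1)
      = 2 * (m ^ j * n1) - t * (2 * (k : Q) * (m ^ j * n1)
        - (m ^ j * n1) * ((k : Q) * ((k : Q) - 1) - 2 * (j : Q) * c) * t) := by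
  rw [mul_pow, one_sub_mul_sq_pow ht]
  have h2 := two_mul_one_sub_pow ht k
  linear_combination (m ^ j * (1 + (j : Q) * (-c) * t ^ 2) * n1) * h2
    + (m ^ j * n1 * (j : Q) * c * (k : Q) * (2 - ((k : Q) - 1) * t)) * ht

end QuotMain

section Ring

variable {R : Type*} [CommRing R]

/-- the geometric sum `∑_{i<b} (1 - π)^i = (1 - ζ^b)/(1 - ζ)` for `ζ = 1 - π`. -/
def geo (π : R) (b : ℕ) : R := ∑ i ∈ range b, (1 - π) ^ i

/-- the unit `E₂ = ∏_{a=1}^{p-1} ((1 - ζ^{1/a})/(1 - ζ))^(a^2)`, `ζ = 1 - π`. -/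
def E2 (p : ℕ) (π : R) : R := ∏ a ∈ Ico 1 p, geo π (invp p a) ^ (a ^ 2)

/-- `(1 - ζ) * geo b = 1 - ζ^b`. -/
lemma mul_geo (π : R) (b : ℕ) : π * geo π b = 1 - (1 - π) ^ b := by
  have h := mul_neg_geom_sum (1 - π) b
  unfold geo
  linear_combination h

/-- The hypotheses of the local computation: `R` a domain, `π` a nonzero nonunit with
`p ∈ (π^3)` and residue ring `R/π` generated by `ℤ`. -/
structure LocalHyp (p : ℕ) (π : R) : Prop where
  five_le : 5 ≤ p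
  ne_zero : π ≠ 0
  not_isUnit : ¬ IsUnit π
  p_mem : (p : R) ∈ Ideal.span {π ^ 3}
  res : ∀ y : R, ∃ n : ℤ, y - (n : R) ∈ Ideal.span {π}

variable {p : ℕ} [hp : Fact p.Prime] {π : R}

omit hp in
lemma span_cube_le : Ideal.span {π ^ 3} ≤ Ideal.span {π} := by
  rw [Ideal.span_singleton_le_span_singleton]
  exact Dvd.intro_left (π ^ 2) (by ring)

omit hp in
lemma LocalHyp.p_mem_span (h : LocalHyp p π) : (p : R) ∈ Ideal.span {π} :=
  span_cube_le h.p_mem

/-- (L0) an integer lies in `(π)` iff it is divisible by `p`. -/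
lemma LocalHyp.int_mem_iff (h : LocalHyp p π) (n : ℤ) :
    (n : R) ∈ Ideal.span {π} ↔ (p : ℤ) ∣ n := by
  constructor
  · intro hn
    by_contra hnot
    have hcop : IsCoprime (p : ℤ) n :=
      ((Nat.prime_iff_prime_int.1 hp.out).coprime_iff_not_dvd).2 hnot
    obtain ⟨u, v, huv⟩ := hcop
    have h1 : (1 : R) ∈ Ideal.span {π} := by
      have h2 : ((u * (p : ℤ) + v * n : ℤ) : R) ∈ Ideal.span {π} := by
        push_cast
        exact Ideal.add_mem _ (Ideal.mul_mem_left _ _ h.p_mem_span) (Ideal.mul_mem_left _ _ hn)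
      rw [huv] at h2
      simpa using h2
    exact h.not_isUnit (Ideal.span_singleton_eq_top.1 ((Ideal.eq_top_iff_one _).2 h1))
  · rintro ⟨k, rfl⟩
    push_cast
    exact Ideal.mul_mem_right _ _ h.p_mem_span

omit hp in
lemma LocalHyp.int_mem_cube (h : LocalHyp p π) {n : ℤ} (hn : (p : ℤ) ∣ n) :
    (n : R) ∈ Ideal.span {π ^ 3} := by
  obtain ⟨k, rfl⟩ := hn
  push_cast
  exact Ideal.mul_mem_right _ _ h.p_mem

omit hp in
lemma quot_pi_cube (π : R) :
    (Ideal.Quotient.mk (Ideal.span {π ^ 3}) π) ^ 3 = 0 := by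
  rw [← map_pow]
  exact Ideal.Quotient.eq_zero_iff_mem.2 (Ideal.mem_span_singleton_self _)

omit hp in
lemma LocalHyp.quot_p (h : LocalHyp p π) : ((p : ℕ) : R ⧸ Ideal.span {π ^ 3}) = 0 := by
  have := Ideal.Quotient.eq_zero_iff_mem.2 h.p_mem
  simpa using this

lemma LocalHyp.quot_c24 (h : LocalHyp p π) :
    24 * ((c24 p : ℕ) : R ⧸ Ideal.span {π ^ 3}) = 1 := by
  have := cast_eq_one_of_modEq h.quot_p (mul_c24_modEq (p := p) h.five_le)
  push_cast at this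
  exact this

omit hp in
lemma mk_E2 (p : ℕ) (π : R) :
    Ideal.Quotient.mk (Ideal.span {π ^ 3}) (E2 p π)
      = ∏ a ∈ Ico 1 p, geoQ (Ideal.Quotient.mk (Ideal.span {π ^ 3}) π) (invp p a) ^ (a ^ 2) := by
  simp [E2, geo, geoQ, map_prod, map_pow, map_sum, map_sub]

/-- the image of `E₂` in `R/π^3`. -/
lemma LocalHyp.mk_E2_eq (h : LocalHyp p π) :
    Ideal.Quotient.mk (Ideal.span {π ^ 3}) (E2 p π)
      = ((mConst p : ℕ) : R ⧸ Ideal.span {π ^ 3})
        * (1 + (-((c24 p : ℕ) : R ⧸ Ideal.span {π ^ 3}))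
          * (Ideal.Quotient.mk (Ideal.span {π ^ 3}) π) ^ 2) := by
  rw [mk_E2, prod_geoQ_pow (quot_pi_cube π) h.quot_c24 h.quot_p]

/-- **(L2)** `E₂ ≡ m (1 - c π²)  mod π³`, with `m = mConst p`, `24 c ≡ 1 mod p`. -/
theorem LocalHyp.E2_congr (h : LocalHyp p π) :
    E2 p π - (mConst p : R) * (1 - (c24 p : R) * π ^ 2) ∈ Ideal.span {π ^ 3} := by
  rw [← Ideal.Quotient.eq_zero_iff_mem, map_sub, h.mk_E2_eq]
  simp only [map_mul, map_sub, map_one, map_natCast, map_pow]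
  ring

/-- **(L1)** every `p`-th power is congruent to a rational integer modulo `π³`. -/
theorem LocalHyp.pow_p_congr (h : LocalHyp p π) (y : R) :
    ∃ n : ℤ, y ^ p - (n : R) ∈ Ideal.span {π ^ 3} ∧
      (y ∉ Ideal.span {π} → ¬ (p : ℤ) ∣ n) := by
  obtain ⟨n0, hn0⟩ := h.res y
  obtain ⟨w, hw⟩ := Ideal.mem_span_singleton.1 hn0
  have hy : y = (n0 : R) + π * w := by linear_combination hw
  obtain ⟨r, hr⟩ := exists_add_pow_prime_eq hp.out (n0 : R) (π * w)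
  refine ⟨n0 ^ p, ?_, ?_⟩
  · have hp3 : p = 3 + (p - 3) := by have := h.five_le; omega
    have e : y ^ p - ((n0 ^ p : ℤ) : R)
        = π ^ 3 * (π ^ (p - 3) * w ^ p) + (p : R) * ((n0 : R) * (π * w) * r) := by
      have hpow : (π * w) ^ p = π ^ 3 * (π ^ (p - 3) * w ^ p) := by
        rw [mul_pow, ← mul_assoc, ← pow_add, ← hp3]
      rw [hy, hr, hpow]
      push_cast
      ring
    rw [e]
    exact Ideal.add_mem _ (Ideal.mul_mem_right _ _ (Ideal.mem_span_singleton_self _))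
      (Ideal.mul_mem_right _ _ h.p_mem)
  · intro hy' hdiv
    have hdiv' : (p : ℤ) ∣ n0 := (Nat.prime_iff_prime_int.1 hp.out).dvd_of_dvd_pow hdiv
    apply hy'
    rw [hy]
    exact Ideal.add_mem _ ((h.int_mem_iff n0).2 hdiv')
      (Ideal.mul_mem_right _ _ (Ideal.mem_span_singleton_self _))

variable [IsDomain R]

omit hp in
/-- cancellation: `π^k * s ∈ (π^(k+1))` implies `s ∈ (π)`. -/
lemma LocalHyp.mem_span_of_pow_mul_mem (h : LocalHyp p π) (k : ℕ) {s : R}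
    (hs : π ^ k * s ∈ Ideal.span {π ^ (k + 1)}) : s ∈ Ideal.span {π} := by
  obtain ⟨r, hr⟩ := Ideal.mem_span_singleton.1 hs
  rw [Ideal.mem_span_singleton]
  refine ⟨r, ?_⟩
  have h1 : π ^ k * s = π ^ k * (π * r) := by rw [hr]; ring
  exact mul_left_cancel₀ (pow_ne_zero k h.ne_zero) h1

/-- **(L3)** If `E₂^j * y^p ≡ n * x^p mod π³` with `n ∈ ℤ` and `y` a `π`-unit, then `p ∣ j`. -/
theorem LocalHyp.dvd_of_E2_pow (h : LocalHyp p π) (j : ℕ) (n : ℤ) (x y : R)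
    (hy : y ∉ Ideal.span {π})
    (hcong : E2 p π ^ j * y ^ p - (n : R) * x ^ p ∈ Ideal.span {π ^ 3}) : p ∣ j := by
  obtain ⟨n1, hn1, hn1'⟩ := h.pow_p_congr y
  obtain ⟨n2, hn2, -⟩ := h.pow_p_congr x
  have hn1p := hn1' hy
  set I : Ideal R := Ideal.span {π ^ 3} with hI
  set mk := Ideal.Quotient.mk I with hmk
  have ht : mk π ^ 3 = 0 := quot_pi_cube π
  -- the congruence in the quotient
  have e1 : mk (y ^ p) = mk (n1 : R) := by
    rw [← sub_eq_zero, ← map_sub]; exact Ideal.Quotient.eq_zero_iff_mem.2 hn1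
  have e2 : mk (x ^ p) = mk (n2 : R) := by
    rw [← sub_eq_zero, ← map_sub]; exact Ideal.Quotient.eq_zero_iff_mem.2 hn2
  have e3 : mk (E2 p π) ^ j * mk (y ^ p) = mk (n : R) * mk (x ^ p) := by
    rw [← sub_eq_zero, ← map_pow, ← map_mul, ← map_mul, ← map_sub]
    exact Ideal.Quotient.eq_zero_iff_mem.2 hcong
  rw [e1, e2, h.mk_E2_eq, mul_pow, one_sub_mul_sq_pow ht] at e3
  -- integers
  set N : ℤ := (mConst p : ℤ) ^ j * n1 - n * n2 with hN
  set M : ℤ := (mConst p : ℤ) ^ j * n1 * j * (c24 p : ℤ) with hM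
  have key : (N : R) - π ^ 2 * (M : R) ∈ I := by
    rw [← Ideal.Quotient.eq_zero_iff_mem]
    have : mk ((N : R) - π ^ 2 * (M : R))
        = (mk (mConst p : R)) ^ j * (1 + (j : R ⧸ I) * (-(mk (c24 p : R))) * mk π ^ 2) * mk (n1 : R)
          - mk (n : R) * mk (n2 : R) := by
      simp only [hN, hM, map_sub, map_mul, map_pow, Int.cast_sub, Int.cast_mul, Int.cast_pow,
        Int.cast_natCast, map_natCast]
      ring
    rw [this]
    have e3' := e3
    simp only [map_natCast] at e3' ⊢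
    linear_combination e3'
  -- first `p ∣ N`
  have hNmem : (N : R) ∈ Ideal.span {π} := by
    have h1 : (N : R) = ((N : R) - π ^ 2 * (M : R)) + π * (π * (M : R)) := by ring
    rw [h1]
    exact Ideal.add_mem _ (span_cube_le key)
      (Ideal.mul_mem_right _ _ (Ideal.mem_span_singleton_self _))
  have hNp : (p : ℤ) ∣ N := (h.int_mem_iff N).1 hNmem
  -- then `p ∣ M`
  have hM2 : π ^ 2 * (M : R) ∈ Ideal.span {π ^ (2 + 1)} := by
    have h1 : π ^ 2 * (M : R) = (N : R) - ((N : R) - π ^ 2 * (M : R)) := by ring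
    rw [h1]
    exact Ideal.sub_mem _ (h.int_mem_cube hNp) key
  have hMp : (p : ℤ) ∣ M := (h.int_mem_iff M).1 (h.mem_span_of_pow_mul_mem 2 hM2)
  -- conclude
  have hpZ : Prime (p : ℤ) := Nat.prime_iff_prime_int.1 hp.out
  have hm : ¬ (p : ℤ) ∣ (mConst p : ℤ) ^ j := by
    intro hdiv
    exact not_dvd_mConst (p := p) (Int.natCast_dvd_natCast.1 (hpZ.dvd_of_dvd_pow hdiv))
  have hc : ¬ (p : ℤ) ∣ (c24 p : ℤ) := by
    intro hdiv
    exact not_dvd_c24 (p := p) h.five_le (Int.natCast_dvd_natCast.1 hdiv)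
  rw [hM] at hMp
  rcases hpZ.dvd_or_dvd hMp with h1 | h1
  · rcases hpZ.dvd_or_dvd h1 with h2 | h2
    · rcases hpZ.dvd_or_dvd h2 with h3 | h3
      · exact absurd h3 hm
      · exact absurd h3 hn1p
    · exact Int.natCast_dvd_natCast.1 h2
  · exact absurd h1 hc

omit [IsDomain R] in
/-- `ζ^p ≡ 1 mod π³` for `ζ = 1 - π`. -/
lemma LocalHyp.mk_zeta_pow_p (h : LocalHyp p π) :
    Ideal.Quotient.mk (Ideal.span {π ^ 3}) ((1 - π) ^ p) = 1 := by
  obtain ⟨r, hr⟩ := exists_add_pow_prime_eq hp.out (1 : R) (-π)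
  have hp3 : p = 3 + (p - 3) := by have := h.five_le; omega
  have e : (1 - π) ^ p - 1 = π ^ 3 * ((-1) ^ p * π ^ (p - 3)) + (p : R) * (1 * (-π) * r) := by
    have hpow : (-π) ^ p = π ^ 3 * ((-1) ^ p * π ^ (p - 3)) := by
      rw [neg_pow, mul_left_comm, ← pow_add, ← hp3]
    rw [sub_eq_add_neg 1 π, hr, hpow]
    ring
  rw [← sub_eq_zero, ← map_one (Ideal.Quotient.mk (Ideal.span {π ^ 3})), ← map_sub,
    Ideal.Quotient.eq_zero_iff_mem, e]
  exact Ideal.add_mem _ (Ideal.mul_mem_right _ _ (Ideal.mem_span_singleton_self _))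
    (Ideal.mul_mem_right _ _ h.p_mem)

/-- **(L4)** If `ζ^k * E₂^j * y^p ≡ x^p mod π³` with `y` a `π`-unit (`ζ = 1 - π`), then
`p ∣ k` and `p ∣ j`. -/
theorem LocalHyp.dvd_of_zeta_pow_mul_E2_pow (h : LocalHyp p π) (k j : ℕ) (x y : R)
    (hy : y ∉ Ideal.span {π})
    (hcong : (1 - π) ^ k * E2 p π ^ j * y ^ p - x ^ p ∈ Ideal.span {π ^ 3}) :
    p ∣ k ∧ p ∣ j := by
  obtain ⟨n1, hn1, hn1'⟩ := h.pow_p_congr y
  obtain ⟨n2, hn2, -⟩ := h.pow_p_congr x
  have hn1p := hn1' hy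
  set I : Ideal R := Ideal.span {π ^ 3} with hI
  set mk := Ideal.Quotient.mk I with hmk
  have ht : mk π ^ 3 = 0 := quot_pi_cube π
  have e1 : mk (y ^ p) = mk (n1 : R) := by
    rw [← sub_eq_zero, ← map_sub]; exact Ideal.Quotient.eq_zero_iff_mem.2 hn1
  have e2 : mk (x ^ p) = mk (n2 : R) := by
    rw [← sub_eq_zero, ← map_sub]; exact Ideal.Quotient.eq_zero_iff_mem.2 hn2
  have e3 : (1 - mk π) ^ k * mk (E2 p π) ^ j * mk (y ^ p) = mk (x ^ p) := by
    rw [← sub_eq_zero]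
    have := Ideal.Quotient.eq_zero_iff_mem.2 hcong
    simpa only [map_sub, map_mul, map_pow, map_one] using this
  have hpZ : Prime (p : ℤ) := Nat.prime_iff_prime_int.1 hp.out
  have hm : ¬ (p : ℤ) ∣ (mConst p : ℤ) ^ j := by
    intro hdiv
    exact not_dvd_mConst (p := p) (Int.natCast_dvd_natCast.1 (hpZ.dvd_of_dvd_pow hdiv))
  -- Step 1: `p ∣ k`
  have hk : p ∣ k := by
    rw [e1, e2, h.mk_E2_eq] at e3
    have e4 := two_mul_zeta_pow_mul (c := ((c24 p : ℕ) : R ⧸ I)) ht k j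
      ((mConst p : ℕ) : R ⧸ I) (mk (n1 : R))
    rw [e3] at e4
    set M : ℤ := (mConst p : ℤ) ^ j * n1 with hM
    set N : ℤ := 2 * (M - n2) with hN
    set S : ℤ := M * ((k : ℤ) * ((k : ℤ) - 1) - 2 * j * (c24 p : ℤ)) with hS
    have key : (N : R) - π * ((2 * (k : ℤ) * M : ℤ) - (S : R) * π) ∈ I := by
      rw [← Ideal.Quotient.eq_zero_iff_mem]
      simp only [hN, hM, hS, map_sub, map_mul, map_pow, Int.cast_sub, Int.cast_mul, Int.cast_pow,
        Int.cast_natCast, map_natCast, Int.cast_ofNat, map_ofNat, Int.cast_one, map_one]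
      have e5 : mk (n1 : R) = ((n1 : ℤ) : R ⧸ I) := by simp [hmk]
      have e6 : mk (n2 : R) = ((n2 : ℤ) : R ⧸ I) := by simp [hmk]
      rw [e5, e6] at e4
      simp only [map_intCast]
      linear_combination (-1 : R ⧸ I) * e4
    have hNmem : (N : R) ∈ Ideal.span {π} := by
      have h1 : (N : R) = ((N : R) - π * ((2 * (k : ℤ) * M : ℤ) - (S : R) * π))
          + π * ((2 * (k : ℤ) * M : ℤ) - (S : R) * π) := by ring
      rw [h1]
      exact Ideal.add_mem _ (span_cube_le key)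
        (Ideal.mul_mem_right _ _ (Ideal.mem_span_singleton_self _))
    have hNp : (p : ℤ) ∣ N := (h.int_mem_iff N).1 hNmem
    have h32 : Ideal.span {π ^ 3} ≤ Ideal.span {π ^ (1 + 1)} :=
      Ideal.span_singleton_le_span_singleton.2 (pow_dvd_pow π (by norm_num))
    have hS2 : π ^ 1 * ((2 * (k : ℤ) * M : ℤ) - (S : R) * π) ∈ Ideal.span {π ^ (1 + 1)} := by
      have h1 : π ^ 1 * ((2 * (k : ℤ) * M : ℤ) - (S : R) * π)
          = (N : R) - ((N : R) - π * ((2 * (k : ℤ) * M : ℤ) - (S : R) * π)) := by ring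
      rw [h1]
      exact h32 (Ideal.sub_mem _ (h.int_mem_cube hNp) key)
    have hS3 := h.mem_span_of_pow_mul_mem 1 hS2
    have hkM : ((2 * (k : ℤ) * M : ℤ) : R) ∈ Ideal.span {π} := by
      have h1 : ((2 * (k : ℤ) * M : ℤ) : R)
          = (((2 * (k : ℤ) * M : ℤ) : R) - (S : R) * π) + (S : R) * π := by ring
      rw [h1]
      exact Ideal.add_mem _ hS3 (Ideal.mul_mem_left _ _ (Ideal.mem_span_singleton_self _))
    have hkMp : (p : ℤ) ∣ 2 * (k : ℤ) * M := (h.int_mem_iff _).1 hkM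
    have h2 : ¬ (p : ℤ) ∣ 2 := by
      intro hdiv
      have : p ∣ 2 := Int.natCast_dvd_natCast.1 (by exact_mod_cast hdiv)
      have := Nat.le_of_dvd (by norm_num) this
      have := h.five_le
      omega
    rcases hpZ.dvd_or_dvd hkMp with h1 | h1
    · rcases hpZ.dvd_or_dvd h1 with h3 | h3
      · exact absurd h3 h2
      · exact Int.natCast_dvd_natCast.1 h3
    · rcases hpZ.dvd_or_dvd h1 with h3 | h3
      · exact absurd h3 hm
      · exact absurd h3 hn1p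
  refine ⟨hk, ?_⟩
  -- Step 2: `ζ^k ≡ 1`, reduce to (L3)
  obtain ⟨k', rfl⟩ := hk
  have hz : mk ((1 - π) ^ (p * k')) = 1 := by
    rw [pow_mul, map_pow, h.mk_zeta_pow_p, one_pow]
  apply h.dvd_of_E2_pow j 1 x y hy
  rw [← Ideal.Quotient.eq_zero_iff_mem]
  have := Ideal.Quotient.eq_zero_iff_mem.2 hcong
  rw [map_sub, map_mul, map_mul, hz, one_mul] at this
  simpa only [map_sub, map_mul, map_pow, map_one, Int.cast_one, one_mul] using this

end Ring

end Fermat.Agent.S14.helper4440
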