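import Mathlib

/-!
# S14 / module M3 (GAUSS): the Frobenius congruence for Gauss sums

Spec-independent core.  For a multiplicative character `χ` of a finite field `F`
with values in a commutative ring `R` we define

  `gaussDelta χ = χ(-1) * #F * ∏_{i=1}^{m-2} J(χ, χ^i)`,   `m = orderOf χ`,

which is the `m`-th power of the Gauss sum of `χ` (Mathlib's
`gaussSum_pow_eq_prod_jacobiSum`) but lives in the ring of values of `χ`
(no root of unity of order `char F` is needed).

Main result (`map_gaussDelta_pow`): if `φ : R →+* k` is a ring homomorphism to a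
field of characteristic `ℓ ∉ {char F, p}`, `orderOf χ = p` is prime and `p ∣ ℓ ^ f - 1`,
then

  `φ (gaussDelta χ) ^ ((ℓ ^ f - 1) / p) = (φ (χ (ℓ ^ f)))⁻¹`.

In words: the `p`-th power residue symbol of `gaussDelta χ` at a prime `w` with residue field
of cardinality `ℓ ^ f` is `χ(N w)⁻¹`.
-/

set_option autoImplicit false

namespace Fermat.Agent.S14.helper4679

open Finset MulChar AddChar

section Delta

variable {F : Type*} [Field F] [Fintype F] {R : Type*} [CommRing R]

/-- `gaussDelta χ = χ(-1) * #F * ∏_{i=1}^{m-2} J(χ, χ^i)` where `m = orderOf χ`.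
It equals the `m`-th power of the Gauss sum of `χ` with respect to any primitive additive
character (see `gaussSum_pow_orderOf_eq_gaussDelta`), but is defined inside the ring of
values of `χ`. -/
noncomputable def gaussDelta (χ : MulChar F R) : R :=
  χ (-1) * (Fintype.card F : R) * ∏ i ∈ Ico 1 (orderOf χ - 1), jacobiSum χ (χ ^ i)

/-- The `m`-th power of a Gauss sum of a character of order `m ≥ 2` is `gaussDelta`. -/
theorem gaussSum_pow_orderOf_eq_gaussDelta [IsDomain R] {χ : MulChar F R} (hχ : 2 ≤ orderOf χ)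
    {ψ : AddChar F R} (hψ : ψ.IsPrimitive) :
    gaussSum χ ψ ^ orderOf χ = gaussDelta χ :=
  gaussSum_pow_eq_prod_jacobiSum hχ hψ

/-- `gaussDelta` commutes with ring homomorphisms preserving the order of the character. -/
theorem gaussDelta_ringHomComp {R' : Type*} [CommRing R'] (f : R →+* R') (χ : MulChar F R)
    (h : orderOf (χ.ringHomComp f) = orderOf χ) :
    gaussDelta (χ.ringHomComp f) = f (gaussDelta χ) := by
  unfold gaussDelta
  rw [h, map_mul, map_mul, map_natCast, map_prod, ringHomComp_apply]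
  congr 1
  refine Finset.prod_congr rfl fun i _ => ?_
  rw [ringHomComp_pow, jacobiSum_ringHomComp]

omit [Fintype F] in
/-- An injective ring homomorphism preserves the order of a multiplicative character. -/
theorem orderOf_ringHomComp_of_injective {R' : Type*} [CommRing R'] {f : R →+* R'}
    (hf : Function.Injective f) (χ : MulChar F R) :
    orderOf (χ.ringHomComp f) = orderOf χ :=
  orderOf_injective (ringHomCompHom (R := F) f) (injective_ringHomComp hf) χ

end Delta

section FieldCase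

variable {F : Type*} [Field F] [Fintype F] {k : Type*} [Field k]

/-- **Frobenius congruence for Gauss sums**, field-valued form.
If `χ` is a nontrivial multiplicative character of the finite field `F` with values in a field
`k` of characteristic `ℓ ≠ char F` and `orderOf χ ∣ ℓ ^ f - 1`, then
`gaussDelta χ ^ ((ℓ ^ f - 1) / orderOf χ) = χ⁻¹ (ℓ ^ f)`. -/
theorem gaussDelta_pow_eq (ℓ : ℕ) [Fact ℓ.Prime] [CharP k ℓ] (hℓF : ℓ ≠ ringChar F)
    {χ : MulChar F k} (hχ : χ ≠ 1) (f : ℕ) (hf : orderOf χ ∣ ℓ ^ f - 1) :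
    gaussDelta χ ^ ((ℓ ^ f - 1) / orderOf χ) = χ⁻¹ ((ℓ ^ f : ℕ) : F) := by
  have hℓ : ℓ.Prime := Fact.out
  have hch : ringChar k ≠ ringChar F := by rw [ringChar.eq k ℓ]; exact hℓF
  obtain ⟨n, hp, hc⟩ := FiniteField.card F (ringChar F)
  let ψ := FiniteField.primitiveChar F k hch
  let k' := CyclotomicField ψ.n k
  have hinj : Function.Injective (algebraMap k k') := (algebraMap k k').injective
  apply hinj
  set χ' : MulChar F k' := χ.ringHomComp (algebraMap k k') with hχ'
  have hord : orderOf χ' = orderOf χ := orderOf_ringHomComp_of_injective hinj χ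
  have hχ'1 : χ' ≠ 1 := (ringHomComp_ne_one_iff hinj).mpr hχ
  have h2 : 2 ≤ orderOf χ' := by
    have h0 : 0 < orderOf χ' := χ'.orderOf_pos
    have h1 : orderOf χ' ≠ 1 := fun h => hχ'1 (orderOf_eq_one_iff.mp h)
    omega
  have : CharP k' ℓ := charP_of_injective_algebraMap hinj ℓ
  have hcard : (Fintype.card F : k') ≠ 0 := by
    intro H
    rw [hc, Nat.cast_pow] at H
    have H' : ((ringChar F : ℕ) : k') = 0 := by
      simpa using pow_eq_zero_iff (n.ne_zero) |>.mp H
    rw [CharP.cast_eq_zero_iff k' ℓ] at H'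
    exact hℓF ((Nat.prime_dvd_prime_iff_eq hℓ hp).mp H')
  have hg0 : gaussSum χ' ψ.char ≠ 0 := gaussSum_ne_zero_of_nontrivial hcard hχ'1 ψ.prim
  have hgm : gaussSum χ' ψ.char ^ orderOf χ' = algebraMap k k' (gaussDelta χ) := by
    rw [gaussSum_pow_orderOf_eq_gaussDelta h2 ψ.prim, hχ', gaussDelta_ringHomComp _ _ hord]
  have hfrob : ∀ j : ℕ, gaussSum χ' ψ.char ^ (ℓ ^ j) =
      gaussSum (χ' ^ (ℓ ^ j)) (ψ.char ^ (ℓ ^ j)) := by
    intro j
    induction j with
    | zero => simp
    | succ j ih => rw [pow_succ, pow_mul, ih, gaussSum_frob, ← pow_mul, ← pow_mul]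
  have hpos : 1 ≤ ℓ ^ f := Nat.one_le_pow _ _ hℓ.pos
  have hχpow : χ' ^ (ℓ ^ f) = χ' := by
    have h1 : χ' ^ (ℓ ^ f - 1) = 1 := by
      rw [← orderOf_dvd_iff_pow_eq_one, hord]; exact hf
    calc χ' ^ (ℓ ^ f) = χ' ^ (ℓ ^ f - 1 + 1) := by rw [Nat.sub_add_cancel hpos]
      _ = χ' := by rw [pow_succ, h1, one_mul]
  have hℓF0 : ((ℓ : ℕ) : F) ≠ 0 := by
    intro H
    rw [CharP.cast_eq_zero_iff F (ringChar F)] at H
    exact hℓF ((Nat.prime_dvd_prime_iff_eq hp hℓ).mp H).symm
  have hunit : IsUnit (((ℓ ^ f : ℕ) : F)) := by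
    rw [Nat.cast_pow]; exact (IsUnit.mk0 _ hℓF0).pow f
  have hmain : gaussSum χ' ψ.char ^ (ℓ ^ f) =
      χ'⁻¹ ((ℓ ^ f : ℕ) : F) * gaussSum χ' ψ.char := by
    rw [hfrob, hχpow, pow_mulShift, ← hunit.unit_spec, gaussSum_mulShift_eq]
  have hmain' : gaussSum χ' ψ.char ^ (ℓ ^ f - 1) = χ'⁻¹ ((ℓ ^ f : ℕ) : F) := by
    apply mul_right_cancel₀ hg0
    rw [← pow_succ, Nat.sub_add_cancel hpos, hmain]
  rw [map_pow, ← hgm, ← pow_mul, hord, Nat.mul_div_cancel' hf, hmain', hχ', ringHomComp_inv,
    ringHomComp_apply]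

end FieldCase

section DomainCase

variable {F : Type*} [Field F] [Fintype F] {R : Type*} [CommRing R] [IsDomain R]
  {k : Type*} [Field k]

omit [Fintype F] in
/-- Reduction of a character of prime order `p` along a ring homomorphism from a domain to a
field in which `p ≠ 0` still has order `p`. -/
theorem orderOf_ringHomComp_of_prime (φ : R →+* k) {p : ℕ} (hp : p.Prime) (hpk : (p : k) ≠ 0)
    {χ : MulChar F R} (hχ : orderOf χ = p) :
    orderOf (χ.ringHomComp φ) = p := by
  have hpow : (χ.ringHomComp φ) ^ p = 1 := by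
    rw [ringHomComp_pow, ← hχ, pow_orderOf_eq_one, ringHomComp_one]
  have hdvd : orderOf (χ.ringHomComp φ) ∣ p := orderOf_dvd_of_pow_eq_one hpow
  rcases (Nat.dvd_prime hp).mp hdvd with h1 | h1
  · exfalso
    rw [orderOf_eq_one_iff] at h1
    have hχ1 : χ ≠ 1 := by
      intro h
      rw [h, orderOf_one] at hχ
      exact hp.one_lt.ne hχ
    obtain ⟨a, ha⟩ := MulChar.ne_one_iff.mp hχ1
    have hζp : χ a ^ p = 1 := by
      rw [← MulChar.pow_apply_coe, ← hχ, pow_orderOf_eq_one, MulChar.one_apply_coe]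
    have hgeom : ∑ i ∈ Finset.range p, χ a ^ i = 0 := by
      have h := mul_neg_geom_sum (χ a) p
      rw [hζp, sub_self] at h
      rcases mul_eq_zero.mp h with h | h
      · exact absurd (sub_eq_zero.mp h).symm ha
      · simpa using h
    have hφ : φ (χ a) = 1 := by
      have := congrArg (fun ψ : MulChar F k => ψ a) h1
      simpa [ringHomComp_apply] using this
    have := congrArg φ hgeom
    rw [map_sum] at this
    simp only [map_pow, hφ, one_pow, Finset.sum_const, Finset.card_range, map_zero,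
      nsmul_eq_mul, mul_one] at this
    exact hpk this
  · exact h1

/-- **Frobenius congruence for Gauss sums** (module M3, core statement).
Let `χ` be a multiplicative character of prime order `p` of the finite field `F` with values in
a domain `R`, and let `φ : R →+* k` be a ring homomorphism to a field of characteristic
`ℓ ∉ {char F, p}`.  If `p ∣ ℓ ^ f - 1` then
`φ (gaussDelta χ) ^ ((ℓ ^ f - 1) / p) = (φ (χ (ℓ ^ f)))⁻¹`. -/
theorem map_gaussDelta_pow (φ : R →+* k) (ℓ : ℕ) [Fact ℓ.Prime] [CharP k ℓ]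
    (hℓF : ℓ ≠ ringChar F) {p : ℕ} (hp : p.Prime) (hℓp : ℓ ≠ p) {χ : MulChar F R}
    (hχ : orderOf χ = p) (f : ℕ) (hf : p ∣ ℓ ^ f - 1) :
    φ (gaussDelta χ) ^ ((ℓ ^ f - 1) / p) = (φ (χ ((ℓ ^ f : ℕ) : F)))⁻¹ := by
  have hℓ : ℓ.Prime := Fact.out
  have hpk : (p : k) ≠ 0 := by
    intro H
    rw [CharP.cast_eq_zero_iff k ℓ] at H
    exact hℓp ((Nat.prime_dvd_prime_iff_eq hℓ hp).mp H)
  have hord : orderOf (χ.ringHomComp φ) = p := orderOf_ringHomComp_of_prime φ hp hpk hχ
  have hne : χ.ringHomComp φ ≠ 1 := by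
    intro h
    rw [h, orderOf_one] at hord
    exact hp.one_lt.ne hord
  have key := gaussDelta_pow_eq ℓ hℓF hne f (hord ▸ hf)
  rw [hord, gaussDelta_ringHomComp φ χ (hord.trans hχ.symm), inv_apply_eq_inv',
    ringHomComp_apply] at key
  exact key

end DomainCase

end Fermat.Agent.S14.helper4679
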