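import Mathlib
import Fermat.Agent.S14.helper1934_ThaineSpec
import Fermat.Agent.S14.helper4867_Reduction
import Fermat.Agent.Lib.helper2489_Unramified

/-!
# S14, Thaine route, Package R: `helper1934.Stmt_Reduction p`

`noExt_of_noTwisted : helper1934.NoTwistedSplitExt p → Stmt_NoExt p` and hence
`stmt_Reduction : helper1934.Stmt_Reduction p`.
-/

set_option autoImplicit false
set_option linter.unusedSectionVars false

namespace Fermat.Agent.S14.helper4867

open NumberField ExtCitation
open scoped Pointwise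
open Fermat.Agent.Lib.helper54

attribute [local instance] isAlgebraic_Qbar isAlgClosure_Qbar isGalois_Qbar isIntegral_Qbar

local notation "Qb" => AlgebraicClosure ℚ
local notation "Zb" => integralClosure ℤ (AlgebraicClosure ℚ)

section Setup

variable (p : ℕ) [Fact p.Prime]

theorem chi_eq_one_iff {ζ : Qb} (hζ : IsPrimitiveRoot ζ p) (σ : GQ) :
    chi p σ = 1 ↔ σ ζ = ζ := by
  have hp : p.Prime := Fact.out
  have : NeZero p := ⟨hp.ne_zero⟩
  have : Fact (1 < p) := ⟨hp.one_lt⟩
  have hspec := chi_spec p σ hζ.pow_eq_one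
  constructor
  · intro h
    rw [hspec, h, Units.val_one, ZMod.val_one, pow_one]
  · intro h
    rw [h] at hspec
    have h1 : ((chi p σ : (ZMod p)ˣ) : ZMod p).val = 1 :=
      hζ.pow_inj (ZMod.val_lt _) hp.one_lt (by rw [pow_one]; exact hspec.symm)
    apply Units.ext
    apply ZMod.val_injective
    rw [h1, Units.val_one, ZMod.val_one]

theorem apply_eq_of_mem_adjoin {ζ x : Qb} {σ : GQ} (hσ : σ ζ = ζ)
    (hx : x ∈ IntermediateField.adjoin ℚ {ζ}) : σ x = x := by
  have hle : IntermediateField.adjoin ℚ {ζ} ≤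
      IntermediateField.fixedField (Subgroup.zpowers σ) := by
    rw [IntermediateField.adjoin_simple_le_iff, IntermediateField.mem_fixedField_iff]
    intro f hf
    have hstab : Subgroup.zpowers σ ≤ MulAction.stabilizer GQ ζ := by
      rw [Subgroup.zpowers_le, MulAction.mem_stabilizer_iff]
      exact hσ
    exact MulAction.mem_stabilizer_iff.1 (hstab hf)
  exact (IntermediateField.mem_fixedField_iff _ _).1 (hle hx) σ (Subgroup.mem_zpowers σ)

theorem ker_chi_eq_fixingSubgroup {ζ : Qb} (hζ : IsPrimitiveRoot ζ p) :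
    (chi p).ker = (IntermediateField.adjoin ℚ {ζ}).fixingSubgroup := by
  ext σ
  rw [MonoidHom.mem_ker, chi_eq_one_iff p hζ, IntermediateField.mem_fixingSubgroup_iff]
  constructor
  · intro h x hx; exact apply_eq_of_mem_adjoin h hx
  · intro h; exact h ζ (IntermediateField.mem_adjoin_simple_self ℚ ζ)

end Setup

section Lift

/-- The embedding of the ring of integers of a subfield of `ℚ̄` into `ℚ̄`. -/
noncomputable def iota (M : IntermediateField ℚ Qb) : 𝓞 M →+* Qb :=
  (algebraMap M Qb).comp (algebraMap (𝓞 M) M)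

theorem iota_apply (M : IntermediateField ℚ Qb) (x : 𝓞 M) : iota M x = ((x : M) : Qb) := rfl

theorem iota_injective (M : IntermediateField ℚ Qb) : Function.Injective (iota M) :=
  (algebraMap M Qb).injective.comp RingOfIntegers.coe_injective

theorem iota_natCast (M : IntermediateField ℚ Qb) (n : ℕ) : iota M (n : 𝓞 M) = (n : Qb) :=
  map_natCast (iota M) n

theorem iota_smul (M : IntermediateField ℚ Qb) {E : Type*} [Field E] [Algebra E M]
    (σ : M ≃ₐ[E] M) (x : 𝓞 M) : iota M (σ • x) = ((σ (x : M) : M) : Qb) := rfl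

theorem exists_iota_eq (M : IntermediateField ℚ Qb) (z : Zb) (hz : (z : Qb) ∈ M) :
    ∃ x : 𝓞 M, iota M x = (z : Qb) := by
  have hint : IsIntegral ℤ (⟨(z : Qb), hz⟩ : M) :=
    (isIntegral_algebraMap_iff (algebraMap M Qb).injective).1 z.2
  exact ⟨⟨⟨(z : Qb), hz⟩, hint⟩, rfl⟩

/-- Chevalley: a nonzero prime of `𝓞 M` is cut out by a valuation subring of `ℚ̄`. -/
theorem exists_valuationSubring_over (M : IntermediateField ℚ Qb) [NumberField M]
    (P : Ideal (𝓞 M)) [hPp : P.IsPrime] (hP : P ≠ ⊥) :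
    ∃ A : ValuationSubring Qb, ∀ x : 𝓞 M, x ∈ P ↔ iota M x ∈ A.nonunits := by
  have hmax : P.IsMaximal := hPp.isMaximal hP
  obtain ⟨A, hA1, hA2⟩ := Fermat.Agent.Lib.helper2489.exists_valuationSubring_nonunits
    (iota M) (iota_injective M) P hPp.ne_top
  refine ⟨A, fun x => ⟨hA2 x, fun hx => ?_⟩⟩
  by_contra hxP
  obtain ⟨r, y, hy, hry⟩ := hmax.exists_inv hxP
  have h1 : A.valuation (iota M (r * x + y)) < 1 := by
    rw [map_add]
    apply Valuation.map_add_lt
    · rw [map_mul, map_mul]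
      have hr : A.valuation (iota M r) ≤ 1 := (A.valuation_le_one_iff _).2 (hA1 r)
      have hx' : A.valuation (iota M x) < 1 := hx
      calc A.valuation (iota M r) * A.valuation (iota M x)
          ≤ 1 * A.valuation (iota M x) := mul_le_mul_left hr _
        _ < 1 := by rwa [one_mul]
    · exact hA2 y hy
  rw [hry, map_one, map_one] at h1
  exact lt_irrefl _ h1

/-- A nonzero prime of `𝓞 M` contains a prime number. -/
theorem exists_prime_natCast_mem (M : IntermediateField ℚ Qb) [NumberField M]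
    (P : Ideal (𝓞 M)) [hPp : P.IsPrime] (hP : P ≠ ⊥) :
    ∃ ℓ : ℕ, ℓ.Prime ∧ (ℓ : 𝓞 M) ∈ P := by
  have hI : P.under ℤ ≠ ⊥ := Ideal.under_ne_bot ℤ hP
  have hIp : (P.under ℤ).IsPrime := inferInstance
  have hg := Submodule.IsPrincipal.prime_generator_of_isPrime (P.under ℤ) hI
  have hgm : Submodule.IsPrincipal.generator (P.under ℤ) ∈ P.under ℤ :=
    Submodule.IsPrincipal.generator_mem _
  refine ⟨(Submodule.IsPrincipal.generator (P.under ℤ)).natAbs,
    Int.prime_iff_natAbs_prime.1 hg, ?_⟩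
  have h2 : ((Submodule.IsPrincipal.generator (P.under ℤ)).natAbs : ℤ) ∈ P.under ℤ := by
    rcases Int.natAbs_eq (Submodule.IsPrincipal.generator (P.under ℤ)) with h | h
    · rw [← h]; exact hgm
    · rw [← neg_eq_iff_eq_neg.2 h]; exact (P.under ℤ).neg_mem hgm
  have h3 := Ideal.mem_comap.1 h2
  simpa using h3

/-- Lifting the decomposition group: if `σ₀` stabilises the contraction of `Q` to the integers
of a normal subfield `F`, then some `ρ σ₀` with `ρ ∈ Gal(ℚ̄/F)` stabilises `Q`. -/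
theorem exists_decomp_lift (F : IntermediateField ℚ Qb) [Normal ℚ F]
    (Q : Ideal Zb) [Q.IsPrime] (σ₀ : GQ)
    (h₀ : ∀ z : Zb, (z : Qb) ∈ F → (σ₀ • z ∈ Q ↔ z ∈ Q)) :
    ∃ ρ ∈ F.fixingSubgroup, (ρ * σ₀) • Q = Q := by
  classical
  let N : Subgroup GQ := F.fixingSubgroup
  let _ : TopologicalSpace Zb := ⊥
  have : DiscreteTopology Zb := ⟨rfl⟩
  have hcont : ContinuousSMul GQ Zb := Fermat.Agent.Lib.helper2489.continuousSMul_GQ_Zbar
  have : ContinuousSMul N Zb := by
    refine ⟨?_⟩
    have h1 : Continuous fun p : N × Zb => ((p.1 : GQ), p.2) :=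
      (continuous_subtype_val.comp continuous_fst).prodMk continuous_snd
    exact hcont.continuous_smul.comp h1
  have hNclosed : IsClosed (N : Set GQ) := InfiniteGalois.fixingSubgroup_isClosed F
  have : CompactSpace N := isCompact_iff_compactSpace.mp hNclosed.isCompact
  let A' := FixedPoints.subalgebra ℤ Zb N
  have : SMulCommClass N A' Zb := instSMulCommClassSubtypeMemSubalgebraSubalgebra ℤ Zb N
  have : Algebra.IsInvariant A' Zb N := ⟨fun x h => ⟨⟨x, h⟩, rfl⟩⟩
  have hA'F : ∀ a : A', ((a : Zb) : Qb) ∈ F :=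
    fun a => Fermat.Agent.Lib.helper2489.coe_mem_of_fixed F a.1 a.2
  have hσF : ∀ (σ : GQ) (z : Zb), (z : Qb) ∈ F → ((σ • z : Zb) : Qb) ∈ F := by
    intro σ z hz
    rw [integralClosure.coe_smul]
    exact Fermat.Agent.Lib.helper2489.apply_mem_of_normal F σ hz
  have hunder : (σ₀ • Q).under A' = Q.under A' := by
    ext a
    simp only [Ideal.under, Ideal.mem_comap]
    change (a : Zb) ∈ σ₀ • Q ↔ (a : Zb) ∈ Q
    rw [Ideal.mem_pointwise_smul_iff_inv_smul_mem]
    have hz : ((σ₀⁻¹ • (a : Zb) : Zb) : Qb) ∈ F := hσF σ₀⁻¹ a (hA'F a)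
    have h1 := h₀ (σ₀⁻¹ • (a : Zb)) hz
    rw [smul_inv_smul] at h1
    exact h1.symm
  obtain ⟨ρ₁, hρ₁⟩ := Algebra.IsInvariant.exists_smul_of_under_eq_of_profinite
    (A := A') (B := Zb) (G := N) (σ₀ • Q) Q hunder
  exact ⟨ρ₁, ρ₁.2, by rw [mul_smul]; exact hρ₁.symm⟩

theorem liftNormal_apply (M : IntermediateField ℚ Qb) [Normal ℚ M] (τ : M ≃ₐ[ℚ] M) (x : M) :
    (τ.liftNormal Qb) (x : Qb) = ((τ x : M) : Qb) := τ.liftNormal_commutes Qb x

end Lift

section Main

variable {p : ℕ} [Fact p.Prime]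

theorem noExt_of_noTwisted (hno : helper1934.NoTwistedSplitExt p) : Stmt_NoExt p := by
  intro N hNn hNo hNH hidx htw hI hD
  have hp : p.Prime := Fact.out
  have : NeZero p := ⟨hp.ne_zero⟩
  obtain ⟨ζ, hζ⟩ := HasEnoughRootsOfUnity.exists_primitiveRoot Qb p
  let F : IntermediateField ℚ Qb := IntermediateField.adjoin ℚ {ζ}
  let M : IntermediateField ℚ Qb := IntermediateField.fixedField N
  have hH : (chi p).ker = F.fixingSubgroup := ker_chi_eq_fixingSubgroup p hζ
  have hNc : IsClosed (N : Set GQ) := N.isClosed_of_isOpen hNo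
  have hNM : M.fixingSubgroup = N := InfiniteGalois.fixingSubgroup_fixedField ⟨N, hNc⟩
  have hFM : F ≤ M := by
    rw [← InfiniteGalois.fixedField_fixingSubgroup F, ← hH]
    exact IntermediateField.fixedField_antitone hNH
  have hfinM : FiniteDimensional ℚ M :=
    (InfiniteGalois.isOpen_iff_finite M).1 (by rw [hNM]; exact hNo)
  have hgalM : IsGalois ℚ M :=
    (InfiniteGalois.normal_iff_isGalois M).1 (by rw [hNM]; exact hNn)
  have hfinF : FiniteDimensional ℚ F :=
    IntermediateField.adjoin.finiteDimensional (Algebra.IsIntegral.isIntegral ζ)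
  have hnfM : NumberField M := ⟨⟩
  have hnfF : NumberField F := ⟨⟩
  let algFM : Algebra F M := (IntermediateField.inclusion hFM).toRingHom.toAlgebra
  have hcyc : IsCyclotomicExtension {p} ℚ F :=
    IsPrimitiveRoot.intermediateField_adjoin_isCyclotomicExtension ℚ hζ
  have hgalFM : IsGalois F M := IsGalois.tower_top_of_isGalois ℚ F M
  have hdeg : Module.finrank F M = p := by
    have h1 : Module.finrank ℚ M = N.index := by
      rw [← hNM]; exact IntermediateField.finrank_eq_fixingSubgroup_index (L := M)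
    have h2 : Module.finrank ℚ F = (chi p).ker.index := by
      rw [hH]; exact IntermediateField.finrank_eq_fixingSubgroup_index (L := F)
    have h3 := Module.finrank_mul_finrank ℚ F M
    have h4 := Subgroup.relIndex_mul_index hNH
    rw [hidx, ← h1, ← h2, ← h3] at h4
    have h5 : 0 < Module.finrank ℚ F := Module.finrank_pos
    exact (Nat.eq_of_mul_eq_mul_left h5 (by rw [mul_comm, h4])).symm
  have hnormM : Normal ℚ M := hgalM.to_normal
  have hfinFM : FiniteDimensional F M := FiniteDimensional.right ℚ F M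
  let ζ' : F := ⟨ζ, IntermediateField.mem_adjoin_simple_self ℚ ζ⟩
  have hprim : IsPrimitiveRoot ζ' p :=
    IsPrimitiveRoot.of_map_of_injective (f := algebraMap F Qb) hζ (algebraMap F Qb).injective
  -- lifting elements of `Gal(M/F)` to `ker chi`
  have hlift : ∀ σ : Gal(M/F), ((σ.restrictScalars ℚ).liftNormal Qb) ∈ (chi p).ker := by
    intro σ
    rw [hH, IntermediateField.mem_fixingSubgroup_iff]
    intro x hx
    have h1 := liftNormal_apply M (σ.restrictScalars ℚ) (algebraMap F M ⟨x, hx⟩)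
    rw [AlgEquiv.restrictScalars_apply, σ.commutes] at h1
    exact h1
  -- an element of `Gal(M/F)` whose lift lies in `N` up to `Gal(ℚ̄/M)` is trivial
  have hkey : ∀ σ : Gal(M/F), (∃ ρ ∈ M.fixingSubgroup,
      ρ * ((σ.restrictScalars ℚ).liftNormal Qb) ∈ N) → σ = 1 := by
    rintro σ ⟨ρ, hρ, hmem⟩
    ext x
    have h1 : (ρ * ((σ.restrictScalars ℚ).liftNormal Qb)) (x : Qb) = x := by
      rw [← hNM] at hmem
      exact (IntermediateField.mem_fixingSubgroup_iff M _).1 hmem x x.2
    have h2 := liftNormal_apply M (σ.restrictScalars ℚ) x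
    rw [AlgEquiv.restrictScalars_apply] at h2
    rw [AlgEquiv.mul_apply, h2,
      (IntermediateField.mem_fixingSubgroup_iff M ρ).1 hρ _ (σ x).2] at h1
    exact h1
  have hρH : ∀ ρ ∈ M.fixingSubgroup, ρ ∈ (chi p).ker := by
    intro ρ hρ
    rw [hH]
    exact IntermediateField.fixingSubgroup_antitone hFM hρ
  have unram : ∀ (P : Ideal (𝓞 M)), P.IsPrime → P ≠ ⊥ →
      ∀ σ : Gal(M/F), (∀ x : 𝓞 M, σ • x - x ∈ P) → σ = 1 := by
    intro P hPp hPbot σ hσ
    obtain ⟨A, hA⟩ := exists_valuationSubring_over M P hPbot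
    obtain ⟨ℓ, hℓ, hℓP⟩ := exists_prime_natCast_mem M P hPbot
    have hAℓ : A.LiesOverPrime ℓ := by
      have := (hA (ℓ : 𝓞 M)).1 hℓP
      rwa [iota_natCast] at this
    have h₀ : ∀ z : Zb, (z : Qb) ∈ M →
        ((σ.restrictScalars ℚ).liftNormal Qb) • z - z ∈ primeOfValuationSubring A := by
      intro z hz
      obtain ⟨x, hx⟩ := exists_iota_eq M z hz
      rw [mem_primeOfValuationSubring]
      have h1 := (hA _).1 (hσ x)
      have h2 := liftNormal_apply M (σ.restrictScalars ℚ) (x : M)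
      rw [AlgEquiv.restrictScalars_apply] at h2
      rw [map_sub, iota_smul, ← h2, ← iota_apply, hx] at h1
      exact h1
    obtain ⟨ρ, hρ, hρQ, hρz⟩ := Fermat.Agent.Lib.helper2489.exists_inertia_lift M
      (primeOfValuationSubring A) ((σ.restrictScalars ℚ).liftNormal Qb) h₀
    have hin : ρ * ((σ.restrictScalars ℚ).liftNormal Qb) ∈ A.inertiaSubgroupIn ℚ :=
      Fermat.Agent.Lib.helper2489.mem_inertiaSubgroupIn_of_zbar hℓ A hAℓ _ hρQ hρz
    refine hkey σ ⟨ρ, hρ, ?_⟩
    by_cases hℓp : ℓ = p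
    · rw [hℓp] at hAℓ
      have hdec : ρ * ((σ.restrictScalars ℚ).liftNormal Qb) ∈ A.decompositionSubgroup ℚ := by
        obtain ⟨g, -, hg⟩ := hin
        rw [← hg]
        exact g.2
      exact hD A hAℓ ⟨hdec, mul_mem (hρH ρ hρ) (hlift σ)⟩
    · exact hI ℓ hℓ hℓp A hAℓ hin
  have split : ∀ (P : Ideal (𝓞 M)), P.IsPrime → (p : 𝓞 M) ∈ P →
      ∀ σ : Gal(M/F), (∀ x : 𝓞 M, x ∈ P → σ • x ∈ P) → σ = 1 := by
    intro P hPp hpP σ hσ
    have hPbot : P ≠ ⊥ := by
      intro h
      rw [h, Ideal.mem_bot] at hpP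
      exact hp.ne_zero (by exact_mod_cast hpP)
    obtain ⟨A, hA⟩ := exists_valuationSubring_over M P hPbot
    have hAp : A.LiesOverPrime p := by
      have := (hA (p : 𝓞 M)).1 hpP
      rwa [iota_natCast] at this
    have hiff : ∀ x : 𝓞 M, σ • x ∈ P ↔ x ∈ P := by
      intro x
      refine ⟨fun h => ?_, hσ x⟩
      have hpow : ∀ (k : ℕ) (y : 𝓞 M), y ∈ P → (σ ^ k) • y ∈ P := by
        intro k
        induction k with
        | zero => intro y hy; simpa using hy
        | succ k ih => intro y hy; rw [pow_succ, mul_smul]; exact ih _ (hσ y hy)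
      have hpos : 0 < orderOf σ := orderOf_pos σ
      have h1 := hpow (orderOf σ - 1) (σ • x) h
      rwa [← mul_smul, ← pow_succ, Nat.sub_add_cancel hpos, pow_orderOf_eq_one, one_smul] at h1
    have h₀ : ∀ z : Zb, (z : Qb) ∈ M →
        (((σ.restrictScalars ℚ).liftNormal Qb) • z ∈ primeOfValuationSubring A ↔
          z ∈ primeOfValuationSubring A) := by
      intro z hz
      obtain ⟨x, hx⟩ := exists_iota_eq M z hz
      rw [mem_primeOfValuationSubring, mem_primeOfValuationSubring]
      have h1 := hiff x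
      rw [hA, hA, iota_smul] at h1
      have h2 := liftNormal_apply M (σ.restrictScalars ℚ) (x : M)
      rw [AlgEquiv.restrictScalars_apply] at h2
      rw [← h2, ← iota_apply, hx] at h1
      exact h1
    obtain ⟨ρ, hρ, hρQ⟩ := exists_decomp_lift M (primeOfValuationSubring A)
      ((σ.restrictScalars ℚ).liftNormal Qb) h₀
    have hdec : ρ * ((σ.restrictScalars ℚ).liftNormal Qb) ∈ A.decompositionSubgroup ℚ :=
      mem_decompositionSubgroup_of_smul_prime_eq hp A hAp _ hρQ
    exact hkey σ ⟨ρ, hρ, hD A hAp ⟨hdec, mul_mem (hρH ρ hρ) (hlift σ)⟩⟩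
  have twist : ∀ (σ : Gal(M/ℚ)) (n : Gal(M/F)) (a : ℕ),
      σ (algebraMap F M ζ') = algebraMap F M ζ' ^ a →
        (σ * n.restrictScalars ℚ * σ⁻¹) ^ a = n.restrictScalars ℚ := by
    intro σ n a hσa
    have hnt : (n.restrictScalars ℚ).liftNormal Qb ∈ (chi p).ker := hlift n
    have hσt : (σ.liftNormal Qb) ζ = ζ ^ a := by
      have h1 := liftNormal_apply M σ (algebraMap F M ζ')
      rw [hσa] at h1
      exact h1
    have hc : ζ ^ a = ζ ^ (cycloExp p (σ.liftNormal Qb)) := by
      rw [← hσt, cycloExp_eq]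
      exact chi_spec p _ hζ.pow_eq_one
    have hmod : a % p = cycloExp p (σ.liftNormal Qb) := by
      have h1 : ζ ^ a = ζ ^ (a % p) := (pow_eq_pow_mod a hζ.pow_eq_one)
      rw [h1] at hc
      rw [cycloExp_eq] at hc ⊢
      exact hζ.pow_inj (Nat.mod_lt _ hp.pos) (ZMod.val_lt _) hc
    have hρk : σ.liftNormal Qb * (n.restrictScalars ℚ).liftNormal Qb * (σ.liftNormal Qb)⁻¹ ∈
        (chi p).ker := (inferInstance : (chi p).ker.Normal).conj_mem _ hnt _
    have hρp : (σ.liftNormal Qb * (n.restrictScalars ℚ).liftNormal Qb *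
        (σ.liftNormal Qb)⁻¹) ^ p ∈ N := by
      have hnorm : (N.subgroupOf (chi p).ker).Normal := hNn.subgroupOf _
      have h1 := Subgroup.pow_index_mem (N.subgroupOf (chi p).ker)
        (⟨_, hρk⟩ : (chi p).ker)
      rw [show (N.subgroupOf (chi p).ker).index = p from hidx] at h1
      exact Subgroup.mem_subgroupOf.1 h1
    have h1 := htw (σ.liftNormal Qb) _ hnt
    have h2 : (σ.liftNormal Qb * (n.restrictScalars ℚ).liftNormal Qb *
        (σ.liftNormal Qb)⁻¹) ^ a * ((n.restrictScalars ℚ).liftNormal Qb)⁻¹ ∈ N := by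
      have ha : a = p * (a / p) + cycloExp p (σ.liftNormal Qb) := by
        rw [← hmod]; exact (Nat.div_add_mod a p).symm
      rw [ha, pow_add, pow_mul, mul_assoc]
      exact N.mul_mem (N.pow_mem hρp _) h1
    have h3 : AlgEquiv.restrictNormalHom M
        ((σ.liftNormal Qb * (n.restrictScalars ℚ).liftNormal Qb *
          (σ.liftNormal Qb)⁻¹) ^ a * ((n.restrictScalars ℚ).liftNormal Qb)⁻¹) = 1 := by
      rw [← hNM] at h2
      ext x
      have h4 := AlgEquiv.restrictNormal_commutes
        ((σ.liftNormal Qb * (n.restrictScalars ℚ).liftNormal Qb *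
          (σ.liftNormal Qb)⁻¹) ^ a * ((n.restrictScalars ℚ).liftNormal Qb)⁻¹) M x
      exact h4.trans ((IntermediateField.mem_fixingSubgroup_iff M _).1 h2 _ x.2)
    have e1 : AlgEquiv.restrictNormalHom M (σ.liftNormal Qb) = σ := σ.restrict_liftNormal Qb
    have e2 : AlgEquiv.restrictNormalHom M ((n.restrictScalars ℚ).liftNormal Qb) =
        n.restrictScalars ℚ := (n.restrictScalars ℚ).restrict_liftNormal Qb
    rw [map_mul, map_pow, map_mul, map_mul, map_inv, map_inv, e1, e2] at h3
    exact mul_inv_eq_one.1 h3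
  exact hno F M ζ' ⟨hprim, hgalM, hgalFM, hdeg, unram, split, twist⟩

/-- **Package R** of the Thaine route, in the exact shape of `helper1934_ThaineSpec`. -/
theorem stmt_Reduction : helper1934.Stmt_Reduction p :=
  fun h3 hno => extVanishingCts_of_noExt h3 (noExt_of_noTwisted hno)

end Main

end Fermat.Agent.S14.helper4867
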