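import Mathlib

/-!
# The cyclotomic unit `E2` is an `ω²`-eigen unit (Thaine route for S14, leaf (E2-GAL))

Ring-level statements (any commutative ring `A`, `ζ : A` with `ζ ^ p = 1` and
`∑ i < p, ζ ^ i = 0`), then the number-field surface.
-/

namespace Fermat.Agent.S14.helper4917

open Finset

section Ring

variable {A : Type*} [CommRing A]

/-- The geometric sum `1 + ζ + ⋯ + ζ ^ (b - 1)`. -/
def geo (ζ : A) (b : ℕ) : A := ∑ i ∈ range b, ζ ^ i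

lemma geo_zero (ζ : A) : geo ζ 0 = 0 := by simp [geo]

lemma geo_one (ζ : A) : geo ζ 1 = 1 := by simp [geo]

lemma one_sub_mul_geo (ζ : A) (b : ℕ) : (1 - ζ) * geo ζ b = 1 - ζ ^ b :=
  mul_neg_geom_sum ζ b

lemma sub_one_mul_geo (ζ : A) (b : ℕ) : (ζ - 1) * geo ζ b = ζ ^ b - 1 :=
  mul_geom_sum ζ b

lemma geo_add (ζ : A) (m n : ℕ) : geo ζ (m + n) = geo ζ m + ζ ^ m * geo ζ n := by
  unfold geo
  rw [sum_range_add, mul_sum]
  simp [pow_add]

/-- `geo ζ b * ∑ i < c, (ζ ^ b) ^ i = geo ζ (b * c)`. -/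
lemma geo_mul_sum (ζ : A) (b c : ℕ) :
    geo ζ b * ∑ i ∈ range c, (ζ ^ b) ^ i = geo ζ (b * c) := by
  induction c with
  | zero => simp [geo_zero]
  | succ c ih =>
    rw [sum_range_succ, mul_add, ih, Nat.mul_succ, geo_add, ← pow_mul]
    ring

lemma map_geo {B : Type*} [CommRing B] (σ : A →+* B) (ζ : A) (c : ℕ) :
    σ (geo ζ c) = geo (σ ζ) c := by
  simp [geo, map_sum, map_pow]

lemma geo_pow (ζ : A) (b c : ℕ) : geo (ζ ^ b) c = ∑ i ∈ range c, (ζ ^ b) ^ i := rfl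

/-- `geo ζ b * geo (ζ ^ b) c = geo ζ (b * c)`. -/
lemma geo_mul_geo_pow (ζ : A) (b c : ℕ) : geo ζ b * geo (ζ ^ b) c = geo ζ (b * c) :=
  geo_mul_sum ζ b c

variable {p : ℕ} {ζ : A}

lemma geo_add_mul (hs : geo ζ p = 0) (b m : ℕ) :
    geo ζ (b + p * m) = geo ζ b := by
  induction m with
  | zero => simp
  | succ m ih =>
    rw [Nat.mul_succ, ← add_assoc, geo_add, ih, hs, mul_zero, add_zero]

lemma geo_mod (hs : geo ζ p = 0) (b : ℕ) :
    geo ζ (b % p) = geo ζ b := by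
  conv_rhs => rw [← Nat.mod_add_div b p]
  rw [geo_add_mul hs]

lemma geo_congr (hs : geo ζ p = 0) {b c : ℕ} (h : b % p = c % p) :
    geo ζ b = geo ζ c := by
  rw [← geo_mod hs b, h, geo_mod hs c]

lemma geo_natCast_val [NeZero p] (hs : geo ζ p = 0) (b : ℕ) :
    geo ζ (b : ZMod p).val = geo ζ b := by
  rw [ZMod.val_natCast, geo_mod hs]

/-- `ζ ^ p = 1` follows from the vanishing of the full geometric sum. -/
lemma pow_eq_one_of_geo_eq_zero (hs : geo ζ p = 0) : ζ ^ p = 1 := by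
  have h := one_sub_mul_geo ζ p
  rw [hs, mul_zero] at h
  exact (sub_eq_zero.mp h.symm).symm

end Ring

section E2

variable {A : Type*} [CommRing A] (p : ℕ) [Fact p.Prime]

/-- `invVal p a` is the representative in `[1, p - 1]` of the inverse of `a`. -/
def invVal (a : (ZMod p)ˣ) : ℕ := ((a⁻¹ : (ZMod p)ˣ) : ZMod p).val

/-- `sqVal p a` is the square of the representative of `a` in `[1, p - 1]`. -/
def sqVal (a : (ZMod p)ˣ) : ℕ := (a : ZMod p).val ^ 2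

/-- The cyclotomic unit `E2 = ∏_{a=1}^{p-1} geo (a⁻¹ mod p) ^ (a ^ 2)`. -/
def E2 (ζ : A) : A := ∏ a : (ZMod p)ˣ, geo ζ (invVal p a) ^ sqVal p a

lemma E2_def (ζ : A) :
    E2 p ζ = ∏ a : (ZMod p)ˣ,
      (∑ i ∈ range ((a⁻¹ : (ZMod p)ˣ) : ZMod p).val, ζ ^ i) ^ ((a : ZMod p).val ^ 2) := rfl

variable {p}

lemma not_dvd_invVal (a : (ZMod p)ˣ) : ¬ p ∣ invVal p a := by
  intro h
  have h0 := (ZMod.natCast_eq_zero_iff _ _).mpr h
  rw [invVal, ZMod.natCast_zmod_val] at h0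
  exact Units.ne_zero _ h0

lemma isUnit_geo {ζ : A} (hs : geo ζ p = 0) {b : ℕ} (hb : ¬ p ∣ b) : IsUnit (geo ζ b) := by
  have hp : p.Prime := Fact.out
  have hb0 : (b : ZMod p) ≠ 0 := by rwa [Ne, ZMod.natCast_eq_zero_iff]
  have h1 : ((b * ((b : ZMod p)⁻¹).val : ℕ) : ZMod p) = ((1 : ℕ) : ZMod p) := by
    rw [Nat.cast_mul, ZMod.natCast_zmod_val, mul_inv_cancel₀ hb0, Nat.cast_one]
  have h2 := (ZMod.natCast_eq_natCast_iff' _ _ _).mp h1
  have h3 : geo ζ (b * ((b : ZMod p)⁻¹).val) = 1 := by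
    rw [geo_congr hs h2, geo_one]
  exact IsUnit.of_mul_eq_one _ (by rw [geo_mul_geo_pow, h3])

lemma isUnit_E2 {ζ : A} (hs : geo ζ p = 0) : IsUnit (E2 p ζ) := by
  unfold E2
  refine Finset.prod_induction _ IsUnit (fun _ _ => IsUnit.mul) isUnit_one fun a _ => ?_
  exact (isUnit_geo hs (not_dvd_invVal a)).pow _

lemma exists_sum_sqVal (hp5 : 5 ≤ p) : ∃ M : ℕ, ∑ a : (ZMod p)ˣ, sqVal p a = p * M := by
  have hp : p.Prime := Fact.out
  have h : ((∑ a : (ZMod p)ˣ, sqVal p a : ℕ) : ZMod p) = 0 := by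
    have h2 := FiniteField.sum_pow_units (ZMod p) 2
    rw [ZMod.card, if_neg] at h2
    · rw [Nat.cast_sum, ← h2]
      refine Finset.sum_congr rfl fun a _ => ?_
      simp [sqVal]
    · intro hdvd
      have := Nat.le_of_dvd (by norm_num) hdvd
      omega
  exact (ZMod.natCast_eq_zero_iff _ _).mp h

/-- **Eigen property, ring form.** If `σ ζ = ζ ^ b` with `p ∤ b` then
`σ E2 = E2 ^ (b ^ 2) * v ^ p` for a unit `v`. -/
theorem exists_map_E2_eq (hp5 : 5 ≤ p) {ζ : A} (hs : geo ζ p = 0) (σ : A →+* A) (b : ℕ)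
    (hb : ¬ p ∣ b) (hσ : σ ζ = ζ ^ b) :
    ∃ v : Aˣ, σ (E2 p ζ) = E2 p ζ ^ (b ^ 2) * (v : A) ^ p := by
  have hp : p.Prime := Fact.out
  have hb0 : (b : ZMod p) ≠ 0 := by rwa [Ne, ZMod.natCast_eq_zero_iff]
  obtain ⟨M, hM⟩ := exists_sum_sqVal (p := p) hp5
  obtain ⟨β, hβ⟩ : ∃ β : (ZMod p)ˣ, (β : ZMod p) = b := ⟨Units.mk0 _ hb0, rfl⟩
  -- Step A
  have hA : geo ζ b ^ (p * M) * σ (E2 p ζ)
      = ∏ a : (ZMod p)ˣ, geo ζ (b * invVal p a) ^ sqVal p a := by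
    rw [← hM, ← Finset.prod_pow_eq_pow_sum, E2, map_prod, ← Finset.prod_mul_distrib]
    refine Finset.prod_congr rfl fun a _ => ?_
    rw [map_pow, ← mul_pow, map_geo, hσ, geo_mul_geo_pow]
  -- Step B
  have hB : ∏ a : (ZMod p)ˣ, geo ζ (b * invVal p a) ^ sqVal p a
      = ∏ a : (ZMod p)ˣ, geo ζ (invVal p a) ^ sqVal p (β * a) := by
    refine ((Equiv.prod_comp (Equiv.mulLeft β)
      (fun a => geo ζ (b * invVal p a) ^ sqVal p a)).symm.trans ?_)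
    refine Finset.prod_congr rfl fun a _ => ?_
    simp only [Equiv.coe_mulLeft]
    congr 1
    apply geo_congr hs
    rw [← ZMod.natCast_eq_natCast_iff']
    rw [Nat.cast_mul, invVal, invVal, ZMod.natCast_zmod_val, ZMod.natCast_zmod_val, ← hβ,
      ← Units.val_mul]
    congr 1
    rw [mul_inv_rev, mul_comm a⁻¹, mul_inv_cancel_left]
  -- Step C
  have hC : ∀ a : (ZMod p)ˣ, ∃ e : ℕ, sqVal p a * b ^ 2 = sqVal p (β * a) + p * e := by
    intro a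
    have hval : ((β * a : (ZMod p)ˣ) : ZMod p).val = (b * (a : ZMod p).val) % p := by
      rw [← ZMod.val_natCast, Nat.cast_mul, ZMod.natCast_zmod_val, Units.val_mul, hβ]
    refine ⟨2 * ((b * (a : ZMod p).val) % p) * ((b * (a : ZMod p).val) / p)
      + p * ((b * (a : ZMod p).val) / p) ^ 2, ?_⟩
    simp only [sqVal, hval]
    have hn := Nat.mod_add_div (b * (a : ZMod p).val) p
    have h1 : (a : ZMod p).val ^ 2 * b ^ 2 = (b * (a : ZMod p).val) ^ 2 := by ring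
    rw [h1]
    conv_lhs => rw [← hn]
    ring
  choose e he using hC
  have hE : E2 p ζ ^ (b ^ 2)
      = σ (E2 p ζ) * (geo ζ b ^ M * ∏ a : (ZMod p)ˣ, geo ζ (invVal p a) ^ e a) ^ p := by
    calc E2 p ζ ^ (b ^ 2)
        = ∏ a : (ZMod p)ˣ, geo ζ (invVal p a) ^ (sqVal p a * b ^ 2) := by
          rw [E2, ← Finset.prod_pow]
          exact Finset.prod_congr rfl fun a _ => (pow_mul _ _ _).symm
      _ = ∏ a : (ZMod p)ˣ, (geo ζ (invVal p a) ^ sqVal p (β * a)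
            * (geo ζ (invVal p a) ^ e a) ^ p) := by
          refine Finset.prod_congr rfl fun a _ => ?_
          rw [he a, pow_add, pow_mul']
      _ = (∏ a : (ZMod p)ˣ, geo ζ (invVal p a) ^ sqVal p (β * a))
            * (∏ a : (ZMod p)ˣ, geo ζ (invVal p a) ^ e a) ^ p := by
          rw [Finset.prod_mul_distrib, Finset.prod_pow]
      _ = geo ζ b ^ (p * M) * σ (E2 p ζ)
            * (∏ a : (ZMod p)ˣ, geo ζ (invVal p a) ^ e a) ^ p := by rw [← hB, ← hA]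
      _ = _ := by rw [pow_mul', mul_pow]; ring
  have hU : IsUnit (geo ζ b ^ M * ∏ a : (ZMod p)ˣ, geo ζ (invVal p a) ^ e a) := by
    refine IsUnit.mul ((isUnit_geo hs hb).pow _) ?_
    refine Finset.prod_induction _ IsUnit (fun _ _ => IsUnit.mul) isUnit_one fun a _ => ?_
    exact (isUnit_geo hs (not_dvd_invVal a)).pow _
  obtain ⟨u, hu⟩ := hU
  refine ⟨u⁻¹, ?_⟩
  rw [hE, ← hu, mul_assoc, ← mul_pow, Units.mul_inv, one_pow, mul_one]

/-- **(T′) algebra identity.** `∏_a (ζ ^ (a⁻¹) - 1) ^ (a ^ 2) = ((ζ - 1) ^ M) ^ p * E2`. -/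
theorem exists_prod_pow_sub_one_eq (hp5 : 5 ≤ p) (ζ : A) :
    ∃ M : ℕ, ∑ a : (ZMod p)ˣ, sqVal p a = p * M ∧
      ∏ a : (ZMod p)ˣ, (ζ ^ invVal p a - 1) ^ sqVal p a = ((ζ - 1) ^ M) ^ p * E2 p ζ := by
  obtain ⟨M, hM⟩ := exists_sum_sqVal (p := p) hp5
  refine ⟨M, hM, ?_⟩
  rw [← pow_mul, mul_comm M p, ← hM, ← Finset.prod_pow_eq_pow_sum, E2, ← Finset.prod_mul_distrib]
  refine Finset.prod_congr rfl fun a _ => ?_
  rw [← mul_pow, sub_one_mul_geo]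

lemma map_E2 {B : Type*} [CommRing B] (φ : A →+* B) (ζ : A) : φ (E2 p ζ) = E2 p (φ ζ) := by
  simp only [E2, map_prod, map_pow, map_geo]

/-- `E2` as a product over `a = 1, …, p - 1` (the surface used by the local computation (L)). -/
theorem E2_eq_prod_Ico (ζ : A) :
    E2 p ζ = ∏ a ∈ Finset.Ico 1 p, geo ζ (((a : ZMod p)⁻¹).val) ^ (a ^ 2) := by
  have hp : p.Prime := Fact.out
  unfold E2
  refine Finset.prod_bij (fun a _ => (a : ZMod p).val) ?_ ?_ ?_ ?_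
  · intro a _
    rw [Finset.mem_Ico]
    refine ⟨?_, ZMod.val_lt _⟩
    rw [Nat.one_le_iff_ne_zero, Ne, ZMod.val_eq_zero]
    exact Units.ne_zero a
  · intro a _ a' _ h
    exact Units.ext (ZMod.val_injective p h)
  · intro n hn
    rw [Finset.mem_Ico] at hn
    have hn0 : (n : ZMod p) ≠ 0 := by
      rw [Ne, ZMod.natCast_eq_zero_iff]
      intro hdvd
      have := Nat.le_of_dvd (by omega) hdvd
      omega
    refine ⟨Units.mk0 _ hn0, Finset.mem_univ _, ?_⟩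
    rw [Units.val_mk0, ZMod.val_natCast, Nat.mod_eq_of_lt hn.2]
  · intro a _
    rw [invVal, sqVal, ZMod.natCast_zmod_val, Units.val_inv_eq_inv_val]

end E2

section Domain

variable {A : Type*} [CommRing A] [IsDomain A] {p : ℕ} [Fact p.Prime]

lemma geo_eq_zero_of_isPrimitiveRoot {ζ : A} (hζ : IsPrimitiveRoot ζ p) : geo ζ p = 0 :=
  hζ.geom_sum_eq_zero (Fact.out : p.Prime).one_lt

omit [IsDomain A] in
lemma not_dvd_of_map_eq_pow {ζ : A} (hζ : IsPrimitiveRoot ζ p) (σ : A →+* A)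
    (hσ : Function.Injective σ) {b : ℕ} (h : σ ζ = ζ ^ b) : ¬ p ∣ b := by
  intro hdvd
  obtain ⟨c, rfl⟩ := hdvd
  rw [pow_mul, hζ.pow_eq_one, one_pow] at h
  have h1 : ζ = 1 := hσ (h.trans (map_one σ).symm)
  exact hζ.ne_one (Fact.out : p.Prime).one_lt h1

/-- **Eigen property in a domain**: `ζ` a primitive `p`-th root of unity, `σ` an injective ring
endomorphism with `σ ζ = ζ ^ b`. -/
theorem exists_map_E2_eq_of_isPrimitiveRoot (hp5 : 5 ≤ p) {ζ : A} (hζ : IsPrimitiveRoot ζ p)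
    (σ : A →+* A) (hσ : Function.Injective σ) (b : ℕ) (h : σ ζ = ζ ^ b) :
    ∃ v : Aˣ, σ (E2 p ζ) = E2 p ζ ^ (b ^ 2) * (v : A) ^ p :=
  exists_map_E2_eq hp5 (geo_eq_zero_of_isPrimitiveRoot hζ) σ b
    (not_dvd_of_map_eq_pow hζ σ hσ h) h

/-- `E2` as a unit. -/
noncomputable def E2u {ζ : A} (hζ : IsPrimitiveRoot ζ p) : Aˣ :=
  (isUnit_E2 (geo_eq_zero_of_isPrimitiveRoot hζ)).unit

@[simp] lemma coe_E2u {ζ : A} (hζ : IsPrimitiveRoot ζ p) : (E2u hζ : A) = E2 p ζ := rfl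

end Domain

section NumberField

open NumberField

variable {K : Type*} [Field K] {p : ℕ} [Fact p.Prime]

/-- **(G2), number-field surface.** `ζ : 𝓞 K` a primitive `p`-th root of unity (`p ≥ 5`),
`τ` a field automorphism of `K` with `τ ζ = ζ ^ b`: then `τ E2 = E2 ^ (b ^ 2) * v ^ p` with `v` a
unit of `𝓞 K`. -/
theorem exists_unit_map_E2_eq (hp5 : 5 ≤ p) {ζ : 𝓞 K} (hζ : IsPrimitiveRoot ζ p)
    (τ : K ≃+* K) (b : ℕ) (h : τ (ζ : K) = (ζ : K) ^ b) :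
    ∃ v : (𝓞 K)ˣ, τ ((E2 p ζ : 𝓞 K) : K) = ((E2 p ζ : 𝓞 K) : K) ^ (b ^ 2) * ((v : 𝓞 K) : K) ^ p := by
  have hσ : (RingOfIntegers.mapRingEquiv τ : 𝓞 K →+* 𝓞 K) ζ = ζ ^ b := by
    apply RingOfIntegers.ext
    rw [RingEquiv.coe_toRingHom, RingOfIntegers.mapRingEquiv_apply, h]
    simp
  obtain ⟨v, hv⟩ := exists_map_E2_eq_of_isPrimitiveRoot hp5 hζ
    (RingOfIntegers.mapRingEquiv τ : 𝓞 K →+* 𝓞 K) (RingOfIntegers.mapRingEquiv τ).injective b hσ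
  refine ⟨v, ?_⟩
  have := congrArg (fun x : 𝓞 K => (x : K)) hv
  simpa using this

/-- The same for `K`-algebra automorphisms over `ℚ`. -/
theorem exists_unit_algEquiv_E2_eq [Algebra ℚ K] (hp5 : 5 ≤ p) {ζ : 𝓞 K}
    (hζ : IsPrimitiveRoot ζ p) (τ : K ≃ₐ[ℚ] K) (b : ℕ) (h : τ (ζ : K) = (ζ : K) ^ b) :
    ∃ v : (𝓞 K)ˣ, τ ((E2 p ζ : 𝓞 K) : K) = ((E2 p ζ : 𝓞 K) : K) ^ (b ^ 2) * ((v : 𝓞 K) : K) ^ p :=
  exists_unit_map_E2_eq hp5 hζ τ.toRingEquiv b h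

/-- The coercion of `E2` to `K` is `E2` of the coercion of `ζ`. -/
lemma coe_E2 (ζ : 𝓞 K) : ((E2 p ζ : 𝓞 K) : K) = E2 p (ζ : K) :=
  map_E2 (algebraMap (𝓞 K) K) ζ

end NumberField

end Fermat.Agent.S14.helper4917
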