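import Mathlib
import Fermat.Agent.S14.helper1934_ThaineSpec
import Fermat.Agent.S14.helper4867_Reduction
import Fermat.Agent.Lib.helper1646_MinkowskiInertia

/-!
# S14, Thaine route: Package R (`helper1934.Stmt_Reduction`)

From the group-theoretic core `helper4867.Stmt_NoExt p` to the number-field statement
`helper1934.NoTwistedSplitExt p`: an open normal subgroup `N ≤ ker χ` of index `p` of
`Gal(ℚ̄/ℚ)` satisfying the hypotheses of `Stmt_NoExt` produces a twisted split extension
`M = ℚ̄^N` of `F = ℚ(ζ_p)` (both realised as intermediate fields of `ℚ̄/ℚ`):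

* `M/ℚ` is finite Galois, `[M:F] = [ker χ : N] = p`;
* the conjugation hypothesis gives the `twist` field;
* inertia groups `I_A ≤ N` (for `A` over `ℓ ≠ p`) give trivial inertia at primes of `𝓞 M` not
  above `p` (lifting of inertia, `helper1646.exists_mul_mem_inertiaSubgroupIn`);
* `D_A ⊓ ker χ ≤ N` (for `A` over `p`) gives trivial decomposition groups in `Gal(M/F)` above `p`
  (lifting of decomposition, `exists_mul_mem_decompositionSubgroup`).

Main results:
* `noExt_of_noTwisted : helper1934.NoTwistedSplitExt p → helper4867.Stmt_NoExt p`;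
* `stmt_Reduction (p) [Fact p.Prime] : helper1934.Stmt_Reduction p`.
-/

set_option autoImplicit false

namespace Fermat.Agent.S14.helper4983

open scoped Pointwise NumberField
open Fermat.Agent.Lib.helper54 Fermat.Agent.Lib.helper1646 Fermat.Agent.S14.helper4867
open ExtCitation

attribute [local instance] isAlgebraic_Qbar isAlgClosure_Qbar isGalois_Qbar isIntegral_Qbar

local notation "Qb" => AlgebraicClosure ℚ
local notation "GQ" => (AlgebraicClosure ℚ ≃ₐ[ℚ] AlgebraicClosure ℚ)
local notation "Zb" => integralClosure ℤ (AlgebraicClosure ℚ)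

/-! ## Lifting the decomposition group -/

/-- **Lifting decomposition.**  Let `N` be an open normal subgroup of `Gal(ℚ̄/ℚ)` and let `σ`
preserve, on the `N`-invariant algebraic integers, membership in the prime cut out by `A`.  Then
some `N`-translate of `σ` lies in the decomposition subgroup of `A`. -/
theorem exists_mul_mem_decompositionSubgroup {ℓ : ℕ} (hℓ : ℓ.Prime) (A : ValuationSubring Qb)
    (hA : A.LiesOverPrime ℓ) (N : Subgroup GQ) [hNn : N.Normal] (hN : IsOpen (N : Set GQ))
    (σ : GQ)
    (hσ : ∀ z : Zb, (∀ n ∈ N, n • z = z) →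
      (z ∈ primeOfValuationSubring A ↔ σ • z ∈ primeOfValuationSubring A)) :
    ∃ n ∈ N, n * σ ∈ A.decompositionSubgroup ℚ := by
  classical
  set Q := primeOfValuationSubring A with hQ
  let : TopologicalSpace Zb := ⊥
  have : DiscreteTopology Zb := ⟨rfl⟩
  have : ContinuousSMul GQ Zb := continuousSMul_zbar
  have : CompactSpace N := isCompact_iff_compactSpace.mp (N.isClosed_of_isOpen hN).isCompact
  have : TotallyDisconnectedSpace N := Subtype.totallyDisconnectedSpace
  have : ContinuousSMul N Zb := ⟨by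
    have h1 : Continuous fun p : GQ × Zb => p.1 • p.2 := continuous_smul
    exact h1.comp (continuous_subtype_val.prodMap continuous_id)⟩
  let A' := FixedPoints.subalgebra ℤ Zb N
  have : SMulCommClass N A' Zb := ⟨fun n a b => by
    change n • (a.1 * b) = a.1 * n • b
    rw [smul_mul', a.2 n]⟩
  have : Algebra.IsInvariant A' Zb N := ⟨fun b hb => ⟨⟨b, hb⟩, rfl⟩⟩
  -- translates of `N`-fixed elements are `N`-fixed
  have hfix : ∀ a : A', ∀ g : GQ, ∀ n ∈ N, n • (g • (a : Zb)) = g • (a : Zb) := by
    intro a g n hn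
    have hmem : g⁻¹ * n * g ∈ N := by
      have := hNn.conj_mem n hn g⁻¹
      simpa using this
    have h2 : (g⁻¹ * n * g) • (a : Zb) = (a : Zb) := a.2 ⟨g⁻¹ * n * g, hmem⟩
    calc n • g • (a : Zb) = g • ((g⁻¹ * n * g) • (a : Zb)) := by
          simp only [mul_smul, smul_inv_smul]
      _ = g • (a : Zb) := by rw [h2]
  have hunder : (σ • Q).under A' = Q.under A' := by
    ext a
    simp only [Ideal.under_def, Ideal.mem_comap]
    rw [Ideal.mem_pointwise_smul_iff_inv_smul_mem]
    have hy := hσ (σ⁻¹ • (a : Zb)) (fun n hn => hfix a σ⁻¹ n hn)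
    rw [smul_inv_smul] at hy
    exact hy
  obtain ⟨n, hn⟩ := Algebra.IsInvariant.exists_smul_of_under_eq_of_profinite (A := A') (G := N)
    (σ • Q) Q hunder
  have hσ1Q : ((n : GQ) * σ) • Q = Q := by
    rw [mul_smul]
    exact hn.symm
  exact ⟨n, n.2, mem_decompositionSubgroup_of_smul_prime_eq hℓ A hA _ hσ1Q⟩


section Chi

variable {p : ℕ} [Fact p.Prime]

/-- An automorphism lies in the kernel of the cyclotomic character iff it fixes `ζ_p`. -/
theorem mem_chi_ker_iff_apply_eq {ζ : Qb} (hζ : IsPrimitiveRoot ζ p) (σ : GQ) :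
    σ ∈ (chi p).ker ↔ σ ζ = ζ := by
  have hp : p.Prime := Fact.out
  have : NeZero p := ⟨hp.ne_zero⟩
  have hspec := chi_spec p σ hζ.pow_eq_one
  constructor
  · intro h
    rw [MonoidHom.mem_ker] at h
    rw [hspec, h]
    have h1 : ((1 : (ZMod p)ˣ) : ZMod p).val = 1 := by
      have : Fact (1 < p) := ⟨hp.one_lt⟩
      rw [Units.val_one, ZMod.val_one]
    rw [h1, pow_one]
  · intro h
    rw [hspec] at h
    have hlt : ((chi p σ : (ZMod p)ˣ) : ZMod p).val < p := ZMod.val_lt _
    have h1 : ((chi p σ : (ZMod p)ˣ) : ZMod p).val = 1 := by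
      apply hζ.pow_inj hlt hp.one_lt
      rw [h, pow_one]
    rw [MonoidHom.mem_ker]
    apply Units.ext
    have h2 : (((chi p σ : (ZMod p)ˣ) : ZMod p).val : ZMod p) = ((1 : ℕ) : ZMod p) := by rw [h1]
    rw [ZMod.natCast_zmod_val] at h2
    simpa using h2

/-- The fixing subgroup of `ℚ(ζ_p)` is the kernel of the mod-`p` cyclotomic character. -/
theorem fixingSubgroup_adjoin_eq {ζ : Qb} (hζ : IsPrimitiveRoot ζ p) :
    (IntermediateField.adjoin ℚ {ζ}).fixingSubgroup = (chi p).ker := by
  ext σ
  rw [mem_chi_ker_iff_apply_eq hζ, IntermediateField.mem_fixingSubgroup_iff]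
  constructor
  · intro h
    exact h ζ (IntermediateField.mem_adjoin_simple_self ℚ ζ)
  · intro h x hx
    induction hx using IntermediateField.adjoin_induction with
    | mem x hx => rw [Set.mem_singleton_iff.mp hx]; exact h
    | algebraMap x => exact σ.commutes x
    | add x y _ _ hx hy => rw [map_add, hx, hy]
    | inv x _ hx => rw [map_inv₀, hx]
    | mul x y _ _ hx hy => rw [map_mul, hx, hy]

end Chi

section Fields

/-- For a finite Galois intermediate field `E` of `ℚ̄/ℚ`: `[E:ℚ] = [G_ℚ : G_E]`. -/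
theorem finrank_eq_index (E : IntermediateField ℚ Qb) [FiniteDimensional ℚ E] [IsGalois ℚ E] :
    Module.finrank ℚ E = E.fixingSubgroup.index := by
  have hN0 : Normal ℚ E := IsGalois.to_normal
  have hN : @Normal ℚ ↥E _ _ E.algebra' := hN0
  have hsurj : Function.Surjective (AlgEquiv.restrictNormalHom (F := ℚ) (K₁ := Qb) E) :=
    AlgEquiv.restrictNormalHom_surjective Qb
  have hker := @IntermediateField.restrictNormalHom_ker ℚ Qb _ _ _ E hN
  rw [← IsGalois.card_aut_eq_finrank ℚ E, ← hker, Subgroup.index_ker]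
  symm
  refine Nat.card_eq_of_bijective (fun x => (x.1 : Gal(↥E/ℚ))) ⟨?_, ?_⟩
  · intro x y hxy
    exact Subtype.ext hxy
  · intro τ
    obtain ⟨σ, hσ⟩ := hsurj τ
    exact ⟨⟨_, σ, rfl⟩, hσ⟩

end Fields

section Places

/-- Chevalley: a proper ideal of a ring mapping injectively to a field is contained in the
maximal ideal of a valuation subring of the field. -/
theorem exists_valuationSubring_nonunits' {R K : Type*} [CommRing R] [Field K] (f : R →+* K)
    (hf : Function.Injective f) (P : Ideal R) (hP : P ≠ ⊤) :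
    ∃ A : ValuationSubring K, ∀ x ∈ P, f x ∈ A.nonunits := by
  let e : R ≃+* f.range :=
    RingEquiv.ofBijective f.rangeRestrict ⟨fun a b h => hf (congrArg Subtype.val h),
      f.rangeRestrict_surjective⟩
  let I : Ideal f.range := P.comap (e.symm : f.range →+* R)
  have hI : I ≠ ⊤ := Ideal.comap_ne_top _ hP
  obtain ⟨B, -, hB2⟩ := Ideal.image_subset_nonunits_valuationSubring I hI
  refine ⟨B, fun x hx => ?_⟩
  apply hB2
  refine ⟨e x, ?_, rfl⟩
  change (e.symm (e x)) ∈ P
  rwa [RingEquiv.symm_apply_apply]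

/-- A nonzero prime of the ring of integers of a number field contains a rational prime. -/
theorem exists_prime_natCast_mem {K : Type*} [Field K] [NumberField K] (P : Ideal (𝓞 K))
    (hP : P.IsPrime) (hP0 : P ≠ ⊥) : ∃ ℓ : ℕ, ℓ.Prime ∧ (ℓ : 𝓞 K) ∈ P := by
  have key : ∀ m : ℕ, m ≠ 0 → (m : 𝓞 K) ∈ P → ∃ ℓ : ℕ, ℓ.Prime ∧ (ℓ : 𝓞 K) ∈ P := by
    intro m
    induction m using Nat.strong_induction_on with
    | _ m ih =>
      intro hm0 hmP
      by_cases hm1 : m = 1
      · subst hm1
        exfalso
        apply hP.ne_top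
        rw [Ideal.eq_top_iff_one]
        simpa using hmP
      · obtain ⟨q, hq, hqm⟩ := Nat.exists_prime_and_dvd hm1
        obtain ⟨k, rfl⟩ := hqm
        rw [Nat.cast_mul] at hmP
        have hk0 : k ≠ 0 := by
          rintro rfl
          simp at hm0
        rcases hP.mem_or_mem hmP with h | h
        · exact ⟨q, hq, h⟩
        · refine ih k ?_ hk0 h
          have := hq.two_le
          have hkpos : 0 < k := Nat.pos_of_ne_zero hk0
          nlinarith
  refine key (Ideal.absNorm P) ?_ (Ideal.absNorm_mem P)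
  rw [Ne, Ideal.absNorm_eq_zero_iff]
  exact hP0

variable (M : IntermediateField ℚ Qb) [NumberField M]

/-- Every prime of `𝓞 M` containing the rational prime `ℓ` is cut out by a valuation subring of
`ℚ̄` over `ℓ`. -/
theorem exists_valuationSubring_over (P : Ideal (𝓞 M)) (hP : P.IsPrime) {ℓ : ℕ} (hℓ : ℓ.Prime)
    (hℓP : (ℓ : 𝓞 M) ∈ P) :
    ∃ A : ValuationSubring Qb, A.LiesOverPrime ℓ ∧
      P = (primeOfValuationSubring A).comap (ringOfIntegersToZbar M) := by
  have hP0 : P ≠ ⊥ := by
    rintro rfl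
    rw [Ideal.mem_bot] at hℓP
    exact hℓ.ne_zero (by exact_mod_cast hℓP)
  have hPmax : P.IsMaximal := hP.isMaximal hP0
  have hinj : Function.Injective ((algebraMap Zb Qb).comp (ringOfIntegersToZbar M)) := by
    intro x y hxy
    have h1 : ((x : M) : Qb) = ((y : M) : Qb) := hxy
    exact NumberField.RingOfIntegers.ext (Subtype.ext h1)
  obtain ⟨A, hA2⟩ := exists_valuationSubring_nonunits'
    ((algebraMap Zb Qb).comp (ringOfIntegersToZbar M)) hinj P hP.ne_top
  refine ⟨A, ?_, ?_⟩
  · have h := hA2 _ hℓP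
    have h2 : ((algebraMap Zb Qb).comp (ringOfIntegersToZbar M)) (ℓ : 𝓞 M) = (ℓ : Qb) := by
      rw [map_natCast]
    rw [h2] at h
    exact h
  · apply hPmax.eq_of_le (Ideal.comap_ne_top _ (Ideal.IsPrime.ne_top inferInstance))
    intro x hx
    rw [Ideal.mem_comap, mem_primeOfValuationSubring]
    exact hA2 x hx

end Places

section Key

variable (M : IntermediateField ℚ Qb)

/-- Algebraic integers fixed by `Gal(ℚ̄/M)` are integers of `M`. -/
theorem exists_ringOfIntegers_eq (z : Zb) (hz : ∀ n ∈ M.fixingSubgroup, n • z = z) :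
    ∃ x : 𝓞 M, ringOfIntegersToZbar M x = z := by
  have hzM : (z : Qb) ∈ M := by
    rw [← InfiniteGalois.fixedField_fixingSubgroup M, IntermediateField.mem_fixedField_iff]
    intro g hg
    exact congrArg Subtype.val (hz g hg)
  have hint : IsIntegral ℤ (⟨(z : Qb), hzM⟩ : M) := by
    have h1 : IsIntegral ℤ (z : Qb) := z.2
    exact (isIntegral_algHom_iff (IsScalarTower.toAlgHom ℤ M Qb)
      (algebraMap M Qb).injective).mp h1
  exact ⟨⟨⟨(z : Qb), hzM⟩, hint⟩, Subtype.ext rfl⟩

theorem fixingSubgroup_normal [IsGalois ℚ M] : (M.fixingSubgroup).Normal := by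
  have h0 : IsGalois ℚ M := inferInstance
  exact (InfiniteGalois.normal_iff_isGalois M).mpr h0

theorem fixingSubgroup_open [FiniteDimensional ℚ M] : IsOpen (M.fixingSubgroup : Set GQ) :=
  IntermediateField.fixingSubgroup_isOpen M

/-- **Unramified, inertia form.**  If all inertia groups over `ℓ` fix `M` and `τ` acts trivially
on `𝓞 M` modulo a prime over `ℓ`, then `τ` fixes `M`. -/
theorem mem_fixingSubgroup_of_inertia [NumberField M] [IsGalois ℚ M] {ℓ : ℕ} (hℓ : ℓ.Prime)
    (hin : ∀ A : ValuationSubring Qb, A.LiesOverPrime ℓ →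
      A.inertiaSubgroupIn ℚ ≤ M.fixingSubgroup)
    (P : Ideal (𝓞 M)) (hP : P.IsPrime) (hℓP : (ℓ : 𝓞 M) ∈ P) (τ : GQ)
    (hτ : ∀ x : 𝓞 M, ∃ y ∈ P, ((y : M) : Qb) = τ ((x : M) : Qb) - ((x : M) : Qb)) :
    τ ∈ M.fixingSubgroup := by
  have hNn := fixingSubgroup_normal M
  obtain ⟨A, hA, hPA⟩ := exists_valuationSubring_over M P hP hℓ hℓP
  obtain ⟨n, hn, hnτ⟩ := exists_mul_mem_inertiaSubgroupIn hℓ A hA M.fixingSubgroup
    (fixingSubgroup_open M) τ (by
    intro z hz
    obtain ⟨x, rfl⟩ := exists_ringOfIntegers_eq M z hz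
    obtain ⟨y, hyP, hy⟩ := hτ x
    rw [hPA, Ideal.mem_comap] at hyP
    have h2 : ringOfIntegersToZbar M y =
        τ • ringOfIntegersToZbar M x - ringOfIntegersToZbar M x := by
      apply Subtype.ext
      rw [coe_ringOfIntegersToZbar, hy]
      rfl
    rwa [h2] at hyP)
  have h1 : n * τ ∈ M.fixingSubgroup := hin A hA hnτ
  have := (M.fixingSubgroup).mul_mem ((M.fixingSubgroup).inv_mem hn) h1
  simpa using this

/-- **Split, decomposition form.**  If `D_A ⊓ K` fixes `M` for all `A` over `ℓ`, and `τ ∈ K`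
stabilises a prime of `𝓞 M` over `ℓ`, then `τ` fixes `M`. -/
theorem mem_fixingSubgroup_of_decomposition [NumberField M] [IsGalois ℚ M] {ℓ : ℕ}
    (hℓ : ℓ.Prime) (K : Subgroup GQ)
    (hMK : M.fixingSubgroup ≤ K)
    (hdec : ∀ A : ValuationSubring Qb, A.LiesOverPrime ℓ →
      A.decompositionSubgroup ℚ ⊓ K ≤ M.fixingSubgroup)
    (P : Ideal (𝓞 M)) (hP : P.IsPrime) (hℓP : (ℓ : 𝓞 M) ∈ P) (τ : GQ) (hτK : τ ∈ K)
    (hτ : ∀ x y : 𝓞 M, ((y : M) : Qb) = τ ((x : M) : Qb) → (x ∈ P ↔ y ∈ P)) :
    τ ∈ M.fixingSubgroup := by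
  have hNn := fixingSubgroup_normal M
  obtain ⟨A, hA, hPA⟩ := exists_valuationSubring_over M P hP hℓ hℓP
  obtain ⟨n, hn, hnτ⟩ := exists_mul_mem_decompositionSubgroup hℓ A hA M.fixingSubgroup
    (fixingSubgroup_open M) τ (by
    intro z hz
    obtain ⟨x, rfl⟩ := exists_ringOfIntegers_eq M z hz
    have hz' : ∀ n ∈ M.fixingSubgroup,
        n • (τ • ringOfIntegersToZbar M x) = τ • ringOfIntegersToZbar M x := by
      intro n hn
      have hmem : τ⁻¹ * n * τ ∈ M.fixingSubgroup := by
        have := hNn.conj_mem n hn τ⁻¹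
        simpa using this
      have h2 := hz _ hmem
      calc n • τ • ringOfIntegersToZbar M x
          = τ • ((τ⁻¹ * n * τ) • ringOfIntegersToZbar M x) := by
            simp only [mul_smul, smul_inv_smul]
        _ = τ • ringOfIntegersToZbar M x := by rw [h2]
    obtain ⟨y, hy⟩ := exists_ringOfIntegers_eq M _ hz'
    have hxy := hτ x y (by
      have := congrArg (fun w : Zb => (w : Qb)) hy
      exact this)
    rw [← hy]
    rw [hPA] at hxy
    exact hxy)
  have h1 : n * τ ∈ M.fixingSubgroup := hdec A hA ⟨hnτ, K.mul_mem (hMK hn) hτK⟩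
  have := (M.fixingSubgroup).mul_mem ((M.fixingSubgroup).inv_mem hn) h1
  simpa using this

end Key

section Main

variable {p : ℕ} [Fact p.Prime]

/-- **Package R, group form.**  If there is no twisted split extension of `ℚ(ζ_p)`, the
group-theoretic core `Stmt_NoExt p` holds. -/
theorem noExt_of_noTwisted (H : helper1934.NoTwistedSplitExt p) : Stmt_NoExt p := by
  intro N hNn hNopen hNle hidx htw hin hdec
  have hp : p.Prime := Fact.out
  have hne : NeZero p := ⟨hp.ne_zero⟩
  obtain ⟨ζ, hζ⟩ := HasEnoughRootsOfUnity.exists_primitiveRoot Qb p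
  let F : IntermediateField ℚ Qb := IntermediateField.adjoin ℚ {ζ}
  let M : IntermediateField ℚ Qb := IntermediateField.fixedField N
  have hfixM : M.fixingSubgroup = N :=
    InfiniteGalois.fixingSubgroup_fixedField ⟨N, N.isClosed_of_isOpen hNopen⟩
  have hfixF : F.fixingSubgroup = (chi p).ker := fixingSubgroup_adjoin_eq hζ
  have hFM : F ≤ M := by
    intro x hx
    rw [IntermediateField.mem_fixedField_iff]
    intro g hg
    have hg' : g ∈ F.fixingSubgroup := by
      rw [hfixF]
      exact hNle hg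
    exact (IntermediateField.mem_fixingSubgroup_iff F g).mp hg' x hx
  have hfdM : FiniteDimensional ℚ M := by
    rw [← InfiniteGalois.isOpen_iff_finite, hfixM]
    exact hNopen
  have hgalM : IsGalois ℚ M := by
    have h1 : IsGalois ℚ M := (InfiniteGalois.normal_iff_isGalois M).mp (hfixM ▸ hNn)
    convert h1
  have hnfM : NumberField M := ⟨⟩
  have hcycF : IsCyclotomicExtension {p} ℚ F :=
    hζ.intermediateField_adjoin_isCyclotomicExtension ℚ
  have hnfF : NumberField F := IsCyclotomicExtension.numberField {p} ℚ F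
  have hgalF : IsGalois ℚ F := IsCyclotomicExtension.isGalois {p} ℚ F
  let algFM : Algebra F M := (IntermediateField.inclusion hFM).toRingHom.toAlgebra
  have htower : IsScalarTower ℚ F M := IsScalarTower.of_algebraMap_eq (fun x => rfl)
  have hgalFM : IsGalois F M := IsGalois.tower_top_of_isGalois ℚ F M
  have hdeg : Module.finrank F M = p := by
    have h1 := finrank_eq_index M
    have h2 := finrank_eq_index F
    have h3 := Module.finrank_mul_finrank ℚ F M
    have h4 := Subgroup.relIndex_mul_index hNle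
    rw [hfixM] at h1
    rw [hfixF] at h2
    have hpos : 0 < Module.finrank ℚ F := Module.finrank_pos
    rw [h1, h2, ← h4, hidx] at h3
    rw [h2] at hpos
    nlinarith
  let ζF : F := ⟨ζ, IntermediateField.mem_adjoin_simple_self ℚ ζ⟩
  have hζF : IsPrimitiveRoot ζF p := IsPrimitiveRoot.coe_submonoidClass_iff.mp hζ
  have hnormM : Normal ℚ M := IsGalois.to_normal
  have hlift : ∀ σ : Gal(M/ℚ), ∃ τ : GQ, ∀ x : M, τ (x : Qb) = ((σ x : M) : Qb) := by
    intro σ
    obtain ⟨τ, rfl⟩ := AlgEquiv.restrictNormalHom_surjective Qb σ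
    exact ⟨τ, fun x => (AlgEquiv.restrictNormal_commutes τ M x).symm⟩
  have hcard : Nat.card Gal(M/F) = p := by
    rw [IsGalois.card_aut_eq_finrank, hdeg]
  -- a lift of an `F`-automorphism lies in the kernel of the cyclotomic character
  have hliftK : ∀ (n : Gal(M/F)) (τ : GQ),
      (∀ x : M, τ (x : Qb) = (((n.restrictScalars ℚ) x : M) : Qb)) → τ ∈ (chi p).ker := by
    intro n τ hτ
    rw [mem_chi_ker_iff_apply_eq hζ]
    have h1 := hτ (algebraMap F M ζF)
    have h2 : (n.restrictScalars ℚ) (algebraMap F M ζF) = algebraMap F M ζF := n.commutes ζF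
    rw [h2] at h1
    exact h1
  refine H F M ζF ⟨hζF, hgalM, hgalFM, hdeg, ?_, ?_, ?_⟩
  · -- unramified
    intro P hP hP0 σ hσ
    obtain ⟨ℓ, hℓ, hℓP⟩ := exists_prime_natCast_mem P hP hP0
    obtain ⟨τ, hτ⟩ := hlift (σ.restrictScalars ℚ)
    have hτK : τ ∈ (chi p).ker := hliftK σ τ hτ
    have hτN : τ ∈ M.fixingSubgroup := by
      by_cases hℓp : ℓ = p
      · have hpP : (p : 𝓞 M) ∈ P := hℓp ▸ hℓP
        refine mem_fixingSubgroup_of_decomposition M hp (chi p).ker ?_ ?_ P hP hpP τ hτK ?_
        · rw [hfixM]; exact hNle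
        · intro A hA
          rw [hfixM]
          exact hdec A hA
        · intro x y hy
          have hyx : y = σ • x := by
            apply NumberField.RingOfIntegers.ext
            apply Subtype.ext
            rw [hy, hτ]
            rfl
          subst hyx
          constructor
          · intro hx
            have := P.add_mem (hσ x) hx
            simpa using this
          · intro hx
            have := P.sub_mem hx (hσ x)
            simpa using this
      · refine mem_fixingSubgroup_of_inertia M hℓ ?_ P hP hℓP τ ?_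
        · intro A hA
          rw [hfixM]
          exact hin ℓ hℓ hℓp A hA
        · intro x
          refine ⟨σ • x - x, hσ x, ?_⟩
          rw [hτ]
          rfl
    ext x
    have h1 := (IntermediateField.mem_fixingSubgroup_iff M τ).mp hτN x x.2
    rw [hτ] at h1
    exact h1
  · -- split above p
    intro P hP hpP σ hσ
    obtain ⟨τ, hτ⟩ := hlift (σ.restrictScalars ℚ)
    have hτK : τ ∈ (chi p).ker := hliftK σ τ hτ
    have hσp : σ ^ p = 1 := by
      rw [← hcard]
      exact pow_card_eq_one'
    have hpow : ∀ k : ℕ, ∀ x ∈ P, (σ ^ k) • x ∈ P := by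
      intro k
      induction k with
      | zero =>
        intro x hx
        simpa using hx
      | succ k ih =>
        intro x hx
        rw [pow_succ, mul_smul]
        exact ih _ (hσ x hx)
    have hτN : τ ∈ M.fixingSubgroup := by
      refine mem_fixingSubgroup_of_decomposition M hp (chi p).ker ?_ ?_ P hP hpP τ hτK ?_
      · rw [hfixM]; exact hNle
      · intro A hA
        rw [hfixM]
        exact hdec A hA
      · intro x y hy
        have hyx : y = σ • x := by
          apply NumberField.RingOfIntegers.ext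
          apply Subtype.ext
          rw [hy, hτ]
          rfl
        subst hyx
        constructor
        · exact hσ x
        · intro hx
          have h1 := hpow (p - 1) _ hx
          rw [← mul_smul, ← pow_succ, Nat.sub_add_cancel hp.one_le, hσp, one_smul] at h1
          exact h1
    ext x
    have h1 := (IntermediateField.mem_fixingSubgroup_iff M τ).mp hτN x x.2
    rw [hτ] at h1
    exact h1
  · -- twist
    intro σ n a hσa
    obtain ⟨σ', hσ'⟩ := hlift σ
    obtain ⟨τ, hτ⟩ := hlift (n.restrictScalars ℚ)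
    have hτK : τ ∈ (chi p).ker := hliftK n τ hτ
    have hg := htw σ' τ hτK
    have hrσ : AlgEquiv.restrictNormalHom (F := ℚ) (K₁ := Qb) M σ' = σ := by
      ext x
      exact (AlgEquiv.restrictNormal_commutes σ' M x).trans (hσ' x)
    have hrτ : AlgEquiv.restrictNormalHom (F := ℚ) (K₁ := Qb) M τ = n.restrictScalars ℚ := by
      ext x
      exact (AlgEquiv.restrictNormal_commutes τ M x).trans (hτ x)
    have hrN : ∀ g ∈ N, AlgEquiv.restrictNormalHom (F := ℚ) (K₁ := Qb) M g = 1 := by
      intro g hg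
      ext x
      rw [← hfixM] at hg
      exact (AlgEquiv.restrictNormal_commutes g M x).trans
        ((IntermediateField.mem_fixingSubgroup_iff M g).mp hg x x.2)
    have h1 := hrN _ hg
    rw [map_mul, map_pow, map_mul, map_mul, map_inv, map_inv, hrσ, hrτ] at h1
    have h2 : (σ * n.restrictScalars ℚ * σ⁻¹) ^ (cycloExp p σ') = n.restrictScalars ℚ :=
      mul_inv_eq_one.mp h1
    have hc : σ' ζ = ζ ^ (cycloExp p σ') := by
      rw [cycloExp_eq]
      exact chi_spec p σ' hζ.pow_eq_one
    have ha : σ' ζ = ζ ^ a := by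
      have h3 := hσ' (algebraMap F M ζF)
      rw [hσa] at h3
      exact h3
    have hmod : a ≡ cycloExp p σ' [MOD p] := by
      have h3 : ζ ^ a = ζ ^ (cycloExp p σ') := ha.symm.trans hc
      have ho : orderOf ζ = p := hζ.eq_orderOf.symm
      rw [← pow_mod_orderOf ζ a, ← pow_mod_orderOf ζ (cycloExp p σ'), ho] at h3
      exact hζ.pow_inj (Nat.mod_lt _ hp.pos) (Nat.mod_lt _ hp.pos) h3
    have hnp : n ^ p = 1 := by
      rw [← hcard]
      exact pow_card_eq_one'
    have hn'p : (n.restrictScalars ℚ) ^ p = 1 := by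
      have h3 := congrArg (AlgEquiv.restrictScalarsHom ℚ) hnp
      rw [map_pow, map_one] at h3
      exact h3
    have hg0 : (σ * n.restrictScalars ℚ * σ⁻¹) ^ p = 1 := by
      rw [conj_pow, hn'p, mul_one, mul_inv_cancel]
    have hord : orderOf (σ * n.restrictScalars ℚ * σ⁻¹) ∣ p := orderOf_dvd_of_pow_eq_one hg0
    exact (pow_eq_pow_iff_modEq.mpr (hmod.of_dvd hord)).trans h2

/-- **Package R** of `helper1934_ThaineSpec`. -/
theorem stmt_Reduction (p : ℕ) [Fact p.Prime] : helper1934.Stmt_Reduction p :=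
  fun h3 H => extVanishingCts_of_noExt h3 (noExt_of_noTwisted H)

end Main

end Fermat.Agent.S14.helper4983
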