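import Mathlib

/-!
# Tent partition of unity (helper5066, S14 Weber bound, part A)

`tent t = max 0 (1 - |t|)`; `∑ k : ℤ, tent (t + k) = 1`; products of tents over a finite index
type give a Lipschitz partition of unity for `ι → ℤ` acting on `ι → ℝ` by translation.
-/

set_option autoImplicit false

namespace Fermat.Agent.S14.helper5066

/-- The tent function `max 0 (1 - |t|)`. -/
noncomputable def tent (t : ℝ) : ℝ := max 0 (1 - |t|)

theorem tent_nonneg (t : ℝ) : 0 ≤ tent t := le_max_left _ _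

theorem tent_le_one (t : ℝ) : tent t ≤ 1 := by
  unfold tent
  exact max_le zero_le_one (by linarith [abs_nonneg t])

theorem tent_eq_zero_of_one_le_abs {t : ℝ} (h : 1 ≤ |t|) : tent t = 0 := by
  unfold tent
  exact max_eq_left (by linarith)

theorem abs_lt_one_of_tent_ne_zero {t : ℝ} (h : tent t ≠ 0) : |t| < 1 := by
  by_contra h'
  exact h (tent_eq_zero_of_one_le_abs (not_lt.mp h'))

theorem tent_of_nonneg_of_le_one {t : ℝ} (h0 : 0 ≤ t) (h1 : t ≤ 1) : tent t = 1 - t := by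
  unfold tent
  rw [abs_of_nonneg h0, max_eq_right (by linarith)]

theorem tent_of_nonpos_of_neg_one_le {t : ℝ} (h0 : t ≤ 0) (h1 : -1 ≤ t) : tent t = 1 + t := by
  unfold tent
  rw [abs_of_nonpos h0, max_eq_right (by linarith)]
  ring

/-- `tent` is `1`-Lipschitz. -/
theorem abs_tent_sub_tent_le (t u : ℝ) : |tent t - tent u| ≤ |t - u| := by
  unfold tent
  have h1 : |max 0 (1 - |t|) - max 0 (1 - |u|)| ≤ |(1 - |t|) - (1 - |u|)| := by
    rw [max_comm 0 (1 - |t|), max_comm 0 (1 - |u|)]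
    exact abs_max_sub_max_le_abs _ _ _
  have h2 : (1 - |t|) - (1 - |u|) = |u| - |t| := by ring
  have h3 : |(|u| - |t|)| ≤ |u - t| := abs_abs_sub_abs_le u t
  rw [h2] at h1
  rw [abs_sub_comm u t] at h3
  linarith

/-- The tent partition of unity in dimension one. -/
theorem tent_floor_add (t : ℝ) :
    tent (t + ((-⌊t⌋ - 1 : ℤ) : ℝ)) + tent (t + ((-⌊t⌋ : ℤ) : ℝ)) = 1 := by
  have h0 := Int.floor_le t
  have h1 := Int.lt_floor_add_one t
  rw [tent_of_nonpos_of_neg_one_le, tent_of_nonneg_of_le_one] <;> push_cast <;> linarith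

theorem tent_add_int_eq_zero (t : ℝ) (k : ℤ) (h1 : k ≠ -⌊t⌋ - 1) (h2 : k ≠ -⌊t⌋) :
    tent (t + k) = 0 := by
  apply tent_eq_zero_of_one_le_abs
  have h0 := Int.floor_le t
  have h3 := Int.lt_floor_add_one t
  rcases lt_or_gt_of_ne h2 with h | h
  · have h4 : k ≤ -⌊t⌋ - 2 := by omega
    have h5 : (k : ℝ) ≤ -(⌊t⌋ : ℝ) - 2 := by exact_mod_cast h4
    rw [abs_of_nonpos (by linarith)]
    linarith
  · have h4 : -⌊t⌋ + 1 ≤ k := by omega
    have h5 : -(⌊t⌋ : ℝ) + 1 ≤ (k : ℝ) := by exact_mod_cast h4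
    rw [abs_of_nonneg (by linarith)]
    linarith

theorem sum_tent_pair (t : ℝ) :
    ∑ k ∈ ({-⌊t⌋ - 1, -⌊t⌋} : Finset ℤ), tent (t + (k : ℝ)) = 1 := by
  rw [Finset.sum_pair (by omega)]
  exact tent_floor_add t

end Fermat.Agent.S14.helper5066

namespace Fermat.Agent.S14.helper5066

open Finset

/-- `|∏ aᵢ - ∏ bᵢ| ≤ ∑ |aᵢ - bᵢ|` for numbers in `[0,1]`. -/
theorem abs_prod_sub_prod_le {ι : Type*} (s : Finset ι) (a b : ι → ℝ)
    (ha : ∀ i, 0 ≤ a i ∧ a i ≤ 1) (hb : ∀ i, 0 ≤ b i ∧ b i ≤ 1) :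
    |∏ i ∈ s, a i - ∏ i ∈ s, b i| ≤ ∑ i ∈ s, |a i - b i| := by
  classical
  induction s using Finset.induction_on with
  | empty => simp
  | insert j s hj ih =>
    rw [Finset.prod_insert hj, Finset.prod_insert hj, Finset.sum_insert hj]
    have hA0 : 0 ≤ ∏ i ∈ s, a i := Finset.prod_nonneg fun i _ ↦ (ha i).1
    have hA1 : ∏ i ∈ s, a i ≤ 1 := Finset.prod_le_one (fun i _ ↦ (ha i).1) fun i _ ↦ (ha i).2
    have e : a j * ∏ i ∈ s, a i - b j * ∏ i ∈ s, b i =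
        (a j - b j) * ∏ i ∈ s, a i + b j * (∏ i ∈ s, a i - ∏ i ∈ s, b i) := by ring
    rw [e]
    refine (abs_add_le _ _).trans ?_
    rw [abs_mul, abs_mul, abs_of_nonneg hA0, abs_of_nonneg (hb j).1]
    have h1 : |a j - b j| * ∏ i ∈ s, a i ≤ |a j - b j| :=
      mul_le_of_le_one_right (abs_nonneg _) hA1
    have h2 : b j * |∏ i ∈ s, a i - ∏ i ∈ s, b i| ≤ |∏ i ∈ s, a i - ∏ i ∈ s, b i| :=
      mul_le_of_le_one_left (abs_nonneg _) (hb j).2
    linarith

variable {ι : Type*} [Fintype ι]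

/-- Product of tents. -/
noncomputable def tentProd (t : ι → ℝ) : ℝ := ∏ i, tent (t i)

theorem tentProd_nonneg (t : ι → ℝ) : 0 ≤ tentProd t :=
  Finset.prod_nonneg fun _ _ ↦ tent_nonneg _

theorem tentProd_le_one (t : ι → ℝ) : tentProd t ≤ 1 :=
  Finset.prod_le_one (fun _ _ ↦ tent_nonneg _) fun _ _ ↦ tent_le_one _

theorem abs_lt_one_of_tentProd_ne_zero {t : ι → ℝ} (h : tentProd t ≠ 0) (i : ι) : |t i| < 1 := by
  apply abs_lt_one_of_tent_ne_zero
  intro h0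
  exact h (Finset.prod_eq_zero (Finset.mem_univ i) h0)

theorem abs_tentProd_sub_tentProd_le (t u : ι → ℝ) :
    |tentProd t - tentProd u| ≤ ∑ i, |t i - u i| := by
  refine (abs_prod_sub_prod_le Finset.univ _ _ (fun _ ↦ ⟨tent_nonneg _, tent_le_one _⟩)
    (fun _ ↦ ⟨tent_nonneg _, tent_le_one _⟩)).trans ?_
  exact Finset.sum_le_sum fun i _ ↦ abs_tent_sub_tent_le _ _

/-- The tent partition of unity: `∑_{k ∈ ℤ^ι} tentProd (t + k) = 1`. -/
theorem hasSum_tentProd_add (t : ι → ℝ) :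
    HasSum (fun k : ι → ℤ ↦ tentProd (fun i ↦ t i + (k i : ℝ))) 1 := by
  classical
  have key : ∑ k ∈ Fintype.piFinset (fun i ↦ ({-⌊t i⌋ - 1, -⌊t i⌋} : Finset ℤ)),
      tentProd (fun i ↦ t i + (k i : ℝ)) = 1 := by
    unfold tentProd
    rw [← Finset.prod_univ_sum (fun i ↦ ({-⌊t i⌋ - 1, -⌊t i⌋} : Finset ℤ))
      (fun i (k : ℤ) ↦ tent (t i + (k : ℝ)))]
    exact Finset.prod_eq_one fun i _ ↦ sum_tent_pair (t i)
  rw [← key]
  apply hasSum_sum_of_ne_finset_zero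
  intro k hk
  rw [Fintype.mem_piFinset, not_forall] at hk
  obtain ⟨i, hi⟩ := hk
  rw [Finset.mem_insert, Finset.mem_singleton, not_or] at hi
  unfold tentProd
  exact Finset.prod_eq_zero (Finset.mem_univ i) (tent_add_int_eq_zero (t i) (k i) hi.1 hi.2)

theorem tsum_tentProd_add (t : ι → ℝ) :
    ∑' k : ι → ℤ, tentProd (fun i ↦ t i + (k i : ℝ)) = 1 :=
  (hasSum_tentProd_add t).tsum_eq

end Fermat.Agent.S14.helper5066
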