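import Mathlib
import Fermat.Agent.S14.helper5066_Tent

/-!
# Tent cut-off on the mixed space (helper5066, S14 Weber bound, part B1)

`phi K x = tentProd (coordinates of logMap x in the unit-lattice basis)` (zero if `norm x = 0`).
Main result: `∑_{u ∈ (𝓞 K)ˣ} phi K (u • x) = torsionOrder K` whenever `norm x ≠ 0`.
-/

set_option autoImplicit false

namespace Fermat.Agent.S14.helper5066

open NumberField NumberField.InfinitePlace NumberField.mixedEmbedding NumberField.Units
  NumberField.Units.dirichletUnitTheorem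

variable (K : Type*) [Field K] [NumberField K]

open scoped Classical in
/-- The real basis of `logSpace K` coming from the basis of the unit lattice. -/
noncomputable def logBasis :=
  (basisUnitLattice K).ofZLatticeBasis ℝ _

/-- Tent cut-off on `logSpace K`. -/
noncomputable def tentLog (h : logSpace K) : ℝ :=
  tentProd (fun i ↦ (logBasis K).repr h i)

/-- Tent cut-off on the mixed space. -/
noncomputable def phi (x : mixedSpace K) : ℝ :=
  if mixedEmbedding.norm x = 0 then 0 else tentLog K (logMap x)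

variable {K}

theorem tentLog_nonneg (h : logSpace K) : 0 ≤ tentLog K h := tentProd_nonneg _

theorem tentLog_le_one (h : logSpace K) : tentLog K h ≤ 1 := tentProd_le_one _

theorem phi_nonneg (x : mixedSpace K) : 0 ≤ phi K x := by
  unfold phi
  split_ifs
  · exact le_rfl
  · exact tentLog_nonneg _

theorem phi_le_one (x : mixedSpace K) : phi K x ≤ 1 := by
  unfold phi
  split_ifs
  · exact zero_le_one
  · exact tentLog_le_one _

theorem phi_of_norm_ne_zero {x : mixedSpace K} (hx : mixedEmbedding.norm x ≠ 0) :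
    phi K x = tentLog K (logMap x) := by
  unfold phi
  rw [if_neg hx]

theorem phi_of_norm_eq_zero {x : mixedSpace K} (hx : mixedEmbedding.norm x = 0) :
    phi K x = 0 := by
  unfold phi
  rw [if_pos hx]

/-- The parametrisation of units by torsion and exponents on the fundamental system. -/
noncomputable def unitsEquiv : torsion K × (Fin (rank K) → ℤ) ≃ (𝓞 K)ˣ :=
  Equiv.ofBijective (fun ζe ↦ (ζe.1 : (𝓞 K)ˣ) * ∏ i, (fundSystem K i) ^ (ζe.2 i)) (by
    rw [Function.bijective_iff_existsUnique]
    intro x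
    obtain ⟨ζe, h1, h2⟩ := exist_unique_eq_mul_prod K x
    exact ⟨ζe, h1.symm, fun y hy ↦ h2 y hy.symm⟩)

theorem unitsEquiv_apply (ζe : torsion K × (Fin (rank K) → ℤ)) :
    unitsEquiv ζe = (ζe.1 : (𝓞 K)ˣ) * ∏ i, (fundSystem K i) ^ (ζe.2 i) := rfl

theorem logEmbedding_unitsEquiv (ζe : torsion K × (Fin (rank K) → ℤ)) :
    logEmbedding K (Additive.ofMul (unitsEquiv ζe)) =
      ∑ i, (ζe.2 i : ℝ) • (logBasis K i) := by
  rw [unitsEquiv_apply, ofMul_mul, map_add, ofMul_prod, map_sum,
    (logEmbedding_eq_zero_iff).mpr ζe.1.2, zero_add]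
  refine Finset.sum_congr rfl fun i _ ↦ ?_
  rw [ofMul_zpow, map_zsmul, logEmbedding_fundSystem, logBasis,
    Module.Basis.ofZLatticeBasis_apply]
  exact (Int.cast_smul_eq_zsmul ℝ _ _).symm

theorem repr_logEmbedding_unitsEquiv_add (ζe : torsion K × (Fin (rank K) → ℤ)) (h : logSpace K)
    (i : Fin (rank K)) :
    (logBasis K).repr (logEmbedding K (Additive.ofMul (unitsEquiv ζe)) + h) i =
      (logBasis K).repr h i + (ζe.2 i : ℝ) := by
  rw [logEmbedding_unitsEquiv, map_add, Finsupp.add_apply, map_sum, Finset.sum_apply']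
  simp only [map_smul, Module.Basis.repr_self, Finsupp.smul_apply, smul_eq_mul]
  rw [Finset.sum_eq_single i]
  · simp [add_comm]
  · intro j _ hj
    simp [hj]
  · intro hi
    exact absurd (Finset.mem_univ i) hi

theorem phi_unit_smul (u : (𝓞 K)ˣ) {x : mixedSpace K} (hx : mixedEmbedding.norm x ≠ 0) :
    phi K (u • x) = tentLog K (logEmbedding K (Additive.ofMul u) + logMap x) := by
  rw [phi_of_norm_ne_zero (by rwa [norm_unit_smul]), logMap_unit_smul u hx]

/-- **Unfolding over the units**: `∑_u phi (u • x) = w`. -/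
theorem hasSum_phi_unit_smul {x : mixedSpace K} (hx : mixedEmbedding.norm x ≠ 0) :
    HasSum (fun u : (𝓞 K)ˣ ↦ phi K (u • x)) (torsionOrder K) := by
  rw [← (unitsEquiv (K := K)).hasSum_iff]
  have h1 : ((fun u : (𝓞 K)ˣ ↦ phi K (u • x)) ∘ (unitsEquiv (K := K))) =
      fun ζe : torsion K × (Fin (rank K) → ℤ) ↦
        tentProd (fun i ↦ (logBasis K).repr (logMap x) i + (ζe.2 i : ℝ)) := by
    funext ζe
    simp only [Function.comp_apply]
    rw [phi_unit_smul _ hx, tentLog]
    congr 1
    funext i
    exact repr_logEmbedding_unitsEquiv_add ζe (logMap x) i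
  rw [h1]
  have h2 : ∀ ζ : torsion K, HasSum (fun k : Fin (rank K) → ℤ ↦
      tentProd (fun i ↦ (logBasis K).repr (logMap x) i + (k i : ℝ))) 1 :=
    fun _ ↦ hasSum_tentProd_add _
  have h3 : HasSum (fun _ : torsion K ↦ (1 : ℝ)) (torsionOrder K) := by
    have : Fintype (torsion K) := Fintype.ofFinite _
    have := hasSum_fintype (fun _ : torsion K ↦ (1 : ℝ))
    simpa [torsionOrder, Nat.card_eq_fintype_card] using this
  have hsum : Summable (fun ζe : torsion K × (Fin (rank K) → ℤ) ↦
        tentProd (fun i ↦ (logBasis K).repr (logMap x) i + (ζe.2 i : ℝ))) := by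
    rw [summable_prod_of_nonneg (fun _ ↦ tentProd_nonneg _)]
    exact ⟨fun ζ ↦ (h2 ζ).summable, h3.summable.congr fun ζ ↦ (h2 ζ).tsum_eq.symm⟩
  have htsum := hsum.tsum_prod
  rw [tsum_congr (fun ζ ↦ (h2 ζ).tsum_eq), h3.tsum_eq] at htsum
  rw [← htsum]
  exact hsum.hasSum

end Fermat.Agent.S14.helper5066
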