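import Mathlib
import Fermat.Agent.S14.helper5066_UnitSum

/-!
# The support cone of the tent cut-off and its Lipschitz property
(helper5066, S14 Weber bound, part B2)
-/

set_option autoImplicit false

namespace Fermat.Agent.S14.helper5066

open NumberField NumberField.InfinitePlace NumberField.mixedEmbedding NumberField.Units
  NumberField.Units.dirichletUnitTheorem

/-! ### Two real-variable inequalities -/

theorem log_sub_log_le_div {a b δ m : ℝ} (hm : 0 < m) (ha : m ≤ a) (hb : m ≤ b)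
    (hab : b - a ≤ δ) (hδ : 0 ≤ δ) : Real.log b - Real.log a ≤ δ / m := by
  have ha0 : 0 < a := hm.trans_le ha
  have hb0 : 0 < b := hm.trans_le hb
  have h1 : Real.log b - Real.log a ≤ b / a - 1 := by
    rw [← Real.log_div hb0.ne' ha0.ne']
    exact Real.log_le_sub_one_of_pos (div_pos hb0 ha0)
  have h2 : b / a - 1 = (b - a) / a := by field_simp
  have h3 : (b - a) / a ≤ δ / m := by
    calc (b - a) / a ≤ δ / a := by gcongr
      _ ≤ δ / m := by gcongr
  linarith

theorem abs_log_sub_log_le {a b δ m : ℝ} (hm : 0 < m) (ha : m ≤ a) (hb : m ≤ b)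
    (hab : |b - a| ≤ δ) : |Real.log b - Real.log a| ≤ δ / m := by
  have hδ : 0 ≤ δ := (abs_nonneg _).trans hab
  rw [abs_le] at hab ⊢
  constructor
  · have := log_sub_log_le_div hm hb ha (by linarith [hab.1] : a - b ≤ δ) hδ
    linarith
  · exact log_sub_log_le_div hm ha hb hab.2 hδ

theorem exp_sub_exp_le (a b : ℝ) :
    Real.exp b - Real.exp a ≤ (b - a) * Real.exp b := by
  have h1 : Real.exp a = Real.exp b * Real.exp (a - b) := by
    rw [← Real.exp_add]; congr 1; ring
  have h2 : (a - b) + 1 ≤ Real.exp (a - b) := Real.add_one_le_exp _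
  have h3 : 0 < Real.exp b := Real.exp_pos b
  rw [h1]
  nlinarith

theorem abs_exp_sub_exp_le (a b : ℝ) :
    |Real.exp a - Real.exp b| ≤ |a - b| * max (Real.exp a) (Real.exp b) := by
  rcases le_total a b with h | h
  · rw [abs_sub_comm, abs_of_nonneg (sub_nonneg.mpr (Real.exp_le_exp.mpr h)), abs_sub_comm,
      abs_of_nonneg (sub_nonneg.mpr h), max_eq_right (Real.exp_le_exp.mpr h)]
    exact exp_sub_exp_le a b
  · rw [abs_of_nonneg (sub_nonneg.mpr (Real.exp_le_exp.mpr h)),
      abs_of_nonneg (sub_nonneg.mpr h), max_eq_left (Real.exp_le_exp.mpr h)]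
    exact exp_sub_exp_le b a

/-! ### The tent cut-off on `logSpace K` -/

variable {K : Type*} [Field K] [NumberField K]

open scoped Classical in
/-- `tentLog` is Lipschitz. -/
theorem exists_lipschitz_tentLog :
    ∃ Cb : ℝ, 0 ≤ Cb ∧ ∀ h h' : logSpace K, |tentLog K h - tentLog K h'| ≤ Cb * ‖h - h'‖ := by
  let L := (logBasis K).equivFunL
  refine ⟨(rank K : ℝ) * ‖(L : logSpace K →L[ℝ] (Fin (rank K) → ℝ))‖, by positivity, ?_⟩
  intro h h'
  unfold tentLog
  refine (abs_tentProd_sub_tentProd_le _ _).trans ?_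
  have h1 : ∀ i : Fin (rank K), |(logBasis K).repr h i - (logBasis K).repr h' i| ≤
      ‖(L : logSpace K →L[ℝ] (Fin (rank K) → ℝ))‖ * ‖h - h'‖ := by
    intro i
    have e : (logBasis K).repr h i - (logBasis K).repr h' i = L (h - h') i := by
      simp [L, Module.Basis.equivFunL]
    rw [e]
    calc |L (h - h') i| = ‖L (h - h') i‖ := (Real.norm_eq_abs _).symm
      _ ≤ ‖L (h - h')‖ := norm_le_pi_norm _ i
      _ ≤ ‖(L : logSpace K →L[ℝ] (Fin (rank K) → ℝ))‖ * ‖h - h'‖ :=
          (L : logSpace K →L[ℝ] (Fin (rank K) → ℝ)).le_opNorm _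
  calc ∑ i, |(logBasis K).repr h i - (logBasis K).repr h' i|
      ≤ ∑ _i : Fin (rank K), ‖(L : logSpace K →L[ℝ] (Fin (rank K) → ℝ))‖ * ‖h - h'‖ :=
        Finset.sum_le_sum fun i _ ↦ h1 i
    _ = (rank K : ℝ) * ‖(L : logSpace K →L[ℝ] (Fin (rank K) → ℝ))‖ * ‖h - h'‖ := by
        rw [Finset.sum_const, Finset.card_univ, Fintype.card_fin, nsmul_eq_mul]; ring

open scoped Classical in
/-- `tentLog` has bounded support. -/
theorem norm_le_of_tentLog_ne_zero {h : logSpace K} (hh : tentLog K h ≠ 0) :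
    ‖h‖ ≤ ∑ i, ‖logBasis K i‖ := by
  have h1 : ∀ i, |(logBasis K).repr h i| < 1 := fun i ↦ abs_lt_one_of_tentProd_ne_zero hh i
  calc ‖h‖ = ‖∑ i, (logBasis K).repr h i • logBasis K i‖ := by rw [(logBasis K).sum_repr]
    _ ≤ ∑ i, ‖(logBasis K).repr h i • logBasis K i‖ := norm_sum_le _ _
    _ ≤ ∑ i, ‖logBasis K i‖ := by
        refine Finset.sum_le_sum fun i _ ↦ ?_
        rw [_root_.norm_smul, Real.norm_eq_abs]
        exact mul_le_of_le_one_left (norm_nonneg _) (h1 i).le

/-! ### The support cone -/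

theorem log_norm_eq_sum {x : mixedSpace K} (hx : mixedEmbedding.norm x ≠ 0) :
    Real.log (mixedEmbedding.norm x) =
      ∑ w : InfinitePlace K, (mult w : ℝ) * Real.log (normAtPlace w x) := by
  have hne : ∀ w, normAtPlace w x ≠ 0 := mixedEmbedding.norm_ne_zero_iff.mp hx
  rw [mixedEmbedding.norm_apply, Real.log_prod (fun w _ ↦ pow_ne_zero _ (hne w))]
  exact Finset.sum_congr rfl fun w _ ↦ Real.log_pow _ _

theorem sum_mult_cast_eq : (∑ w : InfinitePlace K, (mult w : ℝ)) = Module.finrank ℚ K := by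
  rw [← Nat.cast_sum, sum_mult_eq]

theorem finrank_cast_pos : (0 : ℝ) < Module.finrank ℚ K :=
  Nat.cast_pos.mpr Module.finrank_pos

theorem sum_mult_mul_log_sub {x : mixedSpace K} (hx : mixedEmbedding.norm x ≠ 0) :
    ∑ w : InfinitePlace K, (mult w : ℝ) * (Real.log (normAtPlace w x) -
      Real.log (mixedEmbedding.norm x) * (Module.finrank ℚ K : ℝ)⁻¹) = 0 := by
  simp_rw [mul_sub]
  rw [Finset.sum_sub_distrib, ← log_norm_eq_sum hx, ← Finset.sum_mul, sum_mult_cast_eq]
  have := (finrank_cast_pos (K := K)).ne'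
  field_simp
  ring

open scoped Classical in
theorem abs_log_normAtPlace_sub_le {x : mixedSpace K} (hx : mixedEmbedding.norm x ≠ 0) {c : ℝ}
    (hc : ‖logMap x‖ ≤ c) (w : InfinitePlace K) :
    |Real.log (normAtPlace w x) - Real.log (mixedEmbedding.norm x) *
      (Module.finrank ℚ K : ℝ)⁻¹| ≤ (Fintype.card (InfinitePlace K) : ℝ) * c := by
  have hc0 : 0 ≤ c := (norm_nonneg _).trans hc
  have hcard : (1 : ℝ) ≤ Fintype.card (InfinitePlace K) := by
    exact_mod_cast Fintype.card_pos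
  set g : InfinitePlace K → ℝ := fun w ↦ Real.log (normAtPlace w x) -
    Real.log (mixedEmbedding.norm x) * (Module.finrank ℚ K : ℝ)⁻¹ with hg
  have hmult : ∀ w : InfinitePlace K, |g w| ≤ |(mult w : ℝ) * g w| := by
    intro w
    rw [abs_mul]
    have h1 : (1 : ℝ) ≤ |(mult w : ℝ)| := by
      rw [abs_of_nonneg (Nat.cast_nonneg _)]; exact one_le_mult
    exact le_mul_of_one_le_left (abs_nonneg _) h1
  have hne : ∀ w : {w : InfinitePlace K // w ≠ w₀}, |(mult w.1 : ℝ) * g w.1| ≤ c := by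
    intro w
    have h1 : logMap x w = (mult w.1 : ℝ) * g w.1 := rfl
    rw [← h1, ← Real.norm_eq_abs]
    exact (norm_le_pi_norm (logMap x) w).trans hc
  by_cases hw : w = w₀
  · have hsum := sum_mult_mul_log_sub hx
    rw [Fintype.sum_eq_add_sum_subtype_ne _ w₀] at hsum
    have h2 : (mult (w₀ : InfinitePlace K) : ℝ) * g w₀ =
        -∑ w : {w : InfinitePlace K // w ≠ w₀}, (mult w.1 : ℝ) * g w.1 := by
      linarith
    have h3 : |(mult (w₀ : InfinitePlace K) : ℝ) * g w₀| ≤
        (Fintype.card (InfinitePlace K) : ℝ) * c := by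
      rw [h2, abs_neg]
      refine (Finset.abs_sum_le_sum_abs _ _).trans ?_
      refine (Finset.sum_le_sum fun w _ ↦ hne w).trans ?_
      rw [Finset.sum_const, Finset.card_univ, nsmul_eq_mul]
      have : (Fintype.card {w : InfinitePlace K // w ≠ w₀} : ℝ) ≤
          Fintype.card (InfinitePlace K) := by
        exact_mod_cast Fintype.card_subtype_le _
      gcongr
    rw [hw]
    exact (hmult w₀).trans h3
  · calc |g w| ≤ |(mult w : ℝ) * g w| := hmult w
      _ ≤ c := hne ⟨w, hw⟩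
      _ ≤ (Fintype.card (InfinitePlace K) : ℝ) * c := le_mul_of_one_le_left hc0 hcard

open scoped Classical in
theorem normAtPlace_le_norm (w : InfinitePlace K) (x : mixedSpace K) : normAtPlace w x ≤ ‖x‖ := by
  rw [norm_eq_sup'_normAtPlace]
  exact Finset.le_sup' (fun w ↦ normAtPlace w x) (Finset.mem_univ w)

open scoped Classical in
theorem exists_normAtPlace_eq_norm (x : mixedSpace K) : ∃ w, ‖x‖ = normAtPlace w x := by
  rw [norm_eq_sup'_normAtPlace]
  obtain ⟨w, -, hw⟩ := Finset.exists_mem_eq_sup' Finset.univ_nonempty (fun w ↦ normAtPlace w x)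
  exact ⟨w, hw⟩

open scoped Classical in
/-- On the support of `phi` all the coordinates of `x` are comparable to `‖x‖`. -/
theorem exists_cone : ∃ κ : ℝ, 0 < κ ∧ κ ≤ 1 ∧
    ∀ x : mixedSpace K, phi K x ≠ 0 → ∀ w, κ * ‖x‖ ≤ normAtPlace w x := by
  set c₁ : ℝ := ∑ i, ‖logBasis K i‖ with hc₁
  have hc₁0 : 0 ≤ c₁ := Finset.sum_nonneg fun i _ ↦ norm_nonneg _
  set c₂ : ℝ := (Fintype.card (InfinitePlace K) : ℝ) * c₁ with hc₂
  have hc₂0 : 0 ≤ c₂ := by positivity
  refine ⟨Real.exp (-(2 * c₂)), Real.exp_pos _, ?_, ?_⟩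
  · rw [← Real.exp_zero]; exact Real.exp_le_exp.mpr (by linarith)
  intro x hx w
  have hN : mixedEmbedding.norm x ≠ 0 := fun h ↦ hx (phi_of_norm_eq_zero h)
  rw [phi_of_norm_ne_zero hN] at hx
  have hlm : ‖logMap x‖ ≤ c₁ := norm_le_of_tentLog_ne_zero hx
  obtain ⟨w', hw'⟩ := exists_normAtPlace_eq_norm x
  have hne : ∀ w, normAtPlace w x ≠ 0 := mixedEmbedding.norm_ne_zero_iff.mp hN
  have hpos : ∀ w, 0 < normAtPlace w x := fun w ↦
    lt_of_le_of_ne (normAtPlace_nonneg w x) (hne w).symm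
  have h1 := abs_le.mp (abs_log_normAtPlace_sub_le hN hlm w)
  have h2 := abs_le.mp (abs_log_normAtPlace_sub_le hN hlm w')
  have h3 : Real.log (normAtPlace w' x) - 2 * c₂ ≤ Real.log (normAtPlace w x) := by
    linarith [h1.1, h2.2]
  rw [hw']
  calc Real.exp (-(2 * c₂)) * normAtPlace w' x
      = Real.exp (Real.log (normAtPlace w' x) - 2 * c₂) := by
        rw [sub_eq_add_neg, Real.exp_add, Real.exp_log (hpos w'), mul_comm]
    _ ≤ Real.exp (Real.log (normAtPlace w x)) := Real.exp_le_exp.mpr h3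
    _ = normAtPlace w x := Real.exp_log (hpos w)

end Fermat.Agent.S14.helper5066
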