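import Mathlib
import Fermat.Agent.S14.helper5066_Cone

/-!
# Lipschitz estimate for `F_s(x) = phi(x) * N(x)^(-s)` (helper5066, S14 Weber bound, part B3)
-/

set_option autoImplicit false

namespace Fermat.Agent.S14.helper5066

open NumberField NumberField.InfinitePlace NumberField.mixedEmbedding NumberField.Units
  NumberField.Units.dirichletUnitTheorem

variable (K : Type*) [Field K] [NumberField K]

/-- `F_s(x) = phi(x) * N(x)^(-s)`. -/
noncomputable def Fs (s : ℝ) (x : mixedSpace K) : ℝ :=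
  phi K x * (mixedEmbedding.norm x) ^ (-s)

variable {K}

theorem Fs_nonneg (s : ℝ) (x : mixedSpace K) : 0 ≤ Fs K s x :=
  mul_nonneg (phi_nonneg x) (Real.rpow_nonneg (mixedEmbedding.norm_nonneg x) _)

theorem Fs_of_phi_eq_zero {s : ℝ} {x : mixedSpace K} (h : phi K x = 0) : Fs K s x = 0 := by
  unfold Fs; rw [h, zero_mul]

open scoped Classical in
theorem pow_le_norm_of_le {x : mixedSpace K} {m : ℝ} (hm : 0 ≤ m)
    (h : ∀ w, m ≤ normAtPlace w x) : m ^ Module.finrank ℚ K ≤ mixedEmbedding.norm x := by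
  rw [mixedEmbedding.norm_apply, ← sum_mult_eq, ← Finset.prod_pow_eq_pow_sum]
  exact Finset.prod_le_prod (fun w _ ↦ pow_nonneg hm _) fun w _ ↦ pow_le_pow_left₀ hm (h w) _

/-- If `N(x) ≥ D ≥ 1` and `s ≥ 1` then `N(x)^(-s) ≤ D⁻¹`. -/
theorem rpow_neg_le_inv {y D s : ℝ} (hD : 1 ≤ D) (hy : D ≤ y) (hs : 1 ≤ s) :
    y ^ (-s) ≤ D⁻¹ := by
  have hD0 : 0 < D := lt_of_lt_of_le zero_lt_one hD
  calc y ^ (-s) ≤ D ^ (-s) := Real.rpow_le_rpow_of_nonpos hD0 hy (by linarith)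
    _ ≤ D ^ (-1 : ℝ) := Real.rpow_le_rpow_of_exponent_le hD (by linarith)
    _ = D⁻¹ := Real.rpow_neg_one D

open scoped Classical in
/-- Lipschitz estimate at a point of the support cone. -/
theorem exists_lipschitz_Fs_of_phi_ne_zero :
    ∃ A ρ : ℝ, 0 < A ∧ 0 < ρ ∧ ρ ≤ 1 ∧ ∀ (s : ℝ) (x c : mixedSpace K), 1 ≤ s → s ≤ 2 →
      phi K x ≠ 0 → ‖c‖ ≤ ρ * ‖x‖ → 1 ≤ ρ * ‖x‖ →
      |Fs K s (x + c) - Fs K s x| ≤ A * ‖c‖ * (‖x‖ ^ (Module.finrank ℚ K + 1))⁻¹ := by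
  obtain ⟨κ, hκ0, hκ1, hcone⟩ := exists_cone (K := K)
  obtain ⟨Cb, hCb0, hCb⟩ := exists_lipschitz_tentLog (K := K)
  set n := Module.finrank ℚ K with hn
  have hn0 : (0 : ℝ) < n := finrank_cast_pos
  set ρ : ℝ := κ / 2 with hρ
  have hρ0 : 0 < ρ := by positivity
  refine ⟨(4 * Cb + 2 * n) * (ρ ^ (n + 1))⁻¹, ρ, by positivity, hρ0, by linarith, ?_⟩
  intro s x c hs1 hs2 hphi hc hx1
  set M := ‖x‖ with hM
  have hM0 : 0 < M := by
    by_contra h
    have : ρ * M ≤ 0 := mul_nonpos_of_nonneg_of_nonpos hρ0.le (not_lt.mp h)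
    linarith
  have hρM : 0 < ρ * M := by positivity
  -- coordinates of `x` and `x + c`
  have ha : ∀ w, 2 * (ρ * M) ≤ normAtPlace w x := by
    intro w
    have := hcone x hphi w
    rw [hρ]; linarith
  have hcw : ∀ w, normAtPlace w c ≤ ρ * M := fun w ↦ (normAtPlace_le_norm w c).trans hc
  have hab : ∀ w, |normAtPlace w (x + c) - normAtPlace w x| ≤ ‖c‖ := by
    intro w
    rw [abs_le]
    have h1 := normAtPlace_add_le w x c
    have h2 := normAtPlace_add_le w (x + c) (-c)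
    rw [normAtPlace_neg, add_neg_cancel_right] at h2
    have h3 := normAtPlace_le_norm w c
    constructor <;> linarith
  have hb : ∀ w, ρ * M ≤ normAtPlace w (x + c) := by
    intro w
    have h1 := (abs_le.mp (hab w)).1
    linarith [ha w, hc]
  have hNx : mixedEmbedding.norm x ≠ 0 :=
    mixedEmbedding.norm_ne_zero_iff.mpr fun w ↦ (lt_of_lt_of_le (by positivity) (ha w)).ne'
  have hNxc : mixedEmbedding.norm (x + c) ≠ 0 :=
    mixedEmbedding.norm_ne_zero_iff.mpr fun w ↦ (lt_of_lt_of_le hρM (hb w)).ne'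
  set ε : ℝ := ‖c‖ / (ρ * M) with hε
  have hε0 : 0 ≤ ε := by positivity
  have hlog : ∀ w, |Real.log (normAtPlace w (x + c)) - Real.log (normAtPlace w x)| ≤ ε :=
    fun w ↦ abs_log_sub_log_le hρM (by linarith [ha w]) (hb w) (hab w)
  -- the logarithm of the norm
  have hΛ : |Real.log (mixedEmbedding.norm (x + c)) - Real.log (mixedEmbedding.norm x)| ≤
      n * ε := by
    rw [log_norm_eq_sum hNx, log_norm_eq_sum hNxc, ← Finset.sum_sub_distrib]
    refine (Finset.abs_sum_le_sum_abs _ _).trans ?_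
    have h1 : ∀ w : InfinitePlace K, |(mult w : ℝ) * Real.log (normAtPlace w (x + c)) -
        (mult w : ℝ) * Real.log (normAtPlace w x)| ≤ (mult w : ℝ) * ε := by
      intro w
      rw [← mul_sub, abs_mul, abs_of_nonneg (Nat.cast_nonneg _)]
      exact mul_le_mul_of_nonneg_left (hlog w) (Nat.cast_nonneg _)
    refine (Finset.sum_le_sum fun w _ ↦ h1 w).trans ?_
    rw [← Finset.sum_mul, sum_mult_cast_eq]
  -- the log map
  have hlm : ‖logMap (x + c) - logMap x‖ ≤ 4 * ε := by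
    rw [pi_norm_le_iff_of_nonneg (by positivity)]
    intro w
    rw [Pi.sub_apply, logMap_apply, logMap_apply, ← mul_sub, Real.norm_eq_abs, abs_mul,
      abs_of_nonneg (Nat.cast_nonneg _)]
    have h1 : (mult w.1 : ℝ) ≤ 2 := by
      have : mult w.1 ≤ 2 := by unfold mult; split_ifs <;> norm_num
      exact_mod_cast this
    have h2 : |Real.log (normAtPlace w.1 (x + c)) -
        Real.log (mixedEmbedding.norm (x + c)) * (n : ℝ)⁻¹ -
        (Real.log (normAtPlace w.1 x) - Real.log (mixedEmbedding.norm x) * (n : ℝ)⁻¹)| ≤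
        2 * ε := by
      have e : Real.log (normAtPlace w.1 (x + c)) -
          Real.log (mixedEmbedding.norm (x + c)) * (n : ℝ)⁻¹ -
          (Real.log (normAtPlace w.1 x) - Real.log (mixedEmbedding.norm x) * (n : ℝ)⁻¹) =
          (Real.log (normAtPlace w.1 (x + c)) - Real.log (normAtPlace w.1 x)) -
          (Real.log (mixedEmbedding.norm (x + c)) - Real.log (mixedEmbedding.norm x)) *
            (n : ℝ)⁻¹ := by ring
      rw [e]
      refine (abs_sub _ _).trans ?_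
      rw [abs_mul, abs_of_nonneg (inv_nonneg.mpr hn0.le)]
      have h3 : |Real.log (mixedEmbedding.norm (x + c)) - Real.log (mixedEmbedding.norm x)| *
          (n : ℝ)⁻¹ ≤ ε := by
        calc _ ≤ (n * ε) * (n : ℝ)⁻¹ := mul_le_mul_of_nonneg_right hΛ (inv_nonneg.mpr hn0.le)
          _ = ε := by field_simp
      linarith [hlog w.1]
    calc (mult w.1 : ℝ) * _ ≤ 2 * (2 * ε) :=
          mul_le_mul h1 h2 (abs_nonneg _) (by norm_num)
      _ = 4 * ε := by ring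
  have hphid : |phi K (x + c) - phi K x| ≤ Cb * (4 * ε) := by
    rw [phi_of_norm_ne_zero hNx, phi_of_norm_ne_zero hNxc]
    exact (hCb _ _).trans (mul_le_mul_of_nonneg_left hlm hCb0)
  -- the norms
  set D : ℝ := (ρ * M) ^ n with hD
  have hD1 : 1 ≤ D := one_le_pow₀ hx1
  have hDx : D ≤ mixedEmbedding.norm x :=
    pow_le_norm_of_le hρM.le fun w ↦ by linarith [ha w]
  have hDxc : D ≤ mixedEmbedding.norm (x + c) := pow_le_norm_of_le hρM.le hb
  have hD0 : 0 < D := lt_of_lt_of_le zero_lt_one hD1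
  have hpx : mixedEmbedding.norm x ^ (-s) ≤ D⁻¹ := rpow_neg_le_inv hD1 hDx hs1
  have hpxc : mixedEmbedding.norm (x + c) ^ (-s) ≤ D⁻¹ := rpow_neg_le_inv hD1 hDxc hs1
  have hNx0 : 0 < mixedEmbedding.norm x := lt_of_lt_of_le hD0 hDx
  have hNxc0 : 0 < mixedEmbedding.norm (x + c) := lt_of_lt_of_le hD0 hDxc
  have hpd : |mixedEmbedding.norm (x + c) ^ (-s) - mixedEmbedding.norm x ^ (-s)| ≤
      2 * (n * ε) * D⁻¹ := by
    rw [Real.rpow_def_of_pos hNx0, Real.rpow_def_of_pos hNxc0]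
    refine (abs_exp_sub_exp_le _ _).trans ?_
    have h1 : |Real.log (mixedEmbedding.norm (x + c)) * -s -
        Real.log (mixedEmbedding.norm x) * -s| ≤ 2 * (n * ε) := by
      rw [← sub_mul, abs_mul, abs_neg, abs_of_nonneg (by linarith : (0 : ℝ) ≤ s), mul_comm]
      exact mul_le_mul hs2 hΛ (abs_nonneg _) (by norm_num)
    have h2 : max (Real.exp (Real.log (mixedEmbedding.norm (x + c)) * -s))
        (Real.exp (Real.log (mixedEmbedding.norm x) * -s)) ≤ D⁻¹ := by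
      rw [← Real.rpow_def_of_pos hNx0, ← Real.rpow_def_of_pos hNxc0]
      exact max_le hpxc hpx
    exact mul_le_mul h1 h2 (le_max_of_le_left (Real.exp_pos _).le) (by positivity)
  -- conclusion
  have e : Fs K s (x + c) - Fs K s x =
      (phi K (x + c) - phi K x) * mixedEmbedding.norm (x + c) ^ (-s) +
      phi K x * (mixedEmbedding.norm (x + c) ^ (-s) - mixedEmbedding.norm x ^ (-s)) := by
    unfold Fs; ring
  rw [e]
  refine (abs_add_le _ _).trans ?_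
  rw [abs_mul, abs_mul, abs_of_nonneg (phi_nonneg x),
    abs_of_nonneg (Real.rpow_nonneg hNxc0.le _)]
  have h1 : |phi K (x + c) - phi K x| * mixedEmbedding.norm (x + c) ^ (-s) ≤
      Cb * (4 * ε) * D⁻¹ :=
    mul_le_mul hphid hpxc (Real.rpow_nonneg hNxc0.le _) (by positivity)
  have h2 : phi K x * |mixedEmbedding.norm (x + c) ^ (-s) - mixedEmbedding.norm x ^ (-s)| ≤
      1 * (2 * (n * ε) * D⁻¹) :=
    mul_le_mul (phi_le_one x) hpd (abs_nonneg _) zero_le_one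
  have h3 : Cb * (4 * ε) * D⁻¹ + 1 * (2 * (n * ε) * D⁻¹) =
      (4 * Cb + 2 * n) * (ρ ^ (n + 1))⁻¹ * ‖c‖ * (M ^ (n + 1))⁻¹ := by
    rw [hε, hD, mul_pow, pow_succ, pow_succ]
    field_simp
  linarith

open scoped Classical in
/-- Lipschitz estimate for `F_s`, uniform in `s ∈ [1,2]`. -/
theorem exists_lipschitz_Fs :
    ∃ A ρ : ℝ, 0 < A ∧ 0 < ρ ∧ ∀ (s : ℝ) (x c : mixedSpace K), 1 ≤ s → s ≤ 2 →
      ‖c‖ ≤ ρ * ‖x‖ → 1 ≤ ρ * ‖x‖ →
      |Fs K s (x + c) - Fs K s x| ≤ A * ‖c‖ * (‖x‖ ^ (Module.finrank ℚ K + 1))⁻¹ := by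
  obtain ⟨A, ρ, hA, hρ, hρ1, H⟩ := exists_lipschitz_Fs_of_phi_ne_zero (K := K)
  set n := Module.finrank ℚ K with hn
  refine ⟨A * 2 ^ (n + 1), ρ / 2, by positivity, by positivity, ?_⟩
  intro s x c hs1 hs2 hc hx1
  have hx0 : 0 < ‖x‖ := by
    by_contra h
    have : ρ / 2 * ‖x‖ ≤ 0 := mul_nonpos_of_nonneg_of_nonpos (by positivity) (not_lt.mp h)
    linarith
  have hc0 : 0 ≤ ‖c‖ := norm_nonneg c
  have hpow : 0 < ‖x‖ ^ (n + 1) := by positivity
  by_cases h1 : phi K x ≠ 0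
  · have hb := H s x c hs1 hs2 h1 (by nlinarith) (by nlinarith)
    refine hb.trans ?_
    have h2 : (1 : ℝ) ≤ 2 ^ (n + 1) := one_le_pow₀ (by norm_num)
    have h3 : 0 ≤ A * ‖c‖ * (‖x‖ ^ (n + 1))⁻¹ := by positivity
    calc A * ‖c‖ * (‖x‖ ^ (n + 1))⁻¹ = 1 * (A * ‖c‖ * (‖x‖ ^ (n + 1))⁻¹) := (one_mul _).symm
      _ ≤ 2 ^ (n + 1) * (A * ‖c‖ * (‖x‖ ^ (n + 1))⁻¹) := mul_le_mul_of_nonneg_right h2 h3
      _ = A * 2 ^ (n + 1) * ‖c‖ * (‖x‖ ^ (n + 1))⁻¹ := by ring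
  rw [not_not] at h1
  by_cases h2 : phi K (x + c) ≠ 0
  · -- apply the estimate at `x + c` with increment `-c`
    have hxc : ‖x‖ / 2 ≤ ‖x + c‖ := by
      have h3 : ‖x‖ - ‖c‖ ≤ ‖x + c‖ := by
        have := norm_sub_norm_le x (-c)
        rw [norm_neg, sub_neg_eq_add] at this
        exact this
      have h4 : ‖c‖ ≤ ‖x‖ / 2 := by nlinarith
      linarith
    have hb := H s (x + c) (-c) hs1 hs2 h2 (by rw [norm_neg]; nlinarith) (by nlinarith)
    rw [add_neg_cancel_right, norm_neg, abs_sub_comm] at hb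
    refine hb.trans ?_
    have h5 : (‖x + c‖ ^ (n + 1))⁻¹ ≤ 2 ^ (n + 1) * (‖x‖ ^ (n + 1))⁻¹ := by
      have h6 : (‖x‖ / 2) ^ (n + 1) ≤ ‖x + c‖ ^ (n + 1) :=
        pow_le_pow_left₀ (by positivity) hxc _
      have h7 : 0 < (‖x‖ / 2) ^ (n + 1) := by positivity
      calc (‖x + c‖ ^ (n + 1))⁻¹ ≤ ((‖x‖ / 2) ^ (n + 1))⁻¹ := inv_anti₀ h7 h6
        _ = 2 ^ (n + 1) * (‖x‖ ^ (n + 1))⁻¹ := by
            rw [div_pow, inv_div, div_eq_mul_inv]
    calc A * ‖c‖ * (‖x + c‖ ^ (n + 1))⁻¹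
        ≤ A * ‖c‖ * (2 ^ (n + 1) * (‖x‖ ^ (n + 1))⁻¹) :=
          mul_le_mul_of_nonneg_left h5 (by positivity)
      _ = A * 2 ^ (n + 1) * ‖c‖ * (‖x‖ ^ (n + 1))⁻¹ := by ring
  · rw [not_not] at h2
    rw [Fs_of_phi_eq_zero h1, Fs_of_phi_eq_zero h2, sub_zero, abs_zero]
    positivity

end Fermat.Agent.S14.helper5066
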