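import Mathlib
import Fermat.Agent.S14.helper5066_Lipschitz

/-!
# Lattice sums of `F_s` over the ring of integers (helper5066, S14 Weber bound, part C)
-/

set_option autoImplicit false

namespace Fermat.Agent.S14.helper5066

open NumberField NumberField.InfinitePlace NumberField.mixedEmbedding NumberField.Units
  NumberField.Units.dirichletUnitTheorem

variable (K : Type*) [Field K] [NumberField K]

/-- The embedding of the ring of integers in the mixed space. -/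
noncomputable def iota (a : 𝓞 K) : mixedSpace K := mixedEmbedding K (a : K)

/-- `f_s(a) = F_s(ι a)`. -/
noncomputable def fs (s : ℝ) (a : 𝓞 K) : ℝ := Fs K s (iota K a)

variable {K}

theorem iota_zero : iota K 0 = 0 := by simp [iota]

theorem iota_add (a b : 𝓞 K) : iota K (a + b) = iota K a + iota K b := by simp [iota]

theorem iota_injective : Function.Injective (iota K) := fun _ _ h ↦
  RingOfIntegers.ext (mixedEmbedding_injective K h)

theorem iota_natCast_mul (m : ℕ) (b : 𝓞 K) : iota K ((m : 𝓞 K) * b) = (m : ℝ) • iota K b := by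
  simp only [iota, map_mul, map_natCast]
  rw [Nat.cast_smul_eq_nsmul, nsmul_eq_mul]

theorem norm_iota (a : 𝓞 K) :
    mixedEmbedding.norm (iota K a) = |(Algebra.norm ℤ a : ℝ)| := by
  rw [iota, norm_eq_norm, ← Algebra.coe_norm_int]
  simp

theorem one_le_norm_iota {a : 𝓞 K} (ha : a ≠ 0) : 1 ≤ mixedEmbedding.norm (iota K a) := by
  rw [norm_iota]
  have h : Algebra.norm ℤ a ≠ 0 := Algebra.norm_ne_zero_iff.mpr ha
  have h2 : (1 : ℤ) ≤ |Algebra.norm ℤ a| := Int.one_le_abs h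
  exact_mod_cast h2

theorem norm_iota_zero : mixedEmbedding.norm (iota K (0 : 𝓞 K)) = 0 := by
  rw [iota_zero, map_zero]

theorem fs_nonneg (s : ℝ) (a : 𝓞 K) : 0 ≤ fs K s a := Fs_nonneg s _

theorem fs_zero (s : ℝ) : fs K s 0 = 0 :=
  Fs_of_phi_eq_zero (phi_of_norm_eq_zero norm_iota_zero)

theorem fs_le_one {s : ℝ} (hs : 0 ≤ s) (a : 𝓞 K) : fs K s a ≤ 1 := by
  by_cases ha : a = 0
  · rw [ha, fs_zero]; exact zero_le_one
  · unfold fs Fs
    have h1 : mixedEmbedding.norm (iota K a) ^ (-s) ≤ 1 :=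
      Real.rpow_le_one_of_one_le_of_nonpos (one_le_norm_iota ha) (by linarith)
    calc phi K (iota K a) * mixedEmbedding.norm (iota K a) ^ (-s) ≤ 1 * 1 :=
          mul_le_mul (phi_le_one _) h1 (Real.rpow_nonneg (mixedEmbedding.norm_nonneg _) _)
            zero_le_one
      _ = 1 := one_mul 1

theorem abs_fs_sub_fs_le_one {s : ℝ} (hs : 0 ≤ s) (a b : 𝓞 K) : |fs K s a - fs K s b| ≤ 1 := by
  rw [abs_le]
  constructor <;> linarith [fs_nonneg s a, fs_nonneg s b, fs_le_one hs a, fs_le_one hs b]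

open scoped Classical in
theorem norm_iota_pos {a : 𝓞 K} (ha : a ≠ 0) : 0 < ‖iota K a‖ := by
  rw [norm_pos_iff]
  intro h
  exact ha (iota_injective (h.trans iota_zero.symm))

set_option maxHeartbeats 400000 in
open scoped Classical in
/-- `∑_{b ∈ 𝓞 K} ‖ι b‖^r` converges for `r < -[K:ℚ]`. -/
theorem summable_norm_iota_rpow {r : ℝ} (hr : r < -(Module.finrank ℚ K : ℝ)) :
    Summable (fun b : 𝓞 K ↦ ‖iota K b‖ ^ r) := by
  have hrank : (Module.finrank ℤ (mixedEmbedding.integerLattice K) : ℝ) = Module.finrank ℚ K := by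
    rw [ZLattice.rank ℝ, mixedEmbedding.finrank]
  have h := ZLattice.summable_norm_rpow (mixedEmbedding.integerLattice K) r (by
    rw [hrank]; exact hr)
  let j : 𝓞 K → mixedEmbedding.integerLattice K := fun b ↦ ⟨iota K b, ⟨b, rfl⟩⟩
  have hj : Function.Injective j := fun a b hab ↦ iota_injective (congrArg Subtype.val hab)
  have h2 := h.comp_injective hj
  have h3 : ∀ b : 𝓞 K, ‖j b‖ = ‖iota K b‖ := fun b ↦ Submodule.coe_norm (j b)
  simpa only [Function.comp_def, h3] using h2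

theorem phi_real_smul {t : ℝ} (ht : t ≠ 0) (x : mixedSpace K) : phi K (t • x) = phi K x := by
  by_cases hx : mixedEmbedding.norm x = 0
  · rw [phi_of_norm_eq_zero hx, phi_of_norm_eq_zero]
    rw [mixedEmbedding.norm_smul, hx, mul_zero]
  · have hx' : mixedEmbedding.norm (t • x) ≠ 0 := by
      rw [mixedEmbedding.norm_smul]
      exact mul_ne_zero (pow_ne_zero _ (abs_ne_zero.mpr ht)) hx
    rw [phi_of_norm_ne_zero hx, phi_of_norm_ne_zero hx', logMap_real_smul hx ht]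

/-- Homogeneity of `F_s`. -/
theorem Fs_real_smul {t : ℝ} (ht : 0 < t) (s : ℝ) (x : mixedSpace K) :
    Fs K s (t • x) = (t ^ Module.finrank ℚ K) ^ (-s) * Fs K s x := by
  unfold Fs
  rw [phi_real_smul ht.ne', mixedEmbedding.norm_smul, abs_of_pos ht,
    Real.mul_rpow (by positivity) (mixedEmbedding.norm_nonneg x)]
  ring

theorem fs_natCast_mul {m : ℕ} (hm : 0 < m) (s : ℝ) (b : 𝓞 K) :
    fs K s ((m : 𝓞 K) * b) = ((m : ℝ) ^ Module.finrank ℚ K) ^ (-s) * fs K s b := by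
  unfold fs
  rw [iota_natCast_mul, Fs_real_smul (Nat.cast_pos.mpr hm)]

open scoped Classical in
/-- Decay of `F_s` on the lattice. -/
theorem exists_fs_le : ∃ κ : ℝ, 0 < κ ∧ ∀ (s : ℝ), 0 ≤ s → ∀ b : 𝓞 K,
    fs K s b ≤ (κ ^ Module.finrank ℚ K) ^ (-s) * ‖iota K b‖ ^ (-(Module.finrank ℚ K * s)) := by
  obtain ⟨κ, hκ0, hκ1, hcone⟩ := exists_cone (K := K)
  refine ⟨κ, hκ0, fun s hs b ↦ ?_⟩
  by_cases hb : phi K (iota K b) = 0
  · rw [fs, Fs_of_phi_eq_zero hb]
    positivity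
  · have hb0 : b ≠ 0 := by
      rintro rfl
      exact hb (phi_of_norm_eq_zero norm_iota_zero)
    have hpos : 0 < ‖iota K b‖ := norm_iota_pos hb0
    have h1 : (κ * ‖iota K b‖) ^ Module.finrank ℚ K ≤ mixedEmbedding.norm (iota K b) :=
      pow_le_norm_of_le (by positivity) (hcone _ hb)
    have h2 : mixedEmbedding.norm (iota K b) ^ (-s) ≤
        ((κ * ‖iota K b‖) ^ Module.finrank ℚ K) ^ (-s) :=
      Real.rpow_le_rpow_of_nonpos (by positivity) h1 (by linarith)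
    have h3 : ((κ * ‖iota K b‖) ^ Module.finrank ℚ K) ^ (-s) =
        (κ ^ Module.finrank ℚ K) ^ (-s) * ‖iota K b‖ ^ (-(Module.finrank ℚ K * s)) := by
      rw [mul_pow, Real.mul_rpow (by positivity) (by positivity)]
      congr 1
      rw [← Real.rpow_natCast, ← Real.rpow_mul hpos.le]
      congr 1
      ring
    rw [← h3]
    unfold fs Fs
    calc phi K (iota K b) * mixedEmbedding.norm (iota K b) ^ (-s)
        ≤ 1 * mixedEmbedding.norm (iota K b) ^ (-s) :=
          mul_le_mul_of_nonneg_right (phi_le_one _)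
            (Real.rpow_nonneg (mixedEmbedding.norm_nonneg _) _)
      _ = mixedEmbedding.norm (iota K b) ^ (-s) := one_mul _
      _ ≤ _ := h2

open scoped Classical in
theorem summable_fs {s : ℝ} (hs : 1 < s) : Summable (fun b : 𝓞 K ↦ fs K s b) := by
  obtain ⟨κ, hκ0, H⟩ := exists_fs_le (K := K)
  have hn : (0 : ℝ) < Module.finrank ℚ K := finrank_cast_pos
  have h1 : Summable (fun b : 𝓞 K ↦ ‖iota K b‖ ^ (-(Module.finrank ℚ K * s))) :=
    summable_norm_iota_rpow (by nlinarith)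
  exact Summable.of_nonneg_of_le (fun b ↦ fs_nonneg s b) (fun b ↦ H s (by linarith) b)
    (h1.mul_left _)

open scoped Classical in
theorem norm_iota_natCast_mul (m : ℕ) (b : 𝓞 K) :
    ‖iota K ((m : 𝓞 K) * b)‖ = (m : ℝ) * ‖iota K b‖ := by
  rw [iota_natCast_mul, _root_.norm_smul, Real.norm_eq_abs, abs_of_nonneg (Nat.cast_nonneg _)]

open scoped Classical in
/-- **Key analytic estimate**: translating the lattice `m 𝓞` by `c` changes the values of `f_s`
by a summable amount, uniformly in `s ∈ [1,2]`. -/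
theorem exists_summable_bound (c : 𝓞 K) (m : ℕ) (hm : 0 < m) :
    ∃ G : 𝓞 K → ℝ, Summable G ∧ ∀ s : ℝ, 1 ≤ s → s ≤ 2 → ∀ b : 𝓞 K,
      |fs K s (c + (m : 𝓞 K) * b) - fs K s ((m : 𝓞 K) * b)| ≤ G b := by
  obtain ⟨A, ρ, hA, hρ, H⟩ := exists_lipschitz_Fs (K := K)
  set n := Module.finrank ℚ K with hn
  set γ : ℝ := ‖iota K c‖ with hγ
  have hγ0 : 0 ≤ γ := norm_nonneg _
  set R₀ : ℝ := (γ + 1) / ρ with hR₀
  have hR₀0 : 0 < R₀ := by positivity
  set C : ℝ := A * γ + R₀ ^ (n + 1) with hC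
  have hC0 : 0 ≤ C := by positivity
  have hsum : Summable (fun b : 𝓞 K ↦ ‖iota K b‖ ^ (-((n + 1 : ℕ) : ℝ))) :=
    summable_norm_iota_rpow (by push_cast; linarith)
  refine ⟨fun b ↦ (if b = 0 then 1 else 0) + C * ‖iota K b‖ ^ (-((n + 1 : ℕ) : ℝ)),
    Summable.add ?_ (hsum.mul_left C), ?_⟩
  · refine summable_of_ne_finset_zero (s := {0}) fun b hb ↦ ?_
    rw [Finset.mem_singleton] at hb
    rw [if_neg hb]
  intro s hs1 hs2 b
  have h1 : |fs K s (c + (m : 𝓞 K) * b) - fs K s ((m : 𝓞 K) * b)| ≤ 1 :=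
    abs_fs_sub_fs_le_one (by linarith) _ _
  have hterm : 0 ≤ C * ‖iota K b‖ ^ (-((n + 1 : ℕ) : ℝ)) := by positivity
  by_cases hb : b = 0
  · simp only [hb, if_true] at hterm ⊢
    rw [hb] at h1
    linarith
  simp only [hb, if_false, zero_add]
  have hpos : 0 < ‖iota K b‖ := norm_iota_pos hb
  have hrpow : ‖iota K b‖ ^ (-((n + 1 : ℕ) : ℝ)) = (‖iota K b‖ ^ (n + 1))⁻¹ := by
    rw [Real.rpow_neg hpos.le, Real.rpow_natCast]
  rw [hrpow]
  set x := iota K ((m : 𝓞 K) * b) with hx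
  have hxn : ‖x‖ = (m : ℝ) * ‖iota K b‖ := norm_iota_natCast_mul m b
  have hm1 : (1 : ℝ) ≤ m := by exact_mod_cast hm
  have hxb : ‖iota K b‖ ≤ ‖x‖ := by rw [hxn]; exact le_mul_of_one_le_left hpos.le hm1
  have hinv : (‖x‖ ^ (n + 1))⁻¹ ≤ (‖iota K b‖ ^ (n + 1))⁻¹ :=
    inv_anti₀ (by positivity) (pow_le_pow_left₀ hpos.le hxb _)
  have hinv0 : 0 ≤ (‖iota K b‖ ^ (n + 1))⁻¹ := by positivity
  by_cases hR : R₀ ≤ ‖x‖
  · have h2 : γ + 1 ≤ ρ * ‖x‖ := by
      have : ρ * R₀ ≤ ρ * ‖x‖ := mul_le_mul_of_nonneg_left hR hρ.le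
      have e : ρ * R₀ = γ + 1 := by rw [hR₀]; field_simp
      linarith
    have h3 := H s x (iota K c) hs1 hs2 (by linarith) (by linarith)
    have e : fs K s (c + (m : 𝓞 K) * b) = Fs K s (x + iota K c) := by
      rw [fs, iota_add, add_comm]
    rw [e, show fs K s ((m : 𝓞 K) * b) = Fs K s x from rfl]
    calc |Fs K s (x + iota K c) - Fs K s x| ≤ A * γ * (‖x‖ ^ (n + 1))⁻¹ := h3
      _ ≤ A * γ * (‖iota K b‖ ^ (n + 1))⁻¹ := mul_le_mul_of_nonneg_left hinv (by positivity)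
      _ ≤ C * (‖iota K b‖ ^ (n + 1))⁻¹ := by
          refine mul_le_mul_of_nonneg_right ?_ hinv0
          rw [hC]; linarith [pow_pos hR₀0 (n + 1)]
  · have h2 : ‖iota K b‖ ≤ R₀ := hxb.trans (not_le.mp hR).le
    have h3 : (1 : ℝ) ≤ R₀ ^ (n + 1) * (‖iota K b‖ ^ (n + 1))⁻¹ := by
      rw [← div_eq_mul_inv, le_div_iff₀ (by positivity), one_mul]
      exact pow_le_pow_left₀ hpos.le h2 _
    calc |fs K s (c + (m : 𝓞 K) * b) - fs K s ((m : 𝓞 K) * b)| ≤ 1 := h1
      _ ≤ R₀ ^ (n + 1) * (‖iota K b‖ ^ (n + 1))⁻¹ := h3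
      _ ≤ C * (‖iota K b‖ ^ (n + 1))⁻¹ := by
          refine mul_le_mul_of_nonneg_right ?_ hinv0
          rw [hC]; nlinarith [mul_nonneg hA.le hγ0]

end Fermat.Agent.S14.helper5066
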