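import Mathlib
import Fermat.Agent.S14.helper5066_LatticeSum

/-!
# Coset decomposition `𝓞 K = ⊔ (c + m 𝓞 K)` and comparison of the sum of `f_s` over an ideal
with the sum over `𝓞 K` (helper5066, S14 Weber bound, part D)
-/

set_option autoImplicit false

namespace Fermat.Agent.S14.helper5066
open NumberField NumberField.InfinitePlace NumberField.mixedEmbedding NumberField.Units
  NumberField.Units.dirichletUnitTheorem
variable {K : Type*} [Field K] [NumberField K]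

/-! ### Coset decomposition of `𝓞 K` modulo `m` -/

theorem natCast_ne_zero_int {m : ℕ} (hm : m ≠ 0) : (m : 𝓞 K) ≠ 0 := Nat.cast_ne_zero.mpr hm

theorem span_natCast_ne_bot {m : ℕ} (hm : m ≠ 0) : Ideal.span {(m : 𝓞 K)} ≠ ⊥ := by
  rw [Ne, Ideal.span_singleton_eq_bot]
  exact natCast_ne_zero_int hm

theorem finite_quot_span_natCast {m : ℕ} (hm : m ≠ 0) :
    Finite (𝓞 K ⧸ Ideal.span {(m : 𝓞 K)}) :=
  Ideal.finiteQuotientOfFreeOfNeBot _ (span_natCast_ne_bot hm)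

/-- The bijection `(𝓞 K / m) × 𝓞 K ≃ 𝓞 K`, `(q, b) ↦ out q + m b`. -/
noncomputable def cosetEquiv {m : ℕ} (hm : m ≠ 0) :
    (𝓞 K ⧸ Ideal.span {(m : 𝓞 K)}) × 𝓞 K ≃ 𝓞 K :=
  Equiv.ofBijective (fun p ↦ Quotient.out p.1 + (m : 𝓞 K) * p.2) (by
    constructor
    · rintro ⟨q, b⟩ ⟨q', b'⟩ h
      simp only at h
      have h1 : q = q' := by
        have := congrArg (Ideal.Quotient.mk (Ideal.span {(m : 𝓞 K)})) h
        simp only [map_add, Ideal.Quotient.mk_out] at this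
        have hz : ∀ b : 𝓞 K, Ideal.Quotient.mk (Ideal.span {(m : 𝓞 K)}) ((m : 𝓞 K) * b) = 0 :=
          fun b ↦ Ideal.Quotient.eq_zero_iff_mem.mpr
            (Ideal.mul_mem_right _ _ (Ideal.mem_span_singleton_self _))
        rwa [hz, hz, add_zero, add_zero] at this
      subst h1
      have h2 : (m : 𝓞 K) * b = (m : 𝓞 K) * b' := add_left_cancel h
      rw [mul_left_cancel₀ (natCast_ne_zero_int hm) h2]
    · intro a
      have h1 : a - Quotient.out (Ideal.Quotient.mk (Ideal.span {(m : 𝓞 K)}) a) ∈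
          Ideal.span {(m : 𝓞 K)} := by
        rw [← Ideal.Quotient.eq, Ideal.Quotient.mk_out]
      obtain ⟨b, hb⟩ := Ideal.mem_span_singleton'.mp h1
      refine ⟨⟨Ideal.Quotient.mk _ a, b⟩, ?_⟩
      simp only
      rw [mul_comm, hb]
      ring)

theorem cosetEquiv_apply {m : ℕ} (hm : m ≠ 0) (p : (𝓞 K ⧸ Ideal.span {(m : 𝓞 K)}) × 𝓞 K) :
    cosetEquiv hm p = Quotient.out p.1 + (m : 𝓞 K) * p.2 := rfl

/-- Summation over cosets. -/
theorem tsum_eq_sum_cosets {m : ℕ} (hm : m ≠ 0) [Fintype (𝓞 K ⧸ Ideal.span {(m : 𝓞 K)})]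
    {g : 𝓞 K → ℝ} (hg : Summable g) :
    ∑' a, g a = ∑ q : 𝓞 K ⧸ Ideal.span {(m : 𝓞 K)},
      ∑' b : 𝓞 K, g (Quotient.out q + (m : 𝓞 K) * b) := by
  have h1 : Summable (g ∘ cosetEquiv hm) := (cosetEquiv hm).summable_iff.mpr hg
  rw [← (cosetEquiv hm).tsum_eq g]
  have h2 := h1.tsum_prod
  simp only [Function.comp_apply] at h2
  rw [h2, tsum_fintype]
  rfl

theorem summable_coset {m : ℕ} (hm : m ≠ 0) {g : 𝓞 K → ℝ} (hg : Summable g)
    (q : 𝓞 K ⧸ Ideal.span {(m : 𝓞 K)}) :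
    Summable (fun b : 𝓞 K ↦ g (Quotient.out q + (m : 𝓞 K) * b)) := by
  have h1 : Summable (g ∘ cosetEquiv hm) := (cosetEquiv hm).summable_iff.mpr hg
  exact h1.prod_factor q

theorem absNorm_span_natCast (m : ℕ) :
    Ideal.absNorm (Ideal.span {(m : 𝓞 K)}) = m ^ Module.finrank ℚ K := by
  rw [Ideal.absNorm_span_singleton, Algebra.norm_natCast, RingOfIntegers.rank]
  exact Int.natAbs_natCast _

/-- The number of cosets of `m 𝓞` contained in `J`, times the norm of `J`, is `m ^ n`. -/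
theorem card_cosets_mul_absNorm {m : ℕ} (J : Ideal (𝓞 K)) (hmJ : (m : 𝓞 K) ∈ J) :
    Nat.card {q : 𝓞 K ⧸ Ideal.span {(m : 𝓞 K)} // Quotient.out q ∈ J} * Ideal.absNorm J =
      m ^ Module.finrank ℚ K := by
  set I : Ideal (𝓞 K) := Ideal.span {(m : 𝓞 K)} with hI
  have hIJ : I ≤ J := (Ideal.span_singleton_le_iff_mem J).mpr hmJ
  set J' : Ideal (𝓞 K ⧸ I) := J.map (Ideal.Quotient.mk I) with hJ'
  have hmem : ∀ q : 𝓞 K ⧸ I, Quotient.out q ∈ J ↔ q ∈ J' := by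
    intro q
    rw [hJ', Ideal.mem_map_iff_of_surjective _ Ideal.Quotient.mk_surjective]
    constructor
    · intro h
      exact ⟨_, h, Ideal.Quotient.mk_out q⟩
    · rintro ⟨x, hx, hxq⟩
      have h1 : x - Quotient.out q ∈ I := by
        rw [← Ideal.Quotient.eq, Ideal.Quotient.mk_out, hxq]
      have h2 : Quotient.out q = x - (x - Quotient.out q) := by ring
      rw [h2]
      exact J.sub_mem hx (hIJ h1)
  have h1 : Nat.card {q : 𝓞 K ⧸ I // Quotient.out q ∈ J} = Nat.card J'.toAddSubgroup :=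
    Nat.card_congr (Equiv.subtypeEquivRight hmem)
  have h2 : J'.toAddSubgroup.index = Ideal.absNorm J := by
    rw [Ideal.absNorm_apply, Submodule.cardQuot_apply]
    exact Nat.card_congr (DoubleQuot.quotQuotEquivQuotOfLE hIJ).toEquiv
  have h3 : Nat.card (𝓞 K ⧸ I) = m ^ Module.finrank ℚ K := by
    rw [← absNorm_span_natCast (K := K) m, Ideal.absNorm_apply, Submodule.cardQuot_apply]
  rw [h1, ← h2, ← h3]
  exact AddSubgroup.card_mul_index _

open scoped Classical in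
/-- Comparison of the sum over an ideal `J ⊇ m 𝓞` with the sum over `𝓞`. -/
theorem exists_bound_indicator_sum {m : ℕ} (hm : m ≠ 0) (J : Ideal (𝓞 K))
    (hmJ : (m : 𝓞 K) ∈ J) :
    ∃ B : ℝ, ∀ s : ℝ, 1 < s → s ≤ 2 →
      |∑' a : 𝓞 K, Set.indicator (J : Set (𝓞 K)) (fs K s) a -
        (Nat.card {q : 𝓞 K ⧸ Ideal.span {(m : 𝓞 K)} // Quotient.out q ∈ J} : ℝ) *
          (((m : ℝ) ^ Module.finrank ℚ K) ^ (-s) * ∑' b : 𝓞 K, fs K s b)| ≤ B := by
  have hfin := finite_quot_span_natCast (K := K) hm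
  let _ : Fintype (𝓞 K ⧸ Ideal.span {(m : 𝓞 K)}) := Fintype.ofFinite _
  have hm' : 0 < m := Nat.pos_of_ne_zero hm
  choose G hGsum hG using fun q : 𝓞 K ⧸ Ideal.span {(m : 𝓞 K)} ↦
    exists_summable_bound (K := K) (Quotient.out q) m hm'
  refine ⟨∑ q, ∑' b, G q b, fun s hs1 hs2 ↦ ?_⟩
  have hS : Summable (fs K s) := summable_fs hs1
  have hg : Summable (Set.indicator (J : Set (𝓞 K)) (fs K s)) := hS.indicator _
  rw [tsum_eq_sum_cosets hm hg]
  have hsm : Summable (fun b : 𝓞 K ↦ fs K s ((m : 𝓞 K) * b)) := by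
    simp_rw [fs_natCast_mul hm' s]
    exact hS.mul_left _
  have hsq : ∀ q : 𝓞 K ⧸ Ideal.span {(m : 𝓞 K)},
      Summable (fun b : 𝓞 K ↦ fs K s (Quotient.out q + (m : 𝓞 K) * b)) :=
    fun q ↦ summable_coset hm hS q
  have hGnn : ∀ q, 0 ≤ ∑' b, G q b := fun q ↦
    tsum_nonneg fun b ↦ (abs_nonneg _).trans (hG q s hs1.le hs2 b)
  have hE : ∀ q : 𝓞 K ⧸ Ideal.span {(m : 𝓞 K)},
      |∑' b : 𝓞 K, (fs K s (Quotient.out q + (m : 𝓞 K) * b) - fs K s ((m : 𝓞 K) * b))| ≤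
        ∑' b, G q b := fun q ↦ by
    rw [← Real.norm_eq_abs]
    exact tsum_of_norm_bounded (hGsum q).hasSum fun b ↦ by
      rw [Real.norm_eq_abs]; exact hG q s hs1.le hs2 b
  have hq : ∀ q : 𝓞 K ⧸ Ideal.span {(m : 𝓞 K)},
      ∑' b : 𝓞 K, Set.indicator (J : Set (𝓞 K)) (fs K s) (Quotient.out q + (m : 𝓞 K) * b) =
      if Quotient.out q ∈ J then
        (((m : ℝ) ^ Module.finrank ℚ K) ^ (-s) * ∑' b : 𝓞 K, fs K s b) +
        ∑' b : 𝓞 K, (fs K s (Quotient.out q + (m : 𝓞 K) * b) - fs K s ((m : 𝓞 K) * b))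
      else 0 := by
    intro q
    by_cases h : Quotient.out q ∈ J
    · rw [if_pos h]
      have e1 : ∀ b : 𝓞 K, Set.indicator (J : Set (𝓞 K)) (fs K s)
          (Quotient.out q + (m : 𝓞 K) * b) = fs K s (Quotient.out q + (m : 𝓞 K) * b) :=
        fun b ↦ Set.indicator_of_mem (J.add_mem h (J.mul_mem_right _ hmJ)) _
      rw [tsum_congr e1, ← tsum_mul_left, ← tsum_congr (fun b ↦ fs_natCast_mul hm' s b),
        ← (hsm.tsum_add ((hsq q).sub hsm))]
      exact tsum_congr fun b ↦ by ring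
    · rw [if_neg h]
      have e1 : ∀ b : 𝓞 K, Set.indicator (J : Set (𝓞 K)) (fs K s)
          (Quotient.out q + (m : 𝓞 K) * b) = 0 := by
        intro b
        apply Set.indicator_of_notMem
        intro hmem
        apply h
        have : Quotient.out q = (Quotient.out q + (m : 𝓞 K) * b) - (m : 𝓞 K) * b := by ring
        rw [this]
        exact J.sub_mem hmem (J.mul_mem_right _ hmJ)
      rw [tsum_congr e1, tsum_zero]
  simp_rw [hq]
  rw [Finset.sum_ite, Finset.sum_const_zero, add_zero, Finset.sum_add_distrib, Finset.sum_const,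
    nsmul_eq_mul]
  have hcard : (Finset.univ.filter
      (fun q : 𝓞 K ⧸ Ideal.span {(m : 𝓞 K)} ↦ Quotient.out q ∈ J)).card =
      Nat.card {q : 𝓞 K ⧸ Ideal.span {(m : 𝓞 K)} // Quotient.out q ∈ J} := by
    rw [Nat.card_eq_fintype_card, Fintype.card_subtype]
  rw [hcard, add_sub_cancel_left]
  calc |∑ q ∈ Finset.univ.filter (fun q : 𝓞 K ⧸ Ideal.span {(m : 𝓞 K)} ↦ Quotient.out q ∈ J),
        ∑' b : 𝓞 K, (fs K s (Quotient.out q + (m : 𝓞 K) * b) - fs K s ((m : 𝓞 K) * b))|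
      ≤ ∑ q ∈ Finset.univ.filter (fun q : 𝓞 K ⧸ Ideal.span {(m : 𝓞 K)} ↦ Quotient.out q ∈ J),
        |∑' b : 𝓞 K, (fs K s (Quotient.out q + (m : 𝓞 K) * b) - fs K s ((m : 𝓞 K) * b))| :=
        Finset.abs_sum_le_sum_abs _ _
    _ ≤ ∑ q ∈ Finset.univ.filter (fun q : 𝓞 K ⧸ Ideal.span {(m : 𝓞 K)} ↦ Quotient.out q ∈ J),
        ∑' b, G q b := Finset.sum_le_sum fun q _ ↦ hE q
    _ ≤ ∑ q, ∑' b, G q b :=
        Finset.sum_le_sum_of_subset_of_nonneg (Finset.filter_subset _ _) fun q _ _ ↦ hGnn q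

end Fermat.Agent.S14.helper5066
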