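import Mathlib
import Fermat.Agent.S14.helper5066_Coset

/-!
# Unfolding: the sum of `f_s` over an ideal `J` versus the partial zeta function of the class
`[J]⁻¹` (helper5066, S14 Weber bound, part E)
-/

set_option autoImplicit false

namespace Fermat.Agent.S14.helper5066
open NumberField NumberField.InfinitePlace NumberField.mixedEmbedding NumberField.Units
  NumberField.Units.dirichletUnitTheorem
open scoped nonZeroDivisors
variable {K : Type*} [Field K] [NumberField K]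

/-! ### Unfolding: elements of an ideal versus ideals in the inverse class -/

/-- The ideals in the class inverse to that of `J`. -/
abbrev InvClass (J : (Ideal (𝓞 K))⁰) : Type _ :=
  {I : (Ideal (𝓞 K))⁰ // ClassGroup.mk0 I = (ClassGroup.mk0 J)⁻¹}

theorem isPrincipal_mul (J : (Ideal (𝓞 K))⁰) (I : InvClass J) :
    ((J : Ideal (𝓞 K)) * (I.1 : Ideal (𝓞 K))).IsPrincipal := by
  have h : ClassGroup.mk0 (J * I.1) = 1 := by
    rw [map_mul, I.2, mul_inv_cancel]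
  exact (ClassGroup.mk0_eq_one_iff (J * I.1).2).mp h

/-- A generator of `J * I`. -/
noncomputable def gen (J : (Ideal (𝓞 K))⁰) (I : InvClass J) : 𝓞 K :=
  (isPrincipal_mul J I).generator

theorem span_gen (J : (Ideal (𝓞 K))⁰) (I : InvClass J) :
    Ideal.span {gen J I} = (J : Ideal (𝓞 K)) * (I.1 : Ideal (𝓞 K)) :=
  @Ideal.span_singleton_generator _ _ _ (isPrincipal_mul J I)

theorem gen_ne_zero (J : (Ideal (𝓞 K))⁰) (I : InvClass J) : gen J I ≠ 0 := by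
  intro h
  have h1 := span_gen J I
  rw [h, Ideal.span_singleton_eq_bot.mpr rfl] at h1
  have h2 : ((J * I.1 : (Ideal (𝓞 K))⁰) : Ideal (𝓞 K)) ≠ 0 := nonZeroDivisors.coe_ne_zero _
  exact h2 h1.symm

theorem gen_mem (J : (Ideal (𝓞 K))⁰) (I : InvClass J) : gen J I ∈ (J : Ideal (𝓞 K)) := by
  have h1 : gen J I ∈ Ideal.span {gen J I} := Ideal.mem_span_singleton_self _
  rw [span_gen] at h1
  have h2 : (J : Ideal (𝓞 K)) * (I.1 : Ideal (𝓞 K)) ≤ (J : Ideal (𝓞 K)) := Ideal.mul_le_left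
  exact h2 h1

theorem absNorm_gen (J : (Ideal (𝓞 K))⁰) (I : InvClass J) :
    mixedEmbedding.norm (iota K (gen J I)) =
      (Ideal.absNorm (J : Ideal (𝓞 K)) : ℝ) * (Ideal.absNorm (I.1 : Ideal (𝓞 K)) : ℝ) := by
  rw [norm_iota, ← Nat.cast_mul, ← map_mul, ← span_gen, Ideal.absNorm_span_singleton,
    Nat.cast_natAbs, Int.cast_abs]

/-- The parametrisation of the nonzero elements of `J`. -/
noncomputable def unfoldMap (J : (Ideal (𝓞 K))⁰) (p : InvClass J × (𝓞 K)ˣ) : 𝓞 K :=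
  (p.2 : 𝓞 K) * gen J p.1

theorem unfoldMap_injective (J : (Ideal (𝓞 K))⁰) : Function.Injective (unfoldMap J) := by
  rintro ⟨I, u⟩ ⟨I', u'⟩ h
  simp only [unfoldMap] at h
  have h1 : Ideal.span {gen J I} = Ideal.span {gen J I'} := by
    rw [Ideal.span_singleton_eq_span_singleton]
    refine ⟨u'⁻¹ * u, ?_⟩
    rw [Units.val_mul, mul_comm (gen J I), mul_assoc, h, ← mul_assoc, ← Units.val_mul,
      inv_mul_cancel, Units.val_one, one_mul]
  rw [span_gen, span_gen] at h1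
  have hJ : (J : Ideal (𝓞 K)) ≠ 0 := nonZeroDivisors.coe_ne_zero _
  have h2 : (I.1 : Ideal (𝓞 K)) = (I'.1 : Ideal (𝓞 K)) := mul_left_cancel₀ hJ h1
  have h3 : I = I' := Subtype.ext (Subtype.ext h2)
  subst h3
  have h4 : (u : 𝓞 K) = (u' : 𝓞 K) := mul_right_cancel₀ (gen_ne_zero J I) h
  rw [Units.ext h4]

theorem unfoldMap_mem (J : (Ideal (𝓞 K))⁰) (p : InvClass J × (𝓞 K)ˣ) :
    unfoldMap J p ∈ (J : Ideal (𝓞 K)) :=
  Ideal.mul_mem_left _ _ (gen_mem J p.1)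

theorem mem_range_unfoldMap (J : (Ideal (𝓞 K))⁰) {a : 𝓞 K} (haJ : a ∈ (J : Ideal (𝓞 K)))
    (ha : a ≠ 0) : a ∈ Set.range (unfoldMap J) := by
  obtain ⟨I₀, hI₀⟩ := Ideal.dvd_span_singleton.mpr haJ
  have hJ : (J : Ideal (𝓞 K)) ≠ 0 := nonZeroDivisors.coe_ne_zero _
  have hI₀0 : I₀ ≠ 0 := by
    rintro rfl
    rw [mul_zero] at hI₀
    exact ha (Ideal.span_singleton_eq_bot.mp hI₀)
  let I₁ : (Ideal (𝓞 K))⁰ := ⟨I₀, mem_nonZeroDivisors_of_ne_zero hI₀0⟩
  have hspan0 : Ideal.span {a} ≠ 0 := by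
    rw [Ne, Ideal.zero_eq_bot, Ideal.span_singleton_eq_bot]; exact ha
  have hcls : ClassGroup.mk0 I₁ = (ClassGroup.mk0 J)⁻¹ := by
    have h1 : ClassGroup.mk0 (J * I₁) = 1 := by
      have hmem : Ideal.span {a} ∈ (Ideal (𝓞 K))⁰ := mem_nonZeroDivisors_of_ne_zero hspan0
      have e : (J * I₁ : (Ideal (𝓞 K))⁰) = ⟨Ideal.span {a}, hmem⟩ := Subtype.ext hI₀.symm
      rw [e, ClassGroup.mk0_eq_one_iff]
      exact ⟨⟨a, rfl⟩⟩
    rw [map_mul] at h1
    exact eq_inv_of_mul_eq_one_right h1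
  let I : InvClass J := ⟨I₁, hcls⟩
  have h2 : Ideal.span {gen J I} = Ideal.span {a} := by
    rw [span_gen, hI₀]
  obtain ⟨u, hu⟩ := Ideal.span_singleton_eq_span_singleton.mp h2
  exact ⟨⟨I, u⟩, by simp only [unfoldMap]; rw [mul_comm]; exact hu⟩

omit [NumberField K] in
theorem iota_unit_mul (u : (𝓞 K)ˣ) (a : 𝓞 K) : iota K ((u : 𝓞 K) * a) = u • iota K a := by
  simp only [iota, map_mul, unitSMul_smul]

theorem norm_iota_ne_zero {a : 𝓞 K} (ha : a ≠ 0) : mixedEmbedding.norm (iota K a) ≠ 0 :=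
  (lt_of_lt_of_le zero_lt_one (one_le_norm_iota ha)).ne'

theorem fs_unfoldMap (J : (Ideal (𝓞 K))⁰) (s : ℝ) (p : InvClass J × (𝓞 K)ˣ) :
    fs K s (unfoldMap J p) = phi K (p.2 • iota K (gen J p.1)) *
      ((Ideal.absNorm (J : Ideal (𝓞 K)) : ℝ) *
        (Ideal.absNorm (p.1.1 : Ideal (𝓞 K)) : ℝ)) ^ (-s) := by
  unfold fs unfoldMap Fs
  rw [iota_unit_mul, norm_unit_smul, absNorm_gen]

/-- **Unfolding**: the sum of `f_s` over the elements of `J` is `w` times the sum of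
`N(J I)^(-s)` over the ideals `I` in the inverse class of `J`. -/
theorem unfolding (J : (Ideal (𝓞 K))⁰) {s : ℝ} (hs : 1 < s) :
    Summable (fun I : InvClass J ↦ ((Ideal.absNorm (J : Ideal (𝓞 K)) : ℝ) *
        (Ideal.absNorm (I.1 : Ideal (𝓞 K)) : ℝ)) ^ (-s)) ∧
    ∑' a : 𝓞 K, Set.indicator ((J : Ideal (𝓞 K)) : Set (𝓞 K)) (fs K s) a =
      (torsionOrder K : ℝ) * ∑' I : InvClass J, ((Ideal.absNorm (J : Ideal (𝓞 K)) : ℝ) *
        (Ideal.absNorm (I.1 : Ideal (𝓞 K)) : ℝ)) ^ (-s) := by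
  set f : 𝓞 K → ℝ := Set.indicator ((J : Ideal (𝓞 K)) : Set (𝓞 K)) (fs K s) with hf
  have hfsum : Summable f := (summable_fs hs).indicator _
  have hsupp : ∀ a ∉ Set.range (unfoldMap J), f a = 0 := by
    intro a ha
    by_cases haJ : a ∈ (J : Ideal (𝓞 K))
    · have ha0 : a = 0 := by
        by_contra h0
        exact ha (mem_range_unfoldMap J haJ h0)
      rw [hf, Set.indicator_of_mem (by exact haJ), ha0, fs_zero]
    · exact Set.indicator_of_notMem (by exact haJ) _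
  have hcomp : Summable (f ∘ unfoldMap J) :=
    ((unfoldMap_injective J).summable_iff hsupp).mpr hfsum
  have hval : ∀ p : InvClass J × (𝓞 K)ˣ, (f ∘ unfoldMap J) p =
      phi K (p.2 • iota K (gen J p.1)) * ((Ideal.absNorm (J : Ideal (𝓞 K)) : ℝ) *
        (Ideal.absNorm (p.1.1 : Ideal (𝓞 K)) : ℝ)) ^ (-s) := by
    intro p
    rw [Function.comp_apply, hf, Set.indicator_of_mem (by exact unfoldMap_mem J p), fs_unfoldMap]
  have hinner : ∀ I : InvClass J, HasSum (fun u : (𝓞 K)ˣ ↦ (f ∘ unfoldMap J) (I, u))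
      ((torsionOrder K : ℝ) * ((Ideal.absNorm (J : Ideal (𝓞 K)) : ℝ) *
        (Ideal.absNorm (I.1 : Ideal (𝓞 K)) : ℝ)) ^ (-s)) := by
    intro I
    have h1 := (hasSum_phi_unit_smul (norm_iota_ne_zero (gen_ne_zero J I))).mul_right
      (((Ideal.absNorm (J : Ideal (𝓞 K)) : ℝ) * (Ideal.absNorm (I.1 : Ideal (𝓞 K)) : ℝ)) ^ (-s))
    have e : (fun u : (𝓞 K)ˣ ↦ (f ∘ unfoldMap J) (I, u)) = fun u : (𝓞 K)ˣ ↦
        phi K (u • iota K (gen J I)) * ((Ideal.absNorm (J : Ideal (𝓞 K)) : ℝ) *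
          (Ideal.absNorm (I.1 : Ideal (𝓞 K)) : ℝ)) ^ (-s) := funext fun u ↦ hval (I, u)
    rw [e]
    exact h1
  have hw : (torsionOrder K : ℝ) ≠ 0 := Nat.cast_ne_zero.mpr (torsionOrder_ne_zero K)
  have hsumI : Summable (fun I : InvClass J ↦ (torsionOrder K : ℝ) *
      ((Ideal.absNorm (J : Ideal (𝓞 K)) : ℝ) * (Ideal.absNorm (I.1 : Ideal (𝓞 K)) : ℝ)) ^ (-s)) :=
    hcomp.prod.congr fun I ↦ (hinner I).tsum_eq
  refine ⟨(summable_mul_left_iff hw).mp hsumI, ?_⟩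
  rw [← (unfoldMap_injective J).tsum_eq (f := f) (fun a ha ↦ by
    by_contra h
    exact (Function.mem_support.mp ha) (hsupp a h)), ← tsum_mul_left]
  have h2 := hcomp.tsum_prod
  rw [tsum_congr (fun I ↦ (hinner I).tsum_eq)] at h2
  exact h2

end Fermat.Agent.S14.helper5066
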