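import Mathlib
import Fermat.Agent.S14.helper5066_Unfold

/-!
# Weber bound, analytic core (helper5066, S14 Thaine route, item W1)

For a number field `K` and an ideal class `C`, `partialZeta K C s = ∑_{I ∈ C} N(I)^(-s)` (real `s`).

Main results (all for `1 < s ≤ 2`):
* `summable_partialZeta`: convergence for `s > 1`;
* `exists_bound_sub_one_mul_partialZeta`: `(s - 1) * partialZeta K C s` is bounded;
* `exists_bound_partialZeta_sub`: **`partialZeta K C s - partialZeta K C' s` is bounded**;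
* `exists_bound_sum_mul_partialZeta`, `exists_bound_norm_sum_mul_partialZeta`: the `L`-function
  `∑_C ψ(C) * partialZeta K C s` of a function `ψ` on the class group with `∑_C ψ(C) = 0`
  (e.g. a nontrivial character) is bounded on `(1,2]`.

Proof: tent-function unfolding over the unit lattice; no lattice-point counting with error terms,
no volumes, no Dedekind zeta function.
-/

set_option autoImplicit false

namespace Fermat.Agent.S14.helper5066
open NumberField NumberField.InfinitePlace NumberField.mixedEmbedding NumberField.Units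
  NumberField.Units.dirichletUnitTheorem
open scoped nonZeroDivisors

/-- The partial zeta function of an ideal class, for a real argument:
`∑_{I ∈ C} N(I)^(-s)` over the nonzero integral ideals of the class `C`. -/
noncomputable def partialZeta (K : Type*) [Field K] [NumberField K] (C : ClassGroup (𝓞 K))
    (s : ℝ) : ℝ :=
  ∑' I : {I : (Ideal (𝓞 K))⁰ // ClassGroup.mk0 I = C},
    (Ideal.absNorm (I.1 : Ideal (𝓞 K)) : ℝ) ^ (-s)

variable {K : Type*} [Field K] [NumberField K]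

theorem absNorm_cast_pos (J : (Ideal (𝓞 K))⁰) : (0 : ℝ) < Ideal.absNorm (J : Ideal (𝓞 K)) :=
  Nat.cast_pos.mpr (Nat.pos_of_ne_zero (Ideal.absNorm_ne_zero_of_nonZeroDivisors J))

/-- Unfolding, in terms of `partialZeta`. -/
theorem unfolding_partialZeta (J : (Ideal (𝓞 K))⁰) {s : ℝ} (hs : 1 < s) :
    Summable (fun I : {I : (Ideal (𝓞 K))⁰ // ClassGroup.mk0 I = (ClassGroup.mk0 J)⁻¹} ↦
        (Ideal.absNorm (I.1 : Ideal (𝓞 K)) : ℝ) ^ (-s)) ∧
    ∑' a : 𝓞 K, Set.indicator ((J : Ideal (𝓞 K)) : Set (𝓞 K)) (fs K s) a =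
      (torsionOrder K : ℝ) * ((Ideal.absNorm (J : Ideal (𝓞 K)) : ℝ) ^ (-s) *
        partialZeta K (ClassGroup.mk0 J)⁻¹ s) := by
  obtain ⟨h1, h2⟩ := unfolding J hs
  have hJ := absNorm_cast_pos J
  have e : ∀ I : InvClass J, ((Ideal.absNorm (J : Ideal (𝓞 K)) : ℝ) *
      (Ideal.absNorm (I.1 : Ideal (𝓞 K)) : ℝ)) ^ (-s) =
      (Ideal.absNorm (J : Ideal (𝓞 K)) : ℝ) ^ (-s) *
        (Ideal.absNorm (I.1 : Ideal (𝓞 K)) : ℝ) ^ (-s) :=
    fun I ↦ Real.mul_rpow hJ.le (Nat.cast_nonneg _)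
  have hne : (Ideal.absNorm (J : Ideal (𝓞 K)) : ℝ) ^ (-s) ≠ 0 := (Real.rpow_pos_of_pos hJ _).ne'
  simp_rw [e] at h1 h2
  refine ⟨(summable_mul_left_iff hne).mp h1, ?_⟩
  rw [h2, tsum_mul_left]
  rfl

theorem div_le_one_sub_exp_neg {x : ℝ} (hx : 0 ≤ x) : x / (1 + x) ≤ 1 - Real.exp (-x) := by
  have h1 : 1 + x ≤ Real.exp x := by linarith [Real.add_one_le_exp x]
  have h2 : Real.exp (-x) ≤ 1 / (1 + x) := by
    rw [Real.exp_neg, ← one_div]
    exact one_div_le_one_div_of_le (by linarith) h1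
  have h3 : x / (1 + x) = 1 - 1 / (1 + x) := by
    have : (1 + x) ≠ 0 := by linarith
    field_simp
    ring
  linarith

theorem one_sub_exp_neg_le (x : ℝ) : 1 - Real.exp (-x) ≤ x := by
  linarith [Real.add_one_le_exp (-x)]

/-- `d * d^(-s) = exp (-((s-1) * log d))` for `d > 0`. -/
theorem mul_rpow_neg_eq_exp {d : ℝ} (hd : 0 < d) (s : ℝ) :
    d * d ^ (-s) = Real.exp (-((s - 1) * Real.log d)) := by
  rw [Real.rpow_def_of_pos hd]
  nth_rewrite 1 [← Real.exp_log hd]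
  rw [← Real.exp_add]
  congr 1
  ring

theorem tsum_fs_nonneg (s : ℝ) : 0 ≤ ∑' b : 𝓞 K, fs K s b := tsum_nonneg fun b ↦ fs_nonneg s b

/-- **The total sum has at most a simple pole**: `(s-1) * ∑_b f_s(b)` is bounded on `(1,2]`. -/
theorem exists_bound_totalSum :
    ∃ B : ℝ, 0 ≤ B ∧ ∀ s : ℝ, 1 < s → s ≤ 2 → (s - 1) * ∑' b : 𝓞 K, fs K s b ≤ B := by
  obtain ⟨B, hB⟩ := exists_bound_indicator_sum (K := K) (m := 2) two_ne_zero ⊤ Submodule.mem_top
  have hB0 : 0 ≤ B := (abs_nonneg _).trans (hB 2 (by norm_num) le_rfl)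
  set n := Module.finrank ℚ K with hn
  have hn1 : 1 ≤ n := Module.finrank_pos
  have hk : (Nat.card {q : 𝓞 K ⧸ Ideal.span {((2 : ℕ) : 𝓞 K)} //
      Quotient.out q ∈ (⊤ : Ideal (𝓞 K))} : ℝ) = ((2 : ℕ) : ℝ) ^ n := by
    have := card_cosets_mul_absNorm (K := K) (m := 2) ⊤ Submodule.mem_top
    rw [Ideal.absNorm_top, mul_one] at this
    exact_mod_cast this
  set D : ℝ := ((2 : ℕ) : ℝ) ^ n with hD
  have hD2 : (2 : ℝ) ≤ D := by
    rw [hD]
    calc (2 : ℝ) = ((2 : ℕ) : ℝ) ^ 1 := by norm_num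
      _ ≤ ((2 : ℕ) : ℝ) ^ n := pow_le_pow_right₀ (by norm_num) hn1
  have hD0 : 0 < D := by linarith
  set L : ℝ := Real.log D with hL
  have hL0 : 0 < L := Real.log_pos (by linarith)
  refine ⟨B * ((1 + L) / L), by positivity, fun s hs1 hs2 ↦ ?_⟩
  have h := hB s hs1 hs2
  rw [hk, Submodule.top_coe, Set.indicator_univ, ← mul_assoc, mul_rpow_neg_eq_exp hD0] at h
  set S : ℝ := ∑' b : 𝓞 K, fs K s b with hS
  have hS0 : 0 ≤ S := tsum_fs_nonneg s
  set x : ℝ := (s - 1) * L with hx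
  have hx0 : 0 ≤ x := by positivity
  have hxL : x ≤ L := by
    rw [hx]
    calc (s - 1) * L ≤ 1 * L := mul_le_mul_of_nonneg_right (by linarith) hL0.le
      _ = L := one_mul L
  have h1 : S * (1 - Real.exp (-x)) ≤ B := by
    have := (abs_le.mp h).2
    linarith
  have h2 : x / (1 + L) ≤ 1 - Real.exp (-x) := by
    refine le_trans ?_ (div_le_one_sub_exp_neg hx0)
    exact div_le_div_of_nonneg_left hx0 (by linarith) (by linarith)
  have h3 : S * (x / (1 + L)) ≤ B := (mul_le_mul_of_nonneg_left h2 hS0).trans h1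
  have h4 : (s - 1) * S = S * (x / (1 + L)) * ((1 + L) / L) := by
    rw [hx]
    field_simp
  rw [h4]
  exact mul_le_mul_of_nonneg_right h3 (by positivity)

/-- The partial zeta function of the class `[J]⁻¹`, times `w`, differs from the total sum by a
bounded function on `(1,2]`. -/
theorem exists_bound_partialZeta_sub_totalSum (J : (Ideal (𝓞 K))⁰) :
    ∃ B : ℝ, ∀ s : ℝ, 1 < s → s ≤ 2 →
      |(torsionOrder K : ℝ) * partialZeta K (ClassGroup.mk0 J)⁻¹ s - ∑' b : 𝓞 K, fs K s b| ≤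
        B := by
  set m := Ideal.absNorm (J : Ideal (𝓞 K)) with hm
  have hm0 : m ≠ 0 := Ideal.absNorm_ne_zero_of_nonZeroDivisors J
  have hmJ : (m : 𝓞 K) ∈ (J : Ideal (𝓞 K)) := Ideal.absNorm_mem _
  obtain ⟨B₁, hB₁⟩ := exists_bound_indicator_sum hm0 (J : Ideal (𝓞 K)) hmJ
  obtain ⟨B₀, hB₀0, hB₀⟩ := exists_bound_totalSum (K := K)
  have hB₁0 : 0 ≤ B₁ := (abs_nonneg _).trans (hB₁ 2 (by norm_num) le_rfl)
  set n := Module.finrank ℚ K with hn
  set k := Nat.card {q : 𝓞 K ⧸ Ideal.span {(m : 𝓞 K)} //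
    Quotient.out q ∈ (J : Ideal (𝓞 K))} with hk
  have hkm : k * m = m ^ n := card_cosets_mul_absNorm (J : Ideal (𝓞 K)) hmJ
  have hk0 : k ≠ 0 := by
    intro h0
    rw [h0, zero_mul] at hkm
    exact (pow_ne_zero n hm0) hkm.symm
  have hk1 : (1 : ℝ) ≤ k := by exact_mod_cast Nat.one_le_iff_ne_zero.mpr hk0
  have hm1 : (1 : ℝ) ≤ m := by exact_mod_cast Nat.one_le_iff_ne_zero.mpr hm0
  have hkmR : ((m : ℝ) ^ n) = (k : ℝ) * (m : ℝ) := by exact_mod_cast hkm.symm
  refine ⟨(m : ℝ) ^ 2 * B₁ + Real.log k * B₀, fun s hs1 hs2 ↦ ?_⟩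
  have hu := (unfolding_partialZeta J hs1).2
  have h := hB₁ s hs1 hs2
  rw [hu, hkmR, Real.mul_rpow (by linarith) (by linarith)] at h
  set Z : ℝ := partialZeta K (ClassGroup.mk0 J)⁻¹ s with hZ
  set S : ℝ := ∑' b : 𝓞 K, fs K s b with hS
  have hS0 : 0 ≤ S := tsum_fs_nonneg s
  have hw : (0 : ℝ) < torsionOrder K := Nat.cast_pos.mpr (torsionOrder_pos K)
  have hms : (0 : ℝ) < (m : ℝ) ^ (-s) := Real.rpow_pos_of_pos (by linarith) _
  -- factor out `m^(-s)`
  have e1 : (torsionOrder K : ℝ) * ((m : ℝ) ^ (-s) * Z) -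
      (k : ℝ) * ((k : ℝ) ^ (-s) * (m : ℝ) ^ (-s) * S) =
      (m : ℝ) ^ (-s) * ((torsionOrder K : ℝ) * Z - (k : ℝ) * (k : ℝ) ^ (-s) * S) := by ring
  rw [e1, abs_mul, abs_of_pos hms] at h
  have hms2 : (m : ℝ) ^ s ≤ (m : ℝ) ^ 2 := by
    have := Real.rpow_le_rpow_of_exponent_le hm1 hs2
    rwa [Real.rpow_two] at this
  have hmm : (m : ℝ) ^ s * (m : ℝ) ^ (-s) = 1 := by
    rw [← Real.rpow_add (by linarith), add_neg_cancel, Real.rpow_zero]
  have h1 : |(torsionOrder K : ℝ) * Z - (k : ℝ) * (k : ℝ) ^ (-s) * S| ≤ (m : ℝ) ^ 2 * B₁ := by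
    have h2 : |(torsionOrder K : ℝ) * Z - (k : ℝ) * (k : ℝ) ^ (-s) * S| =
        (m : ℝ) ^ s * ((m : ℝ) ^ (-s) *
          |(torsionOrder K : ℝ) * Z - (k : ℝ) * (k : ℝ) ^ (-s) * S|) := by
      rw [← mul_assoc, hmm, one_mul]
    rw [h2]
    exact mul_le_mul hms2 h (by positivity) (by positivity)
  -- the factor `k * k^(-s)`
  have hkk : (k : ℝ) * (k : ℝ) ^ (-s) = Real.exp (-((s - 1) * Real.log k)) :=
    mul_rpow_neg_eq_exp (by linarith) s
  have hlogk : 0 ≤ Real.log k := Real.log_nonneg hk1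
  have h3 : |(k : ℝ) * (k : ℝ) ^ (-s) * S - S| ≤ Real.log k * B₀ := by
    rw [hkk]
    have h4 : Real.exp (-((s - 1) * Real.log k)) ≤ 1 := by
      rw [Real.exp_le_one_iff]
      have : 0 ≤ (s - 1) * Real.log k := mul_nonneg (by linarith) hlogk
      linarith
    have e2 : Real.exp (-((s - 1) * Real.log k)) * S - S =
        -((1 - Real.exp (-((s - 1) * Real.log k))) * S) := by ring
    rw [e2, abs_neg, abs_of_nonneg (mul_nonneg (by linarith) hS0)]
    calc (1 - Real.exp (-((s - 1) * Real.log k))) * S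
        ≤ ((s - 1) * Real.log k) * S :=
          mul_le_mul_of_nonneg_right (one_sub_exp_neg_le _) hS0
      _ = Real.log k * ((s - 1) * S) := by ring
      _ ≤ Real.log k * B₀ := mul_le_mul_of_nonneg_left (hB₀ s hs1 hs2) hlogk
  calc |(torsionOrder K : ℝ) * Z - S|
      = |((torsionOrder K : ℝ) * Z - (k : ℝ) * (k : ℝ) ^ (-s) * S) +
          ((k : ℝ) * (k : ℝ) ^ (-s) * S - S)| := by congr 1; ring
    _ ≤ |(torsionOrder K : ℝ) * Z - (k : ℝ) * (k : ℝ) ^ (-s) * S| +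
          |(k : ℝ) * (k : ℝ) ^ (-s) * S - S| := abs_add_le _ _
    _ ≤ (m : ℝ) ^ 2 * B₁ + Real.log k * B₀ := add_le_add h1 h3

/-- `(W1a)` The partial zeta function of an ideal class converges for `s > 1`. -/
theorem summable_partialZeta (C : ClassGroup (𝓞 K)) {s : ℝ} (hs : 1 < s) :
    Summable (fun I : {I : (Ideal (𝓞 K))⁰ // ClassGroup.mk0 I = C} ↦
        (Ideal.absNorm (I.1 : Ideal (𝓞 K)) : ℝ) ^ (-s)) := by
  obtain ⟨J, hJ⟩ := ClassGroup.mk0_surjective C⁻¹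
  have h := (unfolding_partialZeta J hs).1
  rw [hJ, inv_inv] at h
  exact h

/-- `(W1c)` **Weber bound, analytic core**: the partial zeta functions of two ideal classes of a
number field differ by a bounded function on `(1,2]`. -/
theorem exists_bound_partialZeta_sub (C C' : ClassGroup (𝓞 K)) :
    ∃ B : ℝ, ∀ s : ℝ, 1 < s → s ≤ 2 → |partialZeta K C s - partialZeta K C' s| ≤ B := by
  obtain ⟨J, hJ⟩ := ClassGroup.mk0_surjective C⁻¹
  obtain ⟨J', hJ'⟩ := ClassGroup.mk0_surjective C'⁻¹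
  obtain ⟨B, hB⟩ := exists_bound_partialZeta_sub_totalSum J
  obtain ⟨B', hB'⟩ := exists_bound_partialZeta_sub_totalSum J'
  rw [hJ, inv_inv] at hB
  rw [hJ', inv_inv] at hB'
  have hw : (0 : ℝ) < torsionOrder K := Nat.cast_pos.mpr (torsionOrder_pos K)
  refine ⟨(B + B') / torsionOrder K, fun s hs1 hs2 ↦ ?_⟩
  have h1 := hB s hs1 hs2
  have h2 := hB' s hs1 hs2
  rw [le_div_iff₀ hw, mul_comm, ← abs_of_pos hw, ← abs_mul]
  have e : (torsionOrder K : ℝ) * (partialZeta K C s - partialZeta K C' s) =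
      ((torsionOrder K : ℝ) * partialZeta K C s - ∑' b : 𝓞 K, fs K s b) -
      ((torsionOrder K : ℝ) * partialZeta K C' s - ∑' b : 𝓞 K, fs K s b) := by ring
  rw [e]
  exact (abs_sub _ _).trans (add_le_add h1 h2)

/-- `(W1b)` The partial zeta function of an ideal class has at most a simple pole at `1`. -/
theorem exists_bound_sub_one_mul_partialZeta (C : ClassGroup (𝓞 K)) :
    ∃ B : ℝ, ∀ s : ℝ, 1 < s → s ≤ 2 → (s - 1) * partialZeta K C s ≤ B := by
  obtain ⟨J, hJ⟩ := ClassGroup.mk0_surjective C⁻¹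
  obtain ⟨B, hB⟩ := exists_bound_partialZeta_sub_totalSum J
  rw [hJ, inv_inv] at hB
  obtain ⟨B₀, hB₀0, hB₀⟩ := exists_bound_totalSum (K := K)
  have hw : (0 : ℝ) < torsionOrder K := Nat.cast_pos.mpr (torsionOrder_pos K)
  have hB0 : 0 ≤ B := (abs_nonneg _).trans (hB 2 (by norm_num) le_rfl)
  refine ⟨(B₀ + B) / torsionOrder K, fun s hs1 hs2 ↦ ?_⟩
  have h1 := (abs_le.mp (hB s hs1 hs2)).2
  have h2 := hB₀ s hs1 hs2
  rw [le_div_iff₀ hw]
  have h3 : (s - 1) * ((torsionOrder K : ℝ) * partialZeta K C s) ≤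
      (s - 1) * (∑' b : 𝓞 K, fs K s b + B) :=
    mul_le_mul_of_nonneg_left (by linarith) (by linarith)
  have h4 : (s - 1) * B ≤ B := mul_le_of_le_one_left hB0 (by linarith)
  calc (s - 1) * partialZeta K C s * (torsionOrder K : ℝ)
      = (s - 1) * ((torsionOrder K : ℝ) * partialZeta K C s) := by ring
    _ ≤ (s - 1) * (∑' b : 𝓞 K, fs K s b + B) := h3
    _ = (s - 1) * ∑' b : 𝓞 K, fs K s b + (s - 1) * B := by ring
    _ ≤ B₀ + B := add_le_add h2 h4

/-- The partial zeta function is nonnegative. -/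
theorem partialZeta_nonneg (C : ClassGroup (𝓞 K)) (s : ℝ) : 0 ≤ partialZeta K C s :=
  tsum_nonneg fun _ ↦ Real.rpow_nonneg (Nat.cast_nonneg _) _

/-- **Bounded `L`-functions (real form)**: if `∑_C c(C) = 0` then `∑_C c(C) * partialZeta K C s`
is bounded on `(1,2]`. -/
theorem exists_bound_sum_mul_partialZeta (c : ClassGroup (𝓞 K) → ℝ) (hc : ∑ C, c C = 0) :
    ∃ B : ℝ, ∀ s : ℝ, 1 < s → s ≤ 2 → |∑ C, c C * partialZeta K C s| ≤ B := by
  choose B hB using fun C : ClassGroup (𝓞 K) ↦ exists_bound_partialZeta_sub C 1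
  refine ⟨∑ C, |c C| * B C, fun s hs1 hs2 ↦ ?_⟩
  have e : ∑ C, c C * partialZeta K C s =
      ∑ C, c C * (partialZeta K C s - partialZeta K 1 s) := by
    simp_rw [mul_sub]
    rw [Finset.sum_sub_distrib, ← Finset.sum_mul, hc, zero_mul, sub_zero]
  rw [e]
  refine (Finset.abs_sum_le_sum_abs _ _).trans (Finset.sum_le_sum fun C _ ↦ ?_)
  rw [abs_mul]
  exact mul_le_mul_of_nonneg_left (hB C s hs1 hs2) (abs_nonneg _)

/-- **Bounded `L`-functions (complex form)**: if `∑_C ψ(C) = 0` (e.g. `ψ` a nontrivial character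
of the class group) then `∑_C ψ(C) * partialZeta K C s` is bounded on `(1,2]`. -/
theorem exists_bound_norm_sum_mul_partialZeta (ψ : ClassGroup (𝓞 K) → ℂ) (hψ : ∑ C, ψ C = 0) :
    ∃ B : ℝ, ∀ s : ℝ, 1 < s → s ≤ 2 → ‖∑ C, ψ C * (partialZeta K C s : ℂ)‖ ≤ B := by
  choose B hB using fun C : ClassGroup (𝓞 K) ↦ exists_bound_partialZeta_sub C 1
  refine ⟨∑ C, ‖ψ C‖ * B C, fun s hs1 hs2 ↦ ?_⟩
  have e : ∑ C, ψ C * (partialZeta K C s : ℂ) =
      ∑ C, ψ C * ((partialZeta K C s - partialZeta K 1 s : ℝ) : ℂ) := by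
    simp_rw [Complex.ofReal_sub, mul_sub]
    rw [Finset.sum_sub_distrib, ← Finset.sum_mul, hψ, zero_mul, sub_zero]
  rw [e]
  refine (norm_sum_le _ _).trans (Finset.sum_le_sum fun C _ ↦ ?_)
  rw [norm_mul, Complex.norm_real, Real.norm_eq_abs]
  exact mul_le_mul_of_nonneg_left (hB C s hs1 hs2) (norm_nonneg _)

end Fermat.Agent.S14.helper5066
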