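import Mathlib
import Fermat.Agent.S14.helper14_Spec

/-!
# S14 / M2b : weak Chebotarev for multi-Kummer extensions (`helper14.Stmt_WCKummer`)

Author: helper554.

* `kummer_step`, `kummer_step_adjoin` : one-step Kummer lemma (`x ∈ E` a `p`-th power in
  `E(a^(1/p))` implies `x = a ^ i * c ^ p`).
* `kummer_independence` : `b ∈ F` a `p`-th power in `F(as^(1/p))` implies `b ∈ ⟨as⟩ F^p`.
* `exists_pow_eq_of_pow_eq_one`, `prime_dvd_natCard_sub_one` : finite-field facts.
* `exists_div_repr` : `v`-integral elements are fractions with denominator prime to `v`.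
* `absNorm_under_eq` : a prime of prime norm lies over a prime of the same norm.
* `stmt_WCKummer_of` : `Stmt_KummerPrime p → helper14.Stmt_WCKummer p`.
-/

set_option autoImplicit false

namespace Fermat.Agent.S14.helper554

open NumberField IsDedekindDomain Polynomial IntermediateField

/-! ### Kummer independence -/

/-- **One-step Kummer lemma.** `E` a field containing a primitive `p`-th root of unity (`p` prime),
`L = E(θ)` with `θ ^ p = a ∈ E`.  If `x ∈ E` is a `p`-th power in `L` then `x = a ^ i * c ^ p`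
with `c ∈ E`. -/
theorem kummer_step {E L : Type*} [Field E] [Field L] [Algebra E L]
    {p : ℕ} (hp : p.Prime) {ζ : E} (hζ : IsPrimitiveRoot ζ p)
    {a : E} {θ : L} (hθ : θ ^ p = algebraMap E L a) (hgen : E⟮θ⟯ = ⊤)
    {x : E} {y : L} (hy : y ^ p = algebraMap E L x) :
    ∃ (i : ℕ) (c : E), x = a ^ i * c ^ p := by
  classical
  have hpne : NeZero p := ⟨hp.ne_zero⟩
  have hζL : IsPrimitiveRoot (algebraMap E L ζ) p := hζ.map_of_injective (algebraMap E L).injective
  by_cases hr : ∃ t : E, t ^ p = a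
  · -- `θ ∈ E`, so `L = E`
    obtain ⟨t, ht⟩ := hr
    have hθmem : θ ∈ (⊥ : IntermediateField E L) := by
      rw [IntermediateField.mem_bot]
      by_cases ht0 : t = 0
      · subst ht0
        rw [zero_pow hp.ne_zero] at ht
        rw [← ht, map_zero] at hθ
        exact ⟨0, by rw [map_zero]; exact (pow_eq_zero_iff hp.ne_zero).mp hθ |>.symm⟩
      · have htL : algebraMap E L t ≠ 0 := by simpa using ht0
        have h1 : (θ / algebraMap E L t) ^ p = 1 := by
          rw [div_pow, hθ, ← ht, map_pow, div_self (pow_ne_zero _ htL)]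
        obtain ⟨j, -, hj⟩ := hζL.eq_pow_of_pow_eq_one h1
        refine ⟨ζ ^ j * t, ?_⟩
        rw [map_mul, map_pow, hj, div_mul_cancel₀ _ htL]
    have htop : (⊥ : IntermediateField E L) = ⊤ := by
      rw [← hgen]; exact (adjoin_simple_eq_bot_iff.mpr hθmem).symm
    have hymem : y ∈ (⊥ : IntermediateField E L) := htop ▸ IntermediateField.mem_top
    obtain ⟨c, rfl⟩ := IntermediateField.mem_bot.mp hymem
    refine ⟨0, c, ?_⟩
    apply (algebraMap E L).injective
    rw [pow_zero, one_mul, map_pow, hy]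
  · push Not at hr
    have ha0 : a ≠ 0 := fun h => hr 0 (by rw [zero_pow hp.ne_zero, h])
    have hθ0 : θ ≠ 0 := by
      intro h
      rw [h, zero_pow hp.ne_zero] at hθ
      exact ha0 ((algebraMap E L).injective (by rw [← hθ, map_zero]))
    have H : Irreducible (X ^ p - C a) := X_pow_sub_C_irreducible_of_prime hp hr
    have hprim : (primitiveRoots p E).Nonempty := ⟨ζ, (mem_primitiveRoots hp.pos).mpr hζ⟩
    have hsf : IsSplittingField E L (X ^ p - C a) := by
      constructor
      · rw [Polynomial.map_sub, Polynomial.map_pow, Polynomial.map_C, Polynomial.map_X]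
        exact X_pow_sub_C_splits_of_isPrimitiveRoot hζL hθ
      · have halg : IsAlgebraic E θ := by
          refine ⟨X ^ p - C a, X_pow_sub_C_ne_zero hp.pos a, ?_⟩
          simp [hθ]
        rw [eq_top_iff, ← IntermediateField.top_toSubalgebra, ← hgen,
          IntermediateField.adjoin_simple_toSubalgebra_of_isAlgebraic halg]
        apply Algebra.adjoin_mono
        rw [Set.singleton_subset_iff, mem_rootSet_of_ne (X_pow_sub_C_ne_zero hp.pos a),
          aeval_def, eval₂_sub, eval₂_X_pow, eval₂_C, hθ, sub_self]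
    have hfd : FiniteDimensional E L := Polynomial.IsSplittingField.finiteDimensional L (X ^ p - C a)
    have hGal : IsGalois E L := isGalois_of_isSplittingField_X_pow_sub_C hprim H L
    by_cases hy0 : y = 0
    · refine ⟨0, 0, ?_⟩
      apply (algebraMap E L).injective
      rw [← hy, hy0, zero_pow hp.ne_zero, zero_pow hp.ne_zero, mul_zero, map_zero]
    -- the generator `σ` of the Galois group
    have hσθ : ∀ m : ℕ, (autEquivZmod H L hζ).symm (Multiplicative.ofAdd (m : ZMod p)) θ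
        = ζ ^ m • θ := fun m => autEquivZmod_symm_apply_natCast H L hθ hζ m
    set σ := (autEquivZmod H L hζ).symm (Multiplicative.ofAdd ((1 : ℕ) : ZMod p)) with hσdef
    have hσ1 : σ θ = algebraMap E L ζ * θ := by
      rw [hσdef, hσθ 1, pow_one, Algebra.smul_def]
    have hσy : (σ y / y) ^ p = 1 := by
      rw [div_pow, ← map_pow, hy, AlgEquiv.commutes, ← hy, div_self (pow_ne_zero _ hy0)]
    obtain ⟨j, -, hj⟩ := hζL.eq_pow_of_pow_eq_one hσy
    have hσy' : σ y = algebraMap E L ζ ^ j * y := by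
      rw [hj, div_mul_cancel₀ _ hy0]
    -- `y / θ ^ j` is fixed by `σ`
    have hfix : σ (y / θ ^ j) = y / θ ^ j := by
      rw [map_div₀, map_pow, hσy', hσ1, mul_pow]
      have : algebraMap E L ζ ^ j ≠ 0 := pow_ne_zero _ (hζL.ne_zero hp.ne_zero)
      field_simp
    -- hence by the whole Galois group
    have hall : ∀ τ : L ≃ₐ[E] L, τ (y / θ ^ j) = y / θ ^ j := by
      intro τ
      obtain ⟨m, hm⟩ : ∃ m : ℕ, τ = σ ^ m := by
        refine ⟨((autEquivZmod H L hζ) τ).toAdd.val, ?_⟩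
        apply (autEquivZmod H L hζ).injective
        rw [map_pow, hσdef, MulEquiv.apply_symm_apply, ← ofAdd_nsmul]
        simp
      rw [hm]
      clear hm
      induction m with
      | zero => simp
      | succ m ih => rw [pow_succ, AlgEquiv.mul_apply, hfix, ih]
    obtain ⟨c, hc⟩ := (IsGalois.mem_range_algebraMap_iff_fixed (y / θ ^ j)).mpr hall
    refine ⟨j, c, ?_⟩
    apply (algebraMap E L).injective
    have hyc : y = algebraMap E L c * θ ^ j := by
      rw [hc, div_mul_cancel₀ _ (pow_ne_zero _ hθ0)]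
    rw [← hy, hyc, mul_pow, ← pow_mul, mul_comm j p, pow_mul, hθ, map_mul, map_pow, map_pow,
      mul_comm]


/-- The one-step Kummer lemma inside an ambient field. -/
theorem kummer_step_adjoin {E Ω : Type*} [Field E] [Field Ω] [Algebra E Ω]
    {p : ℕ} (hp : p.Prime) {ζ : E} (hζ : IsPrimitiveRoot ζ p)
    {a : E} {θ : Ω} (hθ : θ ^ p = algebraMap E Ω a)
    {x : E} {y : Ω} (hyE : y ∈ E⟮θ⟯) (hy : y ^ p = algebraMap E Ω x) :
    ∃ (i : ℕ) (c : E), x = a ^ i * c ^ p := by
  refine kummer_step (L := E⟮θ⟯) hp hζ (θ := AdjoinSimple.gen E θ) ?_ ?_ (y := ⟨y, hyE⟩) ?_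
  · apply Subtype.ext
    simpa using hθ
  · apply IntermediateField.lift_injective
    rw [lift_adjoin_simple, lift_top]
    rfl
  · apply Subtype.ext
    simpa using hy

/-- **Kummer independence.**  If `b ∈ F` is a `p`-th power in the field generated over `F` by all
`p`-th roots of the elements of the finite set `as`, then `b ∈ ⟨as⟩ · F^p`. -/
theorem kummer_independence {F Ω : Type*} [Field F] [Field Ω] [Algebra F Ω]
    {p : ℕ} (hp : p.Prime) {ζ : F} (hζ : IsPrimitiveRoot ζ p) (as : Finset F)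
    (has : ∀ a ∈ as, a ≠ 0) (b : F) (y : Ω)
    (hyE : y ∈ adjoin F {θ : Ω | ∃ a ∈ as, θ ^ p = algebraMap F Ω a})
    (hy : y ^ p = algebraMap F Ω b) :
    ∃ (e : F → ℕ) (c : F), b = (∏ a ∈ as, a ^ e a) * c ^ p := by
  classical
  have hpne : NeZero p := ⟨hp.ne_zero⟩
  induction as using Finset.induction_on generalizing b y with
  | empty =>
    have hemp : {θ : Ω | ∃ a ∈ (∅ : Finset F), θ ^ p = algebraMap F Ω a} = ∅ := by
      ext θ; simp
    rw [hemp, adjoin_empty] at hyE
    obtain ⟨c, rfl⟩ := IntermediateField.mem_bot.mp hyE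
    refine ⟨fun _ => 0, c, ?_⟩
    apply (algebraMap F Ω).injective
    simp [← hy]
  | insert a₀ s ha₀ ih =>
    have has' : ∀ a ∈ s, a ≠ 0 := fun a ha => has a (Finset.mem_insert_of_mem ha)
    have ha₀0 : a₀ ≠ 0 := has a₀ (Finset.mem_insert_self _ _)
    set R : Set Ω := {θ : Ω | ∃ a ∈ s, θ ^ p = algebraMap F Ω a} with hR
    -- it suffices to find `i`, `e`, `c` with `b = a₀ ^ i * (∏ a ∈ s, a ^ e a) * c ^ p`
    suffices h : ∃ (i : ℕ) (e : F → ℕ) (c : F), b = a₀ ^ i * ((∏ a ∈ s, a ^ e a) * c ^ p) by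
      obtain ⟨i, e, c, hb⟩ := h
      refine ⟨Function.update e a₀ i, c, ?_⟩
      rw [Finset.prod_insert ha₀, Function.update_self, hb, mul_assoc]
      congr 2
      refine Finset.prod_congr rfl fun a ha => ?_
      rw [Function.update_of_ne (ne_of_mem_of_not_mem ha ha₀)]
    by_cases hroot : ∃ θ₀ : Ω, θ₀ ^ p = algebraMap F Ω a₀
    · obtain ⟨θ₀, hθ₀⟩ := hroot
      have hθ₀0 : θ₀ ≠ 0 := by
        intro h
        rw [h, zero_pow hp.ne_zero] at hθ₀
        exact ha₀0 ((algebraMap F Ω).injective (by rw [← hθ₀, map_zero]))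
      have hζΩ : IsPrimitiveRoot (algebraMap F Ω ζ) p :=
        hζ.map_of_injective (algebraMap F Ω).injective
      have hle : adjoin F {θ : Ω | ∃ a ∈ insert a₀ s, θ ^ p = algebraMap F Ω a} ≤
          (adjoin (adjoin F R) {θ₀}).restrictScalars F := by
        rw [adjoin_adjoin_left, adjoin_le_iff]
        rintro θ ⟨a, ha, hθ⟩
        rcases Finset.mem_insert.mp ha with rfl | ha
        · have h1 : (θ / θ₀) ^ p = 1 := by
            rw [div_pow, hθ, hθ₀, div_self]
            rw [← hθ₀]; exact pow_ne_zero _ hθ₀0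
          obtain ⟨j, -, hj⟩ := hζΩ.eq_pow_of_pow_eq_one h1
          have hθeq : θ = algebraMap F Ω (ζ ^ j) * θ₀ := by
            rw [map_pow, hj, div_mul_cancel₀ _ hθ₀0]
          rw [hθeq]
          exact mul_mem (IntermediateField.algebraMap_mem _ _)
            (subset_adjoin F _ (Set.mem_union_right _ (Set.mem_singleton _)))
        · exact subset_adjoin F _ (Set.mem_union_left _ ⟨a, ha, hθ⟩)
      have hy' : y ∈ adjoin (adjoin F R) {θ₀} := hle hyE
      have hζE : IsPrimitiveRoot (algebraMap F (adjoin F R) ζ) p :=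
        hζ.map_of_injective (algebraMap F (adjoin F R)).injective
      obtain ⟨i, c, hc⟩ := kummer_step_adjoin (E := adjoin F R) (Ω := Ω) hp hζE
        (a := algebraMap F (adjoin F R) a₀) (θ := θ₀) (by rw [hθ₀]; rfl)
        (x := algebraMap F (adjoin F R) b) (y := y) hy' (by rw [hy]; rfl)
      -- `c ^ p = b / a₀ ^ i`
      have hcp : (c : Ω) ^ p = algebraMap F Ω (b / a₀ ^ i) := by
        have h2 := congrArg (fun z : adjoin F R => (z : Ω)) hc
        simp only [MulMemClass.coe_mul, SubmonoidClass.coe_pow] at h2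
        have h3 : ((algebraMap F (adjoin F R) b : adjoin F R) : Ω) = algebraMap F Ω b := rfl
        have h4 : ((algebraMap F (adjoin F R) a₀ : adjoin F R) : Ω) = algebraMap F Ω a₀ := rfl
        rw [h3, h4] at h2
        rw [map_div₀, map_pow, h2, mul_div_cancel_left₀]
        exact pow_ne_zero _ (by simpa using ha₀0)
      obtain ⟨e, c', hb⟩ := ih has' (b / a₀ ^ i) (c : Ω) c.2 hcp
      refine ⟨i, e, c', ?_⟩
      rw [← hb, mul_div_cancel₀ _ (pow_ne_zero _ ha₀0)]
    · have hset : {θ : Ω | ∃ a ∈ insert a₀ s, θ ^ p = algebraMap F Ω a} = R := by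
        ext θ
        constructor
        · rintro ⟨a, ha, hθ⟩
          rcases Finset.mem_insert.mp ha with rfl | ha
          · exact absurd ⟨θ, hθ⟩ hroot
          · exact ⟨a, ha, hθ⟩
        · rintro ⟨a, ha, hθ⟩
          exact ⟨a, Finset.mem_insert_of_mem ha, hθ⟩
      rw [hset] at hyE
      obtain ⟨e, c, hb⟩ := ih has' b y hyE hy
      exact ⟨0, e, c, by rw [pow_zero, one_mul, hb]⟩


/-! ### Finite fields -/

section FiniteField

variable {K : Type*} [Field K] [Finite K]

theorem pow_natCard_sub_one_eq_one {x : K} (hx : x ≠ 0) : x ^ (Nat.card K - 1) = 1 := by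
  classical
  let _ := Fintype.ofFinite K
  have h := FiniteField.pow_card_sub_one_eq_one x hx
  rwa [← Nat.card_eq_fintype_card] at h

/-- `p`-th power criterion in a finite field with `#K - 1 = p * k`. -/
theorem exists_pow_eq_of_pow_eq_one {p k : ℕ} (hk : Nat.card K - 1 = p * k)
    {u : K} (hu : u ≠ 0) (huk : u ^ k = 1) : ∃ g : K, g ^ p = u := by
  classical
  obtain ⟨γ, hγ⟩ := IsCyclic.exists_monoid_generator (α := Kˣ)
  have hord : orderOf γ = p * k := by
    rw [orderOf_eq_card_of_forall_mem_powers hγ, Nat.card_units, hk]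
  obtain ⟨j, hj⟩ := hγ (Units.mk0 u hu)
  replace hj : γ ^ j = Units.mk0 u hu := hj
  have hk0 : k ≠ 0 := by
    rintro rfl
    rw [mul_zero] at hord
    exact (orderOf_pos γ).ne' hord
  have h1 : γ ^ (j * k) = 1 := by
    rw [pow_mul, hj]
    apply Units.ext
    rw [Units.val_pow_eq_pow_val, Units.val_mk0, Units.val_one, huk]
  have hdvd : p ∣ j := by
    have := orderOf_dvd_of_pow_eq_one h1
    rw [hord] at this
    exact Nat.dvd_of_mul_dvd_mul_right (Nat.pos_of_ne_zero hk0) this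
  obtain ⟨j', rfl⟩ := hdvd
  refine ⟨((γ ^ j' : Kˣ) : K), ?_⟩
  rw [← Units.val_pow_eq_pow_val, ← pow_mul, mul_comm j' p, hj, Units.val_mk0]

/-- If a finite field contains a nontrivial `p`-th root of unity then `p ∣ #K - 1`. -/
theorem prime_dvd_natCard_sub_one {p : ℕ} (hp : p.Prime) {z : K} (hz : z ^ p = 1) (hz1 : z ≠ 1) :
    p ∣ Nat.card K - 1 := by
  have : Fact p.Prime := ⟨hp⟩
  have hz0 : z ≠ 0 := by
    rintro rfl
    rw [zero_pow hp.ne_zero] at hz
    exact zero_ne_one hz
  rw [← orderOf_eq_prime hz hz1]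
  exact orderOf_dvd_of_pow_eq_one (pow_natCard_sub_one_eq_one hz0)

end FiniteField

/-! ### Valuations at a prime of a number field -/

section Val

variable {F : Type*} [Field F] [NumberField F] (v : HeightOneSpectrum (𝓞 F))

theorem valuation_div_eq_one {n d : 𝓞 F} (hn : n ∉ v.asIdeal) (hd : d ∉ v.asIdeal) :
    v.valuation F ((n : F) / (d : F)) = 1 := by
  rw [map_div₀, (v.valuation_eq_one_iff_notMem (K := F)).mpr hn,
    (v.valuation_eq_one_iff_notMem (K := F)).mpr hd, div_one]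

theorem valuation_div_lt_one_iff {s t : 𝓞 F} (ht : t ∉ v.asIdeal) :
    v.valuation F ((s : F) / (t : F)) < 1 ↔ s ∈ v.asIdeal := by
  rw [map_div₀, (v.valuation_eq_one_iff_notMem (K := F)).mpr ht, div_one,
    HeightOneSpectrum.valuation_lt_one_iff_mem]

/-- An element of `F` which is integral at `v` is a fraction with denominator prime to `v`. -/
theorem exists_div_repr (x : F) (hx : v.valuation F x ≤ 1) :
    ∃ s t : 𝓞 F, t ∉ v.asIdeal ∧ x = (s : F) / (t : F) := by
  classical
  obtain ⟨n, d, hd, rfl⟩ := IsFractionRing.div_surjective (A := 𝓞 F) x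
  have hd0 : d ≠ 0 := nonZeroDivisors.ne_zero hd
  have hspan : Ideal.span {d} ≠ (⊥ : Ideal (𝓞 F)) := by
    rwa [Ne, Ideal.span_singleton_eq_bot]
  have hfin : FiniteMultiplicity v.asIdeal (Ideal.span {d}) :=
    FiniteMultiplicity.of_prime_left v.prime hspan
  obtain ⟨𝔠, hdeq, hndvd⟩ := hfin.exists_eq_pow_mul_and_not_dvd
  set k := multiplicity v.asIdeal (Ideal.span {d}) with hk
  -- an element of `𝔠` outside `v`
  have hnle : ¬ 𝔠 ≤ v.asIdeal := fun h => hndvd (Ideal.dvd_iff_le.mpr h)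
  obtain ⟨c₀, hc₀, hc₀v⟩ := SetLike.not_le_iff_exists.mp hnle
  -- `n ∈ v ^ k`
  have hvd : v.intValuation d ≤ WithZero.exp (-(k : ℤ)) := by
    rw [HeightOneSpectrum.intValuation_le_pow_iff_dvd, hdeq]
    exact Dvd.intro _ rfl
  have hvd0 : v.valuation F (d : F) ≠ 0 := by
    rw [Valuation.ne_zero_iff]
    exact RingOfIntegers.coe_ne_zero_iff.mpr hd0
  have hvn : v.intValuation n ≤ WithZero.exp (-(k : ℤ)) := by
    rw [map_div₀, div_le_one₀ (zero_lt_iff.mpr hvd0)] at hx
    rw [HeightOneSpectrum.valuation_of_algebraMap, HeightOneSpectrum.valuation_of_algebraMap] at hx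
    exact hx.trans hvd
  have hn : n ∈ v.asIdeal ^ k := by
    rw [HeightOneSpectrum.intValuation_le_pow_iff_dvd, Ideal.dvd_span_singleton] at hvn
    exact hvn
  have hmem : c₀ * n ∈ Ideal.span {d} := by
    rw [hdeq, mul_comm (v.asIdeal ^ k)]
    exact Ideal.mul_mem_mul hc₀ hn
  obtain ⟨s, hs⟩ := Ideal.mem_span_singleton'.mp hmem
  refine ⟨s, c₀, hc₀v, ?_⟩
  have hc₀0 : (c₀ : F) ≠ 0 := by
    have : c₀ ≠ 0 := fun h => hc₀v (h ▸ Ideal.zero_mem _)
    exact RingOfIntegers.coe_ne_zero_iff.mpr this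
  have hd0' : (d : F) ≠ 0 := RingOfIntegers.coe_ne_zero_iff.mpr hd0
  rw [div_eq_div_iff hd0' hc₀0]
  have := congrArg (algebraMap (𝓞 F) F) hs
  rw [map_mul, map_mul] at this
  rw [mul_comm, ← this, mul_comm]

end Val

/-! ### Descent of primes of degree one -/

section Descent

variable {F E : Type*} [Field F] [NumberField F] [Field E] [NumberField E] [Algebra F E]

theorem natCard_quot_eq_absNorm (I : Ideal (𝓞 F)) : Nat.card (𝓞 F ⧸ I) = Ideal.absNorm I := by
  rw [Ideal.absNorm_apply, Submodule.cardQuot_apply]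

/-- A prime of `E` of prime absolute norm lies over a prime of `F` of the same norm. -/
theorem absNorm_under_eq (w : HeightOneSpectrum (𝓞 E)) (hw : (Ideal.absNorm w.asIdeal).Prime) :
    Ideal.absNorm (w.under (𝓞 F)).asIdeal = Ideal.absNorm w.asIdeal := by
  have hfin : Finite (𝓞 E ⧸ w.asIdeal) :=
    Nat.finite_of_card_ne_zero (by rw [natCard_quot_eq_absNorm]; exact hw.ne_zero)
  let j : (𝓞 F ⧸ (w.under (𝓞 F)).asIdeal) →+* (𝓞 E ⧸ w.asIdeal) :=
    Ideal.quotientMap w.asIdeal (algebraMap (𝓞 F) (𝓞 E)) (le_of_eq rfl)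
  have hj : Function.Injective j := Ideal.quotientMap_injective' (le_of_eq rfl)
  have hdvd : Nat.card (𝓞 F ⧸ (w.under (𝓞 F)).asIdeal) ∣ Nat.card (𝓞 E ⧸ w.asIdeal) :=
    AddSubgroup.card_dvd_of_injective j.toAddMonoidHom hj
  rw [natCard_quot_eq_absNorm, natCard_quot_eq_absNorm] at hdvd
  rcases (Nat.dvd_prime hw).mp hdvd with h | h
  · exact absurd (Ideal.absNorm_eq_one_iff.mp h) (w.under (𝓞 F)).isPrime.ne_top
  · exact h

end Descent

/-! ### The main theorem -/

/-- Single-element Kummer form of the zeta lemma: if `b ∈ 𝓞 E` is not a `p`-th power (`E ∋ ζ_p`)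
then there is a prime `w` of prime norm, not containing the integer `m`, modulo which `b` is not
a `p`-th power. -/
def Stmt_KummerPrime (p : ℕ) : Prop :=
  ∀ (E : Type) [Field E] [NumberField E] (ζ : E), IsPrimitiveRoot ζ p →
    ∀ b : 𝓞 E, (¬ ∃ y : 𝓞 E, b = y ^ p) → ∀ m : ℕ, m ≠ 0 →
      ∃ w : HeightOneSpectrum (𝓞 E), (Ideal.absNorm w.asIdeal).Prime ∧
        (m : 𝓞 E) ∉ w.asIdeal ∧ ¬ ∃ y : 𝓞 E, b - y ^ p ∈ w.asIdeal

/-- **M2b (weak Chebotarev for multi-Kummer extensions).** -/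
theorem stmt_WCKummer_of (p : ℕ) (hp : p.Prime) (hZ : Stmt_KummerPrime p) :
    helper14.Stmt_WCKummer p := by
  intro F _ _ ζ hζ as b has hb hnot B
  classical
  have hpne : NeZero p := ⟨hp.ne_zero⟩
  obtain ⟨p', hp'⟩ : ∃ p' : ℕ, p = p' + 1 := ⟨p - 1, (Nat.succ_pred_eq_of_pos hp.pos).symm⟩
  -- numerators and denominators
  have hfrac : ∀ x : F, ∃ n d : 𝓞 F, d ≠ 0 ∧ x = (n : F) / (d : F) := by
    intro x
    obtain ⟨n, d, hd, rfl⟩ := IsFractionRing.div_surjective (A := 𝓞 F) x
    exact ⟨n, d, nonZeroDivisors.ne_zero hd, rfl⟩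
  choose num den hden hnd using hfrac
  have hdenF : ∀ x : F, (den x : F) ≠ 0 := fun x => RingOfIntegers.coe_ne_zero_iff.mpr (hden x)
  have hnum : ∀ x : F, x ≠ 0 → num x ≠ 0 := by
    intro x hx h
    apply hx
    rw [hnd x, h]
    simp
  have hkey : ∀ x : F, x * (den x : F) ^ p = (num x : F) * (den x : F) ^ (p - 1) := by
    intro x
    have hd := hdenF x
    calc x * (den x : F) ^ p = ((num x : F) / (den x : F)) * (den x : F) ^ p := by rw [← hnd x]
      _ = (num x : F) * (den x : F) ^ (p - 1) := by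
        rw [hp', Nat.add_sub_cancel, pow_succ]
        field_simp
  -- the Kummer field `E = F(as^(1/p))`
  let Ω := AlgebraicClosure F
  let R : Set Ω := {θ : Ω | ∃ a ∈ as, θ ^ p = algebraMap F Ω a}
  have hRfin : R.Finite := by
    refine Set.Finite.subset
      (Finset.finite_toSet (as.biUnion fun a => (nthRoots p (algebraMap F Ω a)).toFinset)) ?_
    rintro θ ⟨a, ha, hθ⟩
    simp only [Finset.coe_biUnion, Finset.mem_coe, Set.mem_iUnion, Multiset.mem_toFinset,
      exists_prop]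
    exact ⟨a, ha, (mem_nthRoots hp.pos).mpr hθ⟩
  have hRfin' : Finite R := hRfin.to_subtype
  let E : IntermediateField F Ω := adjoin F R
  have hfd : FiniteDimensional F E :=
    finiteDimensional_adjoin fun θ _ => Algebra.IsIntegral.isIntegral θ
  have hNF : NumberField E := NumberField.of_module_finite F E
  let ι : 𝓞 F →+* 𝓞 E := algebraMap (𝓞 F) (𝓞 E)
  have hι : ∀ x : 𝓞 F, ((ι x : 𝓞 E) : E) = algebraMap F E (x : F) := fun x => rfl
  -- integral `p`-th roots of the `a ∈ as`
  have hroot : ∀ a ∈ as, ∃ τ : 𝓞 E, τ ^ p = ι (num a * den a ^ (p - 1)) := by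
    intro a ha
    obtain ⟨θ, hθ⟩ := IsAlgClosed.exists_pow_nat_eq (algebraMap F Ω a) hp.pos
    have hθE : θ ∈ E := subset_adjoin F R ⟨a, ha, hθ⟩
    let θE : E := ⟨θ, hθE⟩ * algebraMap F E (den a : F)
    have hpow : θE ^ p = algebraMap F E ((num a * den a ^ (p - 1) : 𝓞 F) : F) := by
      apply Subtype.ext
      show (θ * algebraMap F Ω (den a : F)) ^ p = algebraMap F Ω _
      rw [mul_pow, hθ, ← map_pow, ← map_mul, hkey a]
      simp
    have hint : IsIntegral ℤ θE := by
      refine IsIntegral.of_pow hp.pos ?_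
      rw [hpow, ← hι]
      exact RingOfIntegers.isIntegral_coe _
    refine ⟨⟨θE, hint⟩, ?_⟩
    apply RingOfIntegers.ext
    rw [hι, ← hpow]
    rfl
  -- the integral version of `b` is not a `p`-th power in `E`
  have hbE : ¬ ∃ y : 𝓞 E, ι (num b * den b ^ (p - 1)) = y ^ p := by
    rintro ⟨y, hy⟩
    have hyE : (((y : E) : Ω)) ^ p = algebraMap F Ω ((num b * den b ^ (p - 1) : 𝓞 F) : F) := by
      have h1 := congrArg (fun z : 𝓞 E => ((z : E) : Ω)) hy
      simp only [map_pow] at h1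
      rw [← SubmonoidClass.coe_pow, ← h1, hι]
      rfl
    have hmem : ((y : E) : Ω) / algebraMap F Ω (den b : F) ∈ adjoin F R :=
      div_mem (y : E).2 (IntermediateField.algebraMap_mem _ _)
    have hpow : (((y : E) : Ω) / algebraMap F Ω (den b : F)) ^ p = algebraMap F Ω b := by
      rw [div_pow, hyE, ← map_pow, ← map_div₀]
      congr 1
      rw [div_eq_iff (pow_ne_zero _ (hdenF b)), hkey b]
      simp
    exact hnot (kummer_independence hp hζ as has b _ hmem hpow)
  -- the exclusion integer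
  let M : ℕ := p * (∏ v' ∈ B, Ideal.absNorm v'.asIdeal) *
    (∏ a ∈ as, Ideal.absNorm (Ideal.span {num a}) * Ideal.absNorm (Ideal.span {den a})) *
    (Ideal.absNorm (Ideal.span {num b}) * Ideal.absNorm (Ideal.span {den b}))
  have hspan0 : ∀ x : 𝓞 F, x ≠ 0 → Ideal.absNorm (Ideal.span {x}) ≠ 0 := by
    intro x hx
    rw [Ne, Ideal.absNorm_eq_zero_iff, Ideal.span_singleton_eq_bot]
    exact hx
  have hM0 : M ≠ 0 := by
    refine mul_ne_zero (mul_ne_zero (mul_ne_zero hp.ne_zero ?_) ?_) (mul_ne_zero ?_ ?_)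
    · refine Finset.prod_ne_zero_iff.mpr fun v' _ => ?_
      rw [Ne, Ideal.absNorm_eq_zero_iff]
      exact v'.ne_bot
    · refine Finset.prod_ne_zero_iff.mpr fun a ha => mul_ne_zero ?_ ?_
      · exact hspan0 _ (hnum a (has a ha))
      · exact hspan0 _ (hden a)
    · exact hspan0 _ (hnum b hb)
    · exact hspan0 _ (hden b)
  have hζE : IsPrimitiveRoot (algebraMap F E ζ) p :=
    hζ.map_of_injective (algebraMap F E).injective
  obtain ⟨w, hwprime, hMw, hwb⟩ := hZ E (algebraMap F E ζ) hζE _ hbE M hM0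
  -- the prime below
  set v : HeightOneSpectrum (𝓞 F) := w.under (𝓞 F) with hv
  have hvw : ∀ x : 𝓞 F, x ∈ v.asIdeal ↔ ι x ∈ w.asIdeal := fun x => Iff.rfl
  have hnormv : Ideal.absNorm v.asIdeal = Ideal.absNorm w.asIdeal := absNorm_under_eq w hwprime
  have hdvdM : ∀ f : ℕ, f ∣ M → (f : 𝓞 F) ∉ v.asIdeal := by
    rintro f ⟨g, hg⟩ hf
    apply hMw
    rw [hvw, map_natCast] at hf
    rw [hg, Nat.cast_mul]
    exact Ideal.mul_mem_right _ _ hf
  have hnotv : ∀ x : 𝓞 F, Ideal.absNorm (Ideal.span {x}) ∣ M → x ∉ v.asIdeal := by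
    intro x hx hxv
    refine hdvdM _ hx ?_
    have hle : Ideal.span {x} ≤ v.asIdeal := (Ideal.span_singleton_le_iff_mem _).mpr hxv
    exact hle (Ideal.absNorm_mem _)
  have hpM : p ∣ M := Dvd.dvd.mul_right (Dvd.dvd.mul_right (Dvd.intro _ rfl) _) _
  have hBM : ∀ v' ∈ B, Ideal.absNorm v'.asIdeal ∣ M := by
    intro v' hv'
    refine Dvd.dvd.mul_right (Dvd.dvd.mul_right (Dvd.dvd.mul_left ?_ _) _) _
    exact Finset.dvd_prod_of_mem _ hv'
  have hasM : ∀ a ∈ as, Ideal.absNorm (Ideal.span {num a}) ∣ M ∧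
      Ideal.absNorm (Ideal.span {den a}) ∣ M := by
    intro a ha
    have h1 : Ideal.absNorm (Ideal.span {num a}) * Ideal.absNorm (Ideal.span {den a}) ∣ M :=
      Dvd.dvd.mul_right (Dvd.dvd.mul_left
        (Finset.dvd_prod_of_mem (fun a => Ideal.absNorm (Ideal.span {num a}) *
          Ideal.absNorm (Ideal.span {den a})) ha) _) _
    exact ⟨(Dvd.intro _ rfl).trans h1, (Dvd.intro_left _ rfl).trans h1⟩
  have hbM : Ideal.absNorm (Ideal.span {num b}) ∣ M ∧ Ideal.absNorm (Ideal.span {den b}) ∣ M := by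
    have h1 : Ideal.absNorm (Ideal.span {num b}) * Ideal.absNorm (Ideal.span {den b}) ∣ M :=
      Dvd.intro_left _ rfl
    exact ⟨(Dvd.intro _ rfl).trans h1, (Dvd.intro_left _ rfl).trans h1⟩
  -- residue fields
  have hwmax : w.asIdeal.IsMaximal := w.isMaximal
  have hvmax : v.asIdeal.IsMaximal := v.isMaximal
  let _ := Ideal.Quotient.field w.asIdeal
  let _ := Ideal.Quotient.field v.asIdeal
  have hcardw : Nat.card (𝓞 E ⧸ w.asIdeal) = Ideal.absNorm w.asIdeal := natCard_quot_eq_absNorm _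
  have hcardv : Nat.card (𝓞 F ⧸ v.asIdeal) = Ideal.absNorm w.asIdeal := by
    rw [natCard_quot_eq_absNorm, hnormv]
  have hfinw : Finite (𝓞 E ⧸ w.asIdeal) :=
    Nat.finite_of_card_ne_zero (by rw [hcardw]; exact hwprime.ne_zero)
  have hfinv : Finite (𝓞 F ⧸ v.asIdeal) :=
    Nat.finite_of_card_ne_zero (by rw [hcardv]; exact hwprime.ne_zero)
  let qw : 𝓞 E →+* (𝓞 E ⧸ w.asIdeal) := Ideal.Quotient.mk w.asIdeal
  let qv : 𝓞 F →+* (𝓞 F ⧸ v.asIdeal) := Ideal.Quotient.mk v.asIdeal
  have hqw : ∀ x : 𝓞 E, qw x = 0 ↔ x ∈ w.asIdeal := fun x => Ideal.Quotient.eq_zero_iff_mem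
  have hqv : ∀ x : 𝓞 F, qv x = 0 ↔ x ∈ v.asIdeal := fun x => Ideal.Quotient.eq_zero_iff_mem
  -- `p ∣ ℓ - 1`
  have hpk : p ∣ Ideal.absNorm w.asIdeal - 1 := by
    let ζi : 𝓞 F := ⟨ζ, hζ.isIntegral hp.pos⟩
    have hζi : ζi ^ p = 1 := by
      apply RingOfIntegers.ext
      show (algebraMap (𝓞 F) F) (ζi ^ p) = (algebraMap (𝓞 F) F) 1
      rw [map_pow, map_one]
      exact hζ.pow_eq_one
    have hsum : ∑ i ∈ Finset.range p, ζi ^ i = 0 := by
      apply RingOfIntegers.ext
      show (algebraMap (𝓞 F) F) (∑ i ∈ Finset.range p, ζi ^ i) = (algebraMap (𝓞 F) F) 0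
      rw [map_sum, map_zero]
      simp only [map_pow]
      exact hζ.geom_sum_eq_zero hp.one_lt
    rw [← hcardv]
    refine prime_dvd_natCard_sub_one hp (z := qv ζi) (by rw [← map_pow, hζi, map_one]) ?_
    intro h1
    have h2 := congrArg qv hsum
    rw [map_sum, map_zero] at h2
    simp only [map_pow, h1, one_pow, Finset.sum_const, Finset.card_range, nsmul_eq_mul,
      mul_one] at h2
    apply hdvdM p hpM
    rw [← hqv, map_natCast]
    exact h2
  obtain ⟨k, hk⟩ := hpk
  have hkdiv : (Ideal.absNorm v.asIdeal - 1) / p = k := by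
    rw [hnormv, hk, Nat.mul_div_cancel_left k hp.pos]
  have hkw : Nat.card (𝓞 E ⧸ w.asIdeal) - 1 = p * k := by rw [hcardw, hk]
  have hkv : Nat.card (𝓞 F ⧸ v.asIdeal) - 1 = p * k := by rw [hcardv, hk]
  have hqwι : ∀ x : 𝓞 F, x ∉ v.asIdeal → qw (ι x) ≠ 0 := fun x hx h =>
    hx ((hvw x).mpr ((hqw _).mp h))
  refine ⟨v, ?_, ?_, ?_, ?_, ?_, ?_⟩
  · -- `v ∉ B`
    intro hvB
    exact hdvdM _ (hBM v hvB) (Ideal.absNorm_mem _)
  · rw [hnormv]; exact hwprime
  · exact hdvdM p hpM
  · -- the `a ∈ as`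
    intro a ha
    have hn : num a ∉ v.asIdeal := hnotv _ (hasM a ha).1
    have hd : den a ∉ v.asIdeal := hnotv _ (hasM a ha).2
    have hunit : helper14.UnitAt v a := by
      have := valuation_div_eq_one v hn hd
      rwa [← hnd a] at this
    refine ⟨hunit, 1, one_ne_zero, by simpa using hunit, ?_⟩
    show v.valuation F ((a / 1 ^ p) ^ ((Ideal.absNorm v.asIdeal - 1) / p) - ζ ^ (0 : ZMod p).val) < 1
    rw [hkdiv, ZMod.val_zero, pow_zero, one_pow, div_one]
    -- `num a ^ k - den a ^ k ∈ v`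
    obtain ⟨τ, hτ⟩ := hroot a ha
    have hτ' : qw τ ^ p = qw (ι (num a)) * qw (ι (den a)) ^ (p - 1) := by
      rw [← map_pow, hτ, map_mul, map_mul, map_pow, map_pow]
    have hn' := hqwι _ hn
    have hd' := hqwι _ hd
    have hτ0 : qw τ ≠ 0 := by
      intro h
      rw [h, zero_pow hp.ne_zero] at hτ'
      exact mul_ne_zero hn' (pow_ne_zero _ hd') hτ'.symm
    have e1 : (qw (ι (num a)) * qw (ι (den a)) ^ (p - 1)) ^ k = 1 := by
      rw [← hτ', ← pow_mul, ← hkw]
      exact pow_natCard_sub_one_eq_one hτ0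
    have e2 : (qw (ι (den a)) * qw (ι (den a)) ^ (p - 1)) ^ k = 1 := by
      rw [← pow_succ', Nat.sub_add_cancel hp.one_le, ← pow_mul, ← hkw]
      exact pow_natCard_sub_one_eq_one hd'
    have e3 : qw (ι (num a)) ^ k = qw (ι (den a)) ^ k := by
      rw [mul_pow] at e1 e2
      exact mul_right_cancel₀ (pow_ne_zero k (pow_ne_zero (p - 1) hd')) (e1.trans e2.symm)
    have hmem : num a ^ k - den a ^ k ∈ v.asIdeal := by
      rw [hvw, ← hqw, map_sub, map_sub, map_pow, map_pow, map_pow, map_pow, e3, sub_self]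
    have hdk : den a ^ k ∉ v.asIdeal := fun h => hd (hvmax.isPrime.mem_of_pow_mem k h)
    have hval := (valuation_div_lt_one_iff v (s := num a ^ k - den a ^ k) hdk).mpr hmem
    have heq : a ^ k - 1 = ((num a ^ k - den a ^ k : 𝓞 F) : F) / ((den a ^ k : 𝓞 F) : F) := by
      have hd0 := hdenF a
      have h := hnd a
      simp only [RingOfIntegers.coe_eq_algebraMap] at h hd0 ⊢
      rw [map_sub, map_pow, map_pow, sub_div, div_self (pow_ne_zero _ hd0), ← div_pow, ← h]
    rw [heq]
    exact hval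
  · -- `b` is a unit at `v`
    have := valuation_div_eq_one v (hnotv _ hbM.1) (hnotv _ hbM.2)
    rwa [← hnd b] at this
  · -- `b` is not a `p`-th power residue at `v`
    rintro ⟨y, hy0, hyu, hyc⟩
    have hn : num b ∉ v.asIdeal := hnotv _ hbM.1
    have hd : den b ∉ v.asIdeal := hnotv _ hbM.2
    have hbunit : v.valuation F b = 1 := by
      have := valuation_div_eq_one v hn hd
      rwa [← hnd b] at this
    replace hyu : v.valuation F (b / y ^ p) = 1 := hyu
    replace hyc : v.valuation F ((b / y ^ p) ^ ((Ideal.absNorm v.asIdeal - 1) / p) -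
        ζ ^ (0 : ZMod p).val) < 1 := hyc
    rw [hkdiv, ZMod.val_zero, pow_zero] at hyc
    -- `y` is a unit at `v`
    have hyval : v.valuation F y = 1 := by
      rw [map_div₀, hbunit, map_pow, one_div, inv_eq_one] at hyu
      rcases lt_trichotomy (v.valuation F y) 1 with h | h | h
      · exact absurd hyu (pow_lt_one₀ zero_le h hp.ne_zero).ne
      · exact h
      · exact absurd hyu (one_lt_pow₀ h hp.ne_zero).ne'
    obtain ⟨s, t, ht, hyst⟩ := exists_div_repr v y hyval.le
    have hs : s ∉ v.asIdeal := by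
      intro hs
      have := (valuation_div_lt_one_iff v ht).mpr hs
      rw [← hyst, hyval] at this
      exact lt_irrefl _ this
    have ht0 : (t : F) ≠ 0 :=
      RingOfIntegers.coe_ne_zero_iff.mpr (fun h => ht (h ▸ Ideal.zero_mem _))
    have hs0 : (s : F) ≠ 0 :=
      RingOfIntegers.coe_ne_zero_iff.mpr (fun h => hs (h ▸ Ideal.zero_mem _))
    have hd0 := hdenF b
    -- the numerator of `(b / y ^ p) ^ k - 1`
    have heq : (b / y ^ p) ^ k - 1 =
        (((num b * t ^ p) ^ k - (den b * s ^ p) ^ k : 𝓞 F) : F) /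
          (((den b * s ^ p) ^ k : 𝓞 F) : F) := by
      have hb' : b = (num b : F) / (den b : F) := hnd b
      have hd1 := hd0
      have hs1 := hs0
      have ht1 := ht0
      have hyst1 := hyst
      simp only [RingOfIntegers.coe_eq_algebraMap] at hb' hd1 hs1 ht1 hyst1 ⊢
      rw [map_sub, map_pow, map_pow, map_mul, map_mul, map_pow, map_pow, sub_div,
        div_self (pow_ne_zero _ (mul_ne_zero hd1 (pow_ne_zero _ hs1))), ← div_pow]
      congr 2
      rw [hyst1, div_pow]
      conv_lhs => rw [hb']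
      field_simp
    have hdsk : (den b * s ^ p) ^ k ∉ v.asIdeal := by
      intro h
      rcases hvmax.isPrime.mem_or_mem (hvmax.isPrime.mem_of_pow_mem k h) with h | h
      · exact hd h
      · exact hs (hvmax.isPrime.mem_of_pow_mem p h)
    rw [heq, valuation_div_lt_one_iff v hdsk] at hyc
    -- work in the residue field of `v`
    have hN : qv (num b) ≠ 0 := fun h => hn ((hqv _).mp h)
    have hD : qv (den b) ≠ 0 := fun h => hd ((hqv _).mp h)
    have hS : qv s ≠ 0 := fun h => hs ((hqv _).mp h)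
    have hT : qv t ≠ 0 := fun h => ht ((hqv _).mp h)
    have hpow : (qv (num b) * qv t ^ p) ^ k = (qv (den b) * qv s ^ p) ^ k := by
      rw [← hqv, map_sub, sub_eq_zero] at hyc
      simpa only [map_pow, map_mul] using hyc
    have hu0 : qv (num b) * qv t ^ p / (qv (den b) * qv s ^ p) ≠ 0 :=
      div_ne_zero (mul_ne_zero hN (pow_ne_zero _ hT)) (mul_ne_zero hD (pow_ne_zero _ hS))
    have huk : (qv (num b) * qv t ^ p / (qv (den b) * qv s ^ p)) ^ k = 1 := by
      rw [div_pow, hpow, div_self (pow_ne_zero _ (mul_ne_zero hD (pow_ne_zero _ hS)))]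
    obtain ⟨g, hg⟩ := exists_pow_eq_of_pow_eq_one hkv hu0 huk
    obtain ⟨z₀, hz₀⟩ := Ideal.Quotient.mk_surjective (I := v.asIdeal)
      (g * qv s * qv (den b) / qv t)
    apply hwb
    refine ⟨ι z₀, ?_⟩
    rw [← map_pow, ← map_sub, ← hvw, ← hqv, map_sub, map_mul, map_pow, map_pow]
    have hz₀' : qv z₀ = g * qv s * qv (den b) / qv t := hz₀
    rw [hz₀', div_pow, mul_pow, mul_pow, hg, sub_eq_zero, hp', Nat.add_sub_cancel]
    field_simp
    ring

end Fermat.Agent.S14.helper554
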