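import Mathlib

/-!
# S14 / M2 — the zeta lemma (weak Chebotarev for degree-one primes)

Everything is Mathlib-only.  Main results are at the end of the file.
-/

namespace Fermat.Agent.S14.helper694

open scoped BigOperators
open NumberField

/-! ## Abstract Euler-product bound over multisets -/

section EulerBound

variable {X : Type*}

lemma geom_sum_le_one_add_two_mul {w : ℝ} (h0 : 0 ≤ w) (h : w ≤ 1 / 2) (N : ℕ) :
    ∑ e ∈ Finset.range N, w ^ e ≤ 1 + 2 * w := by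
  induction N with
  | zero => simp; positivity
  | succ N ih =>
    rw [Finset.sum_range_succ', pow_zero]
    have : ∑ e ∈ Finset.range N, w ^ (e + 1) = w * ∑ e ∈ Finset.range N, w ^ e := by
      rw [Finset.mul_sum]; exact Finset.sum_congr rfl fun e _ => by ring
    rw [this]
    nlinarith [mul_le_mul_of_nonneg_left ih h0]

/-- Finite partial sums of `∑_{m : Multiset X} ∏_{x ∈ m} w x` are bounded by `exp (2 B)` as soon as
all finite partial sums of `w` are bounded by `B` and `0 ≤ w ≤ 1/2`. -/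
theorem sum_multiset_prod_le_exp (w : X → ℝ) (hw0 : ∀ x, 0 ≤ w x) (hw : ∀ x, w x ≤ 1 / 2)
    (B : ℝ) (hB : ∀ P : Finset X, ∑ x ∈ P, w x ≤ B) (G : Finset (Multiset X)) :
    ∑ m ∈ G, (m.map w).prod ≤ Real.exp (2 * B) := by
  classical
  set P : Finset X := G.biUnion fun m => m.toFinset with hP
  set M : ℕ := G.sup Multiset.card + 1 with hM
  -- each `m ∈ G` is encoded by its count function on `P`
  let enc : Multiset X → (P → ℕ) := fun m x => m.count x.1
  have henc_mem : ∀ m ∈ G, enc m ∈ Fintype.piFinset fun _ : P => Finset.range M := by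
    intro m hm
    rw [Fintype.mem_piFinset]
    intro x
    rw [Finset.mem_range, hM]
    exact Nat.lt_succ_of_le ((Multiset.count_le_card _ _).trans (Finset.le_sup (f := Multiset.card) hm))
  have henc_inj : Set.InjOn enc G := by
    intro m hm m' hm' h
    ext x
    by_cases hx : x ∈ P
    · exact congrFun h ⟨x, hx⟩
    · have h1 : x ∉ m := fun hxm => hx (Finset.mem_biUnion.mpr ⟨m, hm, Multiset.mem_toFinset.mpr hxm⟩)
      have h2 : x ∉ m' := fun hxm => hx (Finset.mem_biUnion.mpr ⟨m', hm', Multiset.mem_toFinset.mpr hxm⟩)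
      rw [Multiset.count_eq_zero_of_notMem h1, Multiset.count_eq_zero_of_notMem h2]
  have hterm : ∀ m ∈ G, (m.map w).prod = ∏ x : P, w x.1 ^ enc m x := by
    intro m hm
    rw [Finset.prod_multiset_map_count]
    have hsub : m.toFinset ⊆ P := fun x hx => Finset.mem_biUnion.mpr ⟨m, hm, hx⟩
    rw [Finset.prod_subset hsub (fun x _ hx => by
      rw [Multiset.count_eq_zero_of_notMem (fun h => hx (Multiset.mem_toFinset.mpr h)), pow_zero])]
    exact (Finset.prod_coe_sort P fun x => w x ^ m.count x).symm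
  calc ∑ m ∈ G, (m.map w).prod
      = ∑ m ∈ G, ∏ x : P, w x.1 ^ enc m x := Finset.sum_congr rfl hterm
    _ = ∑ c ∈ G.image enc, ∏ x : P, w x.1 ^ c x :=
        (Finset.sum_image (f := fun c : P → ℕ => ∏ x : P, w x.1 ^ c x) henc_inj).symm
    _ ≤ ∑ c ∈ Fintype.piFinset fun _ : P => Finset.range M, ∏ x : P, w x.1 ^ c x := by
        refine Finset.sum_le_sum_of_subset_of_nonneg ?_ fun c _ _ =>
          Finset.prod_nonneg fun x _ => pow_nonneg (hw0 _) _
        intro c hc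
        obtain ⟨m, hm, rfl⟩ := Finset.mem_image.mp hc
        exact henc_mem m hm
    _ = ∏ x : P, ∑ e ∈ Finset.range M, w x.1 ^ e :=
        (Finset.prod_univ_sum (fun _ : P => Finset.range M) fun (x : P) e => w x.1 ^ e).symm
    _ ≤ ∏ x : P, Real.exp (2 * w x.1) := by
        refine Finset.prod_le_prod (fun x _ => Finset.sum_nonneg fun e _ => pow_nonneg (hw0 _) _)
          fun x _ => ?_
        exact (geom_sum_le_one_add_two_mul (hw0 _) (hw _) M).trans
          (by linarith [Real.add_one_le_exp (2 * w x.1)])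
    _ = Real.exp (∑ x : P, 2 * w x.1) := (Real.exp_sum _ _).symm
    _ ≤ Real.exp (2 * B) := by
        rw [Real.exp_le_exp, ← Finset.mul_sum, Finset.sum_coe_sort P w]
        exact mul_le_mul_of_nonneg_left (hB P) zero_le_two

end EulerBound


/-! ## The `ENNReal` ideal sum and the Dedekind zeta function -/

section Bridge

open NumberField Filter Topology Asymptotics

variable (K : Type*) [Field K] [NumberField K]

/-- The `ENNReal`-valued Dedekind zeta sum over all ideals (the zero ideal contributes `0`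
for `s ≠ 0`). -/
noncomputable def zetaE (s : ℝ) : ENNReal :=
  ∑' I : Ideal (𝓞 K), ENNReal.ofReal ((Ideal.absNorm I : ℝ) ^ (-s))

theorem tendsto_idealCount_div :
    Tendsto (fun n : ℕ ↦ (∑ k ∈ Finset.Icc 1 n,
      (Nat.card {I : Ideal (𝓞 K) // Ideal.absNorm I = k} : ℝ)) / (n : ℝ)) atTop
      (𝓝 (dedekindZeta_residue K)) := by
  refine ((Ideal.tendsto_norm_le_div_atTop₀ K).comp tendsto_natCast_atTop_atTop).congr fun n ↦ ?_
  simp only [Function.comp_apply, Nat.cast_le, ← Nat.cast_sum]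
  congr
  rw [← add_left_inj 1, ← Ideal.card_norm_le_eq_card_norm_le_add_one,
    show Finset.Icc 1 n = Finset.Ioc 0 n from Finset.Icc_succ_left_eq_Ioc _ _,
    show 1 = Nat.card {I : Ideal (𝓞 K) // Ideal.absNorm I = 0} by simp [Ideal.absNorm_eq_zero_iff],
    Finset.sum_Ioc_add_eq_sum_Icc (n.zero_le),
    ← Finset.card_preimage_eq_sum_card_image_eq (fun k _ ↦ Ideal.finite_setOfPred_absNorm_eq k)]
  simp [Set.coe_eq_subtype]

theorem lseriesSummable_idealCount {s : ℝ} (hs : 1 < s) :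
    LSeriesSummable
      (fun n ↦ ((Nat.card {I : Ideal (𝓞 K) // Ideal.absNorm I = n} : ℝ) : ℂ)) s := by
  refine LSeriesSummable_of_sum_norm_bigO_and_nonneg ?_ (fun _ ↦ Nat.cast_nonneg _) zero_le_one
    (by simpa using hs)
  exact isBigO_atTop_natCast_rpow_of_tendsto_div_rpow (by simpa using tendsto_idealCount_div K)

/-- The real terms of the Dedekind zeta series. -/
theorem term_idealCount {s : ℝ} (hs : 0 < s) (n : ℕ) :
    LSeries.term (fun n ↦ ((Nat.card {I : Ideal (𝓞 K) // Ideal.absNorm I = n} : ℝ) : ℂ)) s n =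
      (((Nat.card {I : Ideal (𝓞 K) // Ideal.absNorm I = n} : ℝ) * (n : ℝ) ^ (-s) : ℝ) : ℂ) := by
  rcases Nat.eq_zero_or_pos n with rfl | hn
  · simp [LSeries.term_zero, Real.zero_rpow (neg_ne_zero.mpr hs.ne')]
  · rw [LSeries.term_of_ne_zero hn.ne', Real.rpow_neg (Nat.cast_nonneg n), Complex.ofReal_mul,
      Complex.ofReal_inv, Complex.ofReal_cpow (Nat.cast_nonneg n), div_eq_mul_inv]
    simp

theorem hasSum_idealCount {s : ℝ} (hs : 1 < s) :
    HasSum (fun n : ℕ ↦ (Nat.card {I : Ideal (𝓞 K) // Ideal.absNorm I = n} : ℝ) * (n : ℝ) ^ (-s))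
      (dedekindZeta K s).re := by
  have h := (lseriesSummable_idealCount K hs).hasSum
  have h2 := Complex.hasSum_re h
  have hfun : (fun n : ℕ ↦ ((Nat.card {I : Ideal (𝓞 K) // Ideal.absNorm I = n} : ℝ) : ℂ)) =
      fun n : ℕ ↦ ((Nat.card {I : Ideal (𝓞 K) // Ideal.absNorm I = n} : ℕ) : ℂ) := by
    funext n; simp
  have h3 : (∑' n, LSeries.term
      (fun n ↦ ((Nat.card {I : Ideal (𝓞 K) // Ideal.absNorm I = n} : ℝ) : ℂ)) s n) =
      dedekindZeta K s := by
    rw [dedekindZeta, LSeries, hfun]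
  rw [h3] at h2
  have key : ∀ n, (LSeries.term
      (fun n ↦ ((Nat.card {I : Ideal (𝓞 K) // Ideal.absNorm I = n} : ℝ) : ℂ)) s n).re =
      (Nat.card {I : Ideal (𝓞 K) // Ideal.absNorm I = n} : ℝ) * (n : ℝ) ^ (-s) := fun n ↦ by
    rw [term_idealCount K (by linarith) n, Complex.ofReal_re]
  simpa only [key] using h2

/-- For `s > 1`, the `ENNReal` ideal sum equals the (real part of) the Dedekind zeta function. -/
theorem zetaE_eq {s : ℝ} (hs : 1 < s) :
    zetaE K s = ENNReal.ofReal (dedekindZeta K s).re := by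
  have hsum := hasSum_idealCount K hs
  rw [← hsum.tsum_eq, ENNReal.ofReal_tsum_of_nonneg (fun n ↦ by positivity) hsum.summable]
  rw [zetaE, ← (Equiv.sigmaFiberEquiv (fun I : Ideal (𝓞 K) ↦ Ideal.absNorm I)).tsum_eq,
    ENNReal.tsum_sigma']
  refine tsum_congr fun n ↦ ?_
  have : Finite {I : Ideal (𝓞 K) // Ideal.absNorm I = n} := Ideal.finite_setOfPred_absNorm_eq n
  have hconst : ∀ I : {I : Ideal (𝓞 K) // Ideal.absNorm I = n},
      ENNReal.ofReal ((Ideal.absNorm ((Equiv.sigmaFiberEquiv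
        (fun I : Ideal (𝓞 K) ↦ Ideal.absNorm I)) ⟨n, I⟩) : ℝ) ^ (-s)) =
      ENNReal.ofReal ((n : ℝ) ^ (-s)) := fun I ↦ by
    simp [Equiv.sigmaFiberEquiv, I.2]
  simp only [hconst]
  rw [ENNReal.tsum_const, ENNReal.ofReal_mul (Nat.cast_nonneg _), ENNReal.ofReal_natCast]
  simp [ENat.card_eq_coe_natCard]

end Bridge

/-! ## Sums over multisets -/

section MultisetSums

variable {X X' : Type*}

/-- `∑_{m : Multiset X} ∏_{x ∈ m} w x` as an `ENNReal`. -/
noncomputable def msum (w : X → ℝ) : ENNReal :=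
  ∑' m : Multiset X, ENNReal.ofReal ((m.map w).prod)

theorem msum_le_exp (w : X → ℝ) (hw0 : ∀ x, 0 ≤ w x) (hw : ∀ x, w x ≤ 1 / 2) (B : ℝ)
    (hB : ∀ P : Finset X, ∑ x ∈ P, w x ≤ B) : msum w ≤ ENNReal.ofReal (Real.exp (2 * B)) := by
  rw [msum, ENNReal.tsum_eq_iSup_sum]
  refine iSup_le fun G ↦ ?_
  rw [← ENNReal.ofReal_sum_of_nonneg
    (fun m _ ↦ Multiset.prod_nonneg (by simpa using fun x _ => hw0 x))]
  exact ENNReal.ofReal_le_ofReal (sum_multiset_prod_le_exp w hw0 hw B hB G)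

theorem msum_mul_le (w : X → ℝ) (w' : X' → ℝ) (hw0 : ∀ x, 0 ≤ w x) :
    msum w * msum w' ≤ msum (Sum.elim w w') := by
  let φ : Multiset X × Multiset X' → Multiset (X ⊕ X') :=
    fun p => p.1.map Sum.inl + p.2.map Sum.inr
  have hφ : Function.Injective φ := by
    intro p q h
    have h1 := congrArg (Multiset.filterMap Sum.getLeft?) h
    have h2 := congrArg (Multiset.filterMap Sum.getRight?) h
    simp only [φ, Multiset.filterMap_add, Multiset.filterMap_map] at h1 h2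
    have e1 : (Sum.getLeft? ∘ (Sum.inl : X → X ⊕ X')) = some := by funext x; rfl
    have e2 : (Sum.getLeft? ∘ (Sum.inr : X' → X ⊕ X')) = fun _ => none := by funext x; rfl
    have e3 : (Sum.getRight? ∘ (Sum.inl : X → X ⊕ X')) = fun _ => none := by funext x; rfl
    have e4 : (Sum.getRight? ∘ (Sum.inr : X' → X ⊕ X')) = some := by funext x; rfl
    have z1 : ∀ m : Multiset X', Multiset.filterMap (fun _ : X' => (none : Option X)) m = 0 :=
      fun m => by induction m using Multiset.induction <;> simp_all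
    have z2 : ∀ m : Multiset X, Multiset.filterMap (fun _ : X => (none : Option X')) m = 0 :=
      fun m => by induction m using Multiset.induction <;> simp_all
    rw [e1, e2, Multiset.filterMap_some, Multiset.filterMap_some, z1, z1, add_zero, add_zero] at h1
    rw [e3, e4, Multiset.filterMap_some, Multiset.filterMap_some, z2, z2, zero_add, zero_add] at h2
    exact Prod.ext h1 h2
  calc msum w * msum w'
      = ∑' p : Multiset X × Multiset X', ENNReal.ofReal ((p.1.map w).prod) *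
          ENNReal.ofReal ((p.2.map w').prod) := by
        rw [msum, msum, ENNReal.tsum_prod (f := fun (m : Multiset X) (m' : Multiset X') =>
          ENNReal.ofReal ((m.map w).prod) * ENNReal.ofReal ((m'.map w').prod))]
        rw [← ENNReal.tsum_mul_right]
        exact tsum_congr fun m => ENNReal.tsum_mul_left.symm
    _ = ∑' p : Multiset X × Multiset X',
          (fun m : Multiset (X ⊕ X') => ENNReal.ofReal ((m.map (Sum.elim w w')).prod)) (φ p) := by
        refine tsum_congr fun p => ?_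
        simp only [φ, Multiset.map_add, Multiset.prod_add, Multiset.map_map]
        rw [ENNReal.ofReal_mul (Multiset.prod_nonneg (by simpa using fun x _ => hw0 x))]
        rfl
    _ ≤ msum (Sum.elim w w') := ENNReal.tsum_comp_le_tsum_of_injective hφ _

theorem msum_le_zetaE (K : Type*) [Field K] [NumberField K] (g : X → Ideal (𝓞 K))
    (hg : Function.Injective g) (hp : ∀ x, (g x).IsPrime) (h0 : ∀ x, g x ≠ ⊥) (s : ℝ) :
    msum (fun x => (Ideal.absNorm (g x) : ℝ) ^ (-s)) ≤ zetaE K s := by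
  let φ : Multiset X → Ideal (𝓞 K) := fun m => (m.map g).prod
  have hφ : Function.Injective φ := by
    intro m m' h
    have hprime : ∀ m : Multiset X, ∀ I ∈ m.map g, Prime I := by
      intro m I hI
      obtain ⟨x, _, rfl⟩ := Multiset.mem_map.mp hI
      exact Ideal.prime_of_isPrime (h0 x) (hp x)
    have e1 := UniqueFactorizationMonoid.normalizedFactors_prod_of_prime (hprime m)
    have e2 := UniqueFactorizationMonoid.normalizedFactors_prod_of_prime (hprime m')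
    have : m.map g = m'.map g := by rw [← e1, ← e2]; exact congrArg _ h
    exact Multiset.map_injective hg this
  calc msum (fun x => (Ideal.absNorm (g x) : ℝ) ^ (-s))
      = ∑' m : Multiset X,
          (fun I : Ideal (𝓞 K) => ENNReal.ofReal ((Ideal.absNorm I : ℝ) ^ (-s))) (φ m) := by
        refine tsum_congr fun m => ?_
        congr 1
        simp only [φ]
        rw [map_multiset_prod, Nat.cast_multiset_prod, Multiset.map_map, Multiset.map_map]
        exact Real.multiset_prod_map_rpow m (fun x => (Ideal.absNorm (g x) : ℝ))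
          (fun i _ => Nat.cast_nonneg _) (-s)
    _ ≤ zetaE K s := ENNReal.tsum_comp_le_tsum_of_injective hφ _

end MultisetSums

/-! ## Factoring ideals into two kinds of primes -/

section Factor

variable (K : Type*) [Field K] [NumberField K]

theorem absNorm_multiset_prod_rpow {X : Type*} (m : Multiset X) (g : X → Ideal (𝓞 K)) (s : ℝ) :
    ((Ideal.absNorm (m.map g).prod : ℕ) : ℝ) ^ (-s) =
      (m.map fun x => (Ideal.absNorm (g x) : ℝ) ^ (-s)).prod := by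
  rw [map_multiset_prod, Nat.cast_multiset_prod, Multiset.map_map, Multiset.map_map]
  exact (Real.multiset_prod_map_rpow m (fun x => (Ideal.absNorm (g x) : ℝ))
    (fun i _ => Nat.cast_nonneg _) (-s)).symm

theorem exists_multisets_prod_eq (Q : Ideal (𝓞 K) → Prop) (I : Ideal (𝓞 K)) (hI : I ≠ ⊥) :
    ∃ (m₁ : Multiset {𝔮 : Ideal (𝓞 K) // 𝔮.IsPrime ∧ 𝔮 ≠ ⊥ ∧ Q 𝔮})
      (m₂ : Multiset {𝔮 : Ideal (𝓞 K) // 𝔮.IsPrime ∧ 𝔮 ≠ ⊥ ∧ ¬ Q 𝔮}),
      I = (m₁.map Subtype.val).prod * (m₂.map Subtype.val).prod := by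
  classical
  induction I using UniqueFactorizationMonoid.induction_on_prime with
  | h₁ => exact absurd rfl hI
  | h₂ x hx =>
    refine ⟨0, 0, ?_⟩
    have : x = ⊤ := by simpa using hx
    simp [this]
  | h₃ a p ha hp ih =>
    obtain ⟨m₁, m₂, h⟩ := ih ha
    have hp' := Ideal.isPrime_of_prime hp
    by_cases hQ : Q p
    · exact ⟨⟨p, hp', hp.ne_zero, hQ⟩ ::ₘ m₁, m₂, by simp [h, mul_assoc]⟩
    · exact ⟨m₁, ⟨p, hp', hp.ne_zero, hQ⟩ ::ₘ m₂, by simp [h, mul_left_comm]⟩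

theorem zetaE_le_msum_mul (Q : Ideal (𝓞 K) → Prop) {s : ℝ} (hs : 0 < s) :
    zetaE K s ≤
      msum (fun x : {𝔮 : Ideal (𝓞 K) // 𝔮.IsPrime ∧ 𝔮 ≠ ⊥ ∧ Q 𝔮} =>
        (Ideal.absNorm x.1 : ℝ) ^ (-s)) *
      msum (fun x : {𝔮 : Ideal (𝓞 K) // 𝔮.IsPrime ∧ 𝔮 ≠ ⊥ ∧ ¬ Q 𝔮} =>
        (Ideal.absNorm x.1 : ℝ) ^ (-s)) := by
  classical
  let Φ : Multiset {𝔮 : Ideal (𝓞 K) // 𝔮.IsPrime ∧ 𝔮 ≠ ⊥ ∧ Q 𝔮} ×
      Multiset {𝔮 : Ideal (𝓞 K) // 𝔮.IsPrime ∧ 𝔮 ≠ ⊥ ∧ ¬ Q 𝔮} → Ideal (𝓞 K) :=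
    fun p => (p.1.map Subtype.val).prod * (p.2.map Subtype.val).prod
  have hex : ∀ I : {I : Ideal (𝓞 K) // I ≠ ⊥}, ∃ p, I.1 = Φ p := fun I => by
    obtain ⟨m₁, m₂, h⟩ := exists_multisets_prod_eq K Q I.1 I.2
    exact ⟨(m₁, m₂), h⟩
  choose r hr using hex
  have hrinj : Function.Injective r := fun I J h => Subtype.ext (by rw [hr I, hr J, h])
  calc zetaE K s
      = ∑' I : {I : Ideal (𝓞 K) // I ≠ ⊥}, ENNReal.ofReal ((Ideal.absNorm I.1 : ℝ) ^ (-s)) := by
        rw [zetaE]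
        symm
        refine tsum_subtype_eq_of_support_subset
          (f := fun I : Ideal (𝓞 K) => ENNReal.ofReal ((Ideal.absNorm I : ℝ) ^ (-s)))
          (s := {I : Ideal (𝓞 K) | I ≠ ⊥}) ?_
        intro I hI
        by_contra h
        simp only [Set.mem_ofPred_eq, not_not] at h
        subst h
        simp [Real.zero_rpow (neg_ne_zero.mpr hs.ne')] at hI
    _ = ∑' I : {I : Ideal (𝓞 K) // I ≠ ⊥},
          (fun p => ENNReal.ofReal ((Ideal.absNorm (Φ p) : ℝ) ^ (-s))) (r I) :=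
        tsum_congr fun I => by
          show _ = ENNReal.ofReal ((Ideal.absNorm (Φ (r I)) : ℝ) ^ (-s))
          rw [← hr I]
    _ ≤ ∑' p, ENNReal.ofReal ((Ideal.absNorm (Φ p) : ℝ) ^ (-s)) :=
        ENNReal.tsum_comp_le_tsum_of_injective hrinj _
    _ = _ := by
        rw [msum, msum, ENNReal.tsum_prod' ]
        rw [← ENNReal.tsum_mul_right]
        refine tsum_congr fun m => ?_
        rw [← ENNReal.tsum_mul_left]
        refine tsum_congr fun m' => ?_
        simp only [Φ]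
        rw [map_mul, Nat.cast_mul, Real.mul_rpow (Nat.cast_nonneg _) (Nat.cast_nonneg _),
          ENNReal.ofReal_mul (Real.rpow_nonneg (Nat.cast_nonneg _) _),
          absNorm_multiset_prod_rpow, absNorm_multiset_prod_rpow]

end Factor

/-! ## Primes of degree `≥ 2` contribute a bounded amount -/

section Tbound

variable (K : Type*) [Field K] [NumberField K]

/-- At most `finrank ℤ (𝓞 K)` nonzero prime ideals contain a given rational prime. -/
theorem card_le_of_natCast_mem {q : ℕ} (hq : q.Prime) (A : Finset (Ideal (𝓞 K)))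
    (hA : ∀ I ∈ A, I.IsPrime ∧ I ≠ ⊥ ∧ (q : 𝓞 K) ∈ I) :
    A.card ≤ Module.finrank ℤ (𝓞 K) := by
  have hdvd : ∏ I ∈ A, I ∣ Ideal.span {(q : 𝓞 K)} :=
    Finset.prod_primes_dvd _ (fun I hI => Ideal.prime_of_isPrime (hA I hI).2.1 (hA I hI).1)
      (fun I hI => Ideal.dvd_iff_le.mpr ((Ideal.span_singleton_le_iff_mem _).mpr (hA I hI).2.2))
  have h1 : Ideal.absNorm (∏ I ∈ A, I) ∣ q ^ Module.finrank ℤ (𝓞 K) := by
    rw [← Ideal.absNorm_span_natCast]
    exact map_dvd Ideal.absNorm hdvd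
  have h2 : q ^ A.card ≤ Ideal.absNorm (∏ I ∈ A, I) := by
    rw [map_prod]
    refine Finset.pow_card_le_prod _ _ _ fun I hI => ?_
    have hI' := hA I hI
    have hd : Ideal.absNorm I ∣ q ^ Module.finrank ℤ (𝓞 K) := by
      rw [← Ideal.absNorm_span_natCast]
      exact Ideal.absNorm_dvd_absNorm_of_le ((Ideal.span_singleton_le_iff_mem _).mpr hI'.2.2)
    obtain ⟨j, -, hj⟩ := (Nat.dvd_prime_pow hq).mp hd
    have hj0 : j ≠ 0 := by
      rintro rfl
      rw [pow_zero, Ideal.absNorm_eq_one_iff] at hj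
      exact hI'.1.ne_top hj
    rw [hj]
    exact Nat.le_self_pow hj0 q
  have h3 : q ^ A.card ≤ q ^ Module.finrank ℤ (𝓞 K) :=
    h2.trans (Nat.le_of_dvd (pow_pos hq.pos _) h1)
  exact (Nat.pow_le_pow_iff_right hq.one_lt).mp h3

theorem exists_bound_sum_not_degree_one (F : Finset (Ideal (𝓞 K))) :
    ∃ B : ℝ, ∀ s : ℝ, 1 ≤ s →
      ∀ P : Finset {𝔮 : Ideal (𝓞 K) //
          𝔮.IsPrime ∧ 𝔮 ≠ ⊥ ∧ ¬ (𝔮 ∉ F ∧ (Ideal.absNorm 𝔮).Prime)},
        ∑ x ∈ P, (Ideal.absNorm x.1 : ℝ) ^ (-s) ≤ B := by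
  classical
  set d := Module.finrank ℤ (𝓞 K) with hd
  have hsum : Summable (fun n : ℕ => 1 / (n : ℝ) ^ 2) :=
    Real.summable_one_div_nat_pow.mpr one_lt_two
  refine ⟨F.card + d * ∑' n : ℕ, 1 / (n : ℝ) ^ 2, fun s hs P => ?_⟩
  have hfact : ∀ x : {𝔮 : Ideal (𝓞 K) //
      𝔮.IsPrime ∧ 𝔮 ≠ ⊥ ∧ ¬ (𝔮 ∉ F ∧ (Ideal.absNorm 𝔮).Prime)},
      ∃ p n : ℕ, 0 < n ∧ (p : 𝓞 K) ∈ x.1 ∧ p.Prime ∧ Ideal.absNorm x.1 = p ^ n := fun x => by
    have : x.1.IsMaximal := x.2.1.isMaximal x.2.2.1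
    exact Ideal.exists_prime_and_absNorm_eq_pow x.1
  have hw1 : ∀ x : {𝔮 : Ideal (𝓞 K) //
      𝔮.IsPrime ∧ 𝔮 ≠ ⊥ ∧ ¬ (𝔮 ∉ F ∧ (Ideal.absNorm 𝔮).Prime)},
      (Ideal.absNorm x.1 : ℝ) ^ (-s) ≤ 1 := fun x => by
    obtain ⟨p, n, hn, hpx, hp, hN⟩ := hfact x
    refine Real.rpow_le_one_of_one_le_of_nonpos ?_ (by linarith)
    rw [hN]
    exact_mod_cast Nat.one_le_pow _ _ hp.pos
  rw [← Finset.sum_filter_add_sum_filter_not P (fun x : {𝔮 : Ideal (𝓞 K) //
      𝔮.IsPrime ∧ 𝔮 ≠ ⊥ ∧ ¬ (𝔮 ∉ F ∧ (Ideal.absNorm 𝔮).Prime)} => x.1 ∈ F)]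
  refine add_le_add ?_ ?_
  · calc ∑ x ∈ P.filter (fun x => x.1 ∈ F), (Ideal.absNorm x.1 : ℝ) ^ (-s)
        ≤ ∑ x ∈ P.filter (fun x => x.1 ∈ F), (1 : ℝ) := Finset.sum_le_sum fun x _ => hw1 x
      _ = ((P.filter (fun x => x.1 ∈ F)).card : ℝ) := by simp
      _ ≤ F.card := by
          exact_mod_cast Finset.card_le_card_of_injOn Subtype.val
            (fun x hx => (Finset.mem_filter.mp hx).2) (Subtype.val_injective.injOn)
  · set P₂ := P.filter (fun x => x.1 ∉ F) with hP₂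
    let π : {𝔮 : Ideal (𝓞 K) //
      𝔮.IsPrime ∧ 𝔮 ≠ ⊥ ∧ ¬ (𝔮 ∉ F ∧ (Ideal.absNorm 𝔮).Prime)} → ℕ :=
      fun x => (Ideal.absNorm x.1).minFac
    have hπ : ∀ x ∈ P₂, (π x).Prime ∧ ((π x : ℕ) : 𝓞 K) ∈ x.1 ∧
        (Ideal.absNorm x.1 : ℝ) ^ (-s) ≤ 1 / (π x : ℝ) ^ 2 := by
      intro x hx
      obtain ⟨p, n, hn, hpx, hp, hN⟩ := hfact x
      have hxF : x.1 ∉ F := (Finset.mem_filter.mp hx).2
      have hnp : ¬ (Ideal.absNorm x.1).Prime := fun h => x.2.2.2 ⟨hxF, h⟩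
      have hn2 : 2 ≤ n := by
        by_contra hlt
        have h1 : n = 1 := by omega
        rw [h1, pow_one] at hN
        exact hnp (hN ▸ hp)
      have hπp : π x = p := by
        simp only [π, hN]
        exact hp.pow_minFac hn.ne'
      refine ⟨hπp ▸ hp, hπp ▸ hpx, ?_⟩
      rw [hπp, hN]
      have hp1 : (1 : ℝ) ≤ p := by exact_mod_cast hp.one_lt.le
      calc (((p ^ n : ℕ)) : ℝ) ^ (-s) ≤ ((p ^ n : ℕ) : ℝ) ^ (-(1 : ℝ)) :=
            Real.rpow_le_rpow_of_exponent_le (by exact_mod_cast Nat.one_le_pow _ _ hp.pos)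
              (by linarith)
        _ = 1 / (p : ℝ) ^ n := by rw [Real.rpow_neg_one, Nat.cast_pow, one_div]
        _ ≤ 1 / (p : ℝ) ^ 2 :=
            one_div_le_one_div_of_le (by positivity) (pow_le_pow_right₀ hp1 hn2)
    calc ∑ x ∈ P₂, (Ideal.absNorm x.1 : ℝ) ^ (-s)
        ≤ ∑ x ∈ P₂, 1 / (π x : ℝ) ^ 2 := Finset.sum_le_sum fun x hx => (hπ x hx).2.2
      _ = ∑ q ∈ P₂.image π, ∑ x ∈ P₂.filter (fun x => π x = q), 1 / (π x : ℝ) ^ 2 :=
          (Finset.sum_fiberwise_of_maps_to (fun x hx => Finset.mem_image_of_mem π hx) _).symm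
      _ ≤ ∑ q ∈ P₂.image π, (d : ℝ) * (1 / (q : ℝ) ^ 2) := by
          refine Finset.sum_le_sum fun q hq => ?_
          obtain ⟨x₀, hx₀, rfl⟩ := Finset.mem_image.mp hq
          have hcard : (P₂.filter (fun x => π x = π x₀)).card ≤ d := by
            have := card_le_of_natCast_mem K (hπ x₀ hx₀).1
              ((P₂.filter (fun x => π x = π x₀)).image Subtype.val) (by
                intro I hI
                obtain ⟨x, hx, rfl⟩ := Finset.mem_image.mp hI
                obtain ⟨hx2, hxe⟩ := Finset.mem_filter.mp hx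
                exact ⟨x.2.1, x.2.2.1, hxe ▸ (hπ x hx2).2.1⟩)
            rwa [Finset.card_image_of_injective _ Subtype.val_injective] at this
          calc ∑ x ∈ P₂.filter (fun x => π x = π x₀), 1 / (π x : ℝ) ^ 2
              = ∑ x ∈ P₂.filter (fun x => π x = π x₀), 1 / (π x₀ : ℝ) ^ 2 :=
                Finset.sum_congr rfl fun x hx => by rw [(Finset.mem_filter.mp hx).2]
            _ = (P₂.filter (fun x => π x = π x₀)).card * (1 / (π x₀ : ℝ) ^ 2) := by
                rw [Finset.sum_const, nsmul_eq_mul]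
            _ ≤ d * (1 / (π x₀ : ℝ) ^ 2) := by
                have : ((P₂.filter (fun x => π x = π x₀)).card : ℝ) ≤ d := by exact_mod_cast hcard
                exact mul_le_mul_of_nonneg_right this (by positivity)
      _ = d * ∑ q ∈ P₂.image π, 1 / (q : ℝ) ^ 2 := by rw [Finset.mul_sum]
      _ ≤ d * ∑' n : ℕ, 1 / (n : ℝ) ^ 2 :=
          mul_le_mul_of_nonneg_left (hsum.sum_le_tsum _ (fun _ _ => by positivity))
            (Nat.cast_nonneg _)

end Tbound

/-! ## The zeta lemma -/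

section Core

open Filter Topology

theorem two_le_absNorm {K : Type*} [Field K] [NumberField K] {I : Ideal (𝓞 K)} (hI : I.IsPrime)
    (h0 : I ≠ ⊥) : 2 ≤ Ideal.absNorm I := by
  have h1 : Ideal.absNorm I ≠ 0 := by rwa [Ne, Ideal.absNorm_eq_zero_iff]
  have h2 : Ideal.absNorm I ≠ 1 := by
    rw [Ne, Ideal.absNorm_eq_one_iff]; exact hI.ne_top
  omega

theorem absNorm_rpow_le_half {K : Type*} [Field K] [NumberField K] {I : Ideal (𝓞 K)}
    (hI : I.IsPrime) (h0 : I ≠ ⊥) {s : ℝ} (hs : 1 ≤ s) :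
    (Ideal.absNorm I : ℝ) ^ (-s) ≤ 1 / 2 := by
  have h2 : (2 : ℝ) ≤ Ideal.absNorm I := by exact_mod_cast two_le_absNorm hI h0
  calc (Ideal.absNorm I : ℝ) ^ (-s) ≤ (Ideal.absNorm I : ℝ) ^ (-(1 : ℝ)) :=
        Real.rpow_le_rpow_of_exponent_le (by linarith) (by linarith)
    _ = 1 / (Ideal.absNorm I : ℝ) := by rw [Real.rpow_neg_one, one_div]
    _ ≤ 1 / 2 := one_div_le_one_div_of_le (by norm_num) h2

theorem tendsto_sub_one_mul_re (K : Type*) [Field K] [NumberField K] :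
    Tendsto (fun s : ℝ => (s - 1) * (dedekindZeta K s).re) (𝓝[>] 1)
      (𝓝 (dedekindZeta_residue K)) := by
  have h := (Complex.continuous_re.tendsto _).comp (tendsto_sub_one_mul_dedekindZeta_nhdsGT K)
  rw [Complex.ofReal_re] at h
  refine h.congr fun s => ?_
  simp only [Function.comp_apply]
  rw [← Complex.ofReal_one, ← Complex.ofReal_sub, Complex.re_ofReal_mul]

variable (E E' : Type*) [Field E] [NumberField E] [Field E'] [NumberField E']

/-- **Core of the zeta lemma.**  There is no injective, norm-preserving assignment of *two* prime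
ideals of `E'` to every degree-one prime of `E` outside a finite set `F`.  (No relation between
`E` and `E'` is needed.) -/
theorem not_exists_two_primes (F : Finset (Ideal (𝓞 E)))
    (g : {𝔮 : Ideal (𝓞 E) // 𝔮.IsPrime ∧ 𝔮 ≠ ⊥ ∧ (𝔮 ∉ F ∧ (Ideal.absNorm 𝔮).Prime)} ⊕
         {𝔮 : Ideal (𝓞 E) // 𝔮.IsPrime ∧ 𝔮 ≠ ⊥ ∧ (𝔮 ∉ F ∧ (Ideal.absNorm 𝔮).Prime)} →
          Ideal (𝓞 E'))
    (hg : Function.Injective g) (hp : ∀ x, (g x).IsPrime)
    (hN : ∀ x, Ideal.absNorm (g x) = Ideal.absNorm (Sum.elim Subtype.val Subtype.val x)) :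
    False := by
  have h0 : ∀ x, g x ≠ ⊥ := by
    intro x hx
    have h1 := hN x
    rw [hx, Ideal.absNorm_bot] at h1
    rcases x with x | x
    · exact x.2.2.1 (Ideal.absNorm_eq_zero_iff.mp h1.symm)
    · exact x.2.2.1 (Ideal.absNorm_eq_zero_iff.mp h1.symm)
  obtain ⟨B, hB⟩ := exists_bound_sum_not_degree_one E F
  set C : ℝ := Real.exp (2 * B) with hC
  have hCpos : 0 < C := Real.exp_pos _
  -- the key inequality for every `s > 1`
  have key : ∀ s : ℝ, 1 < s →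
      ((s - 1) * (dedekindZeta E s).re) ^ 2 ≤
        (s - 1) * ((s - 1) * (dedekindZeta E' s).re) * C ^ 2 := by
    intro s hs
    have hs0 : 0 < s := by linarith
    set wS : {𝔮 : Ideal (𝓞 E) // 𝔮.IsPrime ∧ 𝔮 ≠ ⊥ ∧ (𝔮 ∉ F ∧ (Ideal.absNorm 𝔮).Prime)} → ℝ :=
      fun x => (Ideal.absNorm x.1 : ℝ) ^ (-s) with hwS
    set wT : {𝔮 : Ideal (𝓞 E) // 𝔮.IsPrime ∧ 𝔮 ≠ ⊥ ∧ ¬ (𝔮 ∉ F ∧ (Ideal.absNorm 𝔮).Prime)} → ℝ :=
      fun x => (Ideal.absNorm x.1 : ℝ) ^ (-s) with hwT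
    have h1 : zetaE E s ≤ msum wS * msum wT :=
      zetaE_le_msum_mul E (fun 𝔮 => 𝔮 ∉ F ∧ (Ideal.absNorm 𝔮).Prime) hs0
    have h2 : msum wT ≤ ENNReal.ofReal C :=
      msum_le_exp wT (fun x => Real.rpow_nonneg (Nat.cast_nonneg _) _)
        (fun x => absNorm_rpow_le_half x.2.1 x.2.2.1 hs.le) B (hB s hs.le)
    have h3 : msum wS * msum wS ≤ zetaE E' s := by
      refine (msum_mul_le wS wS (fun x => Real.rpow_nonneg (Nat.cast_nonneg _) _)).trans ?_
      have := msum_le_zetaE E' g hg hp h0 s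
      have e : (fun x => (Ideal.absNorm (g x) : ℝ) ^ (-s)) = Sum.elim wS wS := by
        funext x
        rw [hN x]
        rcases x with x | x <;> rfl
      rwa [e] at this
    have hzE : 0 ≤ (dedekindZeta E s).re :=
      (hasSum_idealCount E hs).nonneg fun n => by positivity
    have hzE' : 0 ≤ (dedekindZeta E' s).re :=
      (hasSum_idealCount E' hs).nonneg fun n => by positivity
    rw [zetaE_eq E hs] at h1
    rw [zetaE_eq E' hs] at h3
    have h4 : ENNReal.ofReal ((dedekindZeta E s).re ^ 2) ≤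
        ENNReal.ofReal ((dedekindZeta E' s).re * C ^ 2) := by
      rw [ENNReal.ofReal_pow hzE, ENNReal.ofReal_mul hzE', ENNReal.ofReal_pow hCpos.le]
      calc ENNReal.ofReal (dedekindZeta E s).re ^ 2
          ≤ (msum wS * ENNReal.ofReal C) ^ 2 :=
            pow_le_pow_left' (h1.trans (mul_le_mul' le_rfl h2)) 2
        _ = (msum wS * msum wS) * ENNReal.ofReal C ^ 2 := by ring
        _ ≤ ENNReal.ofReal (dedekindZeta E' s).re * ENNReal.ofReal C ^ 2 :=
            mul_le_mul' h3 le_rfl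
    have h5 := (ENNReal.ofReal_le_ofReal_iff (by positivity)).mp h4
    calc ((s - 1) * (dedekindZeta E s).re) ^ 2 = (s - 1) ^ 2 * (dedekindZeta E s).re ^ 2 := by ring
      _ ≤ (s - 1) ^ 2 * ((dedekindZeta E' s).re * C ^ 2) :=
          mul_le_mul_of_nonneg_left h5 (sq_nonneg _)
      _ = _ := by ring
  -- pass to the limit `s → 1⁺`
  have hl : Tendsto (fun s : ℝ => ((s - 1) * (dedekindZeta E s).re) ^ 2) (𝓝[>] 1)
      (𝓝 (dedekindZeta_residue E ^ 2)) := (tendsto_sub_one_mul_re E).pow 2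
  have hsub : Tendsto (fun s : ℝ => s - 1) (𝓝[>] 1) (𝓝 0) := by
    have : Tendsto (fun s : ℝ => s - 1) (𝓝 1) (𝓝 (1 - 1)) :=
      (continuous_id.sub continuous_const).tendsto 1
    rw [sub_self] at this
    exact tendsto_nhdsWithin_of_tendsto_nhds this
  have hr : Tendsto (fun s : ℝ => (s - 1) * ((s - 1) * (dedekindZeta E' s).re) * C ^ 2) (𝓝[>] 1)
      (𝓝 (0 * dedekindZeta_residue E' * C ^ 2)) :=
    (hsub.mul (tendsto_sub_one_mul_re E')).mul_const _
  have hle : dedekindZeta_residue E ^ 2 ≤ 0 * dedekindZeta_residue E' * C ^ 2 :=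
    le_of_tendsto_of_tendsto hl hr (eventually_nhdsWithin_of_forall fun s hs => key s hs)
  have hpos := pow_pos (dedekindZeta_residue_pos E) 2
  linarith

end Core

/-! ## Main statements -/

section Main

variable (E E' : Type*) [Field E] [NumberField E] [Field E'] [NumberField E']

/-- **Zeta lemma, abstract form.**  `E`, `E'` are arbitrary number fields and `c` is *any* function
from ideals of `𝓞 E'` to ideals of `𝓞 E` (think: contraction).  For every finite set `F` of ideals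
of `𝓞 E` there is a nonzero prime `𝔮 ∉ F` of `𝓞 E` of prime absolute norm such that at most one
prime `𝔔` of `𝓞 E'` satisfies `c 𝔔 = 𝔮` and `absNorm 𝔔 = absNorm 𝔮`. -/
theorem exists_prime_atMostOne_above (F : Finset (Ideal (𝓞 E)))
    (c : Ideal (𝓞 E') → Ideal (𝓞 E)) :
    ∃ 𝔮 : Ideal (𝓞 E), 𝔮.IsPrime ∧ 𝔮 ≠ ⊥ ∧ 𝔮 ∉ F ∧ (Ideal.absNorm 𝔮).Prime ∧
      ∀ 𝔔₁ 𝔔₂ : Ideal (𝓞 E'), 𝔔₁.IsPrime → 𝔔₂.IsPrime → c 𝔔₁ = 𝔮 → c 𝔔₂ = 𝔮 →
        Ideal.absNorm 𝔔₁ = Ideal.absNorm 𝔮 → Ideal.absNorm 𝔔₂ = Ideal.absNorm 𝔮 →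
        𝔔₁ = 𝔔₂ := by
  by_contra hcon
  push Not at hcon
  have hex : ∀ x : {𝔮 : Ideal (𝓞 E) // 𝔮.IsPrime ∧ 𝔮 ≠ ⊥ ∧ (𝔮 ∉ F ∧ (Ideal.absNorm 𝔮).Prime)},
      ∃ 𝔔₁ 𝔔₂ : Ideal (𝓞 E'), 𝔔₁.IsPrime ∧ 𝔔₂.IsPrime ∧ c 𝔔₁ = x.1 ∧ c 𝔔₂ = x.1 ∧
        Ideal.absNorm 𝔔₁ = Ideal.absNorm x.1 ∧ Ideal.absNorm 𝔔₂ = Ideal.absNorm x.1 ∧ 𝔔₁ ≠ 𝔔₂ :=
    fun x => hcon x.1 x.2.1 x.2.2.1 x.2.2.2.1 x.2.2.2.2
  choose Q₁ Q₂ h1 h2 hc1 hc2 hn1 hn2 hne using hex
  refine not_exists_two_primes E E' F (Sum.elim Q₁ Q₂) ?_ ?_ ?_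
  · rintro (x | x) (y | y) h
    · simp only [Sum.elim_inl] at h
      have hxy : x = y := Subtype.ext (by rw [← hc1 x, ← hc1 y, h])
      rw [hxy]
    · simp only [Sum.elim_inl, Sum.elim_inr] at h
      have hxy : x = y := Subtype.ext (by rw [← hc1 x, ← hc2 y, h])
      subst hxy
      exact absurd h (hne x)
    · simp only [Sum.elim_inl, Sum.elim_inr] at h
      have hxy : x = y := Subtype.ext (by rw [← hc2 x, ← hc1 y, h])
      subst hxy
      exact absurd h.symm (hne x)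
    · simp only [Sum.elim_inr] at h
      have hxy : x = y := Subtype.ext (by rw [← hc2 x, ← hc2 y, h])
      rw [hxy]
  · rintro (x | x)
    · exact h1 x
    · exact h2 x
  · rintro (x | x)
    · exact hn1 x
    · exact hn2 x

/-- **Zeta lemma (weak Chebotarev for degree-one primes).**  Let `E'/E` be an extension of number
fields and `F` a finite set of ideals of `𝓞 E`.  There is a nonzero prime `𝔮 ∉ F` of `𝓞 E` whose
absolute norm is a prime number and such that **at most one** prime of `𝓞 E'` lying over `𝔮` has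
the same absolute norm as `𝔮` (i.e. residue degree one over `𝔮`).  In particular, if
`[E' : E] ≥ 2`, such a `𝔮` does not split completely in `E'`. -/
theorem exists_prime_atMostOne_degree_one_above [Algebra E E'] (F : Finset (Ideal (𝓞 E))) :
    ∃ 𝔮 : Ideal (𝓞 E), 𝔮.IsPrime ∧ 𝔮 ≠ ⊥ ∧ 𝔮 ∉ F ∧ (Ideal.absNorm 𝔮).Prime ∧
      ∀ 𝔔₁ 𝔔₂ : Ideal (𝓞 E'), 𝔔₁.IsPrime → 𝔔₂.IsPrime →
        𝔔₁.comap (algebraMap (𝓞 E) (𝓞 E')) = 𝔮 → 𝔔₂.comap (algebraMap (𝓞 E) (𝓞 E')) = 𝔮 →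
        Ideal.absNorm 𝔔₁ = Ideal.absNorm 𝔮 → Ideal.absNorm 𝔔₂ = Ideal.absNorm 𝔮 →
        𝔔₁ = 𝔔₂ :=
  exists_prime_atMostOne_above E E' F fun 𝔔 => 𝔔.comap (algebraMap (𝓞 E) (𝓞 E'))

/-- The set of primes in the zeta lemma is infinite. -/
theorem infinite_setOf_prime_atMostOne_degree_one_above [Algebra E E'] :
    Set.Infinite {𝔮 : Ideal (𝓞 E) | 𝔮.IsPrime ∧ 𝔮 ≠ ⊥ ∧ (Ideal.absNorm 𝔮).Prime ∧
      ∀ 𝔔₁ 𝔔₂ : Ideal (𝓞 E'), 𝔔₁.IsPrime → 𝔔₂.IsPrime →
        𝔔₁.comap (algebraMap (𝓞 E) (𝓞 E')) = 𝔮 → 𝔔₂.comap (algebraMap (𝓞 E) (𝓞 E')) = 𝔮 →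
        Ideal.absNorm 𝔔₁ = Ideal.absNorm 𝔮 → Ideal.absNorm 𝔔₂ = Ideal.absNorm 𝔮 →
        𝔔₁ = 𝔔₂} := by
  intro hfin
  obtain ⟨𝔮, h1, h2, h3, h4, h5⟩ := exists_prime_atMostOne_degree_one_above E E' hfin.toFinset
  exact h3 (hfin.mem_toFinset.mpr ⟨h1, h2, h4, h5⟩)

end Main

end Fermat.Agent.S14.helper694
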