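import Mathlib
import Fermat.Agent.S14.helper694_ZetaLemma

/-!
# S14 / M2 — the zeta lemma in Kummer form

`K` a number field containing a primitive `p`-th root of unity, `u ∈ 𝓞 K` not a `p`-th power in
`K`.  Then outside any finite set of primes there is a prime `𝔮` of `𝓞 K` of prime absolute norm
(not over `p`, not dividing `u`) modulo which `u` is not a `p`-th power.
-/

namespace Fermat.Agent.S14.helper694

open scoped BigOperators
open NumberField Polynomial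

/-! ## Elementary ideal lemmas -/

section Elementary

variable {R : Type*} [CommRing R]

theorem sup_span_mul_sup_span_le (I : Ideal R) (a b : R) :
    (I ⊔ Ideal.span {a}) * (I ⊔ Ideal.span {b}) ≤ I ⊔ Ideal.span {a * b} := by
  rw [Ideal.mul_le]
  intro r hr s hs
  obtain ⟨i₁, hi₁, x, hx, rfl⟩ := Submodule.mem_sup.mp hr
  obtain ⟨i₂, hi₂, y, hy, rfl⟩ := Submodule.mem_sup.mp hs
  obtain ⟨x', rfl⟩ := Ideal.mem_span_singleton'.mp hx
  obtain ⟨y', rfl⟩ := Ideal.mem_span_singleton'.mp hy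
  have e : (i₁ + x' * a) * (i₂ + y' * b) =
      (i₁ * (i₂ + y' * b) + x' * a * i₂) + (x' * y') * (a * b) := by ring
  rw [e]
  exact Submodule.add_mem_sup (I.add_mem (I.mul_mem_right _ hi₁) (I.mul_mem_left _ hi₂))
    (Ideal.mem_span_singleton'.mpr ⟨x' * y', rfl⟩)

theorem prod_sup_span_singleton_le {ι : Type*} (I : Ideal R) (s : Finset ι) (f : ι → R) :
    ∏ i ∈ s, (I ⊔ Ideal.span {f i}) ≤ I ⊔ Ideal.span {∏ i ∈ s, f i} := by
  classical
  induction s using Finset.induction_on with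
  | empty => simp
  | insert a s ha ih =>
    rw [Finset.prod_insert ha, Finset.prod_insert ha]
    exact (Ideal.mul_mono_right ih).trans (sup_span_mul_sup_span_le I _ _)

/-- Distinct powers of a primitive `p`-th root of unity stay distinct modulo a prime ideal not
containing `p`. -/
theorem pow_sub_pow_notMem_of_isPrimitiveRoot [IsDomain R] {p : ℕ} (hp : p.Prime) {ζ : R}
    (hζ : IsPrimitiveRoot ζ p) (𝔮 : Ideal R) [𝔮.IsPrime] (hp𝔮 : (p : R) ∉ 𝔮) {a c : ℕ}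
    (ha : a < p) (hc : c < p) (hac : a ≠ c) : ζ ^ c - ζ ^ a ∉ 𝔮 := by
  -- reduce to `a < c`
  wlog hlt : a < c generalizing a c
  · have hlt' : c < a := lt_of_le_of_ne (not_lt.mp hlt) (Ne.symm hac)
    intro h
    refine this hc ha (Ne.symm hac) hlt' ?_
    have : ζ ^ a - ζ ^ c = -(ζ ^ c - ζ ^ a) := by ring
    rw [this]
    exact 𝔮.neg_mem h
  intro h
  set z : R ⧸ 𝔮 := Ideal.Quotient.mk 𝔮 ζ with hz
  have hzp : z ^ p = 1 := by rw [hz, ← map_pow, hζ.pow_eq_one, map_one]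
  have hzu : z ≠ 0 := by
    intro h0
    rw [h0, zero_pow hp.ne_zero] at hzp
    exact zero_ne_one hzp
  have h1 : z ^ a * (z ^ (c - a) - 1) = 0 := by
    have h2 : Ideal.Quotient.mk 𝔮 (ζ ^ c - ζ ^ a) = 0 := Ideal.Quotient.eq_zero_iff_mem.mpr h
    rw [map_sub, map_pow, map_pow] at h2
    have h3 : z ^ c = z ^ a * z ^ (c - a) := by rw [← pow_add, Nat.add_sub_cancel' hlt.le]
    rw [mul_sub, mul_one, ← h3]
    exact h2
  have h4 : z ^ (c - a) = 1 := by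
    rcases mul_eq_zero.mp h1 with h5 | h5
    · exact absurd (pow_eq_zero_iff (Nat.pos_iff_ne_zero.mp (Nat.pos_of_ne_zero (by
        intro h6; rw [h6, pow_zero] at h5; exact one_ne_zero h5))) |>.mp h5) hzu
    · exact sub_eq_zero.mp h5
  have hcop : Nat.Coprime (c - a) p :=
    (Nat.coprime_of_lt_prime (Nat.sub_pos_of_lt hlt).ne'
      (lt_of_le_of_lt (Nat.sub_le c a) hc) hp).symm
  have h7 : z = 1 := by
    have := pow_gcd_eq_one.mpr ⟨h4, hzp⟩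
    rwa [hcop, pow_one] at this
  have h8 : (p : R ⧸ 𝔮) = 0 := by
    have := congrArg (Ideal.Quotient.mk 𝔮) (hζ.geom_sum_eq_zero hp.one_lt)
    rw [map_sum, map_zero] at this
    simpa [← hz, h7] using this
  exact hp𝔮 (Ideal.Quotient.eq_zero_iff_mem.mp (by simpa using h8))

end Elementary

/-! ## Splitting criterion -/

section Split

variable {K L : Type*} [Field K] [NumberField K] [Field L] [NumberField L] [Algebra K L]

/-- If at least `[L:K]` pairwise coprime proper ideals of `𝓞 L` contain `𝔮 𝓞 L`, where `𝔮` is a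
prime of `𝓞 K` of prime absolute norm, then each of them is a prime ideal over `𝔮` with the same
absolute norm as `𝔮`. -/
theorem isPrime_of_coprime_family {ι : Type*} (s : Finset ι) (J : ι → Ideal (𝓞 L))
    (𝔮 : Ideal (𝓞 K)) (h𝔮 : 𝔮.IsPrime) (h0 : 𝔮 ≠ ⊥) (hq : (Ideal.absNorm 𝔮).Prime)
    (hcard : Module.finrank K L ≤ s.card)
    (hle : ∀ i ∈ s, 𝔮.map (algebraMap (𝓞 K) (𝓞 L)) ≤ J i)
    (hne : ∀ i ∈ s, J i ≠ ⊤)
    (hcop : ∀ i ∈ s, ∀ j ∈ s, i ≠ j → J i ⊔ J j = ⊤) {i : ι} (hi : i ∈ s) :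
    (J i).IsPrime ∧ (J i).comap (algebraMap (𝓞 K) (𝓞 L)) = 𝔮 ∧
      Ideal.absNorm (J i) = Ideal.absNorm 𝔮 := by
  classical
  set q := Ideal.absNorm 𝔮 with hqdef
  have hn : Module.finrank (𝓞 K) (𝓞 L) = Module.finrank K L :=
    (IsFractionRing.finrank_eq (𝓞 K) K (𝓞 L) L).symm
  have hN : Ideal.absNorm (𝔮.map (algebraMap (𝓞 K) (𝓞 L))) = q ^ Module.finrank K L := by
    rw [Ideal.absNorm_algebraMap, hn]
  have hdvd : ∏ i ∈ s, J i ∣ 𝔮.map (algebraMap (𝓞 K) (𝓞 L)) :=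
    Finset.prod_dvd_of_coprime
      (fun i hi j hj hij => Ideal.isCoprime_iff_sup_eq.mpr (hcop i hi j hj hij))
      (fun i hi => Ideal.dvd_iff_le.mpr (hle i hi))
  have hprod : ∏ i ∈ s, Ideal.absNorm (J i) ∣ q ^ Module.finrank K L := by
    rw [← hN, ← map_prod]
    exact map_dvd Ideal.absNorm hdvd
  have hge : ∀ j ∈ s, q ≤ Ideal.absNorm (J j) := by
    intro j hj
    have hd : Ideal.absNorm (J j) ∣ q ^ Module.finrank K L :=
      hN ▸ Ideal.absNorm_dvd_absNorm_of_le (hle j hj)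
    obtain ⟨k, -, hk⟩ := (Nat.dvd_prime_pow hq).mp hd
    have hk0 : k ≠ 0 := by
      rintro rfl
      rw [pow_zero, Ideal.absNorm_eq_one_iff] at hk
      exact hne j hj hk
    rw [hk]
    exact Nat.le_self_pow hk0 q
  have hqpos : 0 < q := hq.pos
  have hle' : Ideal.absNorm (J i) * q ^ (s.card - 1) ≤ q * q ^ (s.card - 1) := by
    calc Ideal.absNorm (J i) * q ^ (s.card - 1)
        = Ideal.absNorm (J i) * q ^ (s.erase i).card := by rw [Finset.card_erase_of_mem hi]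
      _ ≤ Ideal.absNorm (J i) * ∏ j ∈ s.erase i, Ideal.absNorm (J j) :=
          Nat.mul_le_mul_left _ (Finset.pow_card_le_prod _ _ _
            fun j hj => hge j (Finset.mem_of_mem_erase hj))
      _ = ∏ j ∈ s, Ideal.absNorm (J j) :=
          Finset.mul_prod_erase s (fun j => Ideal.absNorm (J j)) hi
      _ ≤ q ^ Module.finrank K L := Nat.le_of_dvd (pow_pos hqpos _) hprod
      _ ≤ q ^ s.card := Nat.pow_le_pow_right hqpos hcard
      _ = q * q ^ (s.card - 1) := by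
          rw [← pow_succ', Nat.sub_add_cancel (Finset.card_pos.mpr ⟨i, hi⟩)]
  have hnorm : Ideal.absNorm (J i) = q :=
    le_antisymm (Nat.le_of_mul_le_mul_right hle' (pow_pos hqpos _)) (hge i hi)
  have hprime : (J i).IsPrime :=
    Ideal.isPrime_of_irreducible_absNorm (by rw [hnorm]; exact hq)
  refine ⟨hprime, ?_, hnorm⟩
  have hmax : 𝔮.IsMaximal := h𝔮.isMaximal h0
  exact (hmax.eq_of_le (Ideal.comap_ne_top _ (hne i hi))
    (Ideal.map_le_iff_le_comap.mp (hle i hi))).symm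

end Split

/-! ## Two primes of degree one above `𝔮` when `u` is a `p`-th power residue -/

section KummerSplit

variable {K L : Type*} [Field K] [NumberField K] [Field L] [NumberField L] [Algebra K L]

/-- **Kummer splitting.**  `L/K` of degree `≤ p`, `θ ∈ 𝓞 L` with `θ ^ p = u ∈ 𝓞 K`, `σ` a ring
endomorphism of `𝓞 L` fixing `𝓞 K` with `σ θ = ζ θ`.  If `𝔮` is a prime of `𝓞 K` of prime norm,
not containing `p` and `u`, and `u ≡ β ^ p mod 𝔮`, then there are two distinct primes of `𝓞 L`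
over `𝔮` with the same absolute norm as `𝔮`. -/
theorem kummer_two_primes {p : ℕ} (hp : p.Prime) (hdeg : Module.finrank K L ≤ p)
    (ζ : 𝓞 K) (hζ : IsPrimitiveRoot ζ p) (u : 𝓞 K) (θ : 𝓞 L)
    (hθ : θ ^ p = algebraMap (𝓞 K) (𝓞 L) u)
    (σ : 𝓞 L →+* 𝓞 L)
    (hσ : ∀ r : 𝓞 K, σ (algebraMap (𝓞 K) (𝓞 L) r) = algebraMap (𝓞 K) (𝓞 L) r)
    (hσθ : σ θ = algebraMap (𝓞 K) (𝓞 L) ζ * θ)
    (𝔮 : Ideal (𝓞 K)) (h𝔮 : 𝔮.IsPrime) (h0 : 𝔮 ≠ ⊥) (hq : (Ideal.absNorm 𝔮).Prime)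
    (hp𝔮 : (p : 𝓞 K) ∉ 𝔮) (hu𝔮 : u ∉ 𝔮) (β : 𝓞 K) (hβ : β ^ p - u ∈ 𝔮) :
    ∃ 𝔔₁ 𝔔₂ : Ideal (𝓞 L), 𝔔₁.IsPrime ∧ 𝔔₂.IsPrime ∧
      𝔔₁.comap (algebraMap (𝓞 K) (𝓞 L)) = 𝔮 ∧ 𝔔₂.comap (algebraMap (𝓞 K) (𝓞 L)) = 𝔮 ∧
      Ideal.absNorm 𝔔₁ = Ideal.absNorm 𝔮 ∧ Ideal.absNorm 𝔔₂ = Ideal.absNorm 𝔮 ∧ 𝔔₁ ≠ 𝔔₂ := by
  classical
  have : NeZero p := ⟨hp.ne_zero⟩
  have hmax : 𝔮.IsMaximal := h𝔮.isMaximal h0
  set φ : 𝓞 K →+* 𝓞 L := algebraMap (𝓞 K) (𝓞 L) with hφ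
  have hφinj : Function.Injective φ := FaithfulSMul.algebraMap_injective (𝓞 K) (𝓞 L)
  set ζ' : 𝓞 L := φ ζ with hζ'def
  have hζ' : IsPrimitiveRoot ζ' p := hζ.map_of_injective hφinj
  set b : 𝓞 L := φ β with hbdef
  set Ω : Finset (𝓞 L) := Polynomial.nthRootsFinset p (1 : 𝓞 L) with hΩ
  have hΩcard : Ω.card = p := hζ'.card_nthRootsFinset
  have hmemΩ : ∀ a : ℕ, ζ' ^ a ∈ Ω := fun a => by
    rw [hΩ, Polynomial.mem_nthRootsFinset hp.pos, ← pow_mul, mul_comm, pow_mul, hζ'.pow_eq_one,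
      one_pow]
  have hΩpow : ∀ μ ∈ Ω, ∃ a < p, ζ' ^ a = μ := fun μ hμ =>
    hζ'.eq_pow_of_pow_eq_one ((Polynomial.mem_nthRootsFinset hp.pos _).mp hμ)
  set Q : Ideal (𝓞 L) := 𝔮.map φ with hQ
  let J : 𝓞 L → Ideal (𝓞 L) := fun μ => Q ⊔ Ideal.span {θ - μ * b}
  -- `β ∉ 𝔮`
  have hβ𝔮 : β ∉ 𝔮 := by
    intro h
    apply hu𝔮
    have : u = β ^ p - (β ^ p - u) := by ring
    rw [this]
    exact 𝔮.sub_mem (𝔮.pow_mem_of_mem h p hp.pos) hβ
  -- the product of the `J μ` is contained in `Q`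
  have hprodle : ∏ μ ∈ Ω, J μ ≤ Q := by
    have h1 : ∏ μ ∈ Ω, J μ ≤ Q ⊔ Ideal.span {∏ μ ∈ Ω, (θ - μ * b)} :=
      prod_sup_span_singleton_le Q Ω _
    refine h1.trans (sup_le le_rfl ?_)
    rw [Ideal.span_singleton_le_iff_mem, ← hζ'.pow_sub_pow_eq_prod_sub_mul θ b hp.pos, hθ]
    have e : φ u - b ^ p = φ (-(β ^ p - u)) := by
      rw [hbdef, map_neg, map_sub, map_pow]; ring
    rw [e]
    exact Ideal.mem_map_of_mem φ (𝔮.neg_mem hβ)
  -- pairwise coprime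
  have hcop : ∀ μ ∈ Ω, ∀ ν ∈ Ω, μ ≠ ν → J μ ⊔ J ν = ⊤ := by
    intro μ hμ ν hν hμν
    obtain ⟨a, ha, rfl⟩ := hΩpow μ hμ
    obtain ⟨c, hc, rfl⟩ := hΩpow ν hν
    have hac : a ≠ c := fun h => hμν (by rw [h])
    have hd : (ζ ^ c - ζ ^ a) * β ∉ 𝔮 := fun h =>
      (h𝔮.mem_or_mem h).elim
        (pow_sub_pow_notMem_of_isPrimitiveRoot hp hζ 𝔮 hp𝔮 ha hc hac) hβ𝔮
    obtain ⟨y, i, hi, hyi⟩ := hmax.exists_inv hd
    rw [Ideal.eq_top_iff_one]
    have h1 : φ i ∈ J (ζ' ^ a) ⊔ J (ζ' ^ c) :=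
      le_sup_left (a := J (ζ' ^ a)) (le_sup_left (a := Q) (Ideal.mem_map_of_mem φ hi))
    have h2 : φ ((ζ ^ c - ζ ^ a) * β) ∈ J (ζ' ^ a) ⊔ J (ζ' ^ c) := by
      have e : φ ((ζ ^ c - ζ ^ a) * β) = (θ - ζ' ^ a * b) - (θ - ζ' ^ c * b) := by
        rw [hbdef, hζ'def, map_mul, map_sub, map_pow, map_pow]; ring
      rw [e]
      exact Ideal.sub_mem _
        (le_sup_left (a := J (ζ' ^ a)) (le_sup_right (a := Q) (Ideal.mem_span_singleton_self _)))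
        (le_sup_right (a := J (ζ' ^ a)) (le_sup_right (a := Q) (Ideal.mem_span_singleton_self _)))
    have e1 : (1 : 𝓞 L) = φ y * φ ((ζ ^ c - ζ ^ a) * β) + φ i := by
      rw [← map_mul, ← map_add, hyi, map_one]
    rw [e1]
    exact Ideal.add_mem _ (Ideal.mul_mem_left _ _ h2) h1
  -- `σ` preserves `Q`
  have hσQ : ∀ x ∈ Q, σ x ∈ Q := by
    intro x hx
    have h1 : σ x ∈ Q.map σ := Ideal.mem_map_of_mem σ hx
    have h2 : Q.map σ = Q := by
      rw [hQ, Ideal.map_map]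
      congr 1
      exact RingHom.ext hσ
    rwa [h2] at h1
  have hσζ : σ ζ' = ζ' := hσ ζ
  have hσb : σ b = b := hσ β
  -- one step of the Galois argument
  have hstep : ∀ a : ℕ, J (ζ' ^ (a + 1)) = ⊤ → J (ζ' ^ a) = ⊤ := by
    intro a h
    rw [Ideal.eq_top_iff_one] at h ⊢
    obtain ⟨x, hx, y, hy, hxy⟩ := Submodule.mem_sup.mp h
    obtain ⟨y', rfl⟩ := Ideal.mem_span_singleton'.mp hy
    have e : (1 : 𝓞 L) = σ x + (σ y' * ζ') * (θ - ζ' ^ a * b) := by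
      have := congrArg σ hxy
      rw [map_one, map_add, map_mul, map_sub, map_mul, map_pow, hσθ, hσζ, hσb] at this
      rw [← this]; ring
    rw [e]
    exact Submodule.add_mem_sup (hσQ x hx) (Ideal.mem_span_singleton'.mpr ⟨_, rfl⟩)
  have hsteps : ∀ k a : ℕ, J (ζ' ^ (a + k)) = ⊤ → J (ζ' ^ a) = ⊤ := by
    intro k
    induction k with
    | zero => intro a h; simpa using h
    | succ k ih =>
      intro a h
      exact ih a (hstep (a + k) (by rwa [add_assoc]))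
  -- `Q` is proper
  have hQtop : Q ≠ ⊤ := by
    obtain ⟨M, hM, hMc⟩ := Ideal.exists_ideal_over_maximal_of_isIntegral (S := 𝓞 L) 𝔮
      (by
        intro x hx
        have hx0 : φ x = 0 := RingHom.mem_ker.mp hx
        have : x = 0 := hφinj (by rw [hx0, map_zero])
        rw [this]; exact 𝔮.zero_mem)
    intro h
    have h1 : Q ≤ M := Ideal.map_le_iff_le_comap.mpr hMc.ge
    rw [h, top_le_iff] at h1
    exact hM.ne_top h1
  -- all `J μ` are proper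
  have hne : ∀ μ ∈ Ω, J μ ≠ ⊤ := by
    intro μ hμ htop
    obtain ⟨a, ha, rfl⟩ := hΩpow μ hμ
    have hall : ∀ ν ∈ Ω, J ν = ⊤ := by
      intro ν hν
      obtain ⟨c, hc, rfl⟩ := hΩpow ν hν
      refine hsteps (a + (p - c)) c ?_
      have e : ζ' ^ (c + (a + (p - c))) = ζ' ^ a := by
        have : c + (a + (p - c)) = a + p := by omega
        rw [this, pow_add, hζ'.pow_eq_one, mul_one]
      rw [e]
      exact htop
    have : ∏ ν ∈ Ω, J ν = ⊤ := by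
      rw [Finset.prod_congr rfl hall, Finset.prod_const, Ideal.top_pow]
    rw [this, top_le_iff] at hprodle
    exact hQtop hprodle
  -- conclusion
  have h1Ω : (1 : 𝓞 L) ∈ Ω := by simpa using hmemΩ 0
  have hζΩ : ζ' ∈ Ω := by simpa using hmemΩ 1
  have h1ζ : (1 : 𝓞 L) ≠ ζ' := (hζ'.ne_one hp.one_lt).symm
  have hcard : Module.finrank K L ≤ Ω.card := hΩcard ▸ hdeg
  obtain ⟨hP1, hc1, hn1⟩ := isPrime_of_coprime_family Ω J 𝔮 h𝔮 h0 hq hcard
    (fun μ _ => le_sup_left) hne hcop h1Ω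
  obtain ⟨hP2, hc2, hn2⟩ := isPrime_of_coprime_family Ω J 𝔮 h𝔮 h0 hq hcard
    (fun μ _ => le_sup_left) hne hcop hζΩ
  refine ⟨J 1, J ζ', hP1, hP2, hc1, hc2, hn1, hn2, ?_⟩
  intro h
  have := hcop 1 h1Ω ζ' hζΩ h1ζ
  rw [h, sup_idem] at this
  exact hne ζ' hζΩ this

end KummerSplit

/-! ## Main statement -/

section Main

variable (K : Type*) [Field K] [NumberField K]

omit [NumberField K] in
theorem coe_algebraMap_ringOfIntegers {L : Type*} [Field L] [Algebra K L]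
    (x : 𝓞 K) : ((algebraMap (𝓞 K) (𝓞 L) x : 𝓞 L) : L) = algebraMap K L (x : K) :=
  (IsScalarTower.algebraMap_apply (𝓞 K) (𝓞 L) L x).symm.trans
    (IsScalarTower.algebraMap_apply (𝓞 K) K L x)

/-- **Zeta lemma, Kummer form.**  Let `K` be a number field containing a primitive `p`-th root of
unity (`p` prime) and let `u ∈ 𝓞 K` not be a `p`-th power in `K`.  For every finite set `F` of
ideals there is a nonzero prime `𝔮 ∉ F` of `𝓞 K` whose absolute norm is a prime number, with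
`p ∉ 𝔮`, `u ∉ 𝔮`, such that `u` is not a `p`-th power modulo `𝔮`. -/
theorem exists_prime_not_pow_residue {p : ℕ} (hp : p.Prime)
    (ζ : K) (hζ : IsPrimitiveRoot ζ p) (u : 𝓞 K) (hu : ¬ ∃ y : K, (u : K) = y ^ p)
    (F : Finset (Ideal (𝓞 K))) :
    ∃ 𝔮 : Ideal (𝓞 K), 𝔮.IsPrime ∧ 𝔮 ≠ ⊥ ∧ 𝔮 ∉ F ∧ (Ideal.absNorm 𝔮).Prime ∧
      (p : 𝓞 K) ∉ 𝔮 ∧ u ∉ 𝔮 ∧ ¬ ∃ β : 𝓞 K, β ^ p - u ∈ 𝔮 := by
  classical
  have hirr : Irreducible (X ^ p - C (u : K) : K[X]) :=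
    X_pow_sub_C_irreducible_of_prime hp fun b hb => hu ⟨b, hb.symm⟩
  have : Fact (Irreducible (X ^ p - C (u : K) : K[X])) := ⟨hirr⟩
  have hf0 : (X ^ p - C (u : K) : K[X]) ≠ 0 := hirr.ne_zero
  let L := AdjoinRoot (X ^ p - C (u : K) : K[X])
  have : Module.Finite K L := (AdjoinRoot.powerBasis hf0).finite
  have : NumberField L := NumberField.of_module_finite K L
  have hdeg : Module.finrank K L = p := by
    rw [(AdjoinRoot.powerBasis hf0).finrank, AdjoinRoot.powerBasis_dim, natDegree_X_pow_sub_C]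
  -- the root `r` of `X ^ p - u`
  set r : L := AdjoinRoot.root (X ^ p - C (u : K) : K[X]) with hr
  have hrp : r ^ p = algebraMap K L (u : K) := by
    have h := AdjoinRoot.eval₂_root (X ^ p - C (u : K) : K[X])
    rw [eval₂_sub, eval₂_pow, eval₂_X, eval₂_C, sub_eq_zero] at h
    exact h
  have hrint : IsIntegral ℤ r :=
    IsIntegral.of_pow hp.pos (hrp ▸ (RingOfIntegers.isIntegral_coe u).algebraMap)
  let θ : 𝓞 L := ⟨r, hrint⟩
  have hθ : θ ^ p = algebraMap (𝓞 K) (𝓞 L) u := by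
    apply RingOfIntegers.ext
    rw [coe_algebraMap_ringOfIntegers, ← hrp]
    rfl
  -- the root of unity in `𝓞 K`
  let ζ₀ : 𝓞 K := ⟨ζ, hζ.isIntegral hp.pos⟩
  have hζ₀ : IsPrimitiveRoot ζ₀ p :=
    IsPrimitiveRoot.of_map_of_injective (f := algebraMap (𝓞 K) K) hζ
      RingOfIntegers.coe_injective
  -- the Kummer automorphism
  have hev : eval₂ (Algebra.ofId K L : K →+* L) (algebraMap K L ζ * r)
      (X ^ p - C (u : K) : K[X]) = 0 := by
    rw [eval₂_sub, eval₂_pow, eval₂_X, eval₂_C, mul_pow, ← map_pow, hζ.pow_eq_one, map_one,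
      one_mul, hrp]
    exact sub_self _
  let σL : L →ₐ[K] L := AdjoinRoot.liftAlgHom (X ^ p - C (u : K) : K[X]) (Algebra.ofId K L)
    (algebraMap K L ζ * r) hev
  let σ : 𝓞 L →+* 𝓞 L := RingOfIntegers.mapRingHom (σL : L →+* L)
  have hσ : ∀ x : 𝓞 K, σ (algebraMap (𝓞 K) (𝓞 L) x) = algebraMap (𝓞 K) (𝓞 L) x := by
    intro x
    apply RingOfIntegers.ext
    rw [RingOfIntegers.mapRingHom_apply, coe_algebraMap_ringOfIntegers]
    exact σL.commutes _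
  have hσθ : σ θ = algebraMap (𝓞 K) (𝓞 L) ζ₀ * θ := by
    apply RingOfIntegers.ext
    rw [RingOfIntegers.mapRingHom_apply]
    have e : ((algebraMap (𝓞 K) (𝓞 L) ζ₀ * θ : 𝓞 L) : L) = algebraMap K L ζ * r := by
      rw [RingOfIntegers.coe_eq_algebraMap, map_mul, ← RingOfIntegers.coe_eq_algebraMap,
        coe_algebraMap_ringOfIntegers]
      rfl
    rw [e]
    exact AdjoinRoot.liftAlgHom_root (X ^ p - C (u : K) : K[X]) (Algebra.ofId K L)
      (algebraMap K L ζ * r) hev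
  -- the bad primes
  have hu0 : u ≠ 0 := by
    rintro rfl
    exact hu ⟨0, by simp [hp.ne_zero]⟩
  have hpu : Ideal.span {(p : 𝓞 K) * u} ≠ ⊥ := by
    rw [Ne, Ideal.span_singleton_eq_bot]
    exact mul_ne_zero (Nat.cast_ne_zero.mpr hp.ne_zero) hu0
  set F₂ : Finset (Ideal (𝓞 K)) :=
    (UniqueFactorizationMonoid.normalizedFactors (Ideal.span {(p : 𝓞 K) * u})).toFinset with hF₂
  obtain ⟨𝔮, h𝔮, h0, hF, hq, huniq⟩ := exists_prime_atMostOne_degree_one_above K L (F ∪ F₂)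
  have hF1 : 𝔮 ∉ F := fun h => hF (Finset.mem_union_left _ h)
  have hpu𝔮 : (p : 𝓞 K) * u ∉ 𝔮 := by
    intro h
    apply hF
    refine Finset.mem_union_right _ ?_
    rw [hF₂, Multiset.mem_toFinset, Ideal.mem_normalizedFactors_iff hpu]
    exact ⟨h𝔮, (Ideal.span_singleton_le_iff_mem _).mpr h⟩
  have hp𝔮 : (p : 𝓞 K) ∉ 𝔮 := fun h => hpu𝔮 (𝔮.mul_mem_right _ h)
  have hu𝔮 : u ∉ 𝔮 := fun h => hpu𝔮 (𝔮.mul_mem_left _ h)
  refine ⟨𝔮, h𝔮, h0, hF1, hq, hp𝔮, hu𝔮, ?_⟩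
  rintro ⟨β, hβ⟩
  obtain ⟨𝔔₁, 𝔔₂, hP1, hP2, hc1, hc2, hn1, hn2, hne⟩ :=
    kummer_two_primes hp hdeg.le ζ₀ hζ₀ u θ hθ σ hσ hσθ 𝔮 h𝔮 h0 hq hp𝔮 hu𝔮 β hβ
  exact hne (huniq 𝔔₁ 𝔔₂ hP1 hP2 hc1 hc2 hn1 hn2)

end Main

end Fermat.Agent.S14.helper694
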