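import Mathlib
import Fermat.Agent.S14.helper554_WCKummer
import Fermat.Agent.S14.helper694_ZetaKummer

/-!
# S14 / M2b : weak Chebotarev for multi-Kummer extensions, unconditional

Author: helper554.

* `stmt_KummerPrime p hp : Stmt_KummerPrime p` (from `helper694.exists_prime_not_pow_residue`).
* `stmt_WCKummer p hp : helper14.Stmt_WCKummer p`, with no hypotheses besides `p.Prime`.
-/

set_option autoImplicit false

namespace Fermat.Agent.S14.helper554

open NumberField IsDedekindDomain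

/-- The single-element Kummer zeta lemma in the form `Stmt_KummerPrime`. -/
theorem stmt_KummerPrime (p : ℕ) (hp : p.Prime) : Stmt_KummerPrime p := by
  intro E _ _ ζ hζ b hb m hm
  classical
  have hm0 : Ideal.span {(m : 𝓞 E)} ≠ 0 := by
    rw [Ne, Ideal.zero_eq_bot, Ideal.span_singleton_eq_bot]
    exact Nat.cast_ne_zero.mpr hm
  have hfin := Ideal.finite_factors hm0
  have hu : ¬ ∃ y : E, (b : E) = y ^ p := by
    rintro ⟨y, hy⟩
    have hyint : IsIntegral ℤ y :=
      IsIntegral.of_pow hp.pos (hy ▸ RingOfIntegers.isIntegral_coe b)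
    refine hb ⟨⟨y, hyint⟩, RingOfIntegers.ext ?_⟩
    show (b : E) = algebraMap (𝓞 E) E (⟨y, hyint⟩ ^ p)
    rw [map_pow]
    exact hy
  obtain ⟨𝔮, h𝔮, h0, hF, hq, -, -, hres⟩ :=
    helper694.exists_prime_not_pow_residue E hp ζ hζ b hu
      (hfin.toFinset.image fun W => W.asIdeal)
  refine ⟨⟨𝔮, h𝔮, h0⟩, hq, ?_, ?_⟩
  · intro hmW
    apply hF
    refine Finset.mem_image.mpr ⟨⟨𝔮, h𝔮, h0⟩, ?_, rfl⟩
    rw [Set.Finite.mem_toFinset, Set.mem_ofPred_eq, Ideal.dvd_iff_le,
      Ideal.span_singleton_le_iff_mem]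
    exact hmW
  · rintro ⟨y, hy⟩
    refine hres ⟨y, ?_⟩
    rw [← neg_sub]
    exact neg_mem hy

/-- **M2b (weak Chebotarev for multi-Kummer extensions)**, unconditionally. -/
theorem stmt_WCKummer (p : ℕ) (hp : p.Prime) : helper14.Stmt_WCKummer p :=
  stmt_WCKummer_of p hp (stmt_KummerPrime p hp)

end Fermat.Agent.S14.helper554
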