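import Mathlib

/-!
# S14, Thaine route (#1247): the case `p = 3`

For `K = ℚ(ζ₃)`: if `α ∈ Kˣ` is *singular* (the principal fractional ideal `(α)` is the cube of a
fractional ideal, i.e. `3 ∣ ord_v(α)` at every prime `v`) and `σ(α) ∈ α⁴ · (Kˣ)³` for the
nontrivial automorphism `σ`, then `α` is a cube in `K`.

Proof: `𝓞 K` is a PID, so `α = u γ³` with `u` a unit; the units are `±ζ^k`; `-1` is a cube; and the
eigen-condition forces `ζ^k` to be a cube, which happens only for `3 ∣ k` because `K` contains no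
root of unity of order `9`.
-/

set_option autoImplicit false

namespace Fermat.Agent.S14.helper5573

open NumberField nonZeroDivisors

section PID

variable {K : Type*} [Field K] [NumberField K] [IsCyclotomicExtension {3} ℚ K]

/-- In `K = ℚ(ζ₃)` (a PID), an element whose principal fractional ideal is an `n`-th power of a
fractional ideal is a unit times an `n`-th power. -/
theorem exists_unit_mul_pow_of_spanSingleton_eq_pow {α : K} (n : ℕ)
    (A : FractionalIdeal (𝓞 K)⁰ K)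
    (hA : FractionalIdeal.spanSingleton (𝓞 K)⁰ α = A ^ n) :
    ∃ (u : (𝓞 K)ˣ) (γ : K), α = (u : K) * γ ^ n := by
  have : IsPrincipalIdealRing (𝓞 K) := IsCyclotomicExtension.Rat.three_pid K
  obtain ⟨γ, hγ⟩ := (FractionalIdeal.isPrincipal_iff A).1 inferInstance
  rw [hγ, FractionalIdeal.spanSingleton_pow] at hA
  obtain ⟨z, hz⟩ := FractionalIdeal.spanSingleton_eq_spanSingleton.1 hA.symm
  refine ⟨z, γ, ?_⟩
  rw [← hz]
  rfl

set_option linter.unusedSimpArgs false in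
/-- Every unit of `𝓞 K`, `K = ℚ(ζ₃)`, is `ζ ^ k` times a cube (of `±1`). -/
theorem unit_eq_zeta_pow_mul_cube {ζ : K} (hζ : IsPrimitiveRoot ζ 3) (u : (𝓞 K)ˣ) :
    ∃ (k : ℕ) (ε : K), ((u : 𝓞 K) : K) = ζ ^ k * ε ^ 3 := by
  have h := IsCyclotomicExtension.Rat.Three.Units.mem hζ u
  simp only [List.mem_cons, List.not_mem_nil, or_false] at h
  have hη : (((IsPrimitiveRoot.isUnit (hζ.toInteger_isPrimitiveRoot) (by decide)).unit :
      (𝓞 K)ˣ) : 𝓞 K) = hζ.toInteger := rfl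
  have hcoe : ((hζ.toInteger : 𝓞 K) : K) = ζ := rfl
  rcases h with h | h | h | h | h | h
  · exact ⟨0, 1, by simp [h]⟩
  · exact ⟨0, -1, by simp [h]; norm_num⟩
  · exact ⟨1, 1, by simp [h, hη, hcoe]⟩
  · exact ⟨1, -1, by simp [h, hη, hcoe]; ring⟩
  · exact ⟨2, 1, by simp [h, hη, hcoe]⟩
  · exact ⟨2, -1, by simp [h, hη, hcoe]; ring⟩

/-- `K = ℚ(ζ₃)` contains no root of unity of order `9`: if `ζ ^ k` is a cube then `3 ∣ k`. -/
theorem three_dvd_of_zeta_pow_eq_cube {ζ : K} (hζ : IsPrimitiveRoot ζ 3) {k : ℕ} {d : K}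
    (hd : d ^ 3 = ζ ^ k) : 3 ∣ k := by
  have hd9 : d ^ 9 = 1 := by
    have : d ^ 9 = (d ^ 3) ^ 3 := by ring
    rw [this, hd, ← pow_mul, mul_comm, pow_mul, hζ.pow_eq_one, one_pow]
  have hint : IsIntegral ℤ d := by
    refine ⟨Polynomial.X ^ 9 - 1, Polynomial.monic_X_pow_sub_C 1 (by norm_num), ?_⟩
    simp [hd9]
  -- `d` as a unit of `𝓞 K`
  let d' : 𝓞 K := ⟨d, hint⟩
  have hd'9 : d' ^ 9 = 1 := by
    apply RingOfIntegers.ext
    simpa [d'] using hd9
  let du : (𝓞 K)ˣ := Units.ofPowEqOne d' 9 hd'9 (by norm_num)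
  have hdu : (du : 𝓞 K) = d' := rfl
  have h := IsCyclotomicExtension.Rat.Three.Units.mem hζ du
  simp only [List.mem_cons, List.not_mem_nil, or_false] at h
  have hη3 : ((IsPrimitiveRoot.isUnit (hζ.toInteger_isPrimitiveRoot) (by decide)).unit :
      (𝓞 K)ˣ) ^ 3 = 1 := by
    ext
    exact congrArg (fun x : 𝓞 K => (x : K)) hζ.toInteger_cube_eq_one
  have hη6 : ((IsPrimitiveRoot.isUnit (hζ.toInteger_isPrimitiveRoot) (by decide)).unit :
      (𝓞 K)ˣ) ^ 6 = 1 := by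
    rw [show (6 : ℕ) = 3 * 2 from rfl, pow_mul, hη3, one_pow]
  have h6 : du ^ 6 = 1 := by
    rcases h with h | h | h | h | h | h <;> rw [h]
    · exact one_pow 6
    · exact Even.neg_one_pow (by decide)
    · exact hη6
    · rw [Even.neg_pow (by decide)]; exact hη6
    · rw [← pow_mul, show 2 * 6 = 6 * 2 from rfl, pow_mul, hη6, one_pow]
    · rw [Even.neg_pow (by decide), ← pow_mul, show 2 * 6 = 6 * 2 from rfl, pow_mul, hη6,
        one_pow]
  have hd6 : d ^ 6 = 1 := by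
    have h1 : ((du ^ 6 : (𝓞 K)ˣ) : 𝓞 K) = 1 := by rw [h6]; rfl
    have h2 : (((du ^ 6 : (𝓞 K)ˣ) : 𝓞 K) : K) = d ^ 6 := by
      simp [hdu, d']
    rw [← h2, h1]; rfl
  have hz : ζ ^ (2 * k) = 1 := by
    have : d ^ 6 = (d ^ 3) ^ 2 := by ring
    rw [this, hd, ← pow_mul, mul_comm] at hd6
    exact hd6
  have h3 : 3 ∣ 2 * k := hζ.dvd_of_pow_eq_one _ hz
  exact (Nat.Coprime.dvd_mul_left (by decide : Nat.Coprime 3 2)).1 h3

/-- There is an automorphism of `K = ℚ(ζ₃)` with `σ ζ = ζ ^ 2`. -/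
theorem exists_algEquiv_zeta_sq {ζ : K} (hζ : IsPrimitiveRoot ζ 3) :
    ∃ σ : K ≃ₐ[ℚ] K, σ ζ = ζ ^ 2 := by
  have hirr : Irreducible (Polynomial.cyclotomic 3 ℚ) :=
    Polynomial.cyclotomic.irreducible_rat (by norm_num)
  have hζ2 : IsPrimitiveRoot (ζ ^ 2) 3 := hζ.pow_of_coprime 2 (by decide)
  have hmin : minpoly ℚ (hζ.powerBasis ℚ).gen = minpoly ℚ (hζ2.powerBasis ℚ).gen := by
    simp only [IsPrimitiveRoot.powerBasis_gen]
    rw [← hζ.minpoly_eq_cyclotomic_of_irreducible hirr,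
      ← hζ2.minpoly_eq_cyclotomic_of_irreducible hirr]
  refine ⟨(hζ.powerBasis ℚ).equivOfMinpoly (hζ2.powerBasis ℚ) hmin, ?_⟩
  have := (hζ.powerBasis ℚ).equivOfMinpoly_gen (hζ2.powerBasis ℚ) hmin
  simpa only [IsPrimitiveRoot.powerBasis_gen] using this

/-- **The case `p = 3`**, core form: `α ≠ 0` in `K = ℚ(ζ₃)` with `(α) = A ^ 3` and
`σ α = α * c ^ 3` for an automorphism with `σ ζ = ζ ^ 2` is a cube. -/
theorem exists_eq_cube_of_spanSingleton_eq_cube_of_eigen_one {ζ : K} (hζ : IsPrimitiveRoot ζ 3)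
    {α : K} (hα : α ≠ 0) (A : FractionalIdeal (𝓞 K)⁰ K)
    (hA : FractionalIdeal.spanSingleton (𝓞 K)⁰ α = A ^ 3)
    (σ : K ≃ₐ[ℚ] K) (hσ : σ ζ = ζ ^ 2) (c : K) (hc : σ α = α * c ^ 3) :
    ∃ γ : K, α = γ ^ 3 := by
  obtain ⟨u, γ, hu⟩ := exists_unit_mul_pow_of_spanSingleton_eq_pow 3 A hA
  obtain ⟨k, ε, hk⟩ := unit_eq_zeta_pow_mul_cube hζ u
  set g : K := ε * γ with hg
  have hαg : α = ζ ^ k * g ^ 3 := by
    rw [hu, hg]
    change ((u : 𝓞 K) : K) * γ ^ 3 = _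
    rw [hk]; ring
  have hg0 : g ≠ 0 := by
    rintro h0
    apply hα
    rw [hαg, h0]; simp
  have hσg0 : σ g ≠ 0 := by simpa using hg0
  have hζ0 : ζ ≠ 0 := hζ.ne_zero (by norm_num)
  -- `ζ ^ k = (g * c / σ g) ^ 3`
  have key : (g * c / σ g) ^ 3 = ζ ^ k := by
    have h1 : σ α = (ζ ^ 2) ^ k * (σ g) ^ 3 := by
      rw [hαg, map_mul, map_pow, map_pow, hσ]
    have h2 : (ζ ^ 2) ^ k * (σ g) ^ 3 = ζ ^ k * g ^ 3 * c ^ 3 := by
      rw [← h1, hc, ← hαg]
    have h3 : (g * c) ^ 3 = ζ ^ k * (σ g) ^ 3 := by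
      have hzk : ζ ^ k ≠ 0 := pow_ne_zero _ hζ0
      apply mul_left_cancel₀ hzk
      calc ζ ^ k * (g * c) ^ 3 = ζ ^ k * g ^ 3 * c ^ 3 := by ring
        _ = (ζ ^ 2) ^ k * (σ g) ^ 3 := h2.symm
        _ = ζ ^ k * (ζ ^ k * (σ g) ^ 3) := by ring
    rw [div_pow, h3, mul_div_assoc, div_self (pow_ne_zero _ hσg0), mul_one]
  have h3k : 3 ∣ k := three_dvd_of_zeta_pow_eq_cube hζ key
  obtain ⟨m, rfl⟩ := h3k
  refine ⟨g, ?_⟩
  rw [hαg, pow_mul, hζ.pow_eq_one, one_pow, one_mul]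

/-- **The case `p = 3`**: `α ≠ 0` in `K = ℚ(ζ₃)` with `(α) = A ^ 3` and `σ α = α ^ n * c ^ 3`,
`n ≡ 1 mod 3`, for an automorphism with `σ ζ = ζ ^ 2` is a cube. -/
theorem exists_eq_cube_of_spanSingleton_eq_cube_of_eigen_pow {ζ : K} (hζ : IsPrimitiveRoot ζ 3)
    {α : K} (hα : α ≠ 0) (A : FractionalIdeal (𝓞 K)⁰ K)
    (hA : FractionalIdeal.spanSingleton (𝓞 K)⁰ α = A ^ 3)
    (σ : K ≃ₐ[ℚ] K) (hσ : σ ζ = ζ ^ 2) (n : ℕ) (hn : n % 3 = 1) (c : K)
    (hc : σ α = α ^ n * c ^ 3) :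
    ∃ γ : K, α = γ ^ 3 := by
  refine exists_eq_cube_of_spanSingleton_eq_cube_of_eigen_one hζ hα A hA σ hσ
    (α ^ (n / 3) * c) ?_
  have hn' : n = 3 * (n / 3) + 1 := by omega
  rw [hc]
  conv_lhs => rw [hn']
  ring

/-- **The case `p = 3`**: `α ≠ 0` in `K = ℚ(ζ₃)` with `(α) = A ^ 3` and
`σ α = α ^ 4 * c ^ 3` for an automorphism with `σ ζ = ζ ^ 2` is a cube. -/
theorem exists_eq_cube_of_spanSingleton_eq_cube_of_eigen {ζ : K} (hζ : IsPrimitiveRoot ζ 3)
    {α : K} (hα : α ≠ 0) (A : FractionalIdeal (𝓞 K)⁰ K)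
    (hA : FractionalIdeal.spanSingleton (𝓞 K)⁰ α = A ^ 3)
    (σ : K ≃ₐ[ℚ] K) (hσ : σ ζ = ζ ^ 2) (c : K) (hc : σ α = α ^ 4 * c ^ 3) :
    ∃ γ : K, α = γ ^ 3 :=
  exists_eq_cube_of_spanSingleton_eq_cube_of_eigen_pow hζ hα A hA σ hσ 4 rfl c hc

/-- **The case `p = 3`**, consumer form with the full `ω²`-eigen hypothesis
(`σ ζ = ζ ^ a → σ α ∈ α ^ (a ^ 2) · K ^ 3`). -/
theorem exists_eq_cube_of_spanSingleton_eq_cube_of_forall_eigen {ζ : K} (hζ : IsPrimitiveRoot ζ 3)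
    {α : K} (hα : α ≠ 0) (A : FractionalIdeal (𝓞 K)⁰ K)
    (hA : FractionalIdeal.spanSingleton (𝓞 K)⁰ α = A ^ 3)
    (heig : ∀ (σ : K ≃ₐ[ℚ] K) (a : ℕ), σ ζ = ζ ^ a → ∃ c : K, σ α = α ^ (a ^ 2) * c ^ 3) :
    ∃ γ : K, α = γ ^ 3 := by
  obtain ⟨σ, hσ⟩ := exists_algEquiv_zeta_sq hζ
  obtain ⟨c, hc⟩ := heig σ 2 hσ
  exact exists_eq_cube_of_spanSingleton_eq_cube_of_eigen hζ hα A hA σ hσ c (by simpa using hc)

end PID

section Valuation

/-! ### Adapters: valuations / `count` versus "the principal ideal is an `n`-th power" -/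

open IsDedekindDomain FractionalIdeal

variable {R K : Type*} [CommRing R] [IsDedekindDomain R] [Field K] [Algebra R K]
  [IsFractionRing R K]

/-- The `v`-adic valuation of `x ≠ 0` is `exp (-ord_v (x))`, where `ord_v` is the exponent of `v`
in the factorisation of the principal fractional ideal `(x)`. -/
theorem valuation_eq_exp_neg_count (v : HeightOneSpectrum R) {x : K} (hx : x ≠ 0) :
    v.valuation K x = WithZero.exp (-(count K v (spanSingleton R⁰ x))) := by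
  obtain ⟨a, s, rfl⟩ := IsLocalization.exists_mk'_eq R⁰ x
  have ha : a ≠ 0 := by
    rintro rfl
    simp at hx
  have hs : (s : R) ≠ 0 := nonZeroDivisors.coe_ne_zero s
  have hI : spanSingleton R⁰ (IsLocalization.mk' K a s) ≠ 0 := by
    rwa [Ne, spanSingleton_eq_zero_iff]
  have h_aJ : spanSingleton R⁰ (IsLocalization.mk' K a s) =
      spanSingleton R⁰ ((algebraMap R K) (s : R))⁻¹ *
        ((Ideal.span {a} : Ideal R) : FractionalIdeal R⁰ K) := by
    rw [coeIdeal_span_singleton, spanSingleton_mul_spanSingleton, IsFractionRing.mk'_eq_div,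
      div_eq_inv_mul]
  rw [count_well_defined K v hI h_aJ, v.valuation_of_mk', v.intValuation_if_neg ha,
    v.intValuation_if_neg hs, ← WithZero.exp_sub]
  congr 1
  ring

/-- If `n ∣ ord_v (x)` for all `v`, then `(x) = A ^ n` for a fractional ideal `A`. -/
theorem exists_spanSingleton_eq_pow_of_dvd_count {n : ℕ} (hn : n ≠ 0) {x : K} (hx : x ≠ 0)
    (h : ∀ v : HeightOneSpectrum R, (n : ℤ) ∣ count K v (spanSingleton R⁰ x)) :
    ∃ A : FractionalIdeal R⁰ K, spanSingleton R⁰ x = A ^ n := by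
  classical
  have hI : spanSingleton R⁰ x ≠ 0 := by rwa [Ne, spanSingleton_eq_zero_iff]
  choose m hm using h
  refine ⟨∏ᶠ v : HeightOneSpectrum R, (v.asIdeal : FractionalIdeal R⁰ K) ^ (m v), ?_⟩
  have hfin : Function.HasFiniteMulSupport
      (fun v : HeightOneSpectrum R => (v.asIdeal : FractionalIdeal R⁰ K) ^ (m v)) := by
    have h0 := finite_factors (K := K) (spanSingleton R⁰ x)
    rw [Filter.eventually_cofinite] at h0
    refine h0.subset ?_
    intro v hv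
    simp only [Set.mem_ofPred_eq]
    intro hc
    apply hv
    have h1 := hm v
    rw [hc] at h1
    rcases Int.mul_eq_zero.1 h1.symm with h2 | h2
    · exact absurd (by exact_mod_cast h2) hn
    · change (v.asIdeal : FractionalIdeal R⁰ K) ^ (m v) = 1
      rw [h2, zpow_zero]
  rw [finprod_pow hfin, ← finprod_heightOneSpectrum_factorization' (K := K) hI]
  apply finprod_congr
  intro v
  rw [← zpow_natCast, ← zpow_mul, hm v, mul_comm]

/-- If the `v`-adic valuation of `x` is `exp (n * k_v)` for all `v`, then `(x) = A ^ n`. -/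
theorem exists_spanSingleton_eq_pow_of_valuation_eq_exp {n : ℕ} (hn : n ≠ 0) {x : K} (hx : x ≠ 0)
    (h : ∀ v : HeightOneSpectrum R, ∃ k : ℤ, v.valuation K x = WithZero.exp ((n : ℤ) * k)) :
    ∃ A : FractionalIdeal R⁰ K, spanSingleton R⁰ x = A ^ n := by
  refine exists_spanSingleton_eq_pow_of_dvd_count hn hx fun v => ?_
  obtain ⟨k, hk⟩ := h v
  rw [valuation_eq_exp_neg_count v hx, WithZero.exp_inj] at hk
  exact ⟨-k, by linarith⟩

/-- If the `v`-adic valuation of `x` is an `n`-th power in the value group for all `v`, then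
`(x) = A ^ n`. -/
theorem exists_spanSingleton_eq_pow_of_valuation_eq_pow {n : ℕ} (hn : n ≠ 0) {x : K} (hx : x ≠ 0)
    (h : ∀ v : HeightOneSpectrum R, ∃ y : WithZero (Multiplicative ℤ), v.valuation K x = y ^ n) :
    ∃ A : FractionalIdeal R⁰ K, spanSingleton R⁰ x = A ^ n := by
  refine exists_spanSingleton_eq_pow_of_valuation_eq_exp hn hx fun v => ?_
  obtain ⟨y, hy⟩ := h v
  have hy0 : y ≠ 0 := by
    rintro rfl
    rw [zero_pow hn] at hy
    exact hx ((Valuation.zero_iff _).1 hy)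
  refine ⟨WithZero.log y, ?_⟩
  rw [hy, ← WithZero.exp_log (pow_ne_zero n hy0), WithZero.log_pow]
  simp

end Valuation

section Final

/-! ### Consumer forms with valuation hypotheses -/

open IsDedekindDomain

variable {K : Type*} [Field K] [NumberField K] [IsCyclotomicExtension {3} ℚ K]

/-- **The case `p = 3`**, valuation form: if every `v`-adic valuation of `α ≠ 0` is a cube in the
value group and `α` is an `ω²`-eigenvector modulo cubes, then `α` is a cube. -/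
theorem exists_eq_cube_of_valuation_eq_pow_of_forall_eigen {ζ : K} (hζ : IsPrimitiveRoot ζ 3)
    {α : K} (hα : α ≠ 0)
    (hval : ∀ v : HeightOneSpectrum (𝓞 K), ∃ y : WithZero (Multiplicative ℤ),
      v.valuation K α = y ^ 3)
    (heig : ∀ (σ : K ≃ₐ[ℚ] K) (a : ℕ), σ ζ = ζ ^ a → ∃ c : K, σ α = α ^ (a ^ 2) * c ^ 3) :
    ∃ γ : K, α = γ ^ 3 := by
  obtain ⟨A, hA⟩ := exists_spanSingleton_eq_pow_of_valuation_eq_pow (R := 𝓞 K) (n := 3)
    (by norm_num) hα hval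
  exact exists_eq_cube_of_spanSingleton_eq_cube_of_forall_eigen hζ hα A hA heig

/-- **The case `p = 3`**, valuation form with explicit exponents `exp (3 * k)`. -/
theorem exists_eq_cube_of_valuation_eq_exp_of_forall_eigen {ζ : K} (hζ : IsPrimitiveRoot ζ 3)
    {α : K} (hα : α ≠ 0)
    (hval : ∀ v : HeightOneSpectrum (𝓞 K), ∃ k : ℤ, v.valuation K α = WithZero.exp (3 * k))
    (heig : ∀ (σ : K ≃ₐ[ℚ] K) (a : ℕ), σ ζ = ζ ^ a → ∃ c : K, σ α = α ^ (a ^ 2) * c ^ 3) :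
    ∃ γ : K, α = γ ^ 3 := by
  obtain ⟨A, hA⟩ := exists_spanSingleton_eq_pow_of_valuation_eq_exp (R := 𝓞 K) (n := 3)
    (by norm_num) hα (by simpa using hval)
  exact exists_eq_cube_of_spanSingleton_eq_cube_of_forall_eigen hζ hα A hA heig

/-- **The case `p = 3`**, `count` form: `3 ∣ ord_v (α)` for all `v`. -/
theorem exists_eq_cube_of_dvd_count_of_forall_eigen {ζ : K} (hζ : IsPrimitiveRoot ζ 3)
    {α : K} (hα : α ≠ 0)
    (hval : ∀ v : HeightOneSpectrum (𝓞 K),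
      (3 : ℤ) ∣ FractionalIdeal.count K v (FractionalIdeal.spanSingleton (𝓞 K)⁰ α))
    (heig : ∀ (σ : K ≃ₐ[ℚ] K) (a : ℕ), σ ζ = ζ ^ a → ∃ c : K, σ α = α ^ (a ^ 2) * c ^ 3) :
    ∃ γ : K, α = γ ^ 3 := by
  obtain ⟨A, hA⟩ := exists_spanSingleton_eq_pow_of_dvd_count (R := 𝓞 K) (n := 3)
    (by norm_num) hα (by simpa using hval)
  exact exists_eq_cube_of_spanSingleton_eq_cube_of_forall_eigen hζ hα A hA heig

end Final

end Fermat.Agent.S14.helper5573
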