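import Fermat.Agent.S14.helper1934_ThaineSpec
import Fermat.Agent.S14.helper5573_PThree

/-!
# S14, Thaine route: `Stmt_Core 3` (the Kummer core for `p = 3`) in the exact Spec shape

`helper1934.Stmt_Core 3` holds: in `K = ℚ(ζ₃)`, a nonzero `α ∈ 𝓞 K` with `(α) = I ^ 3` which is an
`ω²`-eigenvector modulo cubes is a cube in `𝓞 K`.  (The local hypotheses at `1 - ζ` are not used.)
-/

set_option autoImplicit false

namespace Fermat.Agent.S14.helper5573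

open NumberField nonZeroDivisors

section

variable {K : Type} [Field K] [NumberField K] [IsCyclotomicExtension {3} ℚ K]

set_option linter.unusedSimpArgs false in
/-- Every unit of `𝓞 K`, `K = ℚ(ζ₃)`, is `ζ ^ k` times a cube, inside `𝓞 K`. -/
theorem unit_eq_zeta_pow_mul_cube_int {ζ : 𝓞 K} (hζ : IsPrimitiveRoot ζ 3) (u : (𝓞 K)ˣ) :
    ∃ (k : ℕ) (ε : 𝓞 K), (u : 𝓞 K) = ζ ^ k * ε ^ 3 := by
  have hζK : IsPrimitiveRoot (ζ : K) 3 :=
    hζ.map_of_injective (FaithfulSMul.algebraMap_injective (𝓞 K) K)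
  have h := IsCyclotomicExtension.Rat.Three.Units.mem hζK u
  simp only [List.mem_cons, List.not_mem_nil, or_false] at h
  have hη : (((IsPrimitiveRoot.isUnit (hζK.toInteger_isPrimitiveRoot) (by decide)).unit :
      (𝓞 K)ˣ) : 𝓞 K) = ζ := by
    apply RingOfIntegers.ext
    rfl
  rcases h with h | h | h | h | h | h
  · exact ⟨0, 1, by simp [h]⟩
  · exact ⟨0, -1, by simp [h]; norm_num⟩
  · exact ⟨1, 1, by simp [h, hη]⟩
  · exact ⟨1, -1, by simp [h, hη]; ring⟩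
  · exact ⟨2, 1, by simp [h, hη]⟩
  · exact ⟨2, -1, by simp [h, hη]; ring⟩

/-- There is a ring automorphism of `𝓞 K`, `K = ℚ(ζ₃)`, with `g ζ = ζ ^ 2`. -/
theorem exists_ringEquiv_zeta_sq {ζ : 𝓞 K} (hζ : IsPrimitiveRoot ζ 3) :
    ∃ g : 𝓞 K ≃+* 𝓞 K, g ζ = ζ ^ 2 := by
  have hζK : IsPrimitiveRoot (ζ : K) 3 :=
    hζ.map_of_injective (FaithfulSMul.algebraMap_injective (𝓞 K) K)
  obtain ⟨σ, hσ⟩ := exists_algEquiv_zeta_sq hζK
  refine ⟨RingOfIntegers.mapRingEquiv (σ : K ≃+* K), ?_⟩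
  apply RingOfIntegers.ext
  simpa using hσ

end

/-- **`Stmt_Core 3`**: the Kummer core of the Thaine route for `p = 3`. -/
theorem stmt_Core_three [Fact (Nat.Prime 3)] : helper1934.Stmt_Core 3 := by
  intro K _ _ _ ζ hζ α hα hI _ _ heig
  have hpid : IsPrincipalIdealRing (𝓞 K) := IsCyclotomicExtension.Rat.three_pid K
  have hζK : IsPrimitiveRoot (ζ : K) 3 :=
    hζ.map_of_injective (FaithfulSMul.algebraMap_injective (𝓞 K) K)
  -- `α = u * γ ^ 3`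
  obtain ⟨I, hI⟩ := hI
  obtain ⟨γ, hγ⟩ : ∃ γ : 𝓞 K, I = Ideal.span {γ} :=
    ⟨Submodule.IsPrincipal.generator I, (Ideal.span_singleton_generator I).symm⟩
  rw [hγ, Ideal.span_singleton_pow, Ideal.span_singleton_eq_span_singleton] at hI
  obtain ⟨u, hu⟩ := hI.symm
  obtain ⟨k, ε, hk⟩ := unit_eq_zeta_pow_mul_cube_int hζ u
  set g₀ : 𝓞 K := ε * γ with hg₀
  have hαg : α = ζ ^ k * g₀ ^ 3 := by
    rw [← hu, hk, hg₀]; ring
  have hg₀0 : g₀ ≠ 0 := by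
    rintro h0
    apply hα
    rw [hαg, h0]; simp
  obtain ⟨g, hg⟩ := exists_ringEquiv_zeta_sq hζ
  obtain ⟨c, d, hc, hd, hcd⟩ := heig g 2 hg
  have hgg₀ : g g₀ ≠ 0 := by simpa using hg₀0
  have hζ0 : ζ ≠ 0 := hζ.ne_zero (by norm_num)
  -- in `𝓞 K`: `(g g₀ * c) ^ 3 = ζ ^ (2 k) * (g₀ ^ 4 * d) ^ 3`
  have h3 : (g g₀ * c) ^ 3 = ζ ^ (2 * k) * (g₀ ^ 4 * d) ^ 3 := by
    have h1 : g α = (ζ ^ 2) ^ k * (g g₀) ^ 3 := by
      rw [hαg, map_mul, map_pow, map_pow, hg]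
    have hzk : (ζ ^ 2) ^ k ≠ 0 := pow_ne_zero _ (pow_ne_zero _ hζ0)
    apply mul_left_cancel₀ hzk
    calc (ζ ^ 2) ^ k * (g g₀ * c) ^ 3 = g α * c ^ 3 := by rw [h1]; ring
      _ = α ^ (2 ^ 2) * d ^ 3 := hcd
      _ = (ζ ^ k * g₀ ^ 3) ^ 4 * d ^ 3 := by rw [← hαg]; norm_num
      _ = (ζ ^ 2) ^ k * (ζ ^ (2 * k) * (g₀ ^ 4 * d) ^ 3) := by ring
  -- pass to `K`
  have hden : ((g₀ ^ 4 * d : 𝓞 K) : K) ≠ 0 := by
    have : g₀ ^ 4 * d ≠ 0 := mul_ne_zero (pow_ne_zero _ hg₀0) hd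
    exact_mod_cast this
  have key : (((g g₀ * c : 𝓞 K) : K) / ((g₀ ^ 4 * d : 𝓞 K) : K)) ^ 3 = (ζ : K) ^ (2 * k) := by
    have h3K := congrArg (fun x : 𝓞 K => (x : K)) h3
    simp only [map_mul, map_pow] at h3K
    rw [div_pow]
    simp only [map_mul, map_pow]
    rw [h3K, mul_div_assoc, div_self, mul_one]
    simpa [map_mul, map_pow] using pow_ne_zero 3 hden
  have h32 : 3 ∣ 2 * k := three_dvd_of_zeta_pow_eq_cube hζK key
  have h3k : 3 ∣ k := (Nat.Coprime.dvd_mul_left (by decide : Nat.Coprime 3 2)).1 h32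
  obtain ⟨m, rfl⟩ := h3k
  refine ⟨g₀, ?_⟩
  rw [hαg, pow_mul, hζ.pow_eq_one, one_pow, one_mul]

end Fermat.Agent.S14.helper5573
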