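import Fermat.Agent.S14.helper5611_PZUnfold

/-!
# S14 / W0: partial zeta functions of two ideal classes differ by a bounded function

`partialZeta C s = ∑_{[I] = C} N(I)^(-s)`.  Main results (any number field `K`):

* `summable_partialZeta` : the series converges for `s > 1`;
* `partialZeta_diff_bounded` : for two classes `C`, `C'` there is `M` with
  `|partialZeta C s - partialZeta C' s| ≤ M` for all `s ∈ (1, 2]`.

Proof ("Epstein normalisation", no tent functions, no zeta residue): with the weight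
`phi a = nrm a ^ (-3n) / ∑_u nrm (u a) ^ (-3n)` on `𝓞 K` one has
`partialZeta C s = N(b)^s * ∑_{a ∈ b} phi a * |N a|^(-s)` for any integral `b ∈ C⁻¹`
(`hasSum_partialZeta`), the summand changes by `O(nrm a ^ (-(n+1)))` under a shift
(`abs_F_add_sub_le_gdec`), so `|S ⊤ s - N(b) * S b s| ≤ B` (`abs_S_top_sub_le`), and
`S ⊤ s = O(1/(s-1))` by the lattice `p`-series bound of Mathlib.
-/

set_option autoImplicit false

namespace Fermat.Agent.S14.helper5611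

open NumberField NumberField.InfinitePlace NumberField.mixedEmbedding Module

open scoped Classical nonZeroDivisors

variable {K : Type*} [Field K] [NumberField K]

attribute [local irreducible] nrm mn Nm H phi F cK

/-! ### A bound for the `p`-series -/

lemma telescope_aux {δ : ℝ} (hδ : 0 < δ) {m : ℝ} (hm : 1 ≤ m) :
    δ * (m + 1) ^ (-(1 + δ)) ≤ m ^ (-δ) - (m + 1) ^ (-δ) := by
  have hm0 : 0 < m := by linarith
  have hm1 : 0 < m + 1 := by linarith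
  have hq : 0 < m / (m + 1) := by positivity
  have h1 : m ^ (-δ) = (m + 1) ^ (-δ) * (m / (m + 1)) ^ (-δ) := by
    rw [← Real.mul_rpow hm1.le hq.le]
    congr 1
    field_simp
  have h2 : 1 + δ / (m + 1) ≤ (m / (m + 1)) ^ (-δ) := by
    rw [Real.rpow_def_of_pos hq]
    have hlog : Real.log (m / (m + 1)) ≤ m / (m + 1) - 1 := Real.log_le_sub_one_of_pos hq
    have e : m / (m + 1) - 1 = -(1 / (m + 1)) := by field_simp; ring
    rw [e] at hlog
    have h3 : δ / (m + 1) ≤ Real.log (m / (m + 1)) * (-δ) := by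
      have e2 : δ / (m + 1) = (-(1 / (m + 1))) * (-δ) := by ring
      rw [e2]
      exact mul_le_mul_of_nonpos_right hlog (by linarith)
    linarith [Real.add_one_le_exp (Real.log (m / (m + 1)) * (-δ))]
  have h3 : (m + 1) ^ (-(1 + δ)) = (m + 1) ^ (-δ) / (m + 1) := by
    rw [show -(1 + δ) = -δ - 1 by ring, Real.rpow_sub_one hm1.ne']
  have hpos : 0 < (m + 1) ^ (-δ) := Real.rpow_pos_of_pos hm1 _
  have h4 : (m + 1) ^ (-δ) * (1 + δ / (m + 1)) ≤ (m + 1) ^ (-δ) * (m / (m + 1)) ^ (-δ) :=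
    mul_le_mul_of_nonneg_left h2 hpos.le
  have e2 : δ * ((m + 1) ^ (-δ) / (m + 1))
      = (m + 1) ^ (-δ) * (1 + δ / (m + 1)) - (m + 1) ^ (-δ) := by
    field_simp
    ring
  rw [h1, h3, e2]
  linarith

lemma sum_range_rpow_le {δ : ℝ} (hδ : 0 < δ) (N : ℕ) :
    ∑ k ∈ Finset.range (N + 2), (k : ℝ) ^ (-(1 + δ))
      ≤ 1 + (1 - ((N : ℝ) + 1) ^ (-δ)) / δ := by
  induction N with
  | zero =>
    have h0 : ((0 : ℕ) : ℝ) ^ (-(1 + δ)) = 0 := by
      rw [Nat.cast_zero]; exact Real.zero_rpow (by linarith)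
    have h1 : ((1 : ℕ) : ℝ) ^ (-(1 + δ)) = 1 := by rw [Nat.cast_one, Real.one_rpow]
    rw [Finset.sum_range_succ, Finset.sum_range_one, h0, h1]
    simp
  | succ N ih =>
    rw [Finset.sum_range_succ]
    have hN : (1 : ℝ) ≤ (N : ℝ) + 1 := by
      have := N.cast_nonneg (α := ℝ); linarith
    have h := telescope_aux hδ hN
    have hc : ((N + 1 + 1 : ℕ) : ℝ) = (N : ℝ) + 1 + 1 := by push_cast; ring
    have hc' : ((N + 1 : ℕ) : ℝ) + 1 = (N : ℝ) + 1 + 1 := by push_cast; ring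
    rw [hc, hc']
    have h5 : ((N : ℝ) + 1 + 1) ^ (-(1 + δ))
        ≤ (((N : ℝ) + 1) ^ (-δ) - ((N : ℝ) + 1 + 1) ^ (-δ)) / δ := by
      rw [le_div_iff₀ hδ, mul_comm]
      exact h
    have e : 1 + (1 - ((N : ℝ) + 1 + 1) ^ (-δ)) / δ
        = (1 + (1 - ((N : ℝ) + 1) ^ (-δ)) / δ)
          + (((N : ℝ) + 1) ^ (-δ) - ((N : ℝ) + 1 + 1) ^ (-δ)) / δ := by
      field_simp
      ring
    rw [e]
    exact add_le_add ih h5

lemma tsum_nat_rpow_le {δ : ℝ} (hδ : 0 < δ) :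
    ∑' k : ℕ, (k : ℝ) ^ (-(1 + δ)) ≤ 1 + 1 / δ := by
  refine Real.tsum_le_of_sum_range_le (fun k ↦ Real.rpow_nonneg (Nat.cast_nonneg k) _)
    (fun n ↦ ?_)
  have h1 : ∑ k ∈ Finset.range n, (k : ℝ) ^ (-(1 + δ))
      ≤ ∑ k ∈ Finset.range (n + 2), (k : ℝ) ^ (-(1 + δ)) :=
    Finset.sum_le_sum_of_subset_of_nonneg (Finset.range_mono (by omega))
      (fun k _ _ ↦ Real.rpow_nonneg (Nat.cast_nonneg k) _)
  have h2 := sum_range_rpow_le hδ n
  have h3 : (1 - ((n : ℝ) + 1) ^ (-δ)) / δ ≤ 1 / δ := by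
    apply div_le_div_of_nonneg_right _ hδ.le
    have : 0 ≤ ((n : ℝ) + 1) ^ (-δ) := Real.rpow_nonneg (by positivity) _
    linarith
  linarith

/-! ### The size of `S ⊤ s` -/

lemma exists_S_top_bound {R : ℝ} (hR : IsBal K R) :
    ∃ C₀ : ℝ, 0 ≤ C₀ ∧ ∀ s : ℝ, 1 < s → s ≤ 2 → (s - 1) * S (⊤ : Ideal (𝓞 K)) s ≤ C₀ := by
  obtain ⟨A, hA, hAb⟩ := exists_tsum_nrm_rpow_le (K := K)
  have hR1 := hR.1
  obtain ⟨c, hcdef⟩ : ∃ c : ℝ, c = max 1 A⁻¹ := ⟨_, rfl⟩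
  have hc1 : 1 ≤ c := by rw [hcdef]; exact le_max_left _ _
  have hcA : A⁻¹ ≤ c := by rw [hcdef]; exact le_max_right _ _
  refine ⟨2 * R ^ bigM K * c ^ (2 * finrank ℚ K), by positivity, fun s hs1 hs2 ↦ ?_⟩
  have hn1 : (1 : ℝ) ≤ finrank ℚ K := by exact_mod_cast finrank_pos' (K := K)
  have hr : -((finrank ℚ K : ℝ) * s) < -(finrank ℚ K : ℝ) := by nlinarith
  have hsum := summable_nrm_rpow (K := K) (-((finrank ℚ K : ℝ) * s)) hr
  have h1 : S (⊤ : Ideal (𝓞 K)) s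
      ≤ R ^ bigM K * ∑' a : 𝓞 K, nrm K a ^ (-((finrank ℚ K : ℝ) * s)) := by
    unfold S
    have h0 : Set.indicator ((⊤ : Ideal (𝓞 K)) : Set (𝓞 K)) (F K s) = F K s := by
      funext a; simp
    rw [h0, ← tsum_mul_left]
    refine (summable_F hR hs1 hs2).tsum_le_tsum (fun a ↦ ?_) (hsum.mul_left _)
    by_cases ha : a = 0
    · rw [ha, F_zero]
      exact mul_nonneg (by positivity) (Real.rpow_nonneg (nrm_nonneg _) _)
    · exact F_le₄ hR ha hs1.le (by linarith)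
  have h2 := hAb (-((finrank ℚ K : ℝ) * s)) hr
  have hδ : 0 < (finrank ℚ K : ℝ) * (s - 1) := by nlinarith
  have h3 : ∑' k : ℕ, (k : ℝ) ^ ((finrank ℚ K : ℝ) - 1 + -((finrank ℚ K : ℝ) * s))
      ≤ 1 + 1 / ((finrank ℚ K : ℝ) * (s - 1)) := by
    have e : (finrank ℚ K : ℝ) - 1 + -((finrank ℚ K : ℝ) * s)
        = -(1 + (finrank ℚ K : ℝ) * (s - 1)) := by ring
    rw [e]
    exact tsum_nat_rpow_le hδ
  have h4 : A ^ (-((finrank ℚ K : ℝ) * s)) ≤ c ^ (2 * finrank ℚ K) := by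
    rw [Real.rpow_neg hA.le, ← Real.inv_rpow hA.le]
    calc (A⁻¹) ^ ((finrank ℚ K : ℝ) * s) ≤ c ^ ((finrank ℚ K : ℝ) * s) :=
          Real.rpow_le_rpow (inv_nonneg.mpr hA.le) hcA (by nlinarith)
      _ ≤ c ^ (((2 * finrank ℚ K : ℕ)) : ℝ) :=
          Real.rpow_le_rpow_of_exponent_le hc1 (by push_cast; nlinarith)
      _ = c ^ (2 * finrank ℚ K) := Real.rpow_natCast _ _
  have hT0 : 0 ≤ ∑' k : ℕ, (k : ℝ) ^ ((finrank ℚ K : ℝ) - 1 + -((finrank ℚ K : ℝ) * s)) :=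
    tsum_nonneg (fun k ↦ Real.rpow_nonneg (Nat.cast_nonneg k) _)
  have hA0 : 0 ≤ A ^ (-((finrank ℚ K : ℝ) * s)) := Real.rpow_nonneg hA.le _
  have hRM : 0 ≤ R ^ bigM K := by positivity
  have hc0 : 0 ≤ c ^ (2 * finrank ℚ K) := by positivity
  have h5 : S (⊤ : Ideal (𝓞 K)) s
      ≤ R ^ bigM K * (c ^ (2 * finrank ℚ K) * (1 + 1 / ((finrank ℚ K : ℝ) * (s - 1)))) := by
    refine h1.trans (mul_le_mul_of_nonneg_left (h2.trans ?_) hRM)
    exact mul_le_mul h4 h3 hT0 hc0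
  have hs0 : 0 < s - 1 := by linarith
  have h6 : (s - 1) * (1 + 1 / ((finrank ℚ K : ℝ) * (s - 1))) ≤ 2 := by
    have e : (s - 1) * (1 + 1 / ((finrank ℚ K : ℝ) * (s - 1)))
        = (s - 1) + 1 / (finrank ℚ K : ℝ) := by
      field_simp
    rw [e]
    have : 1 / (finrank ℚ K : ℝ) ≤ 1 := by
      rw [div_le_one (by linarith)]; exact hn1
    linarith
  calc (s - 1) * S (⊤ : Ideal (𝓞 K)) s
      ≤ (s - 1) * (R ^ bigM K
          * (c ^ (2 * finrank ℚ K) * (1 + 1 / ((finrank ℚ K : ℝ) * (s - 1))))) :=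
        mul_le_mul_of_nonneg_left h5 hs0.le
    _ = R ^ bigM K * c ^ (2 * finrank ℚ K)
          * ((s - 1) * (1 + 1 / ((finrank ℚ K : ℝ) * (s - 1)))) := by ring
    _ ≤ R ^ bigM K * c ^ (2 * finrank ℚ K) * 2 :=
        mul_le_mul_of_nonneg_left h6 (mul_nonneg hRM hc0)
    _ = 2 * R ^ bigM K * c ^ (2 * finrank ℚ K) := by ring

/-! ### The partial zeta functions -/

variable (K) in
/-- The partial zeta function of the ideal class `C`, for real `s`. -/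
noncomputable def partialZeta (C : ClassGroup (𝓞 K)) (s : ℝ) : ℝ :=
  ∑' I : {I : (Ideal (𝓞 K))⁰ // ClassGroup.mk0 I = C},
    (Ideal.absNorm (I.1 : Ideal (𝓞 K)) : ℝ) ^ (-s)

lemma exists_ideal_of_class (C : ClassGroup (𝓞 K)) :
    ∃ b : (Ideal (𝓞 K))⁰, ClassGroup.mk0 b = C⁻¹ :=
  ClassGroup.mk0_surjective C⁻¹

lemma partialZeta_eq {R : ℝ} (hR : IsBal K R) (b : (Ideal (𝓞 K))⁰) (C : ClassGroup (𝓞 K))
    (hbC : ClassGroup.mk0 b = C⁻¹) {s : ℝ} (hs1 : 1 < s) (hs2 : s ≤ 2) :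
    partialZeta K C s = (Ideal.absNorm (b : Ideal (𝓞 K)) : ℝ) ^ s * S (b : Ideal (𝓞 K)) s :=
  (hasSum_partialZeta hR b C hbC hs1 hs2).tsum_eq

lemma partialZeta_one_eq {R : ℝ} (hR : IsBal K R) {s : ℝ} (hs1 : 1 < s) (hs2 : s ≤ 2) :
    partialZeta K (1 : ClassGroup (𝓞 K)) s = S (⊤ : Ideal (𝓞 K)) s := by
  have h := partialZeta_eq hR (1 : (Ideal (𝓞 K))⁰) (1 : ClassGroup (𝓞 K))
    (by rw [map_one, inv_one]) hs1 hs2
  have e : (((1 : (Ideal (𝓞 K))⁰)) : Ideal (𝓞 K)) = ⊤ := Ideal.one_eq_top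
  rw [e, Ideal.absNorm_top, Nat.cast_one, Real.one_rpow, one_mul] at h
  exact h

/-- The series defining `partialZeta C s` converges for `1 < s ≤ 2`. -/
lemma summable_partialZeta_of_le_two (C : ClassGroup (𝓞 K)) {s : ℝ} (hs1 : 1 < s) (hs2 : s ≤ 2) :
    Summable fun I : {I : (Ideal (𝓞 K))⁰ // ClassGroup.mk0 I = C} ↦
      (Ideal.absNorm (I.1 : Ideal (𝓞 K)) : ℝ) ^ (-s) := by
  obtain ⟨R, hR⟩ := exists_isBal K
  obtain ⟨b, hb⟩ := exists_ideal_of_class C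
  exact (hasSum_partialZeta hR b C hb hs1 hs2).summable

/-- The series defining `partialZeta C s` converges for `1 < s`. -/
theorem summable_partialZeta (C : ClassGroup (𝓞 K)) {s : ℝ} (hs1 : 1 < s) :
    Summable fun I : {I : (Ideal (𝓞 K))⁰ // ClassGroup.mk0 I = C} ↦
      (Ideal.absNorm (I.1 : Ideal (𝓞 K)) : ℝ) ^ (-s) := by
  by_cases hs2 : s ≤ 2
  · exact summable_partialZeta_of_le_two C hs1 hs2
  · have h2 := summable_partialZeta_of_le_two C (s := 2) (by norm_num) le_rfl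
    refine Summable.of_nonneg_of_le (fun I ↦ Real.rpow_nonneg (Nat.cast_nonneg _) _)
      (fun I ↦ ?_) h2
    have hI0 : (I.1 : Ideal (𝓞 K)) ≠ ⊥ := mem_nonZeroDivisors_iff_ne_zero.mp I.1.2
    have hN : (1 : ℝ) ≤ (Ideal.absNorm (I.1 : Ideal (𝓞 K)) : ℝ) := by
      have : Ideal.absNorm (I.1 : Ideal (𝓞 K)) ≠ 0 := by
        rw [Ne, Ideal.absNorm_eq_zero_iff]; exact hI0
      exact_mod_cast Nat.pos_of_ne_zero this
    exact Real.rpow_le_rpow_of_exponent_le hN (by linarith)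

/-- Every partial zeta function is within a bounded distance of that of the trivial class. -/
theorem abs_partialZeta_sub_one_le (C : ClassGroup (𝓞 K)) :
    ∃ B : ℝ, ∀ s : ℝ, 1 < s → s ≤ 2 →
      |partialZeta K C s - partialZeta K (1 : ClassGroup (𝓞 K)) s| ≤ B := by
  obtain ⟨R, hR⟩ := exists_isBal K
  obtain ⟨b, hb⟩ := exists_ideal_of_class C
  have hb0 : (b : Ideal (𝓞 K)) ≠ ⊥ := mem_nonZeroDivisors_iff_ne_zero.mp b.2
  obtain ⟨B, hB⟩ := abs_S_top_sub_le hR (b : Ideal (𝓞 K)) hb0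
  obtain ⟨C₀, hC₀0, hC₀⟩ := exists_S_top_bound hR
  obtain ⟨N, hNdef⟩ : ∃ N : ℝ, N = (Ideal.absNorm (b : Ideal (𝓞 K)) : ℝ) := ⟨_, rfl⟩
  have hN1 : 1 ≤ N := by
    have : Ideal.absNorm (b : Ideal (𝓞 K)) ≠ 0 := by
      rw [Ne, Ideal.absNorm_eq_zero_iff]; exact hb0
    rw [hNdef]
    exact_mod_cast Nat.pos_of_ne_zero this
  have hB0 : 0 ≤ B := (abs_nonneg _).trans (hB 2 (by norm_num) le_rfl)
  refine ⟨(N - 1) * (C₀ + B) + B, fun s hs1 hs2 ↦ ?_⟩
  rw [partialZeta_eq hR b C hb hs1 hs2, partialZeta_one_eq hR hs1 hs2, ← hNdef]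
  have hX := hB s hs1 hs2
  rw [← hNdef] at hX
  obtain ⟨X, hXdef⟩ : ∃ X : ℝ, X = N * S (b : Ideal (𝓞 K)) s := ⟨_, rfl⟩
  obtain ⟨T, hTdef⟩ : ∃ T : ℝ, T = S (⊤ : Ideal (𝓞 K)) s := ⟨_, rfl⟩
  rw [← hXdef, ← hTdef] at hX
  have hT := hC₀ s hs1 hs2
  rw [← hTdef] at hT
  have hN0 : 0 < N := by linarith
  have hpow : N ^ s = N ^ (s - 1) * N := by
    rw [← Real.rpow_add_one hN0.ne']; ring_nf
  have hle : N ^ (s - 1) ≤ 1 + (s - 1) * (N - 1) := by
    have := rpow_one_add_le_one_add_mul_self (s := N - 1) (by linarith) (p := s - 1)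
      (by linarith) (by linarith)
    simpa using this
  have hge : 1 ≤ N ^ (s - 1) := Real.one_le_rpow hN1 (by linarith)
  have hSb : 0 ≤ S (b : Ideal (𝓞 K)) s :=
    tsum_nonneg (fun a ↦ Set.indicator_nonneg (fun a _ ↦ F_nonneg s a) a)
  have hX0 : 0 ≤ X := by rw [hXdef]; exact mul_nonneg hN0.le hSb
  have hT0 : 0 ≤ T := by
    rw [hTdef]; exact tsum_nonneg (fun a ↦ Set.indicator_nonneg (fun a _ ↦ F_nonneg s a) a)
  have e : N ^ s * S (b : Ideal (𝓞 K)) s - T = (N ^ (s - 1) - 1) * X + (X - T) := by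
    rw [hpow, hXdef]; ring
  rw [← hTdef, e]
  have hXT := abs_le.mp hX
  have h1 : (N ^ (s - 1) - 1) * X ≤ (N - 1) * (C₀ + B) := by
    have hs0 : 0 ≤ s - 1 := by linarith
    calc (N ^ (s - 1) - 1) * X ≤ ((s - 1) * (N - 1)) * X :=
          mul_le_mul_of_nonneg_right (by linarith) hX0
      _ ≤ ((s - 1) * (N - 1)) * (T + B) := by
          apply mul_le_mul_of_nonneg_left (by linarith)
          exact mul_nonneg hs0 (by linarith)
      _ = (N - 1) * ((s - 1) * T + (s - 1) * B) := by ring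
      _ ≤ (N - 1) * (C₀ + B) := by
          apply mul_le_mul_of_nonneg_left _ (by linarith)
          have : (s - 1) * B ≤ 1 * B := mul_le_mul_of_nonneg_right (by linarith) hB0
          linarith
  have h2 : 0 ≤ (N ^ (s - 1) - 1) * X := mul_nonneg (by linarith) hX0
  rw [abs_le]
  constructor <;> linarith

/-- **W0: partial zeta functions of two ideal classes differ by a bounded function on
`(1, 2]`.** -/
theorem partialZeta_diff_bounded (C C' : ClassGroup (𝓞 K)) :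
    ∃ M : ℝ, ∀ s : ℝ, 1 < s → s ≤ 2 → |partialZeta K C s - partialZeta K C' s| ≤ M := by
  obtain ⟨B, hB⟩ := abs_partialZeta_sub_one_le C
  obtain ⟨B', hB'⟩ := abs_partialZeta_sub_one_le C'
  refine ⟨B + B', fun s hs1 hs2 ↦ ?_⟩
  have h1 := abs_le.mp (hB s hs1 hs2)
  have h2 := abs_le.mp (hB' s hs1 hs2)
  rw [abs_le]
  constructor <;> linarith

/-- The statement in the exact shape of `helper1934.Stmt_PartialZetaDiff`
(open interval `(1, 2)`, explicit series). -/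
theorem partialZetaDiff_stmt (K : Type) [Field K] [NumberField K] (C C' : ClassGroup (𝓞 K)) :
    ∃ M : ℝ, ∀ s : ℝ, 1 < s → s < 2 →
      |(∑' I : {I : (Ideal (𝓞 K))⁰ // ClassGroup.mk0 I = C},
            (Ideal.absNorm (I.1 : Ideal (𝓞 K)) : ℝ) ^ (-s)) -
        (∑' I : {I : (Ideal (𝓞 K))⁰ // ClassGroup.mk0 I = C'},
            (Ideal.absNorm (I.1 : Ideal (𝓞 K)) : ℝ) ^ (-s))| ≤ M := by
  obtain ⟨M, hM⟩ := partialZeta_diff_bounded (K := K) C C'
  exact ⟨M, fun s hs1 hs2 ↦ hM s hs1 hs2.le⟩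

end Fermat.Agent.S14.helper5611
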