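import Mathlib

/-!
# S14 / W0 ("Epstein normalisation" route), part 1: basic size functions on `𝓞 K`

For an algebraic integer `a` of a number field `K` of degree `n` we use

* `nrm a`  : the sup norm of `a` over the infinite places (the norm of `mixedEmbedding K a`);
* `mn a`   : the minimum of `w a` over the infinite places;
* `Nm a`   : the absolute norm `|N_{K/ℚ} a|`.

Facts: for `a ≠ 0`, `1 ≤ Nm a ≤ mn a * nrm a ^ (n-1) ≤ nrm a ^ n`, hence `1 ≤ nrm a`;
`∑_a nrm a ^ r` converges for `r < -n`; and every orbit of the unit group contains a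
"balanced" element: `nrm (u a) ^ n ≤ R ^ n * Nm a` (Dirichlet's unit theorem, through
Mathlib's `fundamentalCone` and `isBounded_normLeOne`).
-/

set_option autoImplicit false

namespace Fermat.Agent.S14.helper5611

open NumberField NumberField.InfinitePlace NumberField.mixedEmbedding Module

open scoped Classical

variable (K : Type*) [Field K] [NumberField K]

/-- The sup norm of an algebraic integer over the infinite places. -/
noncomputable def nrm (a : 𝓞 K) : ℝ := ‖mixedEmbedding K (a : K)‖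

/-- The minimum over the infinite places. -/
noncomputable def mn (a : 𝓞 K) : ℝ :=
  Finset.univ.inf' Finset.univ_nonempty (fun w : InfinitePlace K ↦ w (a : K))

/-- The absolute norm of an algebraic integer, as a real number. -/
noncomputable def Nm (a : 𝓞 K) : ℝ := ((Algebra.norm ℤ a).natAbs : ℝ)

variable {K}

lemma nrm_nonneg (a : 𝓞 K) : 0 ≤ nrm K a := norm_nonneg _

lemma nrm_eq_sup (a : 𝓞 K) :
    nrm K a = Finset.univ.sup' Finset.univ_nonempty (fun w : InfinitePlace K ↦ w (a : K)) := by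
  unfold nrm
  rw [norm_eq_sup'_normAtPlace]
  simp

lemma place_le_nrm (w : InfinitePlace K) (a : 𝓞 K) : w (a : K) ≤ nrm K a := by
  rw [nrm_eq_sup]
  exact Finset.le_sup' (fun w : InfinitePlace K ↦ w (a : K)) (Finset.mem_univ w)

lemma nrm_le_iff (a : 𝓞 K) (c : ℝ) : nrm K a ≤ c ↔ ∀ w : InfinitePlace K, w (a : K) ≤ c := by
  rw [nrm_eq_sup, Finset.sup'_le_iff]
  simp

lemma exists_place_eq_nrm (a : 𝓞 K) : ∃ w : InfinitePlace K, w (a : K) = nrm K a := by
  obtain ⟨w, -, hw⟩ := Finset.exists_mem_eq_sup' Finset.univ_nonempty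
    (fun w : InfinitePlace K ↦ w (a : K))
  exact ⟨w, by rw [nrm_eq_sup, hw]⟩

lemma mn_le_place (w : InfinitePlace K) (a : 𝓞 K) : mn K a ≤ w (a : K) :=
  Finset.inf'_le (fun w : InfinitePlace K ↦ w (a : K)) (Finset.mem_univ w)

lemma exists_place_eq_mn (a : 𝓞 K) : ∃ w : InfinitePlace K, w (a : K) = mn K a := by
  obtain ⟨w, -, hw⟩ := Finset.exists_mem_eq_inf' Finset.univ_nonempty
    (fun w : InfinitePlace K ↦ w (a : K))
  exact ⟨w, hw.symm⟩

lemma mn_nonneg (a : 𝓞 K) : 0 ≤ mn K a := by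
  obtain ⟨w, hw⟩ := exists_place_eq_mn a
  rw [← hw]
  exact apply_nonneg _ _

lemma mn_le_nrm (a : 𝓞 K) : mn K a ≤ nrm K a := by
  obtain ⟨w, hw⟩ := exists_place_eq_mn a
  rw [← hw]
  exact place_le_nrm w a

lemma mn_pos {a : 𝓞 K} (ha : a ≠ 0) : 0 < mn K a := by
  obtain ⟨w, hw⟩ := exists_place_eq_mn a
  rw [← hw]
  exact w.pos_iff.mpr (by exact_mod_cast ha)

lemma nrm_zero : nrm K (0 : 𝓞 K) = 0 := by simp [nrm]

lemma nrm_pos {a : 𝓞 K} (ha : a ≠ 0) : 0 < nrm K a :=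
  lt_of_lt_of_le (mn_pos ha) (mn_le_nrm a)

lemma nrm_add_le (a b : 𝓞 K) : nrm K (a + b) ≤ nrm K a + nrm K b := by
  unfold nrm
  push_cast
  rw [map_add]
  exact norm_add_le _ _

lemma nrm_neg (a : 𝓞 K) : nrm K (-a) = nrm K a := by
  unfold nrm
  push_cast
  rw [map_neg, norm_neg]

lemma Nm_eq_prod (a : 𝓞 K) :
    Nm K a = ∏ w : InfinitePlace K, w (a : K) ^ mult w := by
  rw [InfinitePlace.prod_eq_abs_norm, ← Algebra.coe_norm_int a, Nm]
  simp [Nat.cast_natAbs]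

lemma Nm_nonneg (a : 𝓞 K) : 0 ≤ Nm K a := Nat.cast_nonneg _

lemma one_le_Nm {a : 𝓞 K} (ha : a ≠ 0) : 1 ≤ Nm K a := by
  unfold Nm
  have h : Algebra.norm ℤ a ≠ 0 := by
    rwa [Ne, Algebra.norm_eq_zero_iff]
  exact_mod_cast Int.natAbs_pos.mpr h

lemma Nm_pos {a : 𝓞 K} (ha : a ≠ 0) : 0 < Nm K a := lt_of_lt_of_le one_pos (one_le_Nm ha)

lemma Nm_mul (a b : 𝓞 K) : Nm K (a * b) = Nm K a * Nm K b := by
  simp [Nm, map_mul, Int.natAbs_mul]

lemma Nm_unit (u : (𝓞 K)ˣ) : Nm K (u : 𝓞 K) = 1 := by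
  have h : IsUnit (Algebra.norm ℤ (u : 𝓞 K)) := u.isUnit.map _
  simp [Nm, Int.isUnit_iff_natAbs_eq.mp h]

lemma Nm_unit_mul (u : (𝓞 K)ˣ) (a : 𝓞 K) : Nm K ((u : 𝓞 K) * a) = Nm K a := by
  rw [Nm_mul, Nm_unit, one_mul]

lemma Nm_eq_absNorm (a : 𝓞 K) : Nm K a = (Ideal.absNorm (Ideal.span {a}) : ℝ) := by
  rw [Ideal.absNorm_span_singleton, Nm]

/-- `Nm a ≤ mn a * nrm a ^ (n - 1)`. -/
lemma Nm_le (a : 𝓞 K) : Nm K a ≤ mn K a * nrm K a ^ (finrank ℚ K - 1) := by
  classical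
  obtain ⟨w₁, hw₁⟩ := exists_place_eq_mn a
  rw [Nm_eq_prod, ← Finset.mul_prod_erase Finset.univ _ (Finset.mem_univ w₁)]
  have hsum : mult w₁ + ∑ w ∈ Finset.univ.erase w₁, mult w = finrank ℚ K := by
    rw [Finset.add_sum_erase Finset.univ _ (Finset.mem_univ w₁)]
    exact InfinitePlace.sum_mult_eq
  have h1 : w₁ (a : K) ^ mult w₁ ≤ mn K a * nrm K a ^ (mult w₁ - 1) := by
    have hm : mult w₁ = (mult w₁ - 1) + 1 := by
      have : 1 ≤ mult w₁ := Nat.one_le_iff_ne_zero.mpr mult_ne_zero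
      omega
    rw [hm, pow_succ, hw₁, mul_comm, Nat.add_sub_cancel]
    gcongr
    · exact mn_nonneg a
    · rw [← hw₁]; exact apply_nonneg _ _
    · rw [← hw₁]; exact place_le_nrm w₁ a
  have h2 : ∏ w ∈ Finset.univ.erase w₁, w (a : K) ^ mult w
      ≤ ∏ w ∈ Finset.univ.erase w₁, nrm K a ^ mult w := by
    apply Finset.prod_le_prod
    · intro w _; exact pow_nonneg (apply_nonneg _ _) _
    · intro w _; exact pow_le_pow_left₀ (apply_nonneg _ _) (place_le_nrm w a) _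
  rw [Finset.prod_pow_eq_pow_sum] at h2
  calc w₁ (a : K) ^ mult w₁ * ∏ w ∈ Finset.univ.erase w₁, w (a : K) ^ mult w
      ≤ (mn K a * nrm K a ^ (mult w₁ - 1)) * nrm K a ^ (∑ w ∈ Finset.univ.erase w₁, mult w) := by
        apply mul_le_mul h1 h2
        · exact Finset.prod_nonneg (fun w _ ↦ pow_nonneg (apply_nonneg _ _) _)
        · exact mul_nonneg (mn_nonneg a) (pow_nonneg (nrm_nonneg a) _)
    _ = mn K a * nrm K a ^ (finrank ℚ K - 1) := by
        rw [mul_assoc, ← pow_add]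
        congr 2
        have : 1 ≤ mult w₁ := Nat.one_le_iff_ne_zero.mpr mult_ne_zero
        omega

lemma Nm_le_pow (a : 𝓞 K) : Nm K a ≤ nrm K a ^ finrank ℚ K := by
  have hn : 0 < finrank ℚ K := finrank_pos
  calc Nm K a ≤ mn K a * nrm K a ^ (finrank ℚ K - 1) := Nm_le a
    _ ≤ nrm K a * nrm K a ^ (finrank ℚ K - 1) := by
        gcongr
        · exact pow_nonneg (nrm_nonneg a) _
        · exact mn_le_nrm a
    _ = nrm K a ^ finrank ℚ K := by
        rw [← pow_succ']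
        congr 1
        omega

lemma one_le_nrm {a : 𝓞 K} (ha : a ≠ 0) : 1 ≤ nrm K a := by
  by_contra h
  have h := not_le.mp h
  have hn : finrank ℚ K ≠ 0 := finrank_pos.ne'
  have h1 : nrm K a ^ finrank ℚ K < 1 := pow_lt_one₀ (nrm_nonneg a) h hn
  linarith [one_le_Nm ha, Nm_le_pow a]

/-! ### Summability over the lattice `𝓞 K` -/

/-- `𝓞 K` as the integer lattice of the mixed space. -/
noncomputable def toLattice (a : 𝓞 K) : mixedEmbedding.integerLattice K :=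
  ⟨mixedEmbedding K (a : K), ⟨a, rfl⟩⟩

lemma toLattice_injective : Function.Injective (toLattice (K := K)) := by
  intro a b h
  have h' : mixedEmbedding K (a : K) = mixedEmbedding K (b : K) := congrArg Subtype.val h
  exact RingOfIntegers.ext (mixedEmbedding_injective K h')

lemma norm_toLattice (a : 𝓞 K) : ‖toLattice a‖ = nrm K a := rfl

lemma finrank_integerLattice :
    finrank ℤ (mixedEmbedding.integerLattice K) = finrank ℚ K := by
  rw [ZLattice.rank ℝ (mixedEmbedding.integerLattice K), mixedEmbedding.finrank]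

lemma summable_nrm_rpow (r : ℝ) (hr : r < -(finrank ℚ K : ℝ)) :
    Summable (fun a : 𝓞 K ↦ nrm K a ^ r) := by
  have hr' : r < -(finrank ℤ (mixedEmbedding.integerLattice K) : ℝ) := by
    rw [finrank_integerLattice]; exact hr
  have h := ZLattice.summable_norm_rpow (mixedEmbedding.integerLattice K) r hr'
  have h3 : (fun a : 𝓞 K ↦ nrm K a ^ r)
      = (fun z : mixedEmbedding.integerLattice K ↦ ‖z‖ ^ r) ∘ toLattice := rfl
  rw [h3]
  exact h.comp_injective toLattice_injective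

/-- A constant `A > 0` with `∑_a nrm a ^ r ≤ A ^ r * ∑_k k ^ (n - 1 + r)` for all `r < -n`. -/
lemma exists_tsum_nrm_rpow_le :
    ∃ A : ℝ, 0 < A ∧ ∀ r : ℝ, r < -(finrank ℚ K : ℝ) →
      ∑' a : 𝓞 K, nrm K a ^ r ≤ A ^ r * ∑' k : ℕ, (k : ℝ) ^ ((finrank ℚ K : ℝ) - 1 + r) := by
  refine ⟨ZLattice.tsumNormRPowBound (mixedEmbedding.integerLattice K),
    ZLattice.tsumNormRPowBound_pos _, fun r hr ↦ ?_⟩
  have hr' : r < -(finrank ℤ (mixedEmbedding.integerLattice K) : ℝ) := by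
    rw [finrank_integerLattice]; exact hr
  have h1 := ZLattice.tsum_norm_rpow_le (mixedEmbedding.integerLattice K) r hr'
  have h2 := ZLattice.summable_norm_rpow (mixedEmbedding.integerLattice K) r hr'
  rw [finrank_integerLattice] at h1
  refine le_trans ?_ h1
  have h3 : ∑' a : 𝓞 K, nrm K a ^ r
      = ∑' a : 𝓞 K, (fun z : mixedEmbedding.integerLattice K ↦ ‖z‖ ^ r) (toLattice a) := rfl
  rw [h3]
  exact tsum_comp_le_tsum_of_inj h2 (fun z ↦ Real.rpow_nonneg (norm_nonneg _) _)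
    toLattice_injective

/-! ### Balanced representatives in unit orbits -/

lemma nrm_unit_smul (u : (𝓞 K)ˣ) (a : 𝓞 K) :
    ‖u • mixedEmbedding K (a : K)‖ = nrm K ((u : 𝓞 K) * a) := by
  unfold nrm
  congr 1
  simp [unitSMul_smul]

/-- **Balanced representatives** (Dirichlet's unit theorem): there is `R ≥ 1` such that every
nonzero `a` has a unit multiple `u * a` with `nrm (u * a) ^ n ≤ R ^ n * Nm a`. -/
lemma exists_balanced :
    ∃ R : ℝ, 1 ≤ R ∧ ∀ a : 𝓞 K, a ≠ 0 →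
      ∃ u : (𝓞 K)ˣ, nrm K ((u : 𝓞 K) * a) ^ finrank ℚ K ≤ R ^ finrank ℚ K * Nm K a := by
  obtain ⟨R₀, hR₀⟩ := (isBounded_iff_forall_norm_le.mp (fundamentalCone.isBounded_normLeOne K))
  refine ⟨max R₀ 1, le_max_right _ _, fun a ha ↦ ?_⟩
  have hn : 0 < finrank ℚ K := finrank_pos
  set x : mixedSpace K := mixedEmbedding K (a : K) with hx
  have hxnorm : mixedEmbedding.norm x = Nm K a := by
    rw [hx, mixedEmbedding.norm_eq_norm, ← Algebra.coe_norm_int a, Nm]
    simp [Nat.cast_natAbs]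
  have hx0 : mixedEmbedding.norm x ≠ 0 := by
    rw [hxnorm]; exact (Nm_pos ha).ne'
  obtain ⟨u, hu⟩ := fundamentalCone.exists_unit_smul_mem hx0
  refine ⟨u, ?_⟩
  set y : mixedSpace K := u • x with hy
  have hynorm : mixedEmbedding.norm y = Nm K a := by
    rw [hy, mixedEmbedding.norm_unit_smul, hxnorm]
  have hNpos : 0 < Nm K a := Nm_pos ha
  set c : ℝ := (Nm K a) ^ (-(1 / (finrank ℚ K : ℝ))) with hc
  have hcpos : 0 < c := Real.rpow_pos_of_pos hNpos _
  have hcn : c ^ finrank ℚ K = (Nm K a)⁻¹ := by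
    rw [hc, ← Real.rpow_natCast, ← Real.rpow_mul hNpos.le]
    have : -(1 / (finrank ℚ K : ℝ)) * (finrank ℚ K : ℝ) = -1 := by
      field_simp
    rw [this, Real.rpow_neg_one]
  have hmem : c • y ∈ fundamentalCone.normLeOne K := by
    rw [fundamentalCone.mem_normLeOne]
    refine ⟨fundamentalCone.smul_mem_of_mem hu hcpos.ne', ?_⟩
    rw [mixedEmbedding.norm_smul, abs_of_pos hcpos, hcn, hynorm, inv_mul_cancel₀ hNpos.ne']
  have h1 : ‖c • y‖ ≤ R₀ := hR₀ _ hmem
  rw [_root_.norm_smul, Real.norm_of_nonneg hcpos.le] at h1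
  have h2 : ‖y‖ = nrm K ((u : 𝓞 K) * a) := nrm_unit_smul u a
  rw [h2] at h1
  have h3 : c * nrm K ((u : 𝓞 K) * a) ≤ max R₀ 1 := h1.trans (le_max_left _ _)
  have h4 : (c * nrm K ((u : 𝓞 K) * a)) ^ finrank ℚ K ≤ (max R₀ 1) ^ finrank ℚ K :=
    pow_le_pow_left₀ (mul_nonneg hcpos.le (nrm_nonneg _)) h3 _
  rw [mul_pow, hcn] at h4
  have h5 : nrm K ((u : 𝓞 K) * a) ^ finrank ℚ K
      = Nm K a * ((Nm K a)⁻¹ * nrm K ((u : 𝓞 K) * a) ^ finrank ℚ K) := by
    field_simp
  rw [h5, mul_comm ((max R₀ 1) ^ finrank ℚ K)]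
  exact mul_le_mul_of_nonneg_left h4 hNpos.le

end Fermat.Agent.S14.helper5611
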