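import Fermat.Agent.S14.helper5611_PZDecay

/-!
# S14 / W0 ("Epstein normalisation" route), part 5: coset comparison

`S b s = ∑_{a ∈ b} F s a` for an ideal `b` of `𝓞 K`.  Splitting `𝓞 K` into the cosets of a
nonzero ideal `b` and using the decay estimate for shifts:
`|S ⊤ s - N(b) * S b s| ≤ B(b)` uniformly in `s ∈ (1, 2]`.
-/

set_option autoImplicit false

namespace Fermat.Agent.S14.helper5611

open NumberField NumberField.InfinitePlace NumberField.mixedEmbedding Module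

open scoped Classical

variable {K : Type*} [Field K] [NumberField K]

attribute [local irreducible] nrm mn Nm H phi F cK

/-- The sum of `F s` over the elements of the ideal `b`. -/
noncomputable def S (b : Ideal (𝓞 K)) (s : ℝ) : ℝ :=
  ∑' a : 𝓞 K, Set.indicator (b : Set (𝓞 K)) (F K s) a

lemma summable_F {R : ℝ} (hR : IsBal K R) {s : ℝ} (hs1 : 1 < s) (hs2 : s ≤ 2) :
    Summable (F K s) := by
  have hn : (0 : ℝ) < finrank ℚ K := by exact_mod_cast finrank_pos' (K := K)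
  have hr : -((finrank ℚ K : ℝ) * s) < -(finrank ℚ K : ℝ) := by nlinarith
  have h := (summable_nrm_rpow (K := K) (-((finrank ℚ K : ℝ) * s)) hr).mul_left (R ^ bigM K)
  refine Summable.of_nonneg_of_le (fun a ↦ F_nonneg s a) (fun a ↦ ?_) h
  by_cases ha : a = 0
  · rw [ha, F_zero]
    have := hR.1
    exact mul_nonneg (by positivity) (Real.rpow_nonneg (nrm_nonneg _) _)
  · exact F_le₄ hR ha hs1.le (by linarith)

lemma abs_tsum_le_of_abs_le {ι : Type*} {f g : ι → ℝ} (hg : Summable g)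
    (h : ∀ i, |f i| ≤ g i) : |∑' i, f i| ≤ ∑' i, g i := by
  have hf : Summable fun i ↦ ‖f i‖ :=
    Summable.of_nonneg_of_le (fun i ↦ norm_nonneg _) (fun i ↦ by simpa using h i) hg
  calc |∑' i, f i| = ‖∑' i, f i‖ := (Real.norm_eq_abs _).symm
    _ ≤ ∑' i, ‖f i‖ := norm_tsum_le_tsum_norm hf
    _ ≤ ∑' i, g i := hf.tsum_le_tsum (fun i ↦ by simpa using h i) hg

/-- The decomposition of `𝓞 K` into cosets of `b`. -/
noncomputable def cosetEquiv (b : Ideal (𝓞 K)) : (𝓞 K ⧸ b) × b ≃ 𝓞 K where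
  toFun p := (p.2 : 𝓞 K) + Quotient.out p.1
  invFun a := (Ideal.Quotient.mk b a, ⟨a - Quotient.out (Ideal.Quotient.mk b a), by
    rw [← Ideal.Quotient.eq, Ideal.Quotient.mk_out]⟩)
  left_inv := by
    rintro ⟨q, y⟩
    have h1 : Ideal.Quotient.mk b ((y : 𝓞 K) + Quotient.out q) = q := by
      rw [map_add, Ideal.Quotient.mk_out, Ideal.Quotient.eq_zero_iff_mem.mpr y.2, zero_add]
    refine Prod.ext h1 (Subtype.ext ?_)
    simp only [h1]
    ring
  right_inv := by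
    intro a
    simp

lemma cosetEquiv_apply (b : Ideal (𝓞 K)) (p : (𝓞 K ⧸ b) × b) :
    cosetEquiv b p = (p.2 : 𝓞 K) + Quotient.out p.1 := rfl

/-- **Coset comparison.** -/
theorem abs_S_top_sub_le {R : ℝ} (hR : IsBal K R) (b : Ideal (𝓞 K)) (hb : b ≠ ⊥) :
    ∃ B : ℝ, ∀ s : ℝ, 1 < s → s ≤ 2 →
      |S (⊤ : Ideal (𝓞 K)) s - (Ideal.absNorm b : ℝ) * S b s| ≤ B := by
  have : Finite (𝓞 K ⧸ b) := Ideal.finiteQuotientOfFreeOfNeBot b hb
  let _ : Fintype (𝓞 K ⧸ b) := Fintype.ofFinite _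
  refine ⟨∑ q : 𝓞 K ⧸ b, Cr' R (Quotient.out q) * ∑' y : 𝓞 K, gdec y, fun s hs1 hs2 ↦ ?_⟩
  have hF := summable_F hR hs1 hs2
  -- the two sums
  have hS1 : S (⊤ : Ideal (𝓞 K)) s
      = ∑ q : 𝓞 K ⧸ b, ∑' y : b, F K s ((y : 𝓞 K) + Quotient.out q) := by
    unfold S
    have h0 : Set.indicator ((⊤ : Ideal (𝓞 K)) : Set (𝓞 K)) (F K s) = F K s := by
      funext a; simp
    rw [h0, ← (cosetEquiv b).tsum_eq (F K s)]
    have hsum : Summable fun p : (𝓞 K ⧸ b) × b ↦ F K s (cosetEquiv b p) :=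
      (cosetEquiv b).summable_iff.mpr hF
    rw [hsum.tsum_prod, tsum_fintype]
    rfl
  have hS2 : (Ideal.absNorm b : ℝ) * S b s = ∑ _q : 𝓞 K ⧸ b, ∑' y : b, F K s (y : 𝓞 K) := by
    unfold S
    rw [← tsum_subtype, Finset.sum_const, Finset.card_univ, nsmul_eq_mul,
      Ideal.absNorm_apply, Submodule.cardQuot_apply, Nat.card_eq_fintype_card]
    rfl
  have hsumb : Summable fun y : b ↦ F K s (y : 𝓞 K) := hF.subtype _
  have hsumq : ∀ q : 𝓞 K ⧸ b, Summable fun y : b ↦ F K s ((y : 𝓞 K) + Quotient.out q) := by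
    intro q
    refine hF.comp_injective (fun y y' h ↦ ?_)
    exact Subtype.ext (add_right_cancel h)
  have hgb : Summable fun y : b ↦ gdec (y : 𝓞 K) := summable_gdec.subtype _
  rw [hS1, hS2, ← Finset.sum_sub_distrib]
  refine (Finset.abs_sum_le_sum_abs _ _).trans (Finset.sum_le_sum fun q _ ↦ ?_)
  rw [← (hsumq q).tsum_sub hsumb]
  have hbound : ∀ y : b, |F K s ((y : 𝓞 K) + Quotient.out q) - F K s (y : 𝓞 K)|
      ≤ Cr' R (Quotient.out q) * gdec (y : 𝓞 K) :=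
    fun y ↦ abs_F_add_sub_le_gdec hR (Quotient.out q) (y : 𝓞 K) hs1.le hs2
  refine (abs_tsum_le_of_abs_le (hgb.mul_left _) hbound).trans ?_
  rw [tsum_mul_left]
  refine mul_le_mul_of_nonneg_left ?_ (Cr'_nonneg hR.1 _)
  exact tsum_comp_le_tsum_of_inj summable_gdec gdec_nonneg Subtype.val_injective

end Fermat.Agent.S14.helper5611
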