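import Fermat.Agent.S14.helper5611_PZPerturb

/-!
# S14 / W0 ("Epstein normalisation" route), part 4: the decay estimate for shifts

For a balance constant `R`, every shift `r` and every `y : 𝓞 K`, uniformly in `s ∈ [1, 2]`:
`|F s (y + r) - F s y| ≤ Cr' R r * gdec y`, where `gdec y = nrm y ^ (-(n+1))` (and `1` at `0`)
is summable over `𝓞 K`.
-/

set_option autoImplicit false

namespace Fermat.Agent.S14.helper5611

open NumberField NumberField.InfinitePlace NumberField.mixedEmbedding Module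

open scoped Classical

variable {K : Type*} [Field K] [NumberField K]

attribute [local irreducible] nrm mn Nm H phi F cK

/-- The decay constant for the shift `r` (far range). -/
noncomputable def Cr (R : ℝ) (r : 𝓞 K) : ℝ :=
  R ^ bigM K * (cK K * (1 + cK K) * nrm K r
    + (4 + 9 * 2 ^ (finrank ℚ K + 2)) * nrm K r ^ 2)

lemma Cr_nonneg {R : ℝ} (hR : 1 ≤ R) (r : 𝓞 K) : 0 ≤ Cr R r := by
  unfold Cr
  have := cK_nonneg (K := K)
  have := nrm_nonneg r
  positivity

lemma mn_add_le (a r : 𝓞 K) : mn K (a + r) ≤ mn K a + nrm K r := by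
  obtain ⟨w, hw⟩ := exists_place_eq_mn a
  calc mn K (a + r) ≤ w ((a + r : 𝓞 K) : K) := mn_le_place w _
    _ ≤ w (a : K) + w (r : K) := by push_cast; exact w.1.add_le _ _
    _ ≤ mn K a + nrm K r := by rw [hw]; gcongr; exact place_le_nrm w r

lemma nrm_le_nrm_add (a r : 𝓞 K) : nrm K a ≤ nrm K (a + r) + nrm K r := by
  have h := nrm_add_le (a + r) (-r)
  rwa [add_neg_cancel_right, nrm_neg] at h

/-- **Decay estimate**, far range: `2 * nrm r ≤ nrm a`. -/
lemma abs_F_add_sub_le_decay {R : ℝ} (hR : IsBal K R) {a : 𝓞 K} (ha : a ≠ 0) (r : 𝓞 K)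
    (har : 2 * nrm K r ≤ nrm K a) {s : ℝ} (hs1 : 1 ≤ s) (hs2 : s ≤ 2) :
    |F K s (a + r) - F K s a| ≤ Cr R r * (nrm K a ^ (finrank ℚ K + 1))⁻¹ := by
  have hR1 := hR.1
  have hc := cK_nonneg (K := K)
  have hnr := nrm_nonneg r
  have hna := nrm_pos ha
  have hna1 := one_le_nrm ha
  have hmn := mn_pos ha
  have hRM : 0 < R ^ bigM K := by positivity
  have hinv1 : 0 < (nrm K a ^ (finrank ℚ K + 1))⁻¹ := by positivity
  have hinv2 : (nrm K a ^ (finrank ℚ K + 2))⁻¹ ≤ (nrm K a ^ (finrank ℚ K + 1))⁻¹ := by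
    rw [inv_le_inv₀ (by positivity) (by positivity)]
    exact pow_le_pow_right₀ hna1 (by omega)
  have hFa := F_le₂ hR ha hs1
  by_cases hcase : 2 * nrm K r ≤ mn K a
  · -- small relative perturbation
    obtain ⟨ε, hεdef⟩ : ∃ ε : ℝ, ε = nrm K r / mn K a := ⟨_, rfl⟩
    have hε0 : 0 ≤ ε := by rw [hεdef]; exact div_nonneg hnr hmn.le
    have hε2 : ε ≤ 1 / 2 := by
      rw [hεdef, div_le_iff₀ hmn]; linarith
    have hε : nrm K r ≤ ε * mn K a := by
      rw [hεdef, div_mul_cancel₀ _ hmn.ne']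
    have h1 := abs_F_add_sub_le ha hε0 hε2 hε hs1 hs2
    have h2 : ε * F K s a ≤ R ^ bigM K * nrm K r * (nrm K a ^ (finrank ℚ K + 1))⁻¹ := by
      calc ε * F K s a ≤ ε * (R ^ bigM K * mn K a ^ 2 * (nrm K a ^ (finrank ℚ K + 2))⁻¹) :=
            mul_le_mul_of_nonneg_left hFa hε0
        _ = R ^ bigM K * nrm K r * (mn K a * (nrm K a ^ (finrank ℚ K + 2))⁻¹) := by
            rw [hεdef]; field_simp
        _ ≤ R ^ bigM K * nrm K r * (nrm K a * (nrm K a ^ (finrank ℚ K + 2))⁻¹) := by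
            gcongr
            exact mn_le_nrm a
        _ = R ^ bigM K * nrm K r * (nrm K a ^ (finrank ℚ K + 1))⁻¹ := by
            rw [pow_succ (nrm K a) (finrank ℚ K + 1)]; field_simp
    calc |F K s (a + r) - F K s a| ≤ cK K * (1 + cK K) * ε * F K s a := h1
      _ = cK K * (1 + cK K) * (ε * F K s a) := by ring
      _ ≤ cK K * (1 + cK K) * (R ^ bigM K * nrm K r * (nrm K a ^ (finrank ℚ K + 1))⁻¹) := by
          gcongr
      _ ≤ Cr R r * (nrm K a ^ (finrank ℚ K + 1))⁻¹ := by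
          have e : Cr R r * (nrm K a ^ (finrank ℚ K + 1))⁻¹
              = cK K * (1 + cK K) * (R ^ bigM K * nrm K r * (nrm K a ^ (finrank ℚ K + 1))⁻¹)
                + R ^ bigM K * ((4 + 9 * 2 ^ (finrank ℚ K + 2)) * nrm K r ^ 2)
                  * (nrm K a ^ (finrank ℚ K + 1))⁻¹ := by
            unfold Cr; ring
          rw [e]
          exact le_add_of_nonneg_right (by positivity)
  · -- both terms are small
    have hcase' : mn K a < 2 * nrm K r := not_le.mp hcase
    have h1 : F K s a ≤ R ^ bigM K * (4 * nrm K r ^ 2) * (nrm K a ^ (finrank ℚ K + 1))⁻¹ := by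
      calc F K s a ≤ R ^ bigM K * mn K a ^ 2 * (nrm K a ^ (finrank ℚ K + 2))⁻¹ := hFa
        _ ≤ R ^ bigM K * (2 * nrm K r) ^ 2 * (nrm K a ^ (finrank ℚ K + 1))⁻¹ := by
            gcongr
        _ = R ^ bigM K * (4 * nrm K r ^ 2) * (nrm K a ^ (finrank ℚ K + 1))⁻¹ := by ring
    have h2 : F K s (a + r)
        ≤ R ^ bigM K * (9 * 2 ^ (finrank ℚ K + 2) * nrm K r ^ 2)
          * (nrm K a ^ (finrank ℚ K + 1))⁻¹ := by
      by_cases h0 : a + r = 0
      · rw [h0, F_zero]; positivity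
      have hb := F_le₂ hR h0 hs1
      have hmb : mn K (a + r) ≤ 3 * nrm K r := by
        have := mn_add_le a r; linarith
      have hnb : nrm K a / 2 ≤ nrm K (a + r) := by
        have := nrm_le_nrm_add a r; linarith
      have hnb' : (nrm K (a + r) ^ (finrank ℚ K + 2))⁻¹
          ≤ 2 ^ (finrank ℚ K + 2) * (nrm K a ^ (finrank ℚ K + 2))⁻¹ := by
        have e : (2 : ℝ) ^ (finrank ℚ K + 2) * (nrm K a ^ (finrank ℚ K + 2))⁻¹
            = ((nrm K a / 2) ^ (finrank ℚ K + 2))⁻¹ := by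
          rw [div_pow]; field_simp
        rw [e, inv_le_inv₀ (pow_pos (nrm_pos h0) _) (by positivity)]
        exact pow_le_pow_left₀ (by positivity) hnb _
      calc F K s (a + r)
          ≤ R ^ bigM K * mn K (a + r) ^ 2 * (nrm K (a + r) ^ (finrank ℚ K + 2))⁻¹ := hb
        _ ≤ R ^ bigM K * (3 * nrm K r) ^ 2
              * (2 ^ (finrank ℚ K + 2) * (nrm K a ^ (finrank ℚ K + 2))⁻¹) := by
            have hmb0 := mn_nonneg (a + r)
            have hnb0 : 0 ≤ (nrm K (a + r) ^ (finrank ℚ K + 2))⁻¹ :=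
              inv_nonneg.mpr (pow_nonneg (nrm_nonneg _) _)
            gcongr
        _ ≤ R ^ bigM K * (3 * nrm K r) ^ 2
              * (2 ^ (finrank ℚ K + 2) * (nrm K a ^ (finrank ℚ K + 1))⁻¹) := by
            gcongr
        _ = R ^ bigM K * (9 * 2 ^ (finrank ℚ K + 2) * nrm K r ^ 2)
              * (nrm K a ^ (finrank ℚ K + 1))⁻¹ := by ring
    have hA := F_nonneg (K := K) s a
    have hB := F_nonneg (K := K) s (a + r)
    have h3 : |F K s (a + r) - F K s a| ≤ F K s (a + r) + F K s a := by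
      rw [abs_le]; constructor <;> linarith
    calc |F K s (a + r) - F K s a| ≤ F K s (a + r) + F K s a := h3
      _ ≤ R ^ bigM K * (9 * 2 ^ (finrank ℚ K + 2) * nrm K r ^ 2)
            * (nrm K a ^ (finrank ℚ K + 1))⁻¹
          + R ^ bigM K * (4 * nrm K r ^ 2) * (nrm K a ^ (finrank ℚ K + 1))⁻¹ := add_le_add h2 h1
      _ ≤ Cr R r * (nrm K a ^ (finrank ℚ K + 1))⁻¹ := by
          have e : Cr R r * (nrm K a ^ (finrank ℚ K + 1))⁻¹
              = R ^ bigM K * (9 * 2 ^ (finrank ℚ K + 2) * nrm K r ^ 2)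
                  * (nrm K a ^ (finrank ℚ K + 1))⁻¹
                + R ^ bigM K * (4 * nrm K r ^ 2) * (nrm K a ^ (finrank ℚ K + 1))⁻¹
                + R ^ bigM K * (cK K * (1 + cK K) * nrm K r)
                  * (nrm K a ^ (finrank ℚ K + 1))⁻¹ := by
            unfold Cr; ring
          rw [e]
          exact le_add_of_nonneg_right (by positivity)

/-- The summable majorant. -/
noncomputable def gdec (y : 𝓞 K) : ℝ :=
  (nrm K y ^ (finrank ℚ K + 1))⁻¹ + if y = 0 then 1 else 0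

lemma gdec_nonneg (y : 𝓞 K) : 0 ≤ gdec y := by
  unfold gdec
  have := nrm_nonneg y
  split_ifs <;> positivity

lemma summable_gdec : Summable (gdec (K := K)) := by
  unfold gdec
  refine (summable_inv_nrm_pow (finrank ℚ K + 1) (by omega)).add ?_
  exact summable_of_ne_finset_zero (s := {0}) (fun y hy ↦ by
    rw [Finset.mem_singleton] at hy
    simp [hy])

/-- The decay constant for the shift `r` (all ranges). -/
noncomputable def Cr' (R : ℝ) (r : 𝓞 K) : ℝ :=
  R ^ bigM K + Cr R r + 2 * R ^ bigM K * (2 * nrm K r) ^ (finrank ℚ K + 1)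

lemma Cr'_nonneg {R : ℝ} (hR : 1 ≤ R) (r : 𝓞 K) : 0 ≤ Cr' R r := by
  unfold Cr'
  have := Cr_nonneg (K := K) hR r
  have := nrm_nonneg r
  positivity

/-- **Decay estimate**, all ranges. -/
lemma abs_F_add_sub_le_gdec {R : ℝ} (hR : IsBal K R) (r y : 𝓞 K) {s : ℝ} (hs1 : 1 ≤ s)
    (hs2 : s ≤ 2) :
    |F K s (y + r) - F K s y| ≤ Cr' R r * gdec y := by
  have hR1 := hR.1
  have hRM : 0 < R ^ bigM K := by positivity
  have hCr := Cr_nonneg (K := K) hR1 r
  have hnr := nrm_nonneg r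
  have hA := F_nonneg (K := K) s y
  have hB := F_nonneg (K := K) s (y + r)
  have h3 : |F K s (y + r) - F K s y| ≤ F K s (y + r) + F K s y := by
    rw [abs_le]; constructor <;> linarith
  by_cases hy : y = 0
  · rw [hy, zero_add, F_zero, sub_zero, abs_of_nonneg (F_nonneg s r)]
    have hg : gdec (0 : 𝓞 K) = 1 := by
      unfold gdec
      rw [nrm_zero, zero_pow (by omega), inv_zero, zero_add, if_pos rfl]
    rw [hg, mul_one]
    calc F K s r ≤ R ^ bigM K := F_le₃ hR r hs1
      _ ≤ Cr' R r := by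
          unfold Cr'
          have : 0 ≤ 2 * R ^ bigM K * (2 * nrm K r) ^ (finrank ℚ K + 1) := by positivity
          linarith
  · have hg : gdec y = (nrm K y ^ (finrank ℚ K + 1))⁻¹ := by
      unfold gdec
      rw [if_neg hy, add_zero]
    rw [hg]
    have hny := nrm_pos hy
    have hinv : 0 < (nrm K y ^ (finrank ℚ K + 1))⁻¹ := by positivity
    by_cases hcase : 2 * nrm K r ≤ nrm K y
    · calc |F K s (y + r) - F K s y| ≤ Cr R r * (nrm K y ^ (finrank ℚ K + 1))⁻¹ :=
            abs_F_add_sub_le_decay hR hy r hcase hs1 hs2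
        _ ≤ Cr' R r * (nrm K y ^ (finrank ℚ K + 1))⁻¹ := by
            apply mul_le_mul_of_nonneg_right _ hinv.le
            unfold Cr'
            have : 0 ≤ 2 * R ^ bigM K * (2 * nrm K r) ^ (finrank ℚ K + 1) := by positivity
            linarith
    · have hcase' : nrm K y < 2 * nrm K r := lt_of_not_ge hcase
      have h4 : 1 ≤ (2 * nrm K r) ^ (finrank ℚ K + 1) * (nrm K y ^ (finrank ℚ K + 1))⁻¹ := by
        rw [← div_eq_mul_inv, le_div_iff₀ (by positivity), one_mul]
        exact pow_le_pow_left₀ hny.le hcase'.le _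
      calc |F K s (y + r) - F K s y| ≤ F K s (y + r) + F K s y := h3
        _ ≤ R ^ bigM K + R ^ bigM K := add_le_add (F_le₃ hR _ hs1) (F_le₃ hR _ hs1)
        _ = 2 * R ^ bigM K * 1 := by ring
        _ ≤ 2 * R ^ bigM K
              * ((2 * nrm K r) ^ (finrank ℚ K + 1) * (nrm K y ^ (finrank ℚ K + 1))⁻¹) := by
            gcongr
        _ ≤ Cr' R r * (nrm K y ^ (finrank ℚ K + 1))⁻¹ := by
            have e : Cr' R r * (nrm K y ^ (finrank ℚ K + 1))⁻¹
                = 2 * R ^ bigM K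
                    * ((2 * nrm K r) ^ (finrank ℚ K + 1) * (nrm K y ^ (finrank ℚ K + 1))⁻¹)
                  + (R ^ bigM K + Cr R r) * (nrm K y ^ (finrank ℚ K + 1))⁻¹ := by
              unfold Cr'; ring
            rw [e]
            exact le_add_of_nonneg_right (by positivity)

end Fermat.Agent.S14.helper5611
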