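import Fermat.Agent.S14.helper5611_PZWeight

/-!
# S14 / W0 ("Epstein normalisation" route), part 3: multiplicative perturbation

If `nrm r ≤ ε * mn a` with `0 ≤ ε ≤ 1/2`, then `a + r = ρ a` with `ρ` within `ε` of `1` at every
infinite place, so all the quantities entering `F s` change by factors `(1 ± ε)^const`:
`|F s (a + r) - F s a| ≤ C * ε * F s a`.  Combined with the size bounds this gives the decay
estimate `|F s (a + r) - F s a| ≤ C(r) * nrm a ^ (-(n+1))` for `nrm a ≥ 2 * nrm r`, uniformly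
in `s ∈ [1, 2]`.
-/

set_option autoImplicit false

namespace Fermat.Agent.S14.helper5611

open NumberField NumberField.InfinitePlace NumberField.mixedEmbedding Module

open scoped Classical

variable {K : Type*} [Field K] [NumberField K]

/-! ### Pure real-number lemmas -/

lemma one_add_pow_le (k : ℕ) {x : ℝ} (hx0 : 0 ≤ x) (hx2 : x ≤ 2) :
    (1 + x) ^ k ≤ 1 + k * 3 ^ k * x := by
  induction k with
  | zero => simp
  | succ k ih =>
    have h3 : (1 : ℝ) ≤ 3 ^ k := one_le_pow₀ (by norm_num)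
    have hk : (0 : ℝ) ≤ k := Nat.cast_nonneg k
    have hkk : (0 : ℝ) ≤ k * 3 ^ k := by positivity
    calc (1 + x) ^ (k + 1) = (1 + x) ^ k * (1 + x) := pow_succ _ _
      _ ≤ (1 + k * 3 ^ k * x) * (1 + x) := by gcongr
      _ ≤ 1 + ((k + 1 : ℕ) : ℝ) * 3 ^ (k + 1) * x := by
          push_cast
          rw [pow_succ]
          nlinarith [mul_nonneg hkk hx0, mul_nonneg hx0 (sub_nonneg.mpr hx2),
            mul_nonneg (mul_nonneg hkk hx0) (sub_nonneg.mpr hx2),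
            mul_nonneg (sub_nonneg.mpr h3) hx0]

lemma ratio_aux {x x' h h' p q : ℝ} (hx : 0 < x) (hx' : 0 < x') (hh : 0 < h) (hh' : 0 < h')
    (h1 : q * x ≤ x') (h2 : h ≤ p * h') :
    x'⁻¹ / h' * q ≤ p * (x⁻¹ / h) := by
  have e1 : x'⁻¹ / h' * q = q / (x' * h') := by field_simp
  have e2 : p * (x⁻¹ / h) = p / (x * h) := by field_simp
  rw [e1, e2, div_le_div_iff₀ (by positivity) (by positivity)]
  calc q * (x * h) = (q * x) * h := by ring
    _ ≤ x' * (p * h') := mul_le_mul h1 h2 hh.le hx'.le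
    _ = p * (x' * h') := by ring

lemma ratio_aux' {x x' h h' p q : ℝ} (hx : 0 < x) (hx' : 0 < x') (hh : 0 < h) (hh' : 0 < h')
    (hq : 0 ≤ q) (hp : 0 ≤ p) (h1 : x' ≤ p * x) (h2 : h' * q ≤ h) :
    x⁻¹ / h * q ≤ p * (x'⁻¹ / h') := by
  have e1 : x⁻¹ / h * q = q / (x * h) := by field_simp
  have e2 : p * (x'⁻¹ / h') = p / (x' * h') := by field_simp
  rw [e1, e2, div_le_div_iff₀ (by positivity) (by positivity)]
  calc q * (x' * h') = x' * (h' * q) := by ring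
    _ ≤ (p * x) * h := mul_le_mul h1 h2 (by positivity) (by positivity)
    _ = p * (x * h) := by ring

lemma rpow_aux_up {x y t s : ℝ} (hx : 0 < x) (ht : 0 < t) (ht1 : t ≤ 1) (hxy : t * x ≤ y)
    (hs0 : 0 ≤ s) (hs : s ≤ 2) : y ^ (-s) * t ^ 2 ≤ x ^ (-s) := by
  have htx : 0 < t * x := mul_pos ht hx
  have h1 : y ^ (-s) ≤ (t * x) ^ (-s) :=
    Real.rpow_le_rpow_of_nonpos htx hxy (by linarith)
  rw [Real.mul_rpow ht.le hx.le] at h1
  have h2 : t ^ (-s) * t ^ 2 ≤ 1 := by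
    rw [← Real.rpow_natCast t 2, ← Real.rpow_add ht]
    exact Real.rpow_le_one ht.le ht1 (by push_cast; linarith)
  have hxs : 0 ≤ x ^ (-s) := Real.rpow_nonneg hx.le _
  calc y ^ (-s) * t ^ 2 ≤ (t ^ (-s) * x ^ (-s)) * t ^ 2 := by gcongr
    _ = (t ^ (-s) * t ^ 2) * x ^ (-s) := by ring
    _ ≤ 1 * x ^ (-s) := by gcongr
    _ = x ^ (-s) := one_mul _

lemma rpow_aux_down {x y T s : ℝ} (hx : 0 < x) (hy : 0 < y) (hT : 1 ≤ T) (hxy : y ≤ T * x)
    (hs0 : 0 ≤ s) (hs : s ≤ 2) : x ^ (-s) ≤ T ^ 2 * y ^ (-s) := by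
  have hT0 : 0 < T := lt_of_lt_of_le one_pos hT
  have h1 : (T * x) ^ (-s) ≤ y ^ (-s) :=
    Real.rpow_le_rpow_of_nonpos hy hxy (by linarith)
  rw [Real.mul_rpow hT0.le hx.le] at h1
  have h2 : T ^ s ≤ T ^ 2 := by
    rw [← Real.rpow_natCast T 2]
    exact Real.rpow_le_rpow_of_exponent_le hT (by push_cast; linarith)
  have h3 : T ^ s * T ^ (-s) = 1 := by
    rw [← Real.rpow_add hT0]; simp
  have hys : 0 ≤ y ^ (-s) := Real.rpow_nonneg hy.le _
  calc x ^ (-s) = T ^ s * (T ^ (-s) * x ^ (-s)) := by rw [← mul_assoc, h3, one_mul]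
    _ ≤ T ^ s * y ^ (-s) := by
        apply mul_le_mul_of_nonneg_left h1 (Real.rpow_nonneg hT0.le _)
    _ ≤ T ^ 2 * y ^ (-s) := by gcongr

/-! ### Perturbation at the places -/

section Perturb

variable {a r : 𝓞 K} {ε : ℝ}

lemma place_mul_add_le (hε0 : 0 ≤ ε) (hε : nrm K r ≤ ε * mn K a) (w : InfinitePlace K)
    (c : 𝓞 K) :
    w ((c * (a + r) : 𝓞 K) : K) ≤ (1 + ε) * w ((c * a : 𝓞 K) : K) := by
  push_cast
  rw [map_mul, map_mul]
  have h1 : w ((a : K) + (r : K)) ≤ w (a : K) + w (r : K) := w.1.add_le _ _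
  have h2 : w (r : K) ≤ ε * w (a : K) :=
    (place_le_nrm w r).trans (hε.trans (mul_le_mul_of_nonneg_left (mn_le_place w a) hε0))
  have h3 : 0 ≤ w (c : K) := apply_nonneg w _
  calc w (c : K) * w ((a : K) + (r : K)) ≤ w (c : K) * ((1 + ε) * w (a : K)) := by
        apply mul_le_mul_of_nonneg_left _ h3
        linarith
    _ = (1 + ε) * (w (c : K) * w (a : K)) := by ring

lemma le_place_mul_add (hε0 : 0 ≤ ε) (hε : nrm K r ≤ ε * mn K a) (w : InfinitePlace K)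
    (c : 𝓞 K) :
    (1 - ε) * w ((c * a : 𝓞 K) : K) ≤ w ((c * (a + r) : 𝓞 K) : K) := by
  push_cast
  rw [map_mul, map_mul]
  have h1 : w (a : K) ≤ w ((a : K) + (r : K)) + w (r : K) := by
    have := w.1.add_le ((a : K) + (r : K)) (-(r : K))
    rw [add_neg_cancel_right, w.1.map_neg] at this
    exact this
  have h2 : w (r : K) ≤ ε * w (a : K) :=
    (place_le_nrm w r).trans (hε.trans (mul_le_mul_of_nonneg_left (mn_le_place w a) hε0))
  have h3 : 0 ≤ w (c : K) := apply_nonneg w _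
  calc (1 - ε) * (w (c : K) * w (a : K)) = w (c : K) * ((1 - ε) * w (a : K)) := by ring
    _ ≤ w (c : K) * w ((a : K) + (r : K)) := by
        apply mul_le_mul_of_nonneg_left _ h3
        linarith

lemma nrm_mul_add_le (hε0 : 0 ≤ ε) (hε : nrm K r ≤ ε * mn K a) (c : 𝓞 K) :
    nrm K (c * (a + r)) ≤ (1 + ε) * nrm K (c * a) := by
  rw [nrm_le_iff]
  intro w
  exact (place_mul_add_le hε0 hε w c).trans
    (mul_le_mul_of_nonneg_left (place_le_nrm w _) (by linarith))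

lemma le_nrm_mul_add (hε0 : 0 ≤ ε) (hε : nrm K r ≤ ε * mn K a) (c : 𝓞 K) :
    (1 - ε) * nrm K (c * a) ≤ nrm K (c * (a + r)) := by
  obtain ⟨w, hw⟩ := exists_place_eq_nrm (c * a)
  rw [← hw]
  exact (le_place_mul_add hε0 hε w c).trans (place_le_nrm w _)

lemma Nm_add_le (hε0 : 0 ≤ ε) (hε : nrm K r ≤ ε * mn K a) :
    Nm K (a + r) ≤ (1 + ε) ^ finrank ℚ K * Nm K a := by
  rw [Nm_eq_prod, Nm_eq_prod, ← InfinitePlace.sum_mult_eq, ← Finset.prod_pow_eq_pow_sum,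
    ← Finset.prod_mul_distrib]
  apply Finset.prod_le_prod
  · intro w _; exact pow_nonneg (apply_nonneg _ _) _
  · intro w _
    rw [← mul_pow]
    refine pow_le_pow_left₀ (apply_nonneg _ _) ?_ _
    simpa using place_mul_add_le hε0 hε w 1

lemma le_Nm_add (hε0 : 0 ≤ ε) (hε1 : ε ≤ 1) (hε : nrm K r ≤ ε * mn K a) :
    (1 - ε) ^ finrank ℚ K * Nm K a ≤ Nm K (a + r) := by
  rw [Nm_eq_prod, Nm_eq_prod, ← InfinitePlace.sum_mult_eq, ← Finset.prod_pow_eq_pow_sum,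
    ← Finset.prod_mul_distrib]
  apply Finset.prod_le_prod
  · intro w _
    exact mul_nonneg (pow_nonneg (by linarith) _) (pow_nonneg (apply_nonneg _ _) _)
  · intro w _
    rw [← mul_pow]
    refine pow_le_pow_left₀ (mul_nonneg (by linarith) (apply_nonneg _ _)) ?_ _
    simpa using le_place_mul_add hε0 hε w 1

lemma add_ne_zero_of_small (ha : a ≠ 0) (hε0 : 0 ≤ ε) (hε2 : ε ≤ 1 / 2)
    (hε : nrm K r ≤ ε * mn K a) : a + r ≠ 0 := by
  intro h0
  have h1 := le_nrm_mul_add hε0 hε (1 : 𝓞 K)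
  rw [one_mul, one_mul, h0, nrm_zero] at h1
  have h2 := nrm_pos ha
  nlinarith

lemma H_add_mul_le (ha : a ≠ 0) (hε0 : 0 ≤ ε) (hε2 : ε ≤ 1 / 2)
    (hε : nrm K r ≤ ε * mn K a) :
    H K (a + r) * (1 - ε) ^ bigM K ≤ H K a := by
  have har := add_ne_zero_of_small ha hε0 hε2 hε
  unfold H
  rw [← tsum_mul_right]
  refine ((summable_H har).mul_right _).tsum_le_tsum (fun u ↦ ?_) (summable_H ha)
  have h1 := le_nrm_mul_add hε0 hε (u : 𝓞 K)
  have hpos1 : 0 < nrm K ((u : 𝓞 K) * a) := nrm_pos (unit_mul_ne_zero u ha)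
  have hpos2 : 0 < nrm K ((u : 𝓞 K) * (a + r)) := nrm_pos (unit_mul_ne_zero u har)
  have h2 : ((1 - ε) * nrm K ((u : 𝓞 K) * a)) ^ bigM K ≤ nrm K ((u : 𝓞 K) * (a + r)) ^ bigM K :=
    pow_le_pow_left₀ (mul_nonneg (by linarith) hpos1.le) h1 _
  rw [mul_pow] at h2
  rw [inv_mul_le_iff₀ (pow_pos hpos2 _), ← div_eq_mul_inv, le_div_iff₀ (pow_pos hpos1 _)]
  exact h2

lemma H_le_mul_add (ha : a ≠ 0) (hε0 : 0 ≤ ε) (hε2 : ε ≤ 1 / 2)
    (hε : nrm K r ≤ ε * mn K a) :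
    H K a ≤ (1 + ε) ^ bigM K * H K (a + r) := by
  have har := add_ne_zero_of_small ha hε0 hε2 hε
  unfold H
  rw [← tsum_mul_left]
  refine (summable_H ha).tsum_le_tsum (fun u ↦ ?_) ((summable_H har).mul_left _)
  have h1 := nrm_mul_add_le hε0 hε (u : 𝓞 K)
  have hpos1 : 0 < nrm K ((u : 𝓞 K) * a) := nrm_pos (unit_mul_ne_zero u ha)
  have hpos2 : 0 < nrm K ((u : 𝓞 K) * (a + r)) := nrm_pos (unit_mul_ne_zero u har)
  have h2 : nrm K ((u : 𝓞 K) * (a + r)) ^ bigM K ≤ ((1 + ε) * nrm K ((u : 𝓞 K) * a)) ^ bigM K :=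
    pow_le_pow_left₀ hpos2.le h1 _
  rw [mul_pow] at h2
  rw [← div_eq_mul_inv, le_div_iff₀ (pow_pos hpos2 _), inv_mul_le_iff₀ (pow_pos hpos1 _),
    mul_comm (nrm K ((u : 𝓞 K) * a) ^ bigM K)]
  exact h2

lemma phi_add_mul_le (ha : a ≠ 0) (hε0 : 0 ≤ ε) (hε2 : ε ≤ 1 / 2)
    (hε : nrm K r ≤ ε * mn K a) :
    phi K (a + r) * (1 - ε) ^ bigM K ≤ (1 + ε) ^ bigM K * phi K a := by
  have har := add_ne_zero_of_small ha hε0 hε2 hε
  unfold phi
  apply ratio_aux (pow_pos (nrm_pos ha) _) (pow_pos (nrm_pos har) _) (H_pos ha) (H_pos har)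
  · have h1 := le_nrm_mul_add hε0 hε (1 : 𝓞 K)
    rw [one_mul, one_mul] at h1
    rw [← mul_pow]
    exact pow_le_pow_left₀ (mul_nonneg (by linarith) (nrm_nonneg a)) h1 _
  · exact H_le_mul_add ha hε0 hε2 hε

lemma phi_mul_le_add (ha : a ≠ 0) (hε0 : 0 ≤ ε) (hε2 : ε ≤ 1 / 2)
    (hε : nrm K r ≤ ε * mn K a) :
    phi K a * (1 - ε) ^ bigM K ≤ (1 + ε) ^ bigM K * phi K (a + r) := by
  have har := add_ne_zero_of_small ha hε0 hε2 hε
  unfold phi
  apply ratio_aux' (pow_pos (nrm_pos ha) _) (pow_pos (nrm_pos har) _) (H_pos ha) (H_pos har)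
    (pow_nonneg (by linarith) _) (pow_nonneg (by linarith) _)
  · have h1 := nrm_mul_add_le hε0 hε (1 : 𝓞 K)
    rw [one_mul, one_mul] at h1
    rw [← mul_pow]
    exact pow_le_pow_left₀ (nrm_nonneg _) h1 _
  · exact H_add_mul_le ha hε0 hε2 hε

lemma F_add_mul_le (ha : a ≠ 0) (hε0 : 0 ≤ ε) (hε2 : ε ≤ 1 / 2)
    (hε : nrm K r ≤ ε * mn K a) {s : ℝ} (hs1 : 1 ≤ s) (hs2 : s ≤ 2) :
    F K s (a + r) * (1 - ε) ^ (bigM K + 2 * finrank ℚ K)
      ≤ (1 + ε) ^ (bigM K + 2 * finrank ℚ K) * F K s a := by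
  have har := add_ne_zero_of_small ha hε0 hε2 hε
  have h1 := phi_add_mul_le ha hε0 hε2 hε
  have hq : 0 < 1 - ε := by linarith
  have h2 : Nm K (a + r) ^ (-s) * ((1 - ε) ^ finrank ℚ K) ^ 2 ≤ Nm K a ^ (-s) :=
    rpow_aux_up (Nm_pos ha) (pow_pos hq _) (pow_le_one₀ hq.le (by linarith))
      (le_Nm_add hε0 (by linarith) hε) (by linarith) hs2
  have h3 : (1 + ε) ^ bigM K ≤ (1 + ε) ^ (bigM K + 2 * finrank ℚ K) :=
    pow_le_pow_right₀ (by linarith) (by omega)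
  unfold F
  calc phi K (a + r) * Nm K (a + r) ^ (-s) * (1 - ε) ^ (bigM K + 2 * finrank ℚ K)
      = (phi K (a + r) * (1 - ε) ^ bigM K)
          * (Nm K (a + r) ^ (-s) * ((1 - ε) ^ finrank ℚ K) ^ 2) := by
        rw [pow_add, ← pow_mul, mul_comm (finrank ℚ K) 2]; ring
    _ ≤ ((1 + ε) ^ bigM K * phi K a) * Nm K a ^ (-s) := by
        apply mul_le_mul h1 h2
        · exact mul_nonneg (Real.rpow_nonneg (Nm_nonneg _) _) (by positivity)
        · exact mul_nonneg (pow_nonneg (by linarith) _) (phi_nonneg a)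
    _ ≤ ((1 + ε) ^ (bigM K + 2 * finrank ℚ K) * phi K a) * Nm K a ^ (-s) := by
        apply mul_le_mul_of_nonneg_right _ (Real.rpow_nonneg (Nm_nonneg _) _)
        exact mul_le_mul_of_nonneg_right h3 (phi_nonneg a)
    _ = (1 + ε) ^ (bigM K + 2 * finrank ℚ K) * (phi K a * Nm K a ^ (-s)) := by ring

lemma F_mul_le_add (ha : a ≠ 0) (hε0 : 0 ≤ ε) (hε2 : ε ≤ 1 / 2)
    (hε : nrm K r ≤ ε * mn K a) {s : ℝ} (hs1 : 1 ≤ s) (hs2 : s ≤ 2) :
    F K s a * (1 - ε) ^ (bigM K + 2 * finrank ℚ K)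
      ≤ (1 + ε) ^ (bigM K + 2 * finrank ℚ K) * F K s (a + r) := by
  have har := add_ne_zero_of_small ha hε0 hε2 hε
  have h1 := phi_mul_le_add ha hε0 hε2 hε
  have hq : 0 < 1 - ε := by linarith
  have hp : (1 : ℝ) ≤ 1 + ε := by linarith
  have h2 : Nm K a ^ (-s) ≤ ((1 + ε) ^ finrank ℚ K) ^ 2 * Nm K (a + r) ^ (-s) :=
    rpow_aux_down (Nm_pos ha) (Nm_pos har) (one_le_pow₀ hp)
      (Nm_add_le hε0 hε) (by linarith) hs2
  have h3 : (1 - ε) ^ (bigM K + 2 * finrank ℚ K) ≤ (1 - ε) ^ bigM K :=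
    pow_le_pow_of_le_one hq.le (by linarith) (by omega)
  unfold F
  calc phi K a * Nm K a ^ (-s) * (1 - ε) ^ (bigM K + 2 * finrank ℚ K)
      ≤ phi K a * Nm K a ^ (-s) * (1 - ε) ^ bigM K := by
        apply mul_le_mul_of_nonneg_left h3
        exact mul_nonneg (phi_nonneg a) (Real.rpow_nonneg (Nm_nonneg _) _)
    _ = (phi K a * (1 - ε) ^ bigM K) * Nm K a ^ (-s) := by ring
    _ ≤ ((1 + ε) ^ bigM K * phi K (a + r))
          * (((1 + ε) ^ finrank ℚ K) ^ 2 * Nm K (a + r) ^ (-s)) := by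
        apply mul_le_mul h1 h2 (Real.rpow_nonneg (Nm_nonneg _) _)
        exact mul_nonneg (pow_nonneg (by linarith) _) (phi_nonneg _)
    _ = (1 + ε) ^ (bigM K + 2 * finrank ℚ K) * (phi K (a + r) * Nm K (a + r) ^ (-s)) := by
        rw [pow_add, ← pow_mul, mul_comm (finrank ℚ K) 2]; ring

end Perturb

variable (K) in
/-- The perturbation constant. -/
noncomputable def cK : ℝ :=
  ((bigM K + 2 * finrank ℚ K : ℕ) : ℝ) * 3 ^ (bigM K + 2 * finrank ℚ K) * 4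

lemma cK_nonneg : 0 ≤ cK K := by unfold cK; positivity

/-- **Multiplicative perturbation estimate.** -/
lemma abs_F_add_sub_le {a r : 𝓞 K} {ε : ℝ} (ha : a ≠ 0) (hε0 : 0 ≤ ε) (hε2 : ε ≤ 1 / 2)
    (hε : nrm K r ≤ ε * mn K a) {s : ℝ} (hs1 : 1 ≤ s) (hs2 : s ≤ 2) :
    |F K s (a + r) - F K s a| ≤ cK K * (1 + cK K) * ε * F K s a := by
  set k := bigM K + 2 * finrank ℚ K with hk
  have hc := cK_nonneg (K := K)
  have hq : 0 < 1 - ε := by linarith
  have hQ : 0 < (1 - ε) ^ k := pow_pos hq _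
  have hPQ : (1 + ε) ^ k ≤ (1 + cK K * ε) * (1 - ε) ^ k := by
    have h1 : 1 + ε ≤ (1 + 4 * ε) * (1 - ε) := by nlinarith
    have h2 : (1 + 4 * ε) ^ k ≤ 1 + (k : ℝ) * 3 ^ k * (4 * ε) :=
      one_add_pow_le k (by linarith) (by linarith)
    calc (1 + ε) ^ k ≤ ((1 + 4 * ε) * (1 - ε)) ^ k := pow_le_pow_left₀ (by linarith) h1 _
      _ = (1 + 4 * ε) ^ k * (1 - ε) ^ k := mul_pow _ _ _
      _ ≤ (1 + (k : ℝ) * 3 ^ k * (4 * ε)) * (1 - ε) ^ k := by gcongr
      _ = (1 + cK K * ε) * (1 - ε) ^ k := by rw [cK]; ring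
  have hA := F_nonneg (K := K) s a
  have hB := F_nonneg (K := K) s (a + r)
  have h1 : F K s (a + r) ≤ (1 + cK K * ε) * F K s a := by
    have := F_add_mul_le ha hε0 hε2 hε hs1 hs2
    have h' : F K s (a + r) * (1 - ε) ^ k ≤ ((1 + cK K * ε) * F K s a) * (1 - ε) ^ k :=
      this.trans (by
        calc (1 + ε) ^ k * F K s a ≤ ((1 + cK K * ε) * (1 - ε) ^ k) * F K s a :=
              mul_le_mul_of_nonneg_right hPQ hA
          _ = ((1 + cK K * ε) * F K s a) * (1 - ε) ^ k := by ring)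
    exact le_of_mul_le_mul_right h' hQ
  have h2 : F K s a ≤ (1 + cK K * ε) * F K s (a + r) := by
    have := F_mul_le_add ha hε0 hε2 hε hs1 hs2
    have h' : F K s a * (1 - ε) ^ k ≤ ((1 + cK K * ε) * F K s (a + r)) * (1 - ε) ^ k :=
      this.trans (by
        calc (1 + ε) ^ k * F K s (a + r) ≤ ((1 + cK K * ε) * (1 - ε) ^ k) * F K s (a + r) :=
              mul_le_mul_of_nonneg_right hPQ hB
          _ = ((1 + cK K * ε) * F K s (a + r)) * (1 - ε) ^ k := by ring)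
    exact le_of_mul_le_mul_right h' hQ
  have hcε : 0 ≤ cK K * ε := mul_nonneg hc hε0
  rw [abs_le]
  constructor
  · -- A - B ≤ cε B ≤ cε (1 + cε) A ≤ c (1 + c) ε A
    have h3 : cK K * ε * F K s (a + r) ≤ cK K * ε * ((1 + cK K * ε) * F K s a) :=
      mul_le_mul_of_nonneg_left h1 hcε
    have h4 : cK K * ε * ((1 + cK K * ε) * F K s a) ≤ cK K * (1 + cK K) * ε * F K s a := by
      have : (1 + cK K * ε) ≤ 1 + cK K := by nlinarith
      calc cK K * ε * ((1 + cK K * ε) * F K s a) = (cK K * ε * F K s a) * (1 + cK K * ε) := by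
            ring
        _ ≤ (cK K * ε * F K s a) * (1 + cK K) := by
            apply mul_le_mul_of_nonneg_left this
            positivity
        _ = cK K * (1 + cK K) * ε * F K s a := by ring
    linarith
  · have h3 : cK K * ε * F K s a ≤ cK K * (1 + cK K) * ε * F K s a := by
      have : cK K * ε * F K s a * 1 ≤ cK K * ε * F K s a * (1 + cK K) := by
        apply mul_le_mul_of_nonneg_left _ (by positivity)
        linarith
      calc cK K * ε * F K s a = cK K * ε * F K s a * 1 := (mul_one _).symm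
        _ ≤ cK K * ε * F K s a * (1 + cK K) := this
        _ = cK K * (1 + cK K) * ε * F K s a := by ring
    linarith

end Fermat.Agent.S14.helper5611
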