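import Fermat.Agent.S14.helper5611_PZCoset

/-!
# S14 / W0 ("Epstein normalisation" route), part 6: unfolding the partial zeta function

For an integral ideal `b` in the class `C⁻¹`, the ideals `I` of class `C` correspond to the
nonzero principal ideals `b * I ⊆ b`, and the generators of a principal ideal form one free
orbit of the unit group.  Since `phi` sums to `1` over unit orbits:
`∑_{[I] = C} N(I)^(-s) = N(b)^s * S b s`.
-/

set_option autoImplicit false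

namespace Fermat.Agent.S14.helper5611

open NumberField NumberField.InfinitePlace NumberField.mixedEmbedding Module

open scoped Classical nonZeroDivisors

variable {K : Type*} [Field K] [NumberField K]

attribute [local irreducible] nrm mn Nm H phi F cK

/-- The sum of `F s` (restricted to `b`) over the generators of the principal ideal `(a₀)`. -/
lemma tsum_fiber_span (s : ℝ) (b : Ideal (𝓞 K)) {a₀ : 𝓞 K} (ha₀ : a₀ ≠ 0) (hab : a₀ ∈ b) :
    ∑' a : ((fun a : 𝓞 K ↦ Ideal.span {a}) ⁻¹' {Ideal.span {a₀}}),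
        Set.indicator (b : Set (𝓞 K)) (F K s) (a : 𝓞 K) = Nm K a₀ ^ (-s) := by
  let ψ : (𝓞 K)ˣ → ((fun a : 𝓞 K ↦ Ideal.span {a}) ⁻¹' {Ideal.span {a₀}}) :=
    fun u ↦ ⟨(u : 𝓞 K) * a₀, by
      simp only [Set.mem_preimage, Set.mem_singleton_iff]
      exact Ideal.span_singleton_mul_left_unit u.isUnit a₀⟩
  have hψ : Function.Bijective ψ := by
    constructor
    · intro u v h
      have h' : (u : 𝓞 K) * a₀ = (v : 𝓞 K) * a₀ := congrArg Subtype.val h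
      exact Units.ext (mul_right_cancel₀ ha₀ h')
    · rintro ⟨a, ha⟩
      simp only [Set.mem_preimage, Set.mem_singleton_iff] at ha
      obtain ⟨u, hu⟩ := Ideal.span_singleton_eq_span_singleton.mp ha
      refine ⟨u⁻¹, Subtype.ext ?_⟩
      show ((u⁻¹ : (𝓞 K)ˣ) : 𝓞 K) * a₀ = a
      rw [← hu, mul_comm a, ← mul_assoc, Units.inv_mul, one_mul]
  rw [← (Equiv.ofBijective ψ hψ).tsum_eq]
  have h1 : ∀ u : (𝓞 K)ˣ, Set.indicator (b : Set (𝓞 K)) (F K s)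
      ((Equiv.ofBijective ψ hψ u : ((fun a : 𝓞 K ↦ Ideal.span {a}) ⁻¹' {Ideal.span {a₀}})) : 𝓞 K)
      = F K s ((u : 𝓞 K) * a₀) := by
    intro u
    exact Set.indicator_of_mem (show (u : 𝓞 K) * a₀ ∈ (b : Set (𝓞 K)) from b.mul_mem_left _ hab) _
  rw [tsum_congr h1]
  exact (hasSum_F_orbit s ha₀).tsum_eq

/-- **Unfolding.** -/
theorem hasSum_partialZeta {R : ℝ} (hR : IsBal K R) (b : (Ideal (𝓞 K))⁰) (C : ClassGroup (𝓞 K))
    (hbC : ClassGroup.mk0 b = C⁻¹) {s : ℝ} (hs1 : 1 < s) (hs2 : s ≤ 2) :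
    HasSum (fun I : {I : (Ideal (𝓞 K))⁰ // ClassGroup.mk0 I = C} ↦
      ((Ideal.absNorm (I.1 : Ideal (𝓞 K)) : ℝ)) ^ (-s))
      ((Ideal.absNorm (b : Ideal (𝓞 K)) : ℝ) ^ s * S (b : Ideal (𝓞 K)) s) := by
  have hb0 : (b : Ideal (𝓞 K)) ≠ ⊥ := mem_nonZeroDivisors_iff_ne_zero.mp b.2
  have hF := summable_F hR hs1 hs2
  -- Step 1: the sum over elements, grouped by the ideal they generate
  have hf : HasSum (Set.indicator ((b : Ideal (𝓞 K)) : Set (𝓞 K)) (F K s))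
      (S (b : Ideal (𝓞 K)) s) := (hF.indicator _).hasSum
  have h1 := hf.tsum_fiberwise (fun a : 𝓞 K ↦ Ideal.span {a})
  -- Step 2: the fibre sums
  let h' : Ideal (𝓞 K) → ℝ := fun P ↦
    if P ≠ ⊥ ∧ P.IsPrincipal ∧ P ≤ (b : Ideal (𝓞 K)) then (Ideal.absNorm P : ℝ) ^ (-s) else 0
  have hfib : ∀ P : Ideal (𝓞 K),
      ∑' a : ((fun a : 𝓞 K ↦ Ideal.span {a}) ⁻¹' {P}),
        Set.indicator ((b : Ideal (𝓞 K)) : Set (𝓞 K)) (F K s) (a : 𝓞 K) = h' P := by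
    intro P
    by_cases hP : P ≠ ⊥ ∧ P.IsPrincipal ∧ P ≤ (b : Ideal (𝓞 K))
    · obtain ⟨hP0, hPp, hPb⟩ := hP
      have hgen : Ideal.span {Submodule.IsPrincipal.generator P} = P :=
        Ideal.span_singleton_generator P
      have ha₀ : Submodule.IsPrincipal.generator P ≠ 0 := by
        intro h0
        apply hP0
        rw [← hgen, h0]
        simp
      have hab : Submodule.IsPrincipal.generator P ∈ (b : Ideal (𝓞 K)) :=
        hPb (Submodule.IsPrincipal.generator_mem P)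
      have := tsum_fiber_span s (b : Ideal (𝓞 K)) ha₀ hab
      rw [hgen] at this
      rw [this]
      show _ = if P ≠ ⊥ ∧ P.IsPrincipal ∧ P ≤ (b : Ideal (𝓞 K)) then
        (Ideal.absNorm P : ℝ) ^ (-s) else 0
      rw [if_pos ⟨hP0, hPp, hPb⟩, Nm_eq_absNorm, hgen]
    · show _ = if P ≠ ⊥ ∧ P.IsPrincipal ∧ P ≤ (b : Ideal (𝓞 K)) then
        (Ideal.absNorm P : ℝ) ^ (-s) else 0
      rw [if_neg hP]
      have hz : ∀ a : ((fun a : 𝓞 K ↦ Ideal.span {a}) ⁻¹' {P}),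
          Set.indicator ((b : Ideal (𝓞 K)) : Set (𝓞 K)) (F K s) (a : 𝓞 K) = 0 := by
        rintro ⟨a, ha⟩
        simp only [Set.mem_preimage, Set.mem_singleton_iff] at ha
        by_contra hne
        apply hP
        have hab : a ∈ ((b : Ideal (𝓞 K)) : Set (𝓞 K)) := by
          by_contra hnot
          exact hne (Set.indicator_of_notMem hnot _)
        have ha0 : a ≠ 0 := by
          intro h0
          apply hne
          show Set.indicator ((b : Ideal (𝓞 K)) : Set (𝓞 K)) (F K s) a = 0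
          rw [h0, Set.indicator_of_mem (by simp), F_zero]
        refine ⟨?_, ?_, ?_⟩
        · rw [← ha]
          simpa using ha0
        · rw [← ha]
          exact ⟨⟨a, rfl⟩⟩
        · rw [← ha]
          exact (Ideal.span_singleton_le_iff_mem _).mpr hab
      rw [tsum_congr hz, tsum_zero]
  have h2 : HasSum h' (S (b : Ideal (𝓞 K)) s) := by
    have : (fun P : Ideal (𝓞 K) ↦ ∑' a : ((fun a : 𝓞 K ↦ Ideal.span {a}) ⁻¹' {P}),
        Set.indicator ((b : Ideal (𝓞 K)) : Set (𝓞 K)) (F K s) (a : 𝓞 K)) = h' := funext hfib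
    rw [← this]
    exact h1
  -- Step 3: reindex by the ideals of class `C`
  let φ : {I : (Ideal (𝓞 K))⁰ // ClassGroup.mk0 I = C} → Ideal (𝓞 K) :=
    fun I ↦ (b : Ideal (𝓞 K)) * (I.1 : Ideal (𝓞 K))
  have hφinj : Function.Injective φ := by
    intro I J h
    have h' : (I.1 : Ideal (𝓞 K)) = (J.1 : Ideal (𝓞 K)) := mul_left_cancel₀ hb0 h
    exact Subtype.ext (Subtype.ext h')
  have hcond : ∀ I : {I : (Ideal (𝓞 K))⁰ // ClassGroup.mk0 I = C},
      φ I ≠ ⊥ ∧ (φ I).IsPrincipal ∧ φ I ≤ (b : Ideal (𝓞 K)) := by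
    intro I
    have hI0 : (I.1 : Ideal (𝓞 K)) ≠ ⊥ := mem_nonZeroDivisors_iff_ne_zero.mp I.1.2
    refine ⟨mul_ne_zero hb0 hI0, ?_, Ideal.mul_le_left⟩
    have hmem : (b : Ideal (𝓞 K)) * (I.1 : Ideal (𝓞 K)) ∈ (Ideal (𝓞 K))⁰ := (b * I.1).2
    rw [← ClassGroup.mk0_eq_one_iff hmem]
    have : (⟨(b : Ideal (𝓞 K)) * (I.1 : Ideal (𝓞 K)), hmem⟩ : (Ideal (𝓞 K))⁰) = b * I.1 := rfl
    rw [this, map_mul, hbC, I.2, inv_mul_cancel]
  have hrange : ∀ P ∉ Set.range φ, h' P = 0 := by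
    intro P hP
    show (if P ≠ ⊥ ∧ P.IsPrincipal ∧ P ≤ (b : Ideal (𝓞 K)) then
        (Ideal.absNorm P : ℝ) ^ (-s) else 0) = 0
    rw [if_neg]
    rintro ⟨hP0, hPp, hPb⟩
    apply hP
    obtain ⟨J, hJ⟩ := Ideal.dvd_iff_le.mpr hPb
    have hJ0 : J ≠ ⊥ := by
      rintro rfl
      apply hP0
      rw [hJ]
      simp
    have hJmem : J ∈ (Ideal (𝓞 K))⁰ := mem_nonZeroDivisors_iff_ne_zero.mpr hJ0
    have hPmem : P ∈ (Ideal (𝓞 K))⁰ := mem_nonZeroDivisors_iff_ne_zero.mpr hP0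
    have hcl : ClassGroup.mk0 (⟨J, hJmem⟩ : (Ideal (𝓞 K))⁰) = C := by
      have h1' : ClassGroup.mk0 (⟨P, hPmem⟩ : (Ideal (𝓞 K))⁰) = 1 :=
        (ClassGroup.mk0_eq_one_iff hPmem).mpr hPp
      have h2' : (⟨P, hPmem⟩ : (Ideal (𝓞 K))⁰) = b * ⟨J, hJmem⟩ := Subtype.ext hJ
      rw [h2', map_mul, hbC] at h1'
      exact (inv_mul_eq_one.mp h1').symm
    exact ⟨⟨⟨J, hJmem⟩, hcl⟩, hJ.symm⟩
  have h3 : HasSum (h' ∘ φ) (S (b : Ideal (𝓞 K)) s) := (hφinj.hasSum_iff hrange).mpr h2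
  have hNb : (0 : ℝ) < (Ideal.absNorm (b : Ideal (𝓞 K)) : ℝ) := by
    have : Ideal.absNorm (b : Ideal (𝓞 K)) ≠ 0 := by
      rw [Ne, Ideal.absNorm_eq_zero_iff]; exact hb0
    exact_mod_cast Nat.pos_of_ne_zero this
  have h4 : (h' ∘ φ) = fun I : {I : (Ideal (𝓞 K))⁰ // ClassGroup.mk0 I = C} ↦
      (Ideal.absNorm (b : Ideal (𝓞 K)) : ℝ) ^ (-s)
        * (Ideal.absNorm (I.1 : Ideal (𝓞 K)) : ℝ) ^ (-s) := by
    funext I
    show (if φ I ≠ ⊥ ∧ (φ I).IsPrincipal ∧ φ I ≤ (b : Ideal (𝓞 K)) then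
        (Ideal.absNorm (φ I) : ℝ) ^ (-s) else 0) = _
    rw [if_pos (hcond I)]
    show (Ideal.absNorm ((b : Ideal (𝓞 K)) * (I.1 : Ideal (𝓞 K))) : ℝ) ^ (-s) = _
    rw [map_mul, Nat.cast_mul, Real.mul_rpow (Nat.cast_nonneg _) (Nat.cast_nonneg _)]
  rw [h4] at h3
  have h5 := h3.mul_left ((Ideal.absNorm (b : Ideal (𝓞 K)) : ℝ) ^ s)
  have h6 : (fun I : {I : (Ideal (𝓞 K))⁰ // ClassGroup.mk0 I = C} ↦
      (Ideal.absNorm (b : Ideal (𝓞 K)) : ℝ) ^ s * ((Ideal.absNorm (b : Ideal (𝓞 K)) : ℝ) ^ (-s)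
        * (Ideal.absNorm (I.1 : Ideal (𝓞 K)) : ℝ) ^ (-s)))
      = fun I : {I : (Ideal (𝓞 K))⁰ // ClassGroup.mk0 I = C} ↦
        (Ideal.absNorm (I.1 : Ideal (𝓞 K)) : ℝ) ^ (-s) := by
    funext I
    rw [← mul_assoc, ← Real.rpow_add hNb, add_neg_cancel, Real.rpow_zero, one_mul]
  rw [h6] at h5
  exact h5

end Fermat.Agent.S14.helper5611
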