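import Fermat.Agent.S14.helper5611_PZBasic

/-!
# S14 / W0 ("Epstein normalisation" route), part 2: the weight `phi` and the summand `F`

`H a = ∑_u nrm (u a) ^ (-3n)` (sum over all units), `phi a = nrm a ^ (-3n) / H a` and
`F s a = phi a * Nm a ^ (-s)`.  The sum of `phi` over a unit orbit is `1`, so the sum of
`F s` over the generators of a principal ideal is its norm to the `-s`.

Size bounds (for `a ≠ 0`, `1 ≤ s`, `R` a balance constant):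
`F s a ≤ R^(3n) * mn a ^ 2 / nrm a ^ (n+2)` and `F s a ≤ R^(3n) * nrm a ^ (-n s)`.
-/

set_option autoImplicit false

namespace Fermat.Agent.S14.helper5611

open NumberField NumberField.InfinitePlace NumberField.mixedEmbedding Module

open scoped Classical

variable (K : Type*) [Field K] [NumberField K]

/-- The exponent `M = 3 n`. -/
noncomputable def bigM : ℕ := 3 * finrank ℚ K

/-- The Epstein-type sum over the unit orbit of `a`. -/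
noncomputable def H (a : 𝓞 K) : ℝ := ∑' u : (𝓞 K)ˣ, (nrm K ((u : 𝓞 K) * a) ^ bigM K)⁻¹

/-- The weight: `∑_u phi (u a) = 1` for `a ≠ 0`. -/
noncomputable def phi (a : 𝓞 K) : ℝ := (nrm K a ^ bigM K)⁻¹ / H K a

/-- The summand of the unfolded partial zeta function. -/
noncomputable def F (s : ℝ) (a : 𝓞 K) : ℝ := phi K a * Nm K a ^ (-s)

/-- `R` is a balance constant: every unit orbit has a representative with
`nrm ^ n ≤ R ^ n * Nm`. -/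
def IsBal (R : ℝ) : Prop :=
  1 ≤ R ∧ ∀ a : 𝓞 K, a ≠ 0 →
    ∃ u : (𝓞 K)ˣ, nrm K ((u : 𝓞 K) * a) ^ finrank ℚ K ≤ R ^ finrank ℚ K * Nm K a

lemma exists_isBal : ∃ R : ℝ, IsBal K R := exists_balanced

variable {K}

lemma finrank_pos' : 0 < finrank ℚ K := finrank_pos

lemma bigM_pos : 0 < bigM K := Nat.mul_pos (by norm_num) finrank_pos

lemma summable_inv_nrm_pow (d : ℕ) (hd : finrank ℚ K < d) :
    Summable (fun a : 𝓞 K ↦ (nrm K a ^ d)⁻¹) := by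
  have h := summable_nrm_rpow (K := K) (-(d : ℝ)) (by
    have : (finrank ℚ K : ℝ) < d := by exact_mod_cast hd
    linarith)
  refine h.congr (fun a ↦ ?_)
  rw [Real.rpow_neg (nrm_nonneg a), Real.rpow_natCast]

lemma finrank_lt_bigM : finrank ℚ K < bigM K := by
  have := finrank_pos' (K := K)
  unfold bigM
  omega

lemma unit_mul_ne_zero (u : (𝓞 K)ˣ) {a : 𝓞 K} (ha : a ≠ 0) : (u : 𝓞 K) * a ≠ 0 :=
  mul_ne_zero u.ne_zero ha

lemma unit_mul_injective {a : 𝓞 K} (ha : a ≠ 0) :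
    Function.Injective (fun u : (𝓞 K)ˣ ↦ (u : 𝓞 K) * a) := by
  intro u v h
  exact Units.ext (mul_right_cancel₀ ha h)

lemma summable_H {a : 𝓞 K} (ha : a ≠ 0) :
    Summable (fun u : (𝓞 K)ˣ ↦ (nrm K ((u : 𝓞 K) * a) ^ bigM K)⁻¹) :=
  (summable_inv_nrm_pow (bigM K) finrank_lt_bigM).comp_injective (unit_mul_injective ha)

lemma H_nonneg (a : 𝓞 K) : 0 ≤ H K a :=
  tsum_nonneg (fun u ↦ inv_nonneg.mpr (pow_nonneg (nrm_nonneg _) _))

lemma le_H {a : 𝓞 K} (ha : a ≠ 0) (u : (𝓞 K)ˣ) :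
    (nrm K ((u : 𝓞 K) * a) ^ bigM K)⁻¹ ≤ H K a :=
  (summable_H ha).le_tsum u (fun v _ ↦ inv_nonneg.mpr (pow_nonneg (nrm_nonneg _) _))

lemma H_pos {a : 𝓞 K} (ha : a ≠ 0) : 0 < H K a := by
  refine lt_of_lt_of_le ?_ (le_H ha 1)
  exact inv_pos.mpr (pow_pos (nrm_pos (unit_mul_ne_zero 1 ha)) _)

lemma H_unit_mul (u : (𝓞 K)ˣ) (a : 𝓞 K) : H K ((u : 𝓞 K) * a) = H K a := by
  unfold H
  have h := (Equiv.mulRight u).tsum_eq (fun v : (𝓞 K)ˣ ↦ (nrm K ((v : 𝓞 K) * a) ^ bigM K)⁻¹)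
  rw [← h]
  refine tsum_congr (fun v ↦ ?_)
  simp [mul_assoc]

lemma phi_nonneg (a : 𝓞 K) : 0 ≤ phi K a :=
  div_nonneg (inv_nonneg.mpr (pow_nonneg (nrm_nonneg _) _)) (H_nonneg a)

lemma F_nonneg (s : ℝ) (a : 𝓞 K) : 0 ≤ F K s a :=
  mul_nonneg (phi_nonneg a) (Real.rpow_nonneg (Nm_nonneg a) _)

lemma phi_zero : phi K (0 : 𝓞 K) = 0 := by
  unfold phi
  rw [nrm_zero, zero_pow bigM_pos.ne', inv_zero, zero_div]

lemma F_zero (s : ℝ) : F K s (0 : 𝓞 K) = 0 := by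
  unfold F
  rw [phi_zero, zero_mul]

/-- The sum of `phi` over a unit orbit is `1`. -/
lemma hasSum_phi_orbit {a : 𝓞 K} (ha : a ≠ 0) :
    HasSum (fun u : (𝓞 K)ˣ ↦ phi K ((u : 𝓞 K) * a)) 1 := by
  have h1 : HasSum (fun u : (𝓞 K)ˣ ↦ (nrm K ((u : 𝓞 K) * a) ^ bigM K)⁻¹) (H K a) :=
    (summable_H ha).hasSum
  have h2 := h1.div_const (H K a)
  rw [div_self (H_pos ha).ne'] at h2
  have h3 : (fun u : (𝓞 K)ˣ ↦ phi K ((u : 𝓞 K) * a))
      = fun u : (𝓞 K)ˣ ↦ (nrm K ((u : 𝓞 K) * a) ^ bigM K)⁻¹ / H K a := by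
    funext u
    unfold phi
    rw [H_unit_mul]
  rw [h3]
  exact h2

/-- The sum of `F s` over a unit orbit is `Nm a ^ (-s)`. -/
lemma hasSum_F_orbit (s : ℝ) {a : 𝓞 K} (ha : a ≠ 0) :
    HasSum (fun u : (𝓞 K)ˣ ↦ F K s ((u : 𝓞 K) * a)) (Nm K a ^ (-s)) := by
  have h := (hasSum_phi_orbit ha).mul_right (Nm K a ^ (-s))
  rw [one_mul] at h
  have h3 : (fun u : (𝓞 K)ˣ ↦ F K s ((u : 𝓞 K) * a))
      = fun u : (𝓞 K)ˣ ↦ phi K ((u : 𝓞 K) * a) * Nm K a ^ (-s) := by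
    funext u
    unfold F
    rw [Nm_unit_mul]
  rw [h3]
  exact h

/-! ### Size bounds -/

lemma le_H_of_isBal {R : ℝ} (hR : IsBal K R) {a : 𝓞 K} (ha : a ≠ 0) :
    (R ^ bigM K * Nm K a ^ 3)⁻¹ ≤ H K a := by
  obtain ⟨u, hu⟩ := hR.2 a ha
  refine le_trans ?_ (le_H ha u)
  have hpos : 0 < nrm K ((u : 𝓞 K) * a) ^ bigM K := pow_pos (nrm_pos (unit_mul_ne_zero u ha)) _
  rw [inv_le_inv₀ (by have := Nm_pos ha; have := hR.1; positivity) hpos]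
  calc nrm K ((u : 𝓞 K) * a) ^ bigM K = (nrm K ((u : 𝓞 K) * a) ^ finrank ℚ K) ^ 3 := by
        rw [← pow_mul, bigM, Nat.mul_comm]
    _ ≤ (R ^ finrank ℚ K * Nm K a) ^ 3 :=
        pow_le_pow_left₀ (pow_nonneg (nrm_nonneg _) _) hu 3
    _ = R ^ bigM K * Nm K a ^ 3 := by
        rw [mul_pow, ← pow_mul, bigM, Nat.mul_comm]

lemma phi_le {R : ℝ} (hR : IsBal K R) {a : 𝓞 K} (ha : a ≠ 0) :
    phi K a ≤ R ^ bigM K * Nm K a ^ 3 * (nrm K a ^ bigM K)⁻¹ := by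
  unfold phi
  have hN := Nm_pos ha
  have hR1 := hR.1
  have hpos : 0 < R ^ bigM K * Nm K a ^ 3 := by positivity
  have h1 := le_H_of_isBal hR ha
  have hH := H_pos ha
  rw [div_le_iff₀ hH]
  have h2 : 1 ≤ R ^ bigM K * Nm K a ^ 3 * H K a := by
    have := mul_le_mul_of_nonneg_left h1 hpos.le
    rwa [mul_inv_cancel₀ hpos.ne'] at this
  have h3 : 0 ≤ (nrm K a ^ bigM K)⁻¹ := inv_nonneg.mpr (pow_nonneg (nrm_nonneg _) _)
  calc (nrm K a ^ bigM K)⁻¹ = (nrm K a ^ bigM K)⁻¹ * 1 := (mul_one _).symm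
    _ ≤ (nrm K a ^ bigM K)⁻¹ * (R ^ bigM K * Nm K a ^ 3 * H K a) :=
        mul_le_mul_of_nonneg_left h2 h3
    _ = R ^ bigM K * Nm K a ^ 3 * (nrm K a ^ bigM K)⁻¹ * H K a := by ring

lemma Nm_rpow_neg_le {a : 𝓞 K} (ha : a ≠ 0) {s : ℝ} (hs : 1 ≤ s) :
    Nm K a ^ (-s) ≤ (Nm K a)⁻¹ := by
  rw [← Real.rpow_neg_one]
  exact Real.rpow_le_rpow_of_exponent_le (one_le_Nm ha) (by linarith)

lemma F_le₁ {R : ℝ} (hR : IsBal K R) {a : 𝓞 K} (ha : a ≠ 0) {s : ℝ} (hs : 1 ≤ s) :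
    F K s a ≤ R ^ bigM K * Nm K a ^ 2 * (nrm K a ^ bigM K)⁻¹ := by
  unfold F
  have hN := Nm_pos ha
  have hR1 := hR.1
  have h3 : 0 ≤ (nrm K a ^ bigM K)⁻¹ := inv_nonneg.mpr (pow_nonneg (nrm_nonneg _) _)
  calc phi K a * Nm K a ^ (-s)
      ≤ (R ^ bigM K * Nm K a ^ 3 * (nrm K a ^ bigM K)⁻¹) * (Nm K a)⁻¹ := by
        apply mul_le_mul (phi_le hR ha) (Nm_rpow_neg_le ha hs) (Real.rpow_nonneg hN.le _)
        positivity
    _ = R ^ bigM K * Nm K a ^ 2 * (nrm K a ^ bigM K)⁻¹ := by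
        field_simp

lemma F_le₂ {R : ℝ} (hR : IsBal K R) {a : 𝓞 K} (ha : a ≠ 0) {s : ℝ} (hs : 1 ≤ s) :
    F K s a ≤ R ^ bigM K * mn K a ^ 2 * (nrm K a ^ (finrank ℚ K + 2))⁻¹ := by
  have hn := finrank_pos' (K := K)
  have hR1 := hR.1
  have hnrm := nrm_pos ha
  have h1 := F_le₁ hR ha hs
  have h2 : Nm K a ^ 2 ≤ mn K a ^ 2 * nrm K a ^ (2 * finrank ℚ K - 2) := by
    calc Nm K a ^ 2 ≤ (mn K a * nrm K a ^ (finrank ℚ K - 1)) ^ 2 :=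
          pow_le_pow_left₀ (Nm_nonneg a) (Nm_le a) 2
      _ = mn K a ^ 2 * nrm K a ^ (2 * finrank ℚ K - 2) := by
          rw [mul_pow, ← pow_mul]
          congr 2
          omega
  have h3 : 0 ≤ (nrm K a ^ bigM K)⁻¹ := inv_nonneg.mpr (pow_nonneg (nrm_nonneg _) _)
  have h4 : nrm K a ^ (2 * finrank ℚ K - 2) * (nrm K a ^ bigM K)⁻¹
      = (nrm K a ^ (finrank ℚ K + 2))⁻¹ := by
    have hM : bigM K = (2 * finrank ℚ K - 2) + (finrank ℚ K + 2) := by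
      unfold bigM; omega
    rw [hM, pow_add]
    field_simp
  calc F K s a ≤ R ^ bigM K * Nm K a ^ 2 * (nrm K a ^ bigM K)⁻¹ := h1
    _ ≤ R ^ bigM K * (mn K a ^ 2 * nrm K a ^ (2 * finrank ℚ K - 2)) * (nrm K a ^ bigM K)⁻¹ := by
        gcongr
    _ = R ^ bigM K * mn K a ^ 2 * (nrm K a ^ (finrank ℚ K + 2))⁻¹ := by
        rw [← h4]; ring

lemma F_le₃ {R : ℝ} (hR : IsBal K R) (a : 𝓞 K) {s : ℝ} (hs : 1 ≤ s) :
    F K s a ≤ R ^ bigM K := by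
  have hR1 := hR.1
  by_cases ha : a = 0
  · rw [ha, F_zero]; positivity
  have hnrm := nrm_pos ha
  have h1 := F_le₂ hR ha hs
  have h2 : mn K a ^ 2 * (nrm K a ^ (finrank ℚ K + 2))⁻¹ ≤ 1 := by
    have h3 : mn K a ^ 2 ≤ nrm K a ^ 2 := pow_le_pow_left₀ (mn_nonneg a) (mn_le_nrm a) 2
    have h4 : nrm K a ^ 2 ≤ nrm K a ^ (finrank ℚ K + 2) :=
      pow_le_pow_right₀ (one_le_nrm ha) (by omega)
    rw [← div_eq_mul_inv, div_le_one (by positivity)]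
    exact h3.trans h4
  calc F K s a ≤ R ^ bigM K * (mn K a ^ 2 * (nrm K a ^ (finrank ℚ K + 2))⁻¹) := by
        rw [← mul_assoc]; exact h1
    _ ≤ R ^ bigM K * 1 := by gcongr
    _ = R ^ bigM K := mul_one _

lemma F_le₄ {R : ℝ} (hR : IsBal K R) {a : 𝓞 K} (ha : a ≠ 0) {s : ℝ} (hs : 1 ≤ s) (hs3 : s ≤ 3) :
    F K s a ≤ R ^ bigM K * nrm K a ^ (-((finrank ℚ K : ℝ) * s)) := by
  unfold F
  have hN := Nm_pos ha
  have hR1 := hR.1
  have hnrm := nrm_pos ha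
  have h1 := phi_le hR ha
  have h2 : Nm K a ^ 3 * Nm K a ^ (-s) = Nm K a ^ (3 - s) := by
    rw [← Real.rpow_natCast, ← Real.rpow_add hN]
    norm_num
    ring_nf
  have h3 : Nm K a ^ (3 - s) ≤ nrm K a ^ ((finrank ℚ K : ℝ) * (3 - s)) := by
    rw [Real.rpow_mul hnrm.le, Real.rpow_natCast]
    exact Real.rpow_le_rpow hN.le (Nm_le_pow a) (by linarith)
  have h4 : (nrm K a ^ bigM K)⁻¹ = nrm K a ^ (-(3 * (finrank ℚ K : ℝ))) := by
    rw [Real.rpow_neg hnrm.le, ← Real.rpow_natCast, bigM]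
    push_cast
    rfl
  calc phi K a * Nm K a ^ (-s)
      ≤ (R ^ bigM K * Nm K a ^ 3 * (nrm K a ^ bigM K)⁻¹) * Nm K a ^ (-s) :=
        mul_le_mul_of_nonneg_right h1 (Real.rpow_nonneg hN.le _)
    _ = R ^ bigM K * (Nm K a ^ 3 * Nm K a ^ (-s)) * (nrm K a ^ bigM K)⁻¹ := by ring
    _ = R ^ bigM K * Nm K a ^ (3 - s) * nrm K a ^ (-(3 * (finrank ℚ K : ℝ))) := by
        rw [h2, h4]
    _ ≤ R ^ bigM K * nrm K a ^ ((finrank ℚ K : ℝ) * (3 - s))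
          * nrm K a ^ (-(3 * (finrank ℚ K : ℝ))) := by
        gcongr
    _ = R ^ bigM K * nrm K a ^ (-((finrank ℚ K : ℝ) * s)) := by
        rw [mul_assoc, ← Real.rpow_add hnrm]
        congr 2
        ring

end Fermat.Agent.S14.helper5611
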