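import Mathlib
import Fermat.Agent.S14.helper5852_ThaineChar
import Fermat.Agent.S14.helper134_Thaine

/-!
# S14, Thaine route: `Stmt_ThaineChar p`, unconditionally

Adapter from `helper134.Stmt_ThaineCore` (landed: `helper134.thaineCore`) to the neutral
relation `Stmt_ThaineRel` consumed by `stmt_ThaineChar_of_rel`.
-/

set_option autoImplicit false

namespace Fermat.Agent.S14.helper5852

open NumberField IsDedekindDomain UniqueFactorizationMonoid Fermat.Agent.S14.helper1934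

section Adapter

variable {K : Type} [Field K] [NumberField K]

open Classical in
theorem le_pow_iff_le_count {𝔯 I : Ideal (𝓞 K)} (h𝔯 : 𝔯.IsPrime) (h𝔯0 : 𝔯 ≠ ⊥) (hI : I ≠ ⊥)
    (n : ℕ) : I ≤ 𝔯 ^ n ↔ n ≤ (normalizedFactors I).count 𝔯 := by
  rw [← Ideal.dvd_iff_le, pow_dvd_iff_le_emultiplicity,
    emultiplicity_eq_count_normalizedFactors (Ideal.prime_of_isPrime h𝔯0 h𝔯).irreducible hI,
    normalize_eq, Nat.cast_le]

end Adapter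

/-- `helper134`'s core form of Thaine's relation implies the neutral ideal form. -/
theorem thaineRel_of_core (p : ℕ) [Fact p.Prime] (h : helper134.Stmt_ThaineCore p) :
    Stmt_ThaineRel p := by
  classical
  intro K _ _ _ ζ hζ q hq hpq
  obtain ⟨g, b, hb, h1, h2⟩ := h K ζ hζ q hq hpq
  have hbI : Ideal.span {b} ≠ ⊥ := by rwa [Ne, Ideal.span_singleton_eq_bot]
  have hq0 : (q : 𝓞 K) ≠ 0 := Nat.cast_ne_zero.mpr hq.ne_zero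
  have hqI : Ideal.span {(q : 𝓞 K)} ≠ ⊥ := by rwa [Ne, Ideal.span_singleton_eq_bot]
  let F : Multiset (Ideal (𝓞 K)) := normalizedFactors (Ideal.span {b})
  let c : Ideal (𝓞 K) → ℕ := fun 𝔯 => F.count 𝔯
  let S : Finset (Ideal (𝓞 K)) := (normalizedFactors (Ideal.span {(q : 𝓞 K)})).toFinset
  have hS : ∀ 𝔯 : Ideal (𝓞 K), 𝔯 ∈ S ↔ 𝔯.IsPrime ∧ (q : 𝓞 K) ∈ 𝔯 := by
    intro 𝔯
    rw [Multiset.mem_toFinset, Ideal.mem_normalizedFactors_iff hqI,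
      Ideal.span_singleton_le_iff_mem]
  have hSne : ∀ 𝔯 ∈ S, 𝔯 ≠ ⊥ := by
    intro 𝔯 h𝔯 hbot
    have := ((hS 𝔯).mp h𝔯).2
    rw [hbot, Ideal.mem_bot] at this
    exact hq0 this
  have hFne : ∀ 𝔯 ∈ F, 𝔯.IsPrime ∧ 𝔯 ≠ ⊥ := by
    intro 𝔯 h𝔯
    have h3 := (Ideal.mem_normalizedFactors_iff hbI).mp h𝔯
    refine ⟨h3.1, fun hbot => hbI ?_⟩
    have := h3.2
    rwa [hbot, le_bot_iff] at this
  have hex : ∀ 𝔯 : Ideal (𝓞 K), 𝔯.IsPrime → 𝔯 ≠ ⊥ → b ∈ 𝔯 ^ c 𝔯 ∧ b ∉ 𝔯 ^ (c 𝔯 + 1) := by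
    intro 𝔯 h𝔯 h𝔯0
    constructor
    · rw [← Ideal.span_singleton_le_iff_mem, le_pow_iff_le_count h𝔯 h𝔯0 hbI]
    · rw [← Ideal.span_singleton_le_iff_mem, le_pow_iff_le_count h𝔯 h𝔯0 hbI]
      exact Nat.not_succ_le_self _
  let J : Ideal (𝓞 K) := ∏ 𝔯 ∈ F.toFinset.filter (fun 𝔯 => (q : 𝓞 K) ∉ 𝔯), 𝔯 ^ (c 𝔯 / p)
  refine ⟨g, b, c, J, S, hb, hS, ?_, ?_⟩
  · have e1 : Ideal.span {b} = ∏ 𝔯 ∈ F.toFinset, 𝔯 ^ c 𝔯 := by
      rw [← Finset.prod_multiset_count, Ideal.prod_normalizedFactors_eq_self hbI]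
    have e2 : ∏ 𝔯 ∈ S, 𝔯 ^ c 𝔯 =
        ∏ 𝔯 ∈ F.toFinset.filter (fun 𝔯 => (q : 𝓞 K) ∈ 𝔯), 𝔯 ^ c 𝔯 := by
      symm
      apply Finset.prod_subset
      · intro 𝔯 h𝔯
        rw [Finset.mem_filter, Multiset.mem_toFinset] at h𝔯
        rw [hS]
        exact ⟨(hFne 𝔯 h𝔯.1).1, h𝔯.2⟩
      · intro 𝔯 h𝔯S h𝔯F
        have hc : c 𝔯 = 0 := by
          apply Multiset.count_eq_zero_of_notMem
          intro hmem
          exact h𝔯F (Finset.mem_filter.mpr ⟨Multiset.mem_toFinset.mpr hmem, ((hS 𝔯).mp h𝔯S).2⟩)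
        rw [hc, pow_zero]
    have e3 : J ^ p = ∏ 𝔯 ∈ F.toFinset.filter (fun 𝔯 => (q : 𝓞 K) ∉ 𝔯), 𝔯 ^ c 𝔯 := by
      rw [← Finset.prod_pow]
      refine Finset.prod_congr rfl fun 𝔯 h𝔯 => ?_
      rw [Finset.mem_filter, Multiset.mem_toFinset] at h𝔯
      obtain ⟨hpr, h0⟩ := hFne 𝔯 h𝔯.1
      obtain ⟨hin, hnot⟩ := hex 𝔯 hpr h0
      have hd : p ∣ c 𝔯 := dvd_trans hpq (h1 𝔯 hpr h𝔯.2 _ hin hnot)
      rw [← pow_mul, Nat.div_mul_cancel hd]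
    rw [e1, e2, e3, Finset.prod_filter_mul_prod_filter_not]
  · intro 𝔯 h𝔯
    obtain ⟨hpr, hq𝔯⟩ := (hS 𝔯).mp h𝔯
    obtain ⟨hin, hnot⟩ := hex 𝔯 hpr (hSne 𝔯 h𝔯)
    have h3 := 𝔯.neg_mem (h2 𝔯 hpr hq𝔯 _ hin hnot)
    rwa [neg_sub] at h3

/-- **Thaine's relation in character form** (`helper1934.Stmt_ThaineChar p`, Spec Prop verbatim),
unconditionally. -/
theorem stmt_ThaineChar (p : ℕ) [Fact p.Prime] : Stmt_ThaineChar p :=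
  stmt_ThaineChar_of_rel p (thaineRel_of_core p (helper134.thaineCore p))

end Fermat.Agent.S14.helper5852
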