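import Mathlib

/-!
# S14, Thaine route (finding #1247), item (L): the local computation modulo `π ^ 3`

Backup of helper4440's (L), independent proof.  Mathlib only.

Abstract setting: `R` a commutative ring (a domain where needed), `π : R`, `z = 1 - π`,
`p ≥ 5` prime with
* `(p : R) ∈ span {π ^ 3}`,
* `π ≠ 0`, `¬ IsUnit π`,
* `∀ y, ∃ n : ℤ, y - n ∈ span {π}`.
(All true for `R = 𝓞 K`, `K = ℚ(ζ_p)`, `π = 1 - ζ`, and for its localisation at `(π)`.)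

Definitions
* `invNat p a` : the inverse of `a` modulo `p` in `[0, p)`.
* `E2 p z = ∏ a ∈ Ico 1 p, (∑ i ∈ range (invNat p a), z ^ i) ^ (a ^ 2)` (cyclotomic unit, the
  `ω²`-projection of `(1 - z^b) / (1 - z)`), `E2m p : ℕ` its constant term.

Results
* `E2_one_sub_eq` : in any commutative ring with `ε ^ 3 = 0`, `2 h = 1`, `3 d = 1`, `p = 0`:
  `E2 p (1 - ε) = E2m p * (1 + (h ^ 3 - h d) ε ^ 2)`   (note `h ^ 3 - h d = -1/24`).
* `intCast_mem_span_iff` (L0), `exists_int_pow_sub_mem` (L1), `dvd_coeffs_of_mem`.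
* `pow_mul_E2_pow_sub_mem`, `E2_congr` (L2): `E2 ≡ m (1 - c π ^ 2)` mod `π ^ 3`, `p ∤ m`,
  `24 c ≡ 1` mod `p`.
* `local_main` : `n z^k₁ E2^j₁ y^p ≡ n' z^k₂ E2^j₂ x^p` mod `π ^ 3`, `y ∉ (π)`, `p ∤ n`
  `⟹ k₁ ≡ k₂ ∧ j₁ ≡ j₂ [MOD p]`.
* `dvd_of_E2_pow_mul_pow_sub_mem` (L3), `dvd_of_pow_mul_E2_pow_mul_pow_sub_mem` (L4),
  `E2_ne_pow_mul_pow` (L5), `E2_not_mem`.
-/

set_option autoImplicit false

namespace Fermat.Agent.S14.helper5947

open Finset

section Jet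

variable {A : Type*} [CommRing A]

/-- The second-order exponential `1 + s ε + (t + s² / 2) ε²` (`h` plays the role of `1 / 2`). -/
def jetE (ε h s t : A) : A := 1 + s * ε + (t + h * s ^ 2) * ε ^ 2

theorem jetE_zero_zero (ε h : A) : jetE ε h 0 0 = 1 := by
  simp [jetE]

theorem jetE_mul {ε h : A} (hε : ε ^ 3 = 0) (hh : 2 * h = 1) (s t s' t' : A) :
    jetE ε h s t * jetE ε h s' t' = jetE ε h (s + s') (t + t') := by
  unfold jetE
  linear_combination (s * (t' + h * s' ^ 2) + s' * (t + h * s ^ 2)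
    + ε * (t + h * s ^ 2) * (t' + h * s' ^ 2)) * hε - s * s' * ε ^ 2 * hh

theorem jetE_pow {ε h : A} (hε : ε ^ 3 = 0) (hh : 2 * h = 1) (s t : A) (k : ℕ) :
    jetE ε h s t ^ k = jetE ε h (k * s) (k * t) := by
  induction k with
  | zero => simp [jetE_zero_zero]
  | succ k ih =>
    rw [pow_succ, ih, jetE_mul hε hh]
    congr 1 <;> push_cast <;> ring

theorem jetE_prod {ε h : A} (hε : ε ^ 3 = 0) (hh : 2 * h = 1) {ι : Type*} (S : Finset ι)
    (s t : ι → A) :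
    ∏ i ∈ S, jetE ε h (s i) (t i) = jetE ε h (∑ i ∈ S, s i) (∑ i ∈ S, t i) := by
  classical
  induction S using Finset.induction_on with
  | empty => simp [jetE_zero_zero]
  | insert i S hi ih =>
    rw [Finset.prod_insert hi, Finset.sum_insert hi, Finset.sum_insert hi, ih, jetE_mul hε hh]

theorem one_sub_eq_jetE (ε h : A) : 1 - ε = jetE ε h (-1) (-h) := by
  unfold jetE; ring

theorem one_sub_pow_eq {ε h : A} (hε : ε ^ 3 = 0) (hh : 2 * h = 1) (k : ℕ) :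
    (1 - ε) ^ k = 1 - k * ε + h * k * (k - 1) * ε ^ 2 := by
  rw [one_sub_eq_jetE ε h, jetE_pow hε hh]
  unfold jetE; ring

/-- The geometric sum `∑_{i<b} (1 - ε)^i` to second order. -/
theorem geom_sum_one_sub {ε h d : A} (hε : ε ^ 3 = 0) (hh : 2 * h = 1) (hd : 3 * d = 1) (b : ℕ) :
    ∑ i ∈ range b, (1 - ε) ^ i
      = b - h * b * (b - 1) * ε + h * d * b * (b - 1) * (b - 2) * ε ^ 2 := by
  induction b with
  | zero => simp
  | succ b ih =>
    rw [Finset.sum_range_succ, ih, one_sub_pow_eq hε hh]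
    push_cast
    linear_combination (b : A) * ε * hh - h * b * (b - 1) * ε ^ 2 * hd

theorem geom_sum_one_sub_eq_jetE {ε h d : A} (hε : ε ^ 3 = 0) (hh : 2 * h = 1) (hd : 3 * d = 1)
    (b : ℕ) :
    ∑ i ∈ range b, (1 - ε) ^ i
      = b * jetE ε h (-h * (b - 1)) (h * d * (b - 1) * (b - 2) - h ^ 3 * (b - 1) ^ 2) := by
  rw [geom_sum_one_sub hε hh hd]
  unfold jetE; ring

end Jet

/-! ### The inverse function and the unit `E2` -/

/-- The inverse of `a` modulo `p`, as a natural number `< p`. -/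
def invNat (p a : ℕ) : ℕ := ((a : ZMod p)⁻¹).val

/-- `E2 = ∏_{a=1}^{p-1} (∑_{i < a⁻¹} z^i)^(a^2)`; for `z` a primitive `p`-th root of unity this is
`∏_a (σ_a⁻¹(π)/π)^(a^2)` with `π = 1 - z`. -/
def E2 {R : Type*} [CommRing R] (p : ℕ) (z : R) : R :=
  ∏ a ∈ Ico 1 p, (∑ i ∈ range (invNat p a), z ^ i) ^ (a ^ 2)

/-- The "constant term" of `E2`. -/
def E2m (p : ℕ) : ℕ := ∏ a ∈ Ico 1 p, invNat p a ^ (a ^ 2)

theorem invNat_lt (p a : ℕ) [NeZero p] : invNat p a < p := ZMod.val_lt _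

theorem natCast_ne_zero_of_mem_Ico {p : ℕ} [Fact p.Prime] {a : ℕ} (ha : a ∈ Ico 1 p) :
    (a : ZMod p) ≠ 0 := by
  rw [Finset.mem_Ico] at ha
  intro h
  rw [ZMod.natCast_eq_zero_iff] at h
  exact absurd (Nat.le_of_dvd (by omega) h) (by omega)

theorem mul_invNat_modEq {p : ℕ} [Fact p.Prime] {a : ℕ} (ha : a ∈ Ico 1 p) :
    a * invNat p a ≡ 1 [MOD p] := by
  rw [← ZMod.natCast_eq_natCast_iff]
  push_cast
  rw [invNat, ZMod.natCast_zmod_val]
  exact mul_inv_cancel₀ (natCast_ne_zero_of_mem_Ico ha)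

theorem invNat_cast_ne_zero {p : ℕ} [Fact p.Prime] {a : ℕ} (ha : a ∈ Ico 1 p) :
    (invNat p a : ZMod p) ≠ 0 := by
  rw [invNat, ZMod.natCast_zmod_val]
  exact inv_ne_zero (natCast_ne_zero_of_mem_Ico ha)

theorem E2m_cast_ne_zero (p : ℕ) [Fact p.Prime] : (E2m p : ZMod p) ≠ 0 := by
  rw [E2m, Nat.cast_prod, Finset.prod_ne_zero_iff]
  intro a ha
  rw [Nat.cast_pow]
  exact pow_ne_zero _ (invNat_cast_ne_zero ha)

theorem not_dvd_E2m (p : ℕ) [Fact p.Prime] : ¬ p ∣ E2m p := by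
  rw [← ZMod.natCast_eq_zero_iff]
  exact E2m_cast_ne_zero p

section JetE2

variable {A : Type*} [CommRing A]

theorem natCast_eq_of_modEq {p : ℕ} (hp0 : (p : A) = 0) {a b : ℕ} (h : a ≡ b [MOD p]) :
    (a : A) = b := by
  have h' := (Nat.modEq_iff_dvd.1 h)
  obtain ⟨k, hk⟩ := h'
  have h2 := congrArg (Int.cast : ℤ → A) hk
  push_cast at h2
  rw [hp0, zero_mul, sub_eq_zero] at h2
  exact h2.symm

theorem two_mul_sum_range_cast (n : ℕ) :
    2 * ∑ i ∈ range n, (i : A) = n * (n - 1) := by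
  induction n with
  | zero => simp
  | succ n ih => rw [Finset.sum_range_succ, mul_add, ih]; push_cast; ring

theorem six_mul_sum_range_cast_sq (n : ℕ) :
    6 * ∑ i ∈ range n, (i : A) ^ 2 = n * (n - 1) * (2 * n - 1) := by
  induction n with
  | zero => simp
  | succ n ih => rw [Finset.sum_range_succ, mul_add, ih]; push_cast; ring

theorem sum_Ico_one_cast {p : ℕ} (hp : 0 < p) (hp0 : (p : A) = 0) {h : A} (hh : 2 * h = 1) :
    ∑ a ∈ Ico 1 p, (a : A) = 0 := by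
  have h1 := Finset.sum_range_eq_add_Ico (fun i : ℕ => (i : A)) hp
  simp only [Nat.cast_zero, zero_add] at h1
  rw [← h1]
  have h2 := two_mul_sum_range_cast (A := A) p
  linear_combination (-(∑ i ∈ range p, (i : A))) * hh + h * h2 + h * ((p : A) - 1) * hp0

theorem sum_Ico_one_cast_sq {p : ℕ} (hp : 0 < p) (hp0 : (p : A) = 0) {h d : A} (hh : 2 * h = 1)
    (hd : 3 * d = 1) :
    ∑ a ∈ Ico 1 p, (a : A) ^ 2 = 0 := by
  have h1 := Finset.sum_range_eq_add_Ico (fun i : ℕ => (i : A) ^ 2) hp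
  simp only [Nat.cast_zero, ne_eq, OfNat.ofNat_ne_zero, not_false_eq_true, zero_pow,
    zero_add] at h1
  rw [← h1]
  have h2 := six_mul_sum_range_cast_sq (A := A) p
  linear_combination (-(∑ i ∈ range p, (i : A) ^ 2)) * (3 * d) * hh
    - (∑ i ∈ range p, (i : A) ^ 2) * hd + h * d * h2
    + h * d * ((p : A) - 1) * (2 * p - 1) * hp0

theorem sum_Ico_one_one {p : ℕ} (hp : 0 < p) (hp0 : (p : A) = 0) :
    ∑ _a ∈ Ico 1 p, (1 : A) = -1 := by
  rw [Finset.sum_const, Nat.card_Ico, nsmul_eq_mul, mul_one, Nat.cast_sub hp, hp0]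
  simp

/-- **The value of `E2` to second order.** -/
theorem E2_one_sub_eq {p : ℕ} [Fact p.Prime] {ε h d : A} (hε : ε ^ 3 = 0) (hh : 2 * h = 1)
    (hd : 3 * d = 1) (hp0 : (p : A) = 0) :
    E2 p (1 - ε) = (E2m p : A) * (1 + (h ^ 3 - h * d) * ε ^ 2) := by
  have hp : 0 < p := (Fact.out : p.Prime).pos
  have key : ∀ a ∈ Ico 1 p, (∑ i ∈ range (invNat p a), (1 - ε) ^ i) ^ (a ^ 2)
      = (invNat p a : A) ^ (a ^ 2) *
        jetE ε h (-h * ((a : A) - (a : A) ^ 2))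
          (h * d * (1 - 3 * (a : A) + 2 * (a : A) ^ 2) - h ^ 3 * (1 - 2 * (a : A) + (a : A) ^ 2)) := by
    intro a ha
    have hab : (a : A) * (invNat p a : A) = 1 := by
      have := natCast_eq_of_modEq hp0 (mul_invNat_modEq ha)
      push_cast at this
      exact this
    rw [geom_sum_one_sub_eq_jetE hε hh hd, mul_pow, jetE_pow hε hh]
    congr 2
    · push_cast
      linear_combination (-h * (a : A)) * hab
    · push_cast
      linear_combination (h * d * ((a : A) * (invNat p a : A) + 1 - 3 * (a : A))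
        - h ^ 3 * ((a : A) * (invNat p a : A) + 1 - 2 * (a : A))) * hab
  rw [E2, Finset.prod_congr rfl key, Finset.prod_mul_distrib, jetE_prod hε hh]
  have hS : ∑ a ∈ Ico 1 p, -h * ((a : A) - (a : A) ^ 2) = 0 := by
    rw [← Finset.mul_sum, Finset.sum_sub_distrib, sum_Ico_one_cast hp hp0 hh,
      sum_Ico_one_cast_sq hp hp0 hh hd]
    simp
  have hT : ∑ a ∈ Ico 1 p, (h * d * (1 - 3 * (a : A) + 2 * (a : A) ^ 2)
      - h ^ 3 * (1 - 2 * (a : A) + (a : A) ^ 2)) = h ^ 3 - h * d := by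
    rw [Finset.sum_sub_distrib, ← Finset.mul_sum, ← Finset.mul_sum, Finset.sum_add_distrib,
      Finset.sum_add_distrib, Finset.sum_sub_distrib, Finset.sum_sub_distrib, ← Finset.mul_sum,
      ← Finset.mul_sum, ← Finset.mul_sum, sum_Ico_one_cast hp hp0 hh,
      sum_Ico_one_cast_sq hp hp0 hh hd, sum_Ico_one_one hp hp0]
    ring
  rw [hS, hT]
  unfold jetE E2m
  push_cast
  ring

/-- `(1 - ε)^k * E2^j` to second order. -/
theorem one_sub_pow_mul_E2_pow {p : ℕ} [Fact p.Prime] {ε h d : A} (hε : ε ^ 3 = 0)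
    (hh : 2 * h = 1) (hd : 3 * d = 1) (hp0 : (p : A) = 0) (k j : ℕ) :
    (1 - ε) ^ k * E2 p (1 - ε) ^ j
      = (E2m p : A) ^ j * (1 - k * ε + (h * k * (k - 1) + j * (h ^ 3 - h * d)) * ε ^ 2) := by
  have h1 : (1 + (h ^ 3 - h * d) * ε ^ 2) ^ j = 1 + j * (h ^ 3 - h * d) * ε ^ 2 := by
    have e : (1 + (h ^ 3 - h * d) * ε ^ 2) = jetE ε h 0 (h ^ 3 - h * d) := by
      unfold jetE; ring
    rw [e, jetE_pow hε hh]
    unfold jetE; ring
  rw [one_sub_pow_eq hε hh, E2_one_sub_eq hε hh hd hp0, mul_pow, h1]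
  linear_combination (E2m p : A) ^ j * (-(k : A) * (j * (h ^ 3 - h * d))
    + h * k * (k - 1) * (j * (h ^ 3 - h * d)) * ε) * hε

end JetE2

theorem map_E2 {R S : Type*} [CommRing R] [CommRing S] (f : R →+* S) (p : ℕ) (z : R) :
    f (E2 p z) = E2 p (f z) := by
  simp [E2, map_prod, map_sum, map_pow]

/-! ### The abstract local ring -/

section Local

variable {R : Type*} [CommRing R] {π : R} {p : ℕ} [hpF : Fact p.Prime]

/-- (L0) integers divisible by `π` are the multiples of `p`. -/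
theorem intCast_mem_span_iff (hπu : ¬ IsUnit π) (hp3 : (p : R) ∈ Ideal.span {π ^ 3}) (n : ℤ) :
    (n : R) ∈ Ideal.span {π} ↔ (p : ℤ) ∣ n := by
  have hp1 : (p : R) ∈ Ideal.span {π} := by
    obtain ⟨t, ht⟩ := Ideal.mem_span_singleton'.1 hp3
    exact Ideal.mem_span_singleton'.2 ⟨t * π ^ 2, by rw [← ht]; ring⟩
  constructor
  · intro hn
    by_contra hndvd
    have hcop : IsCoprime (p : ℤ) n :=
      (Nat.prime_iff_prime_int.1 hpF.out).irreducible.coprime_iff_not_dvd.2 hndvd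
    obtain ⟨a, b, hab⟩ := hcop
    have h1 : (1 : R) ∈ Ideal.span {π} := by
      have e : (1 : R) = (a : R) * (p : R) + (b : R) * (n : R) := by
        have := congrArg (Int.cast : ℤ → R) hab
        push_cast at this
        exact this.symm
      rw [e]
      exact Ideal.add_mem _ (Ideal.mul_mem_left _ _ hp1) (Ideal.mul_mem_left _ _ hn)
    exact hπu (Ideal.span_singleton_eq_top.1 ((Ideal.eq_top_iff_one _).2 h1))
  · rintro ⟨k, rfl⟩
    push_cast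
    exact Ideal.mul_mem_right _ _ hp1

/-- (L1) `p`-th powers are integers modulo `π ^ 3`. -/
theorem exists_int_pow_sub_mem (hp3' : 3 ≤ p) (hπu : ¬ IsUnit π)
    (hp3 : (p : R) ∈ Ideal.span {π ^ 3}) (hres : ∀ y : R, ∃ n : ℤ, y - n ∈ Ideal.span {π})
    (y : R) :
    ∃ n : ℤ, y ^ p - n ∈ Ideal.span {π ^ 3} ∧ (y ∉ Ideal.span {π} → ¬ (p : ℤ) ∣ n) := by
  obtain ⟨n₀, hn₀⟩ := hres y
  obtain ⟨w, hw⟩ := Ideal.mem_span_singleton'.1 hn₀
  obtain ⟨t, ht⟩ := Ideal.mem_span_singleton'.1 hp3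
  have hy : y = (n₀ : R) + w * π := by rw [hw]; ring
  obtain ⟨r, hr⟩ := exists_add_pow_prime_eq hpF.out (n₀ : R) (w * π)
  refine ⟨n₀ ^ p, ?_, ?_⟩
  · rw [hy, hr]
    refine Ideal.mem_span_singleton'.2 ⟨w ^ p * π ^ (p - 3) + t * n₀ * (w * π) * r, ?_⟩
    have e : π ^ p = π ^ (p - 3) * π ^ 3 := by rw [← pow_add]; congr 1; omega
    push_cast
    rw [mul_pow, e, ← ht]
    ring
  · intro hynot hdvd
    have h1 : (p : ℤ) ∣ n₀ := (Nat.prime_iff_prime_int.1 hpF.out).dvd_of_dvd_pow hdvd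
    apply hynot
    rw [hy]
    exact Ideal.add_mem _ ((intCast_mem_span_iff hπu hp3 n₀).2 h1)
      (Ideal.mul_mem_left _ _ (Ideal.mem_span_singleton_self π))

/-- Independence of `1, π, π^2` modulo `π^3` over `ℤ / p`. -/
theorem dvd_coeffs_of_mem [IsDomain R] (hπ0 : π ≠ 0) (hπu : ¬ IsUnit π)
    (hp3 : (p : R) ∈ Ideal.span {π ^ 3}) {N₀ N₁ N₂ : ℤ}
    (h : (N₀ : R) + N₁ * π + N₂ * π ^ 2 ∈ Ideal.span {π ^ 3}) :
    (p : ℤ) ∣ N₀ ∧ (p : ℤ) ∣ N₁ ∧ (p : ℤ) ∣ N₂ := by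
  obtain ⟨w, hw⟩ := Ideal.mem_span_singleton'.1 h
  obtain ⟨t, ht⟩ := Ideal.mem_span_singleton'.1 hp3
  have h0 : (p : ℤ) ∣ N₀ := by
    rw [← intCast_mem_span_iff hπu hp3]
    exact Ideal.mem_span_singleton'.2 ⟨w * π ^ 2 - N₁ - N₂ * π, by linear_combination hw⟩
  obtain ⟨q₀, rfl⟩ := h0
  have e1 : (N₁ : R) + N₂ * π = π ^ 2 * (w - t * q₀) := by
    apply mul_left_cancel₀ hπ0
    push_cast at hw
    linear_combination -hw + (q₀ : R) * ht
  have h1 : (p : ℤ) ∣ N₁ := by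
    rw [← intCast_mem_span_iff hπu hp3]
    exact Ideal.mem_span_singleton'.2 ⟨π * (w - t * q₀) - N₂, by linear_combination -e1⟩
  obtain ⟨q₁, rfl⟩ := h1
  have e2 : (N₂ : R) = π * (w - t * q₀) - π ^ 2 * t * q₁ := by
    apply mul_left_cancel₀ hπ0
    push_cast at e1
    linear_combination e1 + (q₁ : R) * ht
  have h2 : (p : ℤ) ∣ N₂ := by
    rw [← intCast_mem_span_iff hπu hp3]
    exact Ideal.mem_span_singleton'.2 ⟨(w - t * q₀) - π * t * q₁, by rw [e2]; ring⟩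
  exact ⟨Dvd.intro q₀ rfl, Dvd.intro q₁ rfl, h2⟩

theorem exists_int_inv_mod (hp5 : 5 ≤ p) :
    ∃ H D : ℤ, (p : ℤ) ∣ 2 * H - 1 ∧ (p : ℤ) ∣ 3 * D - 1 := by
  have hirr := (Nat.prime_iff_prime_int.1 hpF.out).irreducible
  have h2 : IsCoprime (p : ℤ) 2 := hirr.coprime_iff_not_dvd.2 (fun h => by
    have := Int.le_of_dvd (by norm_num) h
    omega)
  have h3 : IsCoprime (p : ℤ) 3 := hirr.coprime_iff_not_dvd.2 (fun h => by
    have := Int.le_of_dvd (by norm_num) h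
    omega)
  obtain ⟨a, H, hH⟩ := h2
  obtain ⟨b, D, hD⟩ := h3
  exact ⟨H, D, ⟨-a, by linear_combination hH⟩, ⟨-b, by linear_combination hD⟩⟩

/-- (L2), general form: `(1 - π)^k * E2^j` modulo `π^3`, with `H = 1/2`, `D = 1/3` modulo `p`. -/
theorem pow_mul_E2_pow_sub_mem (hp3 : (p : R) ∈ Ideal.span {π ^ 3}) {H D : ℤ}
    (hH : (p : ℤ) ∣ 2 * H - 1) (hD : (p : ℤ) ∣ 3 * D - 1) (k j : ℕ) :
    (1 - π) ^ k * E2 p (1 - π) ^ j
      - (E2m p : R) ^ j * (1 - k * π + (H * k * (k - 1) + j * (H ^ 3 - H * D)) * π ^ 2)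
      ∈ Ideal.span {π ^ 3} := by
  set I : Ideal R := Ideal.span {π ^ 3} with hI
  have hε : (Ideal.Quotient.mk I π) ^ 3 = 0 := by
    rw [← map_pow]
    exact Ideal.Quotient.eq_zero_iff_mem.2 (Ideal.mem_span_singleton_self _)
  have hp0 : ((p : ℕ) : R ⧸ I) = 0 := by
    rw [← map_natCast (Ideal.Quotient.mk I)]
    exact Ideal.Quotient.eq_zero_iff_mem.2 hp3
  have hh : 2 * (Ideal.Quotient.mk I (H : R)) = 1 := by
    obtain ⟨c, hc⟩ := hH
    have e : (2 : R) * (H : R) - 1 = (p : R) * c := by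
      have := congrArg (Int.cast : ℤ → R) hc
      push_cast at this
      exact this
    have e2 : Ideal.Quotient.mk I ((2 : R) * (H : R) - 1) = 0 :=
      Ideal.Quotient.eq_zero_iff_mem.2 (e ▸ Ideal.mul_mem_right _ _ hp3)
    rw [map_sub, map_mul, map_one, map_ofNat] at e2
    linear_combination e2
  have hd : 3 * (Ideal.Quotient.mk I (D : R)) = 1 := by
    obtain ⟨c, hc⟩ := hD
    have e : (3 : R) * (D : R) - 1 = (p : R) * c := by
      have := congrArg (Int.cast : ℤ → R) hc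
      push_cast at this
      exact this
    have e2 : Ideal.Quotient.mk I ((3 : R) * (D : R) - 1) = 0 :=
      Ideal.Quotient.eq_zero_iff_mem.2 (e ▸ Ideal.mul_mem_right _ _ hp3)
    rw [map_sub, map_mul, map_one, map_ofNat] at e2
    linear_combination e2
  rw [← Ideal.Quotient.eq]
  have key := one_sub_pow_mul_E2_pow hε hh hd hp0 k j
  simp only [map_mul, map_pow, map_sub, map_one, map_E2, map_add, map_natCast, map_intCast]
  simp only [map_intCast] at key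
  exact key

/-- **Main local theorem** (symmetric form of (L3)/(L4)/(L5) of the Thaine route):
if `n * z^k₁ * E2^j₁ * y^p ≡ n' * z^k₂ * E2^j₂ * x^p` modulo `π^3` (`z = 1 - π`), with `y` prime
to `π` and `n` prime to `p`, then `k₁ ≡ k₂` and `j₁ ≡ j₂` modulo `p`. -/
theorem local_main [IsDomain R] (hp5 : 5 ≤ p) (hπ0 : π ≠ 0) (hπu : ¬ IsUnit π)
    (hp3 : (p : R) ∈ Ideal.span {π ^ 3}) (hres : ∀ y : R, ∃ n : ℤ, y - n ∈ Ideal.span {π})
    {x y : R} (hy : y ∉ Ideal.span {π}) {n n' : ℤ} (hn : ¬ (p : ℤ) ∣ n) (k₁ j₁ k₂ j₂ : ℕ)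
    (h : (n : R) * ((1 - π) ^ k₁ * E2 p (1 - π) ^ j₁) * y ^ p
      - (n' : R) * ((1 - π) ^ k₂ * E2 p (1 - π) ^ j₂) * x ^ p ∈ Ideal.span {π ^ 3}) :
    k₁ ≡ k₂ [MOD p] ∧ j₁ ≡ j₂ [MOD p] := by
  obtain ⟨H, D, hH, hD⟩ := exists_int_inv_mod (p := p) hp5
  obtain ⟨n₁, hn₁, hn₁'⟩ := exists_int_pow_sub_mem (by omega) hπu hp3 hres y
  obtain ⟨n₂, hn₂, -⟩ := exists_int_pow_sub_mem (by omega) hπu hp3 hres x
  have hB1 := pow_mul_E2_pow_sub_mem hp3 hH hD k₁ j₁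
  have hB2 := pow_mul_E2_pow_sub_mem hp3 hH hD k₂ j₂
  set I : Ideal R := Ideal.span {π ^ 3} with hI
  set T₁ : R := (E2m p : R) ^ j₁ * (1 - k₁ * π + (H * k₁ * (k₁ - 1) + j₁ * (H ^ 3 - H * D)) * π ^ 2)
    with hT₁
  set T₂ : R := (E2m p : R) ^ j₂ * (1 - k₂ * π + (H * k₂ * (k₂ - 1) + j₂ * (H ^ 3 - H * D)) * π ^ 2)
    with hT₂
  have hmem : (n : R) * T₁ * n₁ - (n' : R) * T₂ * n₂ ∈ I := by
    rw [← Ideal.Quotient.eq_zero_iff_mem]
    have e1 := Ideal.Quotient.eq.2 hB1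
    have e2 := Ideal.Quotient.eq.2 hB2
    have e3 := Ideal.Quotient.eq.2 hn₁
    have e4 := Ideal.Quotient.eq.2 hn₂
    have e0 := Ideal.Quotient.eq.2 h
    rw [map_mul] at e1 e2
    simp only [map_mul] at e0
    rw [e1, e2, e3, e4] at e0
    simp only [map_sub, map_mul]
    rw [e0, sub_self]
  -- integer coefficients
  set u₁ : ℤ := n * (E2m p : ℤ) ^ j₁ * n₁ with hu₁
  set u₂ : ℤ := n' * (E2m p : ℤ) ^ j₂ * n₂ with hu₂
  have hcoef : (((u₁ - u₂ : ℤ) : R) + ((-(u₁ * k₁ - u₂ * k₂) : ℤ) : R) * π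
      + ((u₁ * (H * k₁ * (k₁ - 1) + j₁ * (H ^ 3 - H * D))
          - u₂ * (H * k₂ * (k₂ - 1) + j₂ * (H ^ 3 - H * D)) : ℤ) : R) * π ^ 2)
      = (n : R) * T₁ * n₁ - (n' : R) * T₂ * n₂ := by
    rw [hT₁, hT₂, hu₁, hu₂]
    push_cast
    ring
  rw [← hcoef] at hmem
  obtain ⟨d0, d1, d2⟩ := dvd_coeffs_of_mem hπ0 hπu hp3 hmem
  have c0 := (ZMod.intCast_zmod_eq_zero_iff_dvd _ p).2 d0
  have c1 := (ZMod.intCast_zmod_eq_zero_iff_dvd _ p).2 d1
  have c2 := (ZMod.intCast_zmod_eq_zero_iff_dvd _ p).2 d2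
  have cH := (ZMod.intCast_zmod_eq_zero_iff_dvd _ p).2 hH
  have cD := (ZMod.intCast_zmod_eq_zero_iff_dvd _ p).2 hD
  push_cast at c0 c1 c2 cH cD
  have hu₁0 : (u₁ : ZMod p) ≠ 0 := by
    rw [hu₁]
    push_cast
    refine mul_ne_zero (mul_ne_zero ?_ (pow_ne_zero _ (E2m_cast_ne_zero p))) ?_
    · rwa [Ne, ZMod.intCast_zmod_eq_zero_iff_dvd]
    · rw [Ne, ZMod.intCast_zmod_eq_zero_iff_dvd]
      exact hn₁' hy
  have hu : (u₂ : ZMod p) = u₁ := by linear_combination -c0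
  rw [hu] at c1 c2
  have hk : (k₁ : ZMod p) = k₂ := by
    apply mul_left_cancel₀ hu₁0
    linear_combination -c1
  rw [hk] at c2
  have hC : (24 : ZMod p) * ((H : ZMod p) ^ 3 - H * D) = -1 := by
    linear_combination (3 * (4 * (H : ZMod p) ^ 2 + 2 * H + 1) - 4 * (3 * (D : ZMod p))) * cH
      - 4 * cD
  have hC0 : ((H : ZMod p) ^ 3 - H * D) ≠ 0 := by
    intro h0
    rw [h0, mul_zero] at hC
    exact one_ne_zero (neg_eq_zero.1 hC.symm)
  have hj : (j₁ : ZMod p) = j₂ := by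
    apply mul_left_cancel₀ hu₁0
    apply mul_right_cancel₀ hC0
    linear_combination c2
  exact ⟨(ZMod.natCast_eq_natCast_iff _ _ _).1 hk, (ZMod.natCast_eq_natCast_iff _ _ _).1 hj⟩

/-- (L2) `E2 ≡ m * (1 - c * π^2)` modulo `π^3` with `p ∤ m` and `24 * c ≡ 1` modulo `p`. -/
theorem E2_congr (hp5 : 5 ≤ p) (hp3 : (p : R) ∈ Ideal.span {π ^ 3}) :
    ∃ m c : ℤ, ¬ (p : ℤ) ∣ m ∧ (p : ℤ) ∣ 24 * c - 1 ∧
      E2 p (1 - π) - m * (1 - c * π ^ 2) ∈ Ideal.span {π ^ 3} := by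
  obtain ⟨H, D, hH, hD⟩ := exists_int_inv_mod (p := p) hp5
  refine ⟨E2m p, H * D - H ^ 3, ?_, ?_, ?_⟩
  · rw [Int.natCast_dvd_natCast]
    exact not_dvd_E2m p
  · obtain ⟨a, ha⟩ := hH
    obtain ⟨b, hb⟩ := hD
    exact ⟨4 * (2 * H) * b - a * (3 * (2 * H) ^ 2 + 3 * (2 * H) - 1), by
      linear_combination 4 * (2 * H) * hb - (3 * (2 * H) ^ 2 + 3 * (2 * H) - 1) * ha⟩
  · have key := pow_mul_E2_pow_sub_mem (π := π) hp3 hH hD 0 1
    have e : E2 p (1 - π) - ((E2m p : ℤ) : R) * (1 - ((H * D - H ^ 3 : ℤ) : R) * π ^ 2)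
        = (1 - π) ^ 0 * E2 p (1 - π) ^ 1 - (E2m p : R) ^ 1 *
          (1 - ((0 : ℕ) : R) * π + (H * ((0 : ℕ) : R) * (((0 : ℕ) : R) - 1)
            + ((1 : ℕ) : R) * (H ^ 3 - H * D)) * π ^ 2) := by
      push_cast
      ring
    rw [e]
    exact key

/-- `E2` is prime to `π`. -/
theorem E2_not_mem (hp5 : 5 ≤ p) (hπu : ¬ IsUnit π) (hp3 : (p : R) ∈ Ideal.span {π ^ 3}) :
    E2 p (1 - π) ∉ Ideal.span {π} := by
  obtain ⟨m, c, hm, -, hmem⟩ := E2_congr (π := π) hp5 hp3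
  intro hE
  apply hm
  rw [← intCast_mem_span_iff hπu hp3]
  obtain ⟨w, hw⟩ := Ideal.mem_span_singleton'.1 hmem
  obtain ⟨v, hv⟩ := Ideal.mem_span_singleton'.1 hE
  exact Ideal.mem_span_singleton'.2 ⟨v - w * π ^ 2 + m * c * π, by linear_combination hv - hw⟩

/-- (L3) `E2^j * y^p ≡ n * x^p` modulo `π^3` with `y` prime to `π` forces `p ∣ j`. -/
theorem dvd_of_E2_pow_mul_pow_sub_mem [IsDomain R] (hp5 : 5 ≤ p) (hπ0 : π ≠ 0) (hπu : ¬ IsUnit π)
    (hp3 : (p : R) ∈ Ideal.span {π ^ 3}) (hres : ∀ y : R, ∃ n : ℤ, y - n ∈ Ideal.span {π})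
    {x y : R} (hy : y ∉ Ideal.span {π}) (n : ℤ) (j : ℕ)
    (h : E2 p (1 - π) ^ j * y ^ p - n * x ^ p ∈ Ideal.span {π ^ 3}) : p ∣ j := by
  have key := (local_main hp5 hπ0 hπu hp3 hres (x := x) hy (n := 1) (n' := n)
    (by
      intro h1
      have := Int.le_of_dvd one_pos h1
      omega) 0 j 0 0 (by
      have e : ((1 : ℤ) : R) * ((1 - π) ^ 0 * E2 p (1 - π) ^ j) * y ^ p
          - (n : R) * ((1 - π) ^ 0 * E2 p (1 - π) ^ 0) * x ^ p
          = E2 p (1 - π) ^ j * y ^ p - n * x ^ p := by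
        push_cast; ring
      rw [e]; exact h)).2
  exact (Nat.modEq_zero_iff_dvd).1 key

/-- (L4) `z^k * E2^j * y^p ≡ x^p` modulo `π^3` (`z = 1 - π`) with `y` prime to `π` forces
`p ∣ k` and `p ∣ j`. -/
theorem dvd_of_pow_mul_E2_pow_mul_pow_sub_mem [IsDomain R] (hp5 : 5 ≤ p) (hπ0 : π ≠ 0)
    (hπu : ¬ IsUnit π) (hp3 : (p : R) ∈ Ideal.span {π ^ 3})
    (hres : ∀ y : R, ∃ n : ℤ, y - n ∈ Ideal.span {π})
    {x y : R} (hy : y ∉ Ideal.span {π}) (k j : ℕ)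
    (h : (1 - π) ^ k * E2 p (1 - π) ^ j * y ^ p - x ^ p ∈ Ideal.span {π ^ 3}) :
    p ∣ k ∧ p ∣ j := by
  have key := local_main hp5 hπ0 hπu hp3 hres (x := x) hy (n := 1) (n' := 1)
    (by
      intro h1
      have := Int.le_of_dvd one_pos h1
      omega) k j 0 0 (by
      have e : ((1 : ℤ) : R) * ((1 - π) ^ k * E2 p (1 - π) ^ j) * y ^ p
          - ((1 : ℤ) : R) * ((1 - π) ^ 0 * E2 p (1 - π) ^ 0) * x ^ p
          = (1 - π) ^ k * E2 p (1 - π) ^ j * y ^ p - x ^ p := by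
        push_cast; ring
      rw [e]; exact h)
  exact ⟨(Nat.modEq_zero_iff_dvd).1 key.1, (Nat.modEq_zero_iff_dvd).1 key.2⟩

/-- (L5) `E2` is not of the form `z^k * y^p` (`z = 1 - π`). -/
theorem E2_ne_pow_mul_pow [IsDomain R] (hp5 : 5 ≤ p) (hπ0 : π ≠ 0) (hπu : ¬ IsUnit π)
    (hp3 : (p : R) ∈ Ideal.span {π ^ 3}) (hres : ∀ y : R, ∃ n : ℤ, y - n ∈ Ideal.span {π})
    (k : ℕ) (y : R) : E2 p (1 - π) ≠ (1 - π) ^ k * y ^ p := by
  intro hE
  have h1 : (1 : R) ∉ Ideal.span {π} := fun h =>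
    hπu (Ideal.span_singleton_eq_top.1 ((Ideal.eq_top_iff_one _).2 h))
  have key := (local_main hp5 hπ0 hπu hp3 hres (x := y) (y := 1) h1 (n := 1) (n' := 1)
    (by
      intro h1
      have := Int.le_of_dvd one_pos h1
      omega) 0 1 k 0 (by
      have e : ((1 : ℤ) : R) * ((1 - π) ^ 0 * E2 p (1 - π) ^ 1) * 1 ^ p
          - ((1 : ℤ) : R) * ((1 - π) ^ k * E2 p (1 - π) ^ 0) * y ^ p = 0 := by
        push_cast
        rw [pow_one, hE]
        ring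
      rw [e]; exact Ideal.zero_mem _)).2
  have h2 : p ∣ 1 := (Nat.modEq_zero_iff_dvd).1 key
  have := Nat.le_of_dvd one_pos h2
  omega

end Local

end Fermat.Agent.S14.helper5947
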