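import Mathlib
import Fermat.Agent.S14.helper602_Unfold
import Fermat.Agent.S14.helper914_PZWeight
import Fermat.Agent.Lib.helper1121_ZetaIdealSum
import Fermat.Agent.S14.helper1934_ThaineSpec

/-!
# S14, Weber core: instantiation of the generic assembly with the tent kernel

The kernel `kerF K s a = wF K s (mixedEmbedding K a)` (tent weight of helper914) satisfies the
three hypotheses (`hunfold`, `hbdd`, `hshift`) of the generic coset-comparison theorem
(board row 523, helper141).  Hence that theorem, taken here as a hypothesis in its exact posted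
shape, yields `helper1934.Stmt_PartialZetaDiff`.
-/

namespace Fermat.Agent.S14.helper602

open NumberField NumberField.mixedEmbedding NumberField.Units
open NumberField.Units.dirichletUnitTheorem
open scoped nonZeroDivisors
open scoped Classical

/-- The tent kernel on algebraic integers. -/
noncomputable def kerF (K : Type*) [Field K] [NumberField K] (s : ℝ) (a : 𝓞 K) : ℝ :=
  helper914.wF K s (mixedEmbedding K (a : K))

/-- Unfolding for the tent kernel (constant `1`). -/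
theorem kerF_unfold (K : Type*) [Field K] [NumberField K] (s : ℝ) (hs : 1 < s)
    (J : (Ideal (𝓞 K))⁰) :
    HasSum (fun a : {a : 𝓞 K // a ∈ (J : Ideal (𝓞 K)) ∧ a ≠ 0} => kerF K s a)
      (1 * (Ideal.absNorm (J : Ideal (𝓞 K)) : ℝ) ^ (-s) *
        ∑' I : {I : (Ideal (𝓞 K))⁰ // ClassGroup.mk0 I = (ClassGroup.mk0 J)⁻¹},
          (Ideal.absNorm (I.1 : Ideal (𝓞 K)) : ℝ) ^ (-s)) := by
  have hφ : ∀ a : 𝓞 K, a ≠ 0 →
      HasSum (fun u : (𝓞 K)ˣ => helper914.wPhi K (mixedEmbedding K (((u : 𝓞 K) * a : 𝓞 K) : K)))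
        1 := by
    intro a ha
    have hnorm : mixedEmbedding.norm (mixedEmbedding K (a : K)) ≠ 0 := by
      rw [ne_eq, norm_eq_zero_iff' ⟨_, rfl⟩, map_eq_zero]
      exact_mod_cast ha
    have h := helper914.hasSum_wPhi_units K hnorm
    have hfun : (fun u : (𝓞 K)ˣ =>
        helper914.wPhi K (mixedEmbedding K (((u : 𝓞 K) * a : 𝓞 K) : K))) =
        fun u : (𝓞 K)ˣ => helper914.wPhi K (u • mixedEmbedding K (a : K)) := by
      funext u
      rw [unitSMul_smul, ← map_mul]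
      rfl
    rw [hfun]
    exact h
  have h := unfold K (fun a => helper914.wPhi K (mixedEmbedding K (a : K))) 1
    (fun a => helper914.wPhi_nonneg K _) hφ J s
    (Fermat.Agent.Lib.helper1121.summable_class_rpow K _ hs)
  have hfun : (fun a : {a : 𝓞 K // a ∈ (J : Ideal (𝓞 K)) ∧ a ≠ 0} => kerF K s a) =
      fun a : {a : 𝓞 K // a ∈ (J : Ideal (𝓞 K)) ∧ a ≠ 0} =>
        helper914.wPhi K (mixedEmbedding K ((a : 𝓞 K) : K)) *
          (|Algebra.norm ℤ (a : 𝓞 K)| : ℝ) ^ (-s) := by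
    funext a
    rw [kerF, helper914.wF, norm_mixedEmbedding_int]
  rw [hfun]
  exact h

/-- Boundedness of the tent kernel on nonzero integers. -/
theorem kerF_bdd (K : Type*) [Field K] [NumberField K] :
    ∃ M : ℝ, ∀ s : ℝ, 1 < s → s ≤ 2 → ∀ a : 𝓞 K, a ≠ 0 → |kerF K s a| ≤ M := by
  refine ⟨1, fun s hs _ a _ => ?_⟩
  rw [kerF, abs_of_nonneg (helper914.wF_nonneg K s _)]
  exact helper914.wF_le_one_of_int K (by linarith) a

/-- Shift estimate for the tent kernel. -/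
theorem kerF_shift (K : Type*) [Field K] [NumberField K] (r : 𝓞 K) :
    ∃ A R0 : ℝ, ∀ s : ℝ, 1 < s → s ≤ 2 → ∀ a : 𝓞 K, R0 ≤ ‖mixedEmbedding K (a : K)‖ →
      |kerF K s (a + r) - kerF K s a| ≤
        A * ‖mixedEmbedding K (a : K)‖ ^ (-((Module.finrank ℚ K : ℝ) + 1)) := by
  obtain ⟨A, hA, h⟩ := helper914.exists_wF_shift K
  refine ⟨A * ‖mixedEmbedding K (r : K)‖, max 2 (2 * ‖mixedEmbedding K (r : K)‖), ?_⟩
  intro s hs hs2 a ha
  have h2 : 2 ≤ ‖mixedEmbedding K (a : K)‖ := (le_max_left _ _).trans ha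
  have hr : 2 * ‖mixedEmbedding K (r : K)‖ ≤ ‖mixedEmbedding K (a : K)‖ :=
    (le_max_right _ _).trans ha
  have hpos : 0 < ‖mixedEmbedding K (a : K)‖ := by linarith
  have key := h s hs.le hs2 (mixedEmbedding K (a : K)) (mixedEmbedding K (r : K)) h2 hr
  have hadd : mixedEmbedding K (((a + r : 𝓞 K)) : K) =
      mixedEmbedding K (a : K) + mixedEmbedding K (r : K) := by
    rw [← map_add]
    rfl
  have hpow : ‖mixedEmbedding K (a : K)‖⁻¹ ^ (Module.finrank ℚ K + 1) =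
      ‖mixedEmbedding K (a : K)‖ ^ (-((Module.finrank ℚ K : ℝ) + 1)) := by
    rw [Real.rpow_neg hpos.le, inv_pow]
    congr 1
    rw [← Real.rpow_natCast]
    congr 1
    push_cast
    ring
  rw [kerF, kerF, hadd]
  rw [hpow] at key
  exact key

/-- The generic assembly theorem of board row 523 (in its exact posted shape, for `K : Type`)
implies the partial zeta difference bound of the Thaine specification. -/
theorem stmt_PartialZetaDiff_of_assembly
    (H : ∀ (K : Type) [Field K] [NumberField K] (F : ℝ → 𝓞 K → ℝ) (c : ℝ), 0 < c →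
      (∀ s : ℝ, 1 < s → s ≤ 2 → ∀ J : (Ideal (𝓞 K))⁰,
        HasSum (fun a : {a : 𝓞 K // a ∈ (J : Ideal (𝓞 K)) ∧ a ≠ 0} => F s a)
          (c * (Ideal.absNorm (J : Ideal (𝓞 K)) : ℝ) ^ (-s) *
            ∑' I : {I : (Ideal (𝓞 K))⁰ // ClassGroup.mk0 I = (ClassGroup.mk0 J)⁻¹},
              (Ideal.absNorm (I.1 : Ideal (𝓞 K)) : ℝ) ^ (-s))) →
      (∃ M : ℝ, ∀ s : ℝ, 1 < s → s ≤ 2 → ∀ a : 𝓞 K, a ≠ 0 → |F s a| ≤ M) →
      (∀ r : 𝓞 K, ∃ A R0 : ℝ, ∀ s : ℝ, 1 < s → s ≤ 2 → ∀ a : 𝓞 K,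
        R0 ≤ ‖mixedEmbedding K (a : K)‖ →
          |F s (a + r) - F s a| ≤
            A * ‖mixedEmbedding K (a : K)‖ ^ (-((Module.finrank ℚ K : ℝ) + 1))) →
      ∃ B : ℝ, ∀ s : ℝ, 1 < s → s ≤ 2 → ∀ C C' : ClassGroup (𝓞 K),
        |(∑' I : {I : (Ideal (𝓞 K))⁰ // ClassGroup.mk0 I = C},
            (Ideal.absNorm (I.1 : Ideal (𝓞 K)) : ℝ) ^ (-s)) -
          ∑' I : {I : (Ideal (𝓞 K))⁰ // ClassGroup.mk0 I = C'},
            (Ideal.absNorm (I.1 : Ideal (𝓞 K)) : ℝ) ^ (-s)| ≤ B) :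
    helper1934.Stmt_PartialZetaDiff := by
  intro K _ _ C C'
  obtain ⟨B, hB⟩ := H K (kerF K) 1 one_pos (fun s hs _ J => kerF_unfold K s hs J)
    (kerF_bdd K) (kerF_shift K)
  exact ⟨B, fun s hs hs2 => hB s hs hs2.le C C'⟩

end Fermat.Agent.S14.helper602
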