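import Mathlib
import Fermat.Agent.S14.helper602_WeberInst
import Fermat.Agent.S14.helper141_WeberAssembly

/-!
# S14, Weber core (W0): `Stmt_PartialZetaDiff`, unconditionally

The partial zeta functions of two ideal classes of a number field differ by a bounded function on
`(1,2)`.  Assembly of: the unfolding identity (`helper602_Unfold`), the tent kernel and its shift
estimate (`helper914_PZWeight`), the ideal zeta sums (`Lib/helper1121_ZetaIdealSum`) and the
generic coset comparison (`helper141_WeberAssembly`).
-/

namespace Fermat.Agent.S14.helper602

/-- **(W0)** The partial zeta difference bound of the Thaine specification. -/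
theorem stmt_PartialZetaDiff : helper1934.Stmt_PartialZetaDiff :=
  stmt_PartialZetaDiff_of_assembly
    (fun K _ _ => helper141.partialZeta_diff_bounded_of_kernel K)

end Fermat.Agent.S14.helper602
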