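/-
S14 moonshot, module M6, leaf SELECT-ONE (board #508), seat helper6536.

`selectOne`: if `F ∋ ζ_p`, `a` is not a `p`-th power and `u ∉ ⟨a⟩ · (Fˣ)^p`, then outside any finite
set of places there is a place `w` not over `p` at which `a`, `u` are units, `a` is a local `p`-th
power and `u` is not a `p`-th power residue.  Input: the zeta lemma in Kummer form (`Stmt_M2`) for
the field `E = F(a^(1/p))`.
-/
import Mathlib
import Fermat.Agent.S14.helper1892_M6Defs

set_option autoImplicit false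

open IsDedekindDomain NumberField WithZero Polynomial

namespace Fermat.Agent.S14.helper6536

open Fermat.Agent.S14.helper1892

universe u

/-! ## Valuation lemmas -/

section Val

variable {K : Type*} [Field K] {Γ : Type*} [LinearOrderedCommGroupWithZero Γ]

theorem val_natCast_le_one (v : Valuation K Γ) (n : ℕ) : v (n : K) ≤ 1 := by
  induction n with
  | zero => simp
  | succ n ih =>
    push_cast
    exact v.map_add_le ih (by simp)

/-- Second-order binomial expansion with a remainder in the valuation ring. -/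
theorem exists_one_add_pow (v : Valuation K Γ) {δ : K} (hδ : v δ ≤ 1) (n : ℕ) :
    ∃ k : K, v k ≤ 1 ∧ (1 + δ) ^ n = 1 + n * δ + k * δ ^ 2 := by
  induction n with
  | zero => exact ⟨0, by simp, by simp⟩
  | succ n ih =>
    obtain ⟨k, hk, hkn⟩ := ih
    refine ⟨n + k + k * δ, ?_, ?_⟩
    · refine v.map_add_le (v.map_add_le (val_natCast_le_one v n) hk) ?_
      rw [map_mul]
      exact mul_le_one' hk hδ
    · rw [pow_succ, hkn]
      push_cast
      ring

/-- If `s ≡ t` modulo the maximal ideal and `t` is integral, then `s ^ n ≡ t ^ n`. -/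
theorem val_pow_sub_pow_lt_one (v : Valuation K Γ) {s t : K} (hst : v (s - t) < 1) (ht : v t ≤ 1)
    (n : ℕ) : v (s ^ n - t ^ n) < 1 := by
  have hs : v s ≤ 1 := by
    have : s = (s - t) + t := by ring
    rw [this]
    exact v.map_add_le hst.le ht
  induction n with
  | zero => simp
  | succ n ih =>
    have : s ^ (n + 1) - t ^ (n + 1) = s ^ n * (s - t) + (s ^ n - t ^ n) * t := by ring
    rw [this]
    refine v.map_add_lt ?_ ?_
    · rw [map_mul, map_pow]
      calc v s ^ n * v (s - t) ≤ 1 * v (s - t) := by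
            gcongr
            exact pow_le_one' hs n
        _ < 1 := by rwa [one_mul]
    · rw [map_mul]
      calc v (s ^ n - t ^ n) * v t ≤ v (s ^ n - t ^ n) * 1 := by gcongr
        _ < 1 := by rwa [mul_one]

end Val

/-! ## Tame Hensel lifting for the completion-free `LocPow` -/

section Hensel

variable {F : Type*} [Field F] [NumberField F]

theorem lt_one_iff_le_exp_neg_one {x : ℤᵐ⁰} : x < 1 ↔ x ≤ exp (-1 : ℤ) := by
  have h := WithZero.lt_mul_exp_iff_le (x := x) (y := exp (-1 : ℤ)) exp_ne_zero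
  rw [← exp_add] at h
  simpa using h

/-- Tame Hensel step: precision `N ≥ 1` can be improved to `N + 1` when `p` is a unit at `w`. -/
theorem locPowN_succ {p : ℕ} {w : HeightOneSpectrum (𝓞 F)} (hpw : w.valuation F (p : F) = 1)
    {a : Fˣ} {N : ℕ} (hN : 1 ≤ N) (h : LocPowN p w N a) : LocPowN p w (N + 1) a := by
  obtain ⟨y, hy⟩ := h
  have hp0 : (p : F) ≠ 0 := by
    intro h0
    rw [h0, map_zero] at hpw
    exact zero_ne_one hpw
  obtain ⟨δ, hδ⟩ : ∃ δ : F, δ = ((a : F) / (y : F) ^ p - 1) / p := ⟨_, rfl⟩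
  have hvδ : w.valuation F δ ≤ exp (-(N : ℤ)) := by
    rw [hδ, map_div₀, hpw, div_one]
    exact hy
  have hvδ1 : w.valuation F δ < 1 :=
    lt_of_le_of_lt hvδ (by rw [← exp_zero, exp_lt_exp]; omega)
  have h1δ : w.valuation F (1 + δ) = 1 := (w.valuation F).map_one_add_of_lt hvδ1
  have h1δ0 : (1 + δ) ≠ 0 := by
    intro h0
    rw [h0, map_zero] at h1δ
    exact zero_ne_one h1δ
  obtain ⟨k, hk, hkp⟩ := exists_one_add_pow (w.valuation F) hvδ1.le p
  refine ⟨y * Units.mk0 (1 + δ) h1δ0, ?_⟩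
  have hy0 : ((y : F)) ^ p ≠ 0 := pow_ne_zero _ y.ne_zero
  have hpow0 : (1 + δ) ^ p ≠ 0 := pow_ne_zero _ h1δ0
  have key : (a : F) / ((y * Units.mk0 (1 + δ) h1δ0 : Fˣ) : F) ^ p - 1
      = -(k * δ ^ 2) / (1 + δ) ^ p := by
    have ha : (a : F) = (1 + p * δ) * (y : F) ^ p := by
      rw [hδ]
      field_simp
      ring
    have h2 : (1 + p * δ) * (y : F) ^ p / ((y : F) ^ p * (1 + δ) ^ p)
        = (1 + p * δ) / (1 + δ) ^ p := by
      field_simp
    rw [Units.val_mul, Units.val_mk0, mul_pow, ha, h2, div_sub_one hpow0, hkp]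
    congr 1
    ring
  rw [key, map_div₀, map_pow, h1δ, one_pow, div_one, Valuation.map_neg, map_mul, map_pow]
  calc w.valuation F k * w.valuation F δ ^ 2 ≤ 1 * (exp (-(N : ℤ))) ^ 2 := by gcongr
    _ = exp (-(N : ℤ) + -(N : ℤ)) := by rw [one_mul, pow_two, exp_add]
    _ ≤ exp (-((N + 1 : ℕ) : ℤ)) := by
      rw [exp_le_exp]
      push_cast
      omega

/-- Tame Hensel: at a place `w` not over `p`, a `p`-th power residue is a local `p`-th power. -/
theorem locPow_of_locPowN_one {p : ℕ} {w : HeightOneSpectrum (𝓞 F)}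
    (hpw : w.valuation F (p : F) = 1) {a : Fˣ} (h : LocPowN p w 1 a) : LocPow p w a := by
  have key : ∀ N : ℕ, LocPowN p w (N + 1) a := by
    intro N
    induction N with
    | zero => exact h
    | succ N ih => exact locPowN_succ hpw (by omega) ih
  intro N
  exact (key N).mono (by omega)

end Hensel

/-! ## Primes of degree one -/

section DegreeOne

variable {E : Type*} [Field E] [NumberField E]

/-- If the absolute norm of `W` is prime, every integer of `E` is congruent modulo `W` to a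
rational integer. -/
theorem exists_int_sub_mem_of_absNorm_prime {W : Ideal (𝓞 E)} (hW : (Ideal.absNorm W).Prime)
    (x : 𝓞 E) : ∃ m : ℤ, x - (m : 𝓞 E) ∈ W := by
  have hcard : Nat.card (𝓞 E ⧸ W) = Ideal.absNorm W := by
    rw [Ideal.absNorm_apply, Submodule.cardQuot_apply]
  have : Fact (Ideal.absNorm W).Prime := ⟨hW⟩
  have h1 : (1 : 𝓞 E ⧸ W) ≠ 0 := by
    intro h
    have hmem : (1 : 𝓞 E) ∈ W := by
      rw [← Ideal.Quotient.eq_zero_iff_mem]
      simpa using h
    have htop : W = ⊤ := (Ideal.eq_top_iff_one W).mpr hmem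
    rw [htop, Ideal.absNorm_top] at hW
    exact Nat.not_prime_one hW
  have htop := zmultiples_eq_top_of_prime_card hcard h1
  have hx : Ideal.Quotient.mk W x ∈ AddSubgroup.zmultiples (1 : 𝓞 E ⧸ W) := by
    rw [htop]
    trivial
  obtain ⟨m, hm⟩ := AddSubgroup.mem_zmultiples_iff.mp hx
  refine ⟨m, ?_⟩
  rw [← Ideal.Quotient.eq]
  rw [← hm]
  simp

end DegreeOne

/-! ## Transfer from a degree-one prime of `E ∋ a^(1/p)` to a place of `F` -/

section Transfer

variable {F : Type*} [Field F] [NumberField F] {E : Type*} [Field E] [NumberField E] [Algebra F E]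

omit [NumberField F] [NumberField E] in
theorem coe_algebraMap_int (r : 𝓞 F) :
    ((algebraMap (𝓞 F) (𝓞 E) r : 𝓞 E) : E) = algebraMap F E (algebraMap (𝓞 F) F r) := rfl

/-- The abstract form of SELECT-ONE: `E/F` an extension of number fields containing a `p`-th root
`θ` of `a`, in which `u` is not a `p`-th power, and for which the zeta lemma `Stmt_M2` holds. -/
theorem selectOne_aux {p : ℕ} (hp : p.Prime) (a u : Fˣ) (θ : E)
    (hθ : θ ^ p = algebraMap F E a) (hu : ∀ e : E, algebraMap F E u ≠ e ^ p)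
    (hM2 : Stmt_M2 E p) (S : Finset (HeightOneSpectrum (𝓞 F))) :
    ∃ w : HeightOneSpectrum (𝓞 F), w ∉ S ∧ (p : 𝓞 F) ∉ w.asIdeal ∧
      w.valuation F (a : F) = 1 ∧ w.valuation F (u : F) = 1 ∧
      LocPow p w a ∧ ¬ LocPowN p w 1 u := by
  classical
  have hpp : p - 1 + 1 = p := Nat.sub_add_cancel hp.one_le
  -- numerators and denominators
  obtain ⟨na, da, hda, hnda⟩ := IsFractionRing.div_surjective (A := 𝓞 F) (a : F)
  obtain ⟨nu, du, hdu, hndu⟩ := IsFractionRing.div_surjective (A := 𝓞 F) (u : F)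
  have hda0 : da ≠ 0 := nonZeroDivisors.ne_zero hda
  have hdu0 : du ≠ 0 := nonZeroDivisors.ne_zero hdu
  have hdaF : algebraMap (𝓞 F) F da ≠ 0 := RingOfIntegers.coe_ne_zero_iff.mpr hda0
  have hduF : algebraMap (𝓞 F) F du ≠ 0 := RingOfIntegers.coe_ne_zero_iff.mpr hdu0
  have hna0 : na ≠ 0 := by
    rintro rfl
    rw [map_zero, zero_div] at hnda
    exact a.ne_zero hnda.symm
  have hnu0 : nu ≠ 0 := by
    rintro rfl
    rw [map_zero, zero_div] at hndu
    exact u.ne_zero hndu.symm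
  have haF : algebraMap (𝓞 F) F (na * da ^ (p - 1)) = (a : F) * algebraMap (𝓞 F) F da ^ p := by
    rw [← hnda, map_mul, map_pow, ← hpp, pow_succ, hpp]
    field_simp
  have huF : algebraMap (𝓞 F) F (nu * du ^ (p - 1)) = (u : F) * algebraMap (𝓞 F) F du ^ p := by
    rw [← hndu, map_mul, map_pow, ← hpp, pow_succ, hpp]
    field_simp
  -- an element vanishing at all places of `S`
  have hS : ∀ v : HeightOneSpectrum (𝓞 F), ∃ s : 𝓞 F, s ∈ v.asIdeal ∧ s ≠ 0 := fun v =>
    Submodule.exists_mem_ne_zero_of_ne_bot v.ne_bot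
  choose s hs hs0 using hS
  have hxS0 : (∏ v ∈ S, s v) ≠ 0 := Finset.prod_ne_zero_iff.mpr (fun v _ => hs0 v)
  have hp0 : (p : 𝓞 F) ≠ 0 := Nat.cast_ne_zero.mpr hp.ne_zero
  obtain ⟨x0, hx0⟩ : ∃ x0 : 𝓞 F, x0 = (∏ v ∈ S, s v) * p * na * da * nu * du := ⟨_, rfl⟩
  have hx00 : x0 ≠ 0 := by
    rw [hx0]
    exact mul_ne_zero (mul_ne_zero (mul_ne_zero (mul_ne_zero (mul_ne_zero hxS0 hp0) hna0) hda0)
      hnu0) hdu0
  have hx0E : algebraMap (𝓞 F) (𝓞 E) x0 ≠ 0 :=
    (map_ne_zero_iff _ (RingOfIntegers.algebraMap.injective F E)).mpr hx00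
  have hfin : {W : HeightOneSpectrum (𝓞 E) |
      W.asIdeal ∣ Ideal.span {algebraMap (𝓞 F) (𝓞 E) x0}}.Finite :=
    Ideal.finite_factors (by rwa [Ne, Ideal.zero_eq_bot, Ideal.span_singleton_eq_bot])
  -- the integer `U = u * du ^ p` of `E` is not a `p`-th power
  have hUnot : ¬ ∃ y : E, ((algebraMap (𝓞 F) (𝓞 E) (nu * du ^ (p - 1)) : 𝓞 E) : E) = y ^ p := by
    rintro ⟨y, hy⟩
    apply hu (y / algebraMap F E (algebraMap (𝓞 F) F du))
    have hduE : algebraMap F E (algebraMap (𝓞 F) F du) ≠ 0 :=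
      (map_ne_zero_iff _ (algebraMap F E).injective).mpr hduF
    rw [div_pow, ← hy, coe_algebraMap_int, huF, map_mul, map_pow, mul_div_cancel_right₀ _
      (pow_ne_zero _ hduE)]
  obtain ⟨W, hWT, hWprime, hWres⟩ := hM2 _ hUnot hfin.toFinset
  -- the place of `F` below `W`
  have hne : Ideal.comap (algebraMap (𝓞 F) (𝓞 E)) W.asIdeal ≠ ⊥ := by
    intro hbot
    have hmem : ((Ideal.absNorm W.asIdeal : ℕ) : 𝓞 F) ∈
        Ideal.comap (algebraMap (𝓞 F) (𝓞 E)) W.asIdeal := by
      rw [Ideal.mem_comap, map_natCast]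
      exact Ideal.absNorm_mem _
    rw [hbot, Ideal.mem_bot] at hmem
    exact hWprime.ne_zero (Nat.cast_eq_zero.mp hmem)
  have := W.isPrime
  obtain ⟨w, hw⟩ : ∃ w : HeightOneSpectrum (𝓞 F),
      w.asIdeal = Ideal.comap (algebraMap (𝓞 F) (𝓞 E)) W.asIdeal :=
    ⟨⟨_, Ideal.comap_isPrime _ _, hne⟩, rfl⟩
  have hmem : ∀ r : 𝓞 F, r ∈ w.asIdeal ↔ algebraMap (𝓞 F) (𝓞 E) r ∈ W.asIdeal := by
    intro r
    rw [hw, Ideal.mem_comap]
  have hx0w : x0 ∉ w.asIdeal := by
    rw [hmem]
    intro h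
    apply hWT
    rw [Set.Finite.mem_toFinset, Set.mem_ofPred_eq, Ideal.dvd_span_singleton]
    exact h
  rw [hx0] at hx0w
  simp only [w.isPrime.mul_mem_iff_mem_or_mem, not_or] at hx0w
  obtain ⟨⟨⟨⟨⟨hxSw, hpw⟩, hnaw⟩, hdaw⟩, hnuw⟩, hduw⟩ := hx0w
  have hval1 : ∀ r : 𝓞 F, r ∉ w.asIdeal → w.valuation F (algebraMap (𝓞 F) F r) = 1 :=
    fun r hr => (w.valuation_eq_one_iff_notMem).mpr hr
  have hwa : w.valuation F (a : F) = 1 := by
    rw [← hnda, map_div₀, hval1 _ hnaw, hval1 _ hdaw, div_one]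
  have hwu : w.valuation F (u : F) = 1 := by
    rw [← hndu, map_div₀, hval1 _ hnuw, hval1 _ hduw, div_one]
  have hpwF : w.valuation F (p : F) = 1 := by
    have : (p : F) = algebraMap (𝓞 F) F (p : 𝓞 F) := by simp
    rw [this]
    exact hval1 _ hpw
  refine ⟨w, ?_, hpw, hwa, hwu, ?_, ?_⟩
  · -- `w ∉ S`
    intro hwS
    apply hxSw
    obtain ⟨c, hc⟩ := Finset.dvd_prod_of_mem s hwS
    rw [hc]
    exact Ideal.mul_mem_right _ _ (hs w)
  · -- `a` is a local `p`-th power at `w`
    apply locPow_of_locPowN_one hpwF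
    have hint : IsIntegral ℤ (algebraMap F E (algebraMap (𝓞 F) F da) * θ) := by
      apply IsIntegral.of_pow hp.pos
      have h1 : (algebraMap F E (algebraMap (𝓞 F) F da) * θ) ^ p
          = ((algebraMap (𝓞 F) (𝓞 E) (na * da ^ (p - 1)) : 𝓞 E) : E) := by
        rw [coe_algebraMap_int, haF, mul_pow, hθ, map_mul, map_pow]
        ring
      rw [h1]
      exact RingOfIntegers.isIntegral_coe _
    obtain ⟨Θ, hΘc⟩ : ∃ Θ : 𝓞 E,
        algebraMap (𝓞 E) E Θ = algebraMap F E (algebraMap (𝓞 F) F da) * θ :=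
      ⟨⟨algebraMap F E (algebraMap (𝓞 F) F da) * θ, hint⟩, rfl⟩
    have hΘ : Θ ^ p = algebraMap (𝓞 F) (𝓞 E) (na * da ^ (p - 1)) := by
      apply RingOfIntegers.ext
      change algebraMap (𝓞 E) E (Θ ^ p) = _
      rw [coe_algebraMap_int, haF, map_pow, hΘc, mul_pow, hθ, map_mul, map_pow]
      ring
    obtain ⟨m, hm⟩ := exists_int_sub_mem_of_absNorm_prime hWprime Θ
    have h1 : Θ ^ p - (m : 𝓞 E) ^ p ∈ W.asIdeal := by
      obtain ⟨c, hc⟩ := sub_dvd_pow_sub_pow Θ (m : 𝓞 E) p
      rw [hc]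
      exact Ideal.mul_mem_right _ _ hm
    have h2 : na * da ^ (p - 1) - (m : 𝓞 F) ^ p ∈ w.asIdeal := by
      rw [hmem, map_sub, map_pow, map_intCast, ← hΘ]
      exact h1
    have hmw : (m : 𝓞 F) ∉ w.asIdeal := by
      intro hm'
      have h3 : na * da ^ (p - 1) ∈ w.asIdeal := by
        have := Ideal.add_mem _ h2 (Ideal.pow_mem_of_mem _ hm' p hp.pos)
        simpa using this
      rcases w.isPrime.mem_or_mem h3 with h | h
      · exact hnaw h
      · exact hdaw (w.isPrime.mem_of_pow_mem _ h)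
    have hmF : algebraMap (𝓞 F) F (m : 𝓞 F) ≠ 0 := by
      rw [RingOfIntegers.coe_ne_zero_iff]
      rintro h0
      exact hmw (h0 ▸ Ideal.zero_mem _)
    refine ⟨Units.mk0 (algebraMap (𝓞 F) F (m : 𝓞 F) / algebraMap (𝓞 F) F da)
      (div_ne_zero hmF hdaF), ?_⟩
    have key : (a : F) / (algebraMap (𝓞 F) F (m : 𝓞 F) / algebraMap (𝓞 F) F da) ^ p - 1
        = algebraMap (𝓞 F) F (na * da ^ (p - 1) - (m : 𝓞 F) ^ p)
          / algebraMap (𝓞 F) F (m : 𝓞 F) ^ p := by
      rw [map_sub, haF, map_pow, div_pow, div_div_eq_mul_div, div_sub_one (pow_ne_zero _ hmF)]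
    rw [Units.val_mk0, key, map_div₀, map_pow, hval1 _ hmw, one_pow, div_one]
    exact lt_one_iff_le_exp_neg_one.mp ((w.valuation_lt_one_iff_mem _).mpr h2)
  · -- `u` is not a `p`-th power residue at `w`
    rintro ⟨y, hy⟩
    have hy1 : w.valuation F ((u : F) / (y : F) ^ p - 1) < 1 := lt_one_iff_le_exp_neg_one.mpr hy
    have hq : w.valuation F ((u : F) / (y : F) ^ p) = 1 := val_eq_one_of_sub_one_lt w hy1
    have hyv : w.valuation F (y : F) = 1 := by
      rw [map_div₀, hwu, map_pow, one_div, inv_eq_one] at hq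
      exact (pow_eq_one_iff_left hp.ne_zero).mp hq
    have hxv : w.valuation F ((y : F) * algebraMap (𝓞 F) F du) ≤ 1 := by
      rw [map_mul, hyv, one_mul]
      exact w.valuation_le_one du
    obtain ⟨b, hb⟩ := w.exists_valuation_sub_lt_of_integer hxv 1
    have hb' : w.valuation F (algebraMap (𝓞 F) F b - (y : F) * algebraMap (𝓞 F) F du) < 1 := by
      simpa using hb
    have h3 : w.valuation F
        (algebraMap (𝓞 F) F b ^ p - ((y : F) * algebraMap (𝓞 F) F du) ^ p) < 1 :=
      val_pow_sub_pow_lt_one _ hb' hxv p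
    have h4 : w.valuation F (((y : F) * algebraMap (𝓞 F) F du) ^ p
        - algebraMap (𝓞 F) F (nu * du ^ (p - 1))) < 1 := by
      have hy0 : ((y : F)) ^ p ≠ 0 := pow_ne_zero _ y.ne_zero
      have : ((y : F) * algebraMap (𝓞 F) F du) ^ p - algebraMap (𝓞 F) F (nu * du ^ (p - 1))
          = -(((u : F) / (y : F) ^ p - 1) * ((y : F) ^ p * algebraMap (𝓞 F) F du ^ p)) := by
        rw [huF]
        field_simp
        ring
      rw [this, Valuation.map_neg, map_mul, map_mul, map_pow, map_pow, hyv, one_pow, one_mul]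
      calc w.valuation F ((u : F) / (y : F) ^ p - 1) * w.valuation F (algebraMap (𝓞 F) F du) ^ p
          ≤ w.valuation F ((u : F) / (y : F) ^ p - 1) * 1 := by
            gcongr
            exact pow_le_one' (w.valuation_le_one du) p
        _ < 1 := by rwa [mul_one]
    have h5 : w.valuation F (algebraMap (𝓞 F) F (b ^ p - nu * du ^ (p - 1))) < 1 := by
      have : algebraMap (𝓞 F) F (b ^ p - nu * du ^ (p - 1))
          = (algebraMap (𝓞 F) F b ^ p - ((y : F) * algebraMap (𝓞 F) F du) ^ p)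
            + (((y : F) * algebraMap (𝓞 F) F du) ^ p
              - algebraMap (𝓞 F) F (nu * du ^ (p - 1))) := by
        rw [map_sub, map_pow]
        ring
      rw [this]
      exact (w.valuation F).map_add_lt h3 h4
    have h6 : b ^ p - nu * du ^ (p - 1) ∈ w.asIdeal := (w.valuation_lt_one_iff_mem _).mp h5
    exact hWres ⟨algebraMap (𝓞 F) (𝓞 E) b, by
      rw [← map_pow, ← map_sub, ← hmem]
      exact h6⟩

end Transfer

/-! ## One-step Kummer theory -/

section Kummer

/-- A linear map which is diagonal in a basis with pairwise distinct eigenvalues has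
one-dimensional eigenspaces. -/
theorem eq_smul_basis_of_eigen {F V ι : Type*} [Field F] [AddCommGroup V] [Module F V]
    (b : Module.Basis ι F V) (T : V →ₗ[F] V) (μ : ι → F) (hμ : Function.Injective μ)
    (hT : ∀ i, T (b i) = μ i • b i) (e : V) (j : ι) (he : T e = μ j • e) :
    e = b.repr e j • b j := by
  classical
  have hcoord : ∀ i, b.coord i ∘ₗ T = μ i • b.coord i := by
    intro i
    apply b.ext
    intro k
    simp only [LinearMap.comp_apply, hT, map_smul, LinearMap.smul_apply, Module.Basis.coord_apply,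
      Module.Basis.repr_self, smul_eq_mul]
    by_cases hik : k = i
    · subst hik
      simp
    · simp [hik]
  have hzero : ∀ i, i ≠ j → b.repr e i = 0 := by
    intro i hij
    have h1 := congrArg (fun φ => φ e) (hcoord i)
    simp only [LinearMap.comp_apply, he, map_smul, LinearMap.smul_apply, Module.Basis.coord_apply,
      smul_eq_mul] at h1
    have h2 : (μ j - μ i) * b.repr e i = 0 := by rw [sub_mul, h1, sub_self]
    rcases mul_eq_zero.mp h2 with h | h
    · exact absurd (hμ (sub_eq_zero.mp h)).symm hij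
    · exact h
  apply b.ext_elem
  intro i
  rw [map_smul, Module.Basis.repr_self, Finsupp.smul_apply, smul_eq_mul]
  by_cases hij : i = j
  · subst hij
    simp
  · rw [hzero i hij, Finsupp.single_apply, if_neg (Ne.symm hij), mul_zero]

/-- One-step Kummer theory for a power basis: if `E = F(θ)` has the power basis `1, θ, …, θ^(p-1)`,
`θ ^ p = a ∈ F`, `F ∋ ζ_p` and `σ θ = ζ θ`, then an element `u ≠ 0` of `F` which is a `p`-th power
in `E` is of the form `a ^ k * c ^ p`. -/
theorem kummer_one_step_aux {F E : Type*} [Field F] [Field E] [Algebra F E] {p : ℕ}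
    (hp : p.Prime) {ζ : F} (hζ : IsPrimitiveRoot ζ p) (pb : PowerBasis F E) (hdim : pb.dim = p)
    (σ : E →ₐ[F] E) (hσ : σ pb.gen = ζ • pb.gen) {a : F} (hgen : pb.gen ^ p = algebraMap F E a)
    (u : F) (hu0 : u ≠ 0) (e : E) (he : algebraMap F E u = e ^ p) :
    ∃ (k : ℕ) (c : F), u = a ^ k * c ^ p := by
  have hinj : Function.Injective (algebraMap F E) := (algebraMap F E).injective
  have he0 : e ≠ 0 := by
    rintro rfl
    rw [zero_pow hp.ne_zero, map_eq_zero_iff _ hinj] at he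
    exact hu0 he
  have hσe : (σ e) ^ p = e ^ p := by rw [← map_pow, ← he, AlgHom.commutes]
  have h1 : (σ e / e) ^ p = 1 := by rw [div_pow, hσe, div_self (pow_ne_zero _ he0)]
  have : NeZero p := ⟨hp.ne_zero⟩
  obtain ⟨j, hj, hζj⟩ := (hζ.map_of_injective hinj).eq_pow_of_pow_eq_one h1
  have hσe' : σ.toLinearMap e = (ζ ^ j) • e := by
    rw [AlgHom.toLinearMap_apply, Algebra.smul_def, map_pow, hζj, div_mul_cancel₀ _ he0]
  have key := eq_smul_basis_of_eigen pb.basis σ.toLinearMap (fun i => ζ ^ (i : ℕ))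
    (fun i i' h => Fin.ext (hζ.pow_inj (hdim ▸ i.2) (hdim ▸ i'.2) h))
    (fun i => by
      rw [AlgHom.toLinearMap_apply, pb.basis_eq_pow, map_pow, hσ, _root_.smul_pow])
    e ⟨j, hdim ▸ hj⟩ hσe'
  refine ⟨j, pb.basis.repr e ⟨j, hdim ▸ hj⟩, ?_⟩
  apply hinj
  rw [he, map_mul, map_pow, map_pow]
  conv_lhs => rw [key]
  rw [pb.basis_eq_pow, Algebra.smul_def, mul_pow, ← pow_mul, mul_comm j p, pow_mul, hgen, mul_comm]

end Kummer

/-! ## SELECT-ONE -/

section Main

/-- **Leaf SELECT-ONE** (board #508): from the zeta lemma in Kummer form for `E = F(a^(1/p))`. -/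
theorem selectOne {F : Type u} [Field F] [NumberField F] {p : ℕ} (hp : p.Prime)
    (hζ : ∃ ζ : F, IsPrimitiveRoot ζ p)
    (hM2 : ∀ (E : Type u) [Field E] [NumberField E],
      (∃ ζ : E, IsPrimitiveRoot ζ p) → Stmt_M2 E p) :
    Stmt_SelectOne F p := by
  intro a u ha hu S
  obtain ⟨ζ, hζ⟩ := hζ
  have : NeZero p := ⟨hp.ne_zero⟩
  have hirr : Irreducible (X ^ p - C (a : F)) := by
    apply X_pow_sub_C_irreducible_of_prime hp
    intro b hb
    have hb0 : b ≠ 0 := by
      rintro rfl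
      rw [zero_pow hp.ne_zero] at hb
      exact a.ne_zero hb.symm
    exact ha ⟨Units.mk0 b hb0, Units.ext (by simp [hb])⟩
  have : Fact (Irreducible (X ^ p - C (a : F))) := ⟨hirr⟩
  have hf0 : (X ^ p - C (a : F)) ≠ 0 := hirr.ne_zero
  have : Module.Finite F (AdjoinRoot (X ^ p - C (a : F))) := (AdjoinRoot.powerBasis hf0).finite
  have : NumberField (AdjoinRoot (X ^ p - C (a : F))) := NumberField.of_module_finite F _
  have hroot : (AdjoinRoot.root (X ^ p - C (a : F))) ^ p
      = algebraMap F (AdjoinRoot (X ^ p - C (a : F))) (a : F) := by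
    rw [AdjoinRoot.algebraMap_eq]
    exact root_X_pow_sub_C_pow p (a : F)
  refine selectOne_aux hp a u (AdjoinRoot.root _) hroot ?_
    (hM2 _ ⟨algebraMap F _ ζ, hζ.map_of_injective (algebraMap F _).injective⟩) S
  intro e he
  have hσ : ((autAdjoinRootXPowSubC p (a : F) (rootsOfUnity.mkOfPowEq ζ hζ.pow_eq_one) :
      AdjoinRoot (X ^ p - C (a : F)) ≃ₐ[F] AdjoinRoot (X ^ p - C (a : F))) :
      AdjoinRoot (X ^ p - C (a : F)) →ₐ[F] AdjoinRoot (X ^ p - C (a : F)))
        (AdjoinRoot.powerBasis hf0).gen = ζ • (AdjoinRoot.powerBasis hf0).gen := by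
    rw [AdjoinRoot.powerBasis_gen, AlgEquiv.coe_toAlgHom, autAdjoinRootXPowSubC_root,
      rootsOfUnity.val_mkOfPowEq_coe]
  obtain ⟨k, c, hkc⟩ := kummer_one_step_aux hp hζ (AdjoinRoot.powerBasis hf0)
    (by rw [AdjoinRoot.powerBasis_dim, natDegree_X_pow_sub_C]) _ hσ
    (by rw [AdjoinRoot.powerBasis_gen]; exact hroot) (u : F) u.ne_zero e he
  have hc0 : c ≠ 0 := by
    rintro rfl
    rw [zero_pow hp.ne_zero, mul_zero] at hkc
    exact u.ne_zero hkc
  exact hu k (Units.mk0 c hc0) (Units.ext (by simp [hkc]))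

end Main

end Fermat.Agent.S14.helper6536
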