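import Mathlib
import Fermat.Agent.Lib.helper2502_Minkowski
import Fermat.Agent.S14.helper662_Reduction

/-!
# S14, module M1c (helper662): local consequences of a Kummer datum, inside `ℚ̄`

For a Kummer datum `θ ^ p = α ∈ K = ℚ(ζ)` (see `helper662_Reduction`) we prove, in the language
of valuation subrings `A` of `ℚ̄`:

* `exists_valuation_eq_of_unram` : if `A` lies over `ℓ ≠ p` then `A.valuation θ` is the valuation
  of an element of `K` (the extension `K(θ)/K` is unramified at `A`);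
* `exists_approx_of_split` : if `A` lies over `p`, every algebraic integer of `K(θ)` is
  approximated modulo `p ^ M` (in `A`) by algebraic integers of `K` (the prime of `K` below `A`
  splits completely in `K(θ)`).
-/

set_option autoImplicit false
set_option linter.unusedSectionVars false

namespace Fermat.Agent.S14.helper662

open ValuationSubring
open scoped Pointwise
open Fermat.Agent.Lib

local notation "Zb" => integralClosure ℤ (AlgebraicClosure ℚ)

attribute [local instance] isAlgClosure_Qb isGalois_Qb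

section kumker

/-- The subgroup of `G_ℚ` fixing `ζ` and `θ`. -/
noncomputable def kumKer (ζ θ : Qb) : Subgroup GQ :=
  MulAction.stabilizer GQ ζ ⊓ MulAction.stabilizer GQ θ

theorem mem_kumKer {ζ θ : Qb} {τ : GQ} : τ ∈ kumKer ζ θ ↔ τ ζ = ζ ∧ τ θ = θ := by
  rw [kumKer, Subgroup.mem_inf, MulAction.mem_stabilizer_iff, MulAction.mem_stabilizer_iff]
  rfl

theorem isOpen_kumKer (ζ θ : Qb) : IsOpen (kumKer ζ θ : Set GQ) := by
  have hfin : FiniteDimensional ℚ (IntermediateField.adjoin ℚ ({ζ, θ} : Set Qb)) :=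
    IntermediateField.finiteDimensional_adjoin
      (fun z _ => (Algebra.IsAlgebraic.isAlgebraic z).isIntegral)
  have hopen := IntermediateField.fixingSubgroup_isOpen
    (IntermediateField.adjoin ℚ ({ζ, θ} : Set Qb))
  refine Subgroup.isOpen_mono (H₁ := (IntermediateField.adjoin ℚ ({ζ, θ} : Set Qb)).fixingSubgroup)
    ?_ hopen
  intro σ hσ
  rw [IntermediateField.mem_fixingSubgroup_iff] at hσ
  exact mem_kumKer.mpr ⟨hσ ζ (IntermediateField.subset_adjoin ℚ _ (by simp)),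
    hσ θ (IntermediateField.subset_adjoin ℚ _ (by simp))⟩

variable {p : ℕ} [Fact p.Prime] {ζ α θ : Qb}

theorem KummerDatum.alpha_ne_zero (h : KummerDatum p ζ α θ) : α ≠ 0 := by
  rw [← h.pow_eq]
  exact pow_ne_zero _ h.ne_zero

theorem KummerDatum.zeta_pow (h : KummerDatum p ζ α θ) : ζ ^ p = 1 := h.prim.pow_eq_one

theorem KummerDatum.zeta_ne_zero (h : KummerDatum p ζ α θ) : ζ ≠ 0 :=
  h.prim.ne_zero (Fact.out : p.Prime).ne_zero

/-- The kernel subgroup of a Kummer datum is normal in `G_ℚ`. -/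
theorem KummerDatum.kumKer_normal (h : KummerDatum p ζ α θ) : (kumKer ζ θ).Normal := by
  refine ⟨fun n hn g => ?_⟩
  rw [mem_kumKer] at hn ⊢
  obtain ⟨hnζ, hnθ⟩ := hn
  have hgζ : g⁻¹ ζ = ζ ^ (chi p g⁻¹).val := map_root_eq_pow p g⁻¹ h.zeta_pow
  obtain ⟨c, hc, hgθ⟩ := h.eigen g⁻¹ _ hgζ
  have hgg : ∀ x : Qb, g (g⁻¹ x) = x := fun x => by
    rw [← AlgEquiv.mul_apply, mul_inv_cancel, AlgEquiv.one_apply]
  constructor
  · show g (n (g⁻¹ ζ)) = ζ
    rw [hgζ, map_pow, hnζ, ← hgζ, hgg]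
  · show g (n (g⁻¹ θ)) = θ
    rw [hgθ, map_mul, map_pow, hnθ, fixed_of_mem_adjoin hnζ hc, ← hgθ, hgg]

/-- An automorphism fixing `ζ` multiplies `θ` by a power of `ζ`. -/
theorem KummerDatum.exists_pow_of_fix (h : KummerDatum p ζ α θ) {τ : GQ} (hτζ : τ ζ = ζ) :
    ∃ k < p, τ θ = ζ ^ k * θ := by
  have hτα : τ α = α := fixed_of_mem_adjoin hτζ h.alpha_mem
  have h2 : (τ θ / θ) ^ p = 1 := by
    rw [div_pow, ← map_pow, h.pow_eq, hτα]
    exact div_self h.alpha_ne_zero
  obtain ⟨k, hkp, hk⟩ := h.prim.eq_pow_of_pow_eq_one h2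
  exact ⟨k, hkp, by rw [hk, div_mul_cancel₀ _ h.ne_zero]⟩

theorem pow_apply_of_fix {τ : GQ} {x : Qb} (hx : τ x = x) (m : ℕ) : (τ ^ m) x = x := by
  induction m with
  | zero => simp
  | succ m ih => rw [pow_succ, AlgEquiv.mul_apply, hx, ih]

theorem pow_apply_of_mul {τ : GQ} {ζ θ : Qb} {k : ℕ} (hζ : τ ζ = ζ) (hθ : τ θ = ζ ^ k * θ)
    (m : ℕ) : (τ ^ m) θ = ζ ^ (k * m) * θ := by
  induction m with
  | zero => simp
  | succ m ih =>
    rw [pow_succ, AlgEquiv.mul_apply, hθ, map_mul, map_pow, pow_apply_of_fix hζ m, ih,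
      ← mul_assoc, ← pow_add]
    congr 2
    ring

/-- The Kummer automorphism `σ₁` with `σ₁ ζ = ζ`, `σ₁ θ = ζ θ`. -/
theorem KummerDatum.exists_sigma (h : KummerDatum p ζ α θ) :
    ∃ σ₁ : GQ, σ₁ ζ = ζ ∧ σ₁ θ = ζ * θ := by
  have hp : p.Prime := Fact.out
  have h1 : ∃ τ : GQ, τ ζ = ζ ∧ τ θ ≠ θ := by
    by_contra hcon
    push Not at hcon
    exact h.not_mem (mem_adjoin_of_fixed hcon)
  obtain ⟨τ, hτζ, hτθ⟩ := h1
  obtain ⟨k, hkp, hτθ'⟩ := h.exists_pow_of_fix hτζ
  have hk0 : k ≠ 0 := by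
    rintro rfl
    apply hτθ
    rw [hτθ', pow_zero, one_mul]
  have hcop : Nat.Coprime k p :=
    (Nat.coprime_comm.mp ((Nat.Prime.coprime_iff_not_dvd hp).mpr
      (Nat.not_dvd_of_pos_of_lt (Nat.pos_of_ne_zero hk0) hkp)))
  obtain ⟨j, -, hj⟩ := Nat.exists_mul_mod_eq_one_of_coprime hcop hp.one_lt
  refine ⟨τ ^ j, pow_apply_of_fix hτζ j, ?_⟩
  rw [pow_apply_of_mul hτζ hτθ' j]
  congr 1
  have h3 : ζ ^ (k * j) = ζ ^ (k * j % p) := by
    conv_lhs => rw [← Nat.div_add_mod (k * j) p, pow_add, pow_mul, h.zeta_pow, one_pow, one_mul]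
  rw [h3, hj, pow_one]

theorem KummerDatum.zeta_ne_one (h : KummerDatum p ζ α θ) : ζ ≠ 1 :=
  h.prim.ne_one (Fact.out : p.Prime).one_lt

theorem KummerDatum.sigma_pow_theta (_h : KummerDatum p ζ α θ) {σ₁ : GQ} (h1 : σ₁ ζ = ζ)
    (h2 : σ₁ θ = ζ * θ) (m : ℕ) : (σ₁ ^ m) θ = ζ ^ m * θ := by
  have := pow_apply_of_mul (k := 1) h1 (by rw [pow_one]; exact h2) m
  rwa [one_mul] at this

theorem KummerDatum.sigma_notMem (h : KummerDatum p ζ α θ) {σ₁ : GQ}
    (h2 : σ₁ θ = ζ * θ) : σ₁ ∉ kumKer ζ θ := by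
  intro hmem
  have h3 := (mem_kumKer.mp hmem).2
  rw [h2] at h3
  have h4 : (ζ - 1) * θ = 0 := by rw [sub_mul, one_mul, h3, sub_self]
  rcases mul_eq_zero.mp h4 with h5 | h5
  · exact h.zeta_ne_one (sub_eq_zero.mp h5)
  · exact h.ne_zero h5

theorem KummerDatum.sigma_pow_mem (h : KummerDatum p ζ α θ) {σ₁ : GQ} (h1 : σ₁ ζ = ζ)
    (h2 : σ₁ θ = ζ * θ) : σ₁ ^ p ∈ kumKer ζ θ := by
  rw [mem_kumKer]
  exact ⟨pow_apply_of_fix h1 p, by rw [h.sigma_pow_theta h1 h2, h.zeta_pow, one_mul]⟩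

/-- An element fixed by `σ₁` and by the kernel lies in `K = ℚ(ζ)`. -/
theorem KummerDatum.mem_adjoin_of_fixed_sigma (h : KummerDatum p ζ α θ) {σ₁ : GQ}
    (h1 : σ₁ ζ = ζ) (h2 : σ₁ θ = ζ * θ) {x : Qb} (hx : σ₁ x = x)
    (hN : ∀ n ∈ kumKer ζ θ, n x = x) : x ∈ IntermediateField.adjoin ℚ {ζ} := by
  apply mem_adjoin_of_fixed
  intro τ hτ
  obtain ⟨k, -, hk⟩ := h.exists_pow_of_fix hτ
  have hn : (σ₁ ^ k)⁻¹ * τ ∈ kumKer ζ θ := by
    rw [mem_kumKer]
    have hinv : ∀ y z : Qb, (σ₁ ^ k) y = z → (σ₁ ^ k)⁻¹ z = y := by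
      intro y z hyz
      rw [← hyz, ← AlgEquiv.mul_apply, inv_mul_cancel, AlgEquiv.one_apply]
    constructor
    · show (σ₁ ^ k)⁻¹ (τ ζ) = ζ
      rw [hτ]
      exact hinv _ _ (pow_apply_of_fix h1 k)
    · show (σ₁ ^ k)⁻¹ (τ θ) = θ
      rw [hk]
      exact hinv _ _ (h.sigma_pow_theta h1 h2 k)
  have e : τ = σ₁ ^ k * ((σ₁ ^ k)⁻¹ * τ) := by group
  rw [e, AlgEquiv.mul_apply, hN _ hn, pow_apply_of_fix hx k]

end kumker

section valuations

theorem valuation_le_one_of_isIntegral (A : ValuationSubring Qb) {x : Qb} (hx : IsIntegral ℤ x) :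
    A.valuation x ≤ 1 :=
  (A.valuation_le_one_iff x).mpr (helper54.mem_valuationSubring_of_isIntegral A x hx)

theorem eq_one_of_mul_eq_one {Γ : Type*} [LinearOrderedCommGroupWithZero Γ] {a b : Γ}
    (ha : a ≤ 1) (hb : b ≤ 1) (h : a * b = 1) : b = 1 := by
  apply le_antisymm hb
  calc (1 : Γ) = a * b := h.symm
    _ ≤ 1 * b := by gcongr
    _ = b := one_mul b

theorem valuation_natCast_eq_one {A : ValuationSubring Qb} {ℓ q : ℕ} (hℓ : ℓ.Prime)
    (hA : A.LiesOverPrime ℓ) (hq : ¬ ℓ ∣ q) : A.valuation (q : Qb) = 1 := by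
  have h1 := helper54.intCast_not_mem_primeOfValuationSubring hℓ A hA (q : ℤ)
    (by rwa [Int.natCast_dvd_natCast])
  rw [helper54.mem_primeOfValuationSubring, ValuationSubring.mem_nonunits_iff] at h1
  have h3 : (((q : ℤ) : Zb) : Qb) = (q : Qb) := by simp
  rw [h3] at h1
  have h2 : A.valuation (q : Qb) ≤ 1 := valuation_le_one_of_isIntegral A (isIntegral_natCast q)
  exact le_antisymm h2 (not_lt.mp h1)

theorem isIntegral_of_mem_adjoin {ξ z : Qb} (hξ : IsIntegral ℤ ξ) (hz : z ∈ Algebra.adjoin ℤ {ξ}) :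
    IsIntegral ℤ z := by
  have hle : Algebra.adjoin ℤ {ξ} ≤ integralClosure ℤ Qb :=
    Algebra.adjoin_le (by
      intro x hx
      rw [Set.mem_singleton_iff] at hx
      rw [hx]
      exact hξ)
  exact hle hz

/-- Away from `p`, `ξ - 1` is a unit for every primitive `p`-th root of unity `ξ`. -/
theorem valuation_sub_one_eq_one {p : ℕ} (hp : p.Prime) {ξ : Qb} (hξ : IsPrimitiveRoot ξ p)
    {A : ValuationSubring Qb} {ℓ : ℕ} (hℓ : ℓ.Prime) (hℓp : ℓ ≠ p) (hA : A.LiesOverPrime ℓ) :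
    A.valuation (ξ - 1) = 1 := by
  obtain ⟨z, hz, hpz⟩ := hξ.self_sub_one_pow_dvd_order hp.one_lt
  have hξi : IsIntegral ℤ ξ := hξ.isIntegral hp.pos
  have hzi : IsIntegral ℤ z := isIntegral_of_mem_adjoin hξi hz
  have h1 : A.valuation (p : Qb) = 1 :=
    valuation_natCast_eq_one hℓ hA (fun hd => hℓp ((Nat.prime_dvd_prime_iff_eq hℓ hp).mp hd))
  rw [hpz, pow_one, map_mul] at h1
  exact eq_one_of_mul_eq_one (valuation_le_one_of_isIntegral A hzi)
    (valuation_le_one_of_isIntegral A (hξi.sub isIntegral_one)) h1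

/-- Above `p`, `p` is divisible by `(ζ - 1) ^ (p - 1)`; in particular `ζ - 1` is a non-unit. -/
theorem valuation_natCast_le_pow {p : ℕ} (hp : p.Prime) {ξ : Qb} (hξ : IsPrimitiveRoot ξ p)
    (A : ValuationSubring Qb) :
    A.valuation (p : Qb) ≤ A.valuation (ξ - 1) ^ (p - 1) := by
  obtain ⟨z, hz, hpz⟩ := hξ.self_sub_one_pow_dvd_order (Nat.sub_lt hp.pos Nat.one_pos)
  have hξi : IsIntegral ℤ ξ := hξ.isIntegral hp.pos
  have hzi : IsIntegral ℤ z := isIntegral_of_mem_adjoin hξi hz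
  rw [hpz, map_mul, map_pow]
  calc A.valuation z * A.valuation (ξ - 1) ^ (p - 1) ≤ 1 * A.valuation (ξ - 1) ^ (p - 1) := by
        gcongr
        exact valuation_le_one_of_isIntegral A hzi
    _ = _ := one_mul _

end valuations

section unram

variable {p : ℕ} [Fact p.Prime] {ζ α θ : Qb}

/-- Inertia above `ℓ ≠ p` fixes `ζ`. -/
theorem KummerDatum.inertia_fix_zeta (h : KummerDatum p ζ α θ) {ℓ : ℕ} (hℓ : ℓ.Prime)
    (hℓp : ℓ ≠ p) {A : ValuationSubring Qb} (hA : A.LiesOverPrime ℓ) {σ : GQ}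
    (hσ : σ ∈ A.inertiaSubgroupIn ℚ) : σ ζ = ζ := by
  have hp : p.Prime := Fact.out
  by_contra hne
  have hζi : IsIntegral ℤ ζ := h.prim.isIntegral hp.pos
  have h1 := ((helper2502.mem_inertiaSubgroupIn_iff A σ).mp hσ).2 ζ
    (helper54.mem_valuationSubring_of_isIntegral A ζ hζi)
  rw [ValuationSubring.mem_nonunits_iff] at h1
  set a := (chi p σ).val with ha
  have hσζ : σ ζ = ζ ^ a := map_root_eq_pow p σ h.zeta_pow
  have : NeZero p := ⟨hp.ne_zero⟩
  have hap : a < p := ZMod.val_lt _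
  have ha0 : a ≠ 0 := by
    intro h0
    rw [h0, pow_zero] at hσζ
    have : σ ζ = σ 1 := by rw [hσζ, map_one]
    exact h.zeta_ne_one (σ.injective this)
  have ha1 : a ≠ 1 := by
    intro h1'
    rw [h1', pow_one] at hσζ
    exact hne hσζ
  have hcop : Nat.Coprime (a - 1) p :=
    (Nat.coprime_comm.mp ((Nat.Prime.coprime_iff_not_dvd hp).mpr
      (Nat.not_dvd_of_pos_of_lt (by omega) (by omega))))
  have hξ : IsPrimitiveRoot (ζ ^ (a - 1)) p := h.prim.pow_of_coprime _ hcop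
  have h2 : σ ζ - ζ = ζ * (ζ ^ (a - 1) - 1) := by
    rw [hσζ, mul_sub, mul_one, ← pow_succ']
    congr 2
    omega
  rw [h2, map_mul, valuation_sub_one_eq_one hp hξ hℓ hℓp hA, mul_one] at h1
  have h3 : A.valuation ζ ^ p = 1 := by rw [← map_pow, h.zeta_pow, map_one]
  have h4 : A.valuation ζ ^ p < 1 := pow_lt_one₀ zero_le h1 hp.ne_zero
  exact absurd h3 (ne_of_lt h4)

/-- If a power `θ ^ k`, `0 < k < p`, has the valuation of an element of `K`, so does `θ`. -/
theorem KummerDatum.exists_valuation_eq_of_pow (h : KummerDatum p ζ α θ)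
    (A : ValuationSubring Qb) {k : ℕ} (hk0 : 0 < k) (hkp : k < p) {c : Qb}
    (hc : c ∈ IntermediateField.adjoin ℚ {ζ}) (hc0 : c ≠ 0)
    (hv : A.valuation θ ^ k = A.valuation c) :
    ∃ y ∈ IntermediateField.adjoin ℚ {ζ}, y ≠ 0 ∧ A.valuation θ = A.valuation y := by
  have hp : p.Prime := Fact.out
  have hcop : Nat.Coprime k p :=
    (Nat.coprime_comm.mp ((Nat.Prime.coprime_iff_not_dvd hp).mpr
      (Nat.not_dvd_of_pos_of_lt hk0 hkp)))
  obtain ⟨a, b, hab⟩ := Nat.isCoprime_iff_coprime.mpr hcop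
  have hvθ : A.valuation θ ≠ 0 := (Valuation.ne_zero_iff _).mpr h.ne_zero
  refine ⟨c ^ a * α ^ b, mul_mem (zpow_mem hc a) (zpow_mem h.alpha_mem b),
    mul_ne_zero (zpow_ne_zero _ hc0) (zpow_ne_zero _ h.alpha_ne_zero), ?_⟩
  rw [map_mul, map_zpow₀, map_zpow₀, ← hv, ← h.pow_eq, map_pow, ← zpow_natCast, ← zpow_natCast,
    ← zpow_mul, ← zpow_mul, ← zpow_add₀ hvθ]
  have e : (k : ℤ) * a + (p : ℤ) * b = 1 := by linarith
  rw [e, zpow_one]

/-- **Unramified case.** If `A` lies over `ℓ ≠ p`, the valuation of `θ` at `A` is the valuation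
of an element of `K = ℚ(ζ)`. -/
theorem KummerDatum.exists_valuation_eq_of_unram (h : KummerDatum p ζ α θ) {ℓ : ℕ}
    (hℓ : ℓ.Prime) (hℓp : ℓ ≠ p) (A : ValuationSubring Qb) (hA : A.LiesOverPrime ℓ) :
    ∃ y ∈ IntermediateField.adjoin ℚ {ζ}, y ≠ 0 ∧ A.valuation θ = A.valuation y := by
  have hp : p.Prime := Fact.out
  by_contra hcon
  obtain ⟨σ₁, h1, h2⟩ := h.exists_sigma
  have hnormal := h.kumKer_normal
  have hopen := isOpen_kumKer ζ θ
  have hζi : IsIntegral ℤ ζ := h.prim.isIntegral hp.pos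
  have hgI : ∀ s : helper2502.fixedInts (kumKer ζ θ),
      ((((σ₁ : GQ ⧸ kumKer ζ θ) • s - s : helper2502.fixedInts (kumKer ζ θ)) : Zb)) ∈
        helper54.primeOfValuationSubring A := by
    intro s
    rw [helper54.mem_primeOfValuationSubring, ValuationSubring.mem_nonunits_iff]
    set γ : Qb := ((s : Zb) : Qb) with hγ
    have hcoe : (((((σ₁ : GQ ⧸ kumKer ζ θ) • s - s : helper2502.fixedInts (kumKer ζ θ)) : Zb)) : Qb)
        = σ₁ γ - γ := rfl
    rw [hcoe]
    have hγN : ∀ n ∈ kumKer ζ θ, n γ = γ := (helper2502.mem_fixedInts_iff _ s.1).mp s.2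
    have hγp : (σ₁ ^ p) γ = γ := hγN _ (h.sigma_pow_mem h1 h2)
    have hR1 := fun j => map_resolvent hp.pos h.zeta_pow h1 hγp j
    have hR2 := sum_resolvent hp h.prim σ₁ γ
    have hR3 : ∀ j, ∀ n ∈ kumKer ζ θ, n (resolvent p ζ σ₁ γ j) = resolvent p ζ σ₁ γ j := by
      intro j n hn
      unfold resolvent
      rw [map_sum]
      refine Finset.sum_congr rfl (fun i _ => ?_)
      rw [map_mul, map_pow, (mem_kumKer.mp hn).1]
      congr 1
      have hn' : (σ₁ ^ i)⁻¹ * n * σ₁ ^ i ∈ kumKer ζ θ := by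
        have := (h.kumKer_normal).conj_mem n hn (σ₁ ^ i)⁻¹
        rwa [inv_inv] at this
      have hg : σ₁ ^ i * ((σ₁ ^ i)⁻¹ * n * σ₁ ^ i) = n * σ₁ ^ i := by group
      calc n ((σ₁ ^ i) γ) = (n * σ₁ ^ i) γ := rfl
        _ = (σ₁ ^ i * ((σ₁ ^ i)⁻¹ * n * σ₁ ^ i)) γ := by rw [hg]
        _ = (σ₁ ^ i) (((σ₁ ^ i)⁻¹ * n * σ₁ ^ i) γ) := rfl
        _ = (σ₁ ^ i) γ := by rw [hγN _ hn']
    have hRint : ∀ j, IsIntegral ℤ (resolvent p ζ σ₁ γ j) := by
      intro j
      unfold resolvent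
      refine IsIntegral.sum _ (fun i _ => (hζi.pow _).mul ?_)
      exact ((σ₁ ^ i) • (s : Zb) : Zb).2
    have hRlt : ∀ j, 0 < j → j < p → A.valuation (resolvent p ζ σ₁ γ j) < 1 := by
      intro j hj0 hjp
      by_cases hR0 : resolvent p ζ σ₁ γ j = 0
      · rw [hR0, map_zero]
        exact zero_lt_one
      · by_contra hlt
        have hv1 : A.valuation (resolvent p ζ σ₁ γ j) = 1 :=
          le_antisymm (valuation_le_one_of_isIntegral A (hRint j)) (not_lt.mp hlt)
        have e : ζ ^ (j * (p - 1)) * ζ ^ j = 1 := by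
          rw [← pow_add]
          have : j * (p - 1) + j = p * j := by
            obtain ⟨q, rfl⟩ : ∃ q, p = q + 1 := ⟨p - 1, (Nat.succ_pred_eq_of_pos hp.pos).symm⟩
            simp only [Nat.add_sub_cancel]
            ring
          rw [this, pow_mul, h.zeta_pow, one_pow]
        have hc : resolvent p ζ σ₁ γ j * θ ^ j ∈ IntermediateField.adjoin ℚ {ζ} := by
          apply h.mem_adjoin_of_fixed_sigma h1 h2
          · rw [map_mul, map_pow, hR1, h2, mul_pow]
            linear_combination (resolvent p ζ σ₁ γ j * θ ^ j) * e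
          · intro n hn
            rw [map_mul, map_pow, hR3 j n hn, (mem_kumKer.mp hn).2]
        have hc0 : resolvent p ζ σ₁ γ j * θ ^ j ≠ 0 := mul_ne_zero hR0 (pow_ne_zero _ h.ne_zero)
        have hv : A.valuation θ ^ j = A.valuation (resolvent p ζ σ₁ γ j * θ ^ j) := by
          rw [map_mul, map_pow, hv1, one_mul]
        exact hcon (h.exists_valuation_eq_of_pow A hj0 hjp hc hc0 hv)
    have e1 : (p : Qb) * (σ₁ γ - γ) =
        ∑ j ∈ Finset.range p, (ζ ^ (j * (p - 1)) - 1) * resolvent p ζ σ₁ γ j := by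
      have e2 : σ₁ ((p : Qb) * γ) = (p : Qb) * σ₁ γ := by rw [map_mul, map_natCast]
      rw [mul_sub, ← e2, ← hR2, map_sum, ← Finset.sum_sub_distrib]
      refine Finset.sum_congr rfl (fun j _ => ?_)
      rw [hR1]
      ring
    have e3 : A.valuation ((p : Qb) * (σ₁ γ - γ)) < 1 := by
      rw [e1]
      refine Valuation.map_sum_lt _ one_ne_zero (fun j hj => ?_)
      rcases Nat.eq_zero_or_pos j with rfl | hj0
      · simp
      · rw [map_mul]
        calc A.valuation (ζ ^ (j * (p - 1)) - 1) * A.valuation (resolvent p ζ σ₁ γ j)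
            ≤ 1 * A.valuation (resolvent p ζ σ₁ γ j) := by
              gcongr
              exact valuation_le_one_of_isIntegral A ((hζi.pow _).sub isIntegral_one)
          _ = A.valuation (resolvent p ζ σ₁ γ j) := one_mul _
          _ < 1 := hRlt j hj0 (Finset.mem_range.mp hj)
    have e4 : A.valuation (p : Qb) = 1 :=
      valuation_natCast_eq_one hℓ hA (fun hd => hℓp ((Nat.prime_dvd_prime_iff_eq hℓ hp).mp hd))
    rwa [map_mul, e4, one_mul] at e3
  obtain ⟨σ, hσI, hσN⟩ := helper2502.exists_mem_inertiaSubgroupIn_not_mem (kumKer ζ θ) hopen hℓ A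
    hA σ₁ (h.sigma_notMem h2) hgI
  exact hσN (mem_kumKer.mpr ⟨h.inertia_fix_zeta hℓ hℓp hA hσI, h.unram ℓ hℓ hℓp A hA σ hσI⟩)

end unram

section arch

/-- **Archimedean property.** A non-unit algebraic integer at a valuation subring over `ℓ` has a
power divisible by `ℓ`. -/
theorem exists_pow_valuation_le {ℓ : ℕ} (hℓ : ℓ.Prime) {A : ValuationSubring Qb}
    {x : Qb} (hx : IsIntegral ℤ x) (hxA : x ∈ A.nonunits) :
    ∃ k : ℕ, A.valuation x ^ k ≤ A.valuation (ℓ : Qb) := by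
  by_contra hcon
  push Not at hcon
  rw [ValuationSubring.mem_nonunits_iff] at hxA
  have hx0 : A.valuation x ≠ 0 := by
    intro h0
    have := hcon 1
    rw [h0, pow_one] at this
    exact not_lt_zero this
  let 𝔭 : Ideal Zb :=
    { carrier := {z | ∀ k : ℕ, A.valuation (z : Qb) < A.valuation x ^ k}
      zero_mem' := fun k => by
        show A.valuation ((0 : Zb) : Qb) < _
        rw [ZeroMemClass.coe_zero, map_zero]
        exact pow_pos (zero_lt_iff.mpr hx0) k
      add_mem' := fun {a b} ha hb k => by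
        show A.valuation ((a + b : Zb) : Qb) < _
        rw [AddMemClass.coe_add]
        exact Valuation.map_add_lt _ (ha k) (hb k)
      smul_mem' := fun c z hz k => by
        show A.valuation ((c * z : Zb) : Qb) < _
        rw [MulMemClass.coe_mul, map_mul]
        calc A.valuation (c : Qb) * A.valuation (z : Qb) ≤ 1 * A.valuation (z : Qb) := by
              gcongr
              exact valuation_le_one_of_isIntegral A c.2
          _ = A.valuation (z : Qb) := one_mul _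
          _ < _ := hz k }
  have hmem : ∀ z : Zb, z ∈ 𝔭 ↔ ∀ k : ℕ, A.valuation (z : Qb) < A.valuation x ^ k := fun z => Iff.rfl
  have h𝔭 : 𝔭.IsPrime := by
    refine ⟨?_, ?_⟩
    · intro htop
      have h1 : (1 : Zb) ∈ 𝔭 := by rw [htop]; trivial
      have := (hmem 1).mp h1 0
      rw [OneMemClass.coe_one, map_one, pow_zero] at this
      exact lt_irrefl _ this
    · intro a b hab
      by_contra hne
      push Not at hne
      obtain ⟨ha, hb⟩ := hne
      rw [hmem] at ha hb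
      push Not at ha hb
      obtain ⟨k₁, hk₁⟩ := ha
      obtain ⟨k₂, hk₂⟩ := hb
      have := (hmem _).mp hab (k₁ + k₂)
      rw [MulMemClass.coe_mul, map_mul, pow_add] at this
      exact absurd (mul_le_mul' hk₁ hk₂) (not_le.mpr this)
  have hle : 𝔭 ≤ helper54.primeOfValuationSubring A := by
    intro z hz
    rw [helper54.mem_primeOfValuationSubring, ValuationSubring.mem_nonunits_iff]
    have := (hmem z).mp hz 0
    rwa [pow_zero] at this
  have hxQ : (⟨x, hx⟩ : Zb) ∈ helper54.primeOfValuationSubring A := by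
    rw [helper54.mem_primeOfValuationSubring, ValuationSubring.mem_nonunits_iff]
    exact hxA
  have hx𝔭 : (⟨x, hx⟩ : Zb) ∉ 𝔭 := by
    intro hmem'
    have := (hmem _).mp hmem' 1
    rw [pow_one] at this
    exact lt_irrefl _ this
  have hlt := Ideal.comap_lt_comap_of_integral_mem_sdiff (R := ℤ) hle
    (x := (⟨x, hx⟩ : Zb)) ⟨hxQ, hx𝔭⟩ (Algebra.IsIntegral.isIntegral _)
  have hℓmem : ((ℓ : ℕ) : ℤ) ∈ Ideal.comap (algebraMap ℤ Zb) 𝔭 := by
    rw [Ideal.mem_comap, hmem]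
    intro k
    have e : ((algebraMap ℤ Zb ((ℓ : ℕ) : ℤ) : Zb) : Qb) = (ℓ : Qb) := by simp
    rw [e]
    exact hcon k
  have hne : Ideal.comap (algebraMap ℤ Zb) 𝔭 ≠ ⊥ := by
    intro hbot
    rw [hbot, Ideal.mem_bot] at hℓmem
    exact hℓ.ne_zero (by exact_mod_cast hℓmem)
  have hprime : (Ideal.comap (algebraMap ℤ Zb) 𝔭).IsPrime := Ideal.comap_isPrime _ _
  have hmax := hprime.isMaximal hne
  have hQtop : Ideal.comap (algebraMap ℤ Zb) (helper54.primeOfValuationSubring A) ≠ ⊤ :=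
    (Ideal.comap_isPrime _ _).ne_top
  exact absurd (hmax.eq_of_le hQtop hlt.le) (ne_of_lt hlt)

end arch

section split

attribute [local instance] helper2502.zbarTopology helper2502.discreteTopology_zbar
  helper2502.continuousSMul_zbar

variable {p : ℕ} [Fact p.Prime] {ζ α θ : Qb}

theorem isIntegral_fixedInts (N : Subgroup GQ) :
    Algebra.IsIntegral ℤ (helper2502.fixedInts N) := by
  refine ⟨fun x => ?_⟩
  have h1 : IsIntegral ℤ (x : Zb) := Algebra.IsIntegral.isIntegral _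
  exact (isIntegral_algHom_iff (helper2502.fixedInts N).val Subtype.val_injective).mp h1

/-- The ideal of algebraic integers `z` with `v_A(g z) ≤ δ`. -/
def valIdeal (A : ValuationSubring Qb) (g : GQ) (δ : A.ValueGroup) : Ideal Zb where
  carrier := {z | A.valuation (g (z : Qb)) ≤ δ}
  zero_mem' := by
    show A.valuation (g ((0 : Zb) : Qb)) ≤ δ
    rw [ZeroMemClass.coe_zero, map_zero, map_zero]
    exact zero_le
  add_mem' := fun {a b} ha hb => by
    show A.valuation (g ((a + b : Zb) : Qb)) ≤ δ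
    rw [AddMemClass.coe_add, map_add]
    exact Valuation.map_add_le _ ha hb
  smul_mem' := fun c z hz => by
    show A.valuation (g ((c * z : Zb) : Qb)) ≤ δ
    rw [MulMemClass.coe_mul, map_mul, map_mul]
    calc A.valuation (g (c : Qb)) * A.valuation (g (z : Qb))
        ≤ 1 * A.valuation (g (z : Qb)) := by
          gcongr
          exact valuation_le_one_of_isIntegral A (g • c : Zb).2
      _ = A.valuation (g (z : Qb)) := one_mul _
      _ ≤ δ := hz

theorem mem_valIdeal {A : ValuationSubring Qb} {g : GQ} {δ : A.ValueGroup} {z : Zb} :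
    z ∈ valIdeal A g δ ↔ A.valuation (g (z : Qb)) ≤ δ := Iff.rfl

theorem mem_inv_smul_prime {A : ValuationSubring Qb} {g : GQ} {z : Zb} :
    z ∈ g⁻¹ • helper54.primeOfValuationSubring A ↔ g (z : Qb) ∈ A.nonunits := by
  rw [Ideal.mem_inv_pointwise_smul_iff, helper54.mem_primeOfValuationSubring]
  rfl

theorem isMaximal_under_fixedInts {p : ℕ} (hp : p.Prime) {A : ValuationSubring Qb}
    (hA : A.LiesOverPrime p) (N : Subgroup GQ) (g : GQ) :
    ((g⁻¹ • helper54.primeOfValuationSubring A).under (helper2502.fixedInts N)).IsMaximal := by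
  have hint := isIntegral_fixedInts N
  apply Ideal.isMaximal_of_isIntegral_of_isMaximal_comap (R := ℤ)
  apply Ideal.IsPrime.isMaximal (Ideal.comap_isPrime _ _)
  intro hbot
  have hmem : ((p : ℕ) : ℤ) ∈ Ideal.comap (algebraMap ℤ (helper2502.fixedInts N))
      ((g⁻¹ • helper54.primeOfValuationSubring A).under (helper2502.fixedInts N)) := by
    rw [Ideal.mem_comap, Ideal.under_def, Ideal.mem_comap, mem_inv_smul_prime]
    have e : ((algebraMap (helper2502.fixedInts N) Zb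
        (algebraMap ℤ (helper2502.fixedInts N) ((p : ℕ) : ℤ)) : Zb) : Qb) = (p : Qb) := by simp
    rw [e, map_natCast]
    exact hA
  rw [hbot, Ideal.mem_bot] at hmem
  exact hp.ne_zero (by exact_mod_cast hmem)

theorem valIdeal_sup_eq_top {p : ℕ} (hp : p.Prime) {A : ValuationSubring Qb}
    (hA : A.LiesOverPrime p) (N : Subgroup GQ) {g₁ g₂ : GQ}
    (hne : (g₁⁻¹ • helper54.primeOfValuationSubring A).under (helper2502.fixedInts N) ≠
      (g₂⁻¹ • helper54.primeOfValuationSubring A).under (helper2502.fixedInts N)) (M : ℕ) :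
    (valIdeal A g₁ (A.valuation (p : Qb) ^ M)).under (helper2502.fixedInts N) ⊔
      (valIdeal A g₂ (A.valuation (p : Qb) ^ M)).under (helper2502.fixedInts N) = ⊤ := by
  by_contra htop
  obtain ⟨𝔪, h𝔪, hle⟩ := Ideal.exists_le_maximal _ htop
  have key : ∀ g : GQ,
      (valIdeal A g (A.valuation (p : Qb) ^ M)).under (helper2502.fixedInts N) ≤ 𝔪 →
      (g⁻¹ • helper54.primeOfValuationSubring A).under (helper2502.fixedInts N) = 𝔪 := by
    intro g hg
    refine (isMaximal_under_fixedInts hp hA N g).eq_of_le h𝔪.ne_top ?_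
    intro x hx
    rw [Ideal.under_def, Ideal.mem_comap, mem_inv_smul_prime] at hx
    obtain ⟨k, hk⟩ := exists_pow_valuation_le hp (A := A)
      (g • (algebraMap (helper2502.fixedInts N) Zb x) : Zb).2 hx
    apply h𝔪.isPrime.mem_of_pow_mem (k * M)
    apply hg
    rw [Ideal.under_def, Ideal.mem_comap, mem_valIdeal, map_pow, SubmonoidClass.coe_pow, map_pow,
      map_pow, pow_mul]
    exact pow_le_pow_left' hk M
  exact hne ((key g₁ (le_sup_left.trans hle)).trans (key g₂ (le_sup_right.trans hle)).symm)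

set_option synthInstance.maxHeartbeats 200000 in
/-- A closed subgroup `N` of `G_ℚ` acts transitively on the primes of `ℤ̄` above a given prime
of the ring of `N`-fixed algebraic integers. -/
theorem exists_smul_of_under_eq (N : Subgroup GQ) (hcl : IsClosed (N : Set GQ))
    (P Q : Ideal Zb) [P.IsPrime] [Q.IsPrime]
    (hPQ : P.under (helper2502.fixedInts N) = Q.under (helper2502.fixedInts N)) :
    ∃ n ∈ N, Q = n • P := by
  have : CompactSpace N := helper2502.compactSpace_of_isClosed N hcl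
  have := helper2502.isInvariant_fixedInts N
  obtain ⟨n, hn⟩ := Algebra.IsInvariant.exists_smul_of_under_eq_of_profinite
    (A := helper2502.fixedInts N) (B := Zb) (G := N) P Q hPQ
  exact ⟨n, n.2, hn⟩

/-- The conjugates of the prime below `A` under the Kummer automorphism are distinct. -/
theorem KummerDatum.under_ne (h : KummerDatum p ζ α θ) {A : ValuationSubring Qb}
    (hA : A.LiesOverPrime p) {σ₁ : GQ} (h1 : σ₁ ζ = ζ) (h2 : σ₁ θ = ζ * θ) {j : ℕ}
    (hj0 : 0 < j) (hjp : j < p) :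
    ((1 : GQ)⁻¹ • helper54.primeOfValuationSubring A).under
        (helper2502.fixedInts (kumKer ζ θ)) ≠
      ((σ₁ ^ j)⁻¹ • helper54.primeOfValuationSubring A).under
        (helper2502.fixedInts (kumKer ζ θ)) := by
  have hp : p.Prime := Fact.out
  intro heq
  have hcl : IsClosed ((kumKer ζ θ : Subgroup GQ) : Set GQ) :=
    Subgroup.isClosed_of_isOpen _ (isOpen_kumKer ζ θ)
  obtain ⟨n, hnN, hn⟩ := exists_smul_of_under_eq (kumKer ζ θ) hcl
    ((1 : GQ)⁻¹ • helper54.primeOfValuationSubring A)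
    ((σ₁ ^ j)⁻¹ • helper54.primeOfValuationSubring A) heq
  rw [inv_one, one_smul] at hn
  have hτQ : (σ₁ ^ j * n) • helper54.primeOfValuationSubring A =
      helper54.primeOfValuationSubring A := by
    rw [mul_smul, ← hn, smul_inv_smul]
  have hτD := helper54.mem_decompositionSubgroup_of_smul_prime_eq hp A hA _ hτQ
  have hτζ : (σ₁ ^ j * n) ζ = ζ := by
    rw [AlgEquiv.mul_apply, (mem_kumKer.mp hnN).1, pow_apply_of_fix h1]
  have hτθ := h.split A hA _ hτD hτζ
  rw [AlgEquiv.mul_apply, (mem_kumKer.mp hnN).2, h.sigma_pow_theta h1 h2] at hτθ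
  have h3 : ζ ^ j = 1 := mul_right_cancel₀ h.ne_zero (by rw [hτθ, one_mul])
  exact Nat.not_dvd_of_pos_of_lt hj0 hjp ((h.prim.pow_eq_one_iff_dvd j).mp h3)

/-- **Split case.** If `A` lies over `p`, every algebraic integer of `K(θ)` is congruent modulo
`p ^ M` (in `A`) to an algebraic integer of `K = ℚ(ζ)`. -/
theorem KummerDatum.exists_approx_of_split (h : KummerDatum p ζ α θ) (A : ValuationSubring Qb)
    (hA : A.LiesOverPrime p) {γ : Qb} (hγ : IsIntegral ℤ γ)
    (hγN : ∀ n ∈ kumKer ζ θ, n γ = γ) (M : ℕ) :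
    ∃ y ∈ IntermediateField.adjoin ℚ {ζ}, IsIntegral ℤ y ∧
      A.valuation (γ - y) ≤ A.valuation (p : Qb) ^ M := by
  have hp : p.Prime := Fact.out
  obtain ⟨σ₁, h1, h2⟩ := h.exists_sigma
  set δ := A.valuation (p : Qb) ^ M with hδ
  let J : ℕ → Ideal (helper2502.fixedInts (kumKer ζ θ)) := fun j =>
    (valIdeal A (σ₁ ^ j) δ).under (helper2502.fixedInts (kumKer ζ θ))
  have hcop : ∀ j ∈ Finset.Ico 1 p, J 0 ⊔ J j = ⊤ := by
    intro j hj
    rw [Finset.mem_Ico] at hj
    exact valIdeal_sup_eq_top hp hA (kumKer ζ θ) (g₁ := σ₁ ^ 0) (g₂ := σ₁ ^ j)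
      (by rw [pow_zero]; exact h.under_ne hA h1 h2 hj.1 hj.2) M
  have htop := Ideal.sup_iInf_eq_top hcop
  have h1mem : (1 : helper2502.fixedInts (kumKer ζ θ)) ∈ J 0 ⊔ ⨅ i ∈ Finset.Ico 1 p, J i := by
    rw [htop]
    trivial
  obtain ⟨a, ha, t, ht, hat⟩ := Submodule.mem_sup.mp h1mem
  have ht' : ∀ j ∈ Finset.Ico 1 p, t ∈ J j := by
    intro j hj
    have := (Submodule.mem_iInf _).mp ht j
    exact (Submodule.mem_iInf _).mp this hj
  set τ : Qb := ((t : Zb) : Qb) with hτ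
  have hτN : ∀ n ∈ kumKer ζ θ, n τ = τ := (helper2502.mem_fixedInts_iff _ t.1).mp t.2
  have hτi : IsIntegral ℤ τ := t.1.2
  have ha' : A.valuation (1 - τ) ≤ δ := by
    have e : ((a : Zb) : Qb) = 1 - τ := by
      have := congrArg (fun x : helper2502.fixedInts (kumKer ζ θ) => ((x : Zb) : Qb)) hat
      simp only [AddMemClass.coe_add, OneMemClass.coe_one] at this
      rw [hτ]
      linear_combination this
    have h3 : A.valuation ((σ₁ ^ 0) ((a : Zb) : Qb)) ≤ δ := ha
    rwa [pow_zero, AlgEquiv.one_apply, e] at h3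
  have ht'' : ∀ j ∈ Finset.Ico 1 p, A.valuation ((σ₁ ^ j) τ) ≤ δ := fun j hj => ht' j hj
  set x := τ * γ with hx
  have hxN : ∀ n ∈ kumKer ζ θ, n x = x := fun n hn => by rw [hx, map_mul, hτN n hn, hγN n hn]
  have hxp : (σ₁ ^ p) x = x := hxN _ (h.sigma_pow_mem h1 h2)
  refine ⟨∑ j ∈ Finset.range p, (σ₁ ^ j) x, ?_, ?_, ?_⟩
  · apply h.mem_adjoin_of_fixed_sigma h1 h2
    · rw [map_sum]
      have e1 : ∀ j, σ₁ ((σ₁ ^ j) x) = (σ₁ ^ (j + 1)) x := fun j => by
        rw [pow_succ', AlgEquiv.mul_apply]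
      simp_rw [e1]
      have e2 := Finset.sum_range_succ (fun j => (σ₁ ^ j) x) p
      have e3 := Finset.sum_range_succ' (fun j => (σ₁ ^ j) x) p
      rw [e2] at e3
      simp only [pow_zero, AlgEquiv.one_apply] at e3
      rw [hxp] at e3
      exact (add_right_cancel e3).symm
    · intro n hn
      rw [map_sum]
      refine Finset.sum_congr rfl (fun i _ => ?_)
      have hn' : (σ₁ ^ i)⁻¹ * n * σ₁ ^ i ∈ kumKer ζ θ := by
        have := (h.kumKer_normal).conj_mem n hn (σ₁ ^ i)⁻¹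
        rwa [inv_inv] at this
      have hg : σ₁ ^ i * ((σ₁ ^ i)⁻¹ * n * σ₁ ^ i) = n * σ₁ ^ i := by group
      calc n ((σ₁ ^ i) x) = (n * σ₁ ^ i) x := rfl
        _ = (σ₁ ^ i * ((σ₁ ^ i)⁻¹ * n * σ₁ ^ i)) x := by rw [hg]
        _ = (σ₁ ^ i) (((σ₁ ^ i)⁻¹ * n * σ₁ ^ i) x) := rfl
        _ = (σ₁ ^ i) x := by rw [hxN _ hn']
  · refine IsIntegral.sum _ (fun j _ => ?_)
    exact map_isIntegral_int (σ₁ ^ j) (hτi.mul hγ)
  · have e : γ - ∑ j ∈ Finset.range p, (σ₁ ^ j) x =
        (1 - τ) * γ - ∑ j ∈ Finset.Ico 1 p, (σ₁ ^ j) τ * (σ₁ ^ j) γ := by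
      rw [Finset.range_eq_Ico, Finset.sum_eq_sum_Ico_succ_bot hp.pos]
      simp only [pow_zero, AlgEquiv.one_apply, hx, map_mul, zero_add]
      ring
    rw [e]
    apply Valuation.map_sub_le
    · rw [map_mul]
      calc A.valuation (1 - τ) * A.valuation γ ≤ δ * 1 :=
            mul_le_mul' ha' (valuation_le_one_of_isIntegral A hγ)
        _ = δ := mul_one _
    · apply Valuation.map_sum_le
      intro j hj
      rw [map_mul]
      calc A.valuation ((σ₁ ^ j) τ) * A.valuation ((σ₁ ^ j) γ) ≤ δ * 1 :=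
            mul_le_mul' (ht'' j hj)
              (valuation_le_one_of_isIntegral A (map_isIntegral_int (σ₁ ^ j) hγ))
        _ = δ := mul_one _

end split

end Fermat.Agent.S14.helper662
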