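import Mathlib
import Fermat.Agent.S14.helper662_LocalQb
import Fermat.Agent.S14.helper1934_ThaineSpec

/-!
# S14, module M1c (helper662): from the Kummer core of the Thaine route to `Core p`

We show `helper1934.Stmt_Core p → Core p`, where `Core p` (see `helper662_Reduction`) says that
there is no Kummer datum `θ ^ p = α ∈ K = ℚ(ζ)` inside `ℚ̄`.  Together with
`extVanishingCts_of_core` this reduces the frozen statement S14 to `Stmt_Core p`.

Given a Kummer datum we rescale `θ` by an element of `K` so that `α` becomes an algebraic integer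
`a₁ ∈ 𝓞 K` prime to `π = 1 - ζ`, and verify the four hypotheses of `Stmt_Core`:
`span {a₁} = I ^ p` (unramified outside `p`, trivially at `π`), `a₁ ≡ x ^ p mod π ^ 3`
(`π` splits), and the `ω²`-eigenvector property.
-/

set_option autoImplicit false
set_option linter.unusedSectionVars false

namespace Fermat.Agent.S14.helper662

open ValuationSubring NumberField
open scoped Pointwise
open Fermat.Agent.Lib

local notation "Zb" => integralClosure ℤ (AlgebraicClosure ℚ)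

attribute [local instance] isAlgClosure_Qb isGalois_Qb

theorem numberField_adjoin (ζ : Qb) : NumberField (IntermediateField.adjoin ℚ {ζ}) :=
  { to_charZero := inferInstance
    to_finiteDimensional :=
      IntermediateField.adjoin.finiteDimensional (Algebra.IsIntegral.isIntegral ζ) }

attribute [local instance] numberField_adjoin

theorem isCyclotomicExtension_adjoin {p : ℕ} [Fact p.Prime] {ζ : Qb} (hζ : IsPrimitiveRoot ζ p) :
    IsCyclotomicExtension {p} ℚ (IntermediateField.adjoin ℚ {ζ}) := by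
  have : NeZero p := ⟨(Fact.out : p.Prime).ne_zero⟩
  exact hζ.intermediateField_adjoin_isCyclotomicExtension ℚ

section iota

variable (ζ : Qb)

/-- The embedding `𝓞 K → ℚ̄` for `K = ℚ(ζ)`. -/
noncomputable def iota : 𝓞 (IntermediateField.adjoin ℚ {ζ}) →+* Qb :=
  (algebraMap (IntermediateField.adjoin ℚ {ζ}) Qb).comp
    (algebraMap (𝓞 (IntermediateField.adjoin ℚ {ζ})) (IntermediateField.adjoin ℚ {ζ}))

variable {ζ}

theorem iota_apply (x : 𝓞 (IntermediateField.adjoin ℚ {ζ})) :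
    iota ζ x = ((x : IntermediateField.adjoin ℚ {ζ}) : Qb) := rfl

theorem iota_injective : Function.Injective (iota ζ) := by
  intro x y hxy
  apply RingOfIntegers.coe_injective
  exact Subtype.ext hxy

theorem iota_mem (x : 𝓞 (IntermediateField.adjoin ℚ {ζ})) :
    iota ζ x ∈ IntermediateField.adjoin ℚ {ζ} :=
  (x : IntermediateField.adjoin ℚ {ζ}).2

theorem isIntegral_iota (x : 𝓞 (IntermediateField.adjoin ℚ {ζ})) : IsIntegral ℤ (iota ζ x) :=
  map_isIntegral_int (algebraMap (IntermediateField.adjoin ℚ {ζ}) Qb) (RingOfIntegers.isIntegral_coe x)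

theorem iota_eq_zero_iff {x : 𝓞 (IntermediateField.adjoin ℚ {ζ})} : iota ζ x = 0 ↔ x = 0 :=
  map_eq_zero_iff _ iota_injective

theorem exists_iota_eq {y : Qb} (hy : y ∈ IntermediateField.adjoin ℚ {ζ}) (hint : IsIntegral ℤ y) :
    ∃ x : 𝓞 (IntermediateField.adjoin ℚ {ζ}), iota ζ x = y := by
  have h1 : IsIntegral ℤ (⟨y, hy⟩ : IntermediateField.adjoin ℚ {ζ}) :=
    (isIntegral_algHom_iff (IsScalarTower.toAlgHom ℤ (IntermediateField.adjoin ℚ {ζ}) Qb)
      (algebraMap (IntermediateField.adjoin ℚ {ζ}) Qb).injective).mp hint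
  refine ⟨IsIntegralClosure.mk' (𝓞 (IntermediateField.adjoin ℚ {ζ})) _ h1, ?_⟩
  rw [iota, RingHom.comp_apply, IsIntegralClosure.algebraMap_mk']
  rfl

theorem exists_iota_div {r : Qb} (hr : r ∈ IntermediateField.adjoin ℚ {ζ}) :
    ∃ a b : 𝓞 (IntermediateField.adjoin ℚ {ζ}), b ≠ 0 ∧ r = iota ζ a / iota ζ b := by
  obtain ⟨a, b, hb, hab⟩ := IsFractionRing.div_surjective (𝓞 (IntermediateField.adjoin ℚ {ζ}))
    (⟨r, hr⟩ : IntermediateField.adjoin ℚ {ζ})
  refine ⟨a, b, nonZeroDivisors.ne_zero hb, ?_⟩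
  have := congrArg (fun z : IntermediateField.adjoin ℚ {ζ} => (z : Qb)) hab
  simp only [IntermediateField.coe_div] at this
  exact this.symm

end iota

section prime

variable {p : ℕ} [Fact p.Prime] {ζ : Qb}

/-- `ζ` as an element of `𝓞 K`. -/
theorem exists_zetaInt (hζ : IsPrimitiveRoot ζ p) :
    ∃ ζ' : 𝓞 (IntermediateField.adjoin ℚ {ζ}), iota ζ ζ' = ζ ∧ IsPrimitiveRoot ζ' p := by
  have hp : p.Prime := Fact.out
  obtain ⟨ζ', h⟩ := exists_iota_eq (IntermediateField.mem_adjoin_simple_self ℚ ζ)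
    (hζ.isIntegral hp.pos)
  refine ⟨ζ', h, IsPrimitiveRoot.of_map_of_injective (f := iota ζ) ?_ iota_injective⟩
  rw [h]
  exact hζ

theorem prime_one_sub (hζ : IsPrimitiveRoot ζ p) {ζ' : 𝓞 (IntermediateField.adjoin ℚ {ζ})}
    (hζ' : IsPrimitiveRoot ζ' p) : Prime (1 - ζ') := by
  have hcyc := isCyclotomicExtension_adjoin hζ
  have hK : IsPrimitiveRoot ((ζ' : IntermediateField.adjoin ℚ {ζ})) p :=
    hζ'.map_of_injective RingOfIntegers.coe_injective
  have h1 := hK.zeta_sub_one_prime'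
  have h2 : hK.toInteger = ζ' := RingOfIntegers.ext rfl
  rw [h2] at h1
  have := h1.neg
  rwa [neg_sub] at this

/-- The ideal of `𝓞 K` cut out by a valuation subring of `ℚ̄`. -/
def primeUnder (ζ : Qb) (A : ValuationSubring Qb) :
    Ideal (𝓞 (IntermediateField.adjoin ℚ {ζ})) where
  carrier := {x | A.valuation (iota ζ x) < 1}
  zero_mem' := by
    show A.valuation (iota ζ 0) < 1
    rw [map_zero, map_zero]
    exact zero_lt_one
  add_mem' := fun {a b} ha hb => by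
    show A.valuation (iota ζ (a + b)) < 1
    rw [map_add]
    exact Valuation.map_add_lt _ ha hb
  smul_mem' := fun c x hx => by
    show A.valuation (iota ζ (c * x)) < 1
    rw [map_mul, map_mul]
    calc A.valuation (iota ζ c) * A.valuation (iota ζ x) ≤ 1 * A.valuation (iota ζ x) := by
          gcongr
          exact valuation_le_one_of_isIntegral A (isIntegral_iota c)
      _ = A.valuation (iota ζ x) := one_mul _
      _ < 1 := hx

theorem mem_primeUnder {A : ValuationSubring Qb} {x : 𝓞 (IntermediateField.adjoin ℚ {ζ})} :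
    x ∈ primeUnder ζ A ↔ A.valuation (iota ζ x) < 1 := Iff.rfl

theorem primeUnder_ne_top (A : ValuationSubring Qb) : primeUnder ζ A ≠ ⊤ := by
  intro htop
  have h1 : (1 : 𝓞 (IntermediateField.adjoin ℚ {ζ})) ∈ primeUnder ζ A := by rw [htop]; trivial
  rw [mem_primeUnder, map_one, map_one] at h1
  exact lt_irrefl _ h1

theorem valuation_iota_eq_one {A : ValuationSubring Qb}
    {x : 𝓞 (IntermediateField.adjoin ℚ {ζ})} (hx : x ∉ primeUnder ζ A) :
    A.valuation (iota ζ x) = 1 :=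
  le_antisymm (valuation_le_one_of_isIntegral A (isIntegral_iota x))
    (not_lt.mp (fun h => hx (mem_primeUnder.mpr h)))

theorem primeUnder_isPrime (A : ValuationSubring Qb) : (primeUnder ζ A).IsPrime := by
  refine ⟨primeUnder_ne_top A, ?_⟩
  intro a b hab
  by_contra hne
  push Not at hne
  rw [mem_primeUnder, map_mul, map_mul, valuation_iota_eq_one hne.1, valuation_iota_eq_one hne.2,
    one_mul] at hab
  exact lt_irrefl _ hab

/-- Above `p`, `1 - ζ` is a non-unit. -/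
theorem valuation_one_sub_lt_one (hζ : IsPrimitiveRoot ζ p) {A : ValuationSubring Qb}
    (hA : A.LiesOverPrime p) : A.valuation (1 - ζ) < 1 := by
  have hp : p.Prime := Fact.out
  have hζi : IsIntegral ℤ ζ := hζ.isIntegral hp.pos
  have hζp : ζ ^ p = 1 := hζ.pow_eq_one
  obtain ⟨n, hn⟩ : ∃ n, p = n + 1 := ⟨p - 1, (Nat.succ_pred_eq_of_pos hp.pos).symm⟩
  have hvp : A.valuation (p : Qb) < 1 := (ValuationSubring.mem_nonunits_iff A).mp hA
  subst hn
  have hprod := hζ.prod_one_sub_pow_eq_order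
  have hex : ∃ k ∈ Finset.range n, A.valuation (1 - ζ ^ (k + 1)) < 1 := by
    by_contra hcon
    push Not at hcon
    have h1 : A.valuation (∏ k ∈ Finset.range n, (1 - ζ ^ (k + 1))) = 1 := by
      rw [map_prod]
      apply Finset.prod_eq_one
      intro k hk
      exact le_antisymm (valuation_le_one_of_isIntegral A (isIntegral_one.sub (hζi.pow _)))
        (hcon k hk)
    rw [hprod] at h1
    have h2 : ((n + 1 : ℕ) : Qb) = (n : Qb) + 1 := by push_cast; rfl
    rw [h2, h1] at hvp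
    exact lt_irrefl _ hvp
  obtain ⟨k, hk, hkv⟩ := hex
  rw [Finset.mem_range] at hk
  have hcop : Nat.Coprime (k + 1) (n + 1) :=
    (Nat.coprime_comm.mp ((Nat.Prime.coprime_iff_not_dvd hp).mpr
      (Nat.not_dvd_of_pos_of_lt (Nat.succ_pos k) (by omega))))
  have hξ : IsPrimitiveRoot (ζ ^ (k + 1)) (n + 1) := hζ.pow_of_coprime _ hcop
  obtain ⟨i, -, hi⟩ := hξ.eq_pow_of_pow_eq_one hζp
  have e : A.valuation (1 - ζ) = A.valuation (1 - (ζ ^ (k + 1)) ^ i) := by rw [hi]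
  rw [e, ← mul_neg_geom_sum, map_mul]
  calc A.valuation (1 - ζ ^ (k + 1)) * A.valuation (∑ l ∈ Finset.range i, (ζ ^ (k + 1)) ^ l)
      ≤ A.valuation (1 - ζ ^ (k + 1)) * 1 := by
        gcongr
        exact valuation_le_one_of_isIntegral A (IsIntegral.sum _ (fun l _ => (hζi.pow _).pow _))
    _ = A.valuation (1 - ζ ^ (k + 1)) := mul_one _
    _ < 1 := hkv

/-- Above `p`, the prime of `𝓞 K` below `A` is generated by `1 - ζ`. -/
theorem primeUnder_eq_span (hζ : IsPrimitiveRoot ζ p)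
    {ζ' : 𝓞 (IntermediateField.adjoin ℚ {ζ})} (hζι : iota ζ ζ' = ζ) (hζ' : IsPrimitiveRoot ζ' p)
    {A : ValuationSubring Qb} (hA : A.LiesOverPrime p) :
    primeUnder ζ A = Ideal.span {1 - ζ'} := by
  have hπ := prime_one_sub hζ hζ'
  have hprime : (Ideal.span {1 - ζ'}).IsPrime := (Ideal.span_singleton_prime hπ.ne_zero).mpr hπ
  have hmax : (Ideal.span {1 - ζ'}).IsMaximal :=
    hprime.isMaximal (fun h => hπ.ne_zero (Ideal.span_singleton_eq_bot.mp h))
  refine (hmax.eq_of_le (primeUnder_ne_top A) ?_).symm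
  rw [Ideal.span_singleton_le_iff_mem, mem_primeUnder, map_sub, map_one, hζι]
  exact valuation_one_sub_lt_one hζ hA

theorem valuation_iota_eq_one_of_not_dvd (hζ : IsPrimitiveRoot ζ p)
    {ζ' : 𝓞 (IntermediateField.adjoin ℚ {ζ})} (hζι : iota ζ ζ' = ζ) (hζ' : IsPrimitiveRoot ζ' p)
    {A : ValuationSubring Qb} (hA : A.LiesOverPrime p)
    {c : 𝓞 (IntermediateField.adjoin ℚ {ζ})} (hc : ¬ (1 - ζ') ∣ c) :
    A.valuation (iota ζ c) = 1 := by
  apply valuation_iota_eq_one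
  rw [primeUnder_eq_span hζ hζι hζ' hA, Ideal.mem_span_singleton]
  exact hc

theorem dvd_of_valuation_le (hζ : IsPrimitiveRoot ζ p)
    {ζ' : 𝓞 (IntermediateField.adjoin ℚ {ζ})} (hζι : iota ζ ζ' = ζ) (hζ' : IsPrimitiveRoot ζ' p)
    {A : ValuationSubring Qb} (hA : A.LiesOverPrime p)
    {c : 𝓞 (IntermediateField.adjoin ℚ {ζ})} {n : ℕ}
    (h : A.valuation (iota ζ c) ≤ A.valuation (1 - ζ) ^ n) : (1 - ζ') ^ n ∣ c := by
  have hp : p.Prime := Fact.out
  have hπ := prime_one_sub hζ hζ'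
  by_cases hc0 : c = 0
  · rw [hc0]
    exact dvd_zero _
  obtain ⟨m, c₁, hc₁, rfl⟩ := WfDvdMonoid.max_power_factor hc0 hπ.irreducible
  have hv : A.valuation (iota ζ ((1 - ζ') ^ m * c₁)) = A.valuation (1 - ζ) ^ m := by
    rw [map_mul, map_pow, map_sub, map_one, hζι, map_mul, map_pow,
      valuation_iota_eq_one_of_not_dvd hζ hζι hζ' hA hc₁, mul_one]
  rw [hv] at h
  have hlt := valuation_one_sub_lt_one hζ hA
  have hpos : 0 < A.valuation (1 - ζ) :=
    zero_lt_iff.mpr ((Valuation.ne_zero_iff _).mpr (sub_ne_zero.mpr (hζ.ne_one hp.one_lt).symm))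
  have hnm : n ≤ m := (pow_le_pow_iff_right_of_lt_one₀ hpos hlt).mp h
  exact Dvd.dvd.mul_right (pow_dvd_pow _ hnm) _

end prime

section scale

variable {p : ℕ} [Fact p.Prime] {ζ α θ : Qb}

/-- `K = ℚ(ζ)` is stable under `G_ℚ`. -/
theorem map_mem_adjoin (hζ : ζ ^ p = 1) (τ : GQ) {c : Qb}
    (hc : c ∈ IntermediateField.adjoin ℚ {ζ}) : τ c ∈ IntermediateField.adjoin ℚ {ζ} := by
  apply mem_adjoin_of_fixed
  intro ρ hρ
  have h1 : τ ζ = ζ ^ (chi p τ).val := map_root_eq_pow p τ hζ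
  have hconj : (τ⁻¹ * ρ * τ) ζ = ζ := by
    show τ⁻¹ (ρ (τ ζ)) = ζ
    rw [h1, map_pow, hρ, ← h1]
    show (τ⁻¹ * τ) ζ = ζ
    rw [inv_mul_cancel, AlgEquiv.one_apply]
  have e1 : ρ (τ c) = τ ((τ⁻¹ * ρ * τ) c) := by
    have hg : τ * (τ⁻¹ * ρ * τ) = ρ * τ := by group
    calc ρ (τ c) = (ρ * τ) c := rfl
      _ = (τ * (τ⁻¹ * ρ * τ)) c := by rw [hg]
      _ = τ ((τ⁻¹ * ρ * τ) c) := rfl
  rw [e1, fixed_of_mem_adjoin hconj hc]

/-- Rescaling `θ` by a nonzero element of `K` gives again a Kummer datum. -/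
theorem KummerDatum.scale (h : KummerDatum p ζ α θ) {c : Qb}
    (hc : c ∈ IntermediateField.adjoin ℚ {ζ}) (hc0 : c ≠ 0) :
    KummerDatum p ζ (c ^ p * α) (c * θ) where
  prim := h.prim
  alpha_mem := mul_mem (pow_mem hc p) h.alpha_mem
  pow_eq := by rw [mul_pow, h.pow_eq]
  ne_zero := mul_ne_zero hc0 h.ne_zero
  not_mem := fun hmem => h.not_mem (by
    have e : θ = c⁻¹ * (c * θ) := by rw [← mul_assoc, inv_mul_cancel₀ hc0, one_mul]
    rw [e]
    exact mul_mem (inv_mem hc) hmem)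
  unram := fun ℓ hℓ hℓp A hA σ hσ => by
    rw [map_mul, fixed_of_mem_adjoin (h.inertia_fix_zeta hℓ hℓp hA hσ) hc,
      h.unram ℓ hℓ hℓp A hA σ hσ]
  split := fun A hA σ hσ hσζ => by
    rw [map_mul, fixed_of_mem_adjoin hσζ hc, h.split A hA σ hσ hσζ]
  eigen := fun τ a hτ => by
    obtain ⟨c', hc', hτθ⟩ := h.eigen τ a hτ
    refine ⟨τ c * c' * (c ^ (a ^ 2))⁻¹,
      mul_mem (mul_mem (map_mem_adjoin h.zeta_pow τ hc) hc') (inv_mem (pow_mem hc _)), ?_⟩
    rw [map_mul, hτθ, mul_pow]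
    have hne : c ^ (a ^ 2) ≠ 0 := pow_ne_zero _ hc0
    field_simp

/-- Normalisation: after rescaling, `α` is an algebraic integer of `K` prime to `1 - ζ`. -/
theorem KummerDatum.exists_normalized (h : KummerDatum p ζ α θ)
    {ζ' : 𝓞 (IntermediateField.adjoin ℚ {ζ})} (hζι : iota ζ ζ' = ζ) (hζ' : IsPrimitiveRoot ζ' p) :
    ∃ (a₁ : 𝓞 (IntermediateField.adjoin ℚ {ζ})) (θ₂ : Qb),
      KummerDatum p ζ (iota ζ a₁) θ₂ ∧ ¬ (1 - ζ') ∣ a₁ := by
  have hp : p.Prime := Fact.out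
  have hπ := prime_one_sub h.prim hζ'
  obtain ⟨m, hm⟩ := IsIntegral.exists_multiple_integral_of_isLocalization (nonZeroDivisors ℤ) θ
    (Algebra.IsIntegral.isIntegral (R := ℚ) θ)
  have hd0 : ((m : ℤ) : Qb) ≠ 0 := Int.cast_ne_zero.mpr (nonZeroDivisors.coe_ne_zero m)
  have hdK : ((m : ℤ) : Qb) ∈ IntermediateField.adjoin ℚ {ζ} := intCast_mem _ _
  have h0 := h.scale hdK hd0
  have hθ₀int : IsIntegral ℤ (((m : ℤ) : Qb) * θ) := by
    have e : (m • θ : Qb) = ((m : ℤ) : Qb) * θ := by rw [Submonoid.smul_def, zsmul_eq_mul]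
    rwa [e] at hm
  obtain ⟨a₀, ha₀⟩ := exists_iota_eq h0.alpha_mem (by rw [← h0.pow_eq]; exact hθ₀int.pow p)
  have ha₀0 : a₀ ≠ 0 := fun h' => h0.alpha_ne_zero (by rw [← ha₀, h', map_zero])
  obtain ⟨n, a₁, ha₁, rfl⟩ := WfDvdMonoid.max_power_factor ha₀0 hπ.irreducible
  obtain ⟨A, hA⟩ := helper54.exists_liesOverPrime hp
  have hζne : (1 : Qb) - ζ ≠ 0 := sub_ne_zero.mpr (h.zeta_ne_one).symm
  have hvπ_lt := valuation_one_sub_lt_one h.prim hA
  have hvπ_pos : 0 < A.valuation (1 - ζ) := zero_lt_iff.mpr ((Valuation.ne_zero_iff _).mpr hζne)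
  have hvα₀ : A.valuation (((m : ℤ) : Qb) * θ) ^ p = A.valuation (1 - ζ) ^ n := by
    rw [← map_pow, h0.pow_eq, ← ha₀, map_mul, map_pow, map_sub, map_one, hζι, map_mul, map_pow,
      valuation_iota_eq_one_of_not_dvd h.prim hζι hζ' hA ha₁, mul_one]
  have hvp_lt : A.valuation (p : Qb) < 1 := (ValuationSubring.mem_nonunits_iff A).mp hA
  have hvp_pos : 0 < A.valuation (p : Qb) :=
    zero_lt_iff.mpr ((Valuation.ne_zero_iff _).mpr (Nat.cast_ne_zero.mpr hp.ne_zero))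
  have hvp_le : A.valuation (p : Qb) ≤ A.valuation (1 - ζ) := by
    have h1 := valuation_natCast_le_pow hp h.prim A
    rw [Valuation.map_sub_swap] at h1
    calc A.valuation (p : Qb) ≤ A.valuation (1 - ζ) ^ (p - 1) := h1
      _ ≤ A.valuation (1 - ζ) ^ 1 :=
        pow_le_pow_of_le_one zero_le hvπ_lt.le (by have := hp.two_le; omega)
      _ = A.valuation (1 - ζ) := pow_one _
  have hθ₀le : A.valuation (((m : ℤ) : Qb) * θ) ≤ 1 := valuation_le_one_of_isIntegral A hθ₀int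
  have hθ₀big : A.valuation (p : Qb) ^ (n + 1) < A.valuation (((m : ℤ) : Qb) * θ) := by
    calc A.valuation (p : Qb) ^ (n + 1) < A.valuation (p : Qb) ^ n :=
          pow_lt_pow_right_of_lt_one₀ hvp_pos hvp_lt (Nat.lt_succ_self n)
      _ ≤ A.valuation (1 - ζ) ^ n := pow_le_pow_left' hvp_le n
      _ = A.valuation (((m : ℤ) : Qb) * θ) ^ p := hvα₀.symm
      _ ≤ A.valuation (((m : ℤ) : Qb) * θ) ^ 1 := pow_le_pow_of_le_one zero_le hθ₀le hp.one_le
      _ = A.valuation (((m : ℤ) : Qb) * θ) := pow_one _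
  have hθ₀N : ∀ g ∈ kumKer ζ (((m : ℤ) : Qb) * θ), g (((m : ℤ) : Qb) * θ) = ((m : ℤ) : Qb) * θ :=
    fun g hg => (mem_kumKer.mp hg).2
  obtain ⟨y, hyK, hyint, hy⟩ := h0.exists_approx_of_split A hA hθ₀int hθ₀N (n + 1)
  have hvy : A.valuation y = A.valuation (((m : ℤ) : Qb) * θ) := by
    have e : y = ((m : ℤ) : Qb) * θ + (y - ((m : ℤ) : Qb) * θ) := by ring
    rw [e]
    apply Valuation.map_add_eq_of_lt_left
    rw [Valuation.map_sub_swap]
    exact lt_of_le_of_lt hy hθ₀big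
  obtain ⟨y', hy'⟩ := exists_iota_eq hyK hyint
  have hy'0 : y' ≠ 0 := by
    rintro rfl
    rw [map_zero] at hy'
    rw [← hy', map_zero] at hvy
    exact h0.ne_zero ((map_eq_zero _).mp hvy.symm)
  obtain ⟨k, y₁, hy₁, rfl⟩ := WfDvdMonoid.max_power_factor hy'0 hπ.irreducible
  have hvy' : A.valuation y = A.valuation (1 - ζ) ^ k := by
    rw [← hy', map_mul, map_pow, map_sub, map_one, hζι, map_mul, map_pow,
      valuation_iota_eq_one_of_not_dvd h.prim hζι hζ' hA hy₁, mul_one]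
  have hnk : n = k * p := by
    have e : A.valuation (1 - ζ) ^ n = A.valuation (1 - ζ) ^ (k * p) := by
      rw [← hvα₀, ← hvy, hvy', pow_mul]
    exact pow_right_injective₀ hvπ_pos hvπ_lt.ne e
  have hcK : ((1 : Qb) - ζ)⁻¹ ^ k ∈ IntermediateField.adjoin ℚ {ζ} :=
    pow_mem (inv_mem (sub_mem (OneMemClass.one_mem _)
      (IntermediateField.mem_adjoin_simple_self ℚ ζ))) k
  have h2 := h0.scale hcK (pow_ne_zero _ (inv_ne_zero hζne))
  refine ⟨a₁, ((1 : Qb) - ζ)⁻¹ ^ k * (((m : ℤ) : Qb) * θ), ?_, ha₁⟩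
  have e : (((1 : Qb) - ζ)⁻¹ ^ k) ^ p * (((m : ℤ) : Qb) ^ p * α) = iota ζ a₁ := by
    rw [← ha₀, map_mul, map_pow, map_sub, map_one, hζι, hnk, ← pow_mul, inv_pow, ← mul_assoc,
      inv_mul_cancel₀ (pow_ne_zero _ hζne), one_mul]
  rw [e] at h2
  exact h2

end scale

section core

variable {p : ℕ} [Fact p.Prime] {ζ θ : Qb}

theorem valuation_natCast_le_one_sub (hζ : IsPrimitiveRoot ζ p) {A : ValuationSubring Qb}
    (hA : A.LiesOverPrime p) : A.valuation (p : Qb) ≤ A.valuation (1 - ζ) := by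
  have hp : p.Prime := Fact.out
  have h1 := valuation_natCast_le_pow hp hζ A
  rw [Valuation.map_sub_swap] at h1
  calc A.valuation (p : Qb) ≤ A.valuation (1 - ζ) ^ (p - 1) := h1
    _ ≤ A.valuation (1 - ζ) ^ 1 :=
      pow_le_pow_of_le_one zero_le (valuation_one_sub_lt_one hζ hA).le
        (by have := hp.two_le; omega)
    _ = A.valuation (1 - ζ) := pow_one _

/-- **Primary.** A normalised Kummer datum is a `p`-th power modulo `(1 - ζ) ^ 3`. -/
theorem KummerDatum.exists_primary {a₁ : 𝓞 (IntermediateField.adjoin ℚ {ζ})}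
    (h : KummerDatum p ζ (iota ζ a₁) θ)
    {ζ' : 𝓞 (IntermediateField.adjoin ℚ {ζ})} (hζι : iota ζ ζ' = ζ) (hζ' : IsPrimitiveRoot ζ' p) :
    ∃ x : 𝓞 (IntermediateField.adjoin ℚ {ζ}), a₁ - x ^ p ∈ Ideal.span {(1 - ζ') ^ 3} := by
  have hp : p.Prime := Fact.out
  obtain ⟨A, hA⟩ := helper54.exists_liesOverPrime hp
  have hθint : IsIntegral ℤ θ :=
    IsIntegral.of_pow hp.pos (by rw [h.pow_eq]; exact isIntegral_iota a₁)
  obtain ⟨y, hyK, hyint, hy⟩ := h.exists_approx_of_split A hA hθint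
    (fun g hg => (mem_kumKer.mp hg).2) 3
  obtain ⟨x, hx⟩ := exists_iota_eq hyK hyint
  refine ⟨x, ?_⟩
  rw [Ideal.mem_span_singleton]
  apply dvd_of_valuation_le h.prim hζι hζ' hA
  rw [map_sub, map_pow, hx, ← h.pow_eq]
  have e : θ ^ p - y ^ p = (θ - y) * ∑ i ∈ Finset.range p, θ ^ i * y ^ (p - 1 - i) := by
    rw [mul_comm]
    exact (geom_sum₂_mul θ y p).symm
  rw [e, map_mul]
  calc A.valuation (θ - y) * A.valuation (∑ i ∈ Finset.range p, θ ^ i * y ^ (p - 1 - i))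
      ≤ A.valuation (p : Qb) ^ 3 * 1 :=
        mul_le_mul' hy (valuation_le_one_of_isIntegral A
          (IsIntegral.sum _ fun i _ => (hθint.pow _).mul (hyint.pow _)))
    _ = A.valuation (p : Qb) ^ 3 := mul_one _
    _ ≤ A.valuation (1 - ζ) ^ 3 := pow_le_pow_left' (valuation_natCast_le_one_sub h.prim hA) 3

/-- Every maximal ideal of `𝓞 K` is cut out by a valuation subring of `ℚ̄`. -/
theorem exists_valuationSubring_primeUnder (P : Ideal (𝓞 (IntermediateField.adjoin ℚ {ζ})))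
    (hP : P.IsMaximal) : ∃ A : ValuationSubring Qb, primeUnder ζ A = P := by
  let e : 𝓞 (IntermediateField.adjoin ℚ {ζ}) ≃+* (iota ζ).range :=
    RingEquiv.ofBijective (iota ζ).rangeRestrict
      ⟨fun x y hxy => iota_injective (congrArg (fun t : (iota ζ).range => (t : Qb)) hxy),
        (iota ζ).rangeRestrict_surjective⟩
  have hI : P.comap (e.symm : (iota ζ).range →+* 𝓞 (IntermediateField.adjoin ℚ {ζ})) ≠ ⊤ :=
    Ideal.comap_ne_top _ hP.ne_top
  obtain ⟨B, -, hB⟩ := Ideal.image_subset_nonunits_valuationSubring _ hI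
  refine ⟨B, (hP.eq_of_le (primeUnder_ne_top B) ?_).symm⟩
  intro x hx
  rw [mem_primeUnder, ← ValuationSubring.mem_nonunits_iff]
  apply hB
  refine ⟨e x, ?_, rfl⟩
  show e.symm (e x) ∈ P
  rw [RingEquiv.symm_apply_apply]
  exact hx

/-- A valuation subring cutting out a maximal ideal of `𝓞 K` lies over a prime number. -/
theorem exists_liesOverPrime_of_isMaximal {A : ValuationSubring Qb}
    (hmax : (primeUnder ζ A).IsMaximal) : ∃ ℓ : ℕ, ℓ.Prime ∧ A.LiesOverPrime ℓ := by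
  have hbot : primeUnder ζ A ≠ ⊥ :=
    Ring.ne_bot_of_isMaximal_of_not_isField hmax (RingOfIntegers.not_isField _)
  have hn0 : Ideal.absNorm (primeUnder ζ A) ≠ 0 := fun h0 => hbot (Ideal.absNorm_eq_zero_iff.mp h0)
  have hnmem := Ideal.absNorm_mem (primeUnder ζ A)
  rw [mem_primeUnder, map_natCast] at hnmem
  have key : ∀ m : ℕ, A.valuation (m : Qb) < 1 ↔
      ((m : ℕ) : IsLocalRing.ResidueField A) = 0 := by
    intro m
    have h1 : ((m : ℕ) : IsLocalRing.ResidueField A) = IsLocalRing.residue A (m : A) := by simp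
    rw [h1, IsLocalRing.residue_eq_zero_iff, ValuationSubring.valuation_lt_one_iff]
    simp
  have hchar := ringChar.charP (IsLocalRing.ResidueField A)
  have hdvd : ringChar (IsLocalRing.ResidueField A) ∣ Ideal.absNorm (primeUnder ζ A) :=
    (CharP.cast_eq_zero_iff (IsLocalRing.ResidueField A) _ _).mp ((key _).mp hnmem)
  have hℓ0 : ringChar (IsLocalRing.ResidueField A) ≠ 0 := by
    intro h0
    rw [h0, zero_dvd_iff] at hdvd
    exact hn0 hdvd
  refine ⟨ringChar (IsLocalRing.ResidueField A), ?_, ?_⟩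
  · exact (CharP.char_is_prime_or_zero (IsLocalRing.ResidueField A) _).resolve_right hℓ0
  · show ((ringChar (IsLocalRing.ResidueField A) : ℕ) : Qb) ∈ A.nonunits
    rw [ValuationSubring.mem_nonunits_iff, key]
    exact CharP.cast_eq_zero _ _

/-- Elements of `K` in `A` are fractions of elements of `𝓞 K` with denominator a unit at `A`. -/
theorem exists_mul_eq_iota {A : ValuationSubring Qb} {r : Qb}
    (hr : r ∈ IntermediateField.adjoin ℚ {ζ}) (hrA : A.valuation r ≤ 1) :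
    ∃ d e : 𝓞 (IntermediateField.adjoin ℚ {ζ}), d ∉ primeUnder ζ A ∧ iota ζ d * r = iota ζ e := by
  obtain ⟨a, b, hb, rfl⟩ := exists_iota_div hr
  have hιb : iota ζ b ≠ 0 := fun h0 => hb (iota_eq_zero_iff.mp h0)
  set 𝔞 : Ideal (𝓞 (IntermediateField.adjoin ℚ {ζ})) := Ideal.span {a} ⊔ Ideal.span {b} with h𝔞def
  have h𝔞 : 𝔞 ≠ ⊥ := by
    intro hbot
    have hbmem : b ∈ 𝔞 := (le_sup_right : Ideal.span {b} ≤ 𝔞) (Ideal.mem_span_singleton_self b)
    rw [hbot, Ideal.mem_bot] at hbmem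
    exact hb hbmem
  obtain ⟨𝔞₁, h𝔞₁⟩ : 𝔞 ∣ Ideal.span {a} := Ideal.dvd_iff_le.mpr le_sup_left
  obtain ⟨𝔟₁, h𝔟₁⟩ : 𝔞 ∣ Ideal.span {b} := Ideal.dvd_iff_le.mpr le_sup_right
  have hcop : 𝔞₁ ⊔ 𝔟₁ = ⊤ := by
    have h1 : 𝔞 * (𝔞₁ ⊔ 𝔟₁) = 𝔞 * ⊤ := by
      rw [Ideal.mul_sup, ← h𝔞₁, ← h𝔟₁, Ideal.mul_top]
    exact mul_left_cancel₀ h𝔞 h1
  have hclaim : ¬ 𝔟₁ ≤ primeUnder ζ A := by
    intro hle
    have h2 : ¬ 𝔞₁ ≤ primeUnder ζ A := by
      intro hle'
      have : (⊤ : Ideal (𝓞 (IntermediateField.adjoin ℚ {ζ}))) ≤ primeUnder ζ A := by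
        rw [← hcop]
        exact sup_le hle' hle
      exact primeUnder_ne_top A (top_le_iff.mp this)
    obtain ⟨e, he, heP⟩ := SetLike.not_le_iff_exists.mp h2
    have h3 : e * b ∈ Ideal.span {a} * 𝔟₁ := by
      have h4 : e * b ∈ 𝔞₁ * Ideal.span {b} :=
        Ideal.mul_mem_mul he (Ideal.mem_span_singleton_self b)
      have h5 : 𝔞₁ * Ideal.span {b} = Ideal.span {a} * 𝔟₁ := by
        rw [h𝔟₁, h𝔞₁]
        ring
      rwa [h5] at h4
    obtain ⟨z, hz, hzeq⟩ := Ideal.mem_span_singleton_mul.mp h3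
    apply heP
    rw [mem_primeUnder]
    have h6 : iota ζ e = iota ζ a / iota ζ b * iota ζ z := by
      have := congrArg (iota ζ) hzeq
      rw [map_mul, map_mul] at this
      field_simp
      linear_combination -this
    rw [h6, map_mul]
    calc A.valuation (iota ζ a / iota ζ b) * A.valuation (iota ζ z)
        ≤ 1 * A.valuation (iota ζ z) := by gcongr
      _ = A.valuation (iota ζ z) := one_mul _
      _ < 1 := mem_primeUnder.mp (hle hz)
  obtain ⟨d, hd, hdP⟩ := SetLike.not_le_iff_exists.mp hclaim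
  have h7 : d * a ∈ Ideal.span {b} * 𝔞₁ := by
    have h8 : d * a ∈ 𝔟₁ * Ideal.span {a} :=
      Ideal.mul_mem_mul hd (Ideal.mem_span_singleton_self a)
    have h9 : 𝔟₁ * Ideal.span {a} = Ideal.span {b} * 𝔞₁ := by
      rw [h𝔟₁, h𝔞₁]
      ring
    rwa [h9] at h8
  obtain ⟨z, -, hzeq⟩ := Ideal.mem_span_singleton_mul.mp h7
  refine ⟨d, z, hdP, ?_⟩
  have := congrArg (iota ζ) hzeq
  rw [map_mul, map_mul] at this
  field_simp
  linear_combination -this

end core

section singular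

variable {p : ℕ} [Fact p.Prime] {ζ θ : Qb}

/-- The ideal of `x ∈ 𝓞 K` with `x / θ ^ k` an algebraic integer. -/
def divIdeal (ζ θ : Qb) (k : ℕ) : Ideal (𝓞 (IntermediateField.adjoin ℚ {ζ})) where
  carrier := {x | IsIntegral ℤ (iota ζ x / θ ^ k)}
  zero_mem' := by
    show IsIntegral ℤ (iota ζ 0 / θ ^ k)
    rw [map_zero, zero_div]
    exact isIntegral_zero
  add_mem' := fun {a b} ha hb => by
    show IsIntegral ℤ (iota ζ (a + b) / θ ^ k)
    rw [map_add, add_div]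
    exact IsIntegral.add ha hb
  smul_mem' := fun c x hx => by
    show IsIntegral ℤ (iota ζ (c * x) / θ ^ k)
    rw [map_mul, mul_div_assoc]
    exact (isIntegral_iota c).mul hx

theorem mem_divIdeal {k : ℕ} {x : 𝓞 (IntermediateField.adjoin ℚ {ζ})} :
    x ∈ divIdeal ζ θ k ↔ IsIntegral ℤ (iota ζ x / θ ^ k) := Iff.rfl

theorem divIdeal_mul_le (j k : ℕ) : divIdeal ζ θ j * divIdeal ζ θ k ≤ divIdeal ζ θ (j + k) := by
  rw [Ideal.mul_le]
  intro x hx y hy
  rw [mem_divIdeal] at hx hy ⊢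
  have e : iota ζ (x * y) / θ ^ (j + k) = (iota ζ x / θ ^ j) * (iota ζ y / θ ^ k) := by
    rw [map_mul, pow_add, mul_div_mul_comm]
  rw [e]
  exact hx.mul hy

theorem divIdeal_pow_le (n : ℕ) : divIdeal ζ θ 1 ^ n ≤ divIdeal ζ θ n := by
  induction n with
  | zero =>
    intro x _
    rw [mem_divIdeal, pow_zero, div_one]
    exact isIntegral_iota x
  | succ n ih =>
    rw [pow_succ]
    exact (Ideal.mul_mono_left ih).trans (divIdeal_mul_le n 1)

/-- **Singular.** The ideal generated by a normalised Kummer datum is a `p`-th power. -/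
theorem KummerDatum.exists_ideal_pow {a₁ : 𝓞 (IntermediateField.adjoin ℚ {ζ})}
    (h : KummerDatum p ζ (iota ζ a₁) θ)
    {ζ' : 𝓞 (IntermediateField.adjoin ℚ {ζ})} (hζι : iota ζ ζ' = ζ) (hζ' : IsPrimitiveRoot ζ' p)
    (ha₁ : ¬ (1 - ζ') ∣ a₁) :
    ∃ I : Ideal (𝓞 (IntermediateField.adjoin ℚ {ζ})), Ideal.span {a₁} = I ^ p := by
  have hp : p.Prime := Fact.out
  have hιa₁ : iota ζ a₁ ≠ 0 := h.alpha_ne_zero
  have hθint : IsIntegral ℤ θ :=
    IsIntegral.of_pow hp.pos (by rw [h.pow_eq]; exact isIntegral_iota a₁)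
  refine ⟨divIdeal ζ θ 1, le_antisymm ?_ ?_⟩
  · -- `a₁ ∈ I ^ p`, checked locally at every maximal ideal
    rw [Ideal.span_singleton_le_iff_mem]
    by_contra hnot
    let 𝔠 : Ideal (𝓞 (IntermediateField.adjoin ℚ {ζ})) :=
      { carrier := {s | s * a₁ ∈ divIdeal ζ θ 1 ^ p}
        zero_mem' := by
          show (0 : 𝓞 (IntermediateField.adjoin ℚ {ζ})) * a₁ ∈ divIdeal ζ θ 1 ^ p
          rw [zero_mul]
          exact Ideal.zero_mem _
        add_mem' := fun {s t} hs ht => by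
          show (s + t) * a₁ ∈ divIdeal ζ θ 1 ^ p
          rw [add_mul]
          exact Ideal.add_mem _ hs ht
        smul_mem' := fun c s hs => by
          show c * s * a₁ ∈ divIdeal ζ θ 1 ^ p
          rw [mul_assoc]
          exact Ideal.mul_mem_left _ _ hs }
    have h𝔠 : ∀ s, s ∈ 𝔠 ↔ s * a₁ ∈ divIdeal ζ θ 1 ^ p := fun s => Iff.rfl
    have h𝔠top : 𝔠 ≠ ⊤ := by
      intro htop
      have h1 : (1 : 𝓞 (IntermediateField.adjoin ℚ {ζ})) ∈ 𝔠 := by rw [htop]; trivial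
      rw [h𝔠, one_mul] at h1
      exact hnot h1
    obtain ⟨P, hPmax, hcP⟩ := Ideal.exists_le_maximal 𝔠 h𝔠top
    obtain ⟨A, hAP⟩ := exists_valuationSubring_primeUnder P hPmax
    obtain ⟨ℓ, hℓ, hAℓ⟩ := exists_liesOverPrime_of_isMaximal (A := A) (by rw [hAP]; exact hPmax)
    have hθle : A.valuation θ ≤ 1 := valuation_le_one_of_isIntegral A hθint
    have hy : ∃ y ∈ IntermediateField.adjoin ℚ {ζ}, y ≠ 0 ∧ A.valuation θ = A.valuation y := by
      by_cases hℓp : ℓ = p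
      · subst hℓp
        refine ⟨1, OneMemClass.one_mem _, one_ne_zero, ?_⟩
        rw [map_one]
        have h1 : A.valuation θ ^ ℓ = 1 := by
          rw [← map_pow, h.pow_eq]
          exact valuation_iota_eq_one_of_not_dvd h.prim hζι hζ' hAℓ ha₁
        by_contra hne
        have h2 : A.valuation θ ^ ℓ < 1 := pow_lt_one₀ zero_le (lt_of_le_of_ne hθle hne) hp.ne_zero
        exact absurd h1 (ne_of_lt h2)
      · exact h.exists_valuation_eq_of_unram hℓ hℓp A hAℓ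
    obtain ⟨y, hyK, hy0, hvy⟩ := hy
    have hrK : y ^ p / iota ζ a₁ ∈ IntermediateField.adjoin ℚ {ζ} :=
      div_mem (pow_mem hyK p) (iota_mem a₁)
    have hr0 : y ^ p / iota ζ a₁ ≠ 0 := div_ne_zero (pow_ne_zero _ hy0) hιa₁
    have hvr : A.valuation (y ^ p / iota ζ a₁) = 1 := by
      rw [map_div₀, map_pow, ← hvy, ← map_pow, h.pow_eq]
      exact div_self ((Valuation.ne_zero_iff _).mpr hιa₁)
    have hvr' : A.valuation (y ^ p / iota ζ a₁)⁻¹ = 1 := by
      rw [map_inv₀, hvr, inv_one]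
    obtain ⟨e₁, y₁, he₁P, hy₁⟩ := exists_mul_eq_iota hyK (hvy ▸ hθle)
    obtain ⟨d, e₂, hdP, he₂⟩ := exists_mul_eq_iota hrK hvr.le
    obtain ⟨d', e₃, hd'P, he₃⟩ := exists_mul_eq_iota (inv_mem hrK) hvr'.le
    have hxI : d * y₁ ∈ divIdeal ζ θ 1 := by
      rw [mem_divIdeal]
      apply IsIntegral.of_pow hp.pos
      have e : (iota ζ (d * y₁) / θ ^ 1) ^ p = iota ζ (d ^ (p - 1) * e₁ ^ p * e₂) := by
        rw [pow_one, div_pow, h.pow_eq, map_mul, ← hy₁, map_mul, map_mul, map_pow, map_pow, ← he₂]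
        have e' : iota ζ d ^ p = iota ζ d ^ (p - 1) * iota ζ d := (pow_sub_one_mul hp.ne_zero _).symm
        rw [mul_pow, mul_pow, e']
        ring
      rw [e]
      exact isIntegral_iota _
    have hs : d' * (d * e₁) ^ p ∈ 𝔠 := by
      rw [h𝔠]
      have e : d' * (d * e₁) ^ p * a₁ = e₃ * (d * y₁) ^ p := by
        apply iota_injective
        simp only [map_mul, map_pow]
        rw [← he₃, ← hy₁]
        field_simp
        ring
      rw [e]
      exact Ideal.mul_mem_left _ _ (Ideal.pow_mem_pow hxI p)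
    have hsP : d' * (d * e₁) ^ p ∈ P := hcP hs
    rw [← hAP] at hsP
    have hprime := primeUnder_isPrime (ζ := ζ) A
    rcases hprime.mem_or_mem hsP with h1 | h1
    · exact hd'P h1
    · rcases hprime.mem_or_mem (hprime.mem_of_pow_mem p h1) with h2 | h2
      · exact hdP h2
      · exact he₁P h2
  · refine (divIdeal_pow_le p).trans ?_
    intro x hx
    rw [mem_divIdeal, h.pow_eq] at hx
    obtain ⟨z, hz⟩ := exists_iota_eq (div_mem (iota_mem x) (iota_mem a₁)) hx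
    rw [Ideal.mem_span_singleton']
    refine ⟨z, iota_injective ?_⟩
    rw [map_mul, hz, div_mul_cancel₀ _ hιa₁]

end singular

section eigen

variable {p : ℕ} [Fact p.Prime] {ζ θ : Qb}

/-- **Eigen.** A normalised Kummer datum is an `ω²`-eigenvector modulo `p`-th powers. -/
theorem KummerDatum.isOmegaTwoElt {a₁ : 𝓞 (IntermediateField.adjoin ℚ {ζ})}
    (h : KummerDatum p ζ (iota ζ a₁) θ)
    {ζ' : 𝓞 (IntermediateField.adjoin ℚ {ζ})} (hζι : iota ζ ζ' = ζ) :
    helper1934.IsOmegaTwoElt p ζ' a₁ := by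
  intro g a hg
  let gK : (IntermediateField.adjoin ℚ {ζ}) ≃+* (IntermediateField.adjoin ℚ {ζ}) :=
    IsFractionRing.ringEquivOfRingEquiv g
  let gA : (IntermediateField.adjoin ℚ {ζ}) ≃ₐ[ℚ] (IntermediateField.adjoin ℚ {ζ}) :=
    AlgEquiv.ofRingEquiv (f := gK) (fun q => by simp)
  let τ : GQ := gA.liftNormal Qb
  have hτ : ∀ x : 𝓞 (IntermediateField.adjoin ℚ {ζ}), τ (iota ζ x) = iota ζ (g x) := by
    intro x
    have h1 := gA.liftNormal_commutes Qb
      (algebraMap (𝓞 (IntermediateField.adjoin ℚ {ζ})) (IntermediateField.adjoin ℚ {ζ}) x)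
    have h2 : gA (algebraMap (𝓞 (IntermediateField.adjoin ℚ {ζ}))
        (IntermediateField.adjoin ℚ {ζ}) x) =
        algebraMap (𝓞 (IntermediateField.adjoin ℚ {ζ})) (IntermediateField.adjoin ℚ {ζ}) (g x) :=
      IsFractionRing.ringEquivOfRingEquiv_algebraMap g x
    rw [h2] at h1
    exact h1
  have hτζ : τ ζ = ζ ^ a := by rw [← hζι, hτ, hg, map_pow]
  obtain ⟨c, hcK, hc⟩ := h.eigen τ a hτζ
  have e1 : iota ζ (g a₁) = c ^ p * iota ζ a₁ ^ (a ^ 2) := by
    rw [← hτ, ← h.pow_eq, map_pow, hc, mul_pow, ← pow_mul, ← pow_mul, mul_comm (a ^ 2) p]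
  have hga₁ : iota ζ (g a₁) ≠ 0 := by
    intro h0
    rw [iota_eq_zero_iff, map_eq_zero_iff g g.injective] at h0
    exact h.alpha_ne_zero (by rw [h0, map_zero])
  have hc0 : c ≠ 0 := by
    rintro rfl
    rw [zero_pow (Fact.out : p.Prime).ne_zero, zero_mul] at e1
    exact hga₁ e1
  obtain ⟨c₁, c₂, hc₂, rfl⟩ := exists_iota_div hcK
  have hιc₂ : iota ζ c₂ ≠ 0 := fun h0 => hc₂ (iota_eq_zero_iff.mp h0)
  have hc₁ : c₁ ≠ 0 := by
    rintro rfl
    rw [map_zero, zero_div] at hc0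
    exact hc0 rfl
  refine ⟨c₂, c₁, hc₂, hc₁, iota_injective ?_⟩
  simp only [map_mul, map_pow]
  rw [e1, div_pow, div_mul_eq_mul_div, div_mul_cancel₀ _ (pow_ne_zero _ hιc₂)]
  ring

end eigen

section final

/-- **M1c.** The Kummer core of the Thaine route implies `Core p`. -/
theorem core_of_thaineCore {p : ℕ} [Fact p.Prime] (hcore : helper1934.Stmt_Core p) : Core p := by
  intro ζ α θ h
  obtain ⟨ζ', hζι, hζ'⟩ := exists_zetaInt h.prim
  obtain ⟨a₁, θ₂, h₂, ha₁⟩ := h.exists_normalized hζι hζ'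
  have hcyc := isCyclotomicExtension_adjoin h.prim
  have ha₁0 : a₁ ≠ 0 := fun h0 => ha₁ (h0 ▸ dvd_zero _)
  obtain ⟨β, hβ⟩ := hcore (IntermediateField.adjoin ℚ {ζ}) ζ' hζ' a₁ ha₁0
    (h₂.exists_ideal_pow hζι hζ' ha₁) (by rw [Ideal.mem_span_singleton]; exact ha₁)
    (h₂.exists_primary hζι hζ') (h₂.isOmegaTwoElt hζι)
  have hβ0 : iota ζ β ≠ 0 := by
    intro h0
    rw [iota_eq_zero_iff] at h0
    rw [h0, zero_pow (Fact.out : p.Prime).ne_zero] at hβ
    exact ha₁0 hβ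
  have e : (θ₂ / iota ζ β) ^ p = 1 := by
    rw [div_pow, h₂.pow_eq, hβ, map_pow]
    exact div_self (pow_ne_zero _ hβ0)
  obtain ⟨k, -, hk⟩ := h₂.prim.eq_pow_of_pow_eq_one e
  apply h₂.not_mem
  have e2 : θ₂ = ζ ^ k * iota ζ β := by rw [hk, div_mul_cancel₀ _ hβ0]
  rw [e2]
  exact mul_mem (pow_mem (IntermediateField.mem_adjoin_simple_self ℚ ζ) k) (iota_mem β)

/-- The frozen statement S14 follows from the Kummer core of the Thaine route. -/
theorem extVanishingCts_of_thaineCore {p : ℕ} [Fact p.Prime] (h3 : 3 ≤ p)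
    (hcore : helper1934.Stmt_Core p) : ExtCitation.ExtVanishingCts p :=
  extVanishingCts_of_core h3 (core_of_thaineCore hcore)

end final

end Fermat.Agent.S14.helper662
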