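import Mathlib
import Fermat.Agent.S14.helper1934_ThaineSpec
import Fermat.Agent.S14.helper4867_Reduction
import Fermat.Agent.Lib.helper2489_Unramified

/-!
# S14, Thaine route, Package R: `helper1934.Stmt_Reduction`

`stmt_Reduction p : helper1934.Stmt_Reduction p`, i.e.
`3 ≤ p → NoTwistedSplitExt p → ExtCitation.ExtVanishingCts p`.

The frozen statement has already been reduced by helper4867 (`extVanishingCts_of_noExt`) to the
group-theoretic statement `helper4867.Stmt_NoExt p` about an open normal subgroup `N` of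
`Gal(ℚ̄/ℚ)`.  Here we turn such an `N` into the number fields `F = ℚ(ζ_p)` and
`M = ℚ̄^N` (both as intermediate fields of `ℚ̄`) and check the fields of
`helper1934.TwistedSplitExt p F M ζ`.
-/

set_option autoImplicit false
set_option linter.unusedSectionVars false

namespace Fermat.Agent.S14.helper6879

open NumberField
open scoped Pointwise
open Fermat.Agent.Lib.helper54 Fermat.Agent.Lib.helper2489

attribute [local instance] isAlgebraic_Qbar isAlgClosure_Qbar isGalois_Qbar isIntegral_Qbar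

local notation "Qb" => AlgebraicClosure ℚ
local notation "GQ" => (AlgebraicClosure ℚ ≃ₐ[ℚ] AlgebraicClosure ℚ)
local notation "Zb" => integralClosure ℤ (AlgebraicClosure ℚ)

/-! ## Lifting the decomposition group -/

/-- Lifting decomposition: if `σ₀` preserves membership in the prime `Q` of `ℤ̄` for the
integers of a normal extension `E` of `ℚ`, then some `ρ σ₀` with `ρ ∈ Gal(ℚ̄/E)` stabilises
`Q`. -/
theorem exists_decomposition_lift (E : IntermediateField ℚ Qb) [Normal ℚ E]
    (Q : Ideal Zb) [Q.IsPrime] (σ₀ : GQ)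
    (h₀ : ∀ z : Zb, (z : Qb) ∈ E → (σ₀ • z ∈ Q ↔ z ∈ Q)) :
    ∃ ρ ∈ E.fixingSubgroup, (ρ * σ₀) • Q = Q := by
  classical
  let N : Subgroup GQ := E.fixingSubgroup
  let _ : TopologicalSpace Zb := ⊥
  have : DiscreteTopology Zb := ⟨rfl⟩
  have hcont : ContinuousSMul GQ Zb := continuousSMul_GQ_Zbar
  have : ContinuousSMul N Zb := by
    refine ⟨?_⟩
    have h1 : Continuous fun p : N × Zb => ((p.1 : GQ), p.2) :=
      (continuous_subtype_val.comp continuous_fst).prodMk continuous_snd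
    exact hcont.continuous_smul.comp h1
  have hNclosed : IsClosed (N : Set GQ) := InfiniteGalois.fixingSubgroup_isClosed E
  have : CompactSpace N := isCompact_iff_compactSpace.mp hNclosed.isCompact
  let A' := FixedPoints.subalgebra ℤ Zb N
  have : SMulCommClass N A' Zb := instSMulCommClassSubtypeMemSubalgebraSubalgebra ℤ Zb N
  have : Algebra.IsInvariant A' Zb N := ⟨fun x h => ⟨⟨x, h⟩, rfl⟩⟩
  have hA'F : ∀ a : A', ((a : Zb) : Qb) ∈ E := fun a => coe_mem_of_fixed E a.1 a.2
  have hσF : ∀ (σ : GQ) (z : Zb), (z : Qb) ∈ E → ((σ • z : Zb) : Qb) ∈ E := by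
    intro σ z hz
    rw [integralClosure.coe_smul]
    exact apply_mem_of_normal E σ hz
  have hunder : (σ₀ • Q).under A' = Q.under A' := by
    ext a
    simp only [Ideal.under, Ideal.mem_comap]
    change (a : Zb) ∈ σ₀ • Q ↔ (a : Zb) ∈ Q
    rw [Ideal.mem_pointwise_smul_iff_inv_smul_mem]
    have hz : ((σ₀⁻¹ • (a : Zb) : Zb) : Qb) ∈ E := hσF σ₀⁻¹ a (hA'F a)
    have h1 := h₀ (σ₀⁻¹ • (a : Zb)) hz
    rw [smul_inv_smul] at h1
    exact h1.symm
  obtain ⟨ρ₁, hρ₁⟩ := Algebra.IsInvariant.exists_smul_of_under_eq_of_profinite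
    (A := A') (B := Zb) (G := N) (σ₀ • Q) Q hunder
  refine ⟨ρ₁, ρ₁.2, ?_⟩
  rw [mul_smul]
  exact hρ₁.symm

/-! ## The cyclotomic character and `ℚ(ζ_p)` -/

section Chi

variable (p : ℕ) [Fact p.Prime]

/-- `σ` lies in the kernel of the mod-`p` cyclotomic character iff it fixes a primitive `p`-th
root of unity. -/
theorem mem_chi_ker_iff_apply_eq (σ : GQ) {ζ : Qb} (hζ : IsPrimitiveRoot ζ p) :
    σ ∈ (helper4867.chi p).ker ↔ σ ζ = ζ := by
  have hp : p.Prime := Fact.out
  have : NeZero p := ⟨hp.ne_zero⟩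
  have : Fact (1 < p) := ⟨hp.one_lt⟩
  have hspec := helper4867.chi_spec p σ hζ.pow_eq_one
  rw [MonoidHom.mem_ker]
  constructor
  · intro h
    rw [hspec, h, Units.val_one, ZMod.val_one, pow_one]
  · intro h
    rw [h] at hspec
    have h1 : ((helper4867.chi p σ : (ZMod p)ˣ) : ZMod p).val = 1 :=
      hζ.pow_inj (ZMod.val_lt _) hp.one_lt (by rw [pow_one]; exact hspec.symm)
    apply Units.ext
    rw [Units.val_one, ← ZMod.natCast_zmod_val ((helper4867.chi p σ : (ZMod p)ˣ) : ZMod p), h1,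
      Nat.cast_one]

/-- The subgroup fixing `ℚ(ζ_p)` is the kernel of the mod-`p` cyclotomic character. -/
theorem fixingSubgroup_adjoin_eq {ζ : Qb} (hζ : IsPrimitiveRoot ζ p) :
    (IntermediateField.adjoin ℚ {ζ}).fixingSubgroup = (helper4867.chi p).ker := by
  ext σ
  rw [mem_chi_ker_iff_apply_eq p σ hζ, IntermediateField.mem_fixingSubgroup_iff]
  constructor
  · intro h
    exact h ζ (IntermediateField.mem_adjoin_simple_self ℚ ζ)
  · intro h x hx
    have hle : IntermediateField.adjoin ℚ {ζ} ≤ IntermediateField.fixedField (Subgroup.zpowers σ) := by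
      rw [IntermediateField.adjoin_simple_le_iff, IntermediateField.mem_fixedField_iff]
      intro f hf
      obtain ⟨k, rfl⟩ := Subgroup.mem_zpowers_iff.mp hf
      have hfix : σ ∈ MulAction.stabilizer GQ ζ := h
      have := (MulAction.stabilizer GQ ζ).zpow_mem hfix k
      exact this
    have := (IntermediateField.mem_fixedField_iff _ x).mp (hle hx) σ (Subgroup.mem_zpowers σ)
    exact this

end Chi

/-! ## Restriction to and lifting from a normal intermediate field -/

section Restrict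

variable (Mi : IntermediateField ℚ Qb)

theorem coe_liftNormal (τ : Mi ≃ₐ[ℚ] Mi) (x : Mi) :
    (τ.liftNormal Qb) (x : Qb) = ((τ x : Mi) : Qb) :=
  AlgEquiv.liftNormal_commutes τ Qb x

variable [Normal ℚ Mi]

theorem coe_restrictNormalHom (σ : GQ) (x : Mi) :
    ((AlgEquiv.restrictNormalHom Mi σ x : Mi) : Qb) = σ (x : Qb) :=
  AlgEquiv.restrictNormal_commutes σ Mi x

theorem restrictNormalHom_eq_one_iff (σ : GQ) :
    AlgEquiv.restrictNormalHom Mi σ = 1 ↔ σ ∈ Mi.fixingSubgroup := by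
  rw [IntermediateField.mem_fixingSubgroup_iff]
  constructor
  · intro h x hx
    have := coe_restrictNormalHom Mi σ ⟨x, hx⟩
    rw [h] at this
    exact this.symm
  · intro h
    ext x
    rw [coe_restrictNormalHom]
    exact h x x.2

theorem restrictNormalHom_liftNormal (τ : Mi ≃ₐ[ℚ] Mi) :
    AlgEquiv.restrictNormalHom Mi (τ.liftNormal Qb) = τ := by
  ext x
  rw [coe_restrictNormalHom, coe_liftNormal]

end Restrict

/-! ## Primes of a number field inside `ℚ̄` -/

/-- A nonzero prime of a ring of integers contains a prime number. -/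
theorem exists_prime_natCast_mem {K : Type*} [Field K] [NumberField K] (P : Ideal (𝓞 K))
    [P.IsPrime] (hP : P ≠ ⊥) : ∃ ℓ : ℕ, ℓ.Prime ∧ (ℓ : 𝓞 K) ∈ P := by
  have h1 : (P.under ℤ).IsPrime := inferInstance
  have h2 : P.under ℤ ≠ ⊥ := Ideal.under_ne_bot ℤ hP
  rcases Ideal.isPrime_int_iff.mp h1 with h | ⟨ℓ, hℓ, h⟩
  · exact absurd h h2
  · refine ⟨ℓ, hℓ, ?_⟩
    have h3 : (ℓ : ℤ) ∈ P.under ℤ := by
      rw [h]
      exact Ideal.mem_span_singleton_self _
    have h4 : algebraMap ℤ (𝓞 K) (ℓ : ℤ) ∈ P := h3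
    simpa using h4

section Core

variable {p : ℕ} [Fact p.Prime]
variable (N : Subgroup GQ) (Fi Mi : IntermediateField ℚ Qb)
  [NumberField Fi] [NumberField Mi] [Normal ℚ Mi] [Algebra Fi Mi]

omit [NumberField Fi] [NumberField Mi] [Normal ℚ Mi] in
/-- The lift to `Gal(ℚ̄/ℚ)` of an `F`-automorphism of `M` fixes `F`. -/
theorem liftNormal_mem_fixingSubgroup
    (halg : ∀ x : Fi, ((algebraMap Fi Mi x : Mi) : Qb) = (x : Qb))
    (n : Mi ≃ₐ[Fi] Mi) :
    (n.restrictScalars ℚ).liftNormal Qb ∈ Fi.fixingSubgroup := by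
  rw [IntermediateField.mem_fixingSubgroup_iff]
  intro y hy
  have h1 := coe_liftNormal Mi (n.restrictScalars ℚ) (algebraMap Fi Mi ⟨y, hy⟩)
  rw [AlgEquiv.restrictScalars_apply, n.commutes, halg] at h1
  exact h1

/-- `unram`: all inertia groups of `M/F` are trivial. -/
theorem unram_of
    (hNle : N ≤ (helper4867.chi p).ker)
    (hin : ∀ ℓ : ℕ, ℓ.Prime → ℓ ≠ p → ∀ A : ValuationSubring Qb,
      A.LiesOverPrime ℓ → A.inertiaSubgroupIn ℚ ≤ N)
    (hdec : ∀ A : ValuationSubring Qb, A.LiesOverPrime p →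
      A.decompositionSubgroup ℚ ⊓ (helper4867.chi p).ker ≤ N)
    (halg : ∀ x : Fi, ((algebraMap Fi Mi x : Mi) : Qb) = (x : Qb))
    (hFfix : Fi.fixingSubgroup = (helper4867.chi p).ker) (hMfix : Mi.fixingSubgroup = N)
    (P : Ideal (𝓞 Mi)) (hP : P.IsPrime) (hP0 : P ≠ ⊥) (σ : Mi ≃ₐ[Fi] Mi)
    (hσ : ∀ x : 𝓞 Mi, σ • x - x ∈ P) : σ = 1 := by
  classical
  obtain ⟨ℓ, hℓ, hℓP⟩ := exists_prime_natCast_mem P hP0
  let f : 𝓞 Mi →+* Qb := (algebraMap Mi Qb).comp (algebraMap (𝓞 Mi) Mi)
  have hf : Function.Injective f :=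
    (algebraMap Mi Qb).injective.comp RingOfIntegers.coe_injective
  obtain ⟨A, -, hAP⟩ := exists_valuationSubring_nonunits f hf P hP.ne_top
  have hA : A.LiesOverPrime ℓ := by
    have := hAP _ hℓP
    simpa [ValuationSubring.LiesOverPrime, f] using this
  let σ₀ : GQ := (σ.restrictScalars ℚ).liftNormal Qb
  have hσ₀ : ∀ x : Mi, σ₀ (x : Qb) = ((σ x : Mi) : Qb) := fun x => by
    have := coe_liftNormal Mi (σ.restrictScalars ℚ) x
    rwa [AlgEquiv.restrictScalars_apply] at this
  have hσ₀χ : σ₀ ∈ (helper4867.chi p).ker := by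
    rw [← hFfix]
    exact liftNormal_mem_fixingSubgroup Fi Mi halg σ
  have h₀ : ∀ z : Zb, (z : Qb) ∈ Mi → σ₀ • z - z ∈ primeOfValuationSubring A := by
    intro z hz
    have hint : IsIntegral ℤ (⟨(z : Qb), hz⟩ : Mi) := by
      have h1 : IsIntegral ℤ (algebraMap Mi Qb ⟨(z : Qb), hz⟩) := z.2
      exact (isIntegral_algebraMap_iff (algebraMap Mi Qb).injective).mp h1
    let x : 𝓞 Mi := ⟨⟨(z : Qb), hz⟩, hint⟩
    have h1 := hAP _ (hσ x)
    rw [mem_primeOfValuationSubring]
    have h2 : f (σ • x - x) = σ₀ (z : Qb) - (z : Qb) := by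
      rw [map_sub]
      have h3 : f (σ • x) = σ₀ (z : Qb) := (hσ₀ ⟨(z : Qb), hz⟩).symm
      rw [h3]
      rfl
    rw [h2] at h1
    simpa using h1
  obtain ⟨ρ, hρ, hσQ, hσz⟩ := exists_inertia_lift Mi (primeOfValuationSubring A) σ₀ h₀
  have hI : ρ * σ₀ ∈ A.inertiaSubgroupIn ℚ := mem_inertiaSubgroupIn_of_zbar hℓ A hA _ hσQ hσz
  have hρN : ρ ∈ N := hMfix ▸ hρ
  have hmem : ρ * σ₀ ∈ N := by
    by_cases hℓp : ℓ = p
    · have hA' : A.LiesOverPrime p := hℓp ▸ hA
      refine hdec A hA' ⟨?_, (helper4867.chi p).ker.mul_mem (hNle hρN) hσ₀χ⟩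
      exact Fermat.Agent.S05.helper4205.mem_decomposition_of_mem_inertiaSubgroupIn hI
    · exact hin ℓ hℓ hℓp A hA hI
  have hσ₀N : σ₀ ∈ N := by
    have := N.mul_mem (N.inv_mem hρN) hmem
    simpa using this
  rw [← hMfix, IntermediateField.mem_fixingSubgroup_iff] at hσ₀N
  ext x
  have := hσ₀N (x : Qb) x.2
  rw [hσ₀ x] at this
  exact this

/-- `split`: all decomposition groups of `M/F` above `p` are trivial. -/
theorem split_of
    (hNle : N ≤ (helper4867.chi p).ker)
    (hdec : ∀ A : ValuationSubring Qb, A.LiesOverPrime p →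
      A.decompositionSubgroup ℚ ⊓ (helper4867.chi p).ker ≤ N)
    (halg : ∀ x : Fi, ((algebraMap Fi Mi x : Mi) : Qb) = (x : Qb))
    (hFfix : Fi.fixingSubgroup = (helper4867.chi p).ker) (hMfix : Mi.fixingSubgroup = N)
    (P : Ideal (𝓞 Mi)) (hP : P.IsPrime) (hpP : (p : 𝓞 Mi) ∈ P) (σ : Mi ≃ₐ[Fi] Mi)
    (hσ : ∀ x ∈ P, σ • x ∈ P) : σ = 1 := by
  classical
  have hp : p.Prime := Fact.out
  have hP0 : P ≠ ⊥ := by
    rintro rfl
    have h0 : (p : 𝓞 Mi) = 0 := by simpa using hpP
    exact hp.ne_zero (by exact_mod_cast h0)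
  have hPmax : P.IsMaximal := hP.isMaximal hP0
  let f : 𝓞 Mi →+* Qb := (algebraMap Mi Qb).comp (algebraMap (𝓞 Mi) Mi)
  have hf : Function.Injective f :=
    (algebraMap Mi Qb).injective.comp RingOfIntegers.coe_injective
  obtain ⟨A, hAmem, hAP⟩ := exists_valuationSubring_nonunits f hf P hP.ne_top
  have hA : A.LiesOverPrime p := by
    have := hAP _ hpP
    simpa [ValuationSubring.LiesOverPrime, f] using this
  -- `P` is exactly the contraction of the maximal ideal of `A`
  have hPA : ∀ x : 𝓞 Mi, f x ∈ A.nonunits → x ∈ P := by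
    intro x hx
    by_contra hxP
    obtain ⟨y, i, hi, hyi⟩ := hPmax.exists_inv hxP
    have h1 : A.valuation (f (y * x + i)) < 1 := by
      rw [map_add, map_mul]
      refine lt_of_le_of_lt (Valuation.map_add _ _ _) (max_lt ?_ ?_)
      · rw [map_mul]
        have hy1 : A.valuation (f y) ≤ 1 := (ValuationSubring.valuation_le_one_iff A _).2 (hAmem y)
        have hx1 : A.valuation (f x) < 1 := (ValuationSubring.mem_nonunits_iff A).1 hx
        calc A.valuation (f y) * A.valuation (f x) ≤ 1 * A.valuation (f x) :=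
              mul_le_mul_left hy1 _
          _ = A.valuation (f x) := one_mul _
          _ < 1 := hx1
      · exact (ValuationSubring.mem_nonunits_iff A).1 (hAP i hi)
    rw [hyi, map_one, map_one] at h1
    exact lt_irrefl _ h1
  -- `σ` preserves non-membership in `P`
  have hσ' : ∀ x : 𝓞 Mi, σ • x ∈ P → x ∈ P := by
    intro x hx
    by_contra hxP
    obtain ⟨y, i, hi, hyi⟩ := hPmax.exists_inv hxP
    have h1 : σ • (y * x + i) ∈ P := by
      rw [smul_add, smul_mul']
      exact P.add_mem (P.mul_mem_left _ hx) (hσ i hi)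
    rw [hyi, smul_one] at h1
    exact hP.ne_top ((Ideal.eq_top_iff_one P).mpr h1)
  let σ₀ : GQ := (σ.restrictScalars ℚ).liftNormal Qb
  have hσ₀ : ∀ x : Mi, σ₀ (x : Qb) = ((σ x : Mi) : Qb) := fun x => by
    have := coe_liftNormal Mi (σ.restrictScalars ℚ) x
    rwa [AlgEquiv.restrictScalars_apply] at this
  have hσ₀χ : σ₀ ∈ (helper4867.chi p).ker := by
    rw [← hFfix]
    exact liftNormal_mem_fixingSubgroup Fi Mi halg σ
  have h₀ : ∀ z : Zb, (z : Qb) ∈ Mi →
      (σ₀ • z ∈ primeOfValuationSubring A ↔ z ∈ primeOfValuationSubring A) := by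
    intro z hz
    have hint : IsIntegral ℤ (⟨(z : Qb), hz⟩ : Mi) := by
      have h1 : IsIntegral ℤ (algebraMap Mi Qb ⟨(z : Qb), hz⟩) := z.2
      exact (isIntegral_algebraMap_iff (algebraMap Mi Qb).injective).mp h1
    let x : 𝓞 Mi := ⟨⟨(z : Qb), hz⟩, hint⟩
    have hfx : f x = (z : Qb) := rfl
    have hfσx : f (σ • x) = σ₀ (z : Qb) := (hσ₀ ⟨(z : Qb), hz⟩).symm
    rw [mem_primeOfValuationSubring, mem_primeOfValuationSubring, integralClosure.coe_smul]
    change σ₀ (z : Qb) ∈ A.nonunits ↔ (z : Qb) ∈ A.nonunits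
    rw [← hfσx, ← hfx]
    constructor
    · intro h
      exact hAP x (hσ' x (hPA _ h))
    · intro h
      exact hAP _ (hσ x (hPA x h))
  obtain ⟨ρ, hρ, hσQ⟩ := exists_decomposition_lift Mi (primeOfValuationSubring A) σ₀ h₀
  have hD : ρ * σ₀ ∈ A.decompositionSubgroup ℚ :=
    mem_decompositionSubgroup_of_smul_prime_eq hp A hA _ hσQ
  have hρN : ρ ∈ N := hMfix ▸ hρ
  have hmem : ρ * σ₀ ∈ N :=
    hdec A hA ⟨hD, (helper4867.chi p).ker.mul_mem (hNle hρN) hσ₀χ⟩
  have hσ₀N : σ₀ ∈ N := by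
    have := N.mul_mem (N.inv_mem hρN) hmem
    simpa using this
  rw [← hMfix, IntermediateField.mem_fixingSubgroup_iff] at hσ₀N
  ext x
  have := hσ₀N (x : Qb) x.2
  rw [hσ₀ x] at this
  exact this

/-- `twist`: `Gal(F/ℚ)` acts on `Gal(M/F)` through the inverse cyclotomic character. -/
theorem twist_of
    (hNn : N.Normal)
    (hNidx : N.relIndex (helper4867.chi p).ker = p)
    (htw : ∀ σ τ : GQ, τ ∈ (helper4867.chi p).ker →
      (σ * τ * σ⁻¹) ^ (ExtCitation.cycloExp p σ) * τ⁻¹ ∈ N)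
    (halg : ∀ x : Fi, ((algebraMap Fi Mi x : Mi) : Qb) = (x : Qb))
    (hFfix : Fi.fixingSubgroup = (helper4867.chi p).ker) (hMfix : Mi.fixingSubgroup = N)
    (ζ : Fi) (hζ : IsPrimitiveRoot ζ p)
    (σ : Mi ≃ₐ[ℚ] Mi) (n : Mi ≃ₐ[Fi] Mi) (a : ℕ)
    (hσ : σ (algebraMap Fi Mi ζ) = algebraMap Fi Mi ζ ^ a) :
    (σ * n.restrictScalars ℚ * σ⁻¹) ^ a = n.restrictScalars ℚ := by
  have hp : p.Prime := Fact.out
  let σ' : GQ := σ.liftNormal Qb
  let τ : GQ := (n.restrictScalars ℚ).liftNormal Qb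
  have hresσ : AlgEquiv.restrictNormalHom Mi σ' = σ := restrictNormalHom_liftNormal Mi σ
  have hresτ : AlgEquiv.restrictNormalHom Mi τ = n.restrictScalars ℚ :=
    restrictNormalHom_liftNormal Mi _
  have hτ : τ ∈ (helper4867.chi p).ker := by
    rw [← hFfix]
    exact liftNormal_mem_fixingSubgroup Fi Mi halg n
  have hresN : ∀ g : GQ, g ∈ N → AlgEquiv.restrictNormalHom Mi g = 1 := fun g hg =>
    (restrictNormalHom_eq_one_iff Mi g).mpr (hMfix ▸ hg)
  -- the key relation, restricted to `M`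
  have h1 := hresN _ (htw σ' τ hτ)
  rw [map_mul, map_pow, map_mul, map_mul, map_inv, map_inv, hresσ, hresτ] at h1
  have h2 : (σ * n.restrictScalars ℚ * σ⁻¹) ^ (ExtCitation.cycloExp p σ') =
      n.restrictScalars ℚ := mul_inv_eq_one.mp h1
  -- comparison of the exponents
  have hζ' : IsPrimitiveRoot ((ζ : Fi) : Qb) p :=
    hζ.map_of_injective (f := algebraMap Fi Qb) (algebraMap Fi Qb).injective
  have h3 : σ' ((ζ : Fi) : Qb) = ((ζ : Fi) : Qb) ^ a := by
    have := coe_liftNormal Mi σ (algebraMap Fi Mi ζ)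
    rw [halg, hσ] at this
    rw [this]
    push_cast
    rw [halg]
  have h4 : σ' ((ζ : Fi) : Qb) = ((ζ : Fi) : Qb) ^ (ExtCitation.cycloExp p σ') := by
    rw [helper4867.cycloExp_eq]
    exact helper4867.chi_spec p σ' hζ'.pow_eq_one
  have h5 : a % p = ExtCitation.cycloExp p σ' % p := by
    have h6 : ((ζ : Fi) : Qb) ^ a = ((ζ : Fi) : Qb) ^ (ExtCitation.cycloExp p σ') :=
      h3.symm.trans h4
    rw [pow_eq_pow_mod a hζ'.pow_eq_one,
      pow_eq_pow_mod (ExtCitation.cycloExp p σ') hζ'.pow_eq_one] at h6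
    exact hζ'.pow_inj (Nat.mod_lt _ hp.pos) (Nat.mod_lt _ hp.pos) h6
  -- the conjugate has order dividing `p`
  have hg : (σ * n.restrictScalars ℚ * σ⁻¹) ^ p = 1 := by
    have hconj : σ' * τ * σ'⁻¹ ∈ (helper4867.chi p).ker :=
      (MonoidHom.normal_ker _).conj_mem τ hτ σ'
    have hpow : (σ' * τ * σ'⁻¹) ^ p ∈ N := by
      have hnorm : (N.subgroupOf (helper4867.chi p).ker).Normal := hNn.subgroupOf _
      have h7 := Subgroup.pow_index_mem (N.subgroupOf (helper4867.chi p).ker)
        (⟨_, hconj⟩ : (helper4867.chi p).ker)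
      have h8 : (N.subgroupOf (helper4867.chi p).ker).index = p := hNidx
      rw [h8, Subgroup.mem_subgroupOf] at h7
      exact h7
    have := hresN _ hpow
    rwa [map_pow, map_mul, map_mul, map_inv, hresσ, hresτ] at this
  rw [pow_eq_pow_mod a hg, h5, ← pow_eq_pow_mod _ hg, h2]

omit [NumberField Fi] [NumberField Mi] [Normal ℚ Mi] [Algebra Fi Mi] in
/-- The degree of an intermediate field of `ℚ̄/ℚ` is the index of its fixing subgroup. -/
theorem finrank_eq_index (L : IntermediateField ℚ Qb) :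
    Module.finrank ℚ L = L.fixingSubgroup.index := by
  have h := IntermediateField.finrank_eq_fixingSubgroup_index Qb L
  convert h

/-- `degree`: `[M : F] = p`. -/
theorem degree_of
    (hNle : N ≤ (helper4867.chi p).ker)
    (hNidx : N.relIndex (helper4867.chi p).ker = p)
    (hFfix : Fi.fixingSubgroup = (helper4867.chi p).ker) (hMfix : Mi.fixingSubgroup = N) :
    Module.finrank Fi Mi = p := by
  have h1 : Module.finrank ℚ Fi = Fi.fixingSubgroup.index := finrank_eq_index Fi
  have h2 : Module.finrank ℚ Mi = Mi.fixingSubgroup.index := finrank_eq_index Mi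
  have h3 := Module.finrank_mul_finrank ℚ Fi Mi
  have h4 := Subgroup.relIndex_mul_index hNle
  rw [hNidx] at h4
  rw [h1, h2, hFfix, hMfix, ← h4, mul_comm] at h3
  have hpos : 0 < (helper4867.chi p).ker.index := by
    rw [← hFfix, ← h1]
    exact Module.finrank_pos
  exact Nat.eq_of_mul_eq_mul_right hpos h3

end Core

/-! ## Package R -/

/-- **Package R, group form**: if there is no twisted split extension of `ℚ(ζ_p)`, then
helper4867's group-theoretic core `Stmt_NoExt p` holds. -/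
theorem noExt_of_noTwistedSplitExt (p : ℕ) [Fact p.Prime]
    (H : helper1934.NoTwistedSplitExt p) : helper4867.Stmt_NoExt p := by
  intro N hNn hNo hNle hNidx htw hin hdec
  have hp : p.Prime := Fact.out
  have : NeZero p := ⟨hp.ne_zero⟩
  obtain ⟨ζ, hζ⟩ := HasEnoughRootsOfUnity.exists_primitiveRoot Qb p
  let Fi : IntermediateField ℚ Qb := IntermediateField.adjoin ℚ {ζ}
  let Mi : IntermediateField ℚ Qb := IntermediateField.fixedField N
  have hFfix : Fi.fixingSubgroup = (helper4867.chi p).ker := fixingSubgroup_adjoin_eq p hζ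
  have hNc : IsClosed (N : Set GQ) := Subgroup.isClosed_of_isOpen N hNo
  have hMfix : Mi.fixingSubgroup = N :=
    InfiniteGalois.fixingSubgroup_fixedField (⟨N, hNc⟩ : ClosedSubgroup GQ)
  have hle : Fi ≤ Mi := by
    rw [← InfiniteGalois.fixedField_fixingSubgroup Fi, hFfix]
    intro x hx
    rw [IntermediateField.mem_fixedField_iff] at hx ⊢
    exact fun f hf => hx f (hNle hf)
  have hFfin : FiniteDimensional ℚ Fi := by
    have h := (InfiniteGalois.isOpen_iff_finite Fi).mp (by
      rw [hFfix]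
      exact Subgroup.isOpen_mono hNle hNo)
    convert h
  have hMfin : FiniteDimensional ℚ Mi := by
    have h := (InfiniteGalois.isOpen_iff_finite Mi).mp (by
      rw [hMfix]
      exact hNo)
    convert h
  have : NumberField Fi := { to_charZero := inferInstance, to_finiteDimensional := hFfin }
  have : NumberField Mi := { to_charZero := inferInstance, to_finiteDimensional := hMfin }
  have hMnormal : Normal ℚ Mi := by
    have hN' : Mi.fixingSubgroup.Normal := hMfix ▸ hNn
    have h := ((InfiniteGalois.normal_iff_isGalois Mi).mp hN').to_normal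
    convert h
    exact Subsingleton.elim _ _
  let _ : Algebra Fi Mi := (IntermediateField.inclusion hle).toRingHom.toAlgebra
  have halg : ∀ x : Fi, ((algebraMap Fi Mi x : Mi) : Qb) = (x : Qb) := fun x => rfl
  have : IsCyclotomicExtension {p} ℚ Fi := by
    have h := hζ.intermediateField_adjoin_isCyclotomicExtension ℚ
    convert h
    · rfl
    · exact Subsingleton.elim _ _
  let ζF : Fi := ⟨ζ, IntermediateField.mem_adjoin_simple_self ℚ ζ⟩
  have hζF : IsPrimitiveRoot ζF p :=
    IsPrimitiveRoot.of_map_of_injective (f := algebraMap Fi Qb) hζ (algebraMap Fi Qb).injective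
  have hgalQ : IsGalois ℚ Mi := ⟨⟩
  exact H Fi Mi ζF
    { prim := hζF
      galoisQ := hgalQ
      galois := IsGalois.tower_top_of_isGalois ℚ Fi Mi
      degree := degree_of N Fi Mi hNle hNidx hFfix hMfix
      unram := unram_of N Fi Mi hNle hin hdec halg hFfix hMfix
      split := split_of N Fi Mi hNle hdec halg hFfix hMfix
      twist := twist_of N Fi Mi hNn hNidx htw halg hFfix hMfix ζF hζF }

/-- **Package R** of helper1934's Thaine spec. -/
theorem stmt_Reduction (p : ℕ) [Fact p.Prime] : helper1934.Stmt_Reduction p :=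
  fun h3 H => helper4867.extVanishingCts_of_noExt h3 (noExt_of_noTwistedSplitExt p H)

end Fermat.Agent.S14.helper6879
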