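import Mathlib

/-!
# S14, Thaine route, package U: the abstract index lemma

A trace-free replacement of the "eigenspace of `E/E^p` is one-dimensional" argument.

`E` is a finitely generated commutative group, `σ` an endomorphism with `σ^N₀ = 1`, `n ≥ 2`,
`ψ x = σ x / x ^ n`.  If the `σ`-orbit of one element `η` generates, together with the torsion,
a subgroup of finite index, and `p² ∤ n ^ N₀ - 1`, then the group of "eigen" elements
`{x | ψ x ∈ E^p · T}` modulo `E^p · T` has order at most `p`.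
-/

set_option autoImplicit false

namespace Fermat.Agent.S14.helper6896

open Subgroup

section abstract

variable {E : Type*} [CommGroup E]

/-- `ψ x = σ x / x ^ n`. -/
def psiHom (σ : E →* E) (n : ℕ) : E →* E := σ / powMonoidHom n

theorem psiHom_apply (σ : E →* E) (n : ℕ) (x : E) : psiHom σ n x = σ x / x ^ n := rfl

theorem map_eq_pow_mul_psiHom (σ : E →* E) (n : ℕ) (x : E) : σ x = x ^ n * psiHom σ n x := by
  rw [psiHom_apply, mul_div_cancel]

theorem map_mem_torsion (σ : E →* E) {x : E} (hx : x ∈ CommGroup.torsion E) :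
    σ x ∈ CommGroup.torsion E := by
  rw [CommGroup.mem_torsion] at hx ⊢
  exact σ.isOfFinOrder hx

theorem psiHom_mem_torsion (σ : E →* E) (n : ℕ) {x : E} (hx : x ∈ CommGroup.torsion E) :
    psiHom σ n x ∈ CommGroup.torsion E := by
  rw [psiHom_apply]
  exact (CommGroup.torsion E).div_mem (map_mem_torsion σ hx) ((CommGroup.torsion E).pow_mem hx n)

/-- `σ^k z = z^(n^k) · t_k` with `t_k` torsion, whenever `ψ z` is torsion. -/
theorem iterate_eq_pow_mul_torsion (σ : E →* E) (n : ℕ) {z : E}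
    (hz : psiHom σ n z ∈ CommGroup.torsion E) (k : ℕ) :
    ∃ t ∈ CommGroup.torsion E, (⇑σ)^[k] z = z ^ (n ^ k) * t := by
  induction k with
  | zero => exact ⟨1, one_mem _, by simp⟩
  | succ k ih =>
    obtain ⟨t, ht, h⟩ := ih
    refine ⟨psiHom σ n z ^ (n ^ k) * σ t,
      mul_mem (pow_mem hz _) (map_mem_torsion σ ht), ?_⟩
    rw [Function.iterate_succ_apply', h, map_mul, map_pow, map_eq_pow_mul_psiHom σ n z, mul_pow,
      ← pow_mul, pow_succ', mul_assoc]

/-- If `ψ z` is torsion then `z` is torsion. -/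
theorem mem_torsion_of_psiHom_mem (σ : E →* E) {N₀ n : ℕ} (hN₀ : 0 < N₀) (hn : 2 ≤ n)
    (hσ : ∀ x, (⇑σ)^[N₀] x = x) {z : E} (hz : psiHom σ n z ∈ CommGroup.torsion E) :
    z ∈ CommGroup.torsion E := by
  obtain ⟨t, ht, h⟩ := iterate_eq_pow_mul_torsion σ n hz N₀
  rw [hσ] at h
  have h1 : 1 < n ^ N₀ := Nat.one_lt_pow hN₀.ne' (by omega)
  have h2 : z ^ (n ^ N₀ - 1) = t⁻¹ := by
    have h3 : z ^ (n ^ N₀ - 1) * z = t⁻¹ * z := by
      rw [← pow_succ, Nat.sub_add_cancel h1.le]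
      conv_lhs => rw [← mul_one (z ^ (n ^ N₀)), ← mul_inv_cancel t, ← mul_assoc, ← h]
      exact mul_comm _ _
    exact mul_right_cancel h3
  rw [CommGroup.mem_torsion] at ht ⊢
  have h4 : IsOfFinOrder (z ^ (n ^ N₀ - 1)) := by rw [h2]; exact ht.inv
  exact h4.of_pow (by omega)

/-- The subgroup generated by the `σ`-orbit of `η` and the torsion. -/
def orbitSubgroup (σ : E →* E) (η : E) : Subgroup E :=
  Subgroup.closure (Set.range fun i : ℕ => (⇑σ)^[i] η) ⊔ CommGroup.torsion E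

theorem torsion_le_orbitSubgroup (σ : E →* E) (η : E) :
    CommGroup.torsion E ≤ orbitSubgroup σ η := by
  unfold orbitSubgroup
  exact le_sup_right

theorem map_psiHom_le_psiOrbit (σ : E →* E) (n : ℕ) (η : E) :
    (orbitSubgroup σ η).map (psiHom σ n) ≤
      (orbitSubgroup σ η).map (psiHom σ n) ⊔ CommGroup.torsion E := le_sup_left

theorem iterate_mem_orbitSubgroup (σ : E →* E) (η : E) (i : ℕ) :
    (⇑σ)^[i] η ∈ orbitSubgroup σ η := by
  unfold orbitSubgroup
  exact Subgroup.mem_sup_left (Subgroup.subset_closure ⟨i, rfl⟩)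

theorem self_mem_orbitSubgroup (σ : E →* E) (η : E) : η ∈ orbitSubgroup σ η :=
  iterate_mem_orbitSubgroup σ η 0

theorem map_mem_orbitSubgroup (σ : E →* E) (η : E) {x : E} (hx : x ∈ orbitSubgroup σ η) :
    σ x ∈ orbitSubgroup σ η := by
  have h1 : Subgroup.closure (Set.range fun i : ℕ => (⇑σ)^[i] η) ≤
      (orbitSubgroup σ η).comap σ := by
    rw [Subgroup.closure_le]
    rintro _ ⟨i, rfl⟩
    rw [SetLike.mem_coe, Subgroup.mem_comap]
    have h0 := iterate_mem_orbitSubgroup σ η (i + 1)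
    rw [Function.iterate_succ_apply'] at h0
    exact h0
  have h2 : CommGroup.torsion E ≤ (orbitSubgroup σ η).comap σ := fun t ht =>
    Subgroup.mem_comap.mpr (torsion_le_orbitSubgroup σ η (map_mem_torsion σ ht))
  have h : orbitSubgroup σ η ≤ (orbitSubgroup σ η).comap σ := sup_le h1 h2
  exact h hx

theorem psiHom_mem_orbitSubgroup (σ : E →* E) (n : ℕ) (η : E) {x : E}
    (hx : x ∈ orbitSubgroup σ η) : psiHom σ n x ∈ orbitSubgroup σ η := by
  rw [psiHom_apply]
  exact div_mem (map_mem_orbitSubgroup σ η hx) (pow_mem hx n)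

/-- `σ^i η = η^(n^i) · ψ y` with `y` in the orbit subgroup. -/
theorem iterate_eq_pow_mul_psiHom (σ : E →* E) (n : ℕ) (η : E) (i : ℕ) :
    ∃ y ∈ orbitSubgroup σ η, (⇑σ)^[i] η = η ^ (n ^ i) * psiHom σ n y := by
  induction i with
  | zero => exact ⟨1, one_mem _, by simp⟩
  | succ i ih =>
    obtain ⟨y, hy, h⟩ := ih
    refine ⟨(⇑σ)^[i] η * y ^ n, mul_mem (iterate_mem_orbitSubgroup σ η i) (pow_mem hy n), ?_⟩
    have hpow : ((⇑σ)^[i] η) ^ n = η ^ (n ^ (i + 1)) * psiHom σ n y ^ n := by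
      rw [h, mul_pow, ← pow_mul, ← pow_succ]
    rw [Function.iterate_succ_apply', map_eq_pow_mul_psiHom σ n ((⇑σ)^[i] η), hpow, map_mul,
      map_pow, mul_assoc, mul_comm (psiHom σ n y ^ n)]

/-- The subgroup `ψ(E₀) · T`. -/
def psiOrbit (σ : E →* E) (n : ℕ) (η : E) : Subgroup E :=
  (orbitSubgroup σ η).map (psiHom σ n) ⊔ CommGroup.torsion E

theorem psiOrbit_le_orbitSubgroup (σ : E →* E) (n : ℕ) (η : E) :
    psiOrbit σ n η ≤ orbitSubgroup σ η := by
  unfold psiOrbit
  rw [sup_le_iff]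
  refine ⟨?_, torsion_le_orbitSubgroup σ η⟩
  rintro _ ⟨x, hx, rfl⟩
  exact psiHom_mem_orbitSubgroup σ n η hx

theorem orbitSubgroup_eq_sup (σ : E →* E) (n : ℕ) (η : E) :
    orbitSubgroup σ η = Subgroup.zpowers η ⊔ psiOrbit σ n η := by
  apply le_antisymm
  · conv_lhs => unfold orbitSubgroup
    rw [sup_le_iff, Subgroup.closure_le]
    refine ⟨?_, le_trans le_sup_right le_sup_right⟩
    rintro _ ⟨i, rfl⟩
    obtain ⟨y, hy, h⟩ := iterate_eq_pow_mul_psiHom σ n η i
    change (⇑σ)^[i] η ∈ _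
    rw [h]
    refine mul_mem ?_ ?_
    · exact (le_sup_left : Subgroup.zpowers η ≤ _) (Subgroup.pow_mem _ (Subgroup.mem_zpowers η) _)
    · exact (le_sup_right : psiOrbit σ n η ≤ _) (map_psiHom_le_psiOrbit σ n η ⟨y, hy, rfl⟩)
  · rw [sup_le_iff, Subgroup.zpowers_le]
    exact ⟨self_mem_orbitSubgroup σ η, psiOrbit_le_orbitSubgroup σ n η⟩

theorem pow_mem_psiOrbit (σ : E →* E) {N₀ n : ℕ} (hN₀ : 0 < N₀) (hn : 2 ≤ n)
    (hσ : ∀ x, (⇑σ)^[N₀] x = x) (η : E) : η ^ (n ^ N₀ - 1) ∈ psiOrbit σ n η := by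
  obtain ⟨y, hy, h⟩ := iterate_eq_pow_mul_psiHom σ n η N₀
  rw [hσ] at h
  have h1 : 1 < n ^ N₀ := Nat.one_lt_pow hN₀.ne' (by omega)
  have h2 : η ^ (n ^ N₀ - 1) = (psiHom σ n y)⁻¹ := by
    have h3 : η ^ (n ^ N₀ - 1) * η = (psiHom σ n y)⁻¹ * η := by
      rw [← pow_succ, Nat.sub_add_cancel h1.le]
      conv_rhs => rw [h]
      rw [mul_comm (η ^ (n ^ N₀)), inv_mul_cancel_left]
    exact mul_right_cancel h3
  rw [h2]
  exact inv_mem (map_psiHom_le_psiOrbit σ n η ⟨y, hy, rfl⟩)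

/-- A subgroup containing `g ^ m` has relative index in `zpowers g` dividing `m`. -/
theorem relIndex_zpowers_dvd {G : Type*} [Group G] (H : Subgroup G) (g : G) {m : ℕ}
    (hg : g ^ m ∈ H) : H.relIndex (Subgroup.zpowers g) ∣ m := by
  classical
  have hn : (H.subgroupOf (Subgroup.zpowers g)).Normal := by
    constructor
    intro a ha b
    have : b * a * b⁻¹ = a := by
      obtain ⟨b, hb⟩ := b
      obtain ⟨a, ha'⟩ := a
      obtain ⟨i, rfl⟩ := Subgroup.mem_zpowers_iff.mp hb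
      obtain ⟨j, rfl⟩ := Subgroup.mem_zpowers_iff.mp ha'
      ext
      simp only [Subgroup.coe_mul, InvMemClass.coe_inv]
      rw [← zpow_add, ← zpow_neg, ← zpow_add]
      congr 1
      ring
    rw [this]; exact ha
  let q₀ : Subgroup.zpowers g ⧸ H.subgroupOf (Subgroup.zpowers g) :=
    QuotientGroup.mk ⟨g, Subgroup.mem_zpowers g⟩
  have hq : ∀ q : Subgroup.zpowers g ⧸ H.subgroupOf (Subgroup.zpowers g),
      q ∈ Subgroup.zpowers q₀ := by
    intro q
    induction q using QuotientGroup.induction_on with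
    | H c =>
      obtain ⟨c, hc⟩ := c
      obtain ⟨i, rfl⟩ := Subgroup.mem_zpowers_iff.mp hc
      refine Subgroup.mem_zpowers_iff.mpr ⟨i, ?_⟩
      rw [← QuotientGroup.mk_zpow]
      congr 1
  have hcard : Nat.card (Subgroup.zpowers g ⧸ H.subgroupOf (Subgroup.zpowers g)) = orderOf q₀ :=
    (orderOf_eq_card_of_forall_mem_zpowers hq).symm
  have hpow : q₀ ^ m = 1 := by
    rw [← QuotientGroup.mk_pow, QuotientGroup.eq_one_iff, Subgroup.mem_subgroupOf]
    exact hg
  rw [Subgroup.relIndex, Subgroup.index_eq_card, hcard]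
  exact orderOf_dvd_of_pow_eq_one hpow

/-- The preimage of `ψ(E₀)·T` under `ψ` is `E₀`. -/
theorem comap_psiOrbit (σ : E →* E) {N₀ n : ℕ} (hN₀ : 0 < N₀) (hn : 2 ≤ n)
    (hσ : ∀ x, (⇑σ)^[N₀] x = x) (η : E) :
    (psiOrbit σ n η).comap (psiHom σ n) = orbitSubgroup σ η := by
  apply le_antisymm
  · intro x hx
    rw [Subgroup.mem_comap] at hx
    unfold psiOrbit at hx
    obtain ⟨a, ha, t, ht, hat⟩ := Subgroup.mem_sup.mp hx
    obtain ⟨y, hy, rfl⟩ := ha
    have h1 : psiHom σ n (x * y⁻¹) = t := by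
      rw [map_mul, map_inv, ← hat, mul_comm, inv_mul_cancel_left]
    have h2 : x * y⁻¹ ∈ CommGroup.torsion E :=
      mem_torsion_of_psiHom_mem σ hN₀ hn hσ (h1 ▸ ht)
    have h3 : x = (x * y⁻¹) * y := by rw [inv_mul_cancel_right]
    rw [h3]
    exact mul_mem (torsion_le_orbitSubgroup σ η h2) hy
  · intro x hx
    rw [Subgroup.mem_comap]
    exact map_psiHom_le_psiOrbit σ n η ⟨x, hx, rfl⟩

/-- The index of `ψ(E)·T` divides `n ^ N₀ - 1`. -/
theorem index_range_sup_torsion_dvd (σ : E →* E) {N₀ n : ℕ} (hN₀ : 0 < N₀) (hn : 2 ≤ n)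
    (hσ : ∀ x, (⇑σ)^[N₀] x = x) (η : E) (hη : (orbitSubgroup σ η).index ≠ 0) :
    ((psiHom σ n).range ⊔ CommGroup.torsion E).index ∣ n ^ N₀ - 1 := by
  have hBA : psiOrbit σ n η ≤ (psiHom σ n).range ⊔ CommGroup.torsion E :=
    sup_le_sup_right (Subgroup.map_le_range _ _) _
  have hBE : psiOrbit σ n η ≤ orbitSubgroup σ η := psiOrbit_le_orbitSubgroup σ n η
  have hA : (psiHom σ n).range ⊔ CommGroup.torsion E = (psiHom σ n).range ⊔ psiOrbit σ n η := by
    apply le_antisymm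
    · exact sup_le_sup_left (le_sup_right : _ ≤ psiOrbit σ n η) _
    · exact sup_le le_sup_left hBA
  have h1 : (orbitSubgroup σ η).index =
      (psiOrbit σ n η).relIndex ((psiHom σ n).range ⊔ CommGroup.torsion E) := by
    rw [← comap_psiOrbit σ hN₀ hn hσ η, Subgroup.index_comap, hA, Subgroup.relIndex_sup_right]
  have h2 := Subgroup.relIndex_mul_index hBA
  have h3 := Subgroup.relIndex_mul_index hBE
  have h4 : ((psiHom σ n).range ⊔ CommGroup.torsion E).index =
      (psiOrbit σ n η).relIndex (orbitSubgroup σ η) := by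
    have h5 : (orbitSubgroup σ η).index * ((psiHom σ n).range ⊔ CommGroup.torsion E).index =
        (orbitSubgroup σ η).index * (psiOrbit σ n η).relIndex (orbitSubgroup σ η) := by
      rw [mul_comm _ ((psiOrbit σ n η).relIndex (orbitSubgroup σ η)), h3, ← h2, h1]
    exact Nat.eq_of_mul_eq_mul_left (Nat.pos_of_ne_zero hη) h5
  rw [h4, orbitSubgroup_eq_sup σ n η, Subgroup.relIndex_sup_right]
  exact relIndex_zpowers_dvd _ _ (pow_mem_psiOrbit σ hN₀ hn hσ η)

/-- The subgroup `E^p · T`. -/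
def powTorsion (E : Type*) [CommGroup E] (p : ℕ) : Subgroup E :=
  (powMonoidHom p : E →* E).range ⊔ CommGroup.torsion E

theorem pow_mem_powTorsion (p : ℕ) (x : E) : x ^ p ∈ powTorsion E p := by
  unfold powTorsion
  exact Subgroup.mem_sup_left ⟨x, rfl⟩

theorem torsion_le_powTorsion (p : ℕ) : CommGroup.torsion E ≤ powTorsion E p := by
  unfold powTorsion
  exact le_sup_right

theorem mem_powTorsion_iff (p : ℕ) (x : E) :
    x ∈ powTorsion E p ↔ ∃ y : E, ∃ t ∈ CommGroup.torsion E, x = y ^ p * t := by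
  unfold powTorsion
  rw [Subgroup.mem_sup]
  constructor
  · rintro ⟨a, ⟨y, rfl⟩, t, ht, rfl⟩
    exact ⟨y, t, ht, rfl⟩
  · rintro ⟨y, t, ht, rfl⟩
    exact ⟨y ^ p, ⟨y, rfl⟩, t, ht, rfl⟩

theorem psiHom_mem_powTorsion (σ : E →* E) (n p : ℕ) {x : E} (hx : x ∈ powTorsion E p) :
    psiHom σ n x ∈ powTorsion E p := by
  obtain ⟨y, t, ht, rfl⟩ := (mem_powTorsion_iff p x).mp hx
  rw [map_mul, map_pow]
  exact mul_mem (pow_mem_powTorsion p _) (torsion_le_powTorsion p (psiHom_mem_torsion σ n ht))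

theorem index_powTorsion_ne_zero [Group.FG E] {p : ℕ} (hp : 0 < p) :
    (powTorsion E p).index ≠ 0 := by
  have hfin : Finite (E ⧸ powTorsion E p) := by
    apply CommGroup.finite_of_fg_isMulTorsion
    intro q
    induction q using QuotientGroup.induction_on with
    | H x =>
      rw [isOfFinOrder_iff_pow_eq_one]
      refine ⟨p, hp, ?_⟩
      rw [← QuotientGroup.mk_pow, QuotientGroup.eq_one_iff]
      exact pow_mem_powTorsion p x
  exact Subgroup.index_ne_zero_of_finite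

/-- **Index lemma.**  The eigen-elements modulo `E^p·T` form a group of order dividing `p`. -/
theorem relIndex_comap_powTorsion_dvd (p : ℕ) [hp : Fact p.Prime] [Group.FG E] (σ : E →* E)
    {N₀ n : ℕ} (hN₀ : 0 < N₀) (hn : 2 ≤ n) (hσ : ∀ x, (⇑σ)^[N₀] x = x)
    (hp2 : ¬ p ^ 2 ∣ n ^ N₀ - 1) (η : E) (hη : (orbitSubgroup σ η).index ≠ 0) :
    (powTorsion E p).relIndex ((powTorsion E p).comap (psiHom σ n)) ∣ p := by
  have hm : n ^ N₀ - 1 ≠ 0 := by
    have h1 : 1 < n ^ N₀ := Nat.one_lt_pow hN₀.ne' (by omega)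
    omega
  have hPS : powTorsion E p ≤ (powTorsion E p).comap (psiHom σ n) := fun x hx =>
    Subgroup.mem_comap.mpr (psiHom_mem_powTorsion σ n p hx)
  have hPH : powTorsion E p ≤ (psiHom σ n).range ⊔ powTorsion E p := le_sup_right
  have hAH : (psiHom σ n).range ⊔ CommGroup.torsion E ≤ (psiHom σ n).range ⊔ powTorsion E p :=
    sup_le_sup_left (torsion_le_powTorsion p) _
  have hP0 : (powTorsion E p).index ≠ 0 := index_powTorsion_ne_zero hp.out.pos
  have hS : ((powTorsion E p).comap (psiHom σ n)).index =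
      (powTorsion E p).relIndex ((psiHom σ n).range ⊔ powTorsion E p) := by
    rw [Subgroup.index_comap, Subgroup.relIndex_sup_right]
  have h2 := Subgroup.relIndex_mul_index hPS
  have h3 := Subgroup.relIndex_mul_index hPH
  have hrel0 : (powTorsion E p).relIndex ((psiHom σ n).range ⊔ powTorsion E p) ≠ 0 := by
    intro h0
    rw [h0, zero_mul] at h3
    exact hP0 h3.symm
  have key : (powTorsion E p).relIndex ((powTorsion E p).comap (psiHom σ n)) =
      ((psiHom σ n).range ⊔ powTorsion E p).index := by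
    have h5 : (powTorsion E p).relIndex ((psiHom σ n).range ⊔ powTorsion E p) *
        (powTorsion E p).relIndex ((powTorsion E p).comap (psiHom σ n)) =
        (powTorsion E p).relIndex ((psiHom σ n).range ⊔ powTorsion E p) *
        ((psiHom σ n).range ⊔ powTorsion E p).index := by
      rw [h3, ← h2, hS, mul_comm]
    exact Nat.eq_of_mul_eq_mul_left (Nat.pos_of_ne_zero hrel0) h5
  rw [key]
  have hHdvd : ((psiHom σ n).range ⊔ powTorsion E p).index ∣ n ^ N₀ - 1 :=
    (Subgroup.index_dvd_of_le hAH).trans (index_range_sup_torsion_dvd σ hN₀ hn hσ η hη)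
  have hH0 : ((psiHom σ n).range ⊔ powTorsion E p).index ≠ 0 := fun h0 => by
    rw [h0, zero_dvd_iff] at hHdvd
    exact hm hHdvd
  have hfin : Finite (E ⧸ ((psiHom σ n).range ⊔ powTorsion E p)) :=
    Nat.finite_of_card_ne_zero (by rw [← Subgroup.index_eq_card]; exact hH0)
  have hpg : IsPGroup p (E ⧸ ((psiHom σ n).range ⊔ powTorsion E p)) := by
    intro q
    induction q using QuotientGroup.induction_on with
    | H x =>
      refine ⟨1, ?_⟩
      rw [pow_one, ← QuotientGroup.mk_pow, QuotientGroup.eq_one_iff]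
      exact hPH (pow_mem_powTorsion p x)
  obtain ⟨d, hd⟩ := IsPGroup.iff_card.mp hpg
  rw [Subgroup.index_eq_card, hd] at hHdvd ⊢
  have hd1 : d ≤ 1 := by
    by_contra hcon
    exact hp2 ((pow_dvd_pow p (by omega : 2 ≤ d)).trans hHdvd)
  interval_cases d
  · simp
  · simp

/-- **Index lemma, element form.** -/
theorem exists_mul_inv_pow_mem (p : ℕ) [hp : Fact p.Prime] [Group.FG E] (σ : E →* E)
    {N₀ n : ℕ} (hN₀ : 0 < N₀) (hn : 2 ≤ n) (hσ : ∀ x, (⇑σ)^[N₀] x = x)
    (hp2 : ¬ p ^ 2 ∣ n ^ N₀ - 1) (η : E) (hη : (orbitSubgroup σ η).index ≠ 0)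
    {u e : E} (hu : psiHom σ n u ∈ powTorsion E p) (he : psiHom σ n e ∈ powTorsion E p)
    (hne : e ∉ powTorsion E p) :
    ∃ j : ℕ, u * (e ^ j)⁻¹ ∈ powTorsion E p := by
  have hdvd := relIndex_comap_powTorsion_dvd p σ hN₀ hn hσ hp2 η hη
  set S := (powTorsion E p).comap (psiHom σ n) with hSdef
  let eS : S := ⟨e, Subgroup.mem_comap.mpr he⟩
  let uS : S := ⟨u, Subgroup.mem_comap.mpr hu⟩
  have he1 : (QuotientGroup.mk eS : S ⧸ (powTorsion E p).subgroupOf S) ≠ 1 := by
    rw [Ne, QuotientGroup.eq_one_iff, Subgroup.mem_subgroupOf]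
    exact hne
  have hcard : Nat.card (S ⧸ (powTorsion E p).subgroupOf S) = p := by
    have h1 : Nat.card (S ⧸ (powTorsion E p).subgroupOf S) ∣ p := by
      rw [← Subgroup.index_eq_card]; exact hdvd
    rcases (Nat.dvd_prime hp.out).mp h1 with h | h
    · exfalso
      have hsub : Subsingleton (S ⧸ (powTorsion E p).subgroupOf S) :=
        (Nat.card_eq_one_iff_unique.mp h).1
      exact he1 (Subsingleton.elim _ _)
    · exact h
  have hfin : Finite (S ⧸ (powTorsion E p).subgroupOf S) :=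
    Nat.finite_of_card_ne_zero (by rw [hcard]; exact hp.out.ne_zero)
  have htop := zpowers_eq_top_of_prime_card hcard he1
  have hmem : (QuotientGroup.mk uS : S ⧸ (powTorsion E p).subgroupOf S) ∈
      Subgroup.zpowers (QuotientGroup.mk eS : S ⧸ (powTorsion E p).subgroupOf S) := by
    rw [htop]; exact Subgroup.mem_top _
  rw [← mem_powers_iff_mem_zpowers] at hmem
  obtain ⟨j, hj⟩ := hmem
  refine ⟨j, ?_⟩
  have h1 : (QuotientGroup.mk (uS * (eS ^ j)⁻¹) : S ⧸ (powTorsion E p).subgroupOf S) = 1 := by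
    have hj' : (QuotientGroup.mk eS : S ⧸ (powTorsion E p).subgroupOf S) ^ j =
        QuotientGroup.mk uS := hj
    rw [QuotientGroup.mk_mul, QuotientGroup.mk_inv, QuotientGroup.mk_pow, hj', mul_inv_cancel]
  rw [QuotientGroup.eq_one_iff, Subgroup.mem_subgroupOf] at h1
  exact h1

end abstract

end Fermat.Agent.S14.helper6896
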