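import Mathlib

/-!
# S14, Thaine route, package U: a Minkowski unit up to finite index

For a number field `K` which is Galois over `ℚ` there is a unit `η` whose Galois conjugates,
together with the roots of unity, generate a subgroup of finite index in the unit group.

The proof copies the sign-pattern argument of Mathlib's `unitLattice_span_eq_top`, using the
conjugates of a single unit (the Galois group is transitive on the infinite places).
-/

set_option autoImplicit false

namespace Fermat.Agent.S14.helper6896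

open NumberField NumberField.Units NumberField.Units.dirichletUnitTheorem Module

variable (K : Type*) [Field K] [NumberField K]

set_option backward.isDefEq.respectTransparency.types false in
/-- A family of units with the Minkowski sign pattern has `ℝ`-spanning logarithmic embeddings.
(Same proof as Mathlib's `unitLattice_span_eq_top`.) -/
theorem span_logEmbedding_eq_top (u : {w : InfinitePlace K // w ≠ w₀} → (𝓞 K)ˣ)
    (hu : ∀ (w₁ : {w : InfinitePlace K // w ≠ w₀}) (w : InfinitePlace K), w ≠ w₁.1 →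
      Real.log (w (u w₁ : K)) < 0) :
    Submodule.span ℝ (Set.range fun w₁ => logEmbedding K (Additive.ofMul (u w₁))) = ⊤ := by
  classical
  let B := Pi.basisFun ℝ {w : InfinitePlace K // w ≠ w₀}
  let v := fun w : {w : InfinitePlace K // w ≠ w₀} => logEmbedding K (Additive.ofMul (u w))
  suffices B.det v ≠ 0 by
    rw [← isUnit_iff_ne_zero, ← Basis.is_basis_iff_det] at this
    exact this.2
  rw [Basis.det_apply]
  refine det_ne_zero_of_sum_col_lt_diag (fun w ↦ ?_)
  simp_rw [Real.norm_eq_abs, B, Basis.coePiBasisFun.toMatrix_eq_transpose, Matrix.transpose_apply]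
  rw [← sub_pos, Finset.sum_congr rfl (fun x hx ↦ abs_of_neg ?_), Finset.sum_neg_distrib,
    sub_neg_eq_add, Finset.sum_erase_eq_sub (Finset.mem_univ _), ← add_comm_sub]
  · refine add_pos_of_nonneg_of_pos ?_ ?_
    · rw [sub_nonneg]
      exact le_abs_self _
    · rw [sum_logEmbedding_component (u w)]
      refine mul_pos_of_neg_of_neg ?_ (hu w _ w.prop.symm)
      rw [InfinitePlace.mult]; split_ifs <;> norm_num
  · refine mul_neg_of_pos_of_neg ?_ (hu w x ?_)
    · rw [InfinitePlace.mult]; split_ifs <;> norm_num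
    · exact Subtype.ext_iff.not.mp (Finset.ne_of_mem_erase hx)

/-- The action of a field automorphism on the unit group of the ring of integers. -/
noncomputable def galUnits (τ : K ≃ₐ[ℚ] K) : (𝓞 K)ˣ →* (𝓞 K)ˣ :=
  Units.map ((RingOfIntegers.mapRingEquiv (τ : K ≃+* K) : 𝓞 K ≃+* 𝓞 K) : 𝓞 K →* 𝓞 K)

theorem coe_galUnits (τ : K ≃ₐ[ℚ] K) (x : (𝓞 K)ˣ) :
    (((galUnits K τ x : (𝓞 K)ˣ) : 𝓞 K) : K) = τ ((x : 𝓞 K) : K) := rfl

theorem place_galUnits (τ : K ≃ₐ[ℚ] K) (x : (𝓞 K)ˣ) (w : InfinitePlace K) :
    w (((galUnits K τ x : (𝓞 K)ˣ) : 𝓞 K) : K) = (τ⁻¹ • w) ((x : 𝓞 K) : K) := by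
  rw [coe_galUnits, InfinitePlace.smul_eq_comap, InfinitePlace.comap_apply]
  rfl

/-- **Minkowski unit up to finite index.**  If `K/ℚ` is Galois, there is a unit whose Galois
conjugates generate, together with the roots of unity, a subgroup of finite index. -/
theorem exists_minkowski_unit [IsGalois ℚ K] :
    ∃ η : (𝓞 K)ˣ,
      (Subgroup.closure (Set.range fun τ : K ≃ₐ[ℚ] K => galUnits K τ η) ⊔ torsion K).index ≠ 0 := by
  classical
  obtain ⟨η, hη⟩ := exists_unit K (w₀ : InfinitePlace K)
  refine ⟨η, ?_⟩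
  have hτ : ∀ w₁ : {w : InfinitePlace K // w ≠ w₀}, ∃ τ : K ≃ₐ[ℚ] K,
      τ • (w₀ : InfinitePlace K) = w₁.1 := fun w₁ =>
    InfinitePlace.exists_smul_eq_of_comap_eq (Subsingleton.elim _ _)
  choose τ hτ using hτ
  let u : {w : InfinitePlace K // w ≠ w₀} → (𝓞 K)ˣ := fun w₁ => galUnits K (τ w₁) η
  have hu : ∀ (w₁ : {w : InfinitePlace K // w ≠ w₀}) (w : InfinitePlace K), w ≠ w₁.1 →
      Real.log (w (u w₁ : K)) < 0 := by
    intro w₁ w hw
    have h1 : w (u w₁ : K) = ((τ w₁)⁻¹ • w) ((η : 𝓞 K) : K) := place_galUnits K (τ w₁) η w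
    rw [h1]
    apply hη
    intro h
    apply hw
    rw [← hτ w₁, ← h, smul_inv_smul]
  have hspan := span_logEmbedding_eq_top K u hu
  set Λ₀ : Submodule ℤ (logSpace K) :=
    Submodule.span ℤ (Set.range fun w₁ => logEmbedding K (Additive.ofMul (u w₁))) with hΛ₀
  have hle : Λ₀ ≤ unitLattice K := by
    rw [hΛ₀, Submodule.span_le]
    rintro _ ⟨w₁, rfl⟩
    exact ⟨Additive.ofMul (u w₁), trivial, rfl⟩
  have hd : DiscreteTopology (unitLattice K) := inferInstance
  have hdisc : DiscreteTopology Λ₀ :=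
    DiscreteTopology.of_subset (s := (unitLattice K : Set (logSpace K))) hd hle
  have h1 : finrank ℤ Λ₀ = finrank ℝ (logSpace K) := by
    have h := Real.finrank_eq_int_finrank_of_discrete
      (s := Set.range fun w₁ => logEmbedding K (Additive.ofMul (u w₁))) hdisc
    unfold Set.finrank at h
    rw [hspan, finrank_top] at h
    exact h.symm
  have h2 : finrank ℤ (unitLattice K) = finrank ℝ (logSpace K) := ZLattice.rank ℝ (unitLattice K)
  have : Module.Free ℤ (unitLattice K) := ZLattice.module_free ℝ _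
  have : Module.Finite ℤ (unitLattice K) := ZLattice.module_finite ℝ _
  have hfin : Finite ((unitLattice K) ⧸ Submodule.comap (unitLattice K).subtype Λ₀) :=
    Submodule.finiteQuotientOfFreeOfRankEq _
      (by rw [(Submodule.comapSubtypeEquivOfLe hle).finrank_eq, h1, h2])
  -- every element of `Λ₀` is the image of an element of the closure of the `u w₁`
  have hΛ : ∀ z ∈ Λ₀, ∃ y ∈ Subgroup.closure (Set.range u),
      logEmbedding K (Additive.ofMul y) = z := by
    intro z hz
    rw [hΛ₀] at hz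
    induction hz using Submodule.span_induction with
    | mem z hz =>
      obtain ⟨w₁, rfl⟩ := hz
      exact ⟨u w₁, Subgroup.subset_closure ⟨w₁, rfl⟩, rfl⟩
    | zero => exact ⟨1, one_mem _, by rw [ofMul_one, map_zero]⟩
    | add a b _ _ ha hb =>
      obtain ⟨ya, hya, rfl⟩ := ha
      obtain ⟨yb, hyb, rfl⟩ := hb
      exact ⟨ya * yb, mul_mem hya hyb, by rw [ofMul_mul, map_add]⟩
    | smul c a _ ha =>
      obtain ⟨ya, hya, rfl⟩ := ha
      exact ⟨ya ^ c, zpow_mem hya c, by rw [ofMul_zpow, map_zsmul]⟩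
  have hcl : Subgroup.closure (Set.range u) ≤
      Subgroup.closure (Set.range fun τ : K ≃ₐ[ℚ] K => galUnits K τ η) := by
    apply Subgroup.closure_mono
    rintro _ ⟨w₁, rfl⟩
    exact ⟨τ w₁, rfl⟩
  set E₁ : Subgroup (𝓞 K)ˣ :=
    Subgroup.closure (Set.range fun τ : K ≃ₐ[ℚ] K => galUnits K τ η) ⊔ torsion K with hE₁
  set k : ℕ := Nat.card ((unitLattice K) ⧸ Submodule.comap (unitLattice K).subtype Λ₀) with hk
  have hkpos : 0 < k := Nat.card_pos
  have hpow : ∀ x : (𝓞 K)ˣ, x ^ k ∈ E₁ := by
    intro x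
    have h3 := AddSubgroup.nsmul_index_mem
      (Submodule.comap (unitLattice K).subtype Λ₀).toAddSubgroup
      (⟨logEmbedding K (Additive.ofMul x), ⟨Additive.ofMul x, trivial, rfl⟩⟩ : unitLattice K)
    have h4 : (Submodule.comap (unitLattice K).subtype Λ₀).toAddSubgroup.index = k := by
      rw [hk, AddSubgroup.index_eq_card]
      rfl
    rw [h4] at h3
    have h5 : k • logEmbedding K (Additive.ofMul x) ∈ Λ₀ := h3
    obtain ⟨y, hy, hyz⟩ := hΛ _ h5
    have h6 : logEmbedding K (Additive.ofMul (x ^ k * y⁻¹)) = 0 := by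
      rw [ofMul_mul, map_add, ofMul_pow, map_nsmul, ofMul_inv, map_neg, hyz, add_neg_cancel]
    rw [logEmbedding_eq_zero_iff] at h6
    have h7 : x ^ k = y * (x ^ k * y⁻¹) := by rw [mul_comm y, inv_mul_cancel_right]
    rw [h7, hE₁]
    exact mul_mem (Subgroup.mem_sup_left (hcl hy)) (Subgroup.mem_sup_right h6)
  have : Group.FG (𝓞 K)ˣ := Group.fg_iff_monoid_fg.mpr inferInstance
  have hfinq : Finite ((𝓞 K)ˣ ⧸ E₁) := by
    apply CommGroup.finite_of_fg_isMulTorsion
    intro q
    induction q using QuotientGroup.induction_on with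
    | H x =>
      rw [isOfFinOrder_iff_pow_eq_one]
      refine ⟨k, hkpos, ?_⟩
      rw [← QuotientGroup.mk_pow, QuotientGroup.eq_one_iff]
      exact hpow x
  exact Subgroup.index_ne_zero_of_finite

end Fermat.Agent.S14.helper6896
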