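import Mathlib
import Fermat.Agent.S14.helper1934_ThaineSpec
import Fermat.Agent.S14.helper6896_IndexLemma
import Fermat.Agent.S14.helper6896_MinkowskiUnit

/-!
# S14, Thaine route, package U: `Stmt_Units` by the index method

`Stmt_Units p` of `helper1934_ThaineSpec`: in `K = ℚ(ζ_p)`, two `ω²`-eigen units `u`, `e` with
`e ∉ ⟨ζ⟩ · E^p` satisfy `u = ζ^k e^j v^p`.

Proof (no traces, no representation theory): let `g` be a primitive root mod `p` with
`p² ∤ (g²)^(p-1) - 1`, `σ : ζ ↦ ζ^g`, `ψ x = σ x / x^(g²)`.  By the Minkowski unit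
(`exists_minkowski_unit`) and the abstract index lemma (`exists_mul_inv_pow_mem`), the group
`{x | ψ x ∈ E^p T} / E^p T` has order dividing `p`.
-/

set_option autoImplicit false

namespace Fermat.Agent.S14.helper6896

open NumberField NumberField.Units

/-- A primitive root `g` modulo `p` with `p² ∤ (g²)^(p-1) - 1`. -/
theorem exists_good_primitive_root (p : ℕ) [hp : Fact p.Prime] (h3 : 3 ≤ p) :
    ∃ g : ℕ, 2 ≤ g ∧ g.Coprime p ∧
      (∀ x : (ZMod p)ˣ, ∃ i : ℕ, (x : ZMod p) = (g : ZMod p) ^ i) ∧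
      ¬ p ^ 2 ∣ (g ^ 2) ^ (p - 1) - 1 := by
  have hp2 : p ≠ 2 := by omega
  have hpp : 0 < p ^ 2 := pow_pos hp.out.pos 2
  have : NeZero (p ^ 2) := ⟨hpp.ne'⟩
  have := ZMod.isCyclic_units_of_prime_pow p hp.out hp2 2
  obtain ⟨γ, hγ⟩ := IsCyclic.exists_generator (α := (ZMod (p ^ 2))ˣ)
  have hord : orderOf γ = p * (p - 1) := by
    rw [orderOf_eq_card_of_forall_mem_zpowers hγ, Nat.card_eq_fintype_card,
      ZMod.card_units_eq_totient, Nat.totient_prime_pow hp.out (by norm_num : 0 < 2)]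
    simp
  set g : ℕ := (γ : ZMod (p ^ 2)).val + p ^ 2 with hg
  have hgc : (g : ZMod (p ^ 2)) = γ := by
    rw [hg, Nat.cast_add, ZMod.natCast_self, add_zero, ZMod.natCast_val, ZMod.cast_id', id]
  have hcop2 : g.Coprime (p ^ 2) := by
    rw [← ZMod.isUnit_iff_coprime, hgc]
    exact γ.isUnit
  have hcop : g.Coprime p := Nat.Coprime.coprime_dvd_right (dvd_pow_self p two_ne_zero) hcop2
  refine ⟨g, ?_, hcop, ?_, ?_⟩
  · have : 4 ≤ p ^ 2 := by nlinarith
    omega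
  · intro x
    obtain ⟨y, hy⟩ := ZMod.unitsMap_surjective (dvd_pow_self p two_ne_zero : p ∣ p ^ 2) x
    have hy' : y ∈ Submonoid.powers γ := by
      rw [mem_powers_iff_mem_zpowers]; exact hγ y
    obtain ⟨i, hi⟩ := hy'
    refine ⟨i, ?_⟩
    have h1 : (x : ZMod p) =
        ZMod.castHom (dvd_pow_self p two_ne_zero : p ∣ p ^ 2) (ZMod p) (y : ZMod (p ^ 2)) := by
      rw [← hy]; rfl
    rw [h1, ← hi]
    simp only [Units.val_pow_eq_pow_val, map_pow]
    congr 1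
    rw [← hgc, map_natCast]
  · intro hdvd
    have h1 : 1 ≤ (g ^ 2) ^ (p - 1) := Nat.one_le_pow _ _ (by positivity)
    have h2 : (((g ^ 2) ^ (p - 1) : ℕ) : ZMod (p ^ 2)) = 1 := by
      have h3 : (((g ^ 2) ^ (p - 1) - 1 : ℕ) : ZMod (p ^ 2)) = 0 :=
        (ZMod.natCast_eq_zero_iff _ _).mpr hdvd
      rw [Nat.cast_sub h1, Nat.cast_one, sub_eq_zero] at h3
      exact h3
    have h4 : γ ^ (2 * (p - 1)) = 1 := by
      apply Units.ext
      rw [Units.val_pow_eq_pow_val, Units.val_one, ← hgc, pow_mul]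
      exact_mod_cast h2
    have h5 := orderOf_dvd_of_pow_eq_one h4
    rw [hord] at h5
    have hp1 : 0 < p - 1 := by omega
    have h6 : p ∣ 2 := Nat.dvd_of_mul_dvd_mul_right hp1 h5
    have := Nat.le_of_dvd (by norm_num) h6
    omega

section galUnits

variable (K : Type*) [Field K] [NumberField K]

theorem galUnits_one (x : (𝓞 K)ˣ) : galUnits K 1 x = x := by
  apply Units.ext
  apply RingOfIntegers.ext
  rfl

theorem galUnits_mul (τ₁ τ₂ : K ≃ₐ[ℚ] K) (x : (𝓞 K)ˣ) :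
    galUnits K (τ₁ * τ₂) x = galUnits K τ₁ (galUnits K τ₂ x) := by
  apply Units.ext
  apply RingOfIntegers.ext
  rfl

theorem iterate_galUnits (τ : K ≃ₐ[ℚ] K) (i : ℕ) (x : (𝓞 K)ˣ) :
    (⇑(galUnits K τ))^[i] x = galUnits K (τ ^ i) x := by
  induction i with
  | zero => rw [Function.iterate_zero, id, pow_zero, galUnits_one]
  | succ i ih => rw [Function.iterate_succ_apply', ih, pow_succ', galUnits_mul]

end galUnits

section cyclo

variable {p : ℕ} [hp : Fact p.Prime] {K : Type} [Field K] [NumberField K]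
  [IsCyclotomicExtension {p} ℚ K]

/-- The automorphism `ζ ↦ ζ^g` for a primitive root `g`; it generates the Galois group. -/
theorem exists_aut_pow {ζ : K} (hζ : IsPrimitiveRoot ζ p) {g : ℕ} (hg : g.Coprime p)
    (hprim : ∀ x : (ZMod p)ˣ, ∃ i : ℕ, (x : ZMod p) = (g : ZMod p) ^ i) :
    ∃ σ : K ≃ₐ[ℚ] K, σ ζ = ζ ^ g ∧ σ ^ (p - 1) = 1 ∧ ∀ τ : K ≃ₐ[ℚ] K, ∃ i : ℕ, τ = σ ^ i := by
  have : NeZero p := ⟨hp.out.ne_zero⟩
  have hirr : Irreducible (Polynomial.cyclotomic p ℚ) :=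
    Polynomial.cyclotomic.irreducible_rat hp.out.pos
  let e := IsCyclotomicExtension.autEquivPow K hirr
  let t : (ZMod p)ˣ := ZMod.unitOfCoprime g hg
  have key : ∀ τ : K ≃ₐ[ℚ] K, τ ζ = ζ ^ ((e τ : (ZMod p)ˣ) : ZMod p).val := by
    intro τ
    obtain ⟨j, -, hj⟩ :=
      (IsCyclotomicExtension.zeta_spec p ℚ K).eq_pow_of_pow_eq_one hζ.pow_eq_one
    have h1 := (IsCyclotomicExtension.zeta_spec p ℚ K).autToPow_spec ℚ τ
    have h2 : ((e τ : (ZMod p)ˣ) : ZMod p).val =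
        (((IsCyclotomicExtension.zeta_spec p ℚ K).autToPow ℚ τ : (ZMod p)ˣ) : ZMod p).val := rfl
    rw [h2, ← hj, map_pow, ← h1, ← pow_mul, ← pow_mul, mul_comm]
  refine ⟨e.symm t, ?_, ?_, ?_⟩
  · rw [key, MulEquiv.apply_symm_apply]
    have h1 : ((t : (ZMod p)ˣ) : ZMod p).val = g % p := by
      rw [ZMod.coe_unitOfCoprime, ZMod.val_natCast]
    rw [h1, ← pow_eq_pow_mod g hζ.pow_eq_one]
  · apply e.injective
    rw [map_pow, MulEquiv.apply_symm_apply, map_one]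
    exact ZMod.units_pow_card_sub_one_eq_one p t
  · intro τ
    obtain ⟨i, hi⟩ := hprim (e τ)
    refine ⟨i, ?_⟩
    apply e.injective
    rw [map_pow, MulEquiv.apply_symm_apply]
    apply Units.ext
    rw [hi, Units.val_pow_eq_pow_val, ZMod.coe_unitOfCoprime]

/-- Roots of unity in `ℚ(ζ_p)` are `ζ^r s^p` with `s = ±1`. -/
theorem torsion_eq_zeta_pow_mul_pow {ζ : 𝓞 K} (hζ : IsPrimitiveRoot ζ p) (hodd : Odd p)
    {t : (𝓞 K)ˣ} (ht : t ∈ CommGroup.torsion (𝓞 K)ˣ) :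
    ∃ (r : ℕ) (s : (𝓞 K)ˣ), (t : 𝓞 K) = ζ ^ r * (s : 𝓞 K) ^ p := by
  have : NeZero p := ⟨hp.out.ne_zero⟩
  have hζK : IsPrimitiveRoot ((ζ : 𝓞 K) : K) p :=
    hζ.map_of_injective RingOfIntegers.coe_injective
  rw [CommGroup.mem_torsion] at ht
  have htK : IsOfFinOrder (((t : (𝓞 K)ˣ) : 𝓞 K) : K) := by
    have h1 : IsOfFinOrder ((t : (𝓞 K)ˣ) : 𝓞 K) := (Units.coeHom (𝓞 K)).isOfFinOrder ht
    exact ((algebraMap (𝓞 K) K) : 𝓞 K →* K).isOfFinOrder h1
  obtain ⟨r, -, hr | hr⟩ := hζK.exists_pow_or_neg_mul_pow_of_isOfFinOrder hodd htK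
  · refine ⟨r, 1, ?_⟩
    apply RingOfIntegers.ext
    rw [hr]
    simp
  · refine ⟨r, -1, ?_⟩
    apply RingOfIntegers.ext
    rw [hr]
    simp [hodd.neg_one_pow]

end cyclo

/-- **Package U.**  `Stmt_Units p` holds (for every prime `p`; the statement assumes `5 ≤ p`). -/
theorem stmt_Units (p : ℕ) [Fact p.Prime] : helper1934.Stmt_Units p := by
  intro K _ _ _ ζ hζ h5 u e hu he hne
  have hp : p.Prime := Fact.out
  have hodd : Odd p := hp.odd_of_ne_two (by omega)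
  obtain ⟨g, hg2, hgcop, hgprim, hgp2⟩ := exists_good_primitive_root p (by omega)
  have hζK : IsPrimitiveRoot ((ζ : 𝓞 K) : K) p :=
    hζ.map_of_injective RingOfIntegers.coe_injective
  obtain ⟨σ, hσζ, hσord, hσgen⟩ := exists_aut_pow hζK hgcop hgprim
  -- the ring automorphism of `𝓞 K`
  have hgO : (RingOfIntegers.mapRingEquiv (σ : K ≃+* K)) ζ = ζ ^ g := by
    apply RingOfIntegers.ext
    have h1 : ((ζ ^ g : 𝓞 K) : K) = ((ζ : 𝓞 K) : K) ^ g := map_pow (algebraMap (𝓞 K) K) ζ g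
    exact hσζ.trans h1.symm
  obtain ⟨wu, hwu⟩ := hu (RingOfIntegers.mapRingEquiv (σ : K ≃+* K)) g hgO
  obtain ⟨we, hwe⟩ := he (RingOfIntegers.mapRingEquiv (σ : K ≃+* K)) g hgO
  have : Group.FG (𝓞 K)ˣ := Group.fg_iff_monoid_fg.mpr inferInstance
  have hN₀ : 0 < p - 1 := by omega
  have hn : 2 ≤ g ^ 2 := by nlinarith
  have hσE : ∀ x, (⇑(galUnits K σ))^[p - 1] x = x := by
    intro x
    rw [iterate_galUnits, hσord, galUnits_one]
  have : NeZero p := ⟨hp.ne_zero⟩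
  have : IsGalois ℚ K := IsCyclotomicExtension.isGalois {p} ℚ K
  obtain ⟨η, hη⟩ := exists_minkowski_unit K
  have hη' : (orbitSubgroup (galUnits K σ) η).index ≠ 0 := by
    have hle : Subgroup.closure (Set.range fun τ : K ≃ₐ[ℚ] K => galUnits K τ η) ⊔ torsion K ≤
        orbitSubgroup (galUnits K σ) η := by
      unfold orbitSubgroup
      apply sup_le_sup_right
      apply Subgroup.closure_mono
      rintro _ ⟨τ, rfl⟩
      obtain ⟨i, rfl⟩ := hσgen τ
      exact ⟨i, iterate_galUnits K σ i η⟩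
    intro h0
    have := Subgroup.index_dvd_of_le hle
    rw [h0, zero_dvd_iff] at this
    exact hη this
  have hpsi : ∀ (x w : (𝓞 K)ˣ),
      (RingOfIntegers.mapRingEquiv (σ : K ≃+* K)) (x : 𝓞 K) = (x : 𝓞 K) ^ (g ^ 2) * (w : 𝓞 K) ^ p →
      psiHom (galUnits K σ) (g ^ 2) x ∈ powTorsion (𝓞 K)ˣ p := by
    intro x w hxw
    have h1 : psiHom (galUnits K σ) (g ^ 2) x = w ^ p := by
      rw [psiHom_apply, div_eq_iff_eq_mul]
      apply Units.ext
      rw [Units.val_mul, Units.val_pow_eq_pow_val, Units.val_pow_eq_pow_val, mul_comm]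
      exact hxw
    rw [h1]
    exact pow_mem_powTorsion p w
  have hne' : e ∉ powTorsion (𝓞 K)ˣ p := by
    intro hmem
    obtain ⟨y, t, ht, hyt⟩ := (mem_powTorsion_iff p e).mp hmem
    obtain ⟨r, s, hrs⟩ := torsion_eq_zeta_pow_mul_pow hζ hodd ht
    apply hne r (y * s)
    rw [hyt, Units.val_mul, Units.val_pow_eq_pow_val, hrs, Units.val_mul, mul_pow]
    ring
  obtain ⟨j, hj⟩ := exists_mul_inv_pow_mem p (galUnits K σ) hN₀ hn hσE hgp2 η hη'
    (hpsi u wu hwu) (hpsi e we hwe) hne'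
  obtain ⟨y, t, ht, hyt⟩ := (mem_powTorsion_iff p _).mp hj
  obtain ⟨r, s, hrs⟩ := torsion_eq_zeta_pow_mul_pow hζ hodd ht
  refine ⟨r, j, y * s, ?_⟩
  have hu' : u = y ^ p * t * e ^ j := by
    rw [← hyt, inv_mul_cancel_right]
  rw [hu', Units.val_mul, Units.val_mul, Units.val_pow_eq_pow_val, Units.val_pow_eq_pow_val, hrs,
    Units.val_mul, mul_pow]
  ring

end Fermat.Agent.S14.helper6896
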