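import Mathlib

/-!
# S14 / M5: abstract counting core of the "index ≥ p" inequality (ambiguous class count)

Pure (additive) group theory.  No number fields here.

* `relIndex_le_of_rel` : a reusable "index bound through an additive relation" lemma.
-/

set_option autoImplicit false

namespace Fermat.Agent.S14.helper68

open AddSubgroup

/-- **Index bound through an additive relation.**  If every `a ∈ A` is related to some `b ∈ B`,
the relation is compatible with differences, and `a ∈ A` related to an element of `B'` lies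
in `A'`, then `[A : A ∩ A'] ≤ [B : B ∩ B']` (and the former is finite if the latter is). -/
theorem relIndex_le_of_rel {G H : Type*} [AddCommGroup G] [AddCommGroup H]
    (A' A : AddSubgroup G) (B' B : AddSubgroup H) (Rel : G → H → Prop)
    (hex : ∀ a ∈ A, ∃ b ∈ B, Rel a b)
    (hsub : ∀ a a' b b', Rel a b → Rel a' b' → Rel (a - a') (b - b'))
    (hker : ∀ a b, a ∈ A → Rel a b → b ∈ B' → a ∈ A')
    (hfin : B'.relIndex B ≠ 0) :
    A'.relIndex A ≠ 0 ∧ A'.relIndex A ≤ B'.relIndex B := by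
  classical
  choose f hfB hfR using hex
  let g : (A ⧸ A'.addSubgroupOf A) → (B ⧸ B'.addSubgroupOf B) := fun q =>
    QuotientAddGroup.mk (⟨f q.out.1 q.out.2, hfB _ _⟩ : B)
  have hg : Function.Injective g := by
    intro q q' h
    have h1 : (⟨f q.out.1 q.out.2, hfB _ _⟩ : B) - ⟨f q'.out.1 q'.out.2, hfB _ _⟩
        ∈ B'.addSubgroupOf B := by
      have := QuotientAddGroup.eq.mp h
      have h2 := neg_mem this
      simpa [sub_eq_add_neg, add_comm] using h2
    have h3 : f q.out.1 q.out.2 - f q'.out.1 q'.out.2 ∈ B' := by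
      simpa [AddSubgroup.mem_addSubgroupOf] using h1
    have h4 : q.out.1 - q'.out.1 ∈ A' :=
      hker _ _ (A.sub_mem q.out.2 q'.out.2) (hsub _ _ _ _ (hfR _ q.out.2) (hfR _ q'.out.2)) h3
    have h5 : (q.out : A ⧸ A'.addSubgroupOf A) = (q'.out : A ⧸ A'.addSubgroupOf A) := by
      rw [QuotientAddGroup.eq]
      have : -q.out + q'.out = -(q.out - q'.out) := by abel
      rw [this]
      apply neg_mem
      simpa [AddSubgroup.mem_addSubgroupOf] using h4
    simpa using h5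
  have hfinB : Finite (B ⧸ B'.addSubgroupOf B) := by
    rw [← AddSubgroup.index_ne_zero_iff_finite]; exact hfin
  have hfinA : Finite (A ⧸ A'.addSubgroupOf A) := Finite.of_injective g hg
  refine ⟨?_, ?_⟩
  · change (A'.addSubgroupOf A).index ≠ 0
    rw [AddSubgroup.index_ne_zero_iff_finite]; exact hfinA
  · change (A'.addSubgroupOf A).index ≤ (B'.addSubgroupOf B).index
    rw [AddSubgroup.index_eq_card, AddSubgroup.index_eq_card]
    exact Nat.card_le_card_of_injective g hg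


section Core

variable {X D : Type*} [AddCommGroup X] [AddCommGroup D]

/-- Fixed points of an additive endomorphism. -/
def fixedPts {M : Type*} [AddCommGroup M] (s : M →+ M) : AddSubgroup M :=
  (s - AddMonoidHom.id M).ker

theorem mem_fixedPts {M : Type*} [AddCommGroup M] (s : M →+ M) (x : M) :
    x ∈ fixedPts s ↔ s x = x := by
  simp [fixedPts, AddMonoidHom.mem_ker, sub_eq_zero]

/-- "Ambiguous" elements: `d` with `t d - d` principal. -/
def ambig (t : D →+ D) (dv : X →+ D) : AddSubgroup D :=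
  dv.range.comap (t - AddMonoidHom.id D)

theorem mem_ambig (t : D →+ D) (dv : X →+ D) (d : D) :
    d ∈ ambig t dv ↔ ∃ x, dv x = t d - d := by
  simp [ambig, AddSubgroup.mem_comap, AddMonoidHom.mem_range]

variable (s : X →+ X) (t : D →+ D) (dv : X →+ D) (N : X →+ X) (ND : D →+ D)

/-- Step 1: for a finite "class group" `D / dv X`, the number of classes fixed by `t`
equals the order of the cokernel of `t - 1`. -/
theorem relIndex_ambig_eq (dv_s : ∀ x, dv (s x) = t (dv x)) (hcl : dv.range.index ≠ 0) :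
    dv.range.relIndex (ambig t dv) = (dv.range ⊔ (t - AddMonoidHom.id D).range).index := by
  set P := dv.range with hP
  set φ := t - AddMonoidHom.id D with hφ
  have hPA : P ≤ ambig t dv := by
    rintro d ⟨x, rfl⟩
    rw [mem_ambig]
    exact ⟨s x - x, by rw [map_sub, dv_s]⟩
  have h1 : P.relIndex (ambig t dv) * (ambig t dv).index = P.index :=
    AddSubgroup.relIndex_mul_index hPA
  have h2 : (ambig t dv).index = P.relIndex φ.range := AddSubgroup.index_comap P φ
  have h3 : P.relIndex (P ⊔ φ.range) = P.relIndex φ.range :=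
    AddSubgroup.relIndex_sup_left φ.range P
  have h4 : P.relIndex (P ⊔ φ.range) * (P ⊔ φ.range).index = P.index :=
    AddSubgroup.relIndex_mul_index le_sup_left
  have h5 : P.relIndex φ.range ≠ 0 := by
    intro h0
    rw [h3, h0, zero_mul] at h4
    exact hcl h4.symm
  rw [h2] at h1
  rw [h3] at h4
  have h6 : P.relIndex (ambig t dv) * P.relIndex φ.range =
      (P ⊔ φ.range).index * P.relIndex φ.range := by
    rw [h1, mul_comm, h4]
  exact Nat.eq_of_mul_eq_mul_right (Nat.pos_of_ne_zero h5) h6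


/-- Step 2 (ambiguous class bound):
`|C^t| · |H¹(U)| · [U_F : U_F ∩ N X] ≤ |H⁰(U)| · [D^t : dv X_F]`. -/
theorem ambig_bound
    (dv_s : ∀ x, dv (s x) = t (dv x)) (dv_N : ∀ x, dv (N x) = ND (dv x))
    (ND_t : ∀ d, ND (t d) = ND d) (s_N : ∀ x, s (N x) = N x)
    (h90 : ∀ x, N x = 0 → ∃ y, x = s y - y)
    (hH0 : (dv.ker.map N).relIndex (dv.ker ⊓ fixedPts s) ≠ 0)
    (hDt : ((fixedPts s).map dv).relIndex (fixedPts t) ≠ 0) :
    dv.range.relIndex (ambig t dv) *
        (dv.ker.map (s - AddMonoidHom.id X)).relIndex (dv.ker ⊓ N.ker) *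
        N.range.relIndex (dv.ker ⊓ fixedPts s) ≤
      (dv.ker.map N).relIndex (dv.ker ⊓ fixedPts s) *
        ((fixedPts s).map dv).relIndex (fixedPts t) := by
  set U := dv.ker with hU
  set XF := fixedPts s with hXF
  set UF := U ⊓ XF with hUF
  set Dt := fixedPts t with hDt'
  set P := dv.range with hP
  set Amb := ambig t dv with hAmb
  have memU : ∀ x, x ∈ U ↔ dv x = 0 := fun x => AddMonoidHom.mem_ker
  -- basic inclusions
  have hNU : U.map N ≤ UF ⊓ N.range := by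
    rintro _ ⟨u, hu, rfl⟩
    refine AddSubgroup.mem_inf.mpr ⟨AddSubgroup.mem_inf.mpr ⟨?_, ?_⟩, ⟨u, rfl⟩⟩
    · exact (memU _).mpr (by rw [dv_N, (memU u).mp hu, map_zero])
    · exact (mem_fixedPts s _).mpr (s_N u)
  have hPA : P ≤ Amb := by
    rintro d ⟨x, rfl⟩
    rw [mem_ambig]
    exact ⟨s x - x, by rw [map_sub, dv_s]⟩
  have hDtA : Dt ≤ Amb := by
    intro d hd
    rw [mem_ambig]
    exact ⟨0, by rw [map_zero, (mem_fixedPts t d).mp hd, sub_self]⟩
  have hXFDt : XF.map dv ≤ Dt ⊓ P := by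
    rintro _ ⟨x, hx, rfl⟩
    refine AddSubgroup.mem_inf.mpr ⟨?_, ⟨x, rfl⟩⟩
    exact (mem_fixedPts t _).mpr (by rw [← dv_s, (mem_fixedPts s x).mp hx])
  -- 2d
  have h2d : (U.map N).relIndex (UF ⊓ N.range) * (UF ⊓ N.range).relIndex UF =
      (U.map N).relIndex UF :=
    AddSubgroup.relIndex_mul_relIndex _ _ _ hNU inf_le_left
  have hfin_a : (U.map N).relIndex (UF ⊓ N.range) ≠ 0 := by
    intro h0; rw [h0, zero_mul] at h2d; exact hH0 h2d.symm
  -- 2e
  have h2e : ((XF.map dv)).relIndex (Dt ⊓ P) * (Dt ⊓ P).relIndex Dt =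
      (XF.map dv).relIndex Dt :=
    AddSubgroup.relIndex_mul_relIndex _ _ _ hXFDt inf_le_left
  have hfin_c : (XF.map dv).relIndex (Dt ⊓ P) ≠ 0 := by
    intro h0; rw [h0, zero_mul] at h2e; exact hDt h2e.symm
  -- 2a
  have h2a : (Dt ⊔ P).relIndex Amb ≤ (U.map N).relIndex (UF ⊓ N.range) := by
    refine (relIndex_le_of_rel (Dt ⊔ P) Amb (U.map N) (UF ⊓ N.range)
      (fun d u => ∃ x, t d - d = dv x ∧ u = N x) ?_ ?_ ?_ hfin_a).2
    · intro d hd
      obtain ⟨x, hx⟩ := (mem_ambig t dv d).mp hd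
      refine ⟨N x, AddSubgroup.mem_inf.mpr ⟨AddSubgroup.mem_inf.mpr ⟨?_, ?_⟩, ⟨x, rfl⟩⟩,
        x, hx.symm, rfl⟩
      · exact (memU _).mpr (by rw [dv_N, hx, map_sub, ND_t, sub_self])
      · exact (mem_fixedPts s _).mpr (s_N x)
    · rintro d d' u u' ⟨x, hx, rfl⟩ ⟨x', hx', rfl⟩
      refine ⟨x - x', ?_, by rw [map_sub]⟩
      rw [map_sub, map_sub, ← hx, ← hx']; abel
    · rintro d u hd ⟨x, hx, rfl⟩ ⟨u', hu', hNu⟩
      have h0 : N (x - u') = 0 := by rw [map_sub, hNu, sub_self]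
      obtain ⟨y, hy⟩ := h90 _ h0
      have h1 : t d - d = t (dv y) - dv y := by
        have : dv x = dv (x - u') := by rw [map_sub, (memU u').mp hu', sub_zero]
        rw [hx, this, hy, map_sub, dv_s]
      have h2 : d - dv y ∈ Dt := by
        refine (mem_fixedPts t _).mpr ?_
        rw [map_sub]
        have : t d - t (dv y) = (t d - d) - (t (dv y) - dv y) + (d - dv y) := by abel
        rw [this, h1, sub_self, zero_add]
      have h3 : d = (d - dv y) + dv y := by abel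
      rw [h3]
      exact AddSubgroup.add_mem_sup h2 ⟨y, rfl⟩
  -- 2b
  have h2b : P.relIndex (Dt ⊔ P) = P.relIndex Dt := AddSubgroup.relIndex_sup_right Dt P
  have h2b' : P.relIndex (Dt ⊔ P) * (Dt ⊔ P).relIndex Amb = P.relIndex Amb :=
    AddSubgroup.relIndex_mul_relIndex _ _ _ le_sup_right (sup_le hDtA hPA)
  -- 2c
  have h2c : (U.map (s - AddMonoidHom.id X)).relIndex (U ⊓ N.ker) ≤
      (XF.map dv).relIndex (Dt ⊓ P) := by
    refine (relIndex_le_of_rel (U.map (s - AddMonoidHom.id X)) (U ⊓ N.ker) (XF.map dv) (Dt ⊓ P)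
      (fun ε d => ∃ y, ε = s y - y ∧ d = dv y) ?_ ?_ ?_ hfin_c).2
    · intro ε hε
      obtain ⟨hεU, hεN⟩ := AddSubgroup.mem_inf.mp hε
      obtain ⟨y, hy⟩ := h90 ε (AddMonoidHom.mem_ker.mp hεN)
      refine ⟨dv y, AddSubgroup.mem_inf.mpr ⟨?_, ⟨y, rfl⟩⟩, y, hy, rfl⟩
      refine (mem_fixedPts t _).mpr ?_
      have : t (dv y) - dv y = 0 := by
        rw [← dv_s, ← map_sub, ← hy]; exact (memU ε).mp hεU
      exact sub_eq_zero.mp this
    · rintro ε ε' d d' ⟨y, hy, rfl⟩ ⟨y', hy', rfl⟩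
      refine ⟨y - y', ?_, by rw [map_sub]⟩
      rw [hy, hy', map_sub]; abel
    · rintro ε d hε ⟨y, hy, rfl⟩ ⟨c, hc, hcy⟩
      refine ⟨y - c, ?_, ?_⟩
      · exact (memU _).mpr (by rw [map_sub, hcy, sub_self])
      · have hc' : s c = c := (mem_fixedPts s c).mp hc
        simp only [AddMonoidHom.sub_apply, AddMonoidHom.id_apply, map_sub, hc', hy]
        abel
  have h2f : (Dt ⊓ P).relIndex Dt = P.relIndex Dt := AddSubgroup.inf_relIndex_left Dt P
  have h2g : (UF ⊓ N.range).relIndex UF = N.range.relIndex UF :=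
    AddSubgroup.inf_relIndex_left UF N.range
  calc P.relIndex Amb * (U.map (s - AddMonoidHom.id X)).relIndex (U ⊓ N.ker) *
        N.range.relIndex UF
      = P.relIndex Dt * (Dt ⊔ P).relIndex Amb *
          (U.map (s - AddMonoidHom.id X)).relIndex (U ⊓ N.ker) * N.range.relIndex UF := by
        rw [← h2b', h2b]
    _ ≤ P.relIndex Dt * (U.map N).relIndex (UF ⊓ N.range) *
          (XF.map dv).relIndex (Dt ⊓ P) * N.range.relIndex UF := by
        gcongr
    _ = ((U.map N).relIndex (UF ⊓ N.range) * (UF ⊓ N.range).relIndex UF) *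
          ((XF.map dv).relIndex (Dt ⊓ P) * (Dt ⊓ P).relIndex Dt) := by
        rw [h2f, h2g]; ring
    _ = (U.map N).relIndex UF * (XF.map dv).relIndex Dt := by rw [h2d, h2e]


/-- Step 3 (size of the generalised ray class group):
`h_F · p^r ≤ [D_F^R : dv X_F^{(R,p)}] · [U_F : U_F ∩ X_F^{(R,p)}]`. -/
theorem ray_bound (DF DR : AddSubgroup D) (XFp : AddSubgroup X) (p r : ℕ) (hp : 0 < p)
    (hdvF : (fixedPts s).map dv ≤ DF)
    (hrepF : DF ≤ (DF ⊓ DR) ⊔ (fixedPts s).map dv)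
    (hXFp : XFp ≤ fixedPts s ⊓ DR.comap dv)
    (hF : ((fixedPts s).map dv).relIndex DF ≠ 0)
    (hcrt : p ^ r ≤ XFp.relIndex (fixedPts s ⊓ DR.comap dv)) :
    ((fixedPts s).map dv).relIndex DF * p ^ r ≤
      (XFp.map dv).relIndex (DF ⊓ DR) * XFp.relIndex (dv.ker ⊓ fixedPts s) := by
  set XF := fixedPts s with hXF
  set XFR := XF ⊓ DR.comap dv with hXFR
  set DFR := DF ⊓ DR with hDFR
  set UF := dv.ker ⊓ XF with hUF
  have hXFRDFR : XFR.map dv ≤ DFR := by
    rintro _ ⟨x, hx, rfl⟩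
    obtain ⟨hx1, hx2⟩ := AddSubgroup.mem_inf.mp hx
    exact AddSubgroup.mem_inf.mpr ⟨hdvF ⟨x, hx1, rfl⟩, hx2⟩
  have h3a' : (XFR.map dv).relIndex DFR ≠ 0 := by
    refine (relIndex_le_of_rel (XFR.map dv) DFR (XF.map dv) DF (fun d d' => d = d')
      ?_ ?_ ?_ hF).1
    · intro d hd
      exact ⟨d, (AddSubgroup.mem_inf.mp hd).1, rfl⟩
    · rintro a a' b b' rfl rfl; rfl
    · rintro a b ha rfl ⟨c, hc, hca⟩
      refine ⟨c, AddSubgroup.mem_inf.mpr ⟨hc, ?_⟩, hca⟩
      rw [AddSubgroup.mem_comap, hca]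
      exact (AddSubgroup.mem_inf.mp ha).2
  have h3a : (XF.map dv).relIndex DF ≤ (XFR.map dv).relIndex DFR := by
    refine (relIndex_le_of_rel (XF.map dv) DF (XFR.map dv) DFR (fun d d' => d - d' ∈ XF.map dv)
      ?_ ?_ ?_ h3a').2
    · intro d hd
      obtain ⟨d', hd', e, he, hde⟩ := AddSubgroup.mem_sup.mp (hrepF hd)
      refine ⟨d', hd', ?_⟩
      have : d - d' = e := by rw [← hde]; abel
      rw [this]; exact he
    · intro a a' b b' h h'
      have : a - a' - (b - b') = (a - b) - (a' - b') := by abel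
      rw [this]; exact sub_mem h h'
    · intro a b _ h hb
      have hb' : b ∈ XF.map dv := AddSubgroup.map_mono inf_le_left hb
      have : a = (a - b) + b := by abel
      rw [this]; exact add_mem h hb'
  have hUFXFR : UF ≤ XFR := by
    intro u hu
    obtain ⟨hu1, hu2⟩ := AddSubgroup.mem_inf.mp hu
    refine AddSubgroup.mem_inf.mpr ⟨hu2, ?_⟩
    rw [AddSubgroup.mem_comap, AddMonoidHom.mem_ker.mp hu1]
    exact zero_mem _
  have hsup : XFp ⊔ UF ≤ XFR := sup_le hXFp hUFXFR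
  have h1 : XFp.relIndex (XFp ⊔ UF) * (XFp ⊔ UF).relIndex XFR = XFp.relIndex XFR :=
    AddSubgroup.relIndex_mul_relIndex _ _ _ le_sup_left hsup
  have h2 : XFp.relIndex (XFp ⊔ UF) = XFp.relIndex UF := AddSubgroup.relIndex_sup_left UF XFp
  have hne : XFp.relIndex XFR ≠ 0 := by
    have : 0 < p ^ r := pow_pos hp r
    omega
  have h3ne : (XFp ⊔ UF).relIndex XFR ≠ 0 := by
    intro h0; rw [h0, mul_zero] at h1; exact hne h1.symm
  have h4 : (XFp.map dv).relIndex (XFR.map dv) ≠ 0 := by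
    refine (relIndex_le_of_rel (XFp.map dv) (XFR.map dv) (XFp ⊔ UF) XFR (fun d x => d = dv x)
      ?_ ?_ ?_ h3ne).1
    · rintro _ ⟨x, hx, rfl⟩
      exact ⟨x, hx, rfl⟩
    · rintro a a' b b' rfl rfl; rw [map_sub]
    · rintro a x _ rfl hx
      obtain ⟨c, hc, u, hu, rfl⟩ := AddSubgroup.mem_sup.mp hx
      refine ⟨c, hc, ?_⟩
      rw [map_add, AddMonoidHom.mem_ker.mp (AddSubgroup.mem_inf.mp hu).1, add_zero]
  have h5 : (XFp ⊔ UF).relIndex XFR ≤ (XFp.map dv).relIndex (XFR.map dv) := by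
    refine (relIndex_le_of_rel (XFp ⊔ UF) XFR (XFp.map dv) (XFR.map dv) (fun x d => d = dv x)
      ?_ ?_ ?_ h4).2
    · intro x hx
      exact ⟨dv x, ⟨x, hx, rfl⟩, rfl⟩
    · rintro a a' b b' rfl rfl; rw [map_sub]
    · rintro x d hx rfl ⟨c, hc, hcx⟩
      have hxc : x - c ∈ UF := by
        refine AddSubgroup.mem_inf.mpr ⟨?_, ?_⟩
        · rw [AddMonoidHom.mem_ker, map_sub, hcx, sub_self]
        · exact sub_mem (AddSubgroup.mem_inf.mp hx).1 (AddSubgroup.mem_inf.mp (hXFp hc)).1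
      have : x = c + (x - c) := by abel
      rw [this]
      exact AddSubgroup.add_mem_sup hc hxc
  have h6 : (XFp.map dv).relIndex (XFR.map dv) * (XFR.map dv).relIndex DFR =
      (XFp.map dv).relIndex DFR :=
    AddSubgroup.relIndex_mul_relIndex _ _ _ (AddSubgroup.map_mono hXFp) hXFRDFR
  calc (XF.map dv).relIndex DF * p ^ r
      ≤ (XFR.map dv).relIndex DFR * XFp.relIndex XFR := Nat.mul_le_mul h3a hcrt
    _ = (XFR.map dv).relIndex DFR * (XFp.relIndex UF * (XFp ⊔ UF).relIndex XFR) := by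
        rw [← h1, h2]
    _ ≤ (XFR.map dv).relIndex DFR * (XFp.relIndex UF * (XFp.map dv).relIndex (XFR.map dv)) := by
        gcongr
    _ = (XFp.map dv).relIndex DFR * XFp.relIndex UF := by rw [← h6]; ring

/-- Step 4 (the norm image is small): the image of `N_D (D^R)` modulo `dv X_F^{(R,p)}` has at
most `|C / (t - 1) C|` elements. -/
theorem norm_image_bound (DR : AddSubgroup D) (XFp : AddSubgroup X)
    (dv_s : ∀ x, dv (s x) = t (dv x)) (dv_N : ∀ x, dv (N x) = ND (dv x))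
    (ND_t : ∀ d, ND (t d) = ND d)
    (hDRt : ∀ d ∈ DR, t d ∈ DR) (hrep : DR ⊔ dv.range = ⊤)
    (hNXR : ∀ x, dv x ∈ DR → N x ∈ XFp)
    (hcl : dv.range.index ≠ 0) :
    (XFp.map dv).relIndex (XFp.map dv ⊔ DR.map ND) ≤
      (dv.range ⊔ (t - AddMonoidHom.id D).range).index := by
  set P := dv.range with hP
  set φ := t - AddMonoidHom.id D with hφ
  have hfin : (P ⊔ φ.range).relIndex ⊤ ≠ 0 := by
    rw [AddSubgroup.relIndex_top_right]
    intro h0
    have := AddSubgroup.index_dvd_of_le (le_sup_left : P ≤ P ⊔ φ.range)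
    rw [h0, zero_dvd_iff] at this
    exact hcl this
  rw [AddSubgroup.relIndex_sup_left (DR.map ND) (XFp.map dv), ← AddSubgroup.relIndex_top_right]
  refine (relIndex_le_of_rel (XFp.map dv) (DR.map ND) (P ⊔ φ.range) ⊤
    (fun a d => d ∈ DR ∧ a = ND d) ?_ ?_ ?_ hfin).2
  · rintro _ ⟨d, hd, rfl⟩
    exact ⟨d, AddSubgroup.mem_top d, hd, rfl⟩
  · rintro a a' b b' ⟨hb, rfl⟩ ⟨hb', rfl⟩
    exact ⟨sub_mem hb hb', by rw [map_sub]⟩
  · rintro a d _ ⟨hd, rfl⟩ hdP
    obtain ⟨y, ⟨x, rfl⟩, z, ⟨d', rfl⟩, hyz⟩ := AddSubgroup.mem_sup.mp hdP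
    have hd'top : d' ∈ DR ⊔ dv.range := by rw [hrep]; exact AddSubgroup.mem_top d'
    obtain ⟨d'', hd'', e, ⟨y', rfl⟩, hde⟩ := AddSubgroup.mem_sup.mp hd'top
    have hφ' : φ d' = (t d'' - d'') + dv (s y' - y') := by
      simp only [hφ, AddMonoidHom.sub_apply, AddMonoidHom.id_apply, ← hde, map_add, map_sub,
        dv_s]
    have hx' : dv (x + (s y' - y')) = d - (t d'' - d'') := by
      rw [← hyz, hφ', map_add]; abel
    have hx'R : dv (x + (s y' - y')) ∈ DR := by
      rw [hx']; exact sub_mem hd (sub_mem (hDRt _ hd'') hd'')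
    refine ⟨N (x + (s y' - y')), hNXR _ hx'R, ?_⟩
    rw [dv_N, hx', map_sub, map_sub, ND_t, sub_self, sub_zero]

/-- **Abstract counting theorem (M5 core).**  See the module docstring of the instance file for
the dictionary: `X = E^×`, `D = Div(E)`, `dv = div`, `s, t` a generator of `Gal(E/F)`,
`N, ND` the norms `∑ σ^i`, `DF = ` divisors extended from `F`, `DR = ` divisors prime to the
ramified primes, `XFp = ` elements of `F^×` that are units and `p`-th power residues at the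
ramified primes. Conclusion: the "norm classes" `dv(XFp) + ND(DR)` do not exhaust `DF ⊓ DR`. -/
theorem not_le_of_count (p r : ℕ) (hp : 1 < p)
    (DF DR : AddSubgroup D) (XFp : AddSubgroup X)
    (dv_s : ∀ x, dv (s x) = t (dv x)) (dv_N : ∀ x, dv (N x) = ND (dv x))
    (ND_t : ∀ d, ND (t d) = ND d) (s_N : ∀ x, s (N x) = N x)
    (h90 : ∀ x, N x = 0 → ∃ y, x = s y - y)
    (hDF : DF ≤ fixedPts t) (hdvF : (fixedPts s).map dv ≤ DF)
    (hamb0 : DF.relIndex (fixedPts t) ≠ 0) (hamb : DF.relIndex (fixedPts t) ≤ p ^ r)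
    (hcl : dv.range.index ≠ 0)
    (hF : ((fixedPts s).map dv).relIndex DF ≠ 0)
    (hH0 : (dv.ker.map N).relIndex (dv.ker ⊓ fixedPts s) ≠ 0)
    (hH : (dv.ker.map (s - AddMonoidHom.id X)).relIndex (dv.ker ⊓ N.ker) =
      p * (dv.ker.map N).relIndex (dv.ker ⊓ fixedPts s))
    (hDRt : ∀ d ∈ DR, t d ∈ DR) (hNDR : ∀ d ∈ DR, ND d ∈ DR)
    (hrep : DR ⊔ dv.range = ⊤) (hrepF : DF ≤ (DF ⊓ DR) ⊔ (fixedPts s).map dv)
    (hND0 : ∀ d, ND d = 0 → d ∈ DR) (hNDF : ∀ d, ND d ∈ DF)
    (hXFp : XFp ≤ fixedPts s ⊓ DR.comap dv) (hNXR : ∀ x, dv x ∈ DR → N x ∈ XFp)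
    (hcrt : p ^ r ≤ XFp.relIndex (fixedPts s ⊓ DR.comap dv)) :
    ¬ (DF ⊓ DR ≤ XFp.map dv ⊔ DR.map ND) := by
  intro hle
  set XF := fixedPts s with hXF
  set Dt := fixedPts t with hDt
  set U := dv.ker with hU
  set UF := U ⊓ XF with hUF
  set P := dv.range with hP
  set W := XFp.map dv ⊔ DR.map ND with hW
  have hWle : W ≤ DF ⊓ DR := by
    refine sup_le ?_ ?_
    · rintro _ ⟨x, hx, rfl⟩
      obtain ⟨hx1, hx2⟩ := AddSubgroup.mem_inf.mp (hXFp hx)
      exact AddSubgroup.mem_inf.mpr ⟨hdvF ⟨x, hx1, rfl⟩, hx2⟩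
    · rintro _ ⟨d, hd, rfl⟩
      exact AddSubgroup.mem_inf.mpr ⟨hNDF d, hNDR d hd⟩
  have hWeq : W = DF ⊓ DR := le_antisymm hWle hle
  -- the numbers
  set A := P.relIndex (ambig t dv) with hA
  set B := N.range.relIndex UF with hB
  set H0 := (U.map N).relIndex UF with hH0'
  set hFn := (XF.map dv).relIndex DF with hFn'
  set a := DF.relIndex Dt with ha
  have hDtmul : (XF.map dv).relIndex Dt = hFn * a :=
    (AddSubgroup.relIndex_mul_relIndex _ _ _ hdvF hDF).symm
  have hDtne : (XF.map dv).relIndex Dt ≠ 0 := by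
    rw [hDtmul]; exact Nat.mul_ne_zero hF hamb0
  have claimA := ambig_bound s t dv N ND dv_s dv_N ND_t s_N h90 hH0 hDtne
  rw [hH, hDtmul] at claimA
  have claimB := ray_bound s dv DF DR XFp p r (by omega) hdvF hrepF hXFp hF hcrt
  have claimC := norm_image_bound s t dv N ND DR XFp dv_s dv_N ND_t hDRt hrep hNXR hcl
  rw [← relIndex_ambig_eq s t dv dv_s hcl] at claimC
  rw [← hWeq] at claimB
  -- claim D
  have hNUF : N.range ⊓ UF ≤ XFp := by
    rintro _ ⟨⟨x, rfl⟩, hx⟩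
    have h1 : dv (N x) = 0 := AddMonoidHom.mem_ker.mp (AddSubgroup.mem_inf.mp hx).1
    rw [dv_N] at h1
    exact hNXR x (hND0 _ h1)
  have hNU : U.map N ≤ UF ⊓ N.range := by
    rintro _ ⟨u, hu, rfl⟩
    refine AddSubgroup.mem_inf.mpr ⟨AddSubgroup.mem_inf.mpr ⟨?_, ?_⟩, ⟨u, rfl⟩⟩
    · exact AddMonoidHom.mem_ker.mpr (by rw [dv_N, AddMonoidHom.mem_ker.mp hu, map_zero])
    · exact (mem_fixedPts s _).mpr (s_N u)
  have h2d : (U.map N).relIndex (UF ⊓ N.range) * (UF ⊓ N.range).relIndex UF = H0 :=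
    AddSubgroup.relIndex_mul_relIndex _ _ _ hNU inf_le_left
  have hBne : B ≠ 0 := by
    intro h0
    rw [AddSubgroup.inf_relIndex_left UF N.range, ← hB, h0, mul_zero] at h2d
    exact hH0 h2d.symm
  have claimD : XFp.relIndex UF ≤ B := by
    have h := AddSubgroup.relIndex_le_of_le_left (L := UF) hNUF
      (by rw [AddSubgroup.inf_relIndex_right]; exact hBne)
    rwa [AddSubgroup.inf_relIndex_right] at h
  -- combine
  have hpr : 0 < p ^ r := pow_pos (by omega) r
  have h1 : hFn * p ^ r ≤ A * B :=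
    le_trans claimB (Nat.mul_le_mul claimC claimD)
  have hAB : 0 < A * B := lt_of_lt_of_le (Nat.mul_pos (Nat.pos_of_ne_zero hF) hpr) h1
  have h2 : A * (p * H0) * B ≤ H0 * (A * B) :=
    le_trans claimA (Nat.mul_le_mul_left _ (le_trans (Nat.mul_le_mul_left _ hamb) h1))
  have h3 : H0 * (p * (A * B)) ≤ H0 * (A * B) := by
    have : A * (p * H0) * B = H0 * (p * (A * B)) := by ring
    rwa [this] at h2
  have h4 : p * (A * B) ≤ A * B := Nat.le_of_mul_le_mul_left h3 (Nat.pos_of_ne_zero hH0)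
  nlinarith

end Core

end Fermat.Agent.S14.helper68
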