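import Mathlib
import Fermat.Agent.S14.helper2613_SUnit
import Fermat.Agent.S14.helper4373_KummerDecomp
import Fermat.Agent.S14.helper68_M5Count

/-!
# S14 / M5 (helper68): definitions for the number-field instance of the counting core

`divHom K : Additive Kˣ →+ (HeightOneSpectrum (𝓞 K) →₀ ℤ)` is the principal-divisor map
(`v ↦ ordAt v x`, sign convention of `helper2613.ordAt`), and for a Galois extension `E / F`
we set up the Galois action on primes and divisors of `E`.
-/

set_option autoImplicit false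
set_option linter.unusedSectionVars false

namespace Fermat.Agent.S14.helper68

open NumberField IsDedekindDomain
open scoped Pointwise
open Fermat.Agent.S14.helper2613 (ordAt ordAt_mul ordAt_one ordAt_eq_zero_iff)

noncomputable section

section OneField

variable (K : Type*) [Field K] [NumberField K]

theorem finite_support_ordAt (x : Kˣ) :
    (Function.support fun v : HeightOneSpectrum (𝓞 K) => ordAt v x).Finite := by
  have h1 := HeightOneSpectrum.Support.finite (𝓞 K) (x : K)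
  have h2 := HeightOneSpectrum.Support.finite (𝓞 K) ((x⁻¹ : Kˣ) : K)
  refine (h1.union h2).subset ?_
  intro v hv
  rw [Function.mem_support, Ne, ordAt_eq_zero_iff] at hv
  rcases lt_or_gt_of_ne hv with h | h
  · right
    show 1 < v.valuation K ((x⁻¹ : Kˣ) : K)
    rw [Units.val_inv_eq_inv_val, map_inv₀]
    exact (one_lt_inv₀ (by
      rcases eq_or_ne (v.valuation K (x : K)) 0 with h0 | h0
      · exact absurd h0 ((Valuation.ne_zero_iff _).mpr x.ne_zero)
      · exact zero_lt_iff.mpr h0)).mpr h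
  · left
    exact h

/-- The principal divisor map `x ↦ (ordAt v x)_v`, as an additive hom. -/
def divHom : Additive Kˣ →+ (HeightOneSpectrum (𝓞 K) →₀ ℤ) where
  toFun x := Finsupp.ofSupportFinite (fun v => ordAt v (Additive.toMul x))
    (finite_support_ordAt K (Additive.toMul x))
  map_zero' := by
    ext v
    simp [Finsupp.ofSupportFinite_coe, ordAt_one]
  map_add' x y := by
    ext v
    simp [Finsupp.ofSupportFinite_coe, ordAt_mul]

@[simp] theorem divHom_apply (x : Additive Kˣ) (v : HeightOneSpectrum (𝓞 K)) :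
    divHom K x v = ordAt v (Additive.toMul x) := rfl

theorem mem_ker_divHom (x : Additive Kˣ) :
    x ∈ (divHom K).ker ↔ ∀ v : HeightOneSpectrum (𝓞 K), v.valuation K ((Additive.toMul x : Kˣ) : K) = 1 := by
  rw [AddMonoidHom.mem_ker]
  constructor
  · intro h v
    rw [← ordAt_eq_zero_iff, ← divHom_apply, h]; rfl
  · intro h
    ext v
    rw [divHom_apply, Finsupp.zero_apply, ordAt_eq_zero_iff]
    exact h v

end OneField

section Ext

variable (F E : Type*) [Field F] [NumberField F] [Field E] [NumberField E] [Algebra F E]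
  [IsGalois F E]

/-- The permutation of the primes of `𝓞 E` induced by `σ ∈ Gal(E/F)`: `w ↦ σ(w)`. -/
def primeEquiv (σ : Gal(E/F)) : HeightOneSpectrum (𝓞 E) ≃ HeightOneSpectrum (𝓞 E) :=
  HeightOneSpectrum.equivOfRingEquiv (MulSemiringAction.toRingEquiv Gal(E/F) (𝓞 E) σ)

theorem mem_primeEquiv (σ : Gal(E/F)) (w : HeightOneSpectrum (𝓞 E)) (x : 𝓞 E) :
    x ∈ (primeEquiv F E σ w).asIdeal ↔ σ⁻¹ • x ∈ w.asIdeal := Iff.rfl

theorem primeEquiv_asIdeal (σ : Gal(E/F)) (w : HeightOneSpectrum (𝓞 E)) :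
    (primeEquiv F E σ w).asIdeal = σ • w.asIdeal := by
  ext x
  rw [mem_primeEquiv, Ideal.mem_pointwise_smul_iff_inv_smul_mem]

theorem primeEquiv_one (w : HeightOneSpectrum (𝓞 E)) : primeEquiv F E 1 w = w := by
  ext x
  rw [mem_primeEquiv, inv_one, one_smul]

theorem primeEquiv_mul (σ τ : Gal(E/F)) (w : HeightOneSpectrum (𝓞 E)) :
    primeEquiv F E (σ * τ) w = primeEquiv F E σ (primeEquiv F E τ w) := by
  ext x
  rw [mem_primeEquiv, mem_primeEquiv, mem_primeEquiv, mul_inv_rev, mul_smul]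

theorem primeEquiv_symm (σ : Gal(E/F)) (w : HeightOneSpectrum (𝓞 E)) :
    (primeEquiv F E σ).symm w = primeEquiv F E σ⁻¹ w := by
  rw [Equiv.symm_apply_eq, ← primeEquiv_mul, mul_inv_cancel, primeEquiv_one]

/-- The prime of `𝓞 F` below a prime of `𝓞 E`. -/
def und (w : HeightOneSpectrum (𝓞 E)) : HeightOneSpectrum (𝓞 F) :=
  HeightOneSpectrum.under (𝓞 F) w

theorem mem_und (w : HeightOneSpectrum (𝓞 E)) (a : 𝓞 F) :
    a ∈ (und F E w).asIdeal ↔ algebraMap (𝓞 F) (𝓞 E) a ∈ w.asIdeal := Iff.rfl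

theorem und_primeEquiv (σ : Gal(E/F)) (w : HeightOneSpectrum (𝓞 E)) :
    und F E (primeEquiv F E σ w) = und F E w := by
  ext a
  rw [mem_und, mem_und, mem_primeEquiv, smul_algebraMap]


open HeightOneSpectrum in
theorem intValuation_primeEquiv_le (σ : Gal(E/F)) (w : HeightOneSpectrum (𝓞 E)) (a : 𝓞 E) :
    (primeEquiv F E σ w).intValuation (σ • a) ≤ w.intValuation a := by
  rcases eq_or_ne a 0 with rfl | ha
  · simp
  · rw [intValuation_eq_exp_neg_multiplicity w ha, intValuation_le_pow_iff_mem]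
    have h1 : a ∈ w.asIdeal ^ (multiplicity w.asIdeal (Ideal.span {a})) := by
      rw [← intValuation_le_pow_iff_mem, intValuation_eq_exp_neg_multiplicity w ha]
    rw [primeEquiv_asIdeal, ← smul_pow']
    exact Ideal.smul_mem_pointwise_smul_iff.mpr h1

theorem intValuation_primeEquiv (σ : Gal(E/F)) (w : HeightOneSpectrum (𝓞 E)) (a : 𝓞 E) :
    (primeEquiv F E σ w).intValuation (σ • a) = w.intValuation a := by
  apply le_antisymm (intValuation_primeEquiv_le F E σ w a)
  have h := intValuation_primeEquiv_le F E σ⁻¹ (primeEquiv F E σ w) (σ • a)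
  rwa [← primeEquiv_mul, inv_mul_cancel, primeEquiv_one, inv_smul_smul] at h

/-- Galois transport of valuations: `(σ w)(σ x) = w(x)`. -/
theorem valuation_primeEquiv (σ : Gal(E/F)) (w : HeightOneSpectrum (𝓞 E)) (x : E) :
    (primeEquiv F E σ w).valuation E (σ x) = w.valuation E x := by
  obtain ⟨a, b, hb, rfl⟩ := IsFractionRing.div_surjective (A := 𝓞 E) x
  have e1 : σ (algebraMap (𝓞 E) E a) = algebraMap (𝓞 E) E (σ • a) := rfl
  have e2 : σ (algebraMap (𝓞 E) E b) = algebraMap (𝓞 E) E (σ • b) := rfl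
  rw [map_div₀, map_div₀, map_div₀, e1, e2, HeightOneSpectrum.valuation_of_algebraMap,
    HeightOneSpectrum.valuation_of_algebraMap, HeightOneSpectrum.valuation_of_algebraMap,
    HeightOneSpectrum.valuation_of_algebraMap, intValuation_primeEquiv, intValuation_primeEquiv]

/-- `σ` acting on `Additive Eˣ`. -/
def sAdd (σ : Gal(E/F)) : Additive Eˣ →+ Additive Eˣ :=
  MonoidHom.toAdditive (Units.map (σ : E →* E))

theorem toMul_sAdd (σ : Gal(E/F)) (x : Additive Eˣ) :
    ((Additive.toMul (sAdd F E σ x) : Eˣ) : E) = σ ((Additive.toMul x : Eˣ) : E) := rfl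

theorem ordAt_primeEquiv (σ : Gal(E/F)) (w : HeightOneSpectrum (𝓞 E)) (x : Additive Eˣ) :
    ordAt (primeEquiv F E σ w) (Additive.toMul (sAdd F E σ x)) = ordAt w (Additive.toMul x) := by
  unfold ordAt
  rw [toMul_sAdd, valuation_primeEquiv]

/-- `σ` acting on the divisors of `E`: `(σ d)(w) = d(σ⁻¹ w)`. -/
def tAdd (σ : Gal(E/F)) : (HeightOneSpectrum (𝓞 E) →₀ ℤ) →+ (HeightOneSpectrum (𝓞 E) →₀ ℤ) :=
  (Finsupp.domCongr (primeEquiv F E σ)).toAddMonoidHom

theorem tAdd_apply (σ : Gal(E/F)) (d : HeightOneSpectrum (𝓞 E) →₀ ℤ)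
    (w : HeightOneSpectrum (𝓞 E)) : tAdd F E σ d w = d (primeEquiv F E σ⁻¹ w) := by
  rw [← primeEquiv_symm]
  rfl

theorem tAdd_apply' (σ : Gal(E/F)) (d : HeightOneSpectrum (𝓞 E) →₀ ℤ)
    (w : HeightOneSpectrum (𝓞 E)) : tAdd F E σ d (primeEquiv F E σ w) = d w := by
  rw [tAdd_apply, ← primeEquiv_mul, inv_mul_cancel, primeEquiv_one]

/-- Equivariance of the divisor map. -/
theorem divHom_sAdd (σ : Gal(E/F)) (x : Additive Eˣ) :
    divHom E (sAdd F E σ x) = tAdd F E σ (divHom E x) := by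
  ext w
  rw [tAdd_apply, divHom_apply, divHom_apply]
  conv_lhs => rw [show w = primeEquiv F E σ (primeEquiv F E σ⁻¹ w) by
    rw [← primeEquiv_mul, mul_inv_cancel, primeEquiv_one]]
  exact ordAt_primeEquiv F E σ _ x

/-- The norm `∑_{g ∈ Gal(E/F)} g` on `Additive Eˣ`. -/
def normAdd : Additive Eˣ →+ Additive Eˣ := ∑ g : Gal(E/F), sAdd F E g

/-- The norm `∑_{g ∈ Gal(E/F)} g` on divisors of `E`. -/
def normDiv : (HeightOneSpectrum (𝓞 E) →₀ ℤ) →+ (HeightOneSpectrum (𝓞 E) →₀ ℤ) :=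
  ∑ g : Gal(E/F), tAdd F E g

theorem normAdd_apply (x : Additive Eˣ) : normAdd F E x = ∑ g : Gal(E/F), sAdd F E g x := by
  simp [normAdd]

theorem normDiv_apply (d : HeightOneSpectrum (𝓞 E) →₀ ℤ) :
    normDiv F E d = ∑ g : Gal(E/F), tAdd F E g d := by
  simp [normDiv]

theorem divHom_normAdd (x : Additive Eˣ) :
    divHom E (normAdd F E x) = normDiv F E (divHom E x) := by
  rw [normAdd_apply, normDiv_apply, map_sum]
  exact Finset.sum_congr rfl fun g _ => divHom_sAdd F E g x

theorem sAdd_mul (σ τ : Gal(E/F)) (x : Additive Eˣ) :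
    sAdd F E (σ * τ) x = sAdd F E σ (sAdd F E τ x) := by
  apply Additive.toMul.injective
  ext
  rfl

theorem tAdd_mul (σ τ : Gal(E/F)) (d : HeightOneSpectrum (𝓞 E) →₀ ℤ) :
    tAdd F E (σ * τ) d = tAdd F E σ (tAdd F E τ d) := by
  ext w
  rw [tAdd_apply, tAdd_apply, tAdd_apply, mul_inv_rev, primeEquiv_mul]

theorem normDiv_tAdd (σ : Gal(E/F)) (d : HeightOneSpectrum (𝓞 E) →₀ ℤ) :
    normDiv F E (tAdd F E σ d) = normDiv F E d := by
  rw [normDiv_apply, normDiv_apply]
  simp_rw [← tAdd_mul]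
  exact Fintype.sum_equiv (Equiv.mulRight σ) _ _ (fun g => rfl)

theorem tAdd_normDiv (σ : Gal(E/F)) (d : HeightOneSpectrum (𝓞 E) →₀ ℤ) :
    tAdd F E σ (normDiv F E d) = normDiv F E d := by
  rw [normDiv_apply, map_sum]
  simp_rw [← tAdd_mul]
  exact Fintype.sum_equiv (Equiv.mulLeft σ) _ _ (fun g => rfl)

theorem sAdd_normAdd (σ : Gal(E/F)) (x : Additive Eˣ) :
    sAdd F E σ (normAdd F E x) = normAdd F E x := by
  rw [normAdd_apply, map_sum]
  simp_rw [← sAdd_mul]
  exact Fintype.sum_equiv (Equiv.mulLeft σ) _ _ (fun g => rfl)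

theorem normAdd_sAdd (σ : Gal(E/F)) (x : Additive Eˣ) :
    normAdd F E (sAdd F E σ x) = normAdd F E x := by
  rw [normAdd_apply, normAdd_apply]
  simp_rw [← sAdd_mul]
  exact Fintype.sum_equiv (Equiv.mulRight σ) _ _ (fun g => rfl)


/-- The ramification index of the prime of `F` below `w` (as a natural number). -/
def eIdx (w : HeightOneSpectrum (𝓞 E)) : ℕ := (und F E w).asIdeal.ramificationIdxIn (𝓞 E)

theorem eIdx_primeEquiv (σ : Gal(E/F)) (w : HeightOneSpectrum (𝓞 E)) :
    eIdx F E (primeEquiv F E σ w) = eIdx F E w := by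
  unfold eIdx; rw [und_primeEquiv]

/-- Valuations of elements of `F` at primes of `E`. -/
theorem valuation_algebraMap (w : HeightOneSpectrum (𝓞 E)) (c : F) :
    w.valuation E (algebraMap F E c) = (und F E w).valuation F c ^ eIdx F E w := by
  have : w.asIdeal.LiesOver (und F E w).asIdeal := ⟨rfl⟩
  have := Fermat.Agent.S14.helper4373.isGaloisGroup_ringOfIntegers F E
  rw [eIdx, ← HeightOneSpectrum.valuation_liesOver E (und F E w) w c,
    Ideal.ramificationIdx'_eq_ramificationIdx _ _ (und F E w).ne_bot,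
    Ideal.ramificationIdxIn_eq_ramificationIdx (und F E w).asIdeal w.asIdeal Gal(E/F)]

/-- The inclusion `Fˣ → Eˣ`, additively. -/
def iotaAdd : Additive Fˣ →+ Additive Eˣ :=
  MonoidHom.toAdditive (Units.map (algebraMap F E : F →* E))

theorem toMul_iotaAdd (c : Additive Fˣ) :
    ((Additive.toMul (iotaAdd F E c) : Eˣ) : E) = algebraMap F E ((Additive.toMul c : Fˣ) : F) :=
  rfl

theorem iotaAdd_injective : Function.Injective (iotaAdd F E) := by
  intro c c' h
  apply Additive.toMul.injective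
  apply Units.ext
  apply (algebraMap F E).injective
  rw [← toMul_iotaAdd, ← toMul_iotaAdd, h]

theorem ordAt_iotaAdd (w : HeightOneSpectrum (𝓞 E)) (c : Additive Fˣ) :
    ordAt w (Additive.toMul (iotaAdd F E c)) =
      (eIdx F E w : ℤ) * ordAt (und F E w) (Additive.toMul c) := by
  unfold ordAt
  rw [toMul_iotaAdd, valuation_algebraMap, WithZero.log_pow, nsmul_eq_mul]

theorem und_surjective (v : HeightOneSpectrum (𝓞 F)) : ∃ w, und F E w = v := by
  obtain ⟨⟨P, hP1, hP2⟩⟩ := Ideal.nonempty_primesOver (S := 𝓞 E) v.asIdeal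
  have hPbot : P ≠ ⊥ := by
    intro h
    have h1 : v.asIdeal = P.under (𝓞 F) := hP2.over
    rw [h, Ideal.under_bot] at h1
    exact v.ne_bot h1
  refine ⟨⟨P, hP1, hPbot⟩, ?_⟩
  ext a
  rw [mem_und]
  show _ ↔ a ∈ v.asIdeal
  rw [hP2.over]
  rfl

theorem exists_primeEquiv_eq {w w' : HeightOneSpectrum (𝓞 E)} (h : und F E w = und F E w') :
    ∃ g : Gal(E/F), primeEquiv F E g w = w' := by
  have := Fermat.Agent.S14.helper4373.isGaloisGroup_ringOfIntegers F E
  have h1 : w.asIdeal.LiesOver (und F E w).asIdeal := ⟨rfl⟩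
  have h2 : w'.asIdeal.LiesOver (und F E w).asIdeal := by rw [h]; exact ⟨rfl⟩
  obtain ⟨g, hg⟩ := Ideal.exists_smul_eq_of_isGaloisGroup (und F E w).asIdeal w.asIdeal w'.asIdeal
    Gal(E/F)
  refine ⟨g, ?_⟩
  ext x
  rw [primeEquiv_asIdeal, hg]


/-- The norm as a product over the Galois group: `∏_g g(x) = N_{E/F}(x)` inside `E`. -/
theorem toMul_normAdd (x : Additive Eˣ) :
    ((Additive.toMul (normAdd F E x) : Eˣ) : E) =
      algebraMap F E (Algebra.norm F ((Additive.toMul x : Eˣ) : E)) := by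
  rw [Algebra.norm_eq_prod_automorphisms, normAdd_apply, toMul_sum, Units.coe_prod]
  exact Finset.prod_congr rfl fun g _ => rfl

/-- The norm `N_{E/F}` on units, viewed in `E`, is `normAdd`. -/
theorem iotaAdd_norm (y : Eˣ) :
    iotaAdd F E (Additive.ofMul (Units.map (Algebra.norm F : E →* F) y)) =
      normAdd F E (Additive.ofMul y) := by
  apply Additive.toMul.injective
  apply Units.ext
  rw [toMul_normAdd, toMul_iotaAdd]
  rfl

/-- `ord_w (∏_g g y) = ∑_g ord_{g⁻¹ w} y`. -/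
theorem ordAt_normAdd (w : HeightOneSpectrum (𝓞 E)) (x : Additive Eˣ) :
    ordAt w (Additive.toMul (normAdd F E x)) =
      ∑ g : Gal(E/F), ordAt (primeEquiv F E g⁻¹ w) (Additive.toMul x) := by
  rw [← divHom_apply, divHom_normAdd, normDiv_apply, Finsupp.coe_finsetSum, Finset.sum_apply]
  exact Finset.sum_congr rfl fun g _ => by rw [tAdd_apply, divHom_apply]

/-- Valuations of norms: `e(w) · ord_v (N y) = ∑_g ord_{g⁻¹ w} y` for `v` the prime below `w`. -/
theorem eIdx_mul_ordAt_norm (w : HeightOneSpectrum (𝓞 E)) (y : Eˣ) :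
    (eIdx F E w : ℤ) * ordAt (und F E w) (Units.map (Algebra.norm F : E →* F) y) =
      ∑ g : Gal(E/F), ordAt (primeEquiv F E g⁻¹ w) y := by
  have h := ordAt_iotaAdd F E w (Additive.ofMul (Units.map (Algebra.norm F : E →* F) y))
  rw [iotaAdd_norm, ordAt_normAdd] at h
  exact h.symm

end Ext

end

end Fermat.Agent.S14.helper68
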