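import Mathlib
import Fermat.Agent.S14.helper694_ZetaKummer

/-!
# S14 / M2 — Kummer-form zeta lemma, `HeightOneSpectrum` surfaces

Mathlib-only restatements of `exists_prime_not_pow_residue` for consumers who work with
`HeightOneSpectrum (𝓞 E)`:

* `exists_place_not_pow_residue'` : finite exclusion set `T`, hypothesis "not a `p`-th power in `E`";
* `kummerPrime` : exclusion by a nonzero integer `m`, hypothesis "not a `p`-th power in `𝓞 E`",
  conclusion `¬ ∃ y, b - y ^ p ∈ w` (the shape `Stmt_KummerPrime` of the `Stmt_WCKummer` leaf).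
-/

namespace Fermat.Agent.S14.helper694

open NumberField IsDedekindDomain

/-- Kummer-form zeta lemma with primes as `HeightOneSpectrum`, including the side conditions
`p ∉ W` and `u ∉ W`. -/
theorem exists_place_not_pow_residue' {p : ℕ} (hp : p.Prime) (E : Type*) [Field E]
    [NumberField E] (hζ : ∃ ζ : E, IsPrimitiveRoot ζ p) (u : 𝓞 E)
    (hu : ¬ ∃ y : E, (u : E) = y ^ p) (T : Finset (HeightOneSpectrum (𝓞 E)))
    (F : Finset (Ideal (𝓞 E))) :
    ∃ W : HeightOneSpectrum (𝓞 E), W ∉ T ∧ W.asIdeal ∉ F ∧ (Ideal.absNorm W.asIdeal).Prime ∧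
      (p : 𝓞 E) ∉ W.asIdeal ∧ u ∉ W.asIdeal ∧ ¬ ∃ β : 𝓞 E, β ^ p - u ∈ W.asIdeal := by
  classical
  obtain ⟨ζ, hζ⟩ := hζ
  obtain ⟨𝔮, h𝔮, h0, hF, hq, hp𝔮, hu𝔮, hres⟩ :=
    exists_prime_not_pow_residue E hp ζ hζ u hu (F ∪ T.image fun W => W.asIdeal)
  exact ⟨⟨𝔮, h𝔮, h0⟩,
    fun hW => hF (Finset.mem_union_right _ (Finset.mem_image.mpr ⟨_, hW, rfl⟩)),
    fun hW => hF (Finset.mem_union_left _ hW), hq, hp𝔮, hu𝔮, hres⟩

/-- An element of `𝓞 E` which is a `p`-th power in `E` is a `p`-th power in `𝓞 E`. -/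
theorem exists_integer_pow_eq {p : ℕ} (hp : p.Prime) {E : Type*} [Field E] [NumberField E]
    (b : 𝓞 E) (h : ∃ y : E, (b : E) = y ^ p) : ∃ y : 𝓞 E, b = y ^ p := by
  obtain ⟨y, hy⟩ := h
  have hyint : IsIntegral ℤ y := IsIntegral.of_pow hp.pos (hy ▸ RingOfIntegers.isIntegral_coe b)
  refine ⟨⟨y, hyint⟩, RingOfIntegers.ext ?_⟩
  rw [hy]
  rfl

/-- **Kummer prime** (the input `Stmt_KummerPrime` of the `Stmt_WCKummer` leaf): if `b ∈ 𝓞 E` is
not a `p`-th power and `m ≠ 0`, there is a prime `w` of prime absolute norm, not containing `m`,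
modulo which `b` is not a `p`-th power. -/
theorem kummerPrime {p : ℕ} (hp : p.Prime) (E : Type*) [Field E] [NumberField E] (ζ : E)
    (hζ : IsPrimitiveRoot ζ p) (b : 𝓞 E) (hb : ¬ ∃ y : 𝓞 E, b = y ^ p) (m : ℕ) (hm : m ≠ 0) :
    ∃ w : HeightOneSpectrum (𝓞 E), (Ideal.absNorm w.asIdeal).Prime ∧ (m : 𝓞 E) ∉ w.asIdeal ∧
      ¬ ∃ y : 𝓞 E, b - y ^ p ∈ w.asIdeal := by
  classical
  have hm0 : Ideal.span {(m : 𝓞 E)} ≠ ⊥ := by
    rw [Ne, Ideal.span_singleton_eq_bot]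
    exact Nat.cast_ne_zero.mpr hm
  obtain ⟨W, -, hWF, hq, -, -, hres⟩ := exists_place_not_pow_residue' hp E ⟨ζ, hζ⟩ b
    (fun h => hb (exists_integer_pow_eq hp b h)) ∅
    (UniqueFactorizationMonoid.normalizedFactors (Ideal.span {(m : 𝓞 E)})).toFinset
  refine ⟨W, hq, fun hmW => hWF ?_, fun ⟨y, hy⟩ => hres ⟨y, ?_⟩⟩
  · rw [Multiset.mem_toFinset, Ideal.mem_normalizedFactors_iff hm0]
    exact ⟨W.isPrime, (Ideal.span_singleton_le_iff_mem _).mpr hmW⟩
  · have e : y ^ p - b = -(b - y ^ p) := by ring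
    rw [e]
    exact W.asIdeal.neg_mem hy

end Fermat.Agent.S14.helper694
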