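import Mathlib
import Fermat.Agent.S14.helper694_ZetaKummer
import Fermat.Agent.S14.helper1892_M6Defs

/-!
# S14 / M2 — adapter: the Kummer-form zeta lemma in the shape `helper1892.Stmt_M2`

`stmt_M2 hp E ⟨ζ, hζ⟩ : Fermat.Agent.S14.helper1892.Stmt_M2 E p` (consumed by
`helper7212.selectOne` / the M6 core), plus the variant with the extra conclusions
`p ∉ W`, `u ∉ W`.
-/

namespace Fermat.Agent.S14.helper694

open NumberField IsDedekindDomain

/-- Kummer-form zeta lemma with primes as `HeightOneSpectrum`, including the side conditions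
`p ∉ W` and `u ∉ W`. -/
theorem exists_place_not_pow_residue {p : ℕ} (hp : p.Prime) (E : Type*) [Field E] [NumberField E]
    (hζ : ∃ ζ : E, IsPrimitiveRoot ζ p) (u : 𝓞 E) (hu : ¬ ∃ y : E, (u : E) = y ^ p)
    (T : Finset (HeightOneSpectrum (𝓞 E))) :
    ∃ W : HeightOneSpectrum (𝓞 E), W ∉ T ∧ (Ideal.absNorm W.asIdeal).Prime ∧
      (p : 𝓞 E) ∉ W.asIdeal ∧ u ∉ W.asIdeal ∧ ¬ ∃ β : 𝓞 E, β ^ p - u ∈ W.asIdeal := by
  classical
  obtain ⟨ζ, hζ⟩ := hζ
  obtain ⟨𝔮, h𝔮, h0, hF, hq, hp𝔮, hu𝔮, hres⟩ :=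
    exists_prime_not_pow_residue E hp ζ hζ u hu (T.image fun W => W.asIdeal)
  refine ⟨⟨𝔮, h𝔮, h0⟩, fun hW => hF (Finset.mem_image.mpr ⟨_, hW, rfl⟩), hq, hp𝔮, hu𝔮, hres⟩

/-- **M2 in the shape required by the M6 core** (`helper1892.Stmt_M2`). -/
theorem stmt_M2 {p : ℕ} (hp : p.Prime) (E : Type*) [Field E] [NumberField E]
    (hζ : ∃ ζ : E, IsPrimitiveRoot ζ p) : Fermat.Agent.S14.helper1892.Stmt_M2 E p := by
  intro u hu T
  obtain ⟨W, hW, hq, -, -, hres⟩ := exists_place_not_pow_residue hp E hζ u hu T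
  exact ⟨W, hW, hq, hres⟩

end Fermat.Agent.S14.helper694
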