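import Mathlib
import Fermat.Agent.S14.helper694_ZetaKummer
import Fermat.Agent.S14.helper14_Spec

/-!
# S14 / M2 — adapter: `helper14.Stmt_Zeta` (M2a of the CFT spec), verbatim

In a nontrivial extension `E'/E` of number fields there is, outside any finite set, a prime of
`E` of prime absolute norm which does not split completely.
-/

namespace Fermat.Agent.S14.helper694

open NumberField IsDedekindDomain

/-- If a prime `𝔮` of prime absolute norm has at least `[E' : E]` primes above it, then all of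
them have the same absolute norm as `𝔮`. -/
theorem absNorm_eq_of_finrank_le_card {E E' : Type*} [Field E] [NumberField E] [Field E']
    [NumberField E'] [Algebra E E'] (𝔮 : Ideal (𝓞 E)) (h𝔮 : 𝔮.IsPrime) (h0 : 𝔮 ≠ ⊥)
    (hq : (Ideal.absNorm 𝔮).Prime) (s : Finset (Ideal (𝓞 E')))
    (hs : ∀ P ∈ s, P.IsPrime ∧ P.comap (algebraMap (𝓞 E) (𝓞 E')) = 𝔮)
    (hcard : Module.finrank E E' ≤ s.card) {P : Ideal (𝓞 E')} (hP : P ∈ s) :
    Ideal.absNorm P = Ideal.absNorm 𝔮 := by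
  have hne0 : ∀ P ∈ s, P ≠ ⊥ := by
    intro P hP hbot
    have h1 := (hs P hP).2
    rw [hbot] at h1
    apply h0
    rw [← h1]
    ext x
    simp only [Ideal.mem_comap, Ideal.mem_bot]
    exact ⟨fun h => RingOfIntegers.algebraMap.injective E E' (by rw [h, map_zero]),
      fun h => by rw [h, map_zero]⟩
  have hmax : ∀ P ∈ s, P.IsMaximal := fun P hP => (hs P hP).1.isMaximal (hne0 P hP)
  exact (isPrime_of_coprime_family s id 𝔮 h𝔮 h0 hq hcard
    (fun P hP => Ideal.map_le_iff_le_comap.mpr (hs P hP).2.ge)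
    (fun P hP => (hs P hP).1.ne_top)
    (fun P hP P' hP' hne => Ideal.IsMaximal.coprime_of_ne (hmax P hP) (hmax P' hP') hne) hP).2.2

/-- **M2a in the captain's shape** (`helper14.Stmt_Zeta`). -/
theorem stmt_Zeta : Fermat.Agent.S14.helper14.Stmt_Zeta := by
  intro E E' _ _ _ _ _ hdeg B
  classical
  obtain ⟨𝔮, h𝔮, h0, hF, hq, huniq⟩ :=
    exists_prime_atMostOne_degree_one_above E E' (B.image fun W => W.asIdeal)
  refine ⟨⟨𝔮, h𝔮, h0⟩, fun hW => hF (Finset.mem_image.mpr ⟨_, hW, rfl⟩), hq, ?_⟩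
  intro hsplit
  unfold Fermat.Agent.S14.helper14.SplitsCompletely at hsplit
  have hfin : (Ideal.primesOver 𝔮 (𝓞 E')).Finite :=
    Set.finite_of_ncard_pos (by rw [hsplit]; omega)
  have hcard : Module.finrank E E' ≤ hfin.toFinset.card := by
    rw [← hsplit, Set.ncard_eq_toFinset_card _ hfin]
  have hmem : ∀ P ∈ hfin.toFinset, P.IsPrime ∧ P.comap (algebraMap (𝓞 E) (𝓞 E')) = 𝔮 := by
    intro P hP
    have hP' := hfin.mem_toFinset.mp hP
    exact ⟨hP'.1, (hP'.2.over).symm⟩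
  obtain ⟨P₁, hP₁, P₂, hP₂, hne⟩ := Finset.one_lt_card.mp (lt_of_lt_of_le hdeg hcard)
  exact hne (huniq P₁ P₂ (hmem P₁ hP₁).1 (hmem P₂ hP₂).1 (hmem P₁ hP₁).2 (hmem P₂ hP₂).2
    (absNorm_eq_of_finrank_le_card 𝔮 h𝔮 h0 hq _ hmem hcard hP₁)
    (absNorm_eq_of_finrank_le_card 𝔮 h𝔮 h0 hq _ hmem hcard hP₂))

end Fermat.Agent.S14.helper694
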