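import Mathlib
import Fermat.Agent.S14.helper1934_ThaineSpec
import Fermat.Agent.S14.helper702_KummerDensity

/-!
# S14, Thaine route: the Finset upper bound for prime-ideal sums from `Stmt_IdealZeta`

`∑_{w ∈ T} N(w)^(-s) ≤ log (1/(s-1)) + B` for every finite set `T` of primes, uniformly for
`s ∈ (1,2)`, from the bound `ζ_L(s) ≤ C/(s-1)` (`helper1934.Stmt_IdealZeta`).  No Euler product:
squarefree products of distinct primes are distinct ideals, so `∏_{w ∈ T} (1 + N(w)^(-s)) ≤ ζ_L(s)`;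
then `x - x² ≤ log (1 + x)` and `∑ N(w)^(-2s) ≤ ζ_L(2)`.
-/

set_option autoImplicit false

namespace Fermat.Agent.S14.helper702

open NumberField IsDedekindDomain

theorem sub_sq_le_log_one_add {x : ℝ} (hx : 0 ≤ x) : x - x ^ 2 ≤ Real.log (1 + x) := by
  have h1 : (0 : ℝ) < 1 + x := by linarith
  have h2 := Real.one_sub_inv_le_log_of_pos h1
  have h3 : x - x ^ 2 ≤ 1 - (1 + x)⁻¹ := by
    rw [← sub_nonneg]
    have : 1 - (1 + x)⁻¹ - (x - x ^ 2) = x ^ 3 / (1 + x) := by
      field_simp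
      ring
    rw [this]
    positivity
  linarith

/-- Squarefree products of distinct primes are distinct ideals. -/
theorem prod_asIdeal_injective {R : Type} [CommRing R] [IsDedekindDomain R] :
    Function.Injective (fun T : Finset (HeightOneSpectrum R) => ∏ w ∈ T, w.asIdeal) := by
  classical
  have key : ∀ (T : Finset (HeightOneSpectrum R)) (w : HeightOneSpectrum R),
      ∏ u ∈ T, u.asIdeal ≤ w.asIdeal ↔ w ∈ T := by
    intro T w
    constructor
    · intro h
      obtain ⟨u, huT, hu⟩ := (Ideal.IsPrime.prod_le w.isPrime).mp h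
      have : u = w := HeightOneSpectrum.ext (u.isMaximal.eq_of_le w.isPrime.ne_top hu)
      exact this ▸ huT
    · intro hw
      exact Ideal.prod_le_inf.trans (Finset.inf_le hw)
  intro T1 T2 h
  ext w
  rw [← key T1 w, ← key T2 w]
  exact ⟨fun h1 => (show ∏ u ∈ T2, u.asIdeal = ∏ u ∈ T1, u.asIdeal from h.symm) ▸ h1,
    fun h2 => (show ∏ u ∈ T1, u.asIdeal = ∏ u ∈ T2, u.asIdeal from h) ▸ h2⟩

/-- The Finset upper bound for sums over primes, from the upper bound for the ideal zeta sum. -/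
theorem stmt_ZUpper_of_idealZeta (h : helper1934.Stmt_IdealZeta) : Stmt_ZUpper := by
  classical
  intro L _ _
  obtain ⟨hsum, C, hC, hCs⟩ := h L
  set M2 : ℝ := ∑' I : Ideal (𝓞 L), (Ideal.absNorm I : ℝ) ^ (-(2 : ℝ)) with hM2
  refine ⟨Real.log C + M2, fun s hs1 hs2 T => ?_⟩
  set x : HeightOneSpectrum (𝓞 L) → ℝ := fun w => (Ideal.absNorm w.asIdeal : ℝ) ^ (-s) with hx
  have hx0 : ∀ w, 0 ≤ x w := fun w => by positivity
  -- the product bound
  have hprod : ∏ w ∈ T, (1 + x w) ≤ C / (s - 1) := by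
    rw [Finset.prod_one_add]
    have hterm : ∀ T' ∈ T.powerset,
        ∏ w ∈ T', x w = (Ideal.absNorm (∏ w ∈ T', w.asIdeal) : ℝ) ^ (-s) := by
      intro T' _
      rw [map_prod, Nat.cast_prod, ← Real.finsetProd_rpow _ _ (fun w _ => Nat.cast_nonneg _)]
    rw [Finset.sum_congr rfl hterm,
      ← Finset.sum_image (f := fun I : Ideal (𝓞 L) => (Ideal.absNorm I : ℝ) ^ (-s))
        (g := fun T' : Finset (HeightOneSpectrum (𝓞 L)) => ∏ w ∈ T', w.asIdeal)
        (fun a _ b _ hab => prod_asIdeal_injective hab)]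
    exact ((hsum s hs1).sum_le_tsum _ (fun I _ => by positivity)).trans (hCs s hs1 hs2).2
  have hpos : 0 < ∏ w ∈ T, (1 + x w) := Finset.prod_pos (fun w _ => by linarith [hx0 w])
  have hlog : ∑ w ∈ T, Real.log (1 + x w) ≤ Real.log (C / (s - 1)) := by
    rw [← Real.log_prod (fun w _ => (by linarith [hx0 w] : (1 + x w) ≠ 0))]
    exact Real.log_le_log hpos hprod
  have hs0 : (0 : ℝ) < s - 1 := by linarith
  have hlogC : Real.log (C / (s - 1)) = Real.log C + Real.log (1 / (s - 1)) := by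
    rw [div_eq_mul_one_div, Real.log_mul hC.ne' (one_div_ne_zero hs0.ne')]
  have hsq : ∑ w ∈ T, (x w) ^ 2 ≤ M2 := by
    have h1 : ∀ w ∈ T, (x w) ^ 2 ≤ (Ideal.absNorm w.asIdeal : ℝ) ^ (-(2 : ℝ)) := by
      intro w _
      have hN : (1 : ℝ) ≤ Ideal.absNorm w.asIdeal := by
        have : Ideal.absNorm w.asIdeal ≠ 0 := by
          rw [Ne, Ideal.absNorm_eq_zero_iff]
          exact w.ne_bot
        exact_mod_cast Nat.one_le_iff_ne_zero.mpr this
      have hxw : (x w) ^ 2 = (Ideal.absNorm w.asIdeal : ℝ) ^ (-s * 2) := by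
        rw [hx]
        simp only
        rw [← Real.rpow_natCast, ← Real.rpow_mul (Nat.cast_nonneg _)]
        norm_num
      rw [hxw]
      apply Real.rpow_le_rpow_of_exponent_le hN
      linarith
    calc ∑ w ∈ T, (x w) ^ 2 ≤ ∑ w ∈ T, (Ideal.absNorm w.asIdeal : ℝ) ^ (-(2 : ℝ)) :=
          Finset.sum_le_sum h1
      _ = ∑ I ∈ T.image (fun w => w.asIdeal), (Ideal.absNorm I : ℝ) ^ (-(2 : ℝ)) := by
          rw [Finset.sum_image (fun a _ b _ hab => HeightOneSpectrum.ext hab)]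
      _ ≤ M2 := (hsum 2 (by norm_num)).sum_le_tsum _ (fun I _ => by positivity)
  calc ∑ w ∈ T, x w ≤ ∑ w ∈ T, (Real.log (1 + x w) + (x w) ^ 2) :=
        Finset.sum_le_sum (fun w _ => by have := sub_sq_le_log_one_add (hx0 w); linarith)
    _ = ∑ w ∈ T, Real.log (1 + x w) + ∑ w ∈ T, (x w) ^ 2 := Finset.sum_add_distrib
    _ ≤ Real.log (C / (s - 1)) + M2 := add_le_add hlog hsq
    _ = Real.log (1 / (s - 1)) + (Real.log C + M2) := by rw [hlogC]; ring

/-- `Stmt_KummerDensity` from `Stmt_IdealZeta` alone. -/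
theorem stmt_KummerDensity_of_idealZeta (p : ℕ) [Fact p.Prime] (h : helper1934.Stmt_IdealZeta) :
    helper1934.Stmt_KummerDensity p :=
  stmt_KummerDensity p (stmt_ZUpper_of_idealZeta h)

end Fermat.Agent.S14.helper702
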