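/-
S14 / M5 (first inequality), sub-leaf `H¹ = 1` of the S-unit norm index leaf (board row 648):
Hilbert 90 for the `S'`-units of a cyclic extension `E / F` which is unramified outside `S`, when
`S` generates the class group of `F`.  Author: helper7133.

`h1_sUnits` is, verbatim, the hypothesis `H1` of `helper3036.sUnitNormIndex_of_H1`
(WIP branch `origin/helper3036`): every `S'`-unit of norm one is `σ y / y` for an `S'`-unit `y`.
-/
import Mathlib
import Fermat.Agent.S14.helper165_FirstIneqSpec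
import Fermat.Agent.S14.helper68_M5Defs

set_option autoImplicit false
set_option linter.unusedSectionVars false

open IsDedekindDomain NumberField

namespace Fermat.Agent.S14.helper7133

open Fermat.Agent.S14.helper165 (normHom IsAbove)
open Fermat.Agent.S14.helper1892 (ClassGen)
open Fermat.Agent.S14.helper2613 (ordAt ordHom SUnits mem_SUnits mem_SUnits_iff_ordAt ordAt_mul
  ordAt_eq_zero_iff)
open Fermat.Agent.S14.helper68 (primeEquiv und und_primeEquiv valuation_primeEquiv primeEquiv_one
  primeEquiv_mul und_surjective exists_primeEquiv_eq finite_support_ordAt eIdx iotaAdd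
  ordAt_iotaAdd)

section OrdAt

variable {K : Type*} [Field K] [NumberField K]

theorem ordAt_zpow' (v : HeightOneSpectrum (𝓞 K)) (u : Kˣ) (k : ℤ) :
    ordAt v (u ^ k) = k * ordAt v u := by
  have h := congrArg Multiplicative.toAdd (map_zpow (ordHom v) u k)
  simpa [ordHom, toAdd_zpow] using h

theorem ordAt_inv' (v : HeightOneSpectrum (𝓞 K)) (u : Kˣ) : ordAt v u⁻¹ = -ordAt v u := by
  have h := congrArg Multiplicative.toAdd (map_inv (ordHom v) u)
  simpa [ordHom] using h

theorem ordAt_prod' {ι : Type*} (v : HeightOneSpectrum (𝓞 K)) (s : Finset ι) (f : ι → Kˣ) :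
    ordAt v (∏ i ∈ s, f i) = ∑ i ∈ s, ordAt v (f i) := by
  classical
  induction s using Finset.induction_on with
  | empty => simp [Fermat.Agent.S14.helper2613.ordAt_one]
  | insert a s ha ih => rw [Finset.prod_insert ha, Finset.sum_insert ha, ordAt_mul, ih]

end OrdAt

section H1

variable (F E : Type) [Field F] [NumberField F] [Field E] [NumberField E] [Algebra F E]
  [IsGalois F E]

omit [IsGalois F E] in
theorem mem_iff_und_mem {S : Finset (HeightOneSpectrum (𝓞 F))}
    {S' : Finset (HeightOneSpectrum (𝓞 E))} (hS : IsAbove F E S S')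
    (w : HeightOneSpectrum (𝓞 E)) : w ∈ S' ↔ und F E w ∈ S := by
  rw [hS w]
  constructor
  · rintro ⟨v, hv, h⟩
    have : v = und F E w := HeightOneSpectrum.ext h
    rwa [← this]
  · intro h
    exact ⟨und F E w, h, rfl⟩

theorem primeEquiv_mem_iff {S : Finset (HeightOneSpectrum (𝓞 F))}
    {S' : Finset (HeightOneSpectrum (𝓞 E))} (hS : IsAbove F E S S') (τ : Gal(E/F))
    (w : HeightOneSpectrum (𝓞 E)) : primeEquiv F E τ w ∈ S' ↔ w ∈ S' := by
  rw [mem_iff_und_mem F E hS, mem_iff_und_mem F E hS, und_primeEquiv]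

/-- **`H¹(S'`-units`) = 1`**: if `S` generates the class group of `F`, `S'` is the set of primes
of `E` above `S` and `E / F` (cyclic with generator `σ`) is unramified outside `S`, then every
`S'`-unit of norm `1` is of the form `σ y / y` with `y` an `S'`-unit. -/
theorem h1_sUnits {S : Finset (HeightOneSpectrum (𝓞 F))}
    {S' : Finset (HeightOneSpectrum (𝓞 E))} (hS : IsAbove F E S S') (hCG : ClassGen S)
    (hur : ∀ v, v ∉ S → v.asIdeal.ramificationIdxIn (𝓞 E) = 1)
    {σ : E ≃ₐ[F] E} (hσ : ∀ τ : E ≃ₐ[F] E, τ ∈ Subgroup.zpowers σ)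
    (x : Eˣ) (hx : x ∈ SUnits E S') (hN : normHom F E x = 1) :
    ∃ y : Eˣ, y ∈ SUnits E S' ∧ σ (y : E) / (y : E) = (x : E) := by
  classical
  have hcyc : IsCyclic (E ≃ₐ[F] E) := ⟨⟨σ, hσ⟩⟩
  have hN' : Algebra.norm F (x : E) = 1 := congrArg Units.val hN
  obtain ⟨y1, hy1⟩ := groupCohomology.exists_div_of_norm_eq_one hσ hN'
  obtain ⟨y0, hy0⟩ : ∃ y0 : Eˣ, y0 = y1⁻¹ := ⟨_, rfl⟩
  have hy1ne : (y1 : E) ≠ 0 := y1.ne_zero
  have hσy1ne : σ (y1 : E) ≠ 0 := (map_ne_zero σ).mpr hy1ne
  have hy0x : σ (y0 : E) = (x : E) * (y0 : E) := by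
    rw [hy0, Units.val_inv_eq_inv_val, map_inv₀, ← hy1]
    field_simp
  -- `ord_w y0` is invariant under `σ` on the primes outside `S'`
  have hstep : ∀ w, w ∉ S' → ordAt (primeEquiv F E σ w) y0 = ordAt w y0 := by
    intro w hw
    have hw' : primeEquiv F E σ w ∉ S' := by rwa [primeEquiv_mem_iff F E hS]
    have h1 : (primeEquiv F E σ w).valuation E (x : E) = 1 := (mem_SUnits.mp hx) _ hw'
    have h2 : (primeEquiv F E σ w).valuation E (σ (y0 : E))
        = (primeEquiv F E σ w).valuation E (y0 : E) := by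
      rw [hy0x, map_mul, h1, one_mul]
    unfold ordAt
    rw [← h2, valuation_primeEquiv]
  have hstep' : ∀ w, w ∉ S' → ordAt (primeEquiv F E σ⁻¹ w) y0 = ordAt w y0 := by
    intro w hw
    have hw' : primeEquiv F E σ⁻¹ w ∉ S' := by rwa [primeEquiv_mem_iff F E hS]
    have h := hstep _ hw'
    rw [← primeEquiv_mul, mul_inv_cancel, primeEquiv_one] at h
    exact h.symm
  have hall : ∀ τ : Gal(E/F), ∀ w, w ∉ S' → ordAt (primeEquiv F E τ w) y0 = ordAt w y0 := by
    intro τ
    obtain ⟨k, rfl⟩ := Subgroup.mem_zpowers_iff.mp (hσ τ)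
    induction k using Int.induction_on with
    | zero =>
      intro w _
      rw [zpow_zero, primeEquiv_one]
    | succ n ih =>
      intro w hw
      rw [zpow_add_one, primeEquiv_mul, ih _ (by rwa [primeEquiv_mem_iff F E hS]), hstep w hw]
    | pred n ih =>
      intro w hw
      rw [zpow_sub_one, primeEquiv_mul, ih _ (by rwa [primeEquiv_mem_iff F E hS]), hstep' w hw]
  -- hence it only depends on the prime of `F` below
  choose wOf hwOf using und_surjective F E
  let n : HeightOneSpectrum (𝓞 F) → ℤ := fun v => ordAt (wOf v) y0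
  have hn : ∀ w, w ∉ S' → ordAt w y0 = n (und F E w) := by
    intro w hw
    obtain ⟨g, hg⟩ := exists_primeEquiv_eq F E (w := w) (w' := wOf (und F E w)) (hwOf _).symm
    show _ = ordAt (wOf (und F E w)) y0
    rw [← hg, hall g w hw]
  have hfin : (Function.support fun w : HeightOneSpectrum (𝓞 E) => ordAt w y0).Finite :=
    finite_support_ordAt E y0
  let T : Finset (HeightOneSpectrum (𝓞 F)) :=
    (hfin.toFinset.image (und F E)).filter (fun v => v ∉ S)
  have hTS : ∀ v ∈ T, v ∉ S := fun v hv => (Finset.mem_filter.mp hv).2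
  have hT : ∀ v, v ∉ S → n v ≠ 0 → v ∈ T := by
    intro v hv hnv
    simp only [T, Finset.mem_filter, Finset.mem_image, Set.Finite.mem_toFinset,
      Function.mem_support]
    exact ⟨⟨wOf v, hnv, hwOf v⟩, hv⟩
  -- the element of `Fˣ` with divisor `∑ n_v v` outside `S`
  choose! xg hxg1 hxg2 using hCG
  obtain ⟨c, hcdef⟩ : ∃ c : Fˣ, c = ∏ v ∈ T, xg v ^ (-(n v)) := ⟨_, rfl⟩
  have hc : ∀ v', v' ∉ S → ordAt v' c = n v' := by
    intro v' hv'
    have hterm : ∀ v ∈ T, ordAt v' (xg v ^ (-(n v))) = if v = v' then n v' else 0 := by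
      intro v hv
      rw [ordAt_zpow']
      split_ifs with h
      · subst h
        have : ordAt v (xg v) = -1 := by
          unfold ordAt
          rw [hxg1 v hv']
          exact WithZero.log_exp _
        rw [this]
        ring
      · have : ordAt v' (xg v) = 0 := by
          rw [ordAt_eq_zero_iff]
          exact hxg2 v (hTS v hv) v' hv' (Ne.symm h)
        rw [this, mul_zero]
    rw [hcdef, ordAt_prod', Finset.sum_congr rfl hterm, Finset.sum_ite_eq' T v' (fun _ => n v')]
    split_ifs with h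
    · rfl
    · by_contra hne
      exact h (hT v' hv' (Ne.symm hne))
  -- the corrected element
  obtain ⟨ιc, hιc⟩ : ∃ ιc : Eˣ, ιc = Units.map (algebraMap F E : F →* E) c := ⟨_, rfl⟩
  refine ⟨y0 * ιc⁻¹, ?_, ?_⟩
  · rw [mem_SUnits_iff_ordAt]
    intro w hw
    have hv : und F E w ∉ S := by rwa [← mem_iff_und_mem F E hS]
    have h1 : ordAt w ιc = (eIdx F E w : ℤ) * ordAt (und F E w) c := by
      rw [hιc]
      exact ordAt_iotaAdd F E w (Additive.ofMul c)
    have he : eIdx F E w = 1 := hur _ hv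
    rw [ordAt_mul, ordAt_inv', h1, he, hn w hw, hc _ hv]
    simp
  · have hιne : (ιc : E) ≠ 0 := ιc.ne_zero
    have hy0ne : (y0 : E) ≠ 0 := y0.ne_zero
    have hσι : σ (ιc : E) = (ιc : E) := by
      rw [hιc, Units.coe_map]
      exact σ.commutes _
    rw [Units.val_mul, Units.val_inv_eq_inv_val, map_mul, map_inv₀, hσι, hy0x]
    field_simp

end H1

end Fermat.Agent.S14.helper7133
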