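/-
S14 moonshot, module M6, leaf SELECT-ONE (board row 508, backup implementation).
Author: helper7212.

Pieces (each exported separately):
* (H) tame Hensel: `locPow_of_locPowN_one`;
* (R) residues modulo a prime of prime norm are integers: `exists_int_sub_mem_of_absNorm_prime`;
* (K) Kummer: `kummer_pow_form`;
* (B) the transfer `selectOne_of_ext` and the leaf `selectOne`.
-/
import Mathlib
import Fermat.Agent.S14.helper1892_M6Defs
import Fermat.Agent.S14.helper7212_LocalCyclic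

set_option autoImplicit false

open IsDedekindDomain NumberField WithZero Polynomial

namespace Fermat.Agent.S14.helper7212

open Fermat.Agent.S14.helper1892

universe u

/-! ### (H) tame Hensel -/

section Hensel

/-- Binomial expansion to second order, with remainder in a subring. -/
theorem exists_one_add_pow_eq {R : Type*} [CommRing R] (A : Subring R) {t : R} (ht : t ∈ A)
    (n : ℕ) : ∃ r ∈ A, (1 + t) ^ n = 1 + n * t + t ^ 2 * r := by
  induction n with
  | zero => exact ⟨0, A.zero_mem, by simp⟩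
  | succ n ih =>
    obtain ⟨r, hr, h⟩ := ih
    refine ⟨n + r + r * t, A.add_mem (A.add_mem (natCast_mem A n) hr) (A.mul_mem hr ht), ?_⟩
    rw [pow_succ, h]
    push_cast
    ring

theorem exp_neg_natCast_lt_one {N : ℕ} (hN : 1 ≤ N) : WithZero.exp (-(N : ℤ)) < (1 : ℤᵐ⁰) := by
  rw [← WithZero.exp_zero, WithZero.exp_lt_exp]
  omega

variable {F : Type*} [Field F] [NumberField F]

/-- One Hensel step at a place not above `p`. -/
theorem locPowN_succ_of_locPowN {p : ℕ} (w : HeightOneSpectrum (𝓞 F))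
    (hpw : (p : 𝓞 F) ∉ w.asIdeal) (x : Fˣ) (N : ℕ) (hN : 1 ≤ N) (h : LocPowN p w N x) :
    LocPowN p w (N + 1) x := by
  obtain ⟨y, hy⟩ := h
  set v := w.valuation F with hv
  set s : F := (x : F) / (y : F) ^ p - 1 with hs
  have hvp : v (p : F) = 1 := by
    have e : (p : F) = algebraMap (𝓞 F) F (p : 𝓞 F) := by simp
    rw [e]
    exact (w.valuation_eq_one_iff_notMem (K := F)).mpr hpw
  have hp0 : (p : F) ≠ 0 := by
    intro h0
    rw [h0, map_zero] at hvp
    exact zero_ne_one hvp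
  have hslt : v s < 1 := lt_of_le_of_lt hy (exp_neg_natCast_lt_one hN)
  set t : F := s / p with ht
  have hvt : v t = v s := by rw [ht, map_div₀, hvp, div_one]
  have htA : t ∈ v.integer := by
    rw [Valuation.mem_integer_iff, hvt]
    exact hslt.le
  obtain ⟨r, hr, hexp⟩ := exists_one_add_pow_eq v.integer htA p
  have hz1 : v (1 + t) = 1 := by
    have := v.map_one_add_of_lt (show v t < 1 by rw [hvt]; exact hslt)
    simpa using this
  have hz0 : (1 + t) ≠ 0 := by
    intro h0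
    rw [h0, map_zero] at hz1
    exact zero_ne_one hz1
  refine ⟨y * Units.mk0 _ hz0, ?_⟩
  have hy0 : ((y : F)) ^ p ≠ 0 := pow_ne_zero _ y.ne_zero
  have hzp0 : (1 + t) ^ p ≠ 0 := pow_ne_zero _ hz0
  have hx : (x : F) / (y : F) ^ p = 1 + s := by rw [hs]; ring
  have hpt : (p : F) * t = s := by rw [ht]; field_simp
  have key : ((x : F)) / ((y * Units.mk0 _ hz0 : Fˣ) : F) ^ p - 1
      = -(t ^ 2 * r) / (1 + t) ^ p := by
    rw [Units.val_mul, Units.val_mk0, mul_pow, ← div_div, hx, eq_div_iff hzp0, sub_mul,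
      div_mul_cancel₀ _ hzp0, one_mul, hexp, ← hpt]
    ring
  have hr1 : v r ≤ 1 := (Valuation.mem_integer_iff _ _).mp hr
  rw [key, map_div₀, Valuation.map_neg, map_pow, hz1, one_pow, div_one, map_mul, map_pow, hvt]
  calc v s ^ 2 * v r ≤ v s ^ 2 * 1 := by gcongr
    _ = v s ^ 2 := mul_one _
    _ ≤ (WithZero.exp (-(N : ℤ))) ^ 2 := by gcongr
    _ ≤ WithZero.exp (-((N + 1 : ℕ) : ℤ)) := by
        rw [sq, ← WithZero.exp_add, WithZero.exp_le_exp]
        push_cast
        omega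

/-- **Tame Hensel**: at a place not above `p`, a `p`-th power residue is a local `p`-th power. -/
theorem locPow_of_locPowN_one {p : ℕ} (w : HeightOneSpectrum (𝓞 F))
    (hpw : (p : 𝓞 F) ∉ w.asIdeal) (x : Fˣ) (h : LocPowN p w 1 x) : LocPow p w x := by
  intro N
  induction N with
  | zero => exact h.mono (Nat.zero_le 1)
  | succ n ih =>
    rcases Nat.eq_zero_or_pos n with rfl | hn
    · exact h
    · exact locPowN_succ_of_locPowN w hpw x n hn ih

end Hensel

/-! ### (R) residues modulo a prime of prime norm -/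

/-- Modulo an ideal of prime norm every algebraic integer is congruent to a rational integer. -/
theorem exists_int_sub_mem_of_absNorm_prime {E : Type*} [Field E] [NumberField E]
    (W : Ideal (𝓞 E)) (hW : (Ideal.absNorm W).Prime) (x : 𝓞 E) :
    ∃ n : ℤ, x - (n : 𝓞 E) ∈ W := by
  have hcard : Nat.card (𝓞 E ⧸ W) = Ideal.absNorm W := by
    rw [Ideal.absNorm_apply, Submodule.cardQuot_apply]
  have : Fact (Ideal.absNorm W).Prime := ⟨hW⟩
  have hne : (1 : 𝓞 E ⧸ W) ≠ 0 := by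
    intro h
    have hmem : (1 : 𝓞 E) ∈ W := Ideal.Quotient.eq_zero_iff_mem.mp h
    have : W = ⊤ := (Ideal.eq_top_iff_one W).mpr hmem
    rw [this, Ideal.absNorm_top] at hW
    exact Nat.not_prime_one hW
  have htop := zmultiples_eq_top_of_prime_card hcard hne
  have hx : Ideal.Quotient.mk W x ∈ AddSubgroup.zmultiples (1 : 𝓞 E ⧸ W) := by
    rw [htop]; trivial
  obtain ⟨n, hn⟩ := AddSubgroup.mem_zmultiples_iff.mp hx
  refine ⟨n, ?_⟩
  rw [← Ideal.Quotient.eq_zero_iff_mem, map_sub, ← hn]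
  simp

/-! ### (K) Kummer -/

section Kummer

variable {F : Type u} [Field F]

local notation "KE(" p "," a ")" => AdjoinRoot (X ^ p - C a : F[X])

/-- **Kummer**: if `ζ_p ∈ F`, `X ^ p - a` is irreducible and `u ∈ F` is a `p`-th power in
`F(a^(1/p))`, then `u = a ^ k * c ^ p` with `c ∈ F`. -/
theorem kummer_pow_form {p : ℕ} (hp : p.Prime) {ζ : F}
    (hζ : IsPrimitiveRoot ζ p) {a : F} (H : Irreducible (X ^ p - C a : F[X])) (u : F)
    (e : KE(p, a)) (he : algebraMap F KE(p, a) u = e ^ p) :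
    ∃ (k : ℕ) (c : F), u = a ^ k * c ^ p := by
  classical
  have := Fact.mk H
  have : Fact p.Prime := ⟨hp⟩
  have : NeZero p := ⟨hp.ne_zero⟩
  have hζ' : (primitiveRoots p F).Nonempty := ⟨ζ, (mem_primitiveRoots hp.pos).mpr hζ⟩
  have : IsSplittingField F KE(p, a) (X ^ p - C a) :=
    isSplittingField_AdjoinRoot_X_pow_sub_C hζ' H
  have : IsGalois F KE(p, a) := isGalois_of_isSplittingField_X_pow_sub_C hζ' H _
  have : FiniteDimensional F KE(p, a) :=
    Polynomial.IsSplittingField.finiteDimensional _ (X ^ p - C a)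
  have hcard : Nat.card (KE(p, a) ≃ₐ[F] KE(p, a)) = p := by
    rw [IsGalois.card_aut_eq_finrank, finrank_of_isSplittingField_X_pow_sub_C hζ' H _]
  by_cases hu0 : u = 0
  · exact ⟨0, 0, by rw [hu0, zero_pow hp.ne_zero, mul_zero]⟩
  have hθp : (AdjoinRoot.root (X ^ p - C a : F[X])) ^ p = algebraMap F KE(p, a) a :=
    root_X_pow_sub_C_pow p a
  have hθ0 : (AdjoinRoot.root (X ^ p - C a : F[X])) ≠ 0 := root_X_pow_sub_C_ne_zero hp.one_lt a
  obtain ⟨θ, hθdef⟩ : ∃ θ : KE(p, a), θ = AdjoinRoot.root (X ^ p - C a : F[X]) := ⟨_, rfl⟩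
  rw [← hθdef] at hθp hθ0
  let η : rootsOfUnity p F := rootsOfUnity.mkOfPowEq ζ hζ.pow_eq_one
  obtain ⟨σ, hσdef⟩ : ∃ σ : KE(p, a) ≃ₐ[F] KE(p, a), σ = autAdjoinRootXPowSubC p a η := ⟨_, rfl⟩
  have hσθ : σ θ = algebraMap F KE(p, a) ζ * θ := by
    have h1 := autAdjoinRootXPowSubC_root a η
    rw [Algebra.smul_def] at h1
    rw [hσdef, hθdef]
    exact h1
  have hζE : IsPrimitiveRoot (algebraMap F KE(p, a) ζ) p :=
    hζ.map_of_injective (algebraMap F KE(p, a)).injective
  have he0 : e ≠ 0 := by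
    intro h0
    rw [h0, zero_pow hp.ne_zero] at he
    exact hu0 ((map_eq_zero (algebraMap F KE(p, a))).mp he)
  have hσe : (σ e / e) ^ p = 1 := by
    rw [div_pow, ← map_pow, ← he, AlgEquiv.commutes, div_self]
    rw [he]
    exact pow_ne_zero _ he0
  obtain ⟨j, -, hj⟩ := hζE.eq_pow_of_pow_eq_one hσe
  have hσe' : σ e = algebraMap F KE(p, a) ζ ^ j * e := by
    rw [hj, div_mul_cancel₀ _ he0]
  have hθj : θ ^ j ≠ 0 := pow_ne_zero _ hθ0
  have hσc : σ (e / θ ^ j) = e / θ ^ j := by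
    rw [map_div₀, map_pow, hσθ, hσe', mul_pow]
    have hz : algebraMap F KE(p, a) ζ ^ j ≠ 0 := pow_ne_zero _ (hζE.ne_zero hp.ne_zero)
    rw [mul_div_mul_left _ _ hz]
  have hσ1 : σ ≠ 1 := by
    intro h1
    have h2 : σ θ = θ := by rw [h1]; rfl
    rw [hσθ] at h2
    have h3 : algebraMap F KE(p, a) ζ = 1 := mul_right_cancel₀ hθ0 (h2.trans (one_mul θ).symm)
    exact hζE.ne_one hp.one_lt h3
  have htop : Subgroup.zpowers σ = ⊤ := zpowers_eq_top_of_prime_card hcard hσ1
  have hfix : ∀ τ : KE(p, a) ≃ₐ[F] KE(p, a), τ (e / θ ^ j) = e / θ ^ j := by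
    intro τ
    have hle : Subgroup.zpowers σ ≤ MulAction.stabilizer (KE(p, a) ≃ₐ[F] KE(p, a)) (e / θ ^ j) := by
      rw [Subgroup.zpowers_le, MulAction.mem_stabilizer_iff]
      exact hσc
    have hτ : τ ∈ MulAction.stabilizer (KE(p, a) ≃ₐ[F] KE(p, a)) (e / θ ^ j) :=
      hle (by rw [htop]; trivial)
    exact MulAction.mem_stabilizer_iff.mp hτ
  obtain ⟨c0, hc0⟩ := (IsGalois.mem_range_algebraMap_iff_fixed (e / θ ^ j)).mpr hfix
  refine ⟨j, c0, ?_⟩
  apply (algebraMap F KE(p, a)).injective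
  have hec : e = (e / θ ^ j) * θ ^ j := by
    rw [div_mul_cancel₀ _ hθj]
  rw [he, map_mul, map_pow, map_pow, hc0, ← hθp, ← pow_mul, mul_comm p j, pow_mul, ← mul_pow,
    mul_comm, ← hec]

end Kummer

/-! ### (B) transfer -/

section Transfer

variable {F : Type*} [Field F] [NumberField F] {E : Type*} [Field E] [NumberField E] [Algebra F E]

omit [NumberField F] [NumberField E] in
/-- coercion compatibility for the tower `𝓞 F → 𝓞 E → E`. -/
theorem coe_algebraMap_ringOfIntegers (z : 𝓞 F) :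
    ((algebraMap (𝓞 F) (𝓞 E) z : 𝓞 E) : E) = algebraMap F E (z : F) := rfl

omit [NumberField F] [NumberField E] in
theorem algebraMap_ringOfIntegers_injective :
    Function.Injective (algebraMap (𝓞 F) (𝓞 E)) := by
  intro x y h
  have h' := congrArg (fun t : 𝓞 E => (t : E)) h
  simp only [coe_algebraMap_ringOfIntegers] at h'
  exact RingOfIntegers.ext ((algebraMap F E).injective h')

/-- **SELECT-ONE, abstract form**: `E / F` an extension of number fields containing a `p`-th root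
`θ` of `a`, in which `u` is not a `p`-th power, and satisfying the zeta lemma `Stmt_M2`. -/
theorem selectOne_of_ext {p : ℕ} (hp : p.Prime) (hM2 : Stmt_M2 E p) (a u : Fˣ) (θ : E)
    (hθ : θ ^ p = algebraMap F E (a : F))
    (hu : ¬ ∃ e : E, algebraMap F E (u : F) = e ^ p)
    (S : Finset (HeightOneSpectrum (𝓞 F))) :
    ∃ w : HeightOneSpectrum (𝓞 F), w ∉ S ∧ (p : 𝓞 F) ∉ w.asIdeal ∧
      w.valuation F (a : F) = 1 ∧ w.valuation F (u : F) = 1 ∧
      LocPow p w a ∧ ¬ LocPowN p w 1 u := by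
  classical
  obtain ⟨na, da, hda, hadiv⟩ := IsFractionRing.div_surjective (A := 𝓞 F) (a : F)
  obtain ⟨nu, du, hdu, hudiv⟩ := IsFractionRing.div_surjective (A := 𝓞 F) (u : F)
  have hda0 : da ≠ 0 := nonZeroDivisors.ne_zero hda
  have hdu0 : du ≠ 0 := nonZeroDivisors.ne_zero hdu
  have hinjF : Function.Injective (algebraMap (𝓞 F) F) := FaithfulSMul.algebraMap_injective _ _
  have hdaF : algebraMap (𝓞 F) F da ≠ 0 := fun h => hda0 (hinjF (by rw [h, map_zero]))
  have hduF : algebraMap (𝓞 F) F du ≠ 0 := fun h => hdu0 (hinjF (by rw [h, map_zero]))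
  have hna0 : na ≠ 0 := by
    rintro rfl
    rw [map_zero, zero_div] at hadiv
    exact a.ne_zero hadiv.symm
  have hnu0 : nu ≠ 0 := by
    rintro rfl
    rw [map_zero, zero_div] at hudiv
    exact u.ne_zero hudiv.symm
  have hp1 : p - 1 + 1 = p := Nat.sub_add_cancel hp.one_lt.le
  -- the integers `a' = a * da ^ p`, `u' = u * du ^ p`
  have ha' : algebraMap (𝓞 F) F (na * da ^ (p - 1)) = (a : F) * (algebraMap (𝓞 F) F da) ^ p := by
    rw [← hadiv, map_mul, map_pow, div_mul_eq_mul_div, eq_div_iff hdaF, mul_assoc, ← pow_succ, hp1]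
  have hu' : algebraMap (𝓞 F) F (nu * du ^ (p - 1)) = (u : F) * (algebraMap (𝓞 F) F du) ^ p := by
    rw [← hudiv, map_mul, map_pow, div_mul_eq_mul_div, eq_div_iff hduF, mul_assoc, ← pow_succ, hp1]
  -- the integral root
  have hθ'pow : (algebraMap F E (algebraMap (𝓞 F) F da) * θ) ^ p
      = algebraMap F E (algebraMap (𝓞 F) F (na * da ^ (p - 1))) := by
    rw [mul_pow, hθ, ha', map_mul, map_pow, mul_comm]
  have hθ'int : IsIntegral ℤ (algebraMap F E (algebraMap (𝓞 F) F da) * θ) := by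
    refine IsIntegral.of_pow hp.pos ?_
    rw [hθ'pow]
    exact (RingOfIntegers.isIntegral_coe (na * da ^ (p - 1))).algebraMap
  obtain ⟨Θ, hΘ⟩ : ∃ Θ : 𝓞 E, (Θ : E) = algebraMap F E (algebraMap (𝓞 F) F da) * θ :=
    ⟨⟨_, hθ'int⟩, rfl⟩
  have hΘpow : Θ ^ p = algebraMap (𝓞 F) (𝓞 E) (na * da ^ (p - 1)) := by
    apply RingOfIntegers.ext
    rw [coe_algebraMap_ringOfIntegers, ← hθ'pow, ← hΘ]
    simp
  -- the integer `U`, not a `p`-th power
  have hU : ¬ ∃ y : E, ((algebraMap (𝓞 F) (𝓞 E) (nu * du ^ (p - 1)) : 𝓞 E) : E) = y ^ p := by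
    rintro ⟨y, hy⟩
    apply hu
    refine ⟨y / algebraMap F E (algebraMap (𝓞 F) F du), ?_⟩
    have hduE : algebraMap F E (algebraMap (𝓞 F) F du) ≠ 0 := by
      rw [Ne, map_eq_zero]; exact hduF
    have hy' : algebraMap F E (algebraMap (𝓞 F) F (nu * du ^ (p - 1))) = y ^ p := hy
    rw [hu', map_mul, map_pow] at hy'
    rw [div_pow, ← hy', mul_div_assoc, div_self (pow_ne_zero _ hduE), mul_one]
  -- the excluded element
  have hex : ∀ v : HeightOneSpectrum (𝓞 F), ∃ x : 𝓞 F, x ∈ v.asIdeal ∧ x ≠ 0 := fun v =>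
    Submodule.exists_mem_ne_zero_of_ne_bot v.ne_bot
  choose xs hxs hxs0 using hex
  set x0 : 𝓞 F := (∏ v ∈ S, xs v) * ((p : 𝓞 F) * (na * da * (nu * du))) with hx0
  have hx00 : x0 ≠ 0 := by
    rw [hx0]
    refine mul_ne_zero (Finset.prod_ne_zero_iff.mpr (fun v _ => hxs0 v)) (mul_ne_zero ?_ ?_)
    · exact_mod_cast hp.ne_zero
    · exact mul_ne_zero (mul_ne_zero hna0 hda0) (mul_ne_zero hnu0 hdu0)
  have hX0 : algebraMap (𝓞 F) (𝓞 E) x0 ≠ 0 := by
    intro h
    exact hx00 (algebraMap_ringOfIntegers_injective (E := E) (by rw [h, map_zero]))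
  have hfin : {W : HeightOneSpectrum (𝓞 E) |
      W.asIdeal ∣ Ideal.span {algebraMap (𝓞 F) (𝓞 E) x0}}.Finite :=
    Ideal.finite_factors (by
      rw [Ne, Ideal.zero_eq_bot, Ideal.span_singleton_eq_bot]; exact hX0)
  obtain ⟨W, hWT, hWprime, hWnot⟩ := hM2 _ hU hfin.toFinset
  have hX0W : algebraMap (𝓞 F) (𝓞 E) x0 ∉ W.asIdeal := by
    intro hmem
    apply hWT
    rw [Set.Finite.mem_toFinset]
    exact Ideal.dvd_span_singleton.mpr hmem
  -- the place `w` below `W`
  have hℓ : ((Ideal.absNorm W.asIdeal : ℕ) : 𝓞 F) ∈ W.asIdeal.comap (algebraMap (𝓞 F) (𝓞 E)) := by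
    rw [Ideal.mem_comap, map_natCast]
    exact Ideal.absNorm_mem W.asIdeal
  have hℓ0 : ((Ideal.absNorm W.asIdeal : ℕ) : 𝓞 F) ≠ 0 := by
    exact_mod_cast hWprime.ne_zero
  have hwbot : W.asIdeal.comap (algebraMap (𝓞 F) (𝓞 E)) ≠ ⊥ := by
    intro h
    rw [h] at hℓ
    exact hℓ0 ((Submodule.mem_bot _).mp hℓ)
  obtain ⟨w, hw⟩ : ∃ w : HeightOneSpectrum (𝓞 F),
      w.asIdeal = W.asIdeal.comap (algebraMap (𝓞 F) (𝓞 E)) :=
    ⟨⟨_, Ideal.comap_isPrime _ _, hwbot⟩, rfl⟩
  have hmem : ∀ z : 𝓞 F, z ∈ w.asIdeal ↔ algebraMap (𝓞 F) (𝓞 E) z ∈ W.asIdeal := by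
    intro z; rw [hw, Ideal.mem_comap]
  have hx0w : x0 ∉ w.asIdeal := fun h => hX0W ((hmem _).mp h)
  -- consequences of `x0 ∉ w`
  have hpw : (p : 𝓞 F) ∉ w.asIdeal := by
    intro h
    apply hx0w
    rw [hx0]
    exact Ideal.mul_mem_left _ _ (Ideal.mul_mem_right _ _ h)
  have hrest : na * da * (nu * du) ∉ w.asIdeal := by
    intro h
    apply hx0w
    rw [hx0]
    exact Ideal.mul_mem_left _ _ (Ideal.mul_mem_left _ _ h)
  have hnaw : na ∉ w.asIdeal := fun h =>
    hrest (Ideal.mul_mem_right _ _ (Ideal.mul_mem_right _ _ h))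
  have hdaw : da ∉ w.asIdeal := fun h =>
    hrest (Ideal.mul_mem_right _ _ (Ideal.mul_mem_left _ _ h))
  have hnuw : nu ∉ w.asIdeal := fun h =>
    hrest (Ideal.mul_mem_left _ _ (Ideal.mul_mem_right _ _ h))
  have hduw : du ∉ w.asIdeal := fun h =>
    hrest (Ideal.mul_mem_left _ _ (Ideal.mul_mem_left _ _ h))
  have hwS : w ∉ S := by
    intro hS
    apply hx0w
    rw [hx0]
    refine Ideal.mul_mem_right _ _ ?_
    exact Ideal.mem_of_dvd _ (Finset.dvd_prod_of_mem xs hS) (hxs w)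
  have hv1 : ∀ z : 𝓞 F, z ∉ w.asIdeal → w.valuation F (algebraMap (𝓞 F) F z) = 1 := fun z hz =>
    (w.valuation_eq_one_iff_notMem (K := F)).mpr hz
  have hva : w.valuation F (a : F) = 1 := by
    rw [← hadiv, map_div₀, hv1 na hnaw, hv1 da hdaw, div_one]
  have hvu : w.valuation F (u : F) = 1 := by
    rw [← hudiv, map_div₀, hv1 nu hnuw, hv1 du hduw, div_one]
  refine ⟨w, hwS, hpw, hva, hvu, ?_, ?_⟩
  · -- `a` is a local `p`-th power
    apply locPow_of_locPowN_one w hpw
    obtain ⟨m, hm⟩ := exists_int_sub_mem_of_absNorm_prime W.asIdeal hWprime Θ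
    have h1 : Θ ^ p - ((m : ℤ) : 𝓞 E) ^ p ∈ W.asIdeal :=
      Ideal.mem_of_dvd _ (sub_dvd_pow_sub_pow _ _ p) hm
    have h2 : na * da ^ (p - 1) - ((m : ℤ) : 𝓞 F) ^ p ∈ w.asIdeal := by
      rw [hmem, map_sub, map_pow, map_intCast, ← hΘpow]
      exact h1
    have hmw : ((m : ℤ) : 𝓞 F) ∉ w.asIdeal := by
      intro h
      have h3 : na * da ^ (p - 1) ∈ w.asIdeal := by
        have := w.asIdeal.add_mem h2 (w.asIdeal.pow_mem_of_mem h p hp.pos)
        simpa using this
      rcases w.isPrime.mem_or_mem h3 with h4 | h4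
      · exact hnaw h4
      · exact hdaw (w.isPrime.mem_of_pow_mem _ h4)
    have hmF : algebraMap (𝓞 F) F ((m : ℤ) : 𝓞 F) ≠ 0 := by
      intro h
      apply hmw
      rw [hinjF (h.trans (map_zero _).symm)]
      exact w.asIdeal.zero_mem
    refine ⟨Units.mk0 _ hmF / Units.mk0 _ hdaF, ?_⟩
    rw [Nat.cast_one, ← lt_one_iff_le_exp_neg_one]
    have key : (a : F) / ((Units.mk0 _ hmF / Units.mk0 _ hdaF : Fˣ) : F) ^ p - 1
        = algebraMap (𝓞 F) F (na * da ^ (p - 1) - ((m : ℤ) : 𝓞 F) ^ p)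
          / (algebraMap (𝓞 F) F ((m : ℤ) : 𝓞 F)) ^ p := by
      rw [Units.val_div_eq_div_val, Units.val_mk0, Units.val_mk0, map_sub, ha', map_pow, div_pow]
      have hm0 : (algebraMap (𝓞 F) F ((m : ℤ) : 𝓞 F)) ^ p ≠ 0 := pow_ne_zero _ hmF
      have hd0 : (algebraMap (𝓞 F) F da) ^ p ≠ 0 := pow_ne_zero _ hdaF
      field_simp
    rw [key, map_div₀, map_pow, hv1 _ hmw, one_pow, div_one]
    exact (w.valuation_lt_one_iff_mem (K := F) _).mpr h2
  · -- `u` is not a `p`-th power residue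
    rintro ⟨y, hy⟩
    rw [Nat.cast_one, ← lt_one_iff_le_exp_neg_one] at hy
    apply hWnot
    have hyp0 : ((y : F)) ^ p ≠ 0 := pow_ne_zero _ y.ne_zero
    have h1 : w.valuation F ((u : F) / (y : F) ^ p) = 1 := val_eq_one_of_sub_one_lt w hy
    have hvyp : w.valuation F (y : F) ^ p = 1 := by
      rw [map_div₀, hvu, map_pow, one_div, inv_eq_one] at h1
      exact h1
    have hvy : w.valuation F (y : F) = 1 := by
      rcases lt_trichotomy (w.valuation F (y : F)) 1 with h | h | h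
      · exact absurd hvyp (ne_of_lt (pow_lt_one₀ zero_le h hp.ne_zero))
      · exact h
      · exact absurd hvyp (ne_of_gt (one_lt_pow₀ h hp.ne_zero))
    obtain ⟨b, hbw, hyb⟩ := exists_integer_approx w (y : F) hvy
    have hyb' : w.valuation F ((y : F) ^ p - (algebraMap (𝓞 F) F b) ^ p) < 1 :=
      val_pow_sub_pow_lt_one _ hvy.le (w.valuation_le_one b) hyb p hp.ne_zero
    have huy : w.valuation F ((u : F) - (y : F) ^ p) < 1 := by
      have e : (u : F) - (y : F) ^ p = ((u : F) / (y : F) ^ p - 1) * (y : F) ^ p := by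
        field_simp
      rw [e, map_mul, map_pow, hvyp, mul_one]
      exact hy
    have hub : w.valuation F ((u : F) - (algebraMap (𝓞 F) F b) ^ p) < 1 := by
      have e : (u : F) - (algebraMap (𝓞 F) F b) ^ p
          = ((u : F) - (y : F) ^ p) + ((y : F) ^ p - (algebraMap (𝓞 F) F b) ^ p) := by ring
      rw [e]
      exact Valuation.map_add_lt _ huy hyb'
    have h2 : nu * du ^ (p - 1) - (du * b) ^ p ∈ w.asIdeal := by
      have e : algebraMap (𝓞 F) F (nu * du ^ (p - 1) - (du * b) ^ p)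
          = (algebraMap (𝓞 F) F du) ^ p * ((u : F) - (algebraMap (𝓞 F) F b) ^ p) := by
        rw [map_sub, hu', map_pow, map_mul]
        ring
      have e2 : w.valuation F (algebraMap (𝓞 F) F (nu * du ^ (p - 1) - (du * b) ^ p)) < 1 := by
        rw [e, map_mul, map_pow, hv1 du hduw, one_pow, one_mul]
        exact hub
      exact (w.valuation_lt_one_iff_mem (K := F) _).mp e2
    refine ⟨algebraMap (𝓞 F) (𝓞 E) (du * b), ?_⟩
    have h3 := (hmem _).mp h2
    rw [map_sub, map_pow] at h3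
    have := W.asIdeal.neg_mem h3
    simpa using this

end Transfer

/-! ### the leaf -/

/-- **Leaf SELECT-ONE** of M6 (board row 508). -/
theorem selectOne {F : Type u} [Field F] [NumberField F] {p : ℕ} (hp : p.Prime)
    (hζ : ∃ ζ : F, IsPrimitiveRoot ζ p)
    (hM2 : ∀ (E : Type u) [Field E] [NumberField E], (∃ ζ : E, IsPrimitiveRoot ζ p) →
      Stmt_M2 E p) : Stmt_SelectOne F p := by
  intro a u ha hu S
  obtain ⟨ζ, hζ⟩ := hζ
  have H : Irreducible (X ^ p - C (a : F) : F[X]) := by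
    refine X_pow_sub_C_irreducible_of_prime hp (fun b hb => ha ?_)
    have hb0 : b ≠ 0 := by
      rintro rfl
      rw [zero_pow hp.ne_zero] at hb
      exact a.ne_zero hb.symm
    exact ⟨Units.mk0 b hb0, Units.ext (by simpa using hb.symm)⟩
  have := Fact.mk H
  have hfin : FiniteDimensional F (AdjoinRoot (X ^ p - C (a : F) : F[X])) :=
    (AdjoinRoot.powerBasis H.ne_zero).finite
  have : NumberField (AdjoinRoot (X ^ p - C (a : F) : F[X])) :=
    { to_charZero := charZero_of_injective_algebraMap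
        (algebraMap F (AdjoinRoot (X ^ p - C (a : F) : F[X]))).injective
      to_finiteDimensional := Module.Finite.trans F _ }
  refine selectOne_of_ext (E := AdjoinRoot (X ^ p - C (a : F) : F[X])) hp
    (hM2 _ ⟨algebraMap F _ ζ, hζ.map_of_injective (algebraMap F _).injective⟩) a u
    (AdjoinRoot.root _) (root_X_pow_sub_C_pow p (a : F)) ?_ S
  rintro ⟨e, he⟩
  obtain ⟨k, c, hc⟩ := kummer_pow_form hp hζ H (u : F) e he
  have hc0 : c ≠ 0 := by
    rintro rfl
    rw [zero_pow hp.ne_zero, mul_zero] at hc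
    exact u.ne_zero hc
  exact hu k (Units.mk0 c hc0) (Units.ext (by simpa using hc))

end Fermat.Agent.S14.helper7212
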