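/-
S14 moonshot, module M6, input M2 (board row 701).  Author: helper7212.

`Stmt_M2 E p` (zeta lemma in Kummer form): if the number field `E` contains a primitive `p`-th
root of unity, an integer `u` of `E` which is not a `p`-th power in `E` is a non-`p`-th-power
modulo some prime of degree one outside any finite set.

Inputs: the zeta lemma `helper694.exists_prime_atMostOne_degree_one_above` and the Kummer
splitting criterion `helper4373.ncard_primesOver_eq_of_pow_sub_mem`.
Consequence: `Stmt_SelectOne F p` unconditionally.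
-/
import Mathlib
import Fermat.Agent.S14.helper1892_M6Defs
import Fermat.Agent.S14.helper694_ZetaLemma
import Fermat.Agent.S14.helper4373_KummerDecomp
import Fermat.Agent.S14.helper7212_SelectOne

set_option autoImplicit false

open IsDedekindDomain NumberField WithZero Polynomial

namespace Fermat.Agent.S14.helper7212

open Fermat.Agent.S14.helper1892

universe u

/-- If every element of `B` is congruent modulo `W` to an element of `A`, the residue rings of
`W` and of the prime below have the same cardinality. -/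
theorem card_quot_eq_of_forall_exists_sub_mem {A B : Type*} [CommRing A] [CommRing B]
    [Algebra A B] (W : Ideal B) (v : Ideal A) [W.LiesOver v]
    (h : ∀ x : B, ∃ y : A, x - algebraMap A B y ∈ W) : Nat.card (A ⧸ v) = Nat.card (B ⧸ W) := by
  refine Nat.card_eq_of_bijective (Ideal.quotientMap W (algebraMap A B) (by
    rw [Ideal.over_def W v])) ⟨?_, ?_⟩
  · refine Ideal.quotientMap_injective' ?_
    rw [Ideal.over_def W v]
  · intro z
    obtain ⟨z, rfl⟩ := Ideal.Quotient.mk_surjective z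
    obtain ⟨y, hy⟩ := h z
    refine ⟨Ideal.Quotient.mk v y, ?_⟩
    rw [Ideal.quotientMap_mk]
    symm
    rw [Ideal.Quotient.eq]
    exact hy

section Abstract

variable {K : Type*} [Field K] [NumberField K] {L : Type*} [Field L] [NumberField L]
  [Algebra K L] [IsGalois K L]

/-- **M2, abstract form**: `L / K` Galois of prime degree `p`, generated by a Kummer element
`β`, `β ^ p = u`, `σ β = ζ β`. Then outside any finite set there is a degree-one prime of `K`
modulo which `u` is not a `p`-th power. -/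
theorem exists_prime_not_pow_residue {p : ℕ} (hp : p.Prime) (hdeg : Module.finrank K L = p)
    {ζ : 𝓞 K} (hζ : IsPrimitiveRoot ζ p) (σ : L ≃ₐ[K] L) (β : 𝓞 L) (u : 𝓞 K)
    (hβ : β ^ p = algebraMap (𝓞 K) (𝓞 L) u) (hσ : σ • β = algebraMap (𝓞 K) (𝓞 L) ζ * β)
    (hu0 : u ≠ 0) (T : Finset (HeightOneSpectrum (𝓞 K))) :
    ∃ W : HeightOneSpectrum (𝓞 K), W ∉ T ∧ (Ideal.absNorm W.asIdeal).Prime ∧
      ¬ ∃ y : 𝓞 K, y ^ p - u ∈ W.asIdeal := by
  classical
  have hG : Nat.card (L ≃ₐ[K] L) = p := (helper4373.card_gal_eq_finrank K L).trans hdeg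
  have hGal := helper4373.isGaloisGroup_ringOfIntegers K L
  have hζ1 : ζ - 1 ≠ 0 := sub_ne_zero.mpr (hζ.ne_one hp.one_lt)
  have hx0 : u * (ζ - 1) ≠ 0 := mul_ne_zero hu0 hζ1
  have hfin : {W : HeightOneSpectrum (𝓞 K) | W.asIdeal ∣ Ideal.span {u * (ζ - 1)}}.Finite :=
    Ideal.finite_factors (by
      rw [Ne, Ideal.zero_eq_bot, Ideal.span_singleton_eq_bot]; exact hx0)
  obtain ⟨𝔮, hprime, hne, hF, hN, huniq⟩ :=
    helper694.exists_prime_atMostOne_degree_one_above K L
      (T.image HeightOneSpectrum.asIdeal ∪ hfin.toFinset.image HeightOneSpectrum.asIdeal)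
  rw [Finset.mem_union, not_or] at hF
  refine ⟨⟨𝔮, hprime, hne⟩, ?_, hN, ?_⟩
  · intro hT
    exact hF.1 (Finset.mem_image.mpr ⟨_, hT, rfl⟩)
  · rintro ⟨y, hy⟩
    have hx0q : u * (ζ - 1) ∉ 𝔮 := by
      intro hmem
      apply hF.2
      refine Finset.mem_image.mpr ⟨⟨𝔮, hprime, hne⟩, ?_, rfl⟩
      rw [Set.Finite.mem_toFinset]
      exact Ideal.dvd_span_singleton.mpr hmem
    have huq : u ∉ 𝔮 := fun h => hx0q (Ideal.mul_mem_right _ _ h)
    have hζq : ζ - 1 ∉ 𝔮 := fun h => hx0q (Ideal.mul_mem_left _ _ h)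
    have hmax : 𝔮.IsMaximal := hprime.isMaximal hne
    have hcard : (𝔮.primesOver (𝓞 L)).ncard = p :=
      helper4373.ncard_primesOver_eq_of_pow_sub_mem (G := L ≃ₐ[K] L) hp hG 𝔮 hζ hζq hσ hβ huq hy
    have hinert : 𝔮.inertiaDegIn (𝓞 L) = 1 := by
      rcases helper4373.nf_trichotomy K L hp hdeg 𝔮 with h | h | h
      · exact h.2.2
      · exact absurd (hcard ▸ h.1) hp.one_lt.ne'
      · exact absurd (hcard ▸ h.1) hp.one_lt.ne'
    have hfinite : (𝔮.primesOver (𝓞 L)).Finite :=
      Set.finite_of_ncard_pos (by rw [hcard]; exact hp.pos)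
    obtain ⟨Q₁, Q₂, hQ₁, hQ₂, hQne⟩ :=
      (Set.one_lt_ncard_iff hfinite).mp (by rw [hcard]; exact hp.one_lt)
    have key : ∀ Q : Ideal (𝓞 L), Q ∈ 𝔮.primesOver (𝓞 L) →
        Q.IsPrime ∧ Q.comap (algebraMap (𝓞 K) (𝓞 L)) = 𝔮 ∧
          Ideal.absNorm Q = Ideal.absNorm 𝔮 := by
      intro Q hQ
      have hQp : Q.IsPrime := hQ.1
      have hQo : Q.LiesOver 𝔮 := hQ.2
      have hQmax : Q.IsMaximal := Ideal.IsMaximal.of_liesOver_isMaximal Q 𝔮
      refine ⟨hQp, (Ideal.over_def Q 𝔮).symm, ?_⟩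
      have hf : Q.inertiaDeg (𝓞 K) = 1 := by
        rw [← Ideal.inertiaDegIn_eq_inertiaDeg 𝔮 Q (L ≃ₐ[K] L)]
        exact hinert
      have hc := card_quot_eq_of_forall_exists_sub_mem Q 𝔮
        (helper4373.exists_sub_mem_of_inertiaDeg_eq_one 𝔮 Q hf)
      rw [Ideal.absNorm_apply, Ideal.absNorm_apply, Submodule.cardQuot_apply,
        Submodule.cardQuot_apply]
      exact hc.symm
    obtain ⟨h1p, h1c, h1n⟩ := key Q₁ hQ₁
    obtain ⟨h2p, h2c, h2n⟩ := key Q₂ hQ₂
    exact hQne (huniq Q₁ Q₂ h1p h2p h1c h2c h1n h2n)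

end Abstract

section Main

variable {E : Type u} [Field E] [NumberField E]

local notation "KE(" p "," a ")" => AdjoinRoot (X ^ p - C a : E[X])

/-- **M2** (zeta lemma in Kummer form) for a number field containing `ζ_p`. -/
theorem stmt_M2 {p : ℕ} (hp : p.Prime) (hζ : ∃ ζ : E, IsPrimitiveRoot ζ p) : Stmt_M2 E p := by
  intro u hu T
  classical
  obtain ⟨ζ, hζ⟩ := hζ
  have H : Irreducible (X ^ p - C (u : E) : E[X]) :=
    X_pow_sub_C_irreducible_of_prime hp (fun b hb => hu ⟨b, hb.symm⟩)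
  have := Fact.mk H
  have : Fact p.Prime := ⟨hp⟩
  have : NeZero p := ⟨hp.ne_zero⟩
  have hζ' : (primitiveRoots p E).Nonempty := ⟨ζ, (mem_primitiveRoots hp.pos).mpr hζ⟩
  have : IsSplittingField E KE(p, (u : E)) (X ^ p - C (u : E)) :=
    isSplittingField_AdjoinRoot_X_pow_sub_C hζ' H
  have : IsGalois E KE(p, (u : E)) := isGalois_of_isSplittingField_X_pow_sub_C hζ' H _
  have hfd : FiniteDimensional E KE(p, (u : E)) :=
    Polynomial.IsSplittingField.finiteDimensional _ (X ^ p - C (u : E))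
  have : NumberField KE(p, (u : E)) :=
    { to_charZero := charZero_of_injective_algebraMap (algebraMap E KE(p, (u : E))).injective
      to_finiteDimensional := Module.Finite.trans E _ }
  have hdeg : Module.finrank E KE(p, (u : E)) = p :=
    finrank_of_isSplittingField_X_pow_sub_C hζ' H _
  -- the integral data
  have hu0 : u ≠ 0 := by
    rintro rfl
    exact hu ⟨0, by simp [zero_pow hp.ne_zero]⟩
  have hζA : IsPrimitiveRoot hζ.toInteger p := hζ.toInteger_isPrimitiveRoot
  have hrootp : (AdjoinRoot.root (X ^ p - C (u : E) : E[X])) ^ p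
      = algebraMap E KE(p, (u : E)) (u : E) := root_X_pow_sub_C_pow p (u : E)
  have hrootint : IsIntegral ℤ (AdjoinRoot.root (X ^ p - C (u : E) : E[X])) := by
    refine IsIntegral.of_pow hp.pos ?_
    rw [hrootp]
    exact (RingOfIntegers.isIntegral_coe u).algebraMap
  obtain ⟨β, hβdef⟩ : ∃ β : 𝓞 KE(p, (u : E)),
      (β : KE(p, (u : E))) = AdjoinRoot.root (X ^ p - C (u : E) : E[X]) :=
    ⟨⟨_, hrootint⟩, rfl⟩
  have hβ : β ^ p = algebraMap (𝓞 E) (𝓞 KE(p, (u : E))) u := by
    apply RingOfIntegers.ext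
    rw [coe_algebraMap_ringOfIntegers, ← hrootp, ← hβdef]
    simp
  let η : rootsOfUnity p E := rootsOfUnity.mkOfPowEq ζ hζ.pow_eq_one
  obtain ⟨σ, hσdef⟩ : ∃ σ : KE(p, (u : E)) ≃ₐ[E] KE(p, (u : E)),
      σ = autAdjoinRootXPowSubC p (u : E) η := ⟨_, rfl⟩
  have hσ : σ • β = algebraMap (𝓞 E) (𝓞 KE(p, (u : E))) hζ.toInteger * β := by
    apply RingOfIntegers.ext
    have h1 := autAdjoinRootXPowSubC_root (u : E) η
    rw [Algebra.smul_def] at h1
    have h2 : ((σ • β : 𝓞 KE(p, (u : E))) : KE(p, (u : E))) = σ (β : KE(p, (u : E))) := rfl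
    rw [h2, hβdef, hσdef, h1]
    simp only [map_mul, coe_algebraMap_ringOfIntegers, hβdef]
    rfl
  exact exists_prime_not_pow_residue (L := KE(p, (u : E))) hp hdeg hζA σ β u hβ hσ hu0 T

end Main

/-- **SELECT-ONE, unconditional**: the M6 leaf for every number field containing `ζ_p`. -/
theorem stmt_SelectOne {F : Type u} [Field F] [NumberField F] {p : ℕ} (hp : p.Prime)
    (hζ : ∃ ζ : F, IsPrimitiveRoot ζ p) : Stmt_SelectOne F p :=
  selectOne hp hζ (fun _ _ _ h => stmt_M2 hp h)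

end Fermat.Agent.S14.helper7212
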