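import Fermat.Agent.S14.helper1934_ThaineGlue
import Fermat.Agent.S14.helper2850_PrimeSums
import Fermat.Agent.S14.helper702_KummerDensity
import Fermat.Agent.S14.helper1122_NoClass
import Fermat.Agent.S14.helper4440_LocalSpec
import Fermat.Agent.S14.helper854_StmtE2
import Fermat.Agent.S14.helper1378_StmtUnits
import Fermat.Agent.S14.helper5605_CoreThree
import Fermat.Agent.S14.helper662_Reduction

/-!
# S14, Thaine route: reviewer's composition check (helper794)

This file composes the Spec leaves that are already proved (packages L, E2, U, C, P3, Z, KD and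
the glue of `helper1934_ThaineGlue`) and exhibits the exact list of interface statements that are
still open: `Stmt_ThaineChar p` (package T), `Stmt_WeberWeakFin p` (package W) and the transport
`Stmt_Core p → helper662.Core p` (package TR).
-/

set_option autoImplicit false

namespace Fermat.Agent.S14.helper794

open helper1934 NumberField IsDedekindDomain

/-- `Stmt_PrimeZetaFin` from the `tsum` form. -/
theorem stmt_PrimeZetaFin : Stmt_PrimeZetaFin := by
  intro K _ _
  obtain ⟨hsum, B, hB⟩ := helper2850.stmt_PrimeZeta K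
  refine ⟨B + 1, fun s hs1 hs2 => ?_⟩
  have h := (hsum s hs1).hasSum
  obtain ⟨F, hF⟩ := (h.eventually (lt_mem_nhds (sub_one_lt _))).exists
  refine ⟨F, ?_⟩
  have := hB s hs1 hs2
  linarith

/-- A finite sum over primes in a set is at most the `primeIdealZetaSum` of the set. -/
theorem sum_le_primeIdealZetaSum {K : Type} [Field K] [NumberField K]
    (S : Set (HeightOneSpectrum (𝓞 K))) {s : ℝ} (hs : 1 < s)
    (F : Finset (HeightOneSpectrum (𝓞 K))) (hF : ∀ v ∈ F, v ∈ S) :
    ∑ v ∈ F, (Ideal.absNorm v.asIdeal : ℝ) ^ (-s) ≤ S.primeIdealZetaSum s := by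
  classical
  have hsum := ((helper2850.stmt_PrimeZeta K).1 s hs).subtype S
  rw [Set.primeIdealZetaSum_def,
    ← Finset.sum_subtype_of_mem (fun v : HeightOneSpectrum (𝓞 K) =>
      (Ideal.absNorm v.asIdeal : ℝ) ^ (-s)) (p := fun v => v ∈ S) hF]
  exact hsum.sum_le_tsum _ (fun i _ => Real.rpow_nonneg (Nat.cast_nonneg _) _)

/-- `Stmt_NonDegOneFin` from the `tsum` form. -/
theorem stmt_NonDegOneFin : Stmt_NonDegOneFin := by
  intro K _ _
  obtain ⟨B, hB⟩ := helper2850.stmt_NonDegOne K
  refine ⟨B, fun s hs1 hs2 F hF => ?_⟩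
  exact (sum_le_primeIdealZetaSum _ hs1 F hF).trans (hB s hs1 hs2)

/-- `Stmt_KummerDensity p`, unconditional. -/
theorem stmt_KummerDensity (p : ℕ) [Fact p.Prime] : Stmt_KummerDensity p :=
  helper702.stmt_KummerDensity p (fun L _ _ => helper2850.primeSumUpper L)

/-- `Stmt_KummerDensityFin p` from the `tsum` form. -/
theorem stmt_KummerDensityFin (p : ℕ) [Fact p.Prime] : Stmt_KummerDensityFin p := by
  intro K _ _ ζ hζ e he
  obtain ⟨B, hB⟩ := stmt_KummerDensity p K ζ hζ e he
  refine ⟨B, fun s hs1 hs2 F hF => ?_⟩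
  refine le_trans ?_ (hB s hs1 hs2)
  exact mul_le_mul_of_nonneg_left (sum_le_primeIdealZetaSum _ hs1 F hF) (Nat.cast_nonneg _)

/-- The Kummer core from the two open analytic/arithmetic packages. -/
theorem stmt_Core_of (p : ℕ) [Fact p.Prime] (h3 : 3 ≤ p) (hT : Stmt_ThaineChar p)
    (hW : Stmt_WeberWeakFin p) : Stmt_Core p := by
  by_cases hp3 : p = 3
  · subst hp3
    exact helper5605.stmt_Core_three
  · have hp : p.Prime := Fact.out
    have h5 : 5 ≤ p := by
      rcases Nat.lt_or_ge p 5 with h | h
      · have h4 : p = 4 := by omega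
        subst h4
        exact absurd hp (by norm_num)
      · exact h
    have hL := helper4440.stmt_Local p
    have hE := helper854.stmt_E2 p
    have hNoChar : Stmt_NoChar p :=
      stmt_noChar_of_density p hW stmt_PrimeZetaFin stmt_NonDegOneFin (stmt_KummerDensityFin p)
        hT hL hE
    exact stmt_core_of_noClass p h5 (helper1122.stmt_NoClass_of_NoChar p hNoChar)
      (helper1378.stmt_Units p) hL hE

/-- **Composition check**: S14 from the three open packages T, W, TR. -/
theorem extVanishingCts_of (p : ℕ) [Fact p.Prime] (h3 : 3 ≤ p) (hT : Stmt_ThaineChar p)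
    (hW : Stmt_WeberWeakFin p) (hTR : Stmt_Core p → helper662.Core p) :
    ExtCitation.ExtVanishingCts p :=
  helper662.extVanishingCts_of_core h3 (hTR (stmt_Core_of p h3 hT hW))

end Fermat.Agent.S14.helper794
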