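import Mathlib
import Fermat.Prelude.Def_ExtCitation_AdmissibleExtension_v2

/-!
# S14 moonshot: specification file (interfaces only, no proofs needed here)

Architect: helper854.  All intermediate results of the S14 project are `Prop`-valued
definitions `Stmt_*` so that work packages can be proved independently, in
hypothesis-passing style, and assembled in a few lines.

Route: S14 (`ExtVanishingCts p`) follows from `NoTwistedExt p` (work package A),
and `NoTwistedExt p` follows from Stickelberger for degree-one primes (B), the analytic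
first inequality + existence of inert primes (C), the algebraic second inequality (D),
and the crossing argument of Artin (E).
-/

set_option autoImplicit false

namespace Fermat.Agent.S14.helper854

open NumberField

section Defs

variable (p : ℕ) (L K : Type) [Field L] [Field K] [NumberField L] [NumberField K] [Algebra L K]

/-- `K/L` is a Galois extension of number fields of odd prime degree `p` which is unramified at
every finite prime, in the form: the inertia group of every nonzero prime of `𝓞 K` is trivial. -/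
structure UnrCyclic : Prop where
  prime : p.Prime
  odd : p ≠ 2
  galois : IsGalois L K
  degree : Module.finrank L K = p
  unram : ∀ (P : Ideal (𝓞 K)), P.IsPrime → P ≠ ⊥ →
    ∀ σ : Gal(K/L), (∀ x : 𝓞 K, σ • x - x ∈ P) → σ = 1

variable {L}

/-- `σ` is a Frobenius element at the prime `𝔭` of `𝓞 L`: for every prime `P` of `𝓞 K` above `𝔭`
and every `x : 𝓞 K`, `σ x ≡ x ^ N𝔭 (mod P)`. -/
def IsFrob (𝔭 : Ideal (𝓞 L)) (σ : Gal(K/L)) : Prop :=
  ∀ (P : Ideal (𝓞 K)), P.IsPrime → P.under (𝓞 L) = 𝔭 →
    ∀ x : 𝓞 K, σ • x - x ^ (Ideal.absNorm 𝔭) ∈ P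

/-- A monoid hom from nonzero ideals of `𝓞 L` to `Gal(K/L)` is an Artin map if it sends every
nonzero prime to a Frobenius element at that prime. -/
def IsArtinMap (ψ : (nonZeroDivisors (Ideal (𝓞 L))) →* Gal(K/L)) : Prop :=
  ∀ 𝔭 : nonZeroDivisors (Ideal (𝓞 L)), (𝔭 : Ideal (𝓞 L)).IsPrime →
    IsFrob K (𝔭 : Ideal (𝓞 L)) (ψ 𝔭)

variable (L)

/-- The subgroup of the class group of `L` generated by the classes of the primes which split
completely in `K` (the identity is a Frobenius) and by all `p`-th powers.  For an unramified Galois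
extension of prime degree `p` this is the group of norms of ideal classes of `K`. -/
noncomputable def normClasses : Subgroup (ClassGroup (𝓞 L)) :=
  Subgroup.closure
    ({c | ∃ 𝔭 : nonZeroDivisors (Ideal (𝓞 L)), (𝔭 : Ideal (𝓞 L)).IsPrime ∧
          IsFrob K (𝔭 : Ideal (𝓞 L)) 1 ∧ c = ClassGroup.mk0 𝔭} ∪
      {c | ∃ d : ClassGroup (𝓞 L), c = d ^ p})

end Defs

/-! ## Work package C (analytic) -/

/-- First inequality: the norm classes have index at most `p`. -/
def Stmt_FirstIneq (p : ℕ) : Prop :=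
  ∀ (L K : Type) [Field L] [Field K] [NumberField L] [NumberField K] [Algebra L K],
    UnrCyclic p L K → (normClasses p L K).index ≤ p

/-- Existence of inert primes of prime norm away from any given nonzero ideal. -/
def Stmt_Inert (p : ℕ) : Prop :=
  ∀ (L K : Type) [Field L] [Field K] [NumberField L] [NumberField K] [Algebra L K],
    UnrCyclic p L K → ∀ 𝔪 : Ideal (𝓞 L), 𝔪 ≠ ⊥ →
      ∃ 𝔭 : Ideal (𝓞 L), 𝔭.IsPrime ∧ 𝔭 ≠ ⊥ ∧ ¬ (𝔪 ≤ 𝔭) ∧ (Ideal.absNorm 𝔭).Prime ∧
        ¬ IsFrob K 𝔭 1

/-! ## Work package D (units, Herbrand quotient, Chevalley) -/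

/-- Second inequality: the norm classes have index at least `p`. -/
def Stmt_SecondIneq (p : ℕ) : Prop :=
  ∀ (L K : Type) [Field L] [Field K] [NumberField L] [NumberField K] [Algebra L K],
    UnrCyclic p L K → p ≤ (normClasses p L K).index

/-! ## Work package E (Artin's crossing argument) -/

/-- Ideals with trivial Artin symbol are (principal) × (norm). -/
def Stmt_Crossing (p : ℕ) : Prop :=
  ∀ (L K : Type) [Field L] [Field K] [NumberField L] [NumberField K] [Algebra L K],
    UnrCyclic p L K → ∀ ψ : (nonZeroDivisors (Ideal (𝓞 L))) →* Gal(K/L), IsArtinMap K ψ →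
      ∀ 𝔞 : nonZeroDivisors (Ideal (𝓞 L)), ψ 𝔞 = 1 → ClassGroup.mk0 𝔞 ∈ normClasses p L K

/-- Existence of the Artin map (unique factorisation of ideals + existence of Frobenius). -/
def Stmt_ArtinExists (p : ℕ) : Prop :=
  ∀ (L K : Type) [Field L] [Field K] [NumberField L] [NumberField K] [Algebra L K],
    UnrCyclic p L K → ∃ ψ : (nonZeroDivisors (Ideal (𝓞 L))) →* Gal(K/L), IsArtinMap K ψ

/-- Artin reciprocity for unramified Galois extensions of odd prime degree:
the Artin map factors through the class group. -/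
def Stmt_Reciprocity (p : ℕ) : Prop :=
  ∀ (L K : Type) [Field L] [Field K] [NumberField L] [NumberField K] [Algebra L K],
    UnrCyclic p L K → ∀ ψ : (nonZeroDivisors (Ideal (𝓞 L))) →* Gal(K/L), IsArtinMap K ψ →
      ∀ 𝔞 𝔟 : nonZeroDivisors (Ideal (𝓞 L)), ClassGroup.mk0 𝔞 = ClassGroup.mk0 𝔟 → ψ 𝔞 = ψ 𝔟

/-! ## Work package B (Stickelberger for primes of degree one) -/

/-- For a prime `𝔮` of `ℤ[ζ_p]` of prime norm `q ≠ p`, the product of the conjugates
`σ_c⁻¹(𝔮)`, `1 ≤ c < p/2`, is principal (generated by a Jacobi sum). -/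
def Stmt_Stickelberger (p : ℕ) : Prop :=
  ∀ (L : Type) [Field L] [NumberField L] [IsCyclotomicExtension {p} ℚ L] (ζ : L),
    IsPrimitiveRoot ζ p → ∀ (s : ℕ → Gal(L/ℚ)), (∀ c, 1 ≤ c → 2 * c < p → s c ζ = ζ ^ c) →
    ∀ (𝔮 : Ideal (𝓞 L)), 𝔮.IsPrime → (Ideal.absNorm 𝔮).Prime → Ideal.absNorm 𝔮 ≠ p →
      Submodule.IsPrincipal
        (∏ c ∈ Finset.Icc 1 ((p - 1) / 2),
          𝔮.comap ((galRestrict ℤ ℚ L (𝓞 L) (s c) : 𝓞 L ≃ₐ[ℤ] 𝓞 L) : 𝓞 L →+* 𝓞 L))

/-! ## The arithmetic core -/

/-- There is no Galois extension `K/ℚ` containing `L = ℚ(ζ_p)` with `K/L` unramified of degree `p`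
on which `Gal(L/ℚ)` acts through the inverse of the cyclotomic character:
`(σ n σ⁻¹) ^ a = n` whenever `σ ζ = ζ ^ a`. -/
def NoTwistedExt (p : ℕ) : Prop :=
  ∀ (L K : Type) [Field L] [Field K] [NumberField L] [NumberField K] [Algebra L K]
    [IsCyclotomicExtension {p} ℚ L] [IsGalois ℚ K] (ζ : L), IsPrimitiveRoot ζ p →
    UnrCyclic p L K →
    (∀ (σ : Gal(K/ℚ)) (n : Gal(K/L)) (a : ℕ), σ (algebraMap L K ζ) = algebraMap L K ζ ^ a →
        (σ * n.restrictScalars ℚ * σ⁻¹) ^ a = n.restrictScalars ℚ) → False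

/-! ## Work package A (reduction of the frozen statement to the arithmetic core) -/

/-- The frozen statement S14 follows from the arithmetic core. -/
def Stmt_Reduction (p : ℕ) [Fact p.Prime] : Prop :=
  3 ≤ p → NoTwistedExt p → ExtCitation.ExtVanishingCts p

end Fermat.Agent.S14.helper854
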