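import Mathlib

/-!
# helper861: abstract estimates for Epstein-type sums

* `rpow_neg_sub_le`  : `|u^(-ρ) - v^(-ρ)| ≤ ρ t^(-ρ-1) |u - v|` for `u, v ≥ t > 0`, `ρ ≥ 1`;
* `shift_estimate`   : pointwise estimate of `Φ(y+r)^(-ρ) - Φ(y)^(-ρ)` for a seminorm-like `Φ`
  comparable to `P`;
* `coset_compare`    : comparison of `∑_G f` with `[G : J] ∑_J f` (in `ℝ≥0∞`).
-/

set_option autoImplicit false

open scoped ENNReal

namespace Fermat.Agent.S14.helper861

theorem rpow_neg_sub_le_aux {u v t ρ : ℝ} (ht : 0 < t) (hu : t ≤ u) (huv : u ≤ v) (hρ : 1 ≤ ρ) :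
    u ^ (-ρ) - v ^ (-ρ) ≤ ρ * t ^ (-ρ - 1) * (v - u) := by
  have hu0 : 0 < u := lt_of_lt_of_le ht hu
  have hv0 : 0 < v := lt_of_lt_of_le hu0 huv
  have hb : 1 + ρ * (u / v - 1) ≤ (u / v) ^ ρ := by
    have h := one_add_mul_self_le_rpow_one_add (s := u / v - 1) (p := ρ)
      (by have := div_pos hu0 hv0; linarith) hρ
    simpa using h
  have h1 : v ^ (-ρ) = u ^ (-ρ) * (u / v) ^ ρ := by
    rw [Real.div_rpow hu0.le hv0.le, Real.rpow_neg hu0.le, Real.rpow_neg hv0.le]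
    have : u ^ ρ ≠ 0 := (Real.rpow_pos_of_pos hu0 _).ne'
    field_simp
  have h2 : u ^ (-ρ) ≤ t ^ (-ρ) := Real.rpow_le_rpow_of_nonpos ht hu (by linarith)
  have h3 : t ^ (-ρ - 1) = t ^ (-ρ) / t := by rw [Real.rpow_sub ht, Real.rpow_one]
  have hpos : 0 ≤ u ^ (-ρ) := Real.rpow_nonneg hu0.le _
  have h4 : u ^ (-ρ) - v ^ (-ρ) ≤ u ^ (-ρ) * (ρ * ((v - u) / v)) := by
    have h5 : 1 - u / v = (v - u) / v := by field_simp
    rw [h1, ← h5]
    nlinarith [mul_le_mul_of_nonneg_left hb hpos]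
  refine h4.trans ?_
  have h5 : (v - u) / v ≤ (v - u) / t :=
    div_le_div_of_nonneg_left (by linarith) ht (hu.trans huv)
  have h6 : 0 ≤ (v - u) / v := div_nonneg (by linarith) hv0.le
  calc u ^ (-ρ) * (ρ * ((v - u) / v)) ≤ t ^ (-ρ) * (ρ * ((v - u) / t)) :=
        mul_le_mul h2 (mul_le_mul_of_nonneg_left h5 (by linarith))
          (mul_nonneg (by linarith) h6) (Real.rpow_nonneg ht.le _)
    _ = ρ * t ^ (-ρ - 1) * (v - u) := by rw [h3]; ring

theorem rpow_neg_sub_le {u v t ρ : ℝ} (ht : 0 < t) (hu : t ≤ u) (hv : t ≤ v) (hρ : 1 ≤ ρ) :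
    |u ^ (-ρ) - v ^ (-ρ)| ≤ ρ * t ^ (-ρ - 1) * |u - v| := by
  rcases le_total u v with huv | hvu
  · have h1 := rpow_neg_sub_le_aux ht hu huv hρ
    have h2 : v ^ (-ρ) ≤ u ^ (-ρ) :=
      Real.rpow_le_rpow_of_nonpos (lt_of_lt_of_le ht hu) huv (by linarith)
    rw [abs_of_nonneg (by linarith), abs_of_nonpos (by linarith)]
    linarith
  · have h1 := rpow_neg_sub_le_aux ht hv hvu hρ
    have h2 : u ^ (-ρ) ≤ v ^ (-ρ) :=
      Real.rpow_le_rpow_of_nonpos (lt_of_lt_of_le ht hv) hvu (by linarith)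
    rw [abs_of_nonpos (by linarith), abs_of_nonneg (by linarith)]
    linarith

/-- The constant in `shift_estimate`. -/
noncomputable def shiftConst (a A ν p : ℝ) : ℝ :=
  2 * ν * (2 / a) ^ (2 * ν + 1) * (A * p) + a ^ (-(2 * ν)) * (2 * p) ^ (ν + 1)

theorem shift_estimate {G : Type*} [AddCommGroup G] [DecidableEq G] (P Φ : G → ℝ) (a A ν ρ : ℝ)
    (hP0 : P 0 = 0) (hP1 : ∀ x, x ≠ 0 → 1 ≤ P x) (hPadd : ∀ x y, P (x + y) ≤ P x + P y)
    (hPneg : ∀ x, P (-x) = P x) (hΦsub : ∀ x y, |Φ (x + y) - Φ x| ≤ Φ y)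
    (hΦle : ∀ x, Φ x ≤ A * P x) (hleΦ : ∀ x, a * P x ≤ Φ x)
    (ha : 0 < a) (ha1 : a ≤ 1) (hν : 1 ≤ ν) (hρ1 : ν ≤ ρ) (hρ2 : ρ ≤ 2 * ν) (r y : G) :
    |Φ (y + r) ^ (-ρ) - Φ y ^ (-ρ)| ≤
      shiftConst a A ν (P r) * P y ^ (-(ν + 1)) + (if y = 0 then a ^ (-(2 * ν)) else 0) := by
  have hPnn : ∀ x, 0 ≤ P x := fun x => by
    by_cases hx : x = 0
    · rw [hx, hP0]
    · linarith [hP1 x hx]
  have hΦ0 : Φ 0 = 0 := le_antisymm (by simpa [hP0] using hΦle 0) (by simpa [hP0] using hleΦ 0)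
  have hρpos : 0 < ρ := by linarith
  -- uniform bound for the summand
  have hfb : ∀ x, 0 ≤ Φ x ^ (-ρ) ∧ Φ x ^ (-ρ) ≤ a ^ (-(2 * ν)) := by
    intro x
    by_cases hx : x = 0
    · rw [hx, hΦ0, Real.zero_rpow (by linarith)]
      exact ⟨le_rfl, Real.rpow_nonneg ha.le _⟩
    · have h1 : a ≤ Φ x := by nlinarith [hP1 x hx, hleΦ x]
      refine ⟨Real.rpow_nonneg (ha.le.trans h1) _, ?_⟩
      exact (Real.rpow_le_rpow_of_nonpos ha h1 (by linarith)).trans
        (Real.rpow_le_rpow_of_exponent_ge ha ha1 (by linarith))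
  have hAP : 0 ≤ A * P r := (mul_nonneg ha.le (hPnn r)).trans ((hleΦ r).trans (hΦle r))
  have h2a : 1 ≤ 2 / a := by rw [le_div_iff₀ ha]; linarith
  have hC1 : 0 ≤ 2 * ν * (2 / a) ^ (2 * ν + 1) * (A * P r) :=
    mul_nonneg (mul_nonneg (by linarith) (Real.rpow_nonneg (by linarith) _)) hAP
  have hC2 : 0 ≤ a ^ (-(2 * ν)) * (2 * P r) ^ (ν + 1) :=
    mul_nonneg (Real.rpow_nonneg ha.le _)
      (Real.rpow_nonneg (mul_nonneg (by norm_num) (hPnn r)) _)
  by_cases hy : y = 0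
  · subst hy
    rw [if_pos rfl, hP0, Real.zero_rpow (by linarith), mul_zero, zero_add, zero_add, hΦ0,
      Real.zero_rpow (by linarith), sub_zero, abs_of_nonneg (hfb _).1]
    exact (hfb _).2
  · rw [if_neg hy, add_zero]
    have hPy : 1 ≤ P y := hP1 y hy
    have hPypow : 0 ≤ P y ^ (-(ν + 1)) := Real.rpow_nonneg (by linarith) _
    by_cases hbig : 2 * P r ≤ P y
    · -- main case
      have ht : 0 < a * P y / 2 := by positivity
      have hΦy : a * P y / 2 ≤ Φ y := by nlinarith [hleΦ y]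
      have hPyr : P y / 2 ≤ P (y + r) := by
        have h1 := hPadd (y + r) (-r)
        rw [add_neg_cancel_right, hPneg] at h1
        linarith
      have hΦyr : a * P y / 2 ≤ Φ (y + r) := by nlinarith [hleΦ (y + r)]
      have main := rpow_neg_sub_le ht hΦyr hΦy (hν.trans hρ1)
      have h3 : |Φ (y + r) - Φ y| ≤ A * P r := (hΦsub y r).trans (hΦle r)
      have h4 : (a * P y / 2) ^ (-ρ - 1) ≤ (2 / a) ^ (2 * ν + 1) * P y ^ (-(ν + 1)) := by
        have e1 : a * P y / 2 = (2 / a)⁻¹ * P y := by field_simp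
        rw [e1, Real.mul_rpow (by positivity) (by linarith), Real.inv_rpow (by positivity),
          ← Real.rpow_neg (by positivity), neg_sub, sub_neg_eq_add]
        refine mul_le_mul ?_ ?_ (Real.rpow_nonneg (by linarith) _)
          (Real.rpow_nonneg (by positivity) _)
        · exact Real.rpow_le_rpow_of_exponent_le h2a (by linarith)
        · exact Real.rpow_le_rpow_of_exponent_le hPy (by linarith)
      have h5 : 0 ≤ (a * P y / 2) ^ (-ρ - 1) := Real.rpow_nonneg ht.le _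
      calc |Φ (y + r) ^ (-ρ) - Φ y ^ (-ρ)|
          ≤ ρ * (a * P y / 2) ^ (-ρ - 1) * |Φ (y + r) - Φ y| := main
        _ ≤ (2 * ν) * ((2 / a) ^ (2 * ν + 1) * P y ^ (-(ν + 1))) * (A * P r) := by
            refine mul_le_mul (mul_le_mul hρ2 h4 h5 (by linarith)) h3 (abs_nonneg _) ?_
            exact mul_nonneg (by linarith)
              (mul_nonneg (Real.rpow_nonneg (by linarith) _) hPypow)
        _ = 2 * ν * (2 / a) ^ (2 * ν + 1) * (A * P r) * P y ^ (-(ν + 1)) := by ring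
        _ ≤ shiftConst a A ν (P r) * P y ^ (-(ν + 1)) := by
            unfold shiftConst
            exact mul_le_mul_of_nonneg_right (by linarith) hPypow
    · -- finitely many small `y`
      rw [not_le] at hbig
      have h1 : |Φ (y + r) ^ (-ρ) - Φ y ^ (-ρ)| ≤ a ^ (-(2 * ν)) := by
        rw [abs_le]
        constructor <;> linarith [(hfb (y + r)).1, (hfb (y + r)).2, (hfb y).1, (hfb y).2]
      have h2 : 1 ≤ (2 * P r) ^ (ν + 1) * P y ^ (-(ν + 1)) := by
        have e1 : P y ^ (ν + 1) * P y ^ (-(ν + 1)) = 1 := by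
          rw [← Real.rpow_add (by linarith)]; simp
        have e2 : P y ^ (ν + 1) ≤ (2 * P r) ^ (ν + 1) :=
          Real.rpow_le_rpow (by linarith) hbig.le (by linarith)
        calc (1 : ℝ) = P y ^ (ν + 1) * P y ^ (-(ν + 1)) := e1.symm
          _ ≤ (2 * P r) ^ (ν + 1) * P y ^ (-(ν + 1)) :=
            mul_le_mul_of_nonneg_right e2 hPypow
      calc |Φ (y + r) ^ (-ρ) - Φ y ^ (-ρ)| ≤ a ^ (-(2 * ν)) := h1
        _ ≤ a ^ (-(2 * ν)) * ((2 * P r) ^ (ν + 1) * P y ^ (-(ν + 1))) :=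
            le_mul_of_one_le_right (Real.rpow_nonneg ha.le _) h2
        _ = a ^ (-(2 * ν)) * (2 * P r) ^ (ν + 1) * P y ^ (-(ν + 1)) := by ring
        _ ≤ shiftConst a A ν (P r) * P y ^ (-(ν + 1)) := by
            unfold shiftConst
            exact mul_le_mul_of_nonneg_right (by linarith) hPypow

/-- The coset decomposition `G ≃ (G ⧸ J) × J`, `x ↦ (x mod J, x - out (x mod J))`. -/
noncomputable def cosetEquiv {G : Type*} [AddCommGroup G] (J : AddSubgroup G) :
    G ≃ (G ⧸ J) × J where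
  toFun x := ((x : G ⧸ J), ⟨x - Quotient.out (x : G ⧸ J), by
    rw [← QuotientAddGroup.eq_zero_iff, QuotientAddGroup.mk_sub, QuotientAddGroup.out_eq',
      sub_self]⟩)
  invFun p := Quotient.out p.1 + p.2
  left_inv x := by simp
  right_inv p := by
    have h1 : ((Quotient.out p.1 + (p.2 : G) : G) : G ⧸ J) = p.1 := by
      rw [QuotientAddGroup.mk_add, QuotientAddGroup.out_eq',
        (QuotientAddGroup.eq_zero_iff _).2 p.2.2, add_zero]
    refine Prod.ext h1 (Subtype.ext ?_)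
    simp [h1]

theorem cosetEquiv_symm_apply {G : Type*} [AddCommGroup G] (J : AddSubgroup G)
    (p : (G ⧸ J) × J) : (cosetEquiv J).symm p = Quotient.out p.1 + p.2 := rfl

/-- **Coset comparison** (in `ℝ≥0∞`): if the shifts of `f` are controlled by `d`, then
`∑_G f` and `[G : J] * ∑_J f` differ by at most `∑_{q ∈ G/J} d (out q)`. -/
theorem coset_compare {G : Type*} [AddCommGroup G] (J : AddSubgroup G) [Fintype (G ⧸ J)]
    (f : G → ℝ) (d : G → ℝ≥0∞)
    (hd : ∀ r, ∑' y : G, ENNReal.ofReal |f (y + r) - f y| ≤ d r) :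
    ∑' x : G, ENNReal.ofReal (f x) ≤
        Fintype.card (G ⧸ J) * ∑' y : J, ENNReal.ofReal (f y) + ∑ q : G ⧸ J, d (Quotient.out q) ∧
      Fintype.card (G ⧸ J) * ∑' y : J, ENNReal.ofReal (f y) ≤
        ∑' x : G, ENNReal.ofReal (f x) + ∑ q : G ⧸ J, d (Quotient.out q) := by
  have hsub : ∀ r, ∑' y : J, ENNReal.ofReal |f ((y : G) + r) - f y| ≤ d r := fun r =>
    (ENNReal.tsum_comp_le_tsum_of_injective Subtype.val_injective
      (fun y : G => ENNReal.ofReal |f (y + r) - f y|)).trans (hd r)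
  have key1 : ∀ r, ∑' y : J, ENNReal.ofReal (f ((y : G) + r)) ≤
      ∑' y : J, ENNReal.ofReal (f y) + d r := by
    intro r
    calc ∑' y : J, ENNReal.ofReal (f ((y : G) + r))
        ≤ ∑' y : J, (ENNReal.ofReal (f y) + ENNReal.ofReal |f ((y : G) + r) - f y|) := by
          refine ENNReal.tsum_le_tsum fun y => ?_
          refine (ENNReal.ofReal_le_ofReal ?_).trans ENNReal.ofReal_add_le
          linarith [le_abs_self (f ((y : G) + r) - f y)]
      _ = ∑' y : J, ENNReal.ofReal (f y) + ∑' y : J, ENNReal.ofReal |f ((y : G) + r) - f y| :=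
          ENNReal.tsum_add
      _ ≤ ∑' y : J, ENNReal.ofReal (f y) + d r := by gcongr; exact hsub r
  have key2 : ∀ r, ∑' y : J, ENNReal.ofReal (f y) ≤
      ∑' y : J, ENNReal.ofReal (f ((y : G) + r)) + d r := by
    intro r
    calc ∑' y : J, ENNReal.ofReal (f y)
        ≤ ∑' y : J, (ENNReal.ofReal (f ((y : G) + r)) +
            ENNReal.ofReal |f ((y : G) + r) - f y|) := by
          refine ENNReal.tsum_le_tsum fun y => ?_
          refine (ENNReal.ofReal_le_ofReal ?_).trans ENNReal.ofReal_add_le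
          linarith [neg_abs_le (f ((y : G) + r) - f y)]
      _ = ∑' y : J, ENNReal.ofReal (f ((y : G) + r)) +
            ∑' y : J, ENNReal.ofReal |f ((y : G) + r) - f y| := ENNReal.tsum_add
      _ ≤ ∑' y : J, ENNReal.ofReal (f ((y : G) + r)) + d r := by gcongr; exact hsub r
  have hdec : ∑' x : G, ENNReal.ofReal (f x) =
      ∑ q : G ⧸ J, ∑' y : J, ENNReal.ofReal (f ((y : G) + Quotient.out q)) := by
    rw [← (cosetEquiv J).symm.tsum_eq, ENNReal.tsum_prod', tsum_fintype]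
    refine Finset.sum_congr rfl fun q _ => tsum_congr fun y => ?_
    rw [cosetEquiv_symm_apply, add_comm]
  have hconst : (Fintype.card (G ⧸ J) : ℝ≥0∞) * ∑' y : J, ENNReal.ofReal (f y) =
      ∑ _q : G ⧸ J, ∑' y : J, ENNReal.ofReal (f y) := by
    rw [Finset.sum_const, Finset.card_univ, nsmul_eq_mul]
  constructor
  · rw [hdec, hconst, ← Finset.sum_add_distrib]
    exact Finset.sum_le_sum fun q _ => key1 _
  · rw [hdec, hconst, ← Finset.sum_add_distrib]
    exact Finset.sum_le_sum fun q _ => key2 _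

end Fermat.Agent.S14.helper861
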