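import Mathlib

/-!
# helper861: the Hecke kernel `Phi h x = ∑_w exp(theta h w) * w x`

`theta h` extends `h : logSpace K` to all infinite places so that `∑ mult w * theta h w = 0`.
* `Phi_unit_mul`  : `Phi h (u * x) = Phi (h + logEmbedding u) x` for units `u`;
* `Phi_eq`        : `Phi h x = exp (log (Nm x) / n) * Psi (h + ell x)` for `x ≠ 0`;
* `Phi` is a seminorm in `x`, comparable to `Pn x = ∑_w w x` uniformly for bounded `h`.
-/

set_option autoImplicit false

open NumberField NumberField.InfinitePlace NumberField.Units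
  NumberField.Units.dirichletUnitTheorem
open scoped nonZeroDivisors ENNReal
open MeasureTheory

namespace Fermat.Agent.S14.helper861

variable {K : Type*} [Field K] [NumberField K]

open scoped Classical in
/-- Extension of `h : logSpace K` to all infinite places, with `∑ mult w * theta h w = 0`. -/
noncomputable def theta (h : logSpace K) (w : InfinitePlace K) : ℝ :=
  if hw : w = w₀ then -(∑ v, h v) / mult (w₀ : InfinitePlace K) else h ⟨w, hw⟩ / mult w

theorem theta_add (h h' : logSpace K) (w : InfinitePlace K) :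
    theta (h + h') w = theta h w + theta h' w := by
  classical
  unfold theta
  split_ifs with hw
  · simp only [Pi.add_apply, Finset.sum_add_distrib]
    ring
  · simp only [Pi.add_apply]
    ring

open scoped Classical in
/-- If `∑ mult w * c w = 0` then `theta` of the vector `(mult w * c w)_{w ≠ w₀}` is `c`. -/
theorem theta_of_sum_eq_zero (c : InfinitePlace K → ℝ) (hc : ∑ w, (mult w : ℝ) * c w = 0)
    (w : InfinitePlace K) :
    theta (fun v : {w : InfinitePlace K // w ≠ w₀} => (mult v.1 : ℝ) * c v.1) w = c w := by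
  have hm : ∀ w : InfinitePlace K, (mult w : ℝ) ≠ 0 := fun w => mult_coe_ne_zero
  unfold theta
  split_ifs with hw
  · rw [Fintype.sum_eq_add_sum_subtype_ne _ (w₀ : InfinitePlace K)] at hc
    have h1 : ∑ v : {w : InfinitePlace K // w ≠ w₀}, (mult v.1 : ℝ) * c v.1
        = -((mult (w₀ : InfinitePlace K) : ℝ) * c w₀) := by linarith
    rw [h1, hw]
    field_simp
  · field_simp

theorem theta_logEmbedding (u : (𝓞 K)ˣ) (w : InfinitePlace K) :
    theta (logEmbedding K (Additive.ofMul u)) w = Real.log (w (u : K)) := by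
  classical
  exact theta_of_sum_eq_zero (fun w => Real.log (w (u : K))) (sum_mult_mul_log u) w

/-- The norm, as the product over the infinite places. -/
noncomputable def Nm (x : K) : ℝ := ∏ w : InfinitePlace K, w x ^ mult w

theorem Nm_pos {x : K} (hx : x ≠ 0) : 0 < Nm x :=
  Finset.prod_pos fun w _ => pow_pos (pos_iff.mpr hx) _

theorem log_Nm {x : K} (hx : x ≠ 0) :
    Real.log (Nm x) = ∑ w : InfinitePlace K, (mult w : ℝ) * Real.log (w x) := by
  unfold Nm
  rw [Real.log_prod (fun w _ => (pow_pos (pos_iff.mpr hx) _).ne')]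
  exact Finset.sum_congr rfl fun w _ => Real.log_pow _ _

/-- The "direction" of `x` in the log space. -/
noncomputable def ell (x : K) : logSpace K :=
  fun v => (mult v.1 : ℝ) * (Real.log (v.1 x) - Real.log (Nm x) / Module.finrank ℚ K)

theorem theta_ell {x : K} (hx : x ≠ 0) (w : InfinitePlace K) :
    theta (ell x) w = Real.log (w x) - Real.log (Nm x) / Module.finrank ℚ K := by
  classical
  refine theta_of_sum_eq_zero
    (fun w => Real.log (w x) - Real.log (Nm x) / Module.finrank ℚ K) ?_ w
  have hn : ((Module.finrank ℚ K : ℕ) : ℝ) ≠ 0 :=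
    Nat.cast_ne_zero.2 (Module.finrank_pos).ne'
  simp only [mul_sub, Finset.sum_sub_distrib, ← Finset.sum_mul, ← log_Nm hx]
  rw [← Nat.cast_sum, sum_mult_eq]
  field_simp
  ring

/-- The Hecke kernel (a weighted `ℓ¹`-norm of the archimedean absolute values). -/
noncomputable def Phi (h : logSpace K) (x : K) : ℝ :=
  ∑ w : InfinitePlace K, Real.exp (theta h w) * w x

/-- `Phi h 1`. -/
noncomputable def Psi (h : logSpace K) : ℝ :=
  ∑ w : InfinitePlace K, Real.exp (theta h w)

/-- The unweighted `ℓ¹`-norm of the archimedean absolute values. -/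
noncomputable def Pn (x : K) : ℝ := ∑ w : InfinitePlace K, w x

theorem Phi_unit_mul (u : (𝓞 K)ˣ) (h : logSpace K) (x : K) :
    Phi h ((u : K) * x) = Phi (h + logEmbedding K (Additive.ofMul u)) x := by
  unfold Phi
  refine Finset.sum_congr rfl fun w _ => ?_
  rw [theta_add, theta_logEmbedding, Real.exp_add, Real.exp_log (pos_at_place u w), map_mul]
  ring

theorem Phi_eq (h : logSpace K) {x : K} (hx : x ≠ 0) :
    Phi h x = Real.exp (Real.log (Nm x) / Module.finrank ℚ K) * Psi (h + ell x) := by
  unfold Phi Psi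
  rw [Finset.mul_sum]
  refine Finset.sum_congr rfl fun w _ => ?_
  rw [theta_add, theta_ell hx, Real.exp_add, Real.exp_sub, Real.exp_log (pos_iff.mpr hx)]
  field_simp

theorem Phi_nonneg (h : logSpace K) (x : K) : 0 ≤ Phi h x :=
  Finset.sum_nonneg fun w _ => mul_nonneg (Real.exp_pos _).le (apply_nonneg _ _)

theorem Psi_pos (h : logSpace K) : 0 < Psi h :=
  Finset.sum_pos (fun w _ => Real.exp_pos _) Finset.univ_nonempty

theorem Phi_zero (h : logSpace K) : Phi h (0 : K) = 0 := by
  simp [Phi]

theorem Phi_neg (h : logSpace K) (x : K) : Phi h (-x) = Phi h x := by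
  unfold Phi
  exact Finset.sum_congr rfl fun w _ => by
    rw [show w (-x) = w x from AbsoluteValue.map_neg w.1 x]

theorem Phi_add_le (h : logSpace K) (x y : K) : Phi h (x + y) ≤ Phi h x + Phi h y := by
  unfold Phi
  rw [← Finset.sum_add_distrib]
  refine Finset.sum_le_sum fun w _ => ?_
  rw [← mul_add]
  exact mul_le_mul_of_nonneg_left (w.1.add_le x y) (Real.exp_pos _).le

theorem Phi_sub_le (h : logSpace K) (x y : K) : |Phi h (x + y) - Phi h x| ≤ Phi h y := by
  rw [abs_le]
  constructor
  · have h1 := Phi_add_le h (x + y) (-y)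
    rw [Phi_neg, add_neg_cancel_right] at h1
    linarith
  · have h1 := Phi_add_le h x y
    linarith

theorem Pn_nonneg (x : K) : 0 ≤ Pn x := Finset.sum_nonneg fun w _ => apply_nonneg _ _

theorem Pn_zero : Pn (0 : K) = 0 := by simp [Pn]

theorem Pn_neg (x : K) : Pn (-x) = Pn x :=
  Finset.sum_congr rfl fun w _ => AbsoluteValue.map_neg w.1 x

theorem Pn_add_le (x y : K) : Pn (x + y) ≤ Pn x + Pn y := by
  unfold Pn
  rw [← Finset.sum_add_distrib]
  exact Finset.sum_le_sum fun w _ => w.1.add_le x y

theorem one_le_Pn {x : 𝓞 K} (hx : x ≠ 0) : 1 ≤ Pn (x : K) := by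
  by_contra hlt
  rw [not_le] at hlt
  have h1 : ∀ w : InfinitePlace K, w (x : K) < 1 := fun w =>
    lt_of_le_of_lt (Finset.single_le_sum (f := fun w : InfinitePlace K => w (x : K))
      (fun w _ => apply_nonneg _ _) (Finset.mem_univ w)) hlt
  have h2 : 1 ≤ (w₀ : InfinitePlace K) (x : K) := one_le_of_lt_one hx fun z _ => h1 z
  exact absurd (h1 w₀) (not_lt.2 h2)

open scoped Classical in
/-- A uniform bound for `theta` in terms of the sup norm of `h`. -/
theorem abs_theta_le (h : logSpace K) (w : InfinitePlace K) :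
    |theta h w| ≤ Fintype.card (InfinitePlace K) * ‖h‖ := by
  have hc : (1 : ℝ) ≤ Fintype.card (InfinitePlace K) := by
    exact_mod_cast Fintype.card_pos
  have hm : ∀ w : InfinitePlace K, (1 : ℝ) ≤ mult w := fun w => by
    exact_mod_cast mult_pos
  unfold theta
  split_ifs with hw
  · rw [abs_div, abs_neg, abs_of_pos (lt_of_lt_of_le one_pos (hm _))]
    refine (div_le_self (abs_nonneg _) (hm _)).trans ?_
    refine (Finset.abs_sum_le_sum_abs _ _).trans ?_
    refine (Finset.sum_le_sum fun v _ => (norm_le_pi_norm h v)).trans ?_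
    rw [Finset.sum_const, nsmul_eq_mul]
    refine mul_le_mul_of_nonneg_right ?_ (norm_nonneg _)
    exact_mod_cast Finset.card_le_univ _ |>.trans (Fintype.card_subtype_le _)
  · rw [abs_div, abs_of_pos (lt_of_lt_of_le one_pos (hm _))]
    refine (div_le_self (abs_nonneg _) (hm _)).trans ?_
    refine (norm_le_pi_norm h ⟨w, hw⟩).trans ?_
    exact le_mul_of_one_le_left (norm_nonneg _) hc

open scoped Classical in
theorem Phi_le (h : logSpace K) {T : ℝ} (hT : ‖h‖ ≤ T) (x : K) :
    Phi h x ≤ Real.exp (Fintype.card (InfinitePlace K) * T) * Pn x := by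
  unfold Phi Pn
  rw [Finset.mul_sum]
  refine Finset.sum_le_sum fun w _ => mul_le_mul_of_nonneg_right ?_ (apply_nonneg _ _)
  refine Real.exp_le_exp.2 ((le_abs_self _).trans ((abs_theta_le h w).trans ?_))
  exact mul_le_mul_of_nonneg_left hT (Nat.cast_nonneg _)

open scoped Classical in
theorem le_Phi (h : logSpace K) {T : ℝ} (hT : ‖h‖ ≤ T) (x : K) :
    Real.exp (-(Fintype.card (InfinitePlace K) * T)) * Pn x ≤ Phi h x := by
  unfold Phi Pn
  rw [Finset.mul_sum]
  refine Finset.sum_le_sum fun w _ => mul_le_mul_of_nonneg_right ?_ (apply_nonneg _ _)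
  refine Real.exp_le_exp.2 ?_
  have h1 := (neg_abs_le (theta h w))
  have h2 := (abs_theta_le h w).trans (mul_le_mul_of_nonneg_left hT (Nat.cast_nonneg _))
  linarith

open scoped Classical in
theorem Psi_le (h : logSpace K) {T : ℝ} (hT : ‖h‖ ≤ T) :
    Psi h ≤ Fintype.card (InfinitePlace K) * Real.exp (Fintype.card (InfinitePlace K) * T) := by
  unfold Psi
  have h1 : ∀ w ∈ (Finset.univ : Finset (InfinitePlace K)),
      Real.exp (theta h w) ≤ Real.exp (Fintype.card (InfinitePlace K) * T) := fun w _ =>
    Real.exp_le_exp.2 ((le_abs_self _).trans ((abs_theta_le h w).trans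
      (mul_le_mul_of_nonneg_left hT (Nat.cast_nonneg _))))
  refine (Finset.sum_le_sum h1).trans ?_
  rw [Finset.sum_const, nsmul_eq_mul, Finset.card_univ]

end Fermat.Agent.S14.helper861
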