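import Mathlib

/-!
# helper861: kernel-generic unfolding over the unit group (Hecke's trick), `ℝ≥0∞`-valued

`K` a number field, `D = fundDom K` a fundamental domain of the unit lattice in `logSpace K`.
For a kernel `g : logSpace K → K → ℝ≥0∞` with `g h (u * x) = g (h + logEmbedding u) x`:

`∑_{y ∈ J, y ≠ 0} ∫_D g h y dh = torsionOrder K * ∑_{I ∈ [J]⁻¹} ∫_{logSpace} g h (gen I) dh`

where `gen I` generates `I * J`.
-/

set_option autoImplicit false

open NumberField NumberField.InfinitePlace NumberField.Units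
  NumberField.Units.dirichletUnitTheorem
open scoped nonZeroDivisors ENNReal
open MeasureTheory

namespace Fermat.Agent.S14.helper861

/-- Summation along a map all of whose fibres have the same finite cardinality. -/
theorem tsum_comp_of_card_fiber {α β : Type*} (π : α → β) (τ : ℕ)
    (hfin : ∀ b, Finite {a // π a = b}) (hfib : ∀ b, Nat.card {a // π a = b} = τ)
    (ψ : β → ℝ≥0∞) : ∑' a, ψ (π a) = τ * ∑' b, ψ b := by
  rw [← (Equiv.sigmaFiberEquiv π).tsum_eq, ENNReal.tsum_sigma', ← ENNReal.tsum_mul_left]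
  refine tsum_congr fun b => ?_
  have h1 : ∀ a : {a // π a = b}, ψ (π (Equiv.sigmaFiberEquiv π ⟨b, a⟩)) = ψ b := by
    intro a
    simp [a.2]
  simp_rw [h1]
  have := hfin b
  have := Fintype.ofFinite {a // π a = b}
  rw [tsum_fintype, Finset.sum_const, Finset.card_univ, nsmul_eq_mul, ← Nat.card_eq_fintype_card,
    hfib]

variable (K : Type*) [Field K] [NumberField K]

/-- The logarithmic embedding, with values in the unit lattice. -/
noncomputable def unitLog (u : (𝓞 K)ˣ) : unitLattice K :=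
  ⟨logEmbedding K (Additive.ofMul u), ⟨Additive.ofMul u, trivial, rfl⟩⟩

theorem unitLog_coe (u : (𝓞 K)ˣ) :
    (unitLog K u : logSpace K) = logEmbedding K (Additive.ofMul u) := rfl

theorem unitLog_eq_iff (u v : (𝓞 K)ˣ) : unitLog K u = unitLog K v ↔ u * v⁻¹ ∈ torsion K := by
  rw [← logEmbedding_eq_zero_iff, Subtype.ext_iff, unitLog_coe, unitLog_coe, ofMul_mul, ofMul_inv,
    map_add, map_neg, ← sub_eq_add_neg, sub_eq_zero]

theorem unitLog_surjective : Function.Surjective (unitLog K) := by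
  rintro ⟨l, ⟨x, -, rfl⟩⟩
  exact ⟨Additive.toMul x, rfl⟩

theorem card_fiber_unitLog (l : unitLattice K) :
    Finite {u : (𝓞 K)ˣ // unitLog K u = l} ∧
      Nat.card {u : (𝓞 K)ˣ // unitLog K u = l} = torsionOrder K := by
  obtain ⟨u₀, rfl⟩ := unitLog_surjective K l
  let e : {u : (𝓞 K)ˣ // unitLog K u = unitLog K u₀} ≃ torsion K :=
    { toFun := fun u => ⟨u.1 * u₀⁻¹, (unitLog_eq_iff K u.1 u₀).1 u.2⟩
      invFun := fun t => ⟨t.1 * u₀, (unitLog_eq_iff K _ u₀).2 (by simp)⟩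
      left_inv := fun u => by ext; simp
      right_inv := fun t => by ext; simp }
  exact ⟨Finite.of_equiv _ e.symm, by rw [Nat.card_congr e]; rfl⟩

theorem tsum_unitLog (ψ : unitLattice K → ℝ≥0∞) :
    ∑' u : (𝓞 K)ˣ, ψ (unitLog K u) = torsionOrder K * ∑' l, ψ l :=
  tsum_comp_of_card_fiber (unitLog K) (torsionOrder K) (fun l => (card_fiber_unitLog K l).1)
    (fun l => (card_fiber_unitLog K l).2) ψ

open scoped Classical in
/-- A fundamental domain of the unit lattice. -/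
noncomputable def fundDom : Set (logSpace K) :=
  ZSpan.fundamentalDomain ((basisUnitLattice K).ofZLatticeBasis ℝ (unitLattice K))

open scoped Classical in
theorem tsum_units_lintegral (φ : logSpace K → ℝ≥0∞) :
    ∑' u : (𝓞 K)ˣ, ∫⁻ h in fundDom K, φ (h + logEmbedding K (Additive.ofMul u))
      = torsionOrder K * ∫⁻ h, φ h := by
  have hD : IsAddFundamentalDomain (unitLattice K) (fundDom K) volume :=
    ZLattice.isAddFundamentalDomain (basisUnitLattice K) (volume : Measure (logSpace K))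
  have : MeasurableVAdd (unitLattice K) (logSpace K) :=
    (inferInstance : MeasurableVAdd (unitLattice K).toAddSubgroup (logSpace K))
  have : VAddInvariantMeasure (unitLattice K) (logSpace K) volume :=
    (inferInstance : VAddInvariantMeasure (unitLattice K).toAddSubgroup (logSpace K) volume)
  rw [hD.lintegral_eq_tsum'' φ, ← tsum_unitLog K (fun l => ∫⁻ h in fundDom K, φ (l +ᵥ h))]
  refine tsum_congr fun u => ?_
  refine lintegral_congr fun h => ?_
  rw [add_comm]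
  rfl

variable {K}

theorem exists_gen (J : (Ideal (𝓞 K))⁰)
    (I : {I : (Ideal (𝓞 K))⁰ // ClassGroup.mk0 I = (ClassGroup.mk0 J)⁻¹}) :
    ∃ g : 𝓞 K, Ideal.span {g} = (I.1 : Ideal (𝓞 K)) * (J : Ideal (𝓞 K)) := by
  have h1 : ClassGroup.mk0 (I.1 * J) = 1 := by rw [map_mul, I.2, inv_mul_cancel]
  have h2 : ((I.1 * J : (Ideal (𝓞 K))⁰) : Ideal (𝓞 K)).IsPrincipal :=
    (ClassGroup.mk0_eq_one_iff (I.1 * J).2).1 h1
  obtain ⟨g, hg⟩ := h2.principal
  exact ⟨g, hg.symm⟩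

section gen

variable (J : (Ideal (𝓞 K))⁰)
  (gen : {I : (Ideal (𝓞 K))⁰ // ClassGroup.mk0 I = (ClassGroup.mk0 J)⁻¹} → 𝓞 K)
  (hgen : ∀ I, Ideal.span {gen I} = (I.1 : Ideal (𝓞 K)) * (J : Ideal (𝓞 K)))

include hgen

theorem gen_mem (I : {I : (Ideal (𝓞 K))⁰ // ClassGroup.mk0 I = (ClassGroup.mk0 J)⁻¹}) :
    gen I ∈ (J : Ideal (𝓞 K)) := by
  have h1 : Ideal.span {gen I} ≤ (J : Ideal (𝓞 K)) := by
    rw [hgen I]
    exact Ideal.mul_le_right (I := (I.1 : Ideal (𝓞 K))) (J := (J : Ideal (𝓞 K)))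
  exact h1 (Ideal.mem_span_singleton_self (gen I))

theorem gen_ne_zero (I : {I : (Ideal (𝓞 K))⁰ // ClassGroup.mk0 I = (ClassGroup.mk0 J)⁻¹}) :
    gen I ≠ 0 := by
  intro h0
  have h1 := hgen I
  rw [h0, Ideal.span_singleton_zero] at h1
  have h2 : ((I.1 * J : (Ideal (𝓞 K))⁰) : Ideal (𝓞 K)) ≠ 0 := nonZeroDivisors.coe_ne_zero _
  exact h2 h1.symm

/-- `(I, u) ↦ u * gen I`, from (ideals in the class `[J]⁻¹`) × units to `J ∖ {0}`. -/
noncomputable def unitGen
    (p : {I : (Ideal (𝓞 K))⁰ // ClassGroup.mk0 I = (ClassGroup.mk0 J)⁻¹} × (𝓞 K)ˣ) :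
    {y : 𝓞 K // y ∈ (J : Ideal (𝓞 K)) ∧ y ≠ 0} :=
  ⟨(p.2 : 𝓞 K) * gen p.1, Ideal.mul_mem_left _ _ (gen_mem J gen hgen p.1),
    mul_ne_zero (Units.ne_zero _) (gen_ne_zero J gen hgen p.1)⟩

theorem unitGen_bijective : Function.Bijective (unitGen J gen hgen) := by
  have hJ0 : (J : Ideal (𝓞 K)) ≠ 0 := nonZeroDivisors.coe_ne_zero _
  constructor
  · rintro ⟨I, u⟩ ⟨I', u'⟩ h
    have h1 : (u : 𝓞 K) * gen I = (u' : 𝓞 K) * gen I' := congrArg Subtype.val h
    have h2 : Ideal.span {gen I} = Ideal.span {gen I'} := by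
      rw [← Ideal.span_singleton_mul_left_unit u.isUnit, h1,
        Ideal.span_singleton_mul_left_unit u'.isUnit]
    rw [hgen I, hgen I'] at h2
    have h3 : I = I' := Subtype.ext (Subtype.ext (mul_right_cancel₀ hJ0 h2))
    subst h3
    have h4 : (u : 𝓞 K) = u' := mul_right_cancel₀ (gen_ne_zero J gen hgen I) h1
    rw [Units.ext h4]
  · rintro ⟨y, hyJ, hy0⟩
    have h1 : (J : Ideal (𝓞 K)) ∣ Ideal.span {y} :=
      Ideal.dvd_iff_le.2 ((Ideal.span_singleton_le_iff_mem _).2 hyJ)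
    obtain ⟨I₀, hI₀⟩ := h1
    have hI₀0 : I₀ ≠ 0 := by
      rintro rfl
      rw [mul_zero] at hI₀
      exact hy0 (Ideal.span_singleton_eq_bot.1 hI₀)
    have hI₀m : I₀ ∈ (Ideal (𝓞 K))⁰ := mem_nonZeroDivisors_iff_ne_zero.2 hI₀0
    have hy0' : Ideal.span {y} ∈ (Ideal (𝓞 K))⁰ :=
      mem_nonZeroDivisors_iff_ne_zero.2 (by simpa using hy0)
    have h2 : ClassGroup.mk0 ⟨Ideal.span {y}, hy0'⟩ = 1 :=
      (ClassGroup.mk0_eq_one_iff hy0').2 ⟨⟨y, rfl⟩⟩
    have h3 : (⟨Ideal.span {y}, hy0'⟩ : (Ideal (𝓞 K))⁰) = J * ⟨I₀, hI₀m⟩ := Subtype.ext hI₀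
    rw [h3, map_mul] at h2
    have h4 : ClassGroup.mk0 ⟨I₀, hI₀m⟩ = (ClassGroup.mk0 J)⁻¹ := eq_inv_of_mul_eq_one_right h2
    have h5 := hgen ⟨⟨I₀, hI₀m⟩, h4⟩
    rw [mul_comm, ← hI₀, Ideal.span_singleton_eq_span_singleton] at h5
    obtain ⟨u, hu⟩ := h5
    refine ⟨(⟨⟨I₀, hI₀m⟩, h4⟩, u), Subtype.ext ?_⟩
    simp only [unitGen]
    rw [mul_comm]
    exact hu

open scoped Classical in
/-- **Kernel-generic unfolding.** -/
theorem unfold_generic (g : logSpace K → K → ℝ≥0∞)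
    (hunit : ∀ (u : (𝓞 K)ˣ) (h : logSpace K) (x : K),
      g h ((u : K) * x) = g (h + logEmbedding K (Additive.ofMul u)) x) :
    ∑' y : {y : 𝓞 K // y ∈ (J : Ideal (𝓞 K)) ∧ y ≠ 0}, ∫⁻ h in fundDom K, g h ((y : 𝓞 K) : K)
      = torsionOrder K * ∑' I, ∫⁻ h, g h (gen I : K) := by
  rw [← (Equiv.ofBijective _ (unitGen_bijective J gen hgen)).tsum_eq, ENNReal.tsum_prod',
    ← ENNReal.tsum_mul_left]
  refine tsum_congr fun I => ?_
  rw [← tsum_units_lintegral K (fun h => g h (gen I : K))]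
  refine tsum_congr fun u => ?_
  refine lintegral_congr fun h => ?_
  rw [← hunit]
  simp [unitGen]

end gen

end Fermat.Agent.S14.helper861
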