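import Mathlib
import Fermat.Agent.S14.helper861_HeckeUnfold
import Fermat.Agent.S14.helper861_HeckeKernel
import Fermat.Agent.S14.helper861_HeckeAnalysis
import Fermat.Agent.Lib.helper1121_ZetaIdealSum

/-!
# helper861: the partial zeta functions of two ideal classes differ by a bounded function

Hecke's integral representation of the partial zeta function as an Epstein-type sum,
and the coset comparison of Epstein sums.
-/

set_option autoImplicit false

open NumberField NumberField.InfinitePlace NumberField.Units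
  NumberField.Units.dirichletUnitTheorem
open scoped nonZeroDivisors ENNReal
open MeasureTheory

namespace Fermat.Agent.S14.helper861

variable {K : Type*} [Field K] [NumberField K]

/-! ### Lattice sums -/

open scoped Classical in
theorem norm_mixedEmbedding_le_Pn (x : K) : ‖mixedEmbedding K x‖ ≤ Pn x := by
  rw [mixedEmbedding.norm_eq_sup'_normAtPlace]
  refine Finset.sup'_le _ _ fun w _ => ?_
  rw [mixedEmbedding.normAtPlace_apply]
  exact Finset.single_le_sum (f := fun w : InfinitePlace K => w x)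
    (fun w _ => apply_nonneg _ _) (Finset.mem_univ w)

open scoped Classical in
theorem summable_Pn_rpow {s : ℝ} (hs : (Module.finrank ℚ K : ℝ) < s) :
    Summable (fun x : 𝓞 K => Pn (x : K) ^ (-s)) := by
  have hn : (0 : ℝ) < Module.finrank ℚ K := by exact_mod_cast Module.finrank_pos
  have h1 : Summable (fun z : mixedEmbedding.integerLattice K => ‖z‖ ^ (-s)) := by
    apply ZLattice.summable_norm_rpow
    rw [ZLattice.rank ℝ, mixedEmbedding.finrank]
    linarith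
  let ι : 𝓞 K → mixedEmbedding.integerLattice K :=
    fun x => ⟨mixedEmbedding K (x : K), ⟨x, rfl⟩⟩
  have hι : Function.Injective ι := fun x y hxy =>
    RingOfIntegers.ext (mixedEmbedding_injective K (congrArg Subtype.val hxy))
  refine Summable.of_nonneg_of_le (fun x => Real.rpow_nonneg (Pn_nonneg _) _) (fun x => ?_)
    (h1.comp_injective hι)
  by_cases hx : x = 0
  · simp only [hx, map_zero, Pn_zero, Function.comp_apply]
    rw [Real.zero_rpow (by linarith)]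
    exact Real.rpow_nonneg (norm_nonneg _) _
  · have hx' : (x : K) ≠ 0 := by simpa using hx
    have hpos : 0 < ‖mixedEmbedding K (x : K)‖ :=
      norm_pos_iff.2 fun h0 => hx' (mixedEmbedding_injective K (h0.trans (map_zero _).symm))
    exact Real.rpow_le_rpow_of_nonpos hpos (norm_mixedEmbedding_le_Pn _) (by linarith)

theorem tsum_Pn_rpow_ne_top {s : ℝ} (hs : (Module.finrank ℚ K : ℝ) < s) :
    ∑' x : 𝓞 K, ENNReal.ofReal (Pn (x : K) ^ (-s)) ≠ ⊤ := by
  rw [← ENNReal.ofReal_tsum_of_nonneg (fun x => Real.rpow_nonneg (Pn_nonneg _) _)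
    (summable_Pn_rpow hs)]
  exact ENNReal.ofReal_ne_top

/-! ### Measurability -/

open scoped Classical in
theorem measurable_theta (w : InfinitePlace K) :
    Measurable (fun h : logSpace K => theta h w) := by
  by_cases hw : w = w₀
  · have h1 : (fun h : logSpace K => theta h w) =
        fun h : logSpace K => -(∑ v, h v) / (mult (w₀ : InfinitePlace K) : ℝ) := by
      funext h
      simp [theta, hw]
    rw [h1]
    exact ((Finset.measurable_sum _ fun v _ => measurable_pi_apply v).neg).div_const _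
  · have h1 : (fun h : logSpace K => theta h w) =
        fun h : logSpace K => h ⟨w, hw⟩ / (mult w : ℝ) := by
      funext h
      simp [theta, hw]
    rw [h1]
    exact (measurable_pi_apply _).div_const _

open scoped Classical in
theorem measurable_Phi (x : K) : Measurable (fun h : logSpace K => Phi h x) := by
  unfold Phi
  exact Finset.measurable_sum _ fun w _ =>
    (Real.measurable_exp.comp (measurable_theta w)).mul_const _

/-! ### The kernel and the Hecke integral -/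

/-- The Hecke kernel `Phi h x ^ (-n σ)`, as an extended nonnegative real. -/
noncomputable def gK (σ : ℝ) (h : logSpace K) (x : K) : ℝ≥0∞ :=
  ENNReal.ofReal (Phi h x ^ (-((Module.finrank ℚ K : ℝ) * σ)))

theorem gK_unit (σ : ℝ) (u : (𝓞 K)ˣ) (h : logSpace K) (x : K) :
    gK σ h ((u : K) * x) = gK σ (h + logEmbedding K (Additive.ofMul u)) x := by
  unfold gK
  rw [Phi_unit_mul]

theorem gK_zero {σ : ℝ} (hσ : 0 < σ) (h : logSpace K) : gK σ h (0 : K) = 0 := by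
  have hn : (0 : ℝ) < Module.finrank ℚ K := by exact_mod_cast Module.finrank_pos
  unfold gK
  rw [Phi_zero, Real.zero_rpow (by nlinarith), ENNReal.ofReal_zero]

open scoped Classical in
theorem measurable_gK (σ : ℝ) (x : K) : Measurable (fun h : logSpace K => gK σ h x) := by
  unfold gK
  exact ((measurable_Phi x).pow_const _).ennreal_ofReal

variable (K) in
open scoped Classical in
/-- The Hecke constant `∫ Psi ^ (-n σ)` over the log space. -/
noncomputable def cH (σ : ℝ) : ℝ≥0∞ :=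
  ∫⁻ h : logSpace K, ENNReal.ofReal (Psi h ^ (-((Module.finrank ℚ K : ℝ) * σ)))

open scoped Classical in
theorem lintegral_gK (σ : ℝ) {x : K} (hx : x ≠ 0) :
    ∫⁻ h, gK σ h x = ENNReal.ofReal (Nm x ^ (-σ)) * cH K σ := by
  have hn : (0 : ℝ) < Module.finrank ℚ K := by exact_mod_cast Module.finrank_pos
  have h1 : ∀ h : logSpace K, gK σ h x = ENNReal.ofReal (Nm x ^ (-σ)) *
      ENNReal.ofReal (Psi (h + ell x) ^ (-((Module.finrank ℚ K : ℝ) * σ))) := by
    intro h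
    unfold gK
    rw [Phi_eq h hx, Real.mul_rpow (Real.exp_pos _).le (Psi_pos _).le,
      ENNReal.ofReal_mul (Real.rpow_nonneg (Real.exp_pos _).le _)]
    congr 2
    rw [← Real.exp_mul, Real.rpow_def_of_pos (Nm_pos hx)]
    congr 1
    field_simp
  simp_rw [h1]
  rw [lintegral_const_mul' _ _ ENNReal.ofReal_ne_top]
  congr 1
  exact lintegral_add_right_eq_self
    (fun h => ENNReal.ofReal (Psi h ^ (-((Module.finrank ℚ K : ℝ) * σ)))) (ell x)

/-! ### Norms -/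

theorem Nm_eq_absNorm (x : 𝓞 K) : Nm (x : K) = (Ideal.absNorm (Ideal.span {x}) : ℝ) := by
  unfold Nm
  rw [prod_eq_abs_norm, Ideal.absNorm_span_singleton, ← Algebra.coe_norm_int]
  simp

/-! ### The unfolded identity -/

variable (K) in
theorem countable_ringOfIntegers : Countable (𝓞 K) :=
  (RingOfIntegers.basis K).equivFun.toEquiv.countable_iff.mpr inferInstance

omit [NumberField K] in
theorem tsum_ideal_eq (J : Ideal (𝓞 K)) (F : 𝓞 K → ℝ≥0∞) (hF : F 0 = 0) :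
    ∑' y : J, F (y : 𝓞 K) = ∑' y : {y : 𝓞 K // y ∈ J ∧ y ≠ 0}, F (y : 𝓞 K) := by
  classical
  have h1 := tsum_subtype (J : Set (𝓞 K)) F
  have h2 := tsum_subtype {y : 𝓞 K | y ∈ J ∧ y ≠ 0} F
  have h3 : (J : Set (𝓞 K)).indicator F = ({y : 𝓞 K | y ∈ J ∧ y ≠ 0} : Set (𝓞 K)).indicator F := by
    funext x
    by_cases hx : x = 0
    · subst hx
      simp [hF]
    · by_cases hxJ : x ∈ J <;> simp [Set.indicator, hx, hxJ]
  rw [h3] at h1
  exact h1.trans h2.symm

open scoped Classical in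
theorem unfolded (J : (Ideal (𝓞 K))⁰) (C : ClassGroup (𝓞 K)) (hC : C = (ClassGroup.mk0 J)⁻¹)
    {σ : ℝ} (hσ : 0 < σ) :
    ∫⁻ h in fundDom K, ∑' y : (J : Ideal (𝓞 K)), gK σ h ((y : 𝓞 K) : K)
      = torsionOrder K * cH K σ *
          ENNReal.ofReal ((Ideal.absNorm (J : Ideal (𝓞 K)) : ℝ) ^ (-σ)) *
          ∑' I : {I : (Ideal (𝓞 K))⁰ // ClassGroup.mk0 I = C},
            ENNReal.ofReal ((Ideal.absNorm (I.1 : Ideal (𝓞 K)) : ℝ) ^ (-σ)) := by
  subst hC
  have := countable_ringOfIntegers K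
  choose gen hgen using exists_gen J
  have h1 : ∀ h : logSpace K, ∑' y : (J : Ideal (𝓞 K)), gK σ h ((y : 𝓞 K) : K) =
      ∑' y : {y : 𝓞 K // y ∈ (J : Ideal (𝓞 K)) ∧ y ≠ 0}, gK σ h ((y : 𝓞 K) : K) := fun h =>
    tsum_ideal_eq (J : Ideal (𝓞 K)) (fun y => gK σ h (y : K)) (by simp [gK_zero hσ])
  simp_rw [h1]
  rw [lintegral_tsum (fun y => (measurable_gK σ _).aemeasurable),
    unfold_generic J gen hgen (gK σ) (gK_unit σ)]
  have h2 : ∀ I : {I : (Ideal (𝓞 K))⁰ // ClassGroup.mk0 I = (ClassGroup.mk0 J)⁻¹},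
      ∫⁻ h, gK σ h (gen I : K) =
        ENNReal.ofReal ((Ideal.absNorm (I.1 : Ideal (𝓞 K)) : ℝ) ^ (-σ)) *
          (ENNReal.ofReal ((Ideal.absNorm (J : Ideal (𝓞 K)) : ℝ) ^ (-σ)) * cH K σ) := by
    intro I
    have hg0 : (gen I : K) ≠ 0 := by simpa using gen_ne_zero J gen hgen I
    rw [lintegral_gK σ hg0, Nm_eq_absNorm, hgen I, map_mul, Nat.cast_mul,
      Real.mul_rpow (Nat.cast_nonneg _) (Nat.cast_nonneg _),
      ENNReal.ofReal_mul (Real.rpow_nonneg (Nat.cast_nonneg _) _), mul_assoc]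
  simp_rw [h2]
  rw [ENNReal.tsum_mul_right]
  ring

/-! ### Coset comparison of Epstein sums -/

open scoped Classical in
theorem epstein_compare (J : Ideal (𝓞 K)) (hJ : J ≠ ⊥) (T : ℝ) :
    ∃ B : ℝ≥0∞, B ≠ ⊤ ∧ ∀ h : logSpace K, ‖h‖ ≤ T → ∀ σ : ℝ, 1 < σ → σ ≤ 2 →
      ∑' x : 𝓞 K, gK σ h (x : K) ≤
        (Ideal.absNorm J : ℝ≥0∞) * ∑' y : J, gK σ h ((y : 𝓞 K) : K) + B ∧
      (Ideal.absNorm J : ℝ≥0∞) * ∑' y : J, gK σ h ((y : 𝓞 K) : K) ≤
        ∑' x : 𝓞 K, gK σ h (x : K) + B := by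
  have hn1' : 1 ≤ Module.finrank ℚ K := Module.finrank_pos
  have hn1 : (1 : ℝ) ≤ (Module.finrank ℚ K : ℝ) := by exact_mod_cast hn1'
  set n : ℝ := (Module.finrank ℚ K : ℝ) with hn
  set c : ℝ := (Fintype.card (InfinitePlace K) : ℝ) with hc
  have hcT : 0 ≤ c * |T| := by positivity
  set a : ℝ := Real.exp (-(c * |T|)) with ha
  set A : ℝ := Real.exp (c * |T|) with hA
  have ha0 : 0 < a := Real.exp_pos _
  have ha1 : a ≤ 1 := by
    rw [ha, ← Real.exp_zero]
    exact Real.exp_le_exp.2 (by linarith)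
  set S : ℝ≥0∞ := ∑' y : 𝓞 K, ENNReal.ofReal (Pn (y : K) ^ (-(n + 1))) with hS
  have hS_top : S ≠ ⊤ := tsum_Pn_rpow_ne_top (by linarith)
  let d : 𝓞 K → ℝ≥0∞ := fun r =>
    ENNReal.ofReal (shiftConst a A n (Pn (r : K))) * S + ENNReal.ofReal (a ^ (-(2 * n)))
  have hfin : Finite (𝓞 K ⧸ J.toAddSubgroup) := Ideal.finiteQuotientOfFreeOfNeBot J hJ
  let _ : Fintype (𝓞 K ⧸ J.toAddSubgroup) := Fintype.ofFinite _
  have hcard : Fintype.card (𝓞 K ⧸ J.toAddSubgroup) = Ideal.absNorm J := by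
    rw [Ideal.absNorm_apply, Submodule.cardQuot_apply, ← Nat.card_eq_fintype_card]
    rfl
  refine ⟨∑ q : 𝓞 K ⧸ J.toAddSubgroup, d (Quotient.out q), ?_, ?_⟩
  · refine (ENNReal.sum_lt_top.2 fun q _ => ?_).ne
    exact ENNReal.add_lt_top.2
      ⟨ENNReal.mul_lt_top ENNReal.ofReal_lt_top hS_top.lt_top, ENNReal.ofReal_lt_top⟩
  · intro h hT σ hσ1 hσ2
    have hT' : ‖h‖ ≤ |T| := hT.trans (le_abs_self T)
    have hd : ∀ r : 𝓞 K, ∑' y : 𝓞 K, ENNReal.ofReal
        |Phi h ((y + r : 𝓞 K) : K) ^ (-(n * σ)) - Phi h (y : K) ^ (-(n * σ))| ≤ d r := by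
      intro r
      have hpt : ∀ y : 𝓞 K,
          |Phi h ((y + r : 𝓞 K) : K) ^ (-(n * σ)) - Phi h (y : K) ^ (-(n * σ))| ≤
            shiftConst a A n (Pn (r : K)) * Pn (y : K) ^ (-(n + 1)) +
              (if y = 0 then a ^ (-(2 * n)) else 0) := fun y =>
        shift_estimate (fun x : 𝓞 K => Pn (x : K)) (fun x : 𝓞 K => Phi h (x : K)) a A n (n * σ)
          (by simp [Pn_zero]) (fun x hx => one_le_Pn hx)
          (fun x y => by simpa using Pn_add_le (x : K) (y : K))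
          (fun x => by simpa using Pn_neg (x : K))
          (fun x y => by simpa using Phi_sub_le h (x : K) (y : K))
          (fun x => Phi_le h hT' _) (fun x => le_Phi h hT' _)
          ha0 ha1 hn1 (by nlinarith) (by nlinarith) r y
      calc ∑' y : 𝓞 K, ENNReal.ofReal
              |Phi h ((y + r : 𝓞 K) : K) ^ (-(n * σ)) - Phi h (y : K) ^ (-(n * σ))|
          ≤ ∑' y : 𝓞 K, (ENNReal.ofReal (shiftConst a A n (Pn (r : K))) *
                ENNReal.ofReal (Pn (y : K) ^ (-(n + 1))) +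
              (if y = 0 then ENNReal.ofReal (a ^ (-(2 * n))) else 0)) := by
            refine ENNReal.tsum_le_tsum fun y => ?_
            refine (ENNReal.ofReal_le_ofReal (hpt y)).trans (ENNReal.ofReal_add_le.trans ?_)
            refine add_le_add ?_ ?_
            · rw [ENNReal.ofReal_mul' (Real.rpow_nonneg (Pn_nonneg _) _)]
            · split_ifs <;> simp
        _ = d r := by
            rw [ENNReal.tsum_add, ENNReal.tsum_mul_left, tsum_ite_eq]
    have key := coset_compare J.toAddSubgroup (fun x : 𝓞 K => Phi h (x : K) ^ (-(n * σ))) d hd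
    rw [hcard] at key
    exact key

/-! ### The fundamental domain and the Hecke constant -/

variable (K) in
open scoped Classical in
theorem exists_fundDom_bound : ∃ T : ℝ, ∀ h ∈ fundDom K, ‖h‖ ≤ T :=
  (ZSpan.fundamentalDomain_isBounded _).exists_norm_le

variable (K) in
open scoped Classical in
theorem volume_fundDom_ne_zero : volume (fundDom K) ≠ 0 :=
  ZSpan.measure_fundamentalDomain_ne_zero _

variable (K) in
open scoped Classical in
theorem volume_fundDom_ne_top : volume (fundDom K) ≠ ⊤ :=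
  (ZSpan.fundamentalDomain_isBounded _).measure_lt_top.ne

variable (K) in
open scoped Classical in
theorem measurableSet_fundDom : MeasurableSet (fundDom K) :=
  ZSpan.fundamentalDomain_measurableSet _

variable (K) in
open scoped Classical in
theorem exists_cH_lower : ∃ κ : ℝ≥0∞, κ ≠ 0 ∧ ∀ σ : ℝ, 1 < σ → σ ≤ 2 → κ ≤ cH K σ := by
  obtain ⟨T, hT⟩ := exists_fundDom_bound K
  have hn1' : 1 ≤ Module.finrank ℚ K := Module.finrank_pos
  have hn1 : (1 : ℝ) ≤ (Module.finrank ℚ K : ℝ) := by exact_mod_cast hn1'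
  set n : ℝ := (Module.finrank ℚ K : ℝ) with hn
  have hc1' : 1 ≤ Fintype.card (InfinitePlace K) := Fintype.card_pos
  have hc1 : (1 : ℝ) ≤ (Fintype.card (InfinitePlace K) : ℝ) := by exact_mod_cast hc1'
  set c : ℝ := (Fintype.card (InfinitePlace K) : ℝ) with hc
  set AD : ℝ := c * Real.exp (c * |T|) with hAD
  have hAD1 : 1 ≤ AD := by
    have h1 : 1 ≤ Real.exp (c * |T|) := Real.one_le_exp (by positivity)
    nlinarith
  refine ⟨ENNReal.ofReal (AD ^ (-(2 * n))) * volume (fundDom K), ?_, ?_⟩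
  · refine mul_ne_zero ?_ (volume_fundDom_ne_zero K)
    rw [Ne, ENNReal.ofReal_eq_zero, not_le]
    exact Real.rpow_pos_of_pos (by linarith) _
  · intro σ h1 h2
    calc ENNReal.ofReal (AD ^ (-(2 * n))) * volume (fundDom K)
        = ∫⁻ _ in fundDom K, ENNReal.ofReal (AD ^ (-(2 * n))) := by rw [setLIntegral_const]
      _ ≤ ∫⁻ h in fundDom K, ENNReal.ofReal (Psi h ^ (-(n * σ))) := by
          refine setLIntegral_mono' (measurableSet_fundDom K) fun h hh =>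
            ENNReal.ofReal_le_ofReal ?_
          calc AD ^ (-(2 * n)) ≤ AD ^ (-(n * σ)) :=
                Real.rpow_le_rpow_of_exponent_le hAD1 (by nlinarith)
            _ ≤ Psi h ^ (-(n * σ)) :=
                Real.rpow_le_rpow_of_nonpos (Psi_pos h)
                  (Psi_le h ((hT h hh).trans (le_abs_self T))) (by nlinarith)
      _ ≤ cH K σ := setLIntegral_le_lintegral _ _

/-! ### The partial zeta function in `ℝ≥0∞` -/

/-- The partial zeta function of the class `C`, as an extended nonnegative real. -/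
noncomputable def Ze (C : ClassGroup (𝓞 K)) (σ : ℝ) : ℝ≥0∞ :=
  ∑' I : {I : (Ideal (𝓞 K))⁰ // ClassGroup.mk0 I = C},
    ENNReal.ofReal ((Ideal.absNorm (I.1 : Ideal (𝓞 K)) : ℝ) ^ (-σ))

theorem one_le_Ze_one (σ : ℝ) : 1 ≤ Ze (1 : ClassGroup (𝓞 K)) σ := by
  have h1 := ENNReal.le_tsum (f := fun I : {I : (Ideal (𝓞 K))⁰ // ClassGroup.mk0 I = 1} =>
    ENNReal.ofReal ((Ideal.absNorm (I.1 : Ideal (𝓞 K)) : ℝ) ^ (-σ))) ⟨1, map_one _⟩
  simpa [Ze] using h1

open scoped Classical in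
theorem unfolded_one {σ : ℝ} (hσ : 0 < σ) :
    ∫⁻ h in fundDom K, ∑' x : 𝓞 K, gK σ h (x : K) =
      torsionOrder K * cH K σ * Ze (1 : ClassGroup (𝓞 K)) σ := by
  have h0 : (1 : ClassGroup (𝓞 K)) = (ClassGroup.mk0 (1 : (Ideal (𝓞 K))⁰))⁻¹ := by simp
  have h1 := unfolded (K := K) (1 : (Ideal (𝓞 K))⁰) 1 h0 hσ
  have h2 : ((1 : (Ideal (𝓞 K))⁰) : Ideal (𝓞 K)) = ⊤ := by simp
  rw [h2] at h1
  rw [Ideal.absNorm_top, Nat.cast_one, Real.one_rpow, ENNReal.ofReal_one, mul_one] at h1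
  unfold Ze
  rw [← h1]
  refine lintegral_congr fun h => ?_
  exact ((Submodule.topEquiv (R := 𝓞 K) (M := 𝓞 K)).toEquiv.tsum_eq
    (fun x : 𝓞 K => gK σ h (x : K))).symm

open scoped Classical in
theorem lintegral_epstein_ne_top {σ : ℝ} (hσ : 1 < σ) :
    ∫⁻ h in fundDom K, ∑' x : 𝓞 K, gK σ h (x : K) ≠ ⊤ := by
  obtain ⟨T, hT⟩ := exists_fundDom_bound K
  have hn1' : 1 ≤ Module.finrank ℚ K := Module.finrank_pos
  have hn1 : (1 : ℝ) ≤ (Module.finrank ℚ K : ℝ) := by exact_mod_cast hn1'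
  set n : ℝ := (Module.finrank ℚ K : ℝ) with hn
  set c : ℝ := (Fintype.card (InfinitePlace K) : ℝ) with hc
  set a : ℝ := Real.exp (-(c * |T|)) with ha
  have ha0 : 0 < a := Real.exp_pos _
  set S : ℝ≥0∞ := ∑' x : 𝓞 K, ENNReal.ofReal (Pn (x : K) ^ (-(n * σ))) with hS
  have hS_top : S ≠ ⊤ := tsum_Pn_rpow_ne_top (by nlinarith)
  have hbound : ∀ h ∈ fundDom K, ∑' x : 𝓞 K, gK σ h (x : K) ≤
      ENNReal.ofReal (a ^ (-(n * σ))) * S := by
    intro h hh
    rw [hS, ← ENNReal.tsum_mul_left]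
    refine ENNReal.tsum_le_tsum fun x => ?_
    rw [← ENNReal.ofReal_mul (Real.rpow_nonneg ha0.le _)]
    refine ENNReal.ofReal_le_ofReal ?_
    by_cases hx : x = 0
    · simp only [hx, map_zero, Phi_zero]
      rw [Real.zero_rpow (by nlinarith)]
      exact mul_nonneg (Real.rpow_nonneg ha0.le _) (Real.rpow_nonneg (Pn_nonneg _) _)
    · have hP : 1 ≤ Pn (x : K) := one_le_Pn hx
      rw [← Real.mul_rpow ha0.le (by linarith)]
      exact Real.rpow_le_rpow_of_nonpos (by positivity)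
        (le_Phi h ((hT h hh).trans (le_abs_self T)) _) (by nlinarith)
  refine ne_top_of_le_ne_top ?_ (setLIntegral_mono' (measurableSet_fundDom K) hbound)
  rw [setLIntegral_const]
  exact ENNReal.mul_ne_top (ENNReal.mul_ne_top ENNReal.ofReal_ne_top hS_top)
    (volume_fundDom_ne_top K)

open scoped Classical in
/-- The comparison of the partial zeta functions, in `ℝ≥0∞`. -/
theorem ennreal_compare (J : (Ideal (𝓞 K))⁰) (C : ClassGroup (𝓞 K))
    (hC : C = (ClassGroup.mk0 J)⁻¹) :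
    ∃ b : ℝ≥0∞, b ≠ ⊤ ∧ ∀ σ : ℝ, 1 < σ → σ ≤ 2 →
      (torsionOrder K : ℝ≥0∞) * cH K σ ≠ ⊤ ∧
      (torsionOrder K : ℝ≥0∞) * cH K σ * Ze (1 : ClassGroup (𝓞 K)) σ ≤
        (torsionOrder K : ℝ≥0∞) * cH K σ *
          (ENNReal.ofReal ((Ideal.absNorm (J : Ideal (𝓞 K)) : ℝ) ^ (1 - σ)) * Ze C σ) + b ∧
      (torsionOrder K : ℝ≥0∞) * cH K σ *
          (ENNReal.ofReal ((Ideal.absNorm (J : Ideal (𝓞 K)) : ℝ) ^ (1 - σ)) * Ze C σ) ≤
        (torsionOrder K : ℝ≥0∞) * cH K σ * Ze (1 : ClassGroup (𝓞 K)) σ + b := by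
  obtain ⟨T, hT⟩ := exists_fundDom_bound K
  have hJ0 : (J : Ideal (𝓞 K)) ≠ ⊥ := nonZeroDivisors.coe_ne_zero _
  obtain ⟨B, hB, hcmp⟩ := epstein_compare (J : Ideal (𝓞 K)) hJ0 T
  have hNpos : (0 : ℝ) < (Ideal.absNorm (J : Ideal (𝓞 K)) : ℝ) :=
    Fermat.Agent.Lib.helper1121.absNorm_pos K J |> Nat.cast_pos.2
  refine ⟨B * volume (fundDom K), ENNReal.mul_ne_top hB (volume_fundDom_ne_top K), ?_⟩
  intro σ hσ1 hσ2
  have hσ0 : 0 < σ := by linarith
  have hA0 := unfolded_one (K := K) hσ0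
  have hAJ : ∫⁻ h in fundDom K, ∑' y : (J : Ideal (𝓞 K)), gK σ h ((y : 𝓞 K) : K)
      = torsionOrder K * cH K σ *
          ENNReal.ofReal ((Ideal.absNorm (J : Ideal (𝓞 K)) : ℝ) ^ (-σ)) * Ze C σ :=
    unfolded J C hC hσ0
  have hfin := lintegral_epstein_ne_top (K := K) hσ1
  -- rewrite `N * (k * N^(-σ) * Z)` as `k * (N^(1-σ) * Z)`
  have hN : (Ideal.absNorm (J : Ideal (𝓞 K)) : ℝ≥0∞) *
      ((torsionOrder K : ℝ≥0∞) * cH K σ *
        ENNReal.ofReal ((Ideal.absNorm (J : Ideal (𝓞 K)) : ℝ) ^ (-σ)) * Ze C σ) =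
      (torsionOrder K : ℝ≥0∞) * cH K σ *
        (ENNReal.ofReal ((Ideal.absNorm (J : Ideal (𝓞 K)) : ℝ) ^ (1 - σ)) * Ze C σ) := by
    have e1 : ENNReal.ofReal ((Ideal.absNorm (J : Ideal (𝓞 K)) : ℝ) ^ (1 - σ)) =
        (Ideal.absNorm (J : Ideal (𝓞 K)) : ℝ≥0∞) *
          ENNReal.ofReal ((Ideal.absNorm (J : Ideal (𝓞 K)) : ℝ) ^ (-σ)) := by
      rw [sub_eq_add_neg, Real.rpow_add hNpos, Real.rpow_one,
        ENNReal.ofReal_mul hNpos.le, ENNReal.ofReal_natCast]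
    rw [e1]
    ring
  have i1 : ∫⁻ h in fundDom K, ∑' x : 𝓞 K, gK σ h (x : K) ≤
      (Ideal.absNorm (J : Ideal (𝓞 K)) : ℝ≥0∞) *
        (∫⁻ h in fundDom K, ∑' y : (J : Ideal (𝓞 K)), gK σ h ((y : 𝓞 K) : K)) +
        B * volume (fundDom K) := by
    calc ∫⁻ h in fundDom K, ∑' x : 𝓞 K, gK σ h (x : K)
        ≤ ∫⁻ h in fundDom K, ((Ideal.absNorm (J : Ideal (𝓞 K)) : ℝ≥0∞) *
            ∑' y : (J : Ideal (𝓞 K)), gK σ h ((y : 𝓞 K) : K) + B) :=
          setLIntegral_mono' (measurableSet_fundDom K) fun h hh =>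
            (hcmp h (hT h hh) σ hσ1 hσ2).1
      _ = (∫⁻ h in fundDom K, (Ideal.absNorm (J : Ideal (𝓞 K)) : ℝ≥0∞) *
            ∑' y : (J : Ideal (𝓞 K)), gK σ h ((y : 𝓞 K) : K)) + ∫⁻ _ in fundDom K, B :=
          lintegral_add_right _ measurable_const
      _ = _ := by rw [lintegral_const_mul' _ _ (ENNReal.natCast_ne_top _), setLIntegral_const]
  have i2 : (Ideal.absNorm (J : Ideal (𝓞 K)) : ℝ≥0∞) *
        (∫⁻ h in fundDom K, ∑' y : (J : Ideal (𝓞 K)), gK σ h ((y : 𝓞 K) : K)) ≤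
      (∫⁻ h in fundDom K, ∑' x : 𝓞 K, gK σ h (x : K)) + B * volume (fundDom K) := by
    calc (Ideal.absNorm (J : Ideal (𝓞 K)) : ℝ≥0∞) *
          (∫⁻ h in fundDom K, ∑' y : (J : Ideal (𝓞 K)), gK σ h ((y : 𝓞 K) : K))
        = ∫⁻ h in fundDom K, (Ideal.absNorm (J : Ideal (𝓞 K)) : ℝ≥0∞) *
            ∑' y : (J : Ideal (𝓞 K)), gK σ h ((y : 𝓞 K) : K) :=
          (lintegral_const_mul' _ _ (ENNReal.natCast_ne_top _)).symm
      _ ≤ ∫⁻ h in fundDom K, (∑' x : 𝓞 K, gK σ h (x : K) + B) :=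
          setLIntegral_mono' (measurableSet_fundDom K) fun h hh =>
            (hcmp h (hT h hh) σ hσ1 hσ2).2
      _ = _ := by rw [lintegral_add_right _ measurable_const, setLIntegral_const]
  rw [hA0, hAJ, hN] at i1 i2
  refine ⟨?_, i1, i2⟩
  rw [hA0] at hfin
  refine ne_top_of_le_ne_top hfin ?_
  exact le_mul_of_one_le_right' (one_le_Ze_one σ)

theorem real_of_ennreal {k b κ : ℝ≥0∞} (hk : k ≠ ⊤) (hb : b ≠ ⊤) (hκ : κ ≠ 0) (hκk : κ ≤ k)
    {X Y : ℝ} (hX : 0 ≤ X) (hY : 0 ≤ Y)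
    (h : k * ENNReal.ofReal X ≤ k * ENNReal.ofReal Y + b) : X - Y ≤ b.toReal / κ.toReal := by
  have hκtop : κ ≠ ⊤ := ne_top_of_le_ne_top hk hκk
  have hκpos : 0 < κ.toReal := ENNReal.toReal_pos hκ hκtop
  have hκk' : κ.toReal ≤ k.toReal := ENNReal.toReal_mono hk hκk
  have h' : k.toReal * X ≤ k.toReal * Y + b.toReal := by
    have h1 := ENNReal.toReal_mono
      (ENNReal.add_ne_top.2 ⟨ENNReal.mul_ne_top hk ENNReal.ofReal_ne_top, hb⟩) h
    rwa [ENNReal.toReal_add (ENNReal.mul_ne_top hk ENNReal.ofReal_ne_top) hb, ENNReal.toReal_mul,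
      ENNReal.toReal_mul, ENNReal.toReal_ofReal hX, ENNReal.toReal_ofReal hY] at h1
  have hb0 : 0 ≤ b.toReal := ENNReal.toReal_nonneg
  rw [le_div_iff₀ hκpos]
  by_cases hXY : X ≤ Y
  · nlinarith
  · rw [not_le] at hXY
    nlinarith [mul_le_mul_of_nonneg_right hκk' (sub_nonneg.2 hXY.le)]

/-- **Partial zeta functions: difference with the principal class is bounded on `(1, 2]`.** -/
theorem partialZeta_sub_one_bounded (C : ClassGroup (𝓞 K)) :
    ∃ M : ℝ, ∀ s : ℝ, 1 < s → s ≤ 2 →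
      |(∑' I : {I : (Ideal (𝓞 K))⁰ // ClassGroup.mk0 I = C},
            (Ideal.absNorm (I.1 : Ideal (𝓞 K)) : ℝ) ^ (-s)) -
        (∑' I : {I : (Ideal (𝓞 K))⁰ // ClassGroup.mk0 I = 1},
            (Ideal.absNorm (I.1 : Ideal (𝓞 K)) : ℝ) ^ (-s))| ≤ M := by
  classical
  obtain ⟨J, hJ⟩ := ClassGroup.mk0_surjective C⁻¹
  have hC : C = (ClassGroup.mk0 J)⁻¹ := by rw [hJ, inv_inv]
  obtain ⟨b, hb, hmain⟩ := ennreal_compare J C hC
  obtain ⟨κ, hκ0, hκ⟩ := exists_cH_lower K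
  obtain ⟨B2, hB2⟩ := Fermat.Agent.Lib.helper1121.exists_class_upper K
  have hN1 : (1 : ℝ) ≤ (Ideal.absNorm (J : Ideal (𝓞 K)) : ℝ) :=
    Fermat.Agent.Lib.helper1121.one_le_absNorm K J
  set N : ℝ := (Ideal.absNorm (J : Ideal (𝓞 K)) : ℝ) with hN
  refine ⟨b.toReal / κ.toReal + Real.log N * B2, fun s hs1 hs2 => ?_⟩
  obtain ⟨hk, h1, h2⟩ := hmain s hs1 hs2
  have hZ : ∀ C' : ClassGroup (𝓞 K), Ze C' s = ENNReal.ofReal
      (∑' I : {I : (Ideal (𝓞 K))⁰ // ClassGroup.mk0 I = C'},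
        (Ideal.absNorm (I.1 : Ideal (𝓞 K)) : ℝ) ^ (-s)) := by
    intro C'
    unfold Ze
    rw [ENNReal.ofReal_tsum_of_nonneg
      (fun I => Real.rpow_nonneg (Nat.cast_nonneg _) _)
      (Fermat.Agent.Lib.helper1121.summable_class_rpow K C' hs1)]
  rw [hZ 1, hZ C] at h1 h2
  set Z1 : ℝ := ∑' I : {I : (Ideal (𝓞 K))⁰ // ClassGroup.mk0 I = 1},
    (Ideal.absNorm (I.1 : Ideal (𝓞 K)) : ℝ) ^ (-s) with hZ1def
  set ZC : ℝ := ∑' I : {I : (Ideal (𝓞 K))⁰ // ClassGroup.mk0 I = C},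
    (Ideal.absNorm (I.1 : Ideal (𝓞 K)) : ℝ) ^ (-s) with hZCdef
  have hZ1 : 0 ≤ Z1 := Fermat.Agent.Lib.helper1121.tsum_class_rpow_nonneg K 1 s
  have hZC : 0 ≤ ZC := Fermat.Agent.Lib.helper1121.tsum_class_rpow_nonneg K C s
  have hNs : 0 ≤ N ^ (1 - s) := Real.rpow_nonneg (by linarith) _
  rw [← ENNReal.ofReal_mul hNs] at h1 h2
  have hτ : (1 : ℝ≥0∞) ≤ (torsionOrder K : ℝ≥0∞) := by
    exact_mod_cast (torsionOrder_pos K)
  have hκk : κ ≤ (torsionOrder K : ℝ≥0∞) * cH K s :=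
    (hκ s hs1 hs2).trans (le_mul_of_one_le_left' hτ)
  have e1 : Z1 - N ^ (1 - s) * ZC ≤ b.toReal / κ.toReal :=
    real_of_ennreal hk hb hκ0 hκk hZ1 (mul_nonneg hNs hZC) h1
  have e2 : N ^ (1 - s) * ZC - Z1 ≤ b.toReal / κ.toReal :=
    real_of_ennreal hk hb hκ0 hκk (mul_nonneg hNs hZC) hZ1 h2
  have e3 : N ^ (1 - s) ≤ 1 := Real.rpow_le_one_of_one_le_of_nonpos hN1 (by linarith)
  have e4 : 1 - N ^ (1 - s) ≤ Real.log N * (s - 1) := by
    have h3 := Real.add_one_le_exp (Real.log N * (1 - s))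
    rw [← Real.rpow_def_of_pos (by linarith)] at h3
    linarith
  have e5 : (s - 1) * ZC ≤ B2 := hB2 s hs1 hs2 C
  have e6 : 0 ≤ Real.log N := Real.log_nonneg hN1
  have e7 : 0 ≤ (s - 1) * ZC := mul_nonneg (by linarith) hZC
  have e8 : (1 - N ^ (1 - s)) * ZC ≤ Real.log N * B2 := by
    calc (1 - N ^ (1 - s)) * ZC ≤ Real.log N * (s - 1) * ZC :=
          mul_le_mul_of_nonneg_right e4 hZC
      _ = Real.log N * ((s - 1) * ZC) := by ring
      _ ≤ Real.log N * B2 := mul_le_mul_of_nonneg_left e5 e6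
  have e9 : 0 ≤ (1 - N ^ (1 - s)) * ZC := mul_nonneg (by linarith) hZC
  have e10 : 0 ≤ Real.log N * B2 := e9.trans e8
  rw [abs_le]
  constructor <;> nlinarith

/-- **Partial zeta functions of two ideal classes differ by a bounded function on `(1, 2]`.** -/
theorem partialZeta_diff_bounded (C C' : ClassGroup (𝓞 K)) :
    ∃ M : ℝ, ∀ s : ℝ, 1 < s → s ≤ 2 →
      |(∑' I : {I : (Ideal (𝓞 K))⁰ // ClassGroup.mk0 I = C},
            (Ideal.absNorm (I.1 : Ideal (𝓞 K)) : ℝ) ^ (-s)) -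
        (∑' I : {I : (Ideal (𝓞 K))⁰ // ClassGroup.mk0 I = C'},
            (Ideal.absNorm (I.1 : Ideal (𝓞 K)) : ℝ) ^ (-s))| ≤ M := by
  obtain ⟨M, hM⟩ := partialZeta_sub_one_bounded C
  obtain ⟨M', hM'⟩ := partialZeta_sub_one_bounded C'
  refine ⟨M + M', fun s hs1 hs2 => ?_⟩
  have h1 := hM s hs1 hs2
  have h2 := hM' s hs1 hs2
  rw [abs_le] at h1 h2 ⊢
  constructor <;> linarith [h1.1, h1.2, h2.1, h2.2]

end Fermat.Agent.S14.helper861
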