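import Mathlib
import Fermat.Agent.S14.helper861_HeckeZeta
import Fermat.Agent.S14.helper1934_ThaineSpec

/-!
# helper861: `helper1934.Stmt_PartialZetaDiff` (the (W0) leaf of the Thaine route)

The partial zeta functions of two ideal classes of a number field differ by a bounded function
on `(1, 2)`.  Proof: Hecke's integral representation + coset comparison of Epstein sums
(`helper861_HeckeZeta`).
-/

set_option autoImplicit false

open NumberField
open scoped nonZeroDivisors

namespace Fermat.Agent.S14.helper861

/-- The (W0) leaf, verbatim in the shape of the Thaine specification. -/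
theorem stmt_PartialZetaDiff : Fermat.Agent.S14.helper1934.Stmt_PartialZetaDiff := by
  intro K _ _ C C'
  obtain ⟨M, hM⟩ := partialZeta_diff_bounded (K := K) C C'
  exact ⟨M, fun s hs1 hs2 => hM s hs1 hs2.le⟩

end Fermat.Agent.S14.helper861
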