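import Mathlib
import Fermat.Agent.S14.helper1934_ThaineSpec

/-!
# S14, Thaine route: the Kummer density statement `Stmt_KummerDensity`

Author: helper933.  Board row 480.

`stmt_KummerDensity_of : Stmt_PrimeSumUpper → helper1934.Stmt_KummerDensity p`.
-/

set_option autoImplicit false

namespace Fermat.Agent.S14.helper933

open NumberField IsDedekindDomain Polynomial

/-- Analytic input (finite partial sums of `∑ N(w)^(-s)` over primes of a number field are
bounded by `log (1/(s-1)) + B` on `(1,2)`). -/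
def Stmt_PrimeSumUpper : Prop :=
  ∀ (L : Type) [Field L] [NumberField L], ∃ B : ℝ, ∀ s : ℝ, 1 < s → s < 2 →
    ∀ T : Finset (HeightOneSpectrum (𝓞 L)),
      ∑ w ∈ T, (Ideal.absNorm w.asIdeal : ℝ) ^ (-s) ≤ Real.log (1 / (s - 1)) + B

/-- Distinct powers of a primitive `p`-th root of unity stay distinct modulo a prime not
containing `p`. -/
theorem pow_sub_pow_notMem {R : Type*} [CommRing R] [IsDomain R] {p : ℕ} (hp : p.Prime) {ζ : R}
    (hζ : IsPrimitiveRoot ζ p) (v : Ideal R) [v.IsPrime] (hpv : (p : R) ∉ v)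
    {i j : ℕ} (hi : i < p) (hj : j < p) (hij : i ≠ j) : ζ ^ i - ζ ^ j ∉ v := by
  intro h
  wlog hlt : i < j generalizing i j
  · refine this hj hi hij.symm ?_ (lt_of_le_of_ne (not_lt.mp hlt) hij.symm)
    have := v.neg_mem h
    rwa [neg_sub] at this
  set z : R ⧸ v := Ideal.Quotient.mk v ζ with hzdef
  have hz : z ^ i = z ^ j := by
    rw [hzdef, ← map_pow, ← map_pow, Ideal.Quotient.eq]; exact h
  have hzp : z ^ p = 1 := by rw [hzdef, ← map_pow, hζ.pow_eq_one, map_one]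
  have hz0 : z ≠ 0 := by
    intro h0
    rw [h0, zero_pow hp.ne_zero] at hzp
    exact zero_ne_one hzp
  have hz1 : z ^ (j - i) = 1 := by
    have h1 : z ^ i * z ^ (j - i) = z ^ i * 1 := by
      rw [← pow_add, Nat.add_sub_cancel' hlt.le, mul_one, hz]
    exact mul_left_cancel₀ (pow_ne_zero i hz0) h1
  have hcop : Nat.gcd (j - i) p = 1 := by
    rw [Nat.gcd_comm]
    exact (Nat.Prime.coprime_iff_not_dvd hp).mpr
      (Nat.not_dvd_of_pos_of_lt (Nat.sub_pos_of_lt hlt) (by omega))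
  have hzone : z = 1 := by
    have := pow_gcd_eq_one.mpr ⟨hz1, hzp⟩
    rwa [hcop, pow_one] at this
  have hsum := hζ.geom_sum_eq_zero hp.one_lt
  have hsum' := congrArg (Ideal.Quotient.mk v) hsum
  rw [map_sum, map_zero] at hsum'
  simp only [map_pow] at hsum'
  rw [← hzdef, hzone] at hsum'
  simp only [one_pow, Finset.sum_const, Finset.card_range, nsmul_eq_mul, mul_one] at hsum'
  apply hpv
  rw [← Ideal.Quotient.eq_zero_iff_mem, map_natCast]
  exact hsum'

/-- The Galois orbit of a prime containing `β - z`: `p` distinct primes above `v`. -/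
theorem exists_primes_over {A B : Type*} [CommRing A] [CommRing B] [Algebra A B]
    (p : ℕ) (τ : B ≃ₐ[A] B) (ζ z : A) (β : B)
    (hτ : τ β = algebraMap A B ζ * β)
    (v : Ideal A) (hz : ∀ i j : ℕ, i < p → j < p → i ≠ j → (ζ ^ i - ζ ^ j) * z ∉ v)
    (P : Ideal B) [P.IsPrime] (hPv : P.comap (algebraMap A B) = v)
    (hβ : β - algebraMap A B z ∈ P) :
    ∃ Q : Fin p → Ideal B, Function.Injective Q ∧
      ∀ k, (Q k).IsPrime ∧ (Q k).comap (algebraMap A B) = v := by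
  have hpow : ∀ k : ℕ, (τ ^ k) β = algebraMap A B (ζ ^ k) * β := by
    intro k
    induction k with
    | zero => simp
    | succ k ih =>
      rw [pow_succ', AlgEquiv.mul_apply, ih, map_mul, AlgEquiv.commutes, hτ, pow_succ, map_mul]
      ring
  let Q : Fin p → Ideal B := fun k => P.comap ((τ ^ (k : ℕ) : B ≃ₐ[A] B) : B →+* B)
  have hQv : ∀ k, (Q k).comap (algebraMap A B) = v := by
    intro k
    rw [← hPv]
    ext x
    simp only [Q, Ideal.mem_comap, RingHom.coe_coe, AlgEquiv.commutes]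
  have hQmem : ∀ k : Fin p, β - algebraMap A B (ζ ^ (k : ℕ) * z) ∈ Q k := by
    intro k
    have : (τ ^ (k : ℕ)) (β - algebraMap A B (ζ ^ (k : ℕ) * z))
        = algebraMap A B (ζ ^ (k : ℕ)) * (β - algebraMap A B z) := by
      rw [map_sub, hpow, AlgEquiv.commutes, map_mul]; ring
    simp only [Q, Ideal.mem_comap, RingHom.coe_coe]
    rw [this]
    exact P.mul_mem_left _ hβ
  refine ⟨Q, ?_, fun k => ⟨Ideal.comap_isPrime _ _, hQv k⟩⟩
  intro k l hkl
  by_contra hne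
  have h1 := hQmem k
  have h2 := hQmem l
  rw [← hkl] at h2
  have h3 := (Q k).sub_mem h1 h2
  have h4 : β - algebraMap A B (ζ ^ (k : ℕ) * z) - (β - algebraMap A B (ζ ^ (l : ℕ) * z))
      = algebraMap A B ((ζ ^ (l : ℕ) - ζ ^ (k : ℕ)) * z) := by
    simp only [map_mul, map_sub, map_pow]; ring
  rw [h4] at h3
  have h5 : (ζ ^ (l : ℕ) - ζ ^ (k : ℕ)) * z ∈ (Q k).comap (algebraMap A B) := h3
  rw [hQv] at h5
  exact hz l k l.2 k.2 (fun h => hne (Fin.ext h.symm)) h5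

/-- **Split lemma.**  `L/K` of degree `p` with a `K`-automorphism `σ` such that `σ β = ζ β`,
`β ^ p = e` a unit.  If `p ∉ v` and `e ≡ y ^ p mod v`, then there are `p` distinct primes of `L`
above `v`, all with the same absolute norm as `v`. -/
theorem exists_split_primes {K L : Type*} [Field K] [NumberField K] [Field L] [NumberField L]
    [Algebra K L] {p : ℕ} (hp : p.Prime) (hdeg : Module.finrank K L = p)
    (σ : L ≃ₐ[K] L) (ζ : 𝓞 K) (hζ : IsPrimitiveRoot ζ p) (e : (𝓞 K)ˣ) (β : 𝓞 L)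
    (hβ : β ^ p = algebraMap (𝓞 K) (𝓞 L) (e : 𝓞 K))
    (hσ : σ (β : L) = algebraMap K L (ζ : K) * (β : L))
    (v : HeightOneSpectrum (𝓞 K)) (hpv : (p : 𝓞 K) ∉ v.asIdeal) (y : 𝓞 K)
    (hy : (e : 𝓞 K) - y ^ p ∈ v.asIdeal) :
    ∃ w : Fin p → HeightOneSpectrum (𝓞 L), Function.Injective w ∧
      ∀ k, (w k).asIdeal.comap (algebraMap (𝓞 K) (𝓞 L)) = v.asIdeal ∧
        Ideal.absNorm (w k).asIdeal = Ideal.absNorm v.asIdeal := by
  classical
  have : NeZero p := ⟨hp.ne_zero⟩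
  let τ : 𝓞 L ≃ₐ[𝓞 K] 𝓞 L := galRestrict (𝓞 K) K L (𝓞 L) σ
  have hτ : τ β = algebraMap (𝓞 K) (𝓞 L) ζ * β := by
    apply RingOfIntegers.ext
    have h1 := algebraMap_galRestrict_apply (𝓞 K) σ β
    change algebraMap (𝓞 L) L (τ β) = algebraMap (𝓞 L) L (algebraMap (𝓞 K) (𝓞 L) ζ * β)
    rw [h1, map_mul, ← IsScalarTower.algebraMap_apply (𝓞 K) (𝓞 L) L,
      IsScalarTower.algebraMap_apply (𝓞 K) K L]
    exact hσ
  have := v.isPrime
  have : v.asIdeal.IsMaximal := v.isMaximal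
  obtain ⟨⟨P, hPprime, hPover⟩⟩ := (inferInstance : Nonempty (v.asIdeal.primesOver (𝓞 L)))
  have hPv : P.comap (algebraMap (𝓞 K) (𝓞 L)) = v.asIdeal := hPover.over.symm
  have hinj : Function.Injective (algebraMap (𝓞 K) (𝓞 L)) := RingOfIntegers.algebraMap.injective K L
  have hζL : IsPrimitiveRoot (algebraMap (𝓞 K) (𝓞 L) ζ) p := hζ.map_of_injective hinj
  have hprod := hζL.pow_sub_pow_eq_prod_sub_mul β (algebraMap (𝓞 K) (𝓞 L) y) hp.pos
  have hmem : β ^ p - (algebraMap (𝓞 K) (𝓞 L) y) ^ p ∈ P := by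
    rw [hβ, ← map_pow, ← map_sub]
    have : (e : 𝓞 K) - y ^ p ∈ P.comap (algebraMap (𝓞 K) (𝓞 L)) := hPv ▸ hy
    exact this
  rw [hprod, Ideal.IsPrime.prod_mem_iff] at hmem
  obtain ⟨ξ, hξ, hξmem⟩ := hmem
  have hξ1 : ξ ^ p = 1 := (Polynomial.mem_nthRootsFinset hp.pos 1).mp hξ
  obtain ⟨i, hi, rfl⟩ := hζL.eq_pow_of_pow_eq_one hξ1
  set z : 𝓞 K := ζ ^ i * y with hzdef
  have hzmem : β - algebraMap (𝓞 K) (𝓞 L) z ∈ P := by
    simpa [hzdef, map_mul, map_pow] using hξmem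
  have hznot : z ∉ v.asIdeal := by
    intro hzv
    have h1 : z ^ p ∈ v.asIdeal := Ideal.pow_mem_of_mem _ hzv p hp.pos
    have h2 : z ^ p = y ^ p := by
      rw [hzdef, mul_pow, ← pow_mul, mul_comm i p, pow_mul, hζ.pow_eq_one, one_pow, one_mul]
    rw [h2] at h1
    have h3 : (e : 𝓞 K) ∈ v.asIdeal := by
      have := v.asIdeal.add_mem hy h1
      simpa using this
    exact v.isPrime.ne_top (Ideal.eq_top_of_isUnit_mem _ h3 e.isUnit)
  have hz : ∀ a b : ℕ, a < p → b < p → a ≠ b → (ζ ^ a - ζ ^ b) * z ∉ v.asIdeal := by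
    intro a b ha hb hab hmem
    rcases v.isPrime.mem_or_mem hmem with h | h
    · exact pow_sub_pow_notMem hp hζ v.asIdeal hpv ha hb hab h
    · exact hznot h
  obtain ⟨Q, hQinj, hQ⟩ := exists_primes_over p τ ζ z β hτ v.asIdeal hz P hPv hzmem
  have hQbot : ∀ k, Q k ≠ ⊥ := by
    intro k hbot
    have h1 := (hQ k).2
    rw [hbot] at h1
    have h2 : (⊥ : Ideal (𝓞 L)).comap (algebraMap (𝓞 K) (𝓞 L)) = ⊥ := by
      rw [← RingHom.ker_eq_comap_bot]
      exact (RingHom.injective_iff_ker_eq_bot _).mp hinj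
    rw [h2] at h1
    exact v.ne_bot h1.symm
  -- the fundamental identity
  let g : Fin p → v.asIdeal.primesOver (𝓞 L) := fun k => ⟨Q k, (hQ k).1, ⟨(hQ k).2.symm⟩⟩
  have hginj : Function.Injective g := by
    intro k l hkl
    exact hQinj (congrArg Subtype.val hkl)
  let t : v.asIdeal.primesOver (𝓞 L) → ℕ :=
    fun q => q.1.ramificationIdx (𝓞 K) * q.1.inertiaDeg (𝓞 K)
  have hsum : ∑ q : v.asIdeal.primesOver (𝓞 L), t q = p := by
    have := Ideal.sum_ramification_inertia_eq_finrank v.asIdeal (𝓞 L)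
    rw [← hdeg, IsFractionRing.finrank_eq (𝓞 K) K (𝓞 L) L]
    exact this
  have ht1 : ∀ q : v.asIdeal.primesOver (𝓞 L), 1 ≤ t q := by
    intro q
    have := q.2.1
    have h1 : 0 < q.1.ramificationIdx (𝓞 K) := Ideal.ramificationIdx_pos q.1 (𝓞 K)
    have h2 : 0 < q.1.inertiaDeg (𝓞 K) := Ideal.inertiaDeg_pos q.1 (𝓞 K)
    exact Nat.one_le_iff_ne_zero.mpr (Nat.mul_ne_zero h1.ne' h2.ne')
  have hle : ∑ k : Fin p, t (g k) ≤ ∑ q : v.asIdeal.primesOver (𝓞 L), t q := by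
    calc ∑ k : Fin p, t (g k) = ∑ q ∈ Finset.univ.image g, t q :=
          (Finset.sum_image (fun _ _ _ _ h => hginj h)).symm
      _ ≤ ∑ q : v.asIdeal.primesOver (𝓞 L), t q :=
          Finset.sum_le_sum_of_subset (Finset.subset_univ _)
  have hall : ∀ k : Fin p, t (g k) = 1 := by
    have h1 : ∑ _k : Fin p, (1 : ℕ) = p := by simp
    have h2 : ∑ _k : Fin p, (1 : ℕ) = ∑ k : Fin p, t (g k) :=
      le_antisymm (Finset.sum_le_sum fun k _ => ht1 (g k)) (by rw [h1]; exact hle.trans hsum.le)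
    intro k
    exact ((Finset.sum_eq_sum_iff_of_le (fun k _ => ht1 (g k))).mp h2 k (Finset.mem_univ k)).symm
  have hf : ∀ k, (Q k).inertiaDeg (𝓞 K) = 1 := fun k => Nat.eq_one_of_mul_eq_one_left (hall k)
  refine ⟨fun k => ⟨Q k, (hQ k).1, hQbot k⟩, ?_, ?_⟩
  · intro k l hkl
    exact hQinj (congrArg HeightOneSpectrum.asIdeal hkl)
  · intro k
    refine ⟨(hQ k).2, ?_⟩
    have := (hQ k).1
    have : (Q k).LiesOver v.asIdeal := ⟨(hQ k).2.symm⟩
    have h := Ideal.absNorm_pow_inertiaDeg v.asIdeal (Q k)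
    rw [hf k, pow_one] at h
    exact h.symm

/-- Number-field form of the Kummer density bound: `L/K` of prime degree `p` with an
automorphism `σ`, `σ β = ζ β`, `β ^ p = e`. -/
theorem kummerDensity_of_field {K L : Type} [Field K] [NumberField K] [Field L] [NumberField L]
    [Algebra K L] {p : ℕ} (hp : p.Prime) (hdeg : Module.finrank K L = p)
    (σ : L ≃ₐ[K] L) (ζ : 𝓞 K) (hζ : IsPrimitiveRoot ζ p) (e : (𝓞 K)ˣ) (β : 𝓞 L)
    (hβ : β ^ p = algebraMap (𝓞 K) (𝓞 L) (e : 𝓞 K))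
    (hσ : σ (β : L) = algebraMap K L (ζ : K) * (β : L))
    {B s : ℝ}
    (hB : ∀ T : Finset (HeightOneSpectrum (𝓞 L)),
      ∑ w ∈ T, (Ideal.absNorm w.asIdeal : ℝ) ^ (-s) ≤ Real.log (1 / (s - 1)) + B) :
    (p : ℝ) * Set.primeIdealZetaSum
        {v : HeightOneSpectrum (𝓞 K) |
          (p : 𝓞 K) ∉ v.asIdeal ∧ ∃ y : 𝓞 K, (e : 𝓞 K) - y ^ p ∈ v.asIdeal} s
      ≤ Real.log (1 / (s - 1)) + B := by
  classical
  set S : Set (HeightOneSpectrum (𝓞 K)) :=
    {v : HeightOneSpectrum (𝓞 K) |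
      (p : 𝓞 K) ∉ v.asIdeal ∧ ∃ y : 𝓞 K, (e : 𝓞 K) - y ^ p ∈ v.asIdeal} with hS
  have H : ∀ v : S, ∃ w : Fin p → HeightOneSpectrum (𝓞 L), Function.Injective w ∧
      ∀ k, (w k).asIdeal.comap (algebraMap (𝓞 K) (𝓞 L)) = v.1.asIdeal ∧
        Ideal.absNorm (w k).asIdeal = Ideal.absNorm v.1.asIdeal := by
    rintro ⟨v, hpv, y, hy⟩
    exact exists_split_primes hp hdeg σ ζ hζ e β hβ hσ v hpv y hy
  choose w hwinj hw using H
  let G : S × Fin p → HeightOneSpectrum (𝓞 L) := fun x => w x.1 x.2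
  have hGinj : Function.Injective G := by
    rintro ⟨v, k⟩ ⟨v', k'⟩ h
    have h1 : v.1.asIdeal = v'.1.asIdeal := by
      rw [← (hw v k).1, ← (hw v' k').1]
      exact congrArg (fun u : HeightOneSpectrum (𝓞 L) =>
        u.asIdeal.comap (algebraMap (𝓞 K) (𝓞 L))) h
    have h2 : v = v' := Subtype.ext (HeightOneSpectrum.ext h1)
    subst h2
    have h3 : k = k' := hwinj v h
    rw [h3]
  have hpos : (0 : ℝ) < p := by exact_mod_cast hp.pos
  rw [Set.primeIdealZetaSum_def, ← le_div_iff₀' hpos]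
  refine Real.tsum_le_of_sum_le (fun v => by positivity) ?_
  intro F
  rw [le_div_iff₀' hpos]
  have h1 : (p : ℝ) * ∑ v ∈ F, (Ideal.absNorm v.1.asIdeal : ℝ) ^ (-s)
      = ∑ x ∈ F ×ˢ (Finset.univ : Finset (Fin p)), (Ideal.absNorm (G x).asIdeal : ℝ) ^ (-s) := by
    rw [Finset.sum_product, Finset.mul_sum]
    refine Finset.sum_congr rfl fun v _ => ?_
    have : ∀ k : Fin p, (Ideal.absNorm (G (v, k)).asIdeal : ℝ) ^ (-s)
        = (Ideal.absNorm v.1.asIdeal : ℝ) ^ (-s) := by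
      intro k
      simp only [G]
      rw [(hw v k).2]
    rw [Finset.sum_congr rfl fun k _ => this k]
    simp
  rw [h1, ← Finset.sum_image (s := F ×ˢ (Finset.univ : Finset (Fin p))) (g := G)
    (f := fun u : HeightOneSpectrum (𝓞 L) => (Ideal.absNorm u.asIdeal : ℝ) ^ (-s))
    (fun _ _ _ _ h => hGinj h)]
  exact hB _

/-- **`Stmt_KummerDensity` from the upper bound for prime sums** (in the Kummer field
`K(e^(1/p))`). -/
theorem stmt_KummerDensity_of (p : ℕ) [hpF : Fact p.Prime] (hZ : Stmt_PrimeSumUpper) :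
    helper1934.Stmt_KummerDensity p := by
  intro K _ _ ζ hζ e he
  have hp := hpF.out
  set a : K := algebraMap (𝓞 K) K (e : 𝓞 K) with ha
  have hirr : Irreducible (X ^ p - C a : K[X]) := by
    rw [X_pow_sub_C_irreducible_iff_of_prime hp]
    intro b hb
    have hbint : IsIntegral ℤ b := by
      refine IsIntegral.of_pow hp.pos ?_
      rw [hb]
      exact RingOfIntegers.isIntegral_coe (e : 𝓞 K)
    obtain ⟨y, hy⟩ := (IsIntegralClosure.isIntegral_iff (A := 𝓞 K)).mp hbint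
    apply he
    refine ⟨y, ?_⟩
    apply RingOfIntegers.ext
    change algebraMap (𝓞 K) K (e : 𝓞 K) = algebraMap (𝓞 K) K (y ^ p)
    rw [map_pow, hy]
    exact hb.symm
  have : Fact (Irreducible (X ^ p - C a : K[X])) := ⟨hirr⟩
  have hfin : Module.Finite K (AdjoinRoot (X ^ p - C a : K[X])) :=
    (AdjoinRoot.powerBasis hirr.ne_zero).finite
  have : NumberField (AdjoinRoot (X ^ p - C a : K[X])) := NumberField.of_module_finite K _
  have hdeg : Module.finrank K (AdjoinRoot (X ^ p - C a : K[X])) = p := by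
    rw [(AdjoinRoot.powerBasis hirr.ne_zero).finrank, AdjoinRoot.powerBasis_dim,
      natDegree_X_pow_sub_C]
  -- the automorphism
  have hζK : (algebraMap (𝓞 K) K ζ) ^ p = 1 := by rw [← map_pow, hζ.pow_eq_one, map_one]
  let η : rootsOfUnity p K := rootsOfUnity.mkOfPowEq (algebraMap (𝓞 K) K ζ) hζK
  let σ := autAdjoinRootXPowSubC p a η
  have hrootint : IsIntegral ℤ (AdjoinRoot.root (X ^ p - C a : K[X])) := by
    refine IsIntegral.of_pow hp.pos ?_
    rw [root_X_pow_sub_C_pow, ← AdjoinRoot.algebraMap_eq]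
    exact (RingOfIntegers.isIntegral_coe (e : 𝓞 K)).algebraMap
  obtain ⟨β, hβroot⟩ := (IsIntegralClosure.isIntegral_iff
    (A := 𝓞 (AdjoinRoot (X ^ p - C a : K[X])))).mp hrootint
  have hβ : β ^ p = algebraMap (𝓞 K) (𝓞 (AdjoinRoot (X ^ p - C a : K[X]))) (e : 𝓞 K) := by
    apply RingOfIntegers.ext
    change algebraMap (𝓞 (AdjoinRoot (X ^ p - C a : K[X]))) (AdjoinRoot (X ^ p - C a : K[X]))
        (β ^ p) = algebraMap (𝓞 (AdjoinRoot (X ^ p - C a : K[X]))) (AdjoinRoot (X ^ p - C a : K[X]))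
        (algebraMap (𝓞 K) (𝓞 (AdjoinRoot (X ^ p - C a : K[X]))) (e : 𝓞 K))
    rw [map_pow, ← IsScalarTower.algebraMap_apply (𝓞 K) (𝓞 (AdjoinRoot (X ^ p - C a : K[X])))
      (AdjoinRoot (X ^ p - C a : K[X])),
      IsScalarTower.algebraMap_apply (𝓞 K) K (AdjoinRoot (X ^ p - C a : K[X])), hβroot,
      root_X_pow_sub_C_pow, ← AdjoinRoot.algebraMap_eq]
  have hσ : σ (β : AdjoinRoot (X ^ p - C a : K[X]))
      = algebraMap K _ (ζ : K) * (β : AdjoinRoot (X ^ p - C a : K[X])) := by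
    change σ (algebraMap (𝓞 (AdjoinRoot (X ^ p - C a : K[X]))) (AdjoinRoot (X ^ p - C a : K[X])) β)
      = algebraMap K _ (ζ : K) *
        algebraMap (𝓞 (AdjoinRoot (X ^ p - C a : K[X]))) (AdjoinRoot (X ^ p - C a : K[X])) β
    rw [hβroot, autAdjoinRootXPowSubC_root, Algebra.smul_def]
    rfl
  obtain ⟨B, hB⟩ := hZ (AdjoinRoot (X ^ p - C a : K[X]))
  refine ⟨B, fun s hs1 hs2 => ?_⟩
  exact kummerDensity_of_field hp hdeg σ ζ hζ e β hβ hσ (hB s hs1 hs2)

end Fermat.Agent.S14.helper933
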