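import Mathlib
import Fermat.Agent.S14.helper1934_ThaineSpec2
import Fermat.Agent.S14.helper2850_PrimeSums
import Fermat.Agent.S14.helper933_KummerDensity

/-!
# S14, Thaine route: `Stmt_KummerDensity` and `Stmt_KummerDensityFin`, unconditional

Author: helper933 (owner of leaf KD, board row 480).

* `stmt_PrimeSumUpper : Stmt_PrimeSumUpper` (from `helper2850.primeSumUpper`);
* `stmt_KummerDensity (p) : helper1934.Stmt_KummerDensity p`;
* `stmt_KummerDensityFin (p) : helper1934.Stmt_KummerDensityFin p`.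
-/

set_option autoImplicit false

namespace Fermat.Agent.S14.helper933

open NumberField IsDedekindDomain Polynomial

/-- The analytic input of `stmt_KummerDensity_of`, from `helper2850.primeSumUpper`. -/
theorem stmt_PrimeSumUpper : Stmt_PrimeSumUpper :=
  fun L _ _ => helper2850.primeSumUpper L

/-- **`Stmt_KummerDensity p`**, unconditional. -/
theorem stmt_KummerDensity (p : ℕ) [Fact p.Prime] : helper1934.Stmt_KummerDensity p :=
  stmt_KummerDensity_of p stmt_PrimeSumUpper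

/-- Finite-sum form of the Kummer density bound for a given Kummer field. -/
theorem kummerDensityFin_of_field {K L : Type} [Field K] [NumberField K] [Field L]
    [NumberField L] [Algebra K L] {p : ℕ} (hp : p.Prime) (hdeg : Module.finrank K L = p)
    (σ : L ≃ₐ[K] L) (ζ : 𝓞 K) (hζ : IsPrimitiveRoot ζ p) (e : (𝓞 K)ˣ) (β : 𝓞 L)
    (hβ : β ^ p = algebraMap (𝓞 K) (𝓞 L) (e : 𝓞 K))
    (hσ : σ (β : L) = algebraMap K L (ζ : K) * (β : L))
    {B s : ℝ}
    (hB : ∀ T : Finset (HeightOneSpectrum (𝓞 L)),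
      ∑ w ∈ T, (Ideal.absNorm w.asIdeal : ℝ) ^ (-s) ≤ Real.log (1 / (s - 1)) + B)
    (F : Finset (HeightOneSpectrum (𝓞 K)))
    (hF : ∀ v ∈ F, (p : 𝓞 K) ∉ v.asIdeal ∧ ∃ y : 𝓞 K, (e : 𝓞 K) - y ^ p ∈ v.asIdeal) :
    (p : ℝ) * ∑ v ∈ F, (Ideal.absNorm v.asIdeal : ℝ) ^ (-s) ≤ Real.log (1 / (s - 1)) + B := by
  classical
  have H : ∀ v : F, ∃ w : Fin p → HeightOneSpectrum (𝓞 L), Function.Injective w ∧
      ∀ k, (w k).asIdeal.comap (algebraMap (𝓞 K) (𝓞 L)) = v.1.asIdeal ∧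
        Ideal.absNorm (w k).asIdeal = Ideal.absNorm v.1.asIdeal := by
    rintro ⟨v, hv⟩
    obtain ⟨hpv, y, hy⟩ := hF v hv
    exact exists_split_primes hp hdeg σ ζ hζ e β hβ hσ v hpv y hy
  choose w hwinj hw using H
  let G : F × Fin p → HeightOneSpectrum (𝓞 L) := fun x => w x.1 x.2
  have hGinj : Function.Injective G := by
    rintro ⟨v, k⟩ ⟨v', k'⟩ h
    have h1 : v.1.asIdeal = v'.1.asIdeal := by
      rw [← (hw v k).1, ← (hw v' k').1]
      exact congrArg (fun u : HeightOneSpectrum (𝓞 L) =>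
        u.asIdeal.comap (algebraMap (𝓞 K) (𝓞 L))) h
    have h2 : v = v' := Subtype.ext (HeightOneSpectrum.ext h1)
    subst h2
    have h3 : k = k' := hwinj v h
    rw [h3]
  have h1 : (p : ℝ) * ∑ v ∈ F, (Ideal.absNorm v.asIdeal : ℝ) ^ (-s)
      = ∑ x : F × Fin p, (Ideal.absNorm (G x).asIdeal : ℝ) ^ (-s) := by
    rw [Fintype.sum_prod_type, ← Finset.sum_coe_sort F, Finset.mul_sum]
    refine Finset.sum_congr rfl fun v _ => ?_
    have : ∀ k : Fin p, (Ideal.absNorm (G (v, k)).asIdeal : ℝ) ^ (-s)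
        = (Ideal.absNorm v.1.asIdeal : ℝ) ^ (-s) := by
      intro k
      simp only [G]
      rw [(hw v k).2]
    rw [Finset.sum_congr rfl fun k _ => this k]
    simp
  rw [h1, ← Finset.sum_image (s := (Finset.univ : Finset (F × Fin p))) (g := G)
    (f := fun u : HeightOneSpectrum (𝓞 L) => (Ideal.absNorm u.asIdeal : ℝ) ^ (-s))
    (fun _ _ _ _ h => hGinj h)]
  exact hB _

/-- The Kummer field `K(e^(1/p))` with its integral generator and the automorphism `β ↦ ζ β`. -/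
theorem exists_kummer_data (p : ℕ) (hp : p.Prime) (K : Type) [Field K] [NumberField K]
    (ζ : 𝓞 K) (hζ : IsPrimitiveRoot ζ p) (e : (𝓞 K)ˣ)
    (he : ¬ ∃ y : 𝓞 K, (e : 𝓞 K) = y ^ p) :
    ∃ (L : Type) (_ : Field L) (_ : NumberField L) (_ : Algebra K L),
      Module.finrank K L = p ∧ ∃ (σ : L ≃ₐ[K] L) (β : 𝓞 L),
        β ^ p = algebraMap (𝓞 K) (𝓞 L) (e : 𝓞 K) ∧
        σ (β : L) = algebraMap K L (ζ : K) * (β : L) := by
  have : NeZero p := ⟨hp.ne_zero⟩
  set a : K := algebraMap (𝓞 K) K (e : 𝓞 K) with ha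
  have hirr : Irreducible (X ^ p - C a : K[X]) := by
    rw [X_pow_sub_C_irreducible_iff_of_prime hp]
    intro b hb
    have hbint : IsIntegral ℤ b := by
      refine IsIntegral.of_pow hp.pos ?_
      rw [hb]
      exact RingOfIntegers.isIntegral_coe (e : 𝓞 K)
    obtain ⟨y, hy⟩ := (IsIntegralClosure.isIntegral_iff (A := 𝓞 K)).mp hbint
    apply he
    refine ⟨y, ?_⟩
    apply RingOfIntegers.ext
    change algebraMap (𝓞 K) K (e : 𝓞 K) = algebraMap (𝓞 K) K (y ^ p)
    rw [map_pow, hy]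
    exact hb.symm
  have : Fact (Irreducible (X ^ p - C a : K[X])) := ⟨hirr⟩
  have hfin : Module.Finite K (AdjoinRoot (X ^ p - C a : K[X])) :=
    (AdjoinRoot.powerBasis hirr.ne_zero).finite
  have : NumberField (AdjoinRoot (X ^ p - C a : K[X])) := NumberField.of_module_finite K _
  have hdeg : Module.finrank K (AdjoinRoot (X ^ p - C a : K[X])) = p := by
    rw [(AdjoinRoot.powerBasis hirr.ne_zero).finrank, AdjoinRoot.powerBasis_dim,
      natDegree_X_pow_sub_C]
  have hζK : (algebraMap (𝓞 K) K ζ) ^ p = 1 := by rw [← map_pow, hζ.pow_eq_one, map_one]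
  let η : rootsOfUnity p K := rootsOfUnity.mkOfPowEq (algebraMap (𝓞 K) K ζ) hζK
  let σ := autAdjoinRootXPowSubC p a η
  have hrootint : IsIntegral ℤ (AdjoinRoot.root (X ^ p - C a : K[X])) := by
    refine IsIntegral.of_pow hp.pos ?_
    rw [root_X_pow_sub_C_pow, ← AdjoinRoot.algebraMap_eq]
    exact (RingOfIntegers.isIntegral_coe (e : 𝓞 K)).algebraMap
  obtain ⟨β, hβroot⟩ := (IsIntegralClosure.isIntegral_iff
    (A := 𝓞 (AdjoinRoot (X ^ p - C a : K[X])))).mp hrootint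
  have hβ : β ^ p = algebraMap (𝓞 K) (𝓞 (AdjoinRoot (X ^ p - C a : K[X]))) (e : 𝓞 K) := by
    apply RingOfIntegers.ext
    change algebraMap (𝓞 (AdjoinRoot (X ^ p - C a : K[X]))) (AdjoinRoot (X ^ p - C a : K[X]))
        (β ^ p) = algebraMap (𝓞 (AdjoinRoot (X ^ p - C a : K[X]))) (AdjoinRoot (X ^ p - C a : K[X]))
        (algebraMap (𝓞 K) (𝓞 (AdjoinRoot (X ^ p - C a : K[X]))) (e : 𝓞 K))
    rw [map_pow, ← IsScalarTower.algebraMap_apply (𝓞 K) (𝓞 (AdjoinRoot (X ^ p - C a : K[X])))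
      (AdjoinRoot (X ^ p - C a : K[X])),
      IsScalarTower.algebraMap_apply (𝓞 K) K (AdjoinRoot (X ^ p - C a : K[X])), hβroot,
      root_X_pow_sub_C_pow, ← AdjoinRoot.algebraMap_eq]
  have hσ : σ (β : AdjoinRoot (X ^ p - C a : K[X]))
      = algebraMap K _ (ζ : K) * (β : AdjoinRoot (X ^ p - C a : K[X])) := by
    change σ (algebraMap (𝓞 (AdjoinRoot (X ^ p - C a : K[X]))) (AdjoinRoot (X ^ p - C a : K[X])) β)
      = algebraMap K _ (ζ : K) *
        algebraMap (𝓞 (AdjoinRoot (X ^ p - C a : K[X]))) (AdjoinRoot (X ^ p - C a : K[X])) β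
    rw [hβroot, autAdjoinRootXPowSubC_root, Algebra.smul_def]
    rfl
  exact ⟨AdjoinRoot (X ^ p - C a : K[X]), inferInstance, inferInstance, inferInstance, hdeg,
    σ, β, hβ, hσ⟩

/-- **`Stmt_KummerDensityFin p`** (finite-sum form, `helper1934_ThaineSpec2`), unconditional. -/
theorem stmt_KummerDensityFin (p : ℕ) [hpF : Fact p.Prime] :
    helper1934.Stmt_KummerDensityFin p := by
  intro K _ _ ζ hζ e he
  obtain ⟨L, _, _, _, hdeg, σ, β, hβ, hσ⟩ := exists_kummer_data p hpF.out K ζ hζ e he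
  obtain ⟨B, hB⟩ := helper2850.primeSumUpper L
  exact ⟨B, fun s hs1 hs2 F hF =>
    kummerDensityFin_of_field hpF.out hdeg σ ζ hζ e β hβ hσ (hB s hs1 hs2) F hF⟩

end Fermat.Agent.S14.helper933
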